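import Mathlib
import Fermat.Agent.S18.NumFieldDVR23
import Fermat.Prelude.Def_EllipticCurve_FrobeniusTrace

/-!
# S35 lab (helper92): restriction of a Frobenius lift to a normal subfield

* `fr92_frob` : a Frobenius lift `σ` at `q` for the valuation subring `A` preserves `A` and
  satisfies `σ x ≡ x ^ q` modulo the maximal ideal of `A`;
* `fr92_frob_symm` : the same for `σ⁻¹` in the form `(σ⁻¹ x) ^ q ≡ x`;
* `fr92_restrict` : for a normal intermediate field `L` of `ℚ̄ / ℚ` the restriction of `σ` to `L`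
  preserves `A ∩ L` and is `r ↦ r ^ q` modulo its maximal ideal.
-/

set_option autoImplicit false

namespace Fermat.Agent.S35

open Fermat.Agent.S18

local notation "Q̄" => AlgebraicClosure ℚ

section Frob

variable {L : Type*} [Field L] (K : Type*) [Field K] [Algebra K L] (A : ValuationSubring L)

/-- A Frobenius lift at `q` preserves the valuation ring and is `x ↦ x ^ q` modulo its maximal
ideal. -/
theorem fr92_frob {σ : L ≃ₐ[K] L} {q : ℕ} (hσ : A.IsFrobeniusAt σ q) (x : L) (hx : x ∈ A) :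
    σ x ∈ A ∧ σ x - x ^ q ∈ A.nonunits := by
  obtain ⟨hd, hfrob⟩ := hσ
  have hmem : σ x ∈ A :=
    (A.subMulAction K).smul_mem (⟨σ, hd⟩ : A.decompositionSubgroup K) (x := x) hx
  refine ⟨hmem, ?_⟩
  have h2 := hfrob (IsLocalRing.residue A ⟨x, hx⟩)
  rw [← IsLocalRing.ResidueField.residue_smul, ← map_pow] at h2
  have h3 : IsLocalRing.residue A
      ((⟨σ, hd⟩ : A.decompositionSubgroup K) • (⟨x, hx⟩ : A) - (⟨x, hx⟩ : A) ^ q) = 0 := by
    rw [map_sub, h2, sub_self]
  rw [IsLocalRing.residue_eq_zero_iff] at h3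
  exact ValuationSubring.coe_mem_nonunits_iff.mpr h3

end Frob

section Restrict

variable (L : IntermediateField ℚ Q̄) [Normal ℚ L] (A : ValuationSubring Q̄)

/-- The restriction to a normal intermediate field `L` of a Frobenius lift at `q` of `A` preserves
the ring `A ∩ L` and is `r ↦ r ^ q` modulo its maximal ideal. -/
theorem fr92_restrict {σ : Q̄ ≃ₐ[ℚ] Q̄} {q : ℕ} (hσ : A.IsFrobeniusAt σ q)
    (r : ↥(A.comap (algebraMap ↥L Q̄))) :
    ∃ r' : ↥(A.comap (algebraMap ↥L Q̄)),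
      (σ.restrictNormal L).toRingEquiv (algebraMap ↥(A.comap (algebraMap ↥L Q̄)) ↥L r) =
        algebraMap ↥(A.comap (algebraMap ↥L Q̄)) ↥L r' ∧
      r' - r ^ q ∈ IsLocalRing.maximalIdeal ↥(A.comap (algebraMap ↥L Q̄)) := by
  have hcomm : algebraMap ↥L Q̄ (σ.restrictNormal L (r : ↥L)) = σ (algebraMap ↥L Q̄ (r : ↥L)) :=
    AlgEquiv.restrictNormal_commutes σ L (r : ↥L)
  have hr : algebraMap ↥L Q̄ (r : ↥L) ∈ A := r.2
  obtain ⟨h1, h2⟩ := fr92_frob ℚ A hσ _ hr
  have hmem : σ.restrictNormal L (r : ↥L) ∈ A.comap (algebraMap ↥L Q̄) := by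
    rw [ValuationSubring.mem_comap, hcomm]
    exact h1
  refine ⟨⟨_, hmem⟩, rfl, ?_⟩
  rw [← ValuationSubring.coe_mem_nonunits_iff, nf23_mem_nonunits_comap]
  have h3 : algebraMap ↥L Q̄
      ((((⟨_, hmem⟩ : ↥(A.comap (algebraMap ↥L Q̄))) - r ^ q :
        ↥(A.comap (algebraMap ↥L Q̄))) : ↥L)) =
      σ (algebraMap ↥L Q̄ (r : ↥L)) - (algebraMap ↥L Q̄ (r : ↥L)) ^ q := by
    rw [← hcomm, ← map_pow, ← map_sub]
    rfl
  rw [h3]
  exact h2

end Restrict

end Fermat.Agent.S35
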