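import Mathlib
import Fermat.Agent.S34.Iface47c
import Fermat.Agent.S30.Iface37
import Fermat.Prelude.Def_CuspForm_Newforms
import Fermat.Prelude.Def_CuspForm_HeckeGaloisRepDatum
import Fermat.Prelude.Def_ModularCurve_HeckeOperator
import Fermat.Prelude.Def_EllipticCurve_FrobeniusTrace

/-!
# S35 lab: the interface, v1 (helper62, architect)

Row S35 = S30 + ONE extra clause: for `q ∥ M`, `q ≠ lam` and every Frobenius lift `σ` at `q`,
`charpoly ρ(σ) = X² ∓ (q+1) X + q`.  Proof text: report #2519 (+ #2543, #2546, #2550).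

## The chain (every arrow is one package = one closed `Prop` below)

```
 Core35 (number field, Frobenial σ)        [s35i62_Pkg_Core: chains A / B / C, sub-interfaces]
   ⟹ FFA  (function field over ℚ̄)          [s35i62_Pkg_FieldDef]
   ⟹ FFA at level M' q from level lcm(M',p₀) q   [s35i62_Pkg_Level]
   ⟹ AStar (classes of J₀(M' q)[p^n], q-new) [s35i62_Pkg_Pic]
   ⟹ AStarAt (cast-free form at level N)    [s35i62_AStarAt_of, proved here]
 NewClaim (Θ-family + primitive χ-eigenvector x0 in O ⊗ K, Θ n k q-new for k ∈ K) [s35i62_Pkg_New]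
 ETClaim35 = S30's eigen-Tate module + (M8): Galois relations on Θ n K pass to a nonzero
   vector of the module                                                    [s35i62_Pkg_ET]
 ENDGAME (helper37): s30i37_Core + ETClaim35 + NewClaim + AStarAt ⟹ frozen S35.
```

The ONE geometric target (weakest the endgame needs), for `x ∈ J₀(M' q)[p^n]` with
`α_* x = 0 = β_* x` and `σ` a Frobenius lift at `q`:
`(σ² − q²)(1 − σ²)² x = 0`, i.e. `σ⁶x + (2q²+1) σ²x = (q²+2) σ⁴x + q² x`.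
Kummer form: `s35i62_op q ŝ f = ŝ⁶f · (ŝ²f)^(2q²+1) / ((ŝ⁴f)^(q²+2) · f^(q²))` is an `m`-th power.

Shared frame additions (all chains): `s35i62_FrameFrob` (Frobenius-lift frame, (1a)),
`s35i62_NormProps` (norm formula, (1b)).
All names are prefixed `s35i62_`.
-/

set_option autoImplicit false
set_option linter.style.longLine false
set_option linter.unusedVariables false
set_option linter.unusedSectionVars false

open ModularCurve AlgebraicCurve CongruenceSubgroup ModularCurve.Period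
open scoped TensorProduct

namespace Fermat.Agent.S35

open Fermat.Agent.S18 Fermat.Agent.S34 Fermat.Agent.S30 Fermat.Agent.S16

local notation "Q̄" => AlgebraicClosure ℚ
local notation "GQ" => AlgebraicClosure ℚ ≃ₐ[ℚ] AlgebraicClosure ℚ

/-! ## 0. Definitions -/

/-- The Kummer operator of `P(s) = (s² − q²)(1 − s²)² = s⁶ − (q²+2) s⁴ + (2q²+1) s² − q²`. -/
def s35i62_op {F : Type*} [Field F] (q : ℕ) (s : F ≃+* F) (f : F) : F :=
  s (s (s (s (s (s f))))) * s (s f) ^ (2 * q ^ 2 + 1) /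
    (s (s (s (s f))) ^ (q ^ 2 + 2) * f ^ (q ^ 2))

/-- The norm of `F_ℚ̄(M' q)` over `α(F_ℚ̄(M'))`. -/
noncomputable def s35i62_normABar (M' q : ℕ) [NeZero M'] [NeZero q] :
    ↥(modularFunctionFieldBar (M' * q)) →* ↥(modularFunctionFieldBar M') :=
  letI := algebraAlong (heckeAlphaBar Q̄ M' q)
  Algebra.norm ↥(modularFunctionFieldBar M')

/-- The norm of `F_ℚ̄(M' q)` over `β(F_ℚ̄(M'))`. -/
noncomputable def s35i62_normBBar (M' q : ℕ) [NeZero M'] [NeZero q] :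
    ↥(modularFunctionFieldBar (M' * q)) →* ↥(modularFunctionFieldBar M') :=
  letI := algebraAlong (heckeBetaBar Q̄ M' q)
  Algebra.norm ↥(modularFunctionFieldBar M')

/-- The norm of `F_K(M' q)` over `α(F_K(M'))`. -/
noncomputable def s35i62_normA (K : Type) [Field K] (M' q : ℕ) [NeZero M'] [NeZero q] :
    ↥(modularFunctionFieldFullC K (M' * q)) →* ↥(modularFunctionFieldFullC K M') :=
  letI := algebraAlong (al97L_alpha K M' q)
  Algebra.norm ↥(modularFunctionFieldFullC K M')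

/-- The norm of `F_K(M' q)` over `β(F_K(M'))`. -/
noncomputable def s35i62_normB (K : Type) [Field K] (M' q : ℕ) [NeZero M'] [NeZero q] :
    ↥(modularFunctionFieldFullC K (M' * q)) →* ↥(modularFunctionFieldFullC K M') :=
  letI := algebraAlong (al97L_beta K M' q)
  Algebra.norm ↥(modularFunctionFieldFullC K M')

/-- `x ∈ J₀(M' q)` is `q`-NEW: it is the class of a degree-zero divisor whose push-forwards along
the two degeneracy maps `α, β : X₀(M' q) → X₀(M')` are principal (`α_* x = 0 = β_* x`). -/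
def s35i62_IsNew (M' q : ℕ) [NeZero M'] [NeZero q] (x : JZero (M' * q)) : Prop :=
  ∃ (hα : HeckeAlphaBarIntegral Q̄ M' q) (hβ : HeckeBetaBarIntegral Q̄ M' q)
    (D : ↥(Divisor.degZero (K := Q̄) (F := ↥(modularFunctionFieldBar (M' * q))))),
    x = Pic0.mk D ∧
    (Divisor.pushforwardAlong (heckeAlphaBar Q̄ M' q) hα
      (D : Divisor Q̄ ↥(modularFunctionFieldBar (M' * q)))).IsPrincipal ∧
    (Divisor.pushforwardAlong (heckeBetaBar Q̄ M' q) hβ
      (D : Divisor Q̄ ↥(modularFunctionFieldBar (M' * q)))).IsPrincipal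

/-- Cast-free form at an arbitrary level `N`: `x ∈ J₀(N)` is `q`-new for every way of writing
`N = M' * q` (provers: `subst`). -/
def s35i62_IsNewAt (N q : ℕ) (x : JZero N) : Prop :=
  ∀ (M' : ℕ) [NeZero M'] [NeZero q] (h : N = M' * q), s35i62_IsNew M' q (h ▸ x)

/-- `σ` is *Frobenial* for the discrete valuation ring `R ⊆ K` of residue characteristic `q`:
it preserves `R` and induces `r ↦ r ^ q` on the residue field. -/
def s35i62_Frobenial (R : Type*) {K : Type*} [CommRing R] [IsLocalRing R] [Field K] [Algebra R K]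
    (q : ℕ) (σ : K ≃+* K) : Prop :=
  ∀ r : R, ∃ r' : R, σ (algebraMap R K r) = algebraMap R K r' ∧
    r' - r ^ q ∈ IsLocalRing.maximalIdeal R

/-! ## 1. The geometric target in its three forms -/

/-- **(A\*)**, class form: `(σ² − q²)(1 − σ²)² x = 0` for `q`-new `x ∈ J₀(M' q)[p^n]` and every
Frobenius lift `σ` at `q`. -/
def s35i62_AStar (M' q p : ℕ) [NeZero M'] [NeZero q] : Prop :=
  ∀ (n : ℕ) (A : ValuationSubring Q̄), A.LiesOverPrime q → ∀ σ : GQ, A.IsFrobeniusAt σ q →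
    ∀ x : JZero (M' * q), (p ^ n) • x = 0 → s35i62_IsNew M' q x →
      (σ ^ 6) • x + (2 * q ^ 2 + 1) • (σ ^ 2) • x = (q ^ 2 + 2) • (σ ^ 4) • x + (q ^ 2) • x

/-- **(A\*)** at a level `N` (cast-free; what the endgame consumes). -/
def s35i62_AStarAt (N q p : ℕ) : Prop :=
  ∀ (n : ℕ) (A : ValuationSubring Q̄), A.LiesOverPrime q → ∀ σ : GQ, A.IsFrobeniusAt σ q →
    ∀ x : JZero N, (p ^ n) • x = 0 → s35i62_IsNewAt N q x →
      (σ ^ 6) • x + (2 * q ^ 2 + 1) • (σ ^ 2) • x = (q ^ 2 + 2) • (σ ^ 4) • x + (q ^ 2) • x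

/-- **FFA**: the function-field form of (A\*) over `ℚ̄` at level `M' q` and exponent `m`. -/
def s35i62_FFA (M' q m : ℕ) [NeZero M'] [NeZero q] : Prop :=
  ∀ A : ValuationSubring Q̄, A.LiesOverPrime q → ∀ σ : GQ, A.IsFrobeniusAt σ q →
    ∀ f : ↥(modularFunctionFieldBar (M' * q)), f ≠ 0 →
      (∀ v : Place Q̄ ↥(modularFunctionFieldBar (M' * q)), (m : ℤ) ∣ v.ord f) →
      (∃ a : ↥(modularFunctionFieldBar M'), s35i62_normABar M' q f = a ^ m) →
      (∃ b : ↥(modularFunctionFieldBar M'), s35i62_normBBar M' q f = b ^ m) →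
      ∃ g : ↥(modularFunctionFieldBar (M' * q)),
        g ^ m = s35i62_op q (arithmeticRingAut (modularFunctionFieldFull (M' * q)) σ) f

/-- **CORE35** at level `M' q`, exponent `m`: over a number field `K` containing `ζ_q`, with a
discrete valuation ring `R` of residue characteristic `q` and a Frobenial automorphism `σ`:
if all orders of `f` are divisible by `m`, `N_α f = ca · a^m`, `N_β f = cb · b^m`, and all zeros
and poles of `f`, `α a`, `β a`, `α b`, `β b` are `K`-rational, then `op(f)` is a constant times an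
`m`-th power. -/
def s35i62_Core (M' q m : ℕ) [NeZero M'] [NeZero q] : Prop :=
  ∀ (R K : Type) [CommRing R] [IsDomain R] [IsDiscreteValuationRing R] [Field K] [NumberField K]
    [Algebra K Q̄] [Algebra R K] [IsFractionRing R K]
    [Algebra R ↥(modularFunctionFieldFullC K (M' * q))]
    [IsScalarTower R K ↥(modularFunctionFieldFullC K (M' * q))] (π : R), Irreducible π →
    (∀ n : ℕ, Nat.Coprime n q → IsUnit (n : R)) → ¬ IsUnit (q : R) →
    (∃ ζ : K, IsPrimitiveRoot ζ q) →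
    ∀ σ : K ≃+* K, s35i62_Frobenial R q σ →
    ∀ (f : ↥(modularFunctionFieldFullC K (M' * q))) (a b : ↥(modularFunctionFieldFullC K M'))
      (ca cb : K), f ≠ 0 → a ≠ 0 → b ≠ 0 → ca ≠ 0 → cb ≠ 0 →
      (∀ P : Place K ↥(modularFunctionFieldFullC K (M' * q)), (m : ℤ) ∣ P.ord f) →
      s35i62_normA K M' q f = algebraMap K ↥(modularFunctionFieldFullC K M') ca * a ^ m →
      s35i62_normB K M' q f = algebraMap K ↥(modularFunctionFieldFullC K M') cb * b ^ m →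
      (∀ y : ↥(modularFunctionFieldFullC K (M' * q)),
        (y = f ∨ y = al97L_alpha K M' q a ∨ y = al97L_beta K M' q a ∨
          y = al97L_alpha K M' q b ∨ y = al97L_beta K M' q b) →
        ∀ P : Place K ↥(modularFunctionFieldFullC K (M' * q)),
          (y ∈ P.toValuationSubring ∧ y⁻¹ ∈ P.toValuationSubring) ∨
            s34i47_IsRat K P.toValuationSubring) →
      ∃ (f₀ : ↥(modularFunctionFieldFullC K (M' * q))) (c : K), f₀ ≠ 0 ∧ c ≠ 0 ∧
        f₀ ^ m * s35i62_op q (s34i47_coeffEquiv σ (M' * q)) f =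
          algebraMap K ↥(modularFunctionFieldFullC K (M' * q)) c

/-! ## 2. Shared frame additions (canonical data of `Iface47c`) -/

/-- **FRAME-FROB** ((1a) of #2519): the coefficientwise action `ŝ` of a Frobenial `σ` on the
canonical frame.  (F0) `ŝ` preserves the Gauss rings `V_∞` (level `M' q`) and `V'` (level `M'`);
(F1) `ŝ` commutes with `w`; (F2) with `α`, `β`; (F3) Kronecker's congruence with the explicit
twist: `β(ŝ y) ≡ (α y)^q mod π V_∞` for `y ∈ V'`; (F4) `ŝ` fixes the Hauptmoduln.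
NOT assumed: `ŝ x ≡ x mod π` (that is FrameGal for inertial automorphisms). -/
def s35i62_FrameFrob (M' q : ℕ) [NeZero M'] [NeZero q] (hq : q.Prime) (hM' : ¬ q ∣ M') : Prop :=
  ∀ (R K : Type) [CommRing R] [IsDomain R] [IsDiscreteValuationRing R] [Field K] [NumberField K]
    [Algebra K Q̄] [Algebra R K] [IsFractionRing R K]
    [Algebra R ↥(modularFunctionFieldFullC K (M' * q))]
    [IsScalarTower R K ↥(modularFunctionFieldFullC K (M' * q))] (π : R) (hπ : Irreducible π),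
    (∀ n : ℕ, Nat.Coprime n q → IsUnit (n : R)) → ¬ IsUnit (q : R) →
    ∀ σ : K ≃+* K, s35i62_Frobenial R q σ →
      (∀ x : ↥(modularFunctionFieldFullC K (M' * q)),
        x ∈ cm85_Vinf (K := K) (M' * q) hπ ↔
          s34i47_coeffEquiv σ (M' * q) x ∈ cm85_Vinf (K := K) (M' * q) hπ) ∧
      (∀ y : ↥(modularFunctionFieldFullC K M'),
        y ∈ cm85_Vinf (K := K) M' hπ ↔ s34i47_coeffEquiv σ M' y ∈ cm85_Vinf (K := K) M' hπ) ∧
      (∀ x : ↥(modularFunctionFieldFullC K (M' * q)),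
        s34i47_coeffEquiv σ (M' * q) (al97L_w (algebraMap K Q̄) M' q hq hM' x) =
          al97L_w (algebraMap K Q̄) M' q hq hM' (s34i47_coeffEquiv σ (M' * q) x)) ∧
      (∀ y : ↥(modularFunctionFieldFullC K M'),
        s34i47_coeffEquiv σ (M' * q) (al97L_alpha K M' q y) =
          al97L_alpha K M' q (s34i47_coeffEquiv σ M' y)) ∧
      (∀ y : ↥(modularFunctionFieldFullC K M'),
        s34i47_coeffEquiv σ (M' * q) (al97L_beta K M' q y) =
          al97L_beta K M' q (s34i47_coeffEquiv σ M' y)) ∧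
      (∀ y : ↥(modularFunctionFieldFullC K M'), y ∈ cm85_Vinf (K := K) M' hπ →
        (algebraMap K ↥(modularFunctionFieldFullC K (M' * q)) (algebraMap R K π))⁻¹ *
            (al97L_beta K M' q (s34i47_coeffEquiv σ M' y) - (al97L_alpha K M' q y) ^ q) ∈
          cm85_Vinf (K := K) (M' * q) hπ) ∧
      (∀ h : ↥(modularFunctionFieldFullC K (M' * q)), s34i47c_IsHaupt K (M' * q) q h →
        s34i47_coeffEquiv σ (M' * q) h = h)

/-- **NORM** ((1b) of #2519, in the unbalanced form of #2543/#2554).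
(N1) `N_β y = N_α (w y)`; (N2) the norm commutes with coefficientwise automorphisms;
(N3) the norm congruence: if `w y = π^k · (unit of V_∞)` then
`α(N_α y) = y · ŝ(w y) · (π^q / σ π)^k · (1 + π V_∞)`.
For `y, w y ∈ V_∞ˣ` (`k = 0`): `α(N_α y) ≡ y · ŝ(w y) mod π V_∞`, i.e.
`red'(N_α y) = red_∞(y) · s̄(red_0 y)`. -/
def s35i62_NormProps (M' q : ℕ) [NeZero M'] [NeZero q] (hq : q.Prime) (hM' : ¬ q ∣ M') : Prop :=
  ∀ (R K : Type) [CommRing R] [IsDomain R] [IsDiscreteValuationRing R] [Field K] [NumberField K]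
    [Algebra K Q̄] [Algebra R K] [IsFractionRing R K]
    [Algebra R ↥(modularFunctionFieldFullC K (M' * q))]
    [IsScalarTower R K ↥(modularFunctionFieldFullC K (M' * q))] (π : R) (hπ : Irreducible π),
    (∀ n : ℕ, Nat.Coprime n q → IsUnit (n : R)) → ¬ IsUnit (q : R) →
    (∃ ζ : K, IsPrimitiveRoot ζ q) →
      (∀ y : ↥(modularFunctionFieldFullC K (M' * q)),
        s35i62_normB K M' q y = s35i62_normA K M' q (al97L_w (algebraMap K Q̄) M' q hq hM' y)) ∧
      (∀ (τ : K ≃+* K) (y : ↥(modularFunctionFieldFullC K (M' * q))),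
        s35i62_normA K M' q (s34i47_coeffEquiv τ (M' * q) y) =
          s34i47_coeffEquiv τ M' (s35i62_normA K M' q y)) ∧
      ∀ σ : K ≃+* K, s35i62_Frobenial R q σ →
        ∀ (y : ↥(modularFunctionFieldFullC K (M' * q))) (k : ℤ), y ≠ 0 →
          (algebraMap K ↥(modularFunctionFieldFullC K (M' * q)) (algebraMap R K π)) ^ (-k) *
              al97L_w (algebraMap K Q̄) M' q hq hM' y ∈ cm85_Vinf (K := K) (M' * q) hπ →
          ((algebraMap K ↥(modularFunctionFieldFullC K (M' * q)) (algebraMap R K π)) ^ (-k) *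
              al97L_w (algebraMap K Q̄) M' q hq hM' y)⁻¹ ∈ cm85_Vinf (K := K) (M' * q) hπ →
          (algebraMap K ↥(modularFunctionFieldFullC K (M' * q)) (algebraMap R K π))⁻¹ *
              (al97L_alpha K M' q (s35i62_normA K M' q y) /
                  (y * s34i47_coeffEquiv σ (M' * q) (al97L_w (algebraMap K Q̄) M' q hq hM' y)) *
                (algebraMap K ↥(modularFunctionFieldFullC K (M' * q))
                    (σ (algebraMap R K π) / algebraMap R K π ^ q)) ^ k - 1) ∈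
            cm85_Vinf (K := K) (M' * q) hπ

/-! ## 3. The eigen-Tate module with the transfer clause (M8) -/

/-- **Conclusion of row (ET35)**: `s30i37_ET` + (M8).  (M8): if `x0` lies in the `O`-span of
`1 ⊗ K` for a subgroup `K` of the lattice, then every integral relation
`c₀ + c₁ σ² + c₂ σ⁴ + c₃ σ⁶ = 0` valid on all `Θ n k` (`k ∈ K`) holds on some NONZERO vector of
the module (namely on `(1 ⊗ Θ n) x0`). -/
def s35i62_ET (p : ℕ) [Fact p.Prime] (N : ℕ) [NeZero N] (S : Finset ℕ)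
    (O : Type) [CommRing O] [IsDomain O] [IsDiscreteValuationRing O]
    [IsAdicComplete (IsLocalRing.maximalIdeal O) O]
    (hp : (p : O) ∈ IsLocalRing.maximalIdeal O) (a : ℕ → O)
    (x0 : O ⊗[ℤ] ↥(parabolicHoms ℤ (Gamma0 N) ℤ))
    (Θ : ℕ → (↥(parabolicHoms ℤ (Gamma0 N) ℤ) →+ JZero N)) : Prop :=
  ∃ (M : Type) (_ : AddCommGroup M) (_ : Module O M) (ρ : GQ →* Module.End O M),
    (∀ (b : O) (w : M), b • w = 0 → b = 0 ∨ w = 0) ∧
    (∀ w : M, (∀ n : ℕ, w ∈ (IsLocalRing.maximalIdeal O ^ n) • (⊤ : Submodule O M)) → w = 0) ∧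
    (∃ w : M, w ≠ 0) ∧
    (∀ (g : GQ) (w : M) (n : ℕ), ∃ b : O,
      ρ g w + ((ca15_eps p (IsLocalRing.maximalIdeal O) hp g : Oˣ) : O) • ρ g⁻¹ w - b • w ∈
        (IsLocalRing.maximalIdeal O ^ n) • (⊤ : Submodule O M)) ∧
    (∀ q : ℕ, q.Prime → ¬ q ∣ N → q ≠ p →
      ∀ P : ValuationSubring Q̄, P.LiesOverPrime q →
        ∀ σ ∈ P.inertiaSubgroupIn ℚ, ρ σ = 1) ∧
    (∀ (w : M) (n : ℕ), ∃ E : IntermediateField ℚ Q̄, FiniteDimensional ℚ E ∧
      ∀ σ : GQ, (∀ x ∈ E, σ x = x) →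
        ρ σ w - w ∈ (IsLocalRing.maximalIdeal O ^ n) • (⊤ : Submodule O M)) ∧
    (∀ ℓ : ℕ, ℓ.Prime → ¬ ℓ ∣ N → ℓ ∉ S →
      ∀ A : ValuationSubring Q̄, A.LiesOverPrime ℓ →
        ∀ τ : GQ, A.IsFrobeniusAt τ ℓ →
          ∀ w : M, ρ τ (ρ τ w) - a ℓ • ρ τ w + (ℓ : O) • w = 0) ∧
    -- (M8)
    (∀ K : AddSubgroup ↥(parabolicHoms ℤ (Gamma0 N) ℤ),
      x0 ∈ Submodule.span O ((fun k : ↥(parabolicHoms ℤ (Gamma0 N) ℤ) => (1 : O) ⊗ₜ[ℤ] k) ''
        (K : Set ↥(parabolicHoms ℤ (Gamma0 N) ℤ))) →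
      ∀ (σ : GQ) (c₀ c₁ c₂ c₃ : ℤ),
        (∀ (n : ℕ) (k : ↥(parabolicHoms ℤ (Gamma0 N) ℤ)), k ∈ K →
          c₀ • Θ n k + c₁ • (σ ^ 2) • Θ n k + c₂ • (σ ^ 4) • Θ n k + c₃ • (σ ^ 6) • Θ n k = 0) →
        ∃ w : M, w ≠ 0 ∧
          (c₀ : O) • w + (c₁ : O) • ρ (σ ^ 2) w + (c₂ : O) • ρ (σ ^ 4) w +
            (c₃ : O) • ρ (σ ^ 6) w = 0)

/-- **Row (ET35)** with its hypotheses (those of `s30i37_ETClaim`, verbatim). -/
def s35i62_ETClaim (p : ℕ) [Fact p.Prime] (N : ℕ) [NeZero N] (S : Finset ℕ)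
    (O : Type) [CommRing O] [IsDomain O] [IsDiscreteValuationRing O]
    [IsAdicComplete (IsLocalRing.maximalIdeal O) O]
    (hp : (p : O) ∈ IsLocalRing.maximalIdeal O) : Prop :=
  p ∈ S → (∀ q : ℕ, q.Prime → q ∣ N → q ∈ S) →
  ∀ (a : ℕ → O) (TL : ℕ → Module.End ℤ ↥(parabolicHoms ℤ (Gamma0 N) ℤ))
    (x0 : O ⊗[ℤ] ↥(parabolicHoms ℤ (Gamma0 N) ℤ))
    (Θ : ℕ → (↥(parabolicHoms ℤ (Gamma0 N) ℤ) →+ JZero N)),
    (∀ ℓ : ℕ, ℓ.Prime → ℓ ∉ S → ∀ x : ↥(parabolicHoms ℤ (Gamma0 N) ℤ),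
      ((TL ℓ x : ↥(parabolicHoms ℤ (Gamma0 N) ℤ)) : Additive ↥(Gamma0 N) →+ ℤ) =
        heckeHom N ℓ ℤ (x : Additive ↥(Gamma0 N) →+ ℤ)) →
    x0 ∉ IsLocalRing.maximalIdeal O •
      (⊤ : Submodule O (O ⊗[ℤ] ↥(parabolicHoms ℤ (Gamma0 N) ℤ))) →
    (∀ ℓ : ℕ, ℓ.Prime → ℓ ∉ S → (TL ℓ).baseChange O x0 = a ℓ • x0) →
    s30i37_ThetaFamily N p Θ →
    s35i62_ET p N S O hp a x0 Θ

/-! ## 4. Newness ((2a) + (2b) of #2519) -/

/-- **NEW**: the THETA-Z family, the Hecke lattice (E4), and a primitive `χ`-eigenvector `x0`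
lying in `O' ⊗ K` for a subgroup `K` of the lattice all of whose Kummer images `Θ n k` are
`q`-new for every `q ∥ M`, `q ≠ lam`.  (`K` = the lattice of `c` with `cores_α c = 0 = cores_β c`
for all such `q`; the sub-interface of the newness team fixes `cores`.) -/
def s35i62_NewClaim (M : ℕ) [NeZero M] (lam : ℕ) (S : Finset ℕ)
    (O' : Type) [CommRing O'] [IsDomain O'] [IsDiscreteValuationRing O']
    (χ : CuspForm.heckeAlgebra M 2 (↑S : Set ℕ) →+* O') : Prop :=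
  ∃ Θ : ℕ → (↥(parabolicHoms ℤ (Gamma0 M) ℤ) →+ JZero M), s30i37_ThetaFamily M lam Θ ∧
    ∃ Φ : CuspForm.heckeAlgebra M 2 (↑S : Set ℕ) →+*
        Module.End ℤ ↥(parabolicHoms ℤ (Gamma0 M) ℤ),
      (∀ (ℓ : ℕ) (hℓ : ℓ.Prime) (hℓN : ¬ ℓ ∣ M) (hℓS : ℓ ∉ (↑S : Set ℕ))
          (x : ↥(parabolicHoms ℤ (Gamma0 M) ℤ)),
        ((Φ (CuspForm.heckeAlgebra.T hℓ hℓN hℓS) x : ↥(parabolicHoms ℤ (Gamma0 M) ℤ)) :
          Additive ↥(Gamma0 M) →+ ℤ) = heckeHom M ℓ ℤ (x : Additive ↥(Gamma0 M) →+ ℤ)) ∧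
      ∃ (x0 : O' ⊗[ℤ] ↥(parabolicHoms ℤ (Gamma0 M) ℤ))
        (K : AddSubgroup ↥(parabolicHoms ℤ (Gamma0 M) ℤ)),
        x0 ∉ IsLocalRing.maximalIdeal O' •
          (⊤ : Submodule O' (O' ⊗[ℤ] ↥(parabolicHoms ℤ (Gamma0 M) ℤ))) ∧
        (∀ t : CuspForm.heckeAlgebra M 2 (↑S : Set ℕ), (Φ t).baseChange O' x0 = χ t • x0) ∧
        x0 ∈ Submodule.span O' ((fun k : ↥(parabolicHoms ℤ (Gamma0 M) ℤ) => (1 : O') ⊗ₜ[ℤ] k) ''
          (K : Set ↥(parabolicHoms ℤ (Gamma0 M) ℤ))) ∧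
        ∀ k ∈ K, ∀ (n q : ℕ), q.Prime → q ≠ lam → q ∣ M → ¬ q ^ 2 ∣ M →
          s35i62_IsNewAt M q (Θ n k)

/-! ## 5. The package theorems (each package proves exactly one of these `Prop`s) -/

/-- **P-CORE** (chains A, B, C — any ONE suffices): CORE35 at level `M' q` with `p₀ ∣ M'`. -/
def s35i62_Pkg_Core : Prop :=
  ∀ (M' q m p₀ : ℕ) [NeZero M'] [NeZero q], q.Prime → ¬ q ∣ M' → (p₀ = 2 ∨ p₀ = 3) → p₀ ≠ q →
    p₀ ∣ M' → 0 < m → Nat.Coprime m q → s35i62_Core M' q m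

/-- **P-FROB** (shared frame, (1a)). -/
def s35i62_Pkg_FrameFrob : Prop :=
  ∀ (M' q : ℕ) [NeZero M'] [NeZero q] (hq : q.Prime) (hM' : ¬ q ∣ M'), s35i62_FrameFrob M' q hq hM'

/-- **P-NORM** (shared frame, (1b)). -/
def s35i62_Pkg_Norm : Prop :=
  ∀ (M' q : ℕ) [NeZero M'] [NeZero q] (hq : q.Prime) (hM' : ¬ q ∣ M'), s35i62_NormProps M' q hq hM'

/-- **P-FD** (field of definition, as `FieldDef45`): CORE35 ⟹ FFA at the same level. -/
def s35i62_Pkg_FieldDef : Prop :=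
  ∀ (M' q m : ℕ) [NeZero M'] [NeZero q], q.Prime → ¬ q ∣ M' → 0 < m → Nat.Coprime m q →
    s35i62_Core M' q m → s35i62_FFA M' q m

/-- **P-LEVEL** (level change `M' ↝ lcm(M', p₀)`, as `LevelChange52`; new input: the norm
commutes with the base change `F(M' q) ⊆ F(M'' q)`, `N_{α''} f = N_α f` for `f ∈ F(M' q)`). -/
def s35i62_Pkg_Level : Prop :=
  ∀ (M' q p : ℕ) [NeZero M'] [NeZero q], q.Prime → ¬ q ∣ M' → p.Prime → p ≠ q →
    (∀ (p₀ M'' : ℕ) [NeZero M''], (p₀ = 2 ∨ p₀ = 3) → p₀ ≠ q → M'' = Nat.lcm M' p₀ →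
      ∀ n : ℕ, s35i62_FFA M'' q (p ^ n)) →
    ∀ n : ℕ, s35i62_FFA M' q (p ^ n)

/-- **P-PIC** (divisor classes, as `StarU36`): FFA for all `p ^ n` ⟹ (A\*). -/
def s35i62_Pkg_Pic : Prop :=
  ∀ (M' q p : ℕ) [NeZero M'] [NeZero q], q.Prime → ¬ q ∣ M' → p.Prime → p ≠ q →
    (∀ n : ℕ, s35i62_FFA M' q (p ^ n)) → s35i62_AStar M' q p

/-- **P-ET** (eigen-Tate module with (M8); the S30 row (ET) with one more clause). -/
def s35i62_Pkg_ET : Prop :=
  ∀ (p : ℕ) [Fact p.Prime] (N : ℕ) [NeZero N] (S : Finset ℕ)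
    (O : Type) [CommRing O] [IsDomain O] [IsDiscreteValuationRing O]
    [IsAdicComplete (IsLocalRing.maximalIdeal O) O]
    (hp : (p : O) ∈ IsLocalRing.maximalIdeal O), s35i62_ETClaim p N S O hp

/-- **P-NEW** (newness, for the data of the frozen statement S35). -/
def s35i62_Pkg_New : Prop :=
  ∀ (M : ℕ) [NeZero M] (g : CuspForm (Gamma0 M) 2), g.IsNewform →
    ∀ (lam : ℕ) [Fact lam.Prime] (S : Finset ℕ)
      (O' : Type) [CommRing O'] [IsDomain O'] [IsDiscreteValuationRing O']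
      [IsAdicComplete (IsLocalRing.maximalIdeal O') O'] [Finite (IsLocalRing.ResidueField O')]
      [CharZero O'], (lam : O') ∈ IsLocalRing.maximalIdeal O' →
      ∀ (chig : CuspForm.heckeAlgebra M 2 (↑S : Set ℕ) →+* ℂ),
        (∀ (ℓ : ℕ) (hℓ : ℓ.Prime) (hℓM : ¬ ℓ ∣ M) (hℓS : ℓ ∉ (↑S : Set ℕ)),
          chig (CuspForm.heckeAlgebra.T hℓ hℓM hℓS) = ModularFormClass.qCoeff g ℓ) →
        ∀ iota : chig.range →+* O', lam ∈ S → (∀ q : ℕ, q.Prime → q ∣ M → q ∈ S) →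
          s35i62_NewClaim M lam S O' (iota.comp chig.rangeRestrict)

/-! ## 6. Assembly of the geometric side (modus ponens) -/

/-- (A\*) at level `N` from (A\*) at the levels `M' q`. -/
theorem s35i62_AStarAt_of (N q p : ℕ) (hq : q.Prime) (hqN : q ∣ N) (hq2 : ¬ q ^ 2 ∣ N)
    (h : ∀ (M' : ℕ) [NeZero M'] [NeZero q], ¬ q ∣ M' → s35i62_AStar M' q p) :
    s35i62_AStarAt N q p := by
  obtain ⟨M', rfl⟩ := hqN
  have hM'0 : M' ≠ 0 := by
    rintro rfl
    exact hq2 (by simp)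
  have hqM' : ¬ q ∣ M' := by
    rintro ⟨c, rfl⟩
    exact hq2 ⟨c, by ring⟩
  have : NeZero M' := ⟨hM'0⟩
  have : NeZero q := ⟨hq.ne_zero⟩
  intro n A hA σ hσ x hx hnew
  have hN : q * M' = M' * q := Nat.mul_comm q M'
  revert x
  rw [hN]
  intro x hx hnew
  exact h M' hqM' n A hA σ hσ x hx (hnew M' rfl)

/-- **ASSEMBLY (geometric side)**: P-CORE + P-FD + P-LEVEL + P-PIC ⟹ (A\*) at every level `N`
with `q ∥ N`, for every prime `p ≠ q`. -/
theorem s35i62_assembly (hCore : s35i62_Pkg_Core) (hFD : s35i62_Pkg_FieldDef)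
    (hLevel : s35i62_Pkg_Level) (hPic : s35i62_Pkg_Pic)
    (N q p : ℕ) (hq : q.Prime) (hp : p.Prime) (hpq : p ≠ q) (hqN : q ∣ N) (hq2 : ¬ q ^ 2 ∣ N) :
    s35i62_AStarAt N q p := by
  refine s35i62_AStarAt_of N q p hq hqN hq2 ?_
  intro M' _ _ hqM'
  refine hPic M' q p hq hqM' hp hpq (hLevel M' q p hq hqM' hp hpq ?_)
  intro p₀ M'' _ hp₀ hp₀q hM'' n
  have hp₀prime : p₀.Prime := by
    rcases hp₀ with rfl | rfl
    · exact Nat.prime_two
    · exact Nat.prime_three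
  have hqM'' : ¬ q ∣ M'' := by
    rw [hM'']
    intro hd
    have h1 : q ∣ M' * p₀ := hd.trans (Nat.lcm_dvd_mul M' p₀)
    rcases (Nat.Prime.dvd_mul hq).mp h1 with h2 | h2
    · exact hqM' h2
    · exact hp₀q ((Nat.prime_dvd_prime_iff_eq hq hp₀prime).mp h2).symm
  have hcop : Nat.Coprime (p ^ n) q :=
    Nat.Coprime.pow_left n ((Nat.coprime_primes hp hq).mpr hpq)
  exact hFD M'' q (p ^ n) hq hqM'' (pow_pos hp.pos n) hcop
    (hCore M'' q (p ^ n) p₀ hq hqM'' hp₀ hp₀q (hM'' ▸ Nat.dvd_lcm_right M' p₀)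
      (pow_pos hp.pos n) hcop)

end Fermat.Agent.S35
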