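import Mathlib

/-!
# S35 lab (helper92): the norm commutes with base change (abstract, Mathlib only)

`E / K` and `E' / K'` finite field extensions of the same degree, `ι' : K → K'`, `ι : E → E'`
compatible ring homomorphisms such that `E'` is generated over `K'` by `ι E`.  Then
`ι' (N_{E/K} x) = N_{E'/K'} (ι x)`.
-/

set_option autoImplicit false

namespace Fermat.Agent.S35

section Abstract

variable {K E K' E' : Type*} [Field K] [Field E] [Field K'] [Field E'] [Algebra K E]
  [Algebra K' E']

/-- The `K'`-span of the image of a `K`-basis of `E` contains the subalgebra generated by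
`ι E`. -/
theorem nbc92_span (ι' : K →+* K') (ι : E →+* E')
    (hcomm : ∀ k : K, ι (algebraMap K E k) = algebraMap K' E' (ι' k))
    {n : ℕ} (b : Module.Basis (Fin n) K E)
    (hspan : Algebra.adjoin K' (Set.range ι) = ⊤) :
    ⊤ ≤ Submodule.span K' (Set.range (ι ∘ b)) := by
  have h1 : (Algebra.adjoin K' (Set.range ι)).toSubmodule =
      Submodule.span K' (Submonoid.closure (Set.range ι) : Set E') := Algebra.adjoin_eq_span K' _
  have h2 : (Submonoid.closure (Set.range ι) : Set E') = Set.range ι := by
    have : (Set.range ι : Set E') = ((MonoidHom.mrange (ι : E →* E') : Submonoid E') : Set E') := by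
      ext x; simp
    rw [this, Submonoid.closure_eq]
  rw [h2, hspan] at h1
  have h3 : Submodule.span K' (Set.range ι) ≤ Submodule.span K' (Set.range (ι ∘ b)) := by
    rw [Submodule.span_le]
    rintro _ ⟨e, rfl⟩
    have he : ι e = ∑ j, ι' (b.repr e j) • ι (b j) := by
      conv_lhs => rw [← b.sum_repr e]
      rw [map_sum]
      refine Finset.sum_congr rfl fun j _ => ?_
      rw [Algebra.smul_def, map_mul, hcomm, Algebra.smul_def]
    rw [he]
    exact Submodule.sum_mem _ fun j _ =>
      Submodule.smul_mem _ _ (Submodule.subset_span ⟨j, rfl⟩)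
  intro x _
  apply h3
  rw [← h1]
  exact (Algebra.mem_top : x ∈ (⊤ : Subalgebra K' E'))

/-- **The norm commutes with base change.** -/
theorem nbc92_norm (ι' : K →+* K') (ι : E →+* E')
    (hcomm : ∀ k : K, ι (algebraMap K E k) = algebraMap K' E' (ι' k))
    [FiniteDimensional K E]
    (hrank : Module.finrank K' E' = Module.finrank K E)
    (hspan : Algebra.adjoin K' (Set.range ι) = ⊤) (x : E) :
    ι' (Algebra.norm K x) = Algebra.norm K' (ι x) := by
  classical
  let b : Module.Basis (Fin (Module.finrank K E)) K E := Module.finBasis K E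
  have hsp := nbc92_span ι' ι hcomm b hspan
  let b' : Module.Basis (Fin (Module.finrank K E)) K' E' :=
    basisOfTopLeSpanOfCardEqFinrank (ι ∘ b) hsp (by rw [Fintype.card_fin, hrank])
  have hb' : ∀ j, b' j = ι (b j) := fun j => by
    simp [b']
  rw [Algebra.norm_eq_matrix_det b, Algebra.norm_eq_matrix_det b', RingHom.map_det]
  congr 1
  ext i j
  rw [RingHom.mapMatrix_apply, Matrix.map_apply, Algebra.leftMulMatrix_eq_repr_mul,
    Algebra.leftMulMatrix_eq_repr_mul]
  have key : ι x * b' j = ∑ i, ι' (b.repr (x * b j) i) • b' i := by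
    rw [hb', ← map_mul]
    conv_lhs => rw [← b.sum_repr (x * b j)]
    rw [map_sum]
    refine Finset.sum_congr rfl fun i _ => ?_
    rw [Algebra.smul_def, map_mul, hcomm, hb', Algebra.smul_def]
  rw [key, b'.repr_sum_self]

end Abstract

end Fermat.Agent.S35
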