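import Mathlib
import Fermat.Agent.S35.NormBC92
import Fermat.Agent.S18.FieldDef27
import Fermat.Agent.S34.AtkinLehnerL97
import Fermat.Agent.S34.BranchInf46
import Fermat.Agent.S37.KroneckerNorm97
import Fermat.Agent.S42.HeckeTheta45

/-!
# S35 lab (helper92), row L1g: the norms along `α` and `β` commute with `F_L → F_{ℚ̄}`

`L` a field with `φ : L →+* ℚ̄`, `q` a prime, `q ∤ M'`; `ι = fd27_iota φ` the base change maps
`F_L(M') → F_{ℚ̄}(M')`, `F_L(M' q) → F_{ℚ̄}(M' q)`.

* `nbc92_twist` : (abstract) if `w ∘ b = a` for an automorphism `w`, the norm along `b` of `x` is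
  the norm along `a` of `w x`;
* `nbc92_adjoin_bar` : `F_{ℚ̄}(M' q)` is generated over `α F_{ℚ̄}(M')` by `ι F_L(M' q)`;
* `nbc92_alpha` : `ι (N_α x) = N_α (ι x)` (`ht45_normAlong` along `al97L_alpha` / `heckeAlphaBar`);
* `nbc92_beta` : `ι (N_β x) = N_β (ι x)` (`ht45_normAlong` along `al97L_beta` / `heckeBetaBar`);
* `nbc92_beta_eq_alpha_w`, `nbc92_betaBar_eq_alphaBar_w` : `N_β x = N_α (w x)` over `L` and `ℚ̄`.
-/

set_option autoImplicit false
set_option linter.style.haveILetI false

open ModularCurve AlgebraicCurve IntermediateField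

namespace Fermat.Agent.S35

open Fermat.Agent.S18 Fermat.Agent.S34 Fermat.Agent.S37 Fermat.Agent.S42

local notation "Q̄" => AlgebraicClosure ℚ

/-- If `w ∘ b = a` for a ring automorphism `w` of `F`, the norm along `b` of `x` is the norm
along `a` of `w x`. -/
theorem nbc92_twist {F' F : Type*} [Field F'] [Field F] (a b : F' →+* F) (w : F ≃+* F)
    (hw : ∀ y, w (b y) = a y) (x : F) :
    (letI := b.toAlgebra; Algebra.norm F' x) = (letI := a.toAlgebra; Algebra.norm F' (w x)) := by
  have h := @Algebra.norm_eq_of_equiv_equiv F' F F' F _ _ _ _ b.toAlgebra a.toAlgebra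
    (RingEquiv.refl F') w (by
      ext y
      exact (hw y).symm) x
  simpa using h

section Inst

variable {L : Type} [Field L] (φ : L →+* Q̄) (M' q : ℕ) [NeZero M'] [NeZero q]

/-- The two base change maps are compatible with `α`. -/
theorem nbc92_iota_alpha (x : ↥(modularFunctionFieldFullC L M')) :
    fd27_iota φ (M' * q) (al97L_alpha L M' q x) = heckeAlphaBar Q̄ M' q (fd27_iota φ M' x) := by
  apply Subtype.ext
  rw [coe_heckeAlphaBar, fd27_iota_coe, fd27_iota_coe, al97L_alpha_coe]

/-- The two base change maps are compatible with `β`. -/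
theorem nbc92_iota_beta (x : ↥(modularFunctionFieldFullC L M')) :
    fd27_iota φ (M' * q) (al97L_beta L M' q x) = heckeBetaBar Q̄ M' q (fd27_iota φ M' x) := by
  apply Subtype.ext
  rw [coe_heckeBetaBar, fd27_iota_coe, fd27_iota_coe, al97L_beta_coe, coeffMap_qExpand]

/-- `F_{ℚ̄}(M' q)` is generated, as an algebra over `α F_{ℚ̄}(M')`, by the image of
`F_L(M' q)`. -/
theorem nbc92_adjoin_bar (hq : q.Prime) (hqM : ¬ q ∣ M') :
    letI := algebraAlong (heckeAlphaBar Q̄ M' q)
    Algebra.adjoin ↥(modularFunctionFieldBar M') (Set.range (fd27_iota φ (M' * q))) = ⊤ := by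
  letI := algebraAlong (heckeAlphaBar Q̄ M' q)
  haveI := isScalarTower_along (heckeAlphaBar Q̄ M' q)
  haveI : FiniteDimensional ↥(modularFunctionFieldBar M') ↥(modularFunctionFieldBar (M' * q)) :=
    Module.finite_of_finrank_pos (by rw [kn97_finrank M' q hq hqM]; omega)
  have halg : ∀ x ∈ Set.range (fd27_iota φ (M' * q)),
      IsAlgebraic ↥(modularFunctionFieldBar M') x :=
    fun x _ => Algebra.IsAlgebraic.isAlgebraic x
  rw [← IntermediateField.adjoin_toSubalgebra_of_isAlgebraic halg]
  have htop : IntermediateField.adjoin ↥(modularFunctionFieldBar M')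
      (Set.range (fd27_iota φ (M' * q))) = ⊤ := by
    rw [eq_top_iff]
    intro x _
    have h1 : x ∈ IntermediateField.adjoin Q̄ (Set.range (fd27_iota φ (M' * q))) := by
      rw [fd27_iota_adjoin]; trivial
    have h2 : IntermediateField.adjoin Q̄ (Set.range (fd27_iota φ (M' * q))) ≤
        (IntermediateField.adjoin ↥(modularFunctionFieldBar M')
          (Set.range (fd27_iota φ (M' * q)))).restrictScalars Q̄ := by
      rw [IntermediateField.adjoin_le_iff]
      exact fun y hy => IntermediateField.subset_adjoin ↥(modularFunctionFieldBar M') _ hy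
    exact h2 h1
  rw [htop]
  rfl

/-- **The norm along `α` commutes with the base change `F_L → F_{ℚ̄}`.** -/
theorem nbc92_alpha (hq : q.Prime) (hqM : ¬ q ∣ M')
    (x : ↥(modularFunctionFieldFullC L (M' * q))) :
    fd27_iota φ M' (ht45_normAlong (al97L_alpha L M' q) x) =
      ht45_normAlong (heckeAlphaBar Q̄ M' q) (fd27_iota φ (M' * q) x) := by
  haveI : CharZero L := RingHom.charZero φ
  letI a1 : Algebra ↥(modularFunctionFieldFullC L M') ↥(modularFunctionFieldFullC L (M' * q)) :=
    algebraAlong (al97L_alpha L M' q)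
  letI a2 : Algebra ↥(modularFunctionFieldBar M') ↥(modularFunctionFieldBar (M' * q)) :=
    algebraAlong (heckeAlphaBar Q̄ M' q)
  haveI hfd : FiniteDimensional ↥(modularFunctionFieldFullC L M')
      ↥(modularFunctionFieldFullC L (M' * q)) := bi46_finiteDimensional L M' q hq
  have hr1 : Module.finrank ↥(modularFunctionFieldFullC L M')
      ↥(modularFunctionFieldFullC L (M' * q)) = q + 1 := bi46_finrank L M' q hq hqM
  have hr2 : Module.finrank ↥(modularFunctionFieldBar M') ↥(modularFunctionFieldBar (M' * q)) =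
      q + 1 := kn97_finrank M' q hq hqM
  exact nbc92_norm (fd27_iota φ M') (fd27_iota φ (M' * q)) (nbc92_iota_alpha φ M' q)
    (hr2.trans hr1.symm) (nbc92_adjoin_bar φ M' q hq hqM) x

/-- The two names of the base change map agree. -/
theorem nbc92_iota_eq (M : ℕ) (x : ↥(modularFunctionFieldFullC L M)) :
    al97L_iota φ M x = fd27_iota φ M x := Subtype.ext rfl

/-- `N_β x = N_α (w x)` over `L`. -/
theorem nbc92_beta_eq_alpha_w (hq : q.Prime) (hqM : ¬ q ∣ M')
    (x : ↥(modularFunctionFieldFullC L (M' * q))) :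
    ht45_normAlong (al97L_beta L M' q) x =
      ht45_normAlong (al97L_alpha L M' q) (al97L_w φ M' q hq hqM x) :=
  nbc92_twist (al97L_alpha L M' q).toRingHom (al97L_beta L M' q).toRingHom
    (al97L_w φ M' q hq hqM).toRingEquiv (fun y => al97L_w_beta_apply φ M' q hq hqM y) x

/-- `N_β x = N_α (w x)` over `ℚ̄`. -/
theorem nbc92_betaBar_eq_alphaBar_w (hq : q.Prime) (hqM : ¬ q ∣ M')
    (x : ↥(modularFunctionFieldBar (M' * q))) :
    ht45_normAlong (heckeBetaBar Q̄ M' q) x =
      ht45_normAlong (heckeAlphaBar Q̄ M' q) (al97L_wBar M' q hq hqM x) := by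
  let w : ↥(modularFunctionFieldBar (M' * q)) ≃+* ↥(modularFunctionFieldBar (M' * q)) :=
    RingEquiv.ofRingHom (al97L_wBar M' q hq hqM).toRingHom (al97L_wBar M' q hq hqM).toRingHom
      (RingHom.ext (al97L_wBar_wBar M' q hq hqM)) (RingHom.ext (al97L_wBar_wBar M' q hq hqM))
  exact nbc92_twist (heckeAlphaBar Q̄ M' q).toRingHom (heckeBetaBar Q̄ M' q).toRingHom w
    (fun y => AlgHom.congr_fun (al97L_wBar_beta M' q hq hqM) y) x

/-- **The norm along `β` commutes with the base change `F_L → F_{ℚ̄}`.** -/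
theorem nbc92_beta (hq : q.Prime) (hqM : ¬ q ∣ M')
    (x : ↥(modularFunctionFieldFullC L (M' * q))) :
    fd27_iota φ M' (ht45_normAlong (al97L_beta L M' q) x) =
      ht45_normAlong (heckeBetaBar Q̄ M' q) (fd27_iota φ (M' * q) x) := by
  rw [nbc92_beta_eq_alpha_w φ M' q hq hqM, nbc92_alpha φ M' q hq hqM,
    nbc92_betaBar_eq_alphaBar_w M' q hq hqM, ← nbc92_iota_eq, al97L_w_iota, nbc92_iota_eq]

end Inst

end Fermat.Agent.S35
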