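import Mathlib
import Fermat.Agent.S35.Iface62
import Fermat.Agent.S35.NormBCInst92
import Fermat.Agent.S35.FrobRestrict92
import Fermat.Agent.S34.FieldDef92
import Fermat.Agent.S34.RatSupp88

/-!
# S35 lab (helper92), registry row L1g (field of definition): `s35i62_Pkg_FieldDef`

The package `CORE35 M' q m ⟹ FFA M' q m` of the interface `Iface62`, literally
(`s35fd92_pkg_fieldDef`).

* `s35fd92_RatAt` : all Galois conjugates of the zeros and poles of a function over `ℚ̄` are
  `L`-rational points (the conclusion of `rs88_exists`, helper88);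
* `s35fd92_exists_list` : eventual descent for a finite list of functions: a number field `L₀`
  such that over every `L ⊇ L₀` all the functions are defined, with rational zeros and poles if
  `L / ℚ` is normal;
* `s35fd92_rat` : the hypothesis "zeros and poles rational" of `CORE35` for a function descended
  to `L`;
* `s35fd92_normABar_ne_zero`, `s35fd92_normBBar_ne_zero` : the norms do not vanish;
* `s35fd92_pkg_fieldDef : s35i62_Pkg_FieldDef`.

Proof of the last: descend the Kummer function `f` and the two roots `a`, `b` of its norms to a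
finite Galois extension `L / ℚ` containing `ζ_q`, over which all zeros and poles of `f`, `α a`,
`β a`, `α b`, `β b` are rational points; the norm relations descend because the norms along `α`
and `β` commute with `F_L → F_{ℚ̄}` (`nbc92_alpha`, `nbc92_beta`); the restriction of the Frobenius
lift `σ` to `L` is Frobenial for the discrete valuation ring `A ∩ L` (`fr92_restrict`); apply
`CORE35`, push the identity `f₀ ^ m * op f_L = c` back to `ℚ̄` and extract an `m`-th root of `c`.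
-/

set_option autoImplicit false
set_option linter.style.haveILetI false
set_option linter.style.longLine false

open ModularCurve AlgebraicCurve IntermediateField

namespace Fermat.Agent.S35

open Fermat.Agent.S18 Fermat.Agent.S24 Fermat.Agent.S34 Fermat.Agent.S37 Fermat.Agent.S42

local notation "Q̄" => AlgebraicClosure ℚ

section Rat

variable (M : ℕ) [NeZero M]

/-- All Galois conjugates of the zeros and poles of `y` are `L`-rational points. -/
def s35fd92_RatAt (L : IntermediateField ℚ Q̄) (y : ↥(modularFunctionFieldBar M)) : Prop :=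
  ∀ P : Place Q̄ ↥(modularFunctionFieldBar M), P.ord y ≠ 0 →
    ∀ (σ : Q̄ ≃ₐ[ℚ] Q̄) (x : ↥(modularFunctionFieldFullC L M)),
      fd27_iota (algebraMap L Q̄) M x ∈
        (arithmeticGalois (modularFunctionFieldFull M) σ • P).toValuationSubring →
      ∃ c : L, fd27_iota (algebraMap L Q̄) M x
            = algebraMap Q̄ ↥(modularFunctionFieldBar M) (c : Q̄) ∨
          0 < (arithmeticGalois (modularFunctionFieldFull M) σ • P).ord
            (fd27_iota (algebraMap L Q̄) M x -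
              algebraMap Q̄ ↥(modularFunctionFieldBar M) (c : Q̄))

/-- **Eventual descent for a finite list of functions.** -/
theorem s35fd92_exists_list (ys : List ↥(modularFunctionFieldBar M)) (hys : ∀ y ∈ ys, y ≠ 0)
    (T : Finset Q̄) :
    ∃ L₀ : IntermediateField ℚ Q̄, FiniteDimensional ℚ L₀ ∧ (∀ t ∈ T, t ∈ L₀) ∧
      ∀ L : IntermediateField ℚ Q̄, L₀ ≤ L → ∀ y ∈ ys,
        (∃ yL : ↥(modularFunctionFieldFullC L M), fd27_iota (algebraMap L Q̄) M yL = y) ∧
        (Normal ℚ L → s35fd92_RatAt M L y) := by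
  induction ys with
  | nil =>
    obtain ⟨L₀, h1, h2, -⟩ := rs88_exists M 1 one_ne_zero T
    exact ⟨L₀, h1, h2, fun L _ y hy => absurd hy List.not_mem_nil⟩
  | cons y ys ih =>
    obtain ⟨L₁, h1, h2, h3⟩ := ih (fun z hz => hys z (List.mem_cons_of_mem _ hz))
    obtain ⟨L₂, g1, -, g3⟩ := rs88_exists M y (hys y List.mem_cons_self) T
    haveI := h1
    haveI := g1
    refine ⟨L₁ ⊔ L₂, IntermediateField.finiteDimensional_sup L₁ L₂,
      fun t ht => (le_sup_left : L₁ ≤ L₁ ⊔ L₂) (h2 t ht), ?_⟩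
    intro L hL z hz
    rcases List.mem_cons.mp hz with rfl | hz
    · exact g3 L (le_sup_right.trans hL)
    · exact h3 L (le_sup_left.trans hL) z hz

/-- The hypothesis "all zeros and poles are rational" of `CORE35` for a descended function. -/
theorem s35fd92_rat (L : IntermediateField ℚ Q̄) (yL : ↥(modularFunctionFieldFullC ↥L M))
    (y : ↥(modularFunctionFieldBar M)) (hy : fd27_iota (algebraMap ↥L Q̄) M yL = y)
    (hrat : s35fd92_RatAt M L y) (P : Place ↥L ↥(modularFunctionFieldFullC ↥L M)) :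
    (yL ∈ P.toValuationSubring ∧ yL⁻¹ ∈ P.toValuationSubring) ∨
      s34i47_IsRat ↥L P.toValuationSubring := by
  have hιcoe : ∀ x : ↥(modularFunctionFieldFullC ↥L M),
      ((fd27_iota (algebraMap ↥L Q̄) M x : ↥(modularFunctionFieldBar M)) : LaurentSeries Q̄) =
        coeffMap (algebraMap ↥L Q̄) (x : LaurentSeries ↥L) := fun x => fd27_iota_coe _ _ x
  obtain ⟨P', hP'⟩ := cx_modular_place_exists (K0 := ↥L) (fd27_iota (algebraMap ↥L Q̄) M)
    hιcoe P
  by_cases h0 : P'.ord y = 0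
  · left
    have h1 : P.ord yL = 0 := by rw [← hP' yL, hy, h0]
    refine ⟨(wp1_mem_iff_ord_nonneg P yL).mpr h1.ge,
      (wp1_mem_iff_ord_nonneg P yL⁻¹).mpr ?_⟩
    rw [Place.ord_inv, h1, neg_zero]
  · right
    intro x hx
    have hx' : fd27_iota (algebraMap ↥L Q̄) M x ∈ P'.toValuationSubring :=
      (wp1_mem_iff_ord_nonneg P' _).mpr
        (by rw [hP' x]; exact (wp1_mem_iff_ord_nonneg P x).mp hx)
    have hx1 : fd27_iota (algebraMap ↥L Q̄) M x ∈
        (arithmeticGalois (modularFunctionFieldFull M) (1 : Q̄ ≃ₐ[ℚ] Q̄) • P').toValuationSubring := by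
      rw [map_one, one_smul]
      exact hx'
    obtain ⟨c, hc⟩ := hrat P' h0 1 x hx1
    rw [map_one, one_smul] at hc
    refine ⟨c, ?_⟩
    have hcmap : fd27_iota (algebraMap ↥L Q̄) M
        (algebraMap ↥L ↥(modularFunctionFieldFullC ↥L M) c) =
        algebraMap Q̄ ↥(modularFunctionFieldBar M) (c : Q̄) :=
      fd27_iota_algebraMap (algebraMap ↥L Q̄) M c
    rcases hc with hc | hc
    · left
      apply fd27_iota_injective (algebraMap ↥L Q̄) M
      rw [hcmap]
      exact hc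
    · right
      intro hinv
      rw [← hcmap, ← map_sub, hP'] at hc
      have h2 := (wp1_mem_iff_ord_nonneg P _).mp hinv
      rw [Place.ord_inv] at h2
      omega

end Rat

section Main

variable (M' q : ℕ) [NeZero M'] [NeZero q]

/-- The norm along `α` of a nonzero function does not vanish. -/
theorem s35fd92_normABar_ne_zero (hq : q.Prime) (hqM : ¬ q ∣ M')
    {f : ↥(modularFunctionFieldBar (M' * q))} (hf : f ≠ 0) : s35i62_normABar M' q f ≠ 0 := by
  have hfin : FiniteAlong Q̄ (heckeAlphaBar Q̄ M' q) := by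
    letI := algebraAlong (heckeAlphaBar Q̄ M' q)
    exact Module.finite_of_finrank_pos (by rw [kn97_finrank M' q hq hqM]; omega)
  exact ht45_normAlong_ne_zero (heckeAlphaBar Q̄ M' q) hfin hf

/-- The norm along `β` of a nonzero function does not vanish. -/
theorem s35fd92_normBBar_ne_zero (hq : q.Prime) (hqM : ¬ q ∣ M')
    {f : ↥(modularFunctionFieldBar (M' * q))} (hf : f ≠ 0) : s35i62_normBBar M' q f ≠ 0 := by
  have h1 : s35i62_normBBar M' q f = s35i62_normABar M' q (al97L_wBar M' q hq hqM f) :=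
    nbc92_betaBar_eq_alphaBar_w M' q hq hqM f
  rw [h1]
  exact s35fd92_normABar_ne_zero M' q hq hqM ((map_ne_zero (al97L_wBar M' q hq hqM)).mpr hf)

/-- `op` commutes with the base change map. -/
theorem s35fd92_iota_op (L : IntermediateField ℚ Q̄) [Normal ℚ L] (σ : Q̄ ≃ₐ[ℚ] Q̄) (M : ℕ)
    (x : ↥(modularFunctionFieldFullC ↥L M)) :
    fd27_iota (algebraMap ↥L Q̄) M
      (s35i62_op q (s34i47_coeffEquiv ((σ.restrictNormal L).toRingEquiv) M) x) =
      s35i62_op q (arithmeticRingAut (modularFunctionFieldFull M) σ)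
        (fd27_iota (algebraMap ↥L Q̄) M x) := by
  unfold s35i62_op
  rw [map_div₀, map_mul, map_mul, map_pow, map_pow, map_pow]
  simp only [fd92_iota_coeffEquiv]

/-- **P-FD**: `CORE35 M' q m ⟹ FFA M' q m` (`s35i62_Pkg_FieldDef` of `Iface62`). -/
theorem s35fd92_pkg_fieldDef : s35i62_Pkg_FieldDef := by
  intro M' q m _ _ hq hqM hm hcop hcore A hA σ hσ f hf hdiv ⟨a, ha⟩ ⟨b, hb⟩
  haveI hMq : NeZero (M' * q) := ⟨Nat.mul_ne_zero (NeZero.ne M') (NeZero.ne q)⟩
  -- `a`, `b` do not vanish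
  have ha0 : a ≠ 0 := by
    rintro rfl
    rw [zero_pow hm.ne'] at ha
    exact s35fd92_normABar_ne_zero M' q hq hqM hf ha
  have hb0 : b ≠ 0 := by
    rintro rfl
    rw [zero_pow hm.ne'] at hb
    exact s35fd92_normBBar_ne_zero M' q hq hqM hf hb
  -- a primitive `q`-th root of unity
  obtain ⟨ζ, hζ⟩ := fd27_exists_primitiveRoot q hq.ne_zero
  -- descent of `f`, `α a`, `β a`, `α b`, `β b` (level `M' q`) and of `a`, `b` (level `M'`)
  obtain ⟨L₁, hL₁fd, hL₁T, hL₁⟩ := s35fd92_exists_list (M' * q)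
    [f, heckeAlphaBar Q̄ M' q a, heckeBetaBar Q̄ M' q a, heckeAlphaBar Q̄ M' q b,
      heckeBetaBar Q̄ M' q b]
    (by
      intro y hy
      simp only [List.mem_cons, List.not_mem_nil, or_false] at hy
      rcases hy with rfl | rfl | rfl | rfl | rfl
      · exact hf
      · exact (map_ne_zero (heckeAlphaBar Q̄ M' q)).mpr ha0
      · exact (map_ne_zero (heckeBetaBar Q̄ M' q)).mpr ha0
      · exact (map_ne_zero (heckeAlphaBar Q̄ M' q)).mpr hb0
      · exact (map_ne_zero (heckeBetaBar Q̄ M' q)).mpr hb0) {ζ}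
  obtain ⟨L₂, hL₂fd, -, hL₂⟩ := s35fd92_exists_list M' [a, b]
    (by
      intro y hy
      simp only [List.mem_cons, List.not_mem_nil, or_false] at hy
      rcases hy with rfl | rfl
      · exact ha0
      · exact hb0) ∅
  haveI := hL₁fd
  haveI := hL₂fd
  haveI hL₀fd : FiniteDimensional ℚ ↥(L₁ ⊔ L₂) := IntermediateField.finiteDimensional_sup L₁ L₂
  have halg : Algebra.IsAlgebraic ℚ Q̄ := AlgebraicClosure.isAlgebraic ℚ
  haveI : IsAlgClosure ℚ Q̄ := ⟨inferInstance, halg⟩
  haveI : Normal ℚ Q̄ := IsAlgClosure.normal ℚ Q̄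
  -- the finite Galois extension `L`
  obtain ⟨L, hLdef⟩ : ∃ L : IntermediateField ℚ Q̄,
      L = IntermediateField.normalClosure ℚ ↥(L₁ ⊔ L₂) Q̄ := ⟨_, rfl⟩
  have hle : L₁ ⊔ L₂ ≤ L := by
    rw [hLdef]; exact (L₁ ⊔ L₂).le_normalClosure
  haveI hfd : FiniteDimensional ℚ ↥L := by
    rw [hLdef]; exact normalClosure.is_finiteDimensional ℚ ↥(L₁ ⊔ L₂) Q̄
  haveI hnorm : Normal ℚ ↥L := by
    rw [hLdef]; exact normalClosure.normal ℚ ↥(L₁ ⊔ L₂) Q̄
  haveI hNF : NumberField ↥L := fd27_numberField L hfd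
  have hL1 := hL₁ L (le_sup_left.trans hle)
  have hL2 := hL₂ L (le_sup_right.trans hle)
  obtain ⟨⟨fL, hfL⟩, hratf⟩ := hL1 f (by simp)
  obtain ⟨⟨aL, haL⟩, -⟩ := hL2 a (by simp)
  obtain ⟨⟨bL, hbL⟩, -⟩ := hL2 b (by simp)
  have hratαa := (hL1 (heckeAlphaBar Q̄ M' q a) (by simp)).2 hnorm
  have hratβa := (hL1 (heckeBetaBar Q̄ M' q a) (by simp)).2 hnorm
  have hratαb := (hL1 (heckeAlphaBar Q̄ M' q b) (by simp)).2 hnorm
  have hratβb := (hL1 (heckeBetaBar Q̄ M' q b) (by simp)).2 hnorm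
  have hζL : ζ ∈ L := hle ((le_sup_left : L₁ ≤ L₁ ⊔ L₂) (hL₁T ζ (Finset.mem_singleton_self ζ)))
  have hζL' : IsPrimitiveRoot (⟨ζ, hζL⟩ : ↥L) q :=
    IsPrimitiveRoot.of_map_of_injective (f := algebraMap ↥L Q̄) hζ (algebraMap ↥L Q̄).injective
  have hιcoe : ∀ x : ↥(modularFunctionFieldFullC ↥L (M' * q)),
      ((fd27_iota (algebraMap ↥L Q̄) (M' * q) x : ↥(modularFunctionFieldBar (M' * q))) :
        LaurentSeries Q̄) = coeffMap (algebraMap ↥L Q̄) (x : LaurentSeries ↥L) :=
    fun x => fd27_iota_coe _ _ x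
  have hfL0 : fL ≠ 0 := by
    rintro rfl
    exact hf (by rw [← hfL, map_zero])
  have haL0 : aL ≠ 0 := by
    rintro rfl
    exact ha0 (by rw [← haL, map_zero])
  have hbL0 : bL ≠ 0 := by
    rintro rfl
    exact hb0 (by rw [← hbL, map_zero])
  -- the discrete valuation ring `A ∩ L`
  haveI hdvr : IsDiscreteValuationRing ↥(A.comap (algebraMap ↥L Q̄)) :=
    nf23_comap_isDVR_of_liesOverPrime (algebraMap ↥L Q̄) A hq.ne_zero hA
  obtain ⟨π, hπ⟩ := IsDiscreteValuationRing.exists_irreducible ↥(A.comap (algebraMap ↥L Q̄))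
  letI alg : Algebra ↥(A.comap (algebraMap ↥L Q̄)) ↥(modularFunctionFieldFullC ↥L (M' * q)) :=
    ((algebraMap ↥L ↥(modularFunctionFieldFullC ↥L (M' * q))).comp
      (algebraMap ↥(A.comap (algebraMap ↥L Q̄)) ↥L)).toAlgebra
  haveI htower : IsScalarTower ↥(A.comap (algebraMap ↥L Q̄)) ↥L
      ↥(modularFunctionFieldFullC ↥L (M' * q)) := IsScalarTower.of_algebraMap_eq (fun _ => rfl)
  have hunit : ∀ n : ℕ, Nat.Coprime n q →
      IsUnit ((n : ℕ) : ↥(A.comap (algebraMap ↥L Q̄))) := by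
    intro n hn
    obtain ⟨μ, hμ⟩ := nf23_exists_natCast_mul_eq_one (algebraMap ↥L Q̄) A hA hn
    exact IsUnit.of_mul_eq_one _ hμ
  have hqnu : ¬ IsUnit ((q : ℕ) : ↥(A.comap (algebraMap ↥L Q̄))) := by
    intro hu
    have h1 : ((q : ↥L)) ∈ (A.comap (algebraMap ↥L Q̄)).nonunits := by
      rw [nf23_mem_nonunits_comap, map_natCast]
      exact hA
    have h2 : ((q : ℕ) : ↥(A.comap (algebraMap ↥L Q̄))) ∈
        IsLocalRing.maximalIdeal ↥(A.comap (algebraMap ↥L Q̄)) := by
      rw [← ValuationSubring.coe_mem_nonunits_iff]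
      exact h1
    exact h2 hu
  have hFrob : s35i62_Frobenial ↥(A.comap (algebraMap ↥L Q̄)) q
      ((σ.restrictNormal L).toRingEquiv) := fun r => fr92_restrict L A hσ r
  -- the hypotheses of CORE35
  have hP1 : ∀ P : Place ↥L ↥(modularFunctionFieldFullC ↥L (M' * q)), (m : ℤ) ∣ P.ord fL := by
    intro P
    refine cx_modular_place_dvd (K0 := ↥L) (fd27_iota (algebraMap ↥L Q̄) (M' * q)) hιcoe
      (m : ℤ) fL ?_ P
    intro P'
    rw [hfL]
    exact hdiv P'
  have hnA : s35i62_normA ↥L M' q fL =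
      algebraMap ↥L ↥(modularFunctionFieldFullC ↥L M') 1 * aL ^ m := by
    apply fd27_iota_injective (algebraMap ↥L Q̄) M'
    rw [map_one, one_mul, map_pow, haL, ← ha, ← hfL]
    exact nbc92_alpha (algebraMap ↥L Q̄) M' q hq hqM fL
  have hnB : s35i62_normB ↥L M' q fL =
      algebraMap ↥L ↥(modularFunctionFieldFullC ↥L M') 1 * bL ^ m := by
    apply fd27_iota_injective (algebraMap ↥L Q̄) M'
    rw [map_one, one_mul, map_pow, hbL, ← hb, ← hfL]
    exact nbc92_beta (algebraMap ↥L Q̄) M' q hq hqM fL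
  have hrat : ∀ y : ↥(modularFunctionFieldFullC ↥L (M' * q)),
      (y = fL ∨ y = al97L_alpha ↥L M' q aL ∨ y = al97L_beta ↥L M' q aL ∨
        y = al97L_alpha ↥L M' q bL ∨ y = al97L_beta ↥L M' q bL) →
      ∀ P : Place ↥L ↥(modularFunctionFieldFullC ↥L (M' * q)),
        (y ∈ P.toValuationSubring ∧ y⁻¹ ∈ P.toValuationSubring) ∨
          s34i47_IsRat ↥L P.toValuationSubring := by
    intro y hy P
    rcases hy with rfl | rfl | rfl | rfl | rfl
    · exact s35fd92_rat (M' * q) L _ f hfL (hratf hnorm) P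
    · exact s35fd92_rat (M' * q) L _ (heckeAlphaBar Q̄ M' q a)
        (by rw [nbc92_iota_alpha, haL]) hratαa P
    · exact s35fd92_rat (M' * q) L _ (heckeBetaBar Q̄ M' q a)
        (by rw [nbc92_iota_beta, haL]) hratβa P
    · exact s35fd92_rat (M' * q) L _ (heckeAlphaBar Q̄ M' q b)
        (by rw [nbc92_iota_alpha, hbL]) hratαb P
    · exact s35fd92_rat (M' * q) L _ (heckeBetaBar Q̄ M' q b)
        (by rw [nbc92_iota_beta, hbL]) hratβb P
  obtain ⟨f₀, c, hf₀, -, hmain⟩ := hcore ↥(A.comap (algebraMap ↥L Q̄)) ↥L π hπ hunit hqnu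
    ⟨⟨ζ, hζL⟩, hζL'⟩ ((σ.restrictNormal L).toRingEquiv) hFrob fL aL bL 1 1 hfL0 haL0 hbL0
    one_ne_zero one_ne_zero hP1 hnA hnB hrat
  -- transport to `ℚ̄`
  have hι := congrArg (fd27_iota (algebraMap ↥L Q̄) (M' * q)) hmain
  rw [map_mul, map_pow, s35fd92_iota_op, hfL, fd27_iota_algebraMap] at hι
  obtain ⟨γ, hγ⟩ := IsAlgClosed.exists_pow_nat_eq (algebraMap ↥L Q̄ c) hm
  have hf0' : fd27_iota (algebraMap ↥L Q̄) (M' * q) f₀ ≠ 0 :=
    (map_ne_zero_iff _ (fd27_iota_injective (algebraMap ↥L Q̄) (M' * q))).mpr hf₀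
  refine ⟨algebraMap Q̄ ↥(modularFunctionFieldBar (M' * q)) γ *
    (fd27_iota (algebraMap ↥L Q̄) (M' * q) f₀)⁻¹, ?_⟩
  rw [mul_pow, ← map_pow, hγ, ← hι, inv_pow,
    mul_comm (fd27_iota (algebraMap ↥L Q̄) (M' * q) f₀ ^ m) _, mul_assoc,
    mul_inv_cancel₀ (pow_ne_zero m hf0'), mul_one]

end Main

end Fermat.Agent.S35
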