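import Mathlib

/-!
# S35 lab (helper60): the algebra of the endgame (Mathlib only)

`O` a commutative domain, `M` an `O`-module, `T : Module.End O M` (a Frobenius lift acting on the
eigen-Tate module), `b q : O`.  The relation `T² − b T + q = 0` together with ONE nonzero vector
which is killed by a product of factors `T − ν`, `ν ∈ {1, −1, q, −q}`, forces
`b = q + 1 ∨ b = −(q + 1)`.

* `s35a60_of_eigen`   : from an eigenvector with eigenvalue `ν ∈ {1, −1, q, −q}`;
* `s35a60_peel`       : peeling a product of linear factors off a nonzero vector;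
* `s35a60_of_prod`    : from a nonzero vector killed by `∏ (T − ν_i)`, all `ν_i ∈ {1, −1, q, −q}`;
* `s35a60_of_aeval`   : the same for `Polynomial.aeval T P`, `P = ∏ (X − C ν_i)`;
* `s35a60_of_invol`   : from an involution `W` commuting with `T` and a nonzero vector killed by
  `(T + q W)(T + W)²`;
* `s35a60_of_ES`      : from an involution `W` commuting with `T` and a nonzero vector `y` with
  `T² y + (q + 1) W T y + q y = 0`.

In every statement the quadratic relation and the absence of torsion are only required on the
vectors at hand (`hquad`, `htf` quantify over all vectors of the ambient module `M`; apply them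
to a submodule by restricting).
-/

set_option autoImplicit false

open Polynomial

namespace Fermat.Agent.S35

section s35a60

variable {O : Type*} [CommRing O] [IsDomain O] {M : Type*} [AddCommGroup M] [Module O M]

/-- An eigenvector of `T` with eigenvalue `ν ∈ {1, −1, q, −q}` which satisfies
`T² − b T + q = 0` forces `b = ±(q + 1)`. -/
theorem s35a60_of_eigen (T : Module.End O M) (b q : O) (hq : q ≠ 0) (v : M)
    (htf : ∀ a : O, a • v = 0 → a = 0)
    (hquad : T (T v) - b • T v + q • v = 0)
    (ν : O) (hν : ν = 1 ∨ ν = -1 ∨ ν = q ∨ ν = -q) (hv : T v = ν • v) :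
    b = q + 1 ∨ b = -(q + 1) := by
  have h1 : (ν * ν - b * ν + q) • v = 0 := by
    rw [hv, map_smul, hv] at hquad
    rw [add_smul, sub_smul, mul_smul, mul_smul]
    exact hquad
  have h2 := htf _ h1
  rcases hν with h | h | h | h
  · left
    rw [h] at h2
    linear_combination -h2
  · right
    rw [h] at h2
    linear_combination h2
  · left
    rw [h] at h2
    have h3 : q * (q + 1 - b) = 0 := by linear_combination h2
    rcases mul_eq_zero.mp h3 with h4 | h4
    · exact absurd h4 hq
    · linear_combination -h4
  · right
    rw [h] at h2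
    have h3 : q * (q + 1 + b) = 0 := by linear_combination h2
    rcases mul_eq_zero.mp h3 with h4 | h4
    · exact absurd h4 hq
    · linear_combination h4

omit [IsDomain O] in
/-- Peeling: if a product of factors `T − ν` kills `w ≠ 0`, then some `f w ≠ 0`, `f` a polynomial
in `T` (here: `f` commutes with everything commuting with `T`), is an eigenvector for one of
the `ν`. -/
theorem s35a60_peel (T : Module.End O M) (l : List O) (w : M) (hw : w ≠ 0)
    (h : (l.map fun ν => T - ν • (1 : Module.End O M)).prod w = 0) :
    ∃ ν ∈ l, ∃ f : Module.End O M, (∀ g : Module.End O M, Commute g T → Commute g f) ∧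
      f w ≠ 0 ∧ T (f w) = ν • f w := by
  induction l with
  | nil =>
    exact absurd (by simpa using h) hw
  | cons a l ih =>
    rw [List.map_cons, List.prod_cons] at h
    by_cases h0 : (l.map fun ν => T - ν • (1 : Module.End O M)).prod w = 0
    · obtain ⟨ν, hν, f, hf, hfw, hT⟩ := ih h0
      exact ⟨ν, List.mem_cons_of_mem a hν, f, hf, hfw, hT⟩
    · refine ⟨a, List.mem_cons_self, (l.map fun ν => T - ν • (1 : Module.End O M)).prod, ?_, h0, ?_⟩
      · intro g hg
        refine Commute.list_prod_right _ _ fun x hx => ?_
        obtain ⟨ν, -, rfl⟩ := List.mem_map.mp hx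
        exact (hg.sub_right ((Commute.one_right g).smul_right ν))
      · have h1 : (T - a • (1 : Module.End O M))
            ((l.map fun ν => T - ν • (1 : Module.End O M)).prod w) = 0 := h
        rw [LinearMap.sub_apply, LinearMap.smul_apply, Module.End.one_apply] at h1
        exact sub_eq_zero.mp h1

/-- From a nonzero vector killed by `∏ (T − ν_i)` with all `ν_i ∈ {1, −1, q, −q}`. -/
theorem s35a60_of_prod (T : Module.End O M) (b q : O) (hq : q ≠ 0)
    (htf : ∀ (a : O) (v : M), a • v = 0 → a = 0 ∨ v = 0)
    (l : List O) (hl : ∀ ν ∈ l, ν = 1 ∨ ν = -1 ∨ ν = q ∨ ν = -q)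
    (w : M) (hw : w ≠ 0)
    (hquad : T (T w) - b • T w + q • w = 0)
    (h : (l.map fun ν => T - ν • (1 : Module.End O M)).prod w = 0) :
    b = q + 1 ∨ b = -(q + 1) := by
  obtain ⟨ν, hν, f, hf, hfw, hT⟩ := s35a60_peel T l w hw h
  have hc : Commute f T := (hf T (Commute.refl T)).symm
  have hfT : ∀ x, f (T x) = T (f x) := fun x => congrArg (fun g : Module.End O M => g x) hc.eq
  refine s35a60_of_eigen T b q hq (f w) (fun a ha => (htf a _ ha).resolve_right hfw) ?_ ν
    (hl ν hν) hT
  have h1 := congrArg f hquad
  rw [map_zero, map_add, map_sub, map_smul, map_smul, hfT, hfT] at h1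
  exact h1

/-- The polynomial form: `P = ∏ (X − C ν_i)`, `aeval T P w = 0`. -/
theorem s35a60_of_aeval (T : Module.End O M) (b q : O) (hq : q ≠ 0)
    (htf : ∀ (a : O) (v : M), a • v = 0 → a = 0 ∨ v = 0)
    (l : List O) (hl : ∀ ν ∈ l, ν = 1 ∨ ν = -1 ∨ ν = q ∨ ν = -q)
    (P : O[X]) (hP : P = (l.map fun ν => X - C ν).prod)
    (w : M) (hw : w ≠ 0)
    (hquad : T (T w) - b • T w + q • w = 0)
    (h : aeval T P w = 0) :
    b = q + 1 ∨ b = -(q + 1) := by
  refine s35a60_of_prod T b q hq htf l hl w hw hquad ?_
  have h1 : aeval T P = (l.map fun ν => T - ν • (1 : Module.End O M)).prod := by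
    rw [hP, map_list_prod, List.map_map]
    congr 1
    refine List.map_congr_left fun ν _ => ?_
    simp [Algebra.algebraMap_eq_smul_one]
  rw [← h1]
  exact h

/-- The form with an involution `W` commuting with `T` (ambient module): a nonzero vector killed
by `(T + q W)(T + W)²`. -/
theorem s35a60_of_invol (T W : Module.End O M) (b q : O) (hq : q ≠ 0) (h2 : (2 : O) ≠ 0)
    (htf : ∀ (a : O) (v : M), a • v = 0 → a = 0 ∨ v = 0)
    (hW : W * W = 1) (hWT : Commute W T)
    (m : M) (hm : m ≠ 0)
    (hquad : T (T m) - b • T m + q • m = 0)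
    (h : ((T + q • W) * (T + W) * (T + W)) m = 0) :
    b = q + 1 ∨ b = -(q + 1) := by
  have hWW : ∀ x, W (W x) = x := fun x => congrArg (fun g : Module.End O M => g x) hW
  have hWTx : ∀ x, W (T x) = T (W x) := fun x => congrArg (fun g : Module.End O M => g x) hWT.eq
  -- one of `(W + 1) m`, `(W - 1) m` is nonzero
  have hex : ∃ e : O, (e = 1 ∨ e = -1) ∧ W m + e • m ≠ 0 := by
    by_contra hcon
    have h1 : W m + (1 : O) • m = 0 := by
      by_contra h0
      exact hcon ⟨1, Or.inl rfl, h0⟩
    have h3 : W m + (-1 : O) • m = 0 := by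
      by_contra h0
      exact hcon ⟨-1, Or.inr rfl, h0⟩
    have h4 : (2 : O) • m = 0 := by
      have : (2 : O) • m = (W m + (1 : O) • m) - (W m + (-1 : O) • m) := by
        rw [neg_smul, one_smul, two_smul]; abel
      rw [this, h1, h3, sub_zero]
    rcases htf _ _ h4 with h5 | h5
    · exact h2 h5
    · exact hm h5
  obtain ⟨e, he, hm'⟩ := hex
  have hee : e * e = 1 := by rcases he with rfl | rfl <;> ring
  set m' : M := W m + e • m with hm'def
  have hWm' : W m' = e • m' := by
    rw [hm'def, map_add, map_smul, hWW, smul_add, smul_smul, hee, one_smul, add_comm]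
  -- the quadratic relation at `m'`
  have hquad' : T (T m') - b • T m' + q • m' = 0 := by
    have h1 := congrArg (fun x => W x + e • x) hquad
    simp only [map_zero, map_add, map_sub, map_smul, smul_zero, add_zero, hWTx, smul_add,
      smul_sub] at h1
    rw [hm'def]
    simp only [map_add, map_smul, smul_add]
    rw [← h1, smul_comm e b, smul_comm e q]
    abel
  -- `(T + q e)(T + e)² m' = 0`
  have hTW : ∀ x, W x = e • x → (T + W) x = (T - (-e) • (1 : Module.End O M)) x := by
    intro x hx
    simp only [LinearMap.add_apply, LinearMap.smul_apply,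
      Module.End.one_apply, hx, neg_smul, sub_neg_eq_add]
  have hTqW : ∀ x, W x = e • x → (T + q • W) x = (T - (-(q * e)) • (1 : Module.End O M)) x := by
    intro x hx
    simp only [LinearMap.add_apply, LinearMap.smul_apply,
      Module.End.one_apply, hx, neg_smul, sub_neg_eq_add, smul_smul]
  have hWstab : ∀ x, W x = e • x → W ((T + W) x) = e • (T + W) x := by
    intro x hx
    rw [LinearMap.add_apply, map_add, hWTx, hx, map_smul, map_smul, hx, smul_add]
  -- apply `W + e` to the hypothesis
  have h1 : ((T + q • W) * (T + W) * (T + W)) m' = 0 := by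
    have hc : Commute W ((T + q • W) * (T + W) * (T + W)) := by
      have h3 : Commute W (T + W) := hWT.add_right (Commute.refl W)
      have h4 : Commute W (T + q • W) := hWT.add_right ((Commute.refl W).smul_right q)
      exact (h4.mul_right h3).mul_right h3
    have h5 : ∀ x, W (((T + q • W) * (T + W) * (T + W)) x)
        = ((T + q • W) * (T + W) * (T + W)) (W x) :=
      fun x => congrArg (fun g : Module.End O M => g x) hc.eq
    rw [hm'def, map_add, map_smul, ← h5, h, map_zero, smul_zero, add_zero]
  have h3 : ((T - (-(q * e)) • (1 : Module.End O M)) * (T - (-e) • (1 : Module.End O M))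
      * (T - (-e) • (1 : Module.End O M))) m' = 0 := by
    rw [Module.End.mul_apply, Module.End.mul_apply] at h1 ⊢
    rw [← hTW m' hWm', ← hTW _ (hWstab m' hWm'), ← hTqW _ (hWstab _ (hWstab m' hWm'))]
    exact h1
  refine s35a60_of_prod T b q hq htf [-(q * e), -e, -e] ?_ m' hm' hquad' ?_
  · intro ν hν
    simp only [List.mem_cons, List.not_mem_nil, or_false] at hν
    rcases he with rfl | rfl
    · rcases hν with rfl | rfl | rfl
      · right; right; right; ring
      · right; left; rfl
      · right; left; rfl
    · rcases hν with rfl | rfl | rfl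
      · right; right; left; ring
      · left; ring
      · left; ring
  · simp only [List.map_cons, List.map_nil, List.prod_cons, List.prod_nil, mul_one]
    rw [← mul_assoc]
    exact h3

/-- The Eichler–Shimura form: an involution `W` commuting with `T` and a nonzero `y` with
`T² y + (q + 1) W T y + q y = 0`; here `T` is assumed injective on the vectors at hand. -/
theorem s35a60_of_ES (T W : Module.End O M) (b q : O)
    (htf : ∀ (a : O) (v : M), a • v = 0 → a = 0 ∨ v = 0)
    (hW : W * W = 1) (hWT : Commute W T)
    (y : M) (hTy : T y ≠ 0)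
    (hquad : T (T y) - b • T y + q • y = 0)
    (h : T (T y) + (q + 1) • W (T y) + q • y = 0) :
    b = q + 1 ∨ b = -(q + 1) := by
  have hWW : ∀ x, W (W x) = x := fun x => congrArg (fun g : Module.End O M => g x) hW
  have hWTx : ∀ x, W (T x) = T (W x) := fun x => congrArg (fun g : Module.End O M => g x) hWT.eq
  -- `b • T y = -(q + 1) • W (T y)`
  have h1 : b • T y = -((q + 1) • W (T y)) := by
    have e1 : b • T y = T (T y) + q • y := by
      have := hquad
      rw [sub_add_eq_add_sub, sub_eq_zero] at this
      exact this.symm
    rw [e1]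
    exact eq_neg_of_add_eq_zero_left (by rw [← h]; abel)
  -- apply `W`
  have h2 : b • W (T y) = -((q + 1) • T y) := by
    have := congrArg W h1
    rw [map_smul, map_neg, map_smul, hWW] at this
    exact this
  have h3 : (b * b - (q + 1) * (q + 1)) • T y = 0 := by
    rw [sub_smul, mul_smul, mul_smul, h1, smul_neg, smul_comm b (q + 1), h2, smul_neg, neg_neg,
      sub_self]
  rcases htf _ _ h3 with h4 | h4
  · have h5 : (b - (q + 1)) * (b + (q + 1)) = 0 := by linear_combination h4
    rcases mul_eq_zero.mp h5 with h6 | h6
    · left; linear_combination h6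
    · right; linear_combination h6
  · exact absurd h4 hTy

end s35a60

end Fermat.Agent.S35
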