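import Mathlib
import Fermat.Agent.S30.Iface37
import Fermat.Agent.S30.EigenTateAsm21
import Fermat.Agent.S35.EndAlg60

/-!
# S35 lab (helper60): the endgame

S35 is S30 (for `χ := iota ∘ chig.rangeRestrict`, coefficients `O'' := O'`) plus ONE clause: for
`q ∥ M`, `q ≠ lam` and EVERY Frobenius lift `σ` at `q`, the characteristic polynomial of `ρ σ` is
`X² ∓ (q + 1) X + q`.

* `s35e60_of_matrix` : the conclusion of the frozen statement S35 (for a character `χ` of the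
  Hecke algebra with values in `O'`) from a matrix-valued representation with the trace /
  determinant at the good Frobenius elements, entrywise adic continuity, and
  `det = q`, `trace = ±(q + 1)` at the Frobenius lifts at `q ∥ M`, `q ≠ lam`.
* `s35e60_ET p N S O hp a` : the conclusion of the row (ET) of S30 WITHOUT (M5), plus
  **(M8)**: for `q ∥ N`, `q ≠ p`, a Frobenius lift `τ` at `q` and a scalar `b` with
  `ρ(τ)² − b ρ(τ) + q = 0` on the module: `b = q + 1 ∨ b = −(q + 1)`.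
* `s35e60_endgame` : (CORE of S30) + `s35e60_ET` imply the conclusion of S35.
* `s35e60_M8_of_prod`, `s35e60_M8_of_eigen` : (M8) at `q` from, for every Frobenius lift `τ` at
  `q`, ONE nonzero vector of the module killed by `∏ (ρ τ − ν_i)`, `ν_i ∈ {1, −1, q, −q}`, resp.
  one eigenvector with such an eigenvalue (abstract algebra: `EndAlg60`, which also has the
  forms with an involution `W`: `s35a60_of_invol`, `s35a60_of_ES`).
* `s35e60_ET_of_ea21` : `s35e60_ET` for the concrete eigen-Tate module `ea21_M` of S30 from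
  (M3) (a nonzero vector) and (M8) for `ea21_rho`.

All names are prefixed `s35e60_`.
-/

set_option autoImplicit false
set_option linter.unusedSectionVars false
set_option linter.unusedVariables false
set_option linter.style.longLine false
set_option linter.style.haveILetI false

open CongruenceSubgroup ModularCurve ModularCurve.Period Polynomial
open scoped TensorProduct

namespace Fermat.Agent.S35

open Fermat.Agent.S30 Fermat.Agent.S16

local notation "Qb" => AlgebraicClosure ℚ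
local notation "GQ" => AlgebraicClosure ℚ ≃ₐ[ℚ] AlgebraicClosure ℚ

/-! ### The statement-facing wrapper -/

/-- **Conclusion of the frozen S35 from a matrix-valued representation** (coefficients
`O'' := O'`). -/
theorem s35e60_of_matrix {M : ℕ} [NeZero M] (lam : ℕ) (S : Finset ℕ)
    (O' : Type) [CommRing O'] [IsDomain O'] [IsDiscreteValuationRing O']
    [IsAdicComplete (IsLocalRing.maximalIdeal O') O'] [Finite (IsLocalRing.ResidueField O')]
    [CharZero O']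
    (χ : CuspForm.heckeAlgebra M 2 (↑S : Set ℕ) →+* O')
    (ρ' : GQ →* Matrix (Fin 2) (Fin 2) O')
    (htr : ∀ (ℓ : ℕ) (hℓ : ℓ.Prime) (hℓM : ¬ ℓ ∣ M) (hℓS : ℓ ∉ (↑S : Set ℕ)),
      ∀ A : ValuationSubring Qb, A.LiesOverPrime ℓ →
        ∀ σ : GQ, A.IsFrobeniusAt σ ℓ →
          (ρ' σ).trace = χ (CuspForm.heckeAlgebra.T hℓ hℓM hℓS) ∧ (ρ' σ).det = (ℓ : O'))
    (hcont : ∀ n : ℕ, ∃ L : IntermediateField ℚ Qb, FiniteDimensional ℚ L ∧
      ∀ σ : GQ, (∀ x ∈ L, σ x = x) →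
        ∀ i j, ρ' σ i j - (1 : Matrix (Fin 2) (Fin 2) O') i j ∈ IsLocalRing.maximalIdeal O' ^ n)
    (hbad : ∀ q : ℕ, q.Prime → q ≠ lam → q ∣ M → ¬ q ^ 2 ∣ M →
      ∀ A : ValuationSubring Qb, A.LiesOverPrime q →
        ∀ σ : GQ, A.IsFrobeniusAt σ q →
          (ρ' σ).det = (q : O') ∧
            ((ρ' σ).trace = (q : O') + 1 ∨ (ρ' σ).trace = -((q : O') + 1))) :
    ∃ (O'' : Type) (_ : CommRing O'') (_ : IsDomain O'') (_ : IsDiscreteValuationRing O'')
      (_ : IsAdicComplete (IsLocalRing.maximalIdeal O'') O'') (_ : Finite (IsLocalRing.ResidueField O''))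
      (_ : CharZero O'') (_ : Algebra O' O'') (_ : Module.Finite O' O'') (_ : IsLocalHom (algebraMap O' O'')),
      Function.Injective (algebraMap O' O'') ∧
      ∃ ρ : GaloisRepAdic O'',
        (∀ (ℓ : ℕ) (hℓ : ℓ.Prime) (hℓM : ¬ ℓ ∣ M) (hℓS : ℓ ∉ (↑S : Set ℕ)),
          ∀ A : ValuationSubring (AlgebraicClosure ℚ), A.LiesOverPrime ℓ →
            ∀ σ : AlgebraicClosure ℚ ≃ₐ[ℚ] AlgebraicClosure ℚ, A.IsFrobeniusAt σ ℓ →
              LinearMap.charpoly (ρ.ρ σ) =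
                X ^ 2 - C (algebraMap O' O'' (χ (CuspForm.heckeAlgebra.T hℓ hℓM hℓS))) * X
                  + C ((ℓ : O''))) ∧
        (∀ q : ℕ, q.Prime → q ≠ lam → q ∣ M → ¬ q ^ 2 ∣ M →
          ∀ A : ValuationSubring (AlgebraicClosure ℚ), A.LiesOverPrime q →
            ∀ σ : AlgebraicClosure ℚ ≃ₐ[ℚ] AlgebraicClosure ℚ, A.IsFrobeniusAt σ q →
              LinearMap.charpoly (ρ.ρ σ) = X ^ 2 - C ((q : O'') + 1) * X + C ((q : O'')) ∨
              LinearMap.charpoly (ρ.ρ σ) = X ^ 2 + C ((q : O'') + 1) * X + C ((q : O''))) := by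
  refine ⟨O', inferInstance, inferInstance, inferInstance, inferInstance, inferInstance,
    inferInstance, Algebra.id O', inferInstance, ⟨fun a ha => ha⟩, fun a b h => h,
    w13_rep ρ' hcont, ?_, ?_⟩
  · intro ℓ hℓ hℓM hℓS A hA σ hσ
    obtain ⟨h1, h2⟩ := htr ℓ hℓ hℓM hℓS A hA σ hσ
    rw [w13_rep_charpoly, h1, h2]
    rfl
  · intro q hq hqlam hqM hq2 A hA σ hσ
    obtain ⟨h1, h2⟩ := hbad q hq hqlam hqM hq2 A hA σ hσ
    rcases h2 with h2 | h2
    · left
      rw [w13_rep_charpoly, h1, h2]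
    · right
      rw [w13_rep_charpoly, h1, h2, map_neg]
      ring

/-! ### The eigen-Tate interface with (M8) -/

/-- **(M8)** at one prime `q` for a module with a `G_ℚ`-action: every scalar `b` with
`ρ(τ)² − b ρ(τ) + q = 0` (`τ` a Frobenius lift at `q`) is `q + 1` or `−(q + 1)`. -/
def s35e60_M8 (q : ℕ) (O : Type) [CommRing O] (M : Type) [AddCommGroup M] [Module O M]
    (ρ : GQ →* Module.End O M) : Prop :=
  ∀ A : ValuationSubring Qb, A.LiesOverPrime q →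
    ∀ τ : GQ, A.IsFrobeniusAt τ q →
      ∀ b : O, (∀ w : M, ρ τ (ρ τ w) - b • ρ τ w + (q : O) • w = 0) →
        b = (q : O) + 1 ∨ b = -((q : O) + 1)

/-- **Conclusion of the row (ET) for S35**: the eigen-Tate module of S30 (without the inertia
clause (M5), which S35 does not need) with the new clause (M8) at the primes `q ∥ N`, `q ≠ p`. -/
def s35e60_ET (p : ℕ) [Fact p.Prime] (N : ℕ) [NeZero N] (S : Finset ℕ)
    (O : Type) [CommRing O] [IsDomain O] [IsDiscreteValuationRing O]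
    [IsAdicComplete (IsLocalRing.maximalIdeal O) O]
    (hp : (p : O) ∈ IsLocalRing.maximalIdeal O) (a : ℕ → O) : Prop :=
  ∃ (M : Type) (_ : AddCommGroup M) (_ : Module O M) (ρ : GQ →* Module.End O M),
    -- (M1) torsion-free
    (∀ (b : O) (w : M), b • w = 0 → b = 0 ∨ w = 0) ∧
    -- (M2) separated
    (∀ w : M, (∀ n : ℕ, w ∈ (IsLocalRing.maximalIdeal O ^ n) • (⊤ : Submodule O M)) → w = 0) ∧
    -- (M3) nonzero
    (∃ w : M, w ≠ 0) ∧
    -- (M4) quadratic relation, Cauchy form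
    (∀ (g : GQ) (w : M) (n : ℕ), ∃ b : O,
      ρ g w + ((ca15_eps p (IsLocalRing.maximalIdeal O) hp g : Oˣ) : O) • ρ g⁻¹ w - b • w ∈
        (IsLocalRing.maximalIdeal O ^ n) • (⊤ : Submodule O M)) ∧
    -- (M6) open stabilisers modulo `m ^ n`, vectorwise
    (∀ (w : M) (n : ℕ), ∃ E : IntermediateField ℚ Qb, FiniteDimensional ℚ E ∧
      ∀ σ : GQ, (∀ x ∈ E, σ x = x) →
        ρ σ w - w ∈ (IsLocalRing.maximalIdeal O ^ n) • (⊤ : Submodule O M)) ∧
    -- (M7) Eichler-Shimura at Frobenius elements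
    (∀ ℓ : ℕ, ℓ.Prime → ¬ ℓ ∣ N → ℓ ∉ S →
      ∀ A : ValuationSubring Qb, A.LiesOverPrime ℓ →
        ∀ τ : GQ, A.IsFrobeniusAt τ ℓ →
          ∀ w : M, ρ τ (ρ τ w) - a ℓ • ρ τ w + (ℓ : O) • w = 0) ∧
    -- (M8) the Frobenius lifts at `q ∥ N`, `q ≠ p`
    (∀ q : ℕ, q.Prime → q ≠ p → q ∣ N → ¬ q ^ 2 ∣ N → s35e60_M8 q O M ρ)

/-! ### The endgame -/

/-- **S35 from its rows**: (CORE of S30) + `s35e60_ET` for the eigenvalues of `χ` imply the
conclusion of the frozen statement S35 for `(lam, M, S, O', χ)`. -/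
theorem s35e60_endgame (lam : ℕ) [Fact lam.Prime] (M : ℕ) [NeZero M] (S : Finset ℕ)
    (hlamS : lam ∈ S) (hMS : ∀ q : ℕ, q.Prime → q ∣ M → q ∈ S)
    (O' : Type) [CommRing O'] [IsDomain O'] [IsDiscreteValuationRing O']
    [IsAdicComplete (IsLocalRing.maximalIdeal O') O'] [Finite (IsLocalRing.ResidueField O')]
    [CharZero O'] (hlamO' : (lam : O') ∈ IsLocalRing.maximalIdeal O')
    (χ : CuspForm.heckeAlgebra M 2 (↑S : Set ℕ) →+* O')
    (hcore : s30i37_Core O')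
    (het : s35e60_ET lam M S O' hlamO' (fun ℓ =>
      if h : ℓ.Prime ∧ ¬ ℓ ∣ M ∧ ℓ ∉ (↑S : Set ℕ) then
        χ (CuspForm.heckeAlgebra.T h.1 h.2.1 h.2.2) else 0)) :
    ∃ (O'' : Type) (_ : CommRing O'') (_ : IsDomain O'') (_ : IsDiscreteValuationRing O'')
      (_ : IsAdicComplete (IsLocalRing.maximalIdeal O'') O'') (_ : Finite (IsLocalRing.ResidueField O''))
      (_ : CharZero O'') (_ : Algebra O' O'') (_ : Module.Finite O' O'') (_ : IsLocalHom (algebraMap O' O'')),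
      Function.Injective (algebraMap O' O'') ∧
      ∃ ρ : GaloisRepAdic O'',
        (∀ (ℓ : ℕ) (hℓ : ℓ.Prime) (hℓM : ¬ ℓ ∣ M) (hℓS : ℓ ∉ (↑S : Set ℕ)),
          ∀ A : ValuationSubring (AlgebraicClosure ℚ), A.LiesOverPrime ℓ →
            ∀ σ : AlgebraicClosure ℚ ≃ₐ[ℚ] AlgebraicClosure ℚ, A.IsFrobeniusAt σ ℓ →
              LinearMap.charpoly (ρ.ρ σ) =
                X ^ 2 - C (algebraMap O' O'' (χ (CuspForm.heckeAlgebra.T hℓ hℓM hℓS))) * X
                  + C ((ℓ : O''))) ∧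
        (∀ q : ℕ, q.Prime → q ≠ lam → q ∣ M → ¬ q ^ 2 ∣ M →
          ∀ A : ValuationSubring (AlgebraicClosure ℚ), A.LiesOverPrime q →
            ∀ σ : AlgebraicClosure ℚ ≃ₐ[ℚ] AlgebraicClosure ℚ, A.IsFrobeniusAt σ q →
              LinearMap.charpoly (ρ.ρ σ) = X ^ 2 - C ((q : O'') + 1) * X + C ((q : O'')) ∨
              LinearMap.charpoly (ρ.ρ σ) = X ^ 2 + C ((q : O'') + 1) * X + C ((q : O''))) := by
  classical
  obtain ⟨Mod, instM1, instM2, ρ, hM1, hM2, hM3, hM4, hM6, hM7, hM8⟩ := het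
  -- the core
  obtain ⟨t, ρ', hC1, hC2, hC3, hC4⟩ :=
    hcore GQ Mod ρ (ca15_eps lam (IsLocalRing.maximalIdeal O') hlamO') complexConjugation
      hM1 hM2 hM3 hM4 complexConjugation_mul_self
      (ca15_eps_conj' lam (IsLocalRing.maximalIdeal O') hlamO')
  -- the quadratic relation at a Frobenius lift
  have hquad : ∀ (ℓ : ℕ), ℓ.Prime → ℓ ≠ lam → ∀ A : ValuationSubring Qb, A.LiesOverPrime ℓ →
      ∀ σ : GQ, A.IsFrobeniusAt σ ℓ →
        ∀ w : Mod, ρ σ (ρ σ w) - t σ • ρ σ w + (ℓ : O') • w = 0 := by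
    intro ℓ hℓ hℓlam A hA σ hσ w
    have hε : ((ca15_eps lam (IsLocalRing.maximalIdeal O') hlamO' σ : O'ˣ) : O') = (ℓ : O') :=
      ca15_eps_frob lam (IsLocalRing.maximalIdeal O') hlamO' hℓ hℓlam A hA σ hσ
    have hinv : ρ σ⁻¹ (ρ σ w) = w := by
      have : ρ σ⁻¹ * ρ σ = 1 := by rw [← map_mul, inv_mul_cancel, map_one]
      exact congrArg (fun f : Module.End O' Mod => f w) this
    have h1 := congrArg (fun f : Module.End O' Mod => f (ρ σ w)) (hC1 σ)
    simp only [LinearMap.add_apply, LinearMap.smul_apply, Module.End.one_apply] at h1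
    rw [hinv, hε] at h1
    rw [← h1]
    abel
  refine s35e60_of_matrix lam S O' χ ρ' ?_ ?_ ?_
  · -- good Frobenius elements: trace and determinant
    intro ℓ hℓ hℓM hℓS A hA σ hσ
    have hℓS' : ℓ ∉ S := fun hm => hℓS (Finset.mem_coe.mpr hm)
    have hℓlam : ℓ ≠ lam := fun h => hℓS' (h ▸ hlamS)
    have hε : ((ca15_eps lam (IsLocalRing.maximalIdeal O') hlamO' σ : O'ˣ) : O') = (ℓ : O') :=
      ca15_eps_frob lam (IsLocalRing.maximalIdeal O') hlamO' hℓ hℓlam A hA σ hσ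
    obtain ⟨htr, hdet⟩ := hC2 σ
    refine ⟨?_, by rw [hdet, hε]⟩
    rw [htr]
    obtain ⟨w, hw⟩ := hM3
    have hinv : ρ σ⁻¹ (ρ σ w) = w := by
      have : ρ σ⁻¹ * ρ σ = 1 := by rw [← map_mul, inv_mul_cancel, map_one]
      exact congrArg (fun f : Module.End O' Mod => f w) this
    have h1 := hquad ℓ hℓ hℓlam A hA σ hσ w
    have h2 : ρ σ (ρ σ w) - χ (CuspForm.heckeAlgebra.T hℓ hℓM hℓS) • ρ σ w + (ℓ : O') • w = 0 := by
      have h0 := hM7 ℓ hℓ hℓM hℓS' A hA σ hσ w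
      simpa only [dif_pos (show ℓ.Prime ∧ ¬ ℓ ∣ M ∧ ℓ ∉ (↑S : Set ℕ) from ⟨hℓ, hℓM, hℓS⟩)]
        using h0
    have h3 : (t σ - χ (CuspForm.heckeAlgebra.T hℓ hℓM hℓS)) • ρ σ w = 0 := by
      rw [sub_smul]
      have h5 : t σ • ρ σ w - χ (CuspForm.heckeAlgebra.T hℓ hℓM hℓS) • ρ σ w
          = (ρ σ (ρ σ w) - χ (CuspForm.heckeAlgebra.T hℓ hℓM hℓS) • ρ σ w + (ℓ : O') • w)
            - (ρ σ (ρ σ w) - t σ • ρ σ w + (ℓ : O') • w) := by abel
      rw [h5, h1, h2, sub_zero]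
    rcases hM1 _ _ h3 with h4 | h4
    · exact sub_eq_zero.mp h4
    · exact absurd (by rw [← hinv, h4, map_zero]) hw
  · -- adic continuity
    intro n
    obtain ⟨s, k, hsk⟩ := hC4 n
    have hfield : ∃ E : IntermediateField ℚ Qb, FiniteDimensional ℚ E ∧
        ∀ σ : GQ, (∀ x ∈ E, σ x = x) →
          (∀ w ∈ s, ρ σ w - w ∈
            (IsLocalRing.maximalIdeal O' ^ k) • (⊤ : Submodule O' Mod)) := by
      exact s30e37_fields_finset s
        (fun w σ => ρ σ w - w ∈ (IsLocalRing.maximalIdeal O' ^ k) • (⊤ : Submodule O' Mod))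
        (fun w _ => hM6 w k)
    obtain ⟨E₁, hE₁, h₁⟩ := s30e37_conj hfield
    obtain ⟨E₂, hE₂, h₂⟩ := ca15_eps_cont lam (IsLocalRing.maximalIdeal O') hlamO' k
    haveI := hE₁
    haveI := hE₂
    refine ⟨E₁ ⊔ E₂, IntermediateField.finiteDimensional_sup E₁ E₂, fun σ hσ i j => ?_⟩
    refine hsk σ (fun h w hw => ?_) ?_ i j
    · exact h₁ σ (fun x hx => hσ x ((le_sup_left : E₁ ≤ E₁ ⊔ E₂) hx)) h w hw
    · exact h₂ σ fun x hx => hσ x ((le_sup_right : E₂ ≤ E₁ ⊔ E₂) hx)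
  · -- the Frobenius lifts at `q ∥ M`, `q ≠ lam`
    intro q hq hqlam hqM hq2 A hA σ hσ
    have hε : ((ca15_eps lam (IsLocalRing.maximalIdeal O') hlamO' σ : O'ˣ) : O') = (q : O') :=
      ca15_eps_frob lam (IsLocalRing.maximalIdeal O') hlamO' hq hqlam A hA σ hσ
    obtain ⟨htr, hdet⟩ := hC2 σ
    refine ⟨by rw [hdet, hε], ?_⟩
    rw [htr]
    exact hM8 q hq hqlam hqM hq2 A hA σ hσ (t σ) (hquad q hq hqlam A hA σ hσ)

/-! ### (M8) from one vector; the concrete eigen-Tate module of S30 -/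

/-- (M8) at `q` for a torsion-free module from, for every Frobenius lift `τ` at `q`, ONE nonzero
vector killed by a product of factors `ρ τ − ν`, `ν ∈ {1, −1, q, −q}` (for instance
`(τ² − q²)(τ² − 1)²`, the list `[q, −q, 1, 1, −1, −1]`). -/
theorem s35e60_M8_of_prod (q : ℕ) (O : Type) [CommRing O] [IsDomain O] (hq0 : (q : O) ≠ 0)
    (M : Type) [AddCommGroup M] [Module O M] (ρ : GQ →* Module.End O M)
    (hM1 : ∀ (b : O) (w : M), b • w = 0 → b = 0 ∨ w = 0)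
    (h : ∀ A : ValuationSubring Qb, A.LiesOverPrime q → ∀ τ : GQ, A.IsFrobeniusAt τ q →
      ∃ l : List O, (∀ ν ∈ l, ν = 1 ∨ ν = -1 ∨ ν = (q : O) ∨ ν = -(q : O)) ∧
        ∃ w : M, w ≠ 0 ∧ (l.map fun ν => ρ τ - ν • (1 : Module.End O M)).prod w = 0) :
    s35e60_M8 q O M ρ := by
  intro A hA τ hτ b hb
  obtain ⟨l, hl, w, hw, hprod⟩ := h A hA τ hτ
  exact s35a60_of_prod (ρ τ) b (q : O) hq0 hM1 l hl w hw (hb w) hprod

/-- (M8) at `q` from an eigenvector: for every Frobenius lift `τ` at `q` a nonzero vector `v`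
with `ρ τ v = ν • v`, `ν ∈ {1, −1, q, −q}`. -/
theorem s35e60_M8_of_eigen (q : ℕ) (O : Type) [CommRing O] [IsDomain O] (hq0 : (q : O) ≠ 0)
    (M : Type) [AddCommGroup M] [Module O M] (ρ : GQ →* Module.End O M)
    (hM1 : ∀ (b : O) (w : M), b • w = 0 → b = 0 ∨ w = 0)
    (h : ∀ A : ValuationSubring Qb, A.LiesOverPrime q → ∀ τ : GQ, A.IsFrobeniusAt τ q →
      ∃ ν : O, (ν = 1 ∨ ν = -1 ∨ ν = (q : O) ∨ ν = -(q : O)) ∧
        ∃ v : M, v ≠ 0 ∧ ρ τ v = ν • v) :
    s35e60_M8 q O M ρ := by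
  intro A hA τ hτ b hb
  obtain ⟨ν, hν, v, hv, hvν⟩ := h A hA τ hτ
  exact s35a60_of_eigen (ρ τ) b (q : O) hq0 v (fun c hc => (hM1 c v hc).resolve_right hv) (hb v)
    ν hν hvν

/-- `s35e60_ET` for the concrete eigen-Tate module `ea21_M` of S30 (helper21): (M1), (M2), (M4),
(M6), (M7) are the theorems of `EigenTateAsm21`; (M3) and (M8) are the inputs. -/
theorem s35e60_ET_of_ea21 (p : ℕ) [Fact p.Prime] (N : ℕ) [NeZero N] (S : Finset ℕ)
    (O : Type) [CommRing O] [IsDomain O] [IsDiscreteValuationRing O]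
    [IsAdicComplete (IsLocalRing.maximalIdeal O) O] [CharZero O] (a : ℕ → O)
    (hp : (p : O) ∈ IsLocalRing.maximalIdeal O)
    (hpS : p ∈ S) (hNS : ∀ q : ℕ, q.Prime → q ∣ N → q ∈ S)
    (hM3 : ∃ w : ea21_M p N S O a, w ≠ 0)
    (hM8 : ∀ q : ℕ, q.Prime → q ≠ p → q ∣ N → ¬ q ^ 2 ∣ N →
      s35e60_M8 q O (ea21_M p N S O a) (ea21_rho p N S O a)) :
    s35e60_ET p N S O hp a :=
  ⟨↥(ea21_M p N S O a), inferInstance, inferInstance, ea21_rho p N S O a,
    ea21_M1 p N S O a hp, ea21_M2 p N S O a, hM3,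
    ea21_M4 p N S O a hp hpS hNS,
    ea21_M6 p N S O a hp,
    fun ℓ hℓ hℓN hℓS A hA τ hτ w => ea21_M7 p N S O a hpS ℓ hℓ hℓN hℓS A hA τ hτ w,
    hM8⟩

end Fermat.Agent.S35
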