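import Mathlib
import Fermat.Agent.S35.Endgame60

/-!
# S35 lab (helper60): the marked vector of the eigen-Tate module (row A-MarkedVector)

Setting of `ea21_M3` (S30): `L = parabolicHoms ℤ (Gamma0 N) ℤ`, a compatible family of Kummer maps
`Θ n : L →+ JZero N` (`s30i37_ThetaFamily N p Θ`), a primitive eigenvector `x0 ∈ O ⊗ L`.
The marked vector is `w0 := ts35_theta O p Θ x0 ∈ ea21_M p N S O a`; its components are
`(O ⊗ Θ n) x0`.

NEW: if `x0` lies in the `O`-span of the pure tensors `1 ⊗ c`, `c ∈ Lnew` (`Lnew` ANY set of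
lattice vectors: in the application the q-new sublattice), and an integer polynomial in a Galois
element `τ`, given by its root list `l : List ℤ`, kills every `Θ n c`, `c ∈ Lnew`, then the same
polynomial in `ea21_rho τ` kills `w0`.

* `s35v60_rootProd T l` : the product of the factors `T − ν`, `ν ∈ l` (abstract);
* `s35v60_tmul_prod`  : `∏ (O ⊗ T − ν) (o ⊗ x) = o ⊗ ∏ (T − ν) x`;
* `s35v60_rho_prod`   : `∏ (ea21_rho τ − ν)` is componentwise `∏ (tt21_gal τ − ν)`;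
* `s35v60_theta_mem`, `s35v60_theta_ne` : the marked vector lies in `ea21_M` and is nonzero
  (the proof of `ea21_M3`, made explicit);
* `s35v60_marked`     : the marked vector and its annihilating root products;
* `s35v60_ET`         : **`s35e60_ET p N S O hp a`** from the hypotheses of `ea21_M3`, `Lnew` and
  the annihilation of the `Θ n c` (`c ∈ Lnew`) by a root list with entries in `{1, −1, q, −q}`
  at every Frobenius lift at `q ∥ N`, `q ≠ p`.

All names are prefixed `s35v60_`.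
-/

set_option autoImplicit false
set_option linter.unusedSectionVars false
set_option linter.unusedVariables false
set_option linter.style.longLine false
set_option linter.style.haveILetI false

open CongruenceSubgroup ModularCurve ModularCurve.Period AlgebraicCurve TensorProduct Polynomial

namespace Fermat.Agent.S35

open Fermat.Agent.S30 Fermat.Agent.S42 Fermat.Agent.S16

local notation "Qb" => AlgebraicClosure ℚ
local notation "GQ" => AlgebraicClosure ℚ ≃ₐ[ℚ] AlgebraicClosure ℚ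

section s35v60_rootProd

/-- The product of the factors `T − ν`, `ν` running through a list of scalars (for instance
`[q, −q, 1, 1, −1, −1]` for `(T² − q²)(T² − 1)²`). -/
def s35v60_rootProd {O M : Type*} [CommRing O] [AddCommGroup M] [Module O M]
    (T : Module.End O M) (l : List O) : Module.End O M :=
  (l.map fun ν : O => T - ν • (1 : Module.End O M)).prod

theorem s35v60_rootProd_nil {O M : Type*} [CommRing O] [AddCommGroup M] [Module O M]
    (T : Module.End O M) : s35v60_rootProd T [] = 1 := rfl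

theorem s35v60_rootProd_cons {O M : Type*} [CommRing O] [AddCommGroup M] [Module O M]
    (T : Module.End O M) (ν : O) (l : List O) :
    s35v60_rootProd T (ν :: l) = (T - ν • (1 : Module.End O M)) * s35v60_rootProd T l := by
  rw [s35v60_rootProd, List.map_cons, List.prod_cons]
  rfl

theorem s35v60_rootProd_cons_apply {O M : Type*} [CommRing O] [AddCommGroup M] [Module O M]
    (T : Module.End O M) (ν : O) (l : List O) (x : M) :
    s35v60_rootProd T (ν :: l) x = T (s35v60_rootProd T l x) - ν • s35v60_rootProd T l x := by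
  rw [s35v60_rootProd_cons, Module.End.mul_apply, LinearMap.sub_apply, LinearMap.smul_apply,
    Module.End.one_apply]

/-- Root products and restriction to a stable submodule. -/
theorem s35v60_rootProd_restrict {O A : Type*} [CommRing O] [AddCommGroup A] [Module O A]
    (E : Submodule O A) (F : Module.End O A) (hF : ∀ x ∈ E, F x ∈ E) (l : List O) (w : E) :
    ((s35v60_rootProd (F.restrict hF) l w : E) : A) = s35v60_rootProd F l (w : A) := by
  induction l with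
  | nil => rfl
  | cons ν l ih =>
    rw [s35v60_rootProd_cons_apply, s35v60_rootProd_cons_apply, ← ih]
    rfl

/-- Root products on Tate sequences are componentwise. -/
theorem s35v60_rootProd_ts35 {R : Type*} [CommRing R] (p : R) (B : Type*) [AddCommGroup B]
    [Module R B] (f : Module.End R B) (l : List R) (x : ts35_T p B) (n : ℕ) :
    ((s35v60_rootProd (ts35_map p B f) l x : ts35_T p B) : ℕ → B) n
      = s35v60_rootProd f l ((x : ℕ → B) n) := by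
  induction l with
  | nil => rfl
  | cons ν l ih =>
    rw [s35v60_rootProd_cons_apply, s35v60_rootProd_cons_apply, ← ih]
    rfl

end s35v60_rootProd

section s35v60_abs

variable (O : Type) [CommRing O] {J : Type} [AddCommGroup J]

/-- A root product of `O ⊗ T` (integral roots) on a pure tensor. -/
theorem s35v60_tmul_prod (T : Module.End ℤ J) (l : List ℤ) (o : O) (x : J) :
    s35v60_rootProd (T.baseChange O) (l.map fun ν : ℤ => (ν : O)) (o ⊗ₜ[ℤ] x)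
      = o ⊗ₜ[ℤ] (s35v60_rootProd T l x) := by
  induction l with
  | nil => rfl
  | cons ν l ih =>
    rw [List.map_cons, s35v60_rootProd_cons_apply, ih, s35v60_rootProd_cons_apply,
      LinearMap.baseChange_tmul, tl35_intCast_smul, TensorProduct.tmul_sub,
      TensorProduct.tmul_smul]

/-- A root product of `O ⊗ T` kills `(O ⊗ θ) v` when `v` is in the span of the pure tensors
`1 ⊗ c`, `c ∈ K`, and the integral root product kills every `θ c`, `c ∈ K`. -/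
theorem s35v60_baseChange_kill {L : Type} [AddCommGroup L] (T : Module.End ℤ J) (l : List ℤ)
    (θ : L →+ J) (K : Set L)
    (hK : ∀ c ∈ K, s35v60_rootProd T l (θ c) = 0)
    (v : O ⊗[ℤ] L) (hv : v ∈ Submodule.span O ((fun c : L => (1 : O) ⊗ₜ[ℤ] c) '' K)) :
    s35v60_rootProd (T.baseChange O) (l.map fun ν : ℤ => (ν : O))
      (θ.toIntLinearMap.baseChange O v) = 0 := by
  induction hv using Submodule.span_induction with
  | mem y hy =>
    obtain ⟨c, hc, rfl⟩ := hy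
    show s35v60_rootProd (T.baseChange O) (l.map fun ν : ℤ => (ν : O))
      (θ.toIntLinearMap.baseChange O ((1 : O) ⊗ₜ[ℤ] c)) = 0
    rw [LinearMap.baseChange_tmul, s35v60_tmul_prod]
    show (1 : O) ⊗ₜ[ℤ] (s35v60_rootProd T l (θ c)) = 0
    rw [hK c hc, TensorProduct.tmul_zero]
  | zero => rw [map_zero, map_zero]
  | add y z _ _ hy hz => rw [map_add, map_add, hy, hz, add_zero]
  | smul r y _ hy => rw [map_smul, map_smul, hy, smul_zero]

end s35v60_abs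

section s35v60_rho

variable (p : ℕ) (N : ℕ) [NeZero N] (S : Finset ℕ) (O : Type) [CommRing O] (a : ℕ → O)

/-- A root product of `ea21_rho τ` acts componentwise by the root product of `tt21_gal τ`. -/
theorem s35v60_rho_prod (τ : GQ) (l : List O) (w : ea21_M p N S O a) (n : ℕ) :
    ea21_comp p N S O a (s35v60_rootProd (ea21_rho p N S O a τ) l w) n
      = s35v60_rootProd (tt21_gal O N τ) l (ea21_comp p N S O a w n) := by
  have h1 := s35v60_rootProd_restrict (ea21_M p N S O a)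
    (ts35_map (p : O) (tt21_B O N) (tt21_gal O N τ))
    (fun x hx => ea21_stable p N S O a τ x hx) l w
  have h2 := s35v60_rootProd_ts35 (p : O) (tt21_B O N) (tt21_gal O N τ) l
    (w : ts35_T (p : O) (tt21_B O N)) n
  rw [← h1] at h2
  exact h2

end s35v60_rho

section s35v60_main

variable (p : ℕ) [Fact p.Prime] (N : ℕ) [NeZero N] (S : Finset ℕ)
  (O : Type) [CommRing O] [IsDomain O] [IsDiscreteValuationRing O]
  [IsAdicComplete (IsLocalRing.maximalIdeal O) O] [CharZero O] (a : ℕ → O)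

/-- The marked vector lies in the eigen-Tate module (the membership half of `ea21_M3`). -/
theorem s35v60_theta_mem
    (hpS : p ∈ S) (hNS : ∀ q : ℕ, q.Prime → q ∣ N → q ∈ S)
    (TL : ℕ → Module.End ℤ ↥(parabolicHoms ℤ (Gamma0 N) ℤ))
    (x0 : O ⊗[ℤ] ↥(parabolicHoms ℤ (Gamma0 N) ℤ))
    (Θ : ℕ → (↥(parabolicHoms ℤ (Gamma0 N) ℤ) →+ JZero N))
    (hTL : ∀ ℓ : ℕ, ℓ.Prime → ℓ ∉ S → ∀ x : ↥(parabolicHoms ℤ (Gamma0 N) ℤ),
      ((TL ℓ x : ↥(parabolicHoms ℤ (Gamma0 N) ℤ)) : Additive ↥(Gamma0 N) →+ ℤ) =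
        heckeHom N ℓ ℤ (x : Additive ↥(Gamma0 N) →+ ℤ))
    (hx0a : ∀ ℓ : ℕ, ℓ.Prime → ℓ ∉ S → (TL ℓ).baseChange O x0 = a ℓ • x0)
    (hΘ : s30i37_ThetaFamily N p Θ)
    (h1 : ∀ x, (p : ℤ) • Θ 1 x = 0)
    (hc : ∀ n, 1 ≤ n → ∀ x, (p : ℤ) • Θ (n + 1) x = Θ n x) :
    ts35_theta O p Θ h1 hc x0 ∈ ea21_M p N S O a := by
  classical
  obtain ⟨hΘ1, hΘ2, hΘ3, hΘ4⟩ := hΘ
  have hpp : p.Prime := Fact.out
  refine ts35_mem_eigen.mpr ?_
  rintro ⟨ℓ, hℓ, hℓS⟩
  have hℓN : ¬ ℓ ∣ N := fun h => hℓS (hNS ℓ hℓ h)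
  have hℓp : ℓ ≠ p := fun h => hℓS (h ▸ hpS)
  have hℓp' : ¬ ℓ ∣ p := fun h => hℓp ((Nat.prime_dvd_prime_iff_eq hℓ hpp).mp h)
  have key := ts35_theta_equivariant O p Θ h1 hc
    ((heckeOperatorBar N ⟨ℓ, hℓ⟩ : JZero N →ₗ[ℤ] JZero N).toAddMonoidHom)
    ((TL ℓ : ↥(parabolicHoms ℤ (Gamma0 N) ℤ) →ₗ[ℤ]
      ↥(parabolicHoms ℤ (Gamma0 N) ℤ)).toAddMonoidHom)
    (by
      intro n _ x
      have hnd : ¬ ((⟨ℓ, hℓ⟩ : Nat.Primes) : ℕ) ∣ N * p ^ n := by
        intro hd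
        rcases (Nat.Prime.dvd_mul hℓ).mp hd with h | h
        · exact hℓN h
        · exact hℓp' (hℓ.dvd_of_dvd_pow h)
      obtain ⟨hχ, hh⟩ := hΘ3 n ⟨ℓ, hℓ⟩ hnd x
      show heckeOperatorBar N ⟨ℓ, hℓ⟩ (Θ n x) = Θ n (TL ℓ x)
      rw [hh]
      congr 1
      exact Subtype.ext (hTL ℓ hℓ hℓS x).symm) x0
  have e1 : ((heckeOperatorBar N ⟨ℓ, hℓ⟩ : JZero N →ₗ[ℤ] JZero N).toAddMonoidHom).toIntLinearMap
      = heckeOperatorBar N ⟨ℓ, hℓ⟩ := LinearMap.ext fun _ => rfl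
  have e2 : ((TL ℓ : ↥(parabolicHoms ℤ (Gamma0 N) ℤ) →ₗ[ℤ]
      ↥(parabolicHoms ℤ (Gamma0 N) ℤ)).toAddMonoidHom).toIntLinearMap = TL ℓ :=
    LinearMap.ext fun _ => rfl
  rw [e1, e2, hx0a ℓ hℓ hℓS, map_smul] at key
  exact key

/-- The marked vector is nonzero (the non-vanishing half of `ea21_M3`). -/
theorem s35v60_theta_ne (hp : (p : O) ∈ IsLocalRing.maximalIdeal O)
    (x0 : O ⊗[ℤ] ↥(parabolicHoms ℤ (Gamma0 N) ℤ))
    (Θ : ℕ → (↥(parabolicHoms ℤ (Gamma0 N) ℤ) →+ JZero N))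
    (hx0 : x0 ∉ IsLocalRing.maximalIdeal O •
      (⊤ : Submodule O (O ⊗[ℤ] ↥(parabolicHoms ℤ (Gamma0 N) ℤ))))
    (hΘ : s30i37_ThetaFamily N p Θ)
    (h1 : ∀ x, (p : ℤ) • Θ 1 x = 0)
    (hc : ∀ n, 1 ≤ n → ∀ x, (p : ℤ) • Θ (n + 1) x = Θ n x) :
    ts35_theta O p Θ h1 hc x0 ≠ 0 := by
  obtain ⟨hΘ1, hΘ2, hΘ3, hΘ4⟩ := hΘ
  have hker : ∀ x, Θ 1 x = 0 → ∃ y : ↥(parabolicHoms ℤ (Gamma0 N) ℤ), x = (p : ℤ) • y := by
    intro x hx
    obtain ⟨y, hy⟩ := hΘ2 1 x hx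
    refine ⟨y, ?_⟩
    rw [hy, pow_one, natCast_zsmul]
  have hv : ¬ ∃ w : O ⊗[ℤ] ↥(parabolicHoms ℤ (Gamma0 N) ℤ), x0 = (p : O) • w := by
    rintro ⟨w, rfl⟩
    exact hx0 (Submodule.smul_mem_smul hp Submodule.mem_top)
  exact ts35_theta_ne_zero O p Θ h1 hc hker x0 hv

/-- **The marked vector.**  Under the hypotheses of `ea21_M3`, if `x0` lies in the `O`-span of
the pure tensors `1 ⊗ c`, `c ∈ Lnew`, there is a nonzero vector `w` of the eigen-Tate module such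
that, for every `τ` and every integer root list `l`: if `∏ (τ − ν)` kills all `Θ n c`
(`c ∈ Lnew`) in `JZero N`, then `∏ (ea21_rho τ − ν)` kills `w`. -/
theorem s35v60_marked (hp : (p : O) ∈ IsLocalRing.maximalIdeal O)
    (hpS : p ∈ S) (hNS : ∀ q : ℕ, q.Prime → q ∣ N → q ∈ S)
    (TL : ℕ → Module.End ℤ ↥(parabolicHoms ℤ (Gamma0 N) ℤ))
    (x0 : O ⊗[ℤ] ↥(parabolicHoms ℤ (Gamma0 N) ℤ))
    (Θ : ℕ → (↥(parabolicHoms ℤ (Gamma0 N) ℤ) →+ JZero N))
    (hTL : ∀ ℓ : ℕ, ℓ.Prime → ℓ ∉ S → ∀ x : ↥(parabolicHoms ℤ (Gamma0 N) ℤ),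
      ((TL ℓ x : ↥(parabolicHoms ℤ (Gamma0 N) ℤ)) : Additive ↥(Gamma0 N) →+ ℤ) =
        heckeHom N ℓ ℤ (x : Additive ↥(Gamma0 N) →+ ℤ))
    (hx0 : x0 ∉ IsLocalRing.maximalIdeal O •
      (⊤ : Submodule O (O ⊗[ℤ] ↥(parabolicHoms ℤ (Gamma0 N) ℤ))))
    (hx0a : ∀ ℓ : ℕ, ℓ.Prime → ℓ ∉ S → (TL ℓ).baseChange O x0 = a ℓ • x0)
    (hΘ : s30i37_ThetaFamily N p Θ)
    (Lnew : Set ↥(parabolicHoms ℤ (Gamma0 N) ℤ))
    (hnew : x0 ∈ Submodule.span O
      ((fun c : ↥(parabolicHoms ℤ (Gamma0 N) ℤ) => (1 : O) ⊗ₜ[ℤ] c) '' Lnew)) :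
    ∃ w : ea21_M p N S O a, w ≠ 0 ∧
      ∀ (τ : GQ) (l : List ℤ),
        (∀ n : ℕ, ∀ c ∈ Lnew, s35v60_rootProd (tt21_galZ N τ) l (Θ n c) = 0) →
        s35v60_rootProd (ea21_rho p N S O a τ) (l.map fun ν : ℤ => (ν : O)) w = 0 := by
  have hpp : p.Prime := Fact.out
  have h1 : ∀ x, (p : ℤ) • Θ 1 x = 0 := by
    intro x
    have := hΘ.1 1 x
    rwa [pow_one] at this
  have hc : ∀ n, 1 ≤ n → ∀ x, (p : ℤ) • Θ (n + 1) x = Θ n x := fun n _ x => hΘ.2.2.2 n x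
  have hmem := s35v60_theta_mem p N S O a hpS hNS TL x0 Θ hTL hx0a hΘ h1 hc
  have hne := s35v60_theta_ne p N O hp x0 Θ hx0 hΘ h1 hc
  refine ⟨⟨_, hmem⟩, fun h0 => hne (congrArg Subtype.val h0), fun τ l hkill => ?_⟩
  refine ea21_ext p N S O a _ _ fun n => ?_
  rw [s35v60_rho_prod]
  show s35v60_rootProd (tt21_gal O N τ) (l.map fun ν : ℤ => (ν : O))
      (((ts35_theta O p Θ h1 hc x0 : ts35_T (p : O) (O ⊗[ℤ] JZero N)) :
        ℕ → O ⊗[ℤ] JZero N) n) = 0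
  cases n with
  | zero =>
    rw [(ts35_theta O p Θ h1 hc x0).2.1, map_zero]
  | succ n =>
    rw [ts35_theta_apply_succ]
    exact s35v60_baseChange_kill O (tt21_galZ N τ) l (Θ (n + 1)) Lnew (hkill (n + 1)) x0 hnew

/-- **`s35e60_ET` from the marked vector**: the hypotheses of `ea21_M3`, a set `Lnew` of lattice
vectors whose `O`-span contains `x0`, and, for every Frobenius lift `τ` at a prime `q ∥ N`,
`q ≠ p`, an integer root list with entries in `{1, −1, q, −q}` whose root product in `τ` kills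
every `Θ n c`, `c ∈ Lnew`. -/
theorem s35v60_ET (hp : (p : O) ∈ IsLocalRing.maximalIdeal O)
    (hpS : p ∈ S) (hNS : ∀ q : ℕ, q.Prime → q ∣ N → q ∈ S)
    (TL : ℕ → Module.End ℤ ↥(parabolicHoms ℤ (Gamma0 N) ℤ))
    (x0 : O ⊗[ℤ] ↥(parabolicHoms ℤ (Gamma0 N) ℤ))
    (Θ : ℕ → (↥(parabolicHoms ℤ (Gamma0 N) ℤ) →+ JZero N))
    (hTL : ∀ ℓ : ℕ, ℓ.Prime → ℓ ∉ S → ∀ x : ↥(parabolicHoms ℤ (Gamma0 N) ℤ),
      ((TL ℓ x : ↥(parabolicHoms ℤ (Gamma0 N) ℤ)) : Additive ↥(Gamma0 N) →+ ℤ) =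
        heckeHom N ℓ ℤ (x : Additive ↥(Gamma0 N) →+ ℤ))
    (hx0 : x0 ∉ IsLocalRing.maximalIdeal O •
      (⊤ : Submodule O (O ⊗[ℤ] ↥(parabolicHoms ℤ (Gamma0 N) ℤ))))
    (hx0a : ∀ ℓ : ℕ, ℓ.Prime → ℓ ∉ S → (TL ℓ).baseChange O x0 = a ℓ • x0)
    (hΘ : s30i37_ThetaFamily N p Θ)
    (Lnew : Set ↥(parabolicHoms ℤ (Gamma0 N) ℤ))
    (hnew : x0 ∈ Submodule.span O
      ((fun c : ↥(parabolicHoms ℤ (Gamma0 N) ℤ) => (1 : O) ⊗ₜ[ℤ] c) '' Lnew))
    (hA : ∀ q : ℕ, q.Prime → q ≠ p → q ∣ N → ¬ q ^ 2 ∣ N →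
      ∀ A : ValuationSubring Qb, A.LiesOverPrime q → ∀ τ : GQ, A.IsFrobeniusAt τ q →
        ∃ l : List ℤ, (∀ ν ∈ l, ν = 1 ∨ ν = -1 ∨ ν = (q : ℤ) ∨ ν = -(q : ℤ)) ∧
          ∀ n : ℕ, ∀ c ∈ Lnew, s35v60_rootProd (tt21_galZ N τ) l (Θ n c) = 0) :
    s35e60_ET p N S O hp a := by
  obtain ⟨w, hw, hkill⟩ :=
    s35v60_marked p N S O a hp hpS hNS TL x0 Θ hTL hx0 hx0a hΘ Lnew hnew
  refine s35e60_ET_of_ea21 p N S O a hp hpS hNS ⟨w, hw⟩ fun q hq hqp hqN hq2 => ?_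
  refine s35e60_M8_of_prod q O (Nat.cast_ne_zero.mpr hq.ne_zero) _ _ (ea21_M1 p N S O a hp)
    fun A hA' τ hτ => ?_
  obtain ⟨l, hl, hk⟩ := hA q hq hqp hqN hq2 A hA' τ hτ
  refine ⟨l.map fun ν : ℤ => (ν : O), fun ν hν => ?_, w, hw, hkill τ l hk⟩
  obtain ⟨z, hz, rfl⟩ := List.mem_map.mp hν
  rcases hl z hz with rfl | rfl | rfl | rfl
  · left; simp
  · right; left; simp
  · right; right; left; simp
  · right; right; right; simp

end s35v60_main

end Fermat.Agent.S35
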