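import Mathlib
import Fermat.Agent.S35.Iface62
import Fermat.Agent.S35.Marked60
import Fermat.Agent.S30.CoreIface73

/-!
# S35 lab: interface, part b (helper62, architect) — the TOP-LEVEL ASSEMBLY, proved

`s35i62b_top` : **the frozen statement S35 from exactly two inputs**

* `s35i62_Pkg_New` (Iface62 §4/§5: the THETA-Z family, the Hecke lattice, a primitive
  `χ`-eigenvector `x0 ∈ O' ⊗ K` with all `Θ n k`, `k ∈ K`, `q`-new), and
* (A\*) at every level: `∀ N q p, q.Prime → p.Prime → p ≠ q → q ∣ N → ¬ q ^ 2 ∣ N →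
  s35i62_AStarAt N q p` (which `s35i62_assembly` of Iface62 gives from
  P-CORE + P-FD + P-LEVEL + P-PIC),

through helper60's endgame (`s35e60_endgame`, `s35v60_ET`) and the CORE of S30
(`ex73_s30i37_core_charZero`).  So `Fermat/Agent/S35.lean` is
`s35i62b_top hNew (fun N q p hq hp hpq hqN hq2 => s35i62_assembly hCore hFD hLevel hPic N q p hq hp hpq hqN hq2) hg ..`.

Also: `s35i62b_rootProd_six` (the root product of `[q, -q, 1, 1, -1, -1]` expanded) and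
`s35i62b_kill_of_rel` (the relation of `s35i62_AStarAt` in root-product form).
-/

set_option autoImplicit false
set_option linter.style.longLine false
set_option linter.unusedVariables false
set_option linter.unusedSectionVars false

open ModularCurve AlgebraicCurve CongruenceSubgroup ModularCurve.Period Polynomial
open scoped TensorProduct

namespace Fermat.Agent.S35

open Fermat.Agent.S18 Fermat.Agent.S34 Fermat.Agent.S30 Fermat.Agent.S16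

local notation "Q̄" => AlgebraicClosure ℚ
local notation "GQ" => AlgebraicClosure ℚ ≃ₐ[ℚ] AlgebraicClosure ℚ

/-- The root product of `[q, -q, 1, 1, -1, -1]`, expanded:
`(T² − q²)(T² − 1)² = T⁶ − (q² + 2) T⁴ + (2 q² + 1) T² − q²`. -/
theorem s35i62b_rootProd_six {J : Type*} [AddCommGroup J] (T : Module.End ℤ J) (q : ℤ) (x : J) :
    s35v60_rootProd T [q, -q, 1, 1, -1, -1] x =
      (T ^ 6) x - (q ^ 2 + 2) • (T ^ 4) x + (2 * q ^ 2 + 1) • (T ^ 2) x - (q ^ 2) • x := by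
  simp only [s35v60_rootProd_cons_apply, s35v60_rootProd_nil, Module.End.one_apply,
    Module.End.pow_apply, Function.iterate_succ, Function.iterate_zero, Function.comp_apply,
    id_eq, map_sub, map_smul]
  module

/-- The relation of `s35i62_AStarAt` in the root-product form consumed by `s35v60_ET`. -/
theorem s35i62b_kill_of_rel (N : ℕ) (q : ℕ) (τ : GQ) (x : JZero N)
    (h : (τ ^ 6) • x + (2 * q ^ 2 + 1) • (τ ^ 2) • x = (q ^ 2 + 2) • (τ ^ 4) • x + (q ^ 2) • x) :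
    s35v60_rootProd (tt21_galZ N τ) [(q : ℤ), -(q : ℤ), 1, 1, -1, -1] x = 0 := by
  rw [s35i62b_rootProd_six, ← map_pow, ← map_pow, ← map_pow, tt21_galZ_apply, tt21_galZ_apply,
    tt21_galZ_apply]
  have e1 : ((q : ℤ) ^ 2 + 2) = ((q ^ 2 + 2 : ℕ) : ℤ) := by push_cast; ring
  have e2 : (2 * (q : ℤ) ^ 2 + 1) = ((2 * q ^ 2 + 1 : ℕ) : ℤ) := by push_cast; ring
  have e3 : ((q : ℤ) ^ 2) = ((q ^ 2 : ℕ) : ℤ) := by push_cast; ring
  rw [e1, e2, e3, natCast_zsmul, natCast_zsmul, natCast_zsmul]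
  have e : (τ ^ 6) • x - (q ^ 2 + 2) • (τ ^ 4) • x + (2 * q ^ 2 + 1) • (τ ^ 2) • x - (q ^ 2) • x =
      ((τ ^ 6) • x + (2 * q ^ 2 + 1) • (τ ^ 2) • x) - ((q ^ 2 + 2) • (τ ^ 4) • x + (q ^ 2) • x) := by
    abel
  rw [e, h, sub_self]

/-- **TOP-LEVEL ASSEMBLY**: the frozen statement S35 from P-NEW and (A\*). -/
theorem s35i62b_top (hNew : s35i62_Pkg_New)
    (hA : ∀ (N q p : ℕ), q.Prime → p.Prime → p ≠ q → q ∣ N → ¬ q ^ 2 ∣ N → s35i62_AStarAt N q p)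
    {M : ℕ} [NeZero M] {g : CuspForm (CongruenceSubgroup.Gamma0 M) 2} (hg : g.IsNewform)
    (lam : ℕ) [Fact lam.Prime]
    (S : Finset ℕ)
    (O' : Type) [CommRing O'] [IsDomain O'] [IsDiscreteValuationRing O']
    [IsAdicComplete (IsLocalRing.maximalIdeal O') O'] [Finite (IsLocalRing.ResidueField O')]
    [CharZero O'] (hlamO' : (lam : O') ∈ IsLocalRing.maximalIdeal O')
    (chig : CuspForm.heckeAlgebra M 2 (↑S : Set ℕ) →+* ℂ)
    (hchig : ∀ (ℓ : ℕ) (hℓ : ℓ.Prime) (hℓM : ¬ ℓ ∣ M) (hℓS : ℓ ∉ (↑S : Set ℕ)),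
      chig (CuspForm.heckeAlgebra.T hℓ hℓM hℓS) = ModularFormClass.qCoeff g ℓ)
    (iota : chig.range →+* O')
    (hlamS : lam ∈ S) (hMS : ∀ q : ℕ, q.Prime → q ∣ M → q ∈ S) :
    ∃ (O'' : Type) (_ : CommRing O'') (_ : IsDomain O'') (_ : IsDiscreteValuationRing O'')
      (_ : IsAdicComplete (IsLocalRing.maximalIdeal O'') O'') (_ : Finite (IsLocalRing.ResidueField O''))
      (_ : CharZero O'') (_ : Algebra O' O'') (_ : Module.Finite O' O'') (_ : IsLocalHom (algebraMap O' O'')),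
      Function.Injective (algebraMap O' O'') ∧
      ∃ ρ : GaloisRepAdic O'',
        (∀ (ℓ : ℕ) (hℓ : ℓ.Prime) (hℓM : ¬ ℓ ∣ M) (hℓS : ℓ ∉ (↑S : Set ℕ)),
          ∀ A : ValuationSubring (AlgebraicClosure ℚ), A.LiesOverPrime ℓ →
            ∀ σ : AlgebraicClosure ℚ ≃ₐ[ℚ] AlgebraicClosure ℚ, A.IsFrobeniusAt σ ℓ →
              LinearMap.charpoly (ρ.ρ σ) =
                X ^ 2 - C (algebraMap O' O'' ((iota.comp chig.rangeRestrict) (CuspForm.heckeAlgebra.T hℓ hℓM hℓS))) * X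
                  + C ((ℓ : O''))) ∧
        (∀ q : ℕ, q.Prime → q ≠ lam → q ∣ M → ¬ q ^ 2 ∣ M →
          ∀ A : ValuationSubring (AlgebraicClosure ℚ), A.LiesOverPrime q →
            ∀ σ : AlgebraicClosure ℚ ≃ₐ[ℚ] AlgebraicClosure ℚ, A.IsFrobeniusAt σ q →
              LinearMap.charpoly (ρ.ρ σ) = X ^ 2 - C ((q : O'') + 1) * X + C ((q : O'')) ∨
              LinearMap.charpoly (ρ.ρ σ) = X ^ 2 + C ((q : O'') + 1) * X + C ((q : O''))) := by
  classical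
  obtain ⟨Θ, hΘ, Φ, hΦ, x0, K, hx0, hx0e, hspan, hKnew⟩ :=
    hNew M g hg lam S O' hlamO' chig hchig iota hlamS hMS
  -- the Hecke operators on the lattice, indexed by all natural numbers (as in `s30e37_endgame`)
  let TL : ℕ → Module.End ℤ ↥(parabolicHoms ℤ (Gamma0 M) ℤ) := fun ℓ =>
    if h : ℓ.Prime ∧ ¬ ℓ ∣ M ∧ ℓ ∉ (↑S : Set ℕ) then
      Φ (CuspForm.heckeAlgebra.T h.1 h.2.1 h.2.2) else 0
  have hcond : ∀ ℓ : ℕ, ℓ.Prime → ℓ ∉ S → ℓ.Prime ∧ ¬ ℓ ∣ M ∧ ℓ ∉ (↑S : Set ℕ) :=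
    fun ℓ hℓ hℓS => ⟨hℓ, fun hd => hℓS (hMS ℓ hℓ hd), fun hm => hℓS (Finset.mem_coe.mp hm)⟩
  have hTL : ∀ ℓ : ℕ, ℓ.Prime → ℓ ∉ S → ∀ x : ↥(parabolicHoms ℤ (Gamma0 M) ℤ),
      ((TL ℓ x : ↥(parabolicHoms ℤ (Gamma0 M) ℤ)) : Additive ↥(Gamma0 M) →+ ℤ) =
        heckeHom M ℓ ℤ (x : Additive ↥(Gamma0 M) →+ ℤ) := by
    intro ℓ hℓ hℓS x
    have hc := hcond ℓ hℓ hℓS
    show (((if h : ℓ.Prime ∧ ¬ ℓ ∣ M ∧ ℓ ∉ (↑S : Set ℕ) then
      Φ (CuspForm.heckeAlgebra.T h.1 h.2.1 h.2.2) else 0) x :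
        ↥(parabolicHoms ℤ (Gamma0 M) ℤ)) : Additive ↥(Gamma0 M) →+ ℤ) = _
    rw [dif_pos hc]
    exact hΦ ℓ hc.1 hc.2.1 hc.2.2 x
  have hx0a : ∀ ℓ : ℕ, ℓ.Prime → ℓ ∉ S → (TL ℓ).baseChange O' x0 =
      (if h : ℓ.Prime ∧ ¬ ℓ ∣ M ∧ ℓ ∉ (↑S : Set ℕ) then
        (iota.comp chig.rangeRestrict) (CuspForm.heckeAlgebra.T h.1 h.2.1 h.2.2) else 0) • x0 := by
    intro ℓ hℓ hℓS
    have hc := hcond ℓ hℓ hℓS
    show (if h : ℓ.Prime ∧ ¬ ℓ ∣ M ∧ ℓ ∉ (↑S : Set ℕ) then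
      Φ (CuspForm.heckeAlgebra.T h.1 h.2.1 h.2.2) else 0).baseChange O' x0 = _
    rw [dif_pos hc, dif_pos hc]
    exact hx0e _
  refine s35e60_endgame lam M S hlamS hMS O' hlamO' (iota.comp chig.rangeRestrict)
    (ex73_s30i37_core_charZero O') ?_
  refine s35v60_ET lam M S O' _ hlamO' hlamS hMS TL x0 Θ hTL hx0 hx0a hΘ
    (K : Set ↥(parabolicHoms ℤ (Gamma0 M) ℤ)) hspan ?_
  intro q hq hqlam hqM hq2 A hA' τ hτ
  refine ⟨[(q : ℤ), -(q : ℤ), 1, 1, -1, -1], ?_, ?_⟩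
  · intro ν hν
    simp only [List.mem_cons, List.not_mem_nil, or_false] at hν
    rcases hν with rfl | rfl | rfl | rfl | rfl | rfl
    · exact Or.inr (Or.inr (Or.inl rfl))
    · exact Or.inr (Or.inr (Or.inr rfl))
    · exact Or.inl rfl
    · exact Or.inl rfl
    · exact Or.inr (Or.inl rfl)
    · exact Or.inr (Or.inl rfl)
  · intro n c hc
    have htors : (lam ^ n) • Θ n c = 0 := by
      have h := hΘ.1 n c
      rwa [natCast_zsmul] at h
    exact s35i62b_kill_of_rel M q τ (Θ n c)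
      (hA M q lam hq Fact.out (Ne.symm hqlam) hqM hq2 n A hA' τ hτ (Θ n c) htors
        (hKnew c hc n q hq hqlam hqM hq2))

end Fermat.Agent.S35
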