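import Mathlib
import Fermat.Agent.S34.InertiaIface87
import Fermat.Agent.S34.FrameGal87
import Fermat.Agent.S34.TwoValInst84
import Fermat.Agent.S34.Iface47c
import Fermat.Agent.S37.KroneckerFrob50

/-!
# S35 lab (helper50): the Frobenius-lift frame, step (1a) of the proof text

`R ⊆ K` a discrete valuation ring with fraction field `K`, residue field `κ` of characteristic
`q`, `σ : K ≃+* K` a **Frobenius lift** at `q` (`ff50_Frob R q σ`: `σ R ⊆ R` and `σ r ≡ r ^ q`
modulo the maximal ideal).  `σ̂ = s34i47_coeffEquiv σ M` is the coefficientwise action on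
`F_K(M) ⊆ K((Q))`; `G = tv84_G K res ⊆ K((Q))` is the ring of Gauss-integral series, with
reduction `tv84_red : G → κ((Q))` (helper84); `V_∞ = cm85_Vinf M hπ = F_K(M) ∩ G`.

Series level (any `σ`, `σR` with `res (σR r) = (res r) ^ q`):

* `ff50_coeffMap_mem_G` : `σ̂ G ⊆ G`;
* `ff50_red_coeffMap` : **`red (σ̂ x) = Frob (red x)`** (`Frob` = coefficientwise Frobenius of
  `κ((Q))`);
* `ff50_red_qExpand_coeffMap` : `red ((σ̂ x)(Q^q)) = (red x) ^ q`;
* `ff50_frob_cong` : **`(σ̂ x)(Q^q) ≡ x ^ q` modulo `π G`**.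

Frame level (`K` a number field, `σ` a Frobenius lift, every level `M`):

* `ff50_g0`, `ff50_g0'` : `σ̂ R ⊆ R`;
* `ff50_mem_Vinf`, `ff50_div_mem_Vinf`, `ff50_inv_div_mem_Vinf` : `σ̂ V_∞ ⊆ V_∞` and
  `σ̂ x / x`, `x / σ̂ x ∈ V_∞` for `x ≠ 0` (the Gauss valuation is `σ̂`-invariant);
* `ff50_red` : `red (σ̂ x) = Frob (red x)` for `x ∈ V_∞`;
* `ff50_alpha_comm`, `ff50_beta_comm` : `σ̂` commutes with the two degeneracy maps `α`, `β`;
* `ff50_frob_Vinf` : for `x ∈ V' = V_∞(M')`: **`β (σ̂ x) ≡ (α x) ^ q` modulo `π V_∞`**;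
* `ff50_frob_Vzero` : **`α (σ̂ x) ≡ (β x) ^ q` modulo `π V_0`** (`V_0 = V_∞.comap w`);
* `ff50_mem_V0`, `ff50_mem_W`, `ff50_div_mem_W`, `ff50_inv_div_mem_W` : `σ̂` preserves `V_0`,
  the canonical `W = V_∞ ⊓ V_0` (`s34i47c_W`), and `σ̂ x / x`, `x / σ̂ x ∈ W` for `x ≠ 0`;
* `ff50_haupt`, `ff50_chart` : `σ̂` fixes the admissible Hauptmoduln and preserves their charts.
-/

set_option autoImplicit false
set_option linter.unusedSectionVars false
set_option linter.style.haveILetI false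

open ModularCurve IntermediateField

namespace Fermat.Agent.S35

open Fermat.Agent.S18 Fermat.Agent.S34 Fermat.Agent.S37

local notation "Q̄" => AlgebraicClosure ℚ

/-- `σ` is a **Frobenius lift** at `q` for the local ring `R ⊆ K`: it preserves `R` and acts as
`r ↦ r ^ q` on the residue field. -/
def ff50_Frob (R : Type*) {K : Type*} [CommRing R] [IsLocalRing R] [Field K] [Algebra R K]
    (q : ℕ) (σ : K ≃+* K) : Prop :=
  ∀ r : R, ∃ r' : R, σ (algebraMap R K r) = algebraMap R K r' ∧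
    r' - r ^ q ∈ IsLocalRing.maximalIdeal R

/-! ## 1. Series level -/

section Series

variable {R K κ : Type*} [CommRing R] [IsDomain R] [Field K] [Algebra R K] [IsFractionRing R K]
  [Field κ] [ValuationRing R]
variable (res : R →+* κ)

/-- `σ̂ G ⊆ G` when `σ` restricts to an endomorphism of `R` reflecting the maximal ideal. -/
theorem ff50_coeffMap_mem_G (σ : K →+* K) (σR : R →+* R)
    (hσ : ∀ r, algebraMap R K (σR r) = σ (algebraMap R K r))
    (hloc : ∀ r, res (σR r) = 0 → res r = 0)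
    (x : LaurentSeries K) (hx : x ∈ tv84_G K res) : coeffMap σ x ∈ tv84_G K res := by
  obtain ⟨s, t, hs, hst⟩ := hx
  refine ⟨coeffMap σR s, coeffMap σR t, in87_red_ne_zero res σR hloc s hs, ?_⟩
  rw [in87_coeffMap_comm σ σR hσ, in87_coeffMap_comm σ σR hσ, ← map_mul, hst]

/-- Coefficientwise compatibility `res ∘ σR = Frob ∘ res` on series. -/
theorem ff50_coeffMap_res (q : ℕ) [ExpChar κ q] (σR : R →+* R)
    (hfrob : ∀ r, res (σR r) = res r ^ q) (s : LaurentSeries R) :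
    coeffMap res (coeffMap σR s) = coeffMap (frobenius κ q) (coeffMap res s) := by
  ext n
  rw [coeffMap_coeff, coeffMap_coeff, coeffMap_coeff, coeffMap_coeff, hfrob, frobenius_def]

/-- **`red (σ̂ x) = Frob (red x)`**: a Frobenius lift acts on reductions as the coefficientwise
Frobenius of `κ((Q))`. -/
theorem ff50_red_coeffMap (q : ℕ) [ExpChar κ q] (σ : K →+* K) (σR : R →+* R)
    (hσ : ∀ r, algebraMap R K (σR r) = σ (algebraMap R K r))
    (hfrob : ∀ r, res (σR r) = res r ^ q)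
    (x : tv84_G K res) (hx' : coeffMap σ (x : LaurentSeries K) ∈ tv84_G K res) :
    tv84_red res ⟨coeffMap σ (x : LaurentSeries K), hx'⟩ =
      coeffMap (frobenius κ q) (tv84_red res x) := by
  obtain ⟨s, t, hs, hst⟩ := (tv84_mem_G res x.1).mp x.2
  have hq0 : q ≠ 0 := (expChar_pos κ q).ne'
  have hloc : ∀ r, res (σR r) = 0 → res r = 0 := fun r hr => by
    rw [hfrob] at hr
    exact (pow_eq_zero_iff hq0).mp hr
  have hs' : coeffMap res (coeffMap σR s) ≠ 0 := in87_red_ne_zero res σR hloc s hs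
  have hst' : coeffMap (algebraMap R K) (coeffMap σR s) * coeffMap σ (x : LaurentSeries K) =
      coeffMap (algebraMap R K) (coeffMap σR t) := by
    rw [in87_coeffMap_comm σ σR hσ, in87_coeffMap_comm σ σR hσ, ← map_mul, hst]
  rw [tv84_red_eq res ⟨_, hx'⟩ (coeffMap σR s) (coeffMap σR t) hs' hst',
    tv84_red_eq res x s t hs hst, ff50_coeffMap_res res q σR hfrob,
    ff50_coeffMap_res res q σR hfrob, map_div₀]

/-- `red ((σ̂ x)(Q^q)) = (red x) ^ q`. -/
theorem ff50_red_qExpand_coeffMap (q : ℕ) [NeZero q] [ExpChar κ q] (σ : K →+* K) (σR : R →+* R)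
    (hσ : ∀ r, algebraMap R K (σR r) = σ (algebraMap R K r))
    (hfrob : ∀ r, res (σR r) = res r ^ q)
    (x : tv84_G K res)
    (hx' : qExpand K q (coeffMap σ (x : LaurentSeries K)) ∈ tv84_G K res) :
    tv84_red res ⟨qExpand K q (coeffMap σ (x : LaurentSeries K)), hx'⟩ = tv84_red res x ^ q := by
  have hq0 : q ≠ 0 := (expChar_pos κ q).ne'
  have hloc : ∀ r, res (σR r) = 0 → res r = 0 := fun r hr => by
    rw [hfrob] at hr
    exact (pow_eq_zero_iff hq0).mp hr
  have h1 : coeffMap σ (x : LaurentSeries K) ∈ tv84_G K res :=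
    ff50_coeffMap_mem_G res σ σR hσ hloc _ x.2
  rw [tv84_red_qExpand res q ⟨_, h1⟩ hx', ff50_red_coeffMap res q σ σR hσ hfrob x h1,
    kr50_pow_char q (tv84_red res x)]

/-- **Frobenius congruence for a Frobenius lift**: `(σ̂ x)(Q^q) ≡ x ^ q` modulo `π G`. -/
theorem ff50_frob_cong (q : ℕ) [NeZero q] [ExpChar κ q] (π : R)
    (hres : ∀ r, res r = 0 ↔ π ∣ r) (hπ0 : π ≠ 0) (σ : K →+* K) (σR : R →+* R)
    (hσ : ∀ r, algebraMap R K (σR r) = σ (algebraMap R K r))
    (hfrob : ∀ r, res (σR r) = res r ^ q)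
    (x : LaurentSeries K) (hx : x ∈ tv84_G K res) :
    (HahnSeries.C (algebraMap R K π))⁻¹ * (qExpand K q (coeffMap σ x) - x ^ q) ∈
      tv84_G K res := by
  have hq0 : q ≠ 0 := (expChar_pos κ q).ne'
  have hloc : ∀ r, res (σR r) = 0 → res r = 0 := fun r hr => by
    rw [hfrob] at hr
    exact (pow_eq_zero_iff hq0).mp hr
  have h1 : coeffMap σ x ∈ tv84_G K res := ff50_coeffMap_mem_G res σ σR hσ hloc x hx
  have h2 : qExpand K q (coeffMap σ x) ∈ tv84_G K res := tv84_qExpand_mem_G res q _ h1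
  have h3 : x ^ q ∈ tv84_G K res := Subring.pow_mem _ hx q
  have h4 : qExpand K q (coeffMap σ x) - x ^ q ∈ tv84_G K res := Subring.sub_mem _ h2 h3
  refine (tv84_red_eq_zero_iff res π hres hπ0 ⟨_, h4⟩).mp ?_
  have h5 : (⟨qExpand K q (coeffMap σ x) - x ^ q, h4⟩ : tv84_G K res) =
      ⟨qExpand K q (coeffMap σ x), h2⟩ - (⟨x, hx⟩ : tv84_G K res) ^ q := Subtype.ext rfl
  rw [h5, map_sub, map_pow, ff50_red_qExpand_coeffMap res q σ σR hσ hfrob ⟨x, hx⟩ h2, sub_self]

end Series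

/-! ## 2. The restriction of a Frobenius lift to `R` -/

section Restrict

variable {R K : Type} [CommRing R] [IsDomain R] [IsDiscreteValuationRing R] [Field K]
  [Algebra R K] [IsFractionRing R K] {q : ℕ}

/-- The restriction of a Frobenius lift to `R`, as a function. -/
noncomputable def ff50_sigmaRfun (σ : K ≃+* K) (hσ : ff50_Frob R q σ) (r : R) : R :=
  (hσ r).choose

theorem ff50_sigmaRfun_spec (σ : K ≃+* K) (hσ : ff50_Frob R q σ) (r : R) :
    algebraMap R K (ff50_sigmaRfun σ hσ r) = σ (algebraMap R K r) :=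
  ((hσ r).choose_spec.1).symm

/-- The restriction of a Frobenius lift to `R`. -/
noncomputable def ff50_sigmaR (σ : K ≃+* K) (hσ : ff50_Frob R q σ) : R →+* R where
  toFun := ff50_sigmaRfun σ hσ
  map_one' := IsFractionRing.injective R K (by
    rw [ff50_sigmaRfun_spec, map_one, map_one])
  map_mul' a b := IsFractionRing.injective R K (by
    rw [ff50_sigmaRfun_spec, map_mul, map_mul, map_mul, ff50_sigmaRfun_spec,
      ff50_sigmaRfun_spec])
  map_zero' := IsFractionRing.injective R K (by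
    rw [ff50_sigmaRfun_spec, map_zero, map_zero])
  map_add' a b := IsFractionRing.injective R K (by
    rw [ff50_sigmaRfun_spec, map_add, map_add, map_add, ff50_sigmaRfun_spec,
      ff50_sigmaRfun_spec])

theorem ff50_sigmaR_spec (σ : K ≃+* K) (hσ : ff50_Frob R q σ) (r : R) :
    algebraMap R K (ff50_sigmaR σ hσ r) = σ (algebraMap R K r) :=
  ff50_sigmaRfun_spec σ hσ r

/-- `res (σ r) = (res r) ^ q`. -/
theorem ff50_sigmaR_res (σ : K ≃+* K) (hσ : ff50_Frob R q σ) (r : R) :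
    IsLocalRing.residue R (ff50_sigmaR σ hσ r) = IsLocalRing.residue R r ^ q := by
  have h : ff50_sigmaRfun σ hσ r - r ^ q ∈ IsLocalRing.maximalIdeal R := (hσ r).choose_spec.2
  rw [← map_pow, ← sub_eq_zero, ← map_sub, IsLocalRing.residue_eq_zero_iff]
  exact h

/-- A Frobenius lift reflects divisibility by the uniformiser. -/
theorem ff50_sigmaR_loc (hq0 : q ≠ 0) (σ : K ≃+* K) (hσ : ff50_Frob R q σ) (r : R)
    (hr : IsLocalRing.residue R (ff50_sigmaR σ hσ r) = 0) : IsLocalRing.residue R r = 0 := by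
  rw [ff50_sigmaR_res] at hr
  exact (pow_eq_zero_iff hq0).mp hr

/-- (G0) over `K`. -/
theorem ff50_g0 (σ : K ≃+* K) (hσ : ff50_Frob R q σ) (r : R) :
    ∃ r' : R, σ (algebraMap R K r) = algebraMap R K r' :=
  ⟨_, (hσ r).choose_spec.1⟩

end Restrict

/-! ## 3. Frame level, one level `M` -/

section Level

variable {R K : Type} [CommRing R] [IsDomain R] [IsDiscreteValuationRing R] [Field K]
  [Algebra R K] [IsFractionRing R K] {q : ℕ} (M : ℕ) [NeZero M]

/-- `σ̂ V_∞ ⊆ V_∞` for a Frobenius lift. -/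
theorem ff50_mem_Vinf (hq0 : q ≠ 0) {π : R} (hπ : Irreducible π) (σ : K ≃+* K)
    (hσ : ff50_Frob R q σ) (x : ↥(modularFunctionFieldFullC K M))
    (hx : x ∈ cm85_Vinf (K := K) M hπ) :
    s34i47_coeffEquiv σ M x ∈ cm85_Vinf (K := K) M hπ :=
  ff50_coeffMap_mem_G (IsLocalRing.residue R) (σ : K →+* K) (ff50_sigmaR σ hσ)
    (ff50_sigmaR_spec σ hσ) (ff50_sigmaR_loc hq0 σ hσ) _ hx

/-- The Gauss valuation is invariant under a Frobenius lift: `σ̂ x / x ∈ V_∞`. -/
theorem ff50_div_mem_Vinf [NumberField K] (hq0 : q ≠ 0) {π : R} (hπ : Irreducible π)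
    (σ : K ≃+* K) (hσ : ff50_Frob R q σ) (x : ↥(modularFunctionFieldFullC K M)) (hx : x ≠ 0) :
    s34i47_coeffEquiv σ M x / x ∈ cm85_Vinf (K := K) M hπ := by
  obtain ⟨k, hk0, hk⟩ := in87i_finOrder σ
  refine wi11_finOrder_div_mem (cm85_Vinf (K := K) M hπ) (s34i47_coeffEquiv σ M)
    (fun y hy => ff50_mem_Vinf M hq0 hπ σ hσ y hy) k hk0 ?_ x hx
  rw [in87i_coeffEquiv_eq]
  exact in87_aut_pow_eq_one M σ k hk

/-- The Gauss valuation is invariant under a Frobenius lift: `x / σ̂ x ∈ V_∞`. -/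
theorem ff50_inv_div_mem_Vinf [NumberField K] (hq0 : q ≠ 0) {π : R} (hπ : Irreducible π)
    (σ : K ≃+* K) (hσ : ff50_Frob R q σ) (x : ↥(modularFunctionFieldFullC K M)) (hx : x ≠ 0) :
    x / s34i47_coeffEquiv σ M x ∈ cm85_Vinf (K := K) M hπ := by
  obtain ⟨k, hk0, hk⟩ := in87i_finOrder σ
  refine wi11_finOrder_inv_div_mem (cm85_Vinf (K := K) M hπ) (s34i47_coeffEquiv σ M)
    (fun y hy => ff50_mem_Vinf M hq0 hπ σ hσ y hy) k hk0 ?_ x hx
  rw [in87i_coeffEquiv_eq]
  exact in87_aut_pow_eq_one M σ k hk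

/-- **`red (σ̂ x) = Frob (red x)`** for `x ∈ V_∞` (any level). -/
theorem ff50_red (hq : q.Prime)
    {π : R} (hπ : Irreducible π) (σ : K ≃+* K) (hσ : ff50_Frob R q σ)
    (x : ↥(modularFunctionFieldFullC K M)) (hx : x ∈ cm85_Vinf (K := K) M hπ) :
    ∃ (h1 : (x : LaurentSeries K) ∈ tv84_G K (IsLocalRing.residue R))
      (h2 : ((s34i47_coeffEquiv σ M x : ↥(modularFunctionFieldFullC K M)) : LaurentSeries K) ∈
        tv84_G K (IsLocalRing.residue R)),
      ∀ _ : ExpChar (IsLocalRing.ResidueField R) q,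
      tv84_red (IsLocalRing.residue R) ⟨_, h2⟩ =
        coeffMap (frobenius (IsLocalRing.ResidueField R) q)
          (tv84_red (IsLocalRing.residue R) ⟨_, h1⟩) := by
  refine ⟨hx, ff50_mem_Vinf M hq.ne_zero hπ σ hσ x hx, fun hE => ?_⟩
  exact ff50_red_coeffMap (IsLocalRing.residue R) q (σ : K →+* K) (ff50_sigmaR σ hσ)
    (ff50_sigmaR_spec σ hσ) (ff50_sigmaR_res σ hσ) ⟨_, hx⟩ _

variable [Algebra R ↥(modularFunctionFieldFullC K M)]
  [IsScalarTower R K ↥(modularFunctionFieldFullC K M)]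

/-- (G0) over `F_K(M)`. -/
theorem ff50_g0' (σ : K ≃+* K) (hσ : ff50_Frob R q σ) (r : R) :
    ∃ r' : R, s34i47_coeffEquiv σ M (algebraMap R ↥(modularFunctionFieldFullC K M) r) =
      algebraMap R ↥(modularFunctionFieldFullC K M) r' := by
  obtain ⟨r', hr'⟩ := ff50_g0 σ hσ r
  refine ⟨r', ?_⟩
  rw [IsScalarTower.algebraMap_apply R K ↥(modularFunctionFieldFullC K M), in87i_coeffEquiv_eq,
    in87_aut_algebraMap, hr', ← IsScalarTower.algebraMap_apply R K ↥(modularFunctionFieldFullC K M)]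

end Level

/-! ## 4. Frame level, the two degeneracy maps and the Atkin–Lehner involution -/

section Degeneracy

variable {R K : Type} [CommRing R] [IsDomain R] [IsDiscreteValuationRing R] [Field K]
  [Algebra R K] [IsFractionRing R K] (M' q : ℕ) [NeZero M'] [NeZero q]

/-- `σ̂` commutes with `α`. -/
theorem ff50_alpha_comm (σ : K ≃+* K) (x : ↥(modularFunctionFieldFullC K M')) :
    s34i47_coeffEquiv σ (M' * q) (al97L_alpha K M' q x) =
      al97L_alpha K M' q (s34i47_coeffEquiv σ M' x) :=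
  Subtype.ext rfl

/-- `σ̂` commutes with `β`. -/
theorem ff50_beta_comm (σ : K ≃+* K) (x : ↥(modularFunctionFieldFullC K M')) :
    s34i47_coeffEquiv σ (M' * q) (al97L_beta K M' q x) =
      al97L_beta K M' q (s34i47_coeffEquiv σ M' x) := by
  apply Subtype.ext
  show coeffMap (σ : K →+* K) (qExpand K q (x : LaurentSeries K)) =
    qExpand K q (coeffMap (σ : K →+* K) (x : LaurentSeries K))
  exact tv84_coeffMap_qExpand (σ : K →+* K) q _

/-- **Frobenius congruence on `V_∞`** for a Frobenius lift: for `x` in the Gauss ring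
`V' = cm85_Vinf M'`, `β (σ̂ x) ≡ (α x) ^ q` modulo `π V_∞`, `V_∞ = cm85_Vinf (M' q)`. -/
theorem ff50_frob_Vinf {π : R} (hπ : Irreducible π) (hq : q.Prime)
    (hchar : (q : IsLocalRing.ResidueField R) = 0) (σ : K ≃+* K) (hσ : ff50_Frob R q σ)
    (x : ↥(modularFunctionFieldFullC K M')) (hx : x ∈ cm85_Vinf (K := K) M' hπ) :
    (algebraMap K ↥(modularFunctionFieldFullC K (M' * q)) (algebraMap R K π))⁻¹ *
        (al97L_beta K M' q (s34i47_coeffEquiv σ M' x) - (al97L_alpha K M' q x) ^ q) ∈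
      cm85_Vinf (K := K) (M' * q) hπ := by
  haveI hcharP : CharP (IsLocalRing.ResidueField R) q :=
    (CharP.charP_iff_prime_eq_zero hq).mpr hchar
  haveI hexp : ExpChar (IsLocalRing.ResidueField R) q := ExpChar.prime hq
  have h := ff50_frob_cong (IsLocalRing.residue R) q π (pk85_res_iff hπ) hπ.ne_zero
    (σ : K →+* K) (ff50_sigmaR σ hσ) (ff50_sigmaR_spec σ hσ) (ff50_sigmaR_res σ hσ)
    (x : LaurentSeries K) hx
  show ((((algebraMap K ↥(modularFunctionFieldFullC K (M' * q)) (algebraMap R K π))⁻¹ *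
        (al97L_beta K M' q (s34i47_coeffEquiv σ M' x) - (al97L_alpha K M' q x) ^ q) :
      ↥(modularFunctionFieldFullC K (M' * q))) : LaurentSeries K)) ∈
    tv84_G K (IsLocalRing.residue R)
  rw [gv85_coe_inv_mul]
  exact h

variable [Algebra K Q̄] (hq : q.Prime) (hM' : ¬ q ∣ M')

/-- **Frobenius congruence on `V_0`** for a Frobenius lift: for `x ∈ V'`,
`α (σ̂ x) ≡ (β x) ^ q` modulo `π V_0`, `V_0 = V_∞.comap w`. -/
theorem ff50_frob_Vzero {π : R} (hπ : Irreducible π)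
    (hchar : (q : IsLocalRing.ResidueField R) = 0) (σ : K ≃+* K) (hσ : ff50_Frob R q σ)
    (x : ↥(modularFunctionFieldFullC K M')) (hx : x ∈ cm85_Vinf (K := K) M' hπ) :
    al97L_w (algebraMap K Q̄) M' q hq hM'
        ((algebraMap K ↥(modularFunctionFieldFullC K (M' * q)) (algebraMap R K π))⁻¹ *
          (al97L_alpha K M' q (s34i47_coeffEquiv σ M' x) - (al97L_beta K M' q x) ^ q)) ∈
      cm85_Vinf (K := K) (M' * q) hπ := by
  rw [map_mul, map_inv₀, AlgEquiv.commutes, map_sub, map_pow, al97L_w_alpha_apply,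
    al97L_w_beta_apply]
  exact ff50_frob_Vinf M' q hπ hq hchar σ hσ x hx

/-- `σ̂ V_0 ⊆ V_0`. -/
theorem ff50_mem_V0 [NumberField K] {π : R} (hπ : Irreducible π) (σ : K ≃+* K)
    (hσ : ff50_Frob R q σ) (x : ↥(modularFunctionFieldFullC K (M' * q)))
    (hx : x ∈ s34i47c_V0 (K := K) M' q hq hM' hπ) :
    s34i47_coeffEquiv σ (M' * q) x ∈ s34i47c_V0 (K := K) M' q hq hM' hπ := by
  rw [s34i47c_mem_V0] at hx ⊢
  rw [in87g_w_comm]
  exact ff50_mem_Vinf (M' * q) hq.ne_zero hπ σ hσ _ hx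

/-- `σ̂ W ⊆ W` for the canonical `W = V_∞ ⊓ V_0`. -/
theorem ff50_mem_W [NumberField K] {π : R} (hπ : Irreducible π) (σ : K ≃+* K)
    (hσ : ff50_Frob R q σ) (x : ↥(modularFunctionFieldFullC K (M' * q)))
    (hx : x ∈ s34i47c_W (K := K) M' q hq hM' hπ) :
    s34i47_coeffEquiv σ (M' * q) x ∈ s34i47c_W (K := K) M' q hq hM' hπ := by
  rw [s34i47c_mem_W] at hx ⊢
  refine ⟨ff50_mem_Vinf (M' * q) hq.ne_zero hπ σ hσ x hx.1, ?_⟩
  rw [in87g_w_comm]
  exact ff50_mem_Vinf (M' * q) hq.ne_zero hπ σ hσ _ hx.2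

/-- Both valuations are invariant under a Frobenius lift: `σ̂ x / x ∈ W` for `x ≠ 0`. -/
theorem ff50_div_mem_W [NumberField K] {π : R} (hπ : Irreducible π) (σ : K ≃+* K)
    (hσ : ff50_Frob R q σ) (x : ↥(modularFunctionFieldFullC K (M' * q))) (hx : x ≠ 0) :
    s34i47_coeffEquiv σ (M' * q) x / x ∈ s34i47c_W (K := K) M' q hq hM' hπ := by
  rw [s34i47c_mem_W]
  refine ⟨ff50_div_mem_Vinf (M' * q) hq.ne_zero hπ σ hσ x hx, ?_⟩
  rw [map_div₀, in87g_w_comm]
  exact ff50_div_mem_Vinf (M' * q) hq.ne_zero hπ σ hσ _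
    (fun h => hx ((map_eq_zero_iff _ (al97L_w (algebraMap K Q̄) M' q hq hM').injective).mp h))

/-- Both valuations are invariant under a Frobenius lift: `x / σ̂ x ∈ W` for `x ≠ 0`. -/
theorem ff50_inv_div_mem_W [NumberField K] {π : R} (hπ : Irreducible π) (σ : K ≃+* K)
    (hσ : ff50_Frob R q σ) (x : ↥(modularFunctionFieldFullC K (M' * q))) (hx : x ≠ 0) :
    x / s34i47_coeffEquiv σ (M' * q) x ∈ s34i47c_W (K := K) M' q hq hM' hπ := by
  rw [s34i47c_mem_W]
  refine ⟨ff50_inv_div_mem_Vinf (M' * q) hq.ne_zero hπ σ hσ x hx, ?_⟩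
  rw [map_div₀, in87g_w_comm]
  exact ff50_inv_div_mem_Vinf (M' * q) hq.ne_zero hπ σ hσ _
    (fun h => hx ((map_eq_zero_iff _ (al97L_w (algebraMap K Q̄) M' q hq hM').injective).mp h))

/-- `σ̂` fixes the admissible Hauptmoduln. -/
theorem ff50_haupt [CharZero K] (σ : K ≃+* K) (h : ↥(modularFunctionFieldFullC K (M' * q)))
    (hh : s34i47c_IsHaupt K (M' * q) q h) : s34i47_coeffEquiv σ (M' * q) h = h := by
  rcases hh with ⟨-, h2, rfl⟩ | ⟨-, h3, rfl⟩
  · exact cm15_coeffEquiv_h2 (M' * q) σ h2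
  · exact cm15_coeffEquiv_h3 (M' * q) σ h3

/-- `σ̂` preserves the three charts of an admissible Hauptmodul. -/
theorem ff50_chart [CharZero K] [Algebra R ↥(modularFunctionFieldFullC K (M' * q))]
    [IsScalarTower R K ↥(modularFunctionFieldFullC K (M' * q))]
    (σ : K ≃+* K) (hσ : ff50_Frob R q σ) (h : ↥(modularFunctionFieldFullC K (M' * q)))
    (hh : s34i47c_IsHaupt K (M' * q) q h) :
    (∀ x ∈ pk15_chart R ({h} : Set ↥(modularFunctionFieldFullC K (M' * q))),
      s34i47_coeffEquiv σ (M' * q) x ∈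
        pk15_chart R ({h} : Set ↥(modularFunctionFieldFullC K (M' * q)))) ∧
    (∀ x ∈ pk15_chart R ({h⁻¹} : Set ↥(modularFunctionFieldFullC K (M' * q))),
      s34i47_coeffEquiv σ (M' * q) x ∈
        pk15_chart R ({h⁻¹} : Set ↥(modularFunctionFieldFullC K (M' * q)))) ∧
    (∀ x ∈ pk15_chart R ({h, h⁻¹} : Set ↥(modularFunctionFieldFullC K (M' * q))),
      s34i47_coeffEquiv σ (M' * q) x ∈
        pk15_chart R ({h, h⁻¹} : Set ↥(modularFunctionFieldFullC K (M' * q)))) :=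
  in87i_chart_mem_haupt (s34i47_coeffEquiv σ (M' * q)) (fun r => ff50_g0' (M' * q) σ hσ r) h
    (ff50_haupt M' q σ h hh)

end Degeneracy

end Fermat.Agent.S35
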