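import Mathlib
import Fermat.Agent.S34.Iface47
import Fermat.Agent.S34.PkgLD35

/-!
# S35 lab (helper3): transport of (LP) along an automorphism, and the root shape at a fixed point

Abstract glue (Mathlib + `Iface47` + `dd35_horiz_comap`) between the S34 package
`s34i47_Pkg_LP` applied to the ORIGINAL Kummer function `f` and the local-datum rows of the S35
lab (one-branch points, nodes, toric lemma).

`τ : F ≃+* F` is an automorphism of the function field with `τ R ⊆ R` and `τ B = B` for the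
chart `B` (for instance `τ = ŝ` or `τ = ŝ²`, the coefficientwise action of a Frobenius lift).

* `lpt3_Root π m B n f c` : `c` is an (LP)-root of `f` at the closed point `n`
  (`c ≠ 0` and `f / c ^ m` is a unit of every horizontal `O` through `n`): the clause of
  `s34i47_LocPrin` at `n`.
* `lpt3_Root_mul`, `lpt3_Root_inv`, `lpt3_Root_div`, `lpt3_Root_pow`, `lpt3_Root_self_pow`,
  `lpt3_Root_map` : roots multiply, invert, and are transported by `τ` from `n` to `n'`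
  whenever `τ (B ∖ n) ⊆ B ∖ n'`.
* `lpt3_locPrin_mul`, `lpt3_locPrin_inv`, `lpt3_locPrin_div`, `lpt3_locPrin_pow`,
  `lpt3_locPrin_self_pow`, `lpt3_locPrin_map` : the class of `f` with `s34i47_LocPrin π m B f`
  is closed under products, inverses, powers, `τ`, and contains all `m`-th powers.
* `lpt3_f3 τ m f G = f₁ / τ f₁ / G ^ m`, `f₁ = f / τ f`; `lpt3_u τ m Q f G = τ f₃ / f₃ ^ Q`.
* `lpt3_locPrin_f3`, `lpt3_locPrin_u` : **(LP) for `f` alone gives (LP) for `f₃` and for `u`**;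
  no rationality/finiteness hypothesis and no (LP) for `G` (it enters only through an `m`-th
  power).
* `lpt3_sat` : Krull clause at `n` + saturation of `B` in `W` : an element of `W` which is
  regular along every horizontal `O` through `n` lies in `B_n`.
* `lpt3_node_shape` : **root shape at a `τ`-fixed point** `n` (`τ (B ∖ n) ⊆ B ∖ n`): from an
  (LP)-root `c` of `f` at `n`, `(G1)` for `τ`, `G` a unit of `W`, Krull at `n` and saturation:
  `c₃ := c₁ / τ c₁ / G` (`c₁ = c / τ c`) is a unit of `W`, `ε := f₃ / c₃ ^ m` is a unit of `W`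
  and of `B_n`, and `f₃ = ε * c₃ ^ m`.
-/

set_option autoImplicit false

namespace Fermat.Agent.S35

open Fermat.Agent.S34

section Root

variable {R F : Type*} [CommRing R] [Field F] [Algebra R F]

/-- `c` is an (LP)-root of `f` at `n`: the clause of `s34i47_LocPrin π m B f` at `n`. -/
def lpt3_Root (π : R) (m : ℕ) (B : Subalgebra R F) (n : Ideal B) (f c : F) : Prop :=
  c ≠ 0 ∧ ∀ O : ValuationSubring F, s34i47_IsHoriz π O → s34i47_Through B n O →
    f / c ^ m ∈ O ∧ c ^ m / f ∈ O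

theorem lpt3_locPrin_iff (π : R) (m : ℕ) (B : Subalgebra R F) (f : F) :
    s34i47_LocPrin π m B f ↔
      ∀ n : Ideal B, n.IsMaximal → algebraMap R B π ∈ n → ∃ c : F, lpt3_Root π m B n f c :=
  Iff.rfl

theorem lpt3_Root_mul (π : R) (m : ℕ) (B : Subalgebra R F) (n : Ideal B) {f g c d : F}
    (hf : lpt3_Root π m B n f c) (hg : lpt3_Root π m B n g d) :
    lpt3_Root π m B n (f * g) (c * d) := by
  refine ⟨mul_ne_zero hf.1 hg.1, fun O hO hthr => ?_⟩
  obtain ⟨h1, h2⟩ := hf.2 O hO hthr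
  obtain ⟨h3, h4⟩ := hg.2 O hO hthr
  have e1 : f * g / (c * d) ^ m = f / c ^ m * (g / d ^ m) := by
    rw [mul_pow, mul_div_mul_comm]
  have e2 : (c * d) ^ m / (f * g) = c ^ m / f * (d ^ m / g) := by
    rw [mul_pow, mul_div_mul_comm]
  rw [e1, e2]
  exact ⟨O.mul_mem _ _ h1 h3, O.mul_mem _ _ h2 h4⟩

theorem lpt3_Root_inv (π : R) (m : ℕ) (B : Subalgebra R F) (n : Ideal B) {f c : F}
    (hf : lpt3_Root π m B n f c) : lpt3_Root π m B n f⁻¹ c⁻¹ := by
  refine ⟨inv_ne_zero hf.1, fun O hO hthr => ?_⟩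
  obtain ⟨h1, h2⟩ := hf.2 O hO hthr
  have e1 : f⁻¹ / c⁻¹ ^ m = c ^ m / f := by
    rw [inv_pow, inv_div_inv]
  have e2 : c⁻¹ ^ m / f⁻¹ = f / c ^ m := by
    rw [inv_pow, inv_div_inv]
  rw [e1, e2]
  exact ⟨h2, h1⟩

theorem lpt3_Root_div (π : R) (m : ℕ) (B : Subalgebra R F) (n : Ideal B) {f g c d : F}
    (hf : lpt3_Root π m B n f c) (hg : lpt3_Root π m B n g d) :
    lpt3_Root π m B n (f / g) (c / d) := by
  rw [div_eq_mul_inv, div_eq_mul_inv]
  exact lpt3_Root_mul π m B n hf (lpt3_Root_inv π m B n hg)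

theorem lpt3_Root_pow (π : R) (m : ℕ) (B : Subalgebra R F) (n : Ideal B) {f c : F}
    (hf : lpt3_Root π m B n f c) (k : ℕ) : lpt3_Root π m B n (f ^ k) (c ^ k) := by
  refine ⟨pow_ne_zero k hf.1, fun O hO hthr => ?_⟩
  obtain ⟨h1, h2⟩ := hf.2 O hO hthr
  have e1 : f ^ k / (c ^ k) ^ m = (f / c ^ m) ^ k := by
    rw [div_pow, ← pow_mul, ← pow_mul, mul_comm]
  have e2 : (c ^ k) ^ m / f ^ k = (c ^ m / f) ^ k := by
    rw [div_pow, ← pow_mul, ← pow_mul, mul_comm]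
  rw [e1, e2]
  exact ⟨O.pow_mem h1 k, O.pow_mem h2 k⟩

theorem lpt3_Root_self_pow (π : R) (m : ℕ) (B : Subalgebra R F) (n : Ideal B) {g : F}
    (hg : g ≠ 0) : lpt3_Root π m B n (g ^ m) g := by
  refine ⟨hg, fun O _ _ => ?_⟩
  rw [div_self (pow_ne_zero m hg)]
  exact ⟨O.one_mem, O.one_mem⟩

/-- The preimage under `τ` of a valuation ring through `n'` passes through `n`, if `τ` maps `B`
into `B` and the complement of `n` into the complement of `n'`. -/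
theorem lpt3_through_comap (B : Subalgebra R F) (n n' : Ideal B) (τ : F ≃+* F)
    (hτB : ∀ x ∈ B, τ x ∈ B) (hτn : ∀ d : B, d ∉ n → (⟨τ d, hτB d d.2⟩ : B) ∉ n')
    (O : ValuationSubring F) (hO : s34i47_Through B n' O) :
    s34i47_Through B n (O.comap (τ : F →+* F)) := by
  refine ⟨fun x hx => hO.1 _ (hτB x hx), fun x hx => ?_⟩
  show τ ((x : F)⁻¹) ∈ O
  rw [map_inv₀]
  exact hO.2 ⟨τ x, hτB x x.2⟩ (hτn x hx)

end Root

section Horiz

variable {R K F : Type*} [CommRing R] [IsDomain R] [IsDiscreteValuationRing R] [Field K]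
  [Field F] [Algebra R K] [IsFractionRing R K] [Algebra R F] [Algebra K F] [IsScalarTower R K F]

include K in
/-- **Transport of a root.**  If `τ R ⊆ R`, `τ B ⊆ B` and `τ (B ∖ n) ⊆ B ∖ n'`, an (LP)-root of
`f` at `n` is mapped by `τ` to an (LP)-root of `τ f` at `n'`. -/
theorem lpt3_Root_map (π : R) (hπ : Irreducible π) (m : ℕ) (B : Subalgebra R F)
    (n n' : Ideal B) (τ : F ≃+* F)
    (hτR : ∀ r : R, ∃ r' : R, τ (algebraMap R F r) = algebraMap R F r')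
    (hτB : ∀ x ∈ B, τ x ∈ B) (hτn : ∀ d : B, d ∉ n → (⟨τ d, hτB d d.2⟩ : B) ∉ n')
    {f c : F} (hf : lpt3_Root π m B n f c) : lpt3_Root π m B n' (τ f) (τ c) := by
  refine ⟨(map_ne_zero τ).mpr hf.1, fun O hO hthr => ?_⟩
  have hO' := dd35_horiz_comap (K := K) π hπ τ hτR O hO
  have hthr' := lpt3_through_comap B n n' τ hτB hτn O hthr
  obtain ⟨h1, h2⟩ := hf.2 _ hO' hthr'
  have h1' : τ (f / c ^ m) ∈ O := h1
  have h2' : τ (c ^ m / f) ∈ O := h2
  rw [map_div₀, map_pow] at h1' h2'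
  exact ⟨h1', h2'⟩

end Horiz

/-! ## Chart level: closure properties of `s34i47_LocPrin` -/

section ChartAlg

variable {R F : Type*} [CommRing R] [Field F] [Algebra R F]

theorem lpt3_locPrin_mul (π : R) (m : ℕ) (B : Subalgebra R F) {f g : F}
    (hf : s34i47_LocPrin π m B f) (hg : s34i47_LocPrin π m B g) :
    s34i47_LocPrin π m B (f * g) := by
  intro n hn hπn
  obtain ⟨c, hc⟩ := hf n hn hπn
  obtain ⟨d, hd⟩ := hg n hn hπn
  exact ⟨c * d, lpt3_Root_mul π m B n hc hd⟩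

theorem lpt3_locPrin_inv (π : R) (m : ℕ) (B : Subalgebra R F) {f : F}
    (hf : s34i47_LocPrin π m B f) : s34i47_LocPrin π m B f⁻¹ := by
  intro n hn hπn
  obtain ⟨c, hc⟩ := hf n hn hπn
  exact ⟨c⁻¹, lpt3_Root_inv π m B n hc⟩

theorem lpt3_locPrin_div (π : R) (m : ℕ) (B : Subalgebra R F) {f g : F}
    (hf : s34i47_LocPrin π m B f) (hg : s34i47_LocPrin π m B g) :
    s34i47_LocPrin π m B (f / g) := by
  intro n hn hπn
  obtain ⟨c, hc⟩ := hf n hn hπn
  obtain ⟨d, hd⟩ := hg n hn hπn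
  exact ⟨c / d, lpt3_Root_div π m B n hc hd⟩

theorem lpt3_locPrin_pow (π : R) (m : ℕ) (B : Subalgebra R F) {f : F}
    (hf : s34i47_LocPrin π m B f) (k : ℕ) : s34i47_LocPrin π m B (f ^ k) := by
  intro n hn hπn
  obtain ⟨c, hc⟩ := hf n hn hπn
  exact ⟨c ^ k, lpt3_Root_pow π m B n hc k⟩

theorem lpt3_locPrin_self_pow (π : R) (m : ℕ) (B : Subalgebra R F) {g : F} (hg : g ≠ 0) :
    s34i47_LocPrin π m B (g ^ m) :=
  fun n _ _ => ⟨g, lpt3_Root_self_pow π m B n hg⟩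

/-- The restriction of `τ` to the chart `B`. -/
def lpt3_res (B : Subalgebra R F) (τ : F ≃+* F) (hτB : ∀ x ∈ B, τ x ∈ B) : B →+* B :=
  ((τ : F →+* F).comp (B.val : B →+* F)).codRestrict B (fun x => hτB x x.2)

theorem lpt3_res_coe (B : Subalgebra R F) (τ : F ≃+* F) (hτB : ∀ x ∈ B, τ x ∈ B) (x : B) :
    ((lpt3_res B τ hτB x : B) : F) = τ (x : F) := rfl

theorem lpt3_res_surjective (B : Subalgebra R F) (τ : F ≃+* F) (hτB : ∀ x ∈ B, τ x ∈ B)
    (hτB' : ∀ x ∈ B, τ.symm x ∈ B) : Function.Surjective (lpt3_res B τ hτB) := by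
  intro y
  refine ⟨⟨τ.symm y, hτB' y y.2⟩, ?_⟩
  apply Subtype.ext
  show τ (τ.symm (y : F)) = y
  exact τ.apply_symm_apply _

/-- `f₃ = f₁ / τ f₁ / G ^ m` with `f₁ = f / τ f`. -/
def lpt3_f3 (τ : F ≃+* F) (m : ℕ) (f G : F) : F := f / τ f / τ (f / τ f) / G ^ m

/-- `u = τ f₃ / f₃ ^ Q`. -/
def lpt3_u (τ : F ≃+* F) (m Q : ℕ) (f G : F) : F :=
  τ (lpt3_f3 τ m f G) / lpt3_f3 τ m f G ^ Q

/-- `c₃ = c₁ / τ c₁ / G` with `c₁ = c / τ c`: the root of `f₃` made from a root `c` of `f`. -/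
def lpt3_c3 (τ : F ≃+* F) (c G : F) : F := c / τ c / τ (c / τ c) / G

/-- Krull clause at `n` + saturation of `B` in `W`: an element of `W` which is regular along
every horizontal `O` through `n` lies in `B_n`. -/
theorem lpt3_sat (π : R) (W : Subring F) (B : Subalgebra R F) (hBW : ∀ x ∈ B, x ∈ W)
    (hsat : ∀ x ∈ B, (algebraMap R F π)⁻¹ * x ∈ W → (algebraMap R F π)⁻¹ * x ∈ B)
    (hπ0 : algebraMap R F π ≠ 0) (n : Ideal B)
    (hKr : ∀ x : F,
      (∀ O : ValuationSubring F, s34i47_IsHoriz π O → s34i47_Through B n O → x ∈ O) →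
      ∃ s : B, s ∉ n ∧ ∃ k : ℕ, algebraMap R F π ^ k * ((s : F) * x) ∈ B)
    (x : F) (hxW : x ∈ W)
    (hx : ∀ O : ValuationSubring F, s34i47_IsHoriz π O → s34i47_Through B n O → x ∈ O) :
    ∃ s : B, s ∉ n ∧ (s : F) * x ∈ B := by
  obtain ⟨s, hs, k, hk⟩ := hKr x hx
  refine ⟨s, hs, ?_⟩
  have hsxW : (s : F) * x ∈ W := W.mul_mem (hBW _ s.2) hxW
  have hπW : algebraMap R F π ∈ W := hBW _ (B.algebraMap_mem π)
  induction k with
  | zero => simpa using hk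
  | succ k ih =>
    apply ih
    have e : (algebraMap R F π)⁻¹ * (algebraMap R F π ^ (k + 1) * ((s : F) * x)) =
        algebraMap R F π ^ k * ((s : F) * x) := by
      rw [pow_succ', mul_assoc, inv_mul_cancel_left₀ hπ0]
    have h1 := hsat _ hk (by rw [e]; exact W.mul_mem (W.pow_mem hπW k) hsxW)
    rwa [e] at h1

end ChartAlg

section Chart

variable {R K F : Type*} [CommRing R] [IsDomain R] [IsDiscreteValuationRing R] [Field K]
  [Field F] [Algebra R K] [IsFractionRing R K] [Algebra R F] [Algebra K F] [IsScalarTower R K F]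

/-- `π` lies in the preimage under `τ` of a maximal ideal containing `π`. -/
theorem lpt3_pi_mem_comap (π : R) (hπ : Irreducible π) (B : Subalgebra R F) (τ : F ≃+* F)
    (hτR : ∀ r : R, ∃ r' : R, τ (algebraMap R F r) = algebraMap R F r')
    (hτB : ∀ x ∈ B, τ x ∈ B) (hτB' : ∀ x ∈ B, τ.symm x ∈ B)
    (n' : Ideal B) (hn' : n'.IsMaximal) (hπn' : algebraMap R B π ∈ n') :
    algebraMap R B π ∈ Ideal.comap (lpt3_res B τ hτB) n' := by
  rw [Ideal.mem_comap]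
  obtain ⟨r', hr'⟩ := hτR π
  have hres : lpt3_res B τ hτB (algebraMap R B π) = algebraMap R B r' := by
    apply Subtype.ext
    exact hr'
  rw [hres]
  by_cases hu : IsUnit r'
  · exfalso
    obtain ⟨v, hv⟩ := hu
    have h1 : τ.symm (algebraMap R F ((v⁻¹ : Rˣ) : R)) ∈ B := hτB' _ (B.algebraMap_mem _)
    have h2 : algebraMap R F π * τ.symm (algebraMap R F ((v⁻¹ : Rˣ) : R)) = 1 := by
      have h3 : algebraMap R F π = τ.symm (algebraMap R F r') := by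
        rw [← hr', τ.symm_apply_apply]
      rw [h3, ← map_mul, ← map_mul, ← hv, Units.mul_inv, map_one, map_one]
    apply hn'.ne_top
    rw [Ideal.eq_top_iff_one]
    have h4 : (1 : B) = algebraMap R B π * ⟨_, h1⟩ := Subtype.ext h2.symm
    rw [h4]
    exact n'.mul_mem_right _ hπn'
  · have hmem : r' ∈ IsLocalRing.maximalIdeal R := (IsLocalRing.mem_maximalIdeal r').mpr hu
    rw [hπ.maximalIdeal_eq, Ideal.mem_span_singleton] at hmem
    obtain ⟨r'', rfl⟩ := hmem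
    rw [map_mul]
    exact n'.mul_mem_right _ hπn'

include K in
/-- **(LP) is stable under `τ`**, if `τ R ⊆ R` and `τ B = B`. -/
theorem lpt3_locPrin_map (π : R) (hπ : Irreducible π) (m : ℕ) (B : Subalgebra R F)
    (τ : F ≃+* F) (hτR : ∀ r : R, ∃ r' : R, τ (algebraMap R F r) = algebraMap R F r')
    (hτB : ∀ x ∈ B, τ x ∈ B) (hτB' : ∀ x ∈ B, τ.symm x ∈ B) {f : F}
    (hf : s34i47_LocPrin π m B f) : s34i47_LocPrin π m B (τ f) := by
  intro n' hn' hπn'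
  have hmax : (Ideal.comap (lpt3_res B τ hτB) n').IsMaximal :=
    Ideal.comap_isMaximal_of_surjective _ (lpt3_res_surjective B τ hτB hτB')
  obtain ⟨c, hc⟩ := hf _ hmax (lpt3_pi_mem_comap π hπ B τ hτR hτB hτB' n' hn' hπn')
  exact ⟨τ c, lpt3_Root_map (K := K) π hπ m B _ n' τ hτR hτB (fun d hd => hd) hc⟩

include K in
/-- **(LP) for `f` gives (LP) for `f₃ = f₁ / τ f₁ / G ^ m`, `f₁ = f / τ f`**, for every
`G ≠ 0`. -/
theorem lpt3_locPrin_f3 (π : R) (hπ : Irreducible π) (m : ℕ) (B : Subalgebra R F)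
    (τ : F ≃+* F) (hτR : ∀ r : R, ∃ r' : R, τ (algebraMap R F r) = algebraMap R F r')
    (hτB : ∀ x ∈ B, τ x ∈ B) (hτB' : ∀ x ∈ B, τ.symm x ∈ B) {f G : F}
    (hf : s34i47_LocPrin π m B f) (hG : G ≠ 0) :
    s34i47_LocPrin π m B (lpt3_f3 τ m f G) := by
  have h1 := lpt3_locPrin_div π m B hf (lpt3_locPrin_map (K := K) π hπ m B τ hτR hτB hτB' hf)
  have h2 := lpt3_locPrin_div π m B h1 (lpt3_locPrin_map (K := K) π hπ m B τ hτR hτB hτB' h1)
  exact lpt3_locPrin_div π m B h2 (lpt3_locPrin_self_pow π m B hG)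

include K in
/-- **(LP) for `f` gives (LP) for `u = τ f₃ / f₃ ^ Q`.** -/
theorem lpt3_locPrin_u (π : R) (hπ : Irreducible π) (m Q : ℕ) (B : Subalgebra R F)
    (τ : F ≃+* F) (hτR : ∀ r : R, ∃ r' : R, τ (algebraMap R F r) = algebraMap R F r')
    (hτB : ∀ x ∈ B, τ x ∈ B) (hτB' : ∀ x ∈ B, τ.symm x ∈ B) {f G : F}
    (hf : s34i47_LocPrin π m B f) (hG : G ≠ 0) :
    s34i47_LocPrin π m B (lpt3_u τ m Q f G) := by
  have h3 := lpt3_locPrin_f3 (K := K) π hπ m B τ hτR hτB hτB' hf hG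
  exact lpt3_locPrin_div π m B (lpt3_locPrin_map (K := K) π hπ m B τ hτR hτB hτB' h3)
    (lpt3_locPrin_pow π m B h3 Q)

/-- `(G1)` in the inverse direction. -/
theorem lpt3_div_map_mem (W : Subring F) (τ : F ≃+* F) (hG1 : ∀ x : F, x ≠ 0 → τ x / x ∈ W)
    (x : F) (hx : x ≠ 0) : x / τ x ∈ W := by
  have h := hG1 x⁻¹ (inv_ne_zero hx)
  rwa [map_inv₀, inv_div_inv] at h

include K in
/-- **Root shape at a `τ`-fixed closed point.**  `n` a prime of the chart `B` with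
`τ (B ∖ n) ⊆ B ∖ n`, `c` an (LP)-root of `f` at `n`, `(G1)` for `τ` (`τ x / x ∈ W`), `G` a unit
of `W`, the Krull clause at `n` and saturation of `B` in `W`.  Then `c₃ = c₁ / τ c₁ / G`
(`c₁ = c / τ c`) is a unit of `W`, `ε = f₃ / c₃ ^ m` is a unit of `W` and of `B_n`, and
`f₃ = ε * c₃ ^ m`. -/
theorem lpt3_node_shape (π : R) (hπ : Irreducible π) (m : ℕ) (W : Subring F)
    (B : Subalgebra R F) (hBW : ∀ x ∈ B, x ∈ W)
    (hsat : ∀ x ∈ B, (algebraMap R F π)⁻¹ * x ∈ W → (algebraMap R F π)⁻¹ * x ∈ B)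
    (τ : F ≃+* F) (hτR : ∀ r : R, ∃ r' : R, τ (algebraMap R F r) = algebraMap R F r')
    (hτB : ∀ x ∈ B, τ x ∈ B) (hG1 : ∀ x : F, x ≠ 0 → τ x / x ∈ W)
    (n : Ideal B) (hτn : ∀ d : B, d ∉ n → (⟨τ d, hτB d d.2⟩ : B) ∉ n)
    (hKr : ∀ x : F,
      (∀ O : ValuationSubring F, s34i47_IsHoriz π O → s34i47_Through B n O → x ∈ O) →
      ∃ s : B, s ∉ n ∧ ∃ k : ℕ, algebraMap R F π ^ k * ((s : F) * x) ∈ B)
    (f c G : F) (hf : f ≠ 0) (hc : lpt3_Root π m B n f c) (hG : G ≠ 0) (hGW : G ∈ W)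
    (hGW' : G⁻¹ ∈ W) :
    lpt3_c3 τ c G ≠ 0 ∧ lpt3_c3 τ c G ∈ W ∧ (lpt3_c3 τ c G)⁻¹ ∈ W ∧
      lpt3_f3 τ m f G / lpt3_c3 τ c G ^ m ∈ W ∧ (lpt3_f3 τ m f G / lpt3_c3 τ c G ^ m)⁻¹ ∈ W ∧
      (∃ s : B, s ∉ n ∧ (s : F) * (lpt3_f3 τ m f G / lpt3_c3 τ c G ^ m) ∈ B) ∧
      (∃ s : B, s ∉ n ∧ (s : F) * (lpt3_f3 τ m f G / lpt3_c3 τ c G ^ m)⁻¹ ∈ B) ∧
      lpt3_f3 τ m f G = lpt3_f3 τ m f G / lpt3_c3 τ c G ^ m * lpt3_c3 τ c G ^ m := by
  have hinj : Function.Injective (algebraMap R F) := dd35_algebraMap_injective (K := K)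
  have hπ0 : algebraMap R F π ≠ 0 := fun h => hπ.ne_zero (hinj (by rw [h, map_zero]))
  have hc0 : c ≠ 0 := hc.1
  have hτc0 : τ c ≠ 0 := (map_ne_zero τ).mpr hc0
  have hττc0 : τ (τ c) ≠ 0 := (map_ne_zero τ).mpr hτc0
  have hτf0 : τ f ≠ 0 := (map_ne_zero τ).mpr hf
  have hττf0 : τ (τ f) ≠ 0 := (map_ne_zero τ).mpr hτf0
  -- the root `c₃`
  have hc1 : c / τ c ≠ 0 := div_ne_zero hc0 hτc0
  have hτc1 : τ (c / τ c) ≠ 0 := (map_ne_zero τ).mpr hc1
  have hc3 : lpt3_c3 τ c G ≠ 0 := div_ne_zero (div_ne_zero hc1 hτc1) hG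
  have hc3W : lpt3_c3 τ c G ∈ W := by
    have h := W.mul_mem (lpt3_div_map_mem W τ hG1 _ hc1) hGW'
    rwa [← div_eq_mul_inv] at h
  have hc3W' : (lpt3_c3 τ c G)⁻¹ ∈ W := by
    have h := W.mul_mem hGW (hG1 _ hc1)
    have e : (lpt3_c3 τ c G)⁻¹ = G * (τ (c / τ c) / (c / τ c)) := by
      unfold lpt3_c3
      rw [inv_div, ← inv_div (τ (c / τ c)) (c / τ c), div_eq_mul_inv, inv_inv]
    rwa [e]
  -- the unit `ε`
  obtain ⟨e, he⟩ : ∃ e : F, e = f / c ^ m := ⟨_, rfl⟩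
  have he0 : e ≠ 0 := by rw [he]; exact div_ne_zero hf (pow_ne_zero m hc0)
  have hτe0 : τ e ≠ 0 := (map_ne_zero τ).mpr he0
  have hττe0 : τ (τ e) ≠ 0 := (map_ne_zero τ).mpr hτe0
  have he1 : e / τ e ≠ 0 := div_ne_zero he0 hτe0
  have hε : lpt3_f3 τ m f G / lpt3_c3 τ c G ^ m = e / τ e / τ (e / τ e) := by
    unfold lpt3_f3 lpt3_c3
    rw [he]
    simp only [map_div₀, map_pow]
    have hcm : c ^ m ≠ 0 := pow_ne_zero m hc0
    have hτcm : τ c ^ m ≠ 0 := pow_ne_zero m hτc0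
    have hττcm : τ (τ c) ^ m ≠ 0 := pow_ne_zero m hττc0
    have hGm : G ^ m ≠ 0 := pow_ne_zero m hG
    simp only [div_pow]
    field_simp
  have hεW : lpt3_f3 τ m f G / lpt3_c3 τ c G ^ m ∈ W := by
    rw [hε]
    exact lpt3_div_map_mem W τ hG1 _ he1
  have hεW' : (lpt3_f3 τ m f G / lpt3_c3 τ c G ^ m)⁻¹ ∈ W := by
    rw [hε, inv_div]
    exact hG1 _ he1
  -- regularity along the horizontal valuation rings through `n`
  have hreg : ∀ O : ValuationSubring F, s34i47_IsHoriz π O → s34i47_Through B n O →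
      e / τ e / τ (e / τ e) ∈ O ∧ (e / τ e / τ (e / τ e))⁻¹ ∈ O := by
    intro O hO hthr
    have hO1 := dd35_horiz_comap (K := K) π hπ τ hτR O hO
    have hthr1 := lpt3_through_comap B n n τ hτB hτn O hthr
    have hO2 := dd35_horiz_comap (K := K) π hπ τ hτR _ hO1
    have hthr2 := lpt3_through_comap B n n τ hτB hτn _ hthr1
    obtain ⟨a0, b0⟩ := hc.2 O hO hthr
    obtain ⟨a1, b1⟩ := hc.2 _ hO1 hthr1
    obtain ⟨a2, b2⟩ := hc.2 _ hO2 hthr2
    have a0' : e ∈ O := by rw [he]; exact a0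
    have b0' : e⁻¹ ∈ O := by rw [he, inv_div]; exact b0
    have a1' : τ e ∈ O := by rw [he]; exact a1
    have b1' : (τ e)⁻¹ ∈ O := by
      have h : τ (c ^ m / f) ∈ O := b1
      rw [← inv_div, map_inv₀] at h
      rw [he]; exact h
    have a2' : τ (τ e) ∈ O := by rw [he]; exact a2
    have b2' : (τ (τ e))⁻¹ ∈ O := by
      have h : τ (τ (c ^ m / f)) ∈ O := b2
      rw [← inv_div, map_inv₀, map_inv₀] at h
      rw [he]; exact h
    have e1 : e / τ e / τ (e / τ e) = e * τ (τ e) * ((τ e)⁻¹ * (τ e)⁻¹) := by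
      rw [map_div₀]
      field_simp
    have e2 : (e / τ e / τ (e / τ e))⁻¹ = e⁻¹ * (τ (τ e))⁻¹ * (τ e * τ e) := by
      rw [map_div₀]
      field_simp
    refine ⟨?_, ?_⟩
    · rw [e1]
      exact O.mul_mem _ _ (O.mul_mem _ _ a0' a2') (O.mul_mem _ _ b1' b1')
    · rw [e2]
      exact O.mul_mem _ _ (O.mul_mem _ _ b0' b2') (O.mul_mem _ _ a1' a1')
  refine ⟨hc3, hc3W, hc3W', hεW, hεW', ?_, ?_, ?_⟩
  · refine lpt3_sat π W B hBW hsat hπ0 n hKr _ hεW fun O hO hthr => ?_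
    rw [hε]
    exact (hreg O hO hthr).1
  · refine lpt3_sat π W B hBW hsat hπ0 n hKr _ hεW' fun O hO hthr => ?_
    rw [hε]
    exact (hreg O hO hthr).2
  · rw [div_mul_cancel₀ _ (pow_ne_zero m hc3)]

end Chart

end Fermat.Agent.S35
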