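import Fermat.Agent.S35.FrobNode93
import Fermat.Agent.S35.FrobFrame50

/-!
# S35 lab (helper96), registry row 548 twin: the congruences (K) and (SS) on the canonical frame

Canonical frame of the S34 lab at level `M' * q` (`q` prime, `q ∤ M'`): `V_∞ = cm85_Vinf`,
`w = al97L_w`, `V_0 = s34i47c_V0`, charts `B = pk15_chart R {h}`, `pk15_chart R {h⁻¹}` of an
admissible Hauptmodul; `ŝ = s34i47_coeffEquiv σ _` the coefficientwise action of a Frobenius
lift `σ`.

* `nf96_GlobalK π B V₁ V₂ s w q` : **global form of (K)**: for every `b ∈ B`,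
  `s b - (w b) ^ q = e₁ + e₂` with `e₁ ∈ B ∩ π V₁`, `e₂ ∈ B ∩ π V₂`
  (`ŝ b ≡ w(b)^q` modulo `p_∞ + p_0`; no closed point is mentioned).
* `nf96_globalK_abs` : abstract proof (Mathlib + the shapes of `SpecFibre79`) from
  `B = α(B') + p_∞`, the Kronecker congruence `β (ŝ' a) ≡ (α a)^q mod π V₁` and `w² = 1`.
* `nf96_NodeCong π B V₁ V₂ s w q` : at every prime `n` of `B` containing both branches (a node):
  (K) `ŝ y ≡ (w y)^q mod n`, (SS) `ŝ² y ≡ y^(q²) mod n`, and `ŝ² y ∈ n ↔ y ∈ n` (`ŝ² n = n`).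
* `nf96_nodeCong_of_global` : `nf96_GlobalK` + `ŝ w = w ŝ` + `w² = 1` ⟹ `nf96_NodeCong`.
* `nf96_global`, `nf96_node` : both on the canonical frame, for every admissible Hauptmodul and
  both affine charts, for a Frobenius lift given by `σR` with `σR r ≡ r ^ q mod π`
  (the binder block of `fn93_node`, helper93);
* `nf96_global_frob`, `nf96_node_frob` : the same for `ff50_Frob R q σ` (helper50's predicate).

All names are prefixed `nf96_`.
-/

set_option autoImplicit false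
set_option linter.unusedSectionVars false
set_option linter.style.haveILetI false

open ModularCurve

namespace Fermat.Agent.S35

open Fermat.Agent.S18 Fermat.Agent.S24 Fermat.Agent.S34

local notation "Q̄" => AlgebraicClosure ℚ

section nf96_abs

variable {R F : Type*} [CommRing R] [Field F] [Algebra R F]

/-- **Global (K)**: `s b - (w b) ^ q ∈ (B ∩ π V₁) + (B ∩ π V₂)` for every `b ∈ B`. -/
def nf96_GlobalK (π : R) (B : Subalgebra R F) (V₁ V₂ : Subring F) (s w : F → F) (q : ℕ) : Prop :=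
  ∀ b ∈ B, ∃ e₁ ∈ B, ∃ e₂ ∈ B, (algebraMap R F π)⁻¹ * e₁ ∈ V₁ ∧ (algebraMap R F π)⁻¹ * e₂ ∈ V₂ ∧
    s b - (w b) ^ q = e₁ + e₂

/-- **(K) + (SS) at the nodes** of the chart `B` (`V₁`, `V₂` the two branches): at every prime
`n` of `B` containing both branches, `s y ≡ (w y) ^ q`, `s (s y) ≡ y ^ (q ^ 2)` modulo `n`, and
`s (s y) ∈ n ↔ y ∈ n`. -/
def nf96_NodeCong (π : R) (B : Subalgebra R F) (V₁ V₂ : Subring F) (s w : F → F) (q : ℕ) : Prop :=
  ∀ n : Ideal B, n.IsPrime → sf79_OnBr π B V₁ n → sf79_OnBr π B V₂ n →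
    (∀ y z₁ z₂ : B, (z₁ : F) = s (y : F) → (z₂ : F) = w (y : F) → z₁ - z₂ ^ q ∈ n) ∧
    (∀ y z : B, (z : F) = s (s (y : F)) → z - y ^ (q ^ 2) ∈ n) ∧
    (∀ y z : B, (z : F) = s (s (y : F)) → (z ∈ n ↔ y ∈ n))

/-- **Abstract global (K).**  `B = α(B') + (B ∩ π V₁)`, `β (s' a) ≡ (α a) ^ q mod π V₁` on `B'`,
`s (π V₁) ⊆ π V₁`, `V₂ = w⁻¹ V₁`, `w ∘ w = id`, `w ∘ α = β`, `s ∘ α = α ∘ s'`, and `B` is stable
under `s` and `w`.  Then `s b - (w b) ^ q ∈ (B ∩ π V₁) + (B ∩ π V₂)` for every `b ∈ B`. -/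
theorem nf96_globalK_abs {F' : Type*} [Field F'] (π : R) (B : Subalgebra R F) (V₁ V₂ : Subring F)
    (B' : Set F') (α β : F' →+* F) (s w : F →+* F) (s' : F' → F') (q : ℕ)
    (hBV : ∀ x ∈ B, x ∈ V₁)
    (hsB : ∀ x ∈ B, s x ∈ B) (hwB : ∀ x ∈ B, w x ∈ B)
    (hαB : ∀ a ∈ B', α a ∈ B)
    (hsα : ∀ a, s (α a) = α (s' a))
    (hwα : ∀ a, w (α a) = β a) (hww : ∀ x, w (w x) = x)
    (hwπ : w (algebraMap R F π) = algebraMap R F π)
    (hV₂ : ∀ x, w x ∈ V₁ → x ∈ V₂)
    (hsV : ∀ x, (algebraMap R F π)⁻¹ * x ∈ V₁ → (algebraMap R F π)⁻¹ * s x ∈ V₁)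
    (hsurj : ∀ x ∈ B, ∃ a ∈ B', (algebraMap R F π)⁻¹ * (x - α a) ∈ V₁)
    (hfrob : ∀ a ∈ B', (algebraMap R F π)⁻¹ * (β (s' a) - (α a) ^ q) ∈ V₁) :
    nf96_GlobalK π B V₁ V₂ s w q := by
  intro b hb
  obtain ⟨a, ha, he⟩ := hsurj b hb
  have hαa : α a ∈ B := hαB a ha
  have heB : b - α a ∈ B := B.sub_mem hb hαa
  have hsαa : α (s' a) ∈ B := by rw [← hsα]; exact hsB _ hαa
  refine ⟨s (b - α a), hsB _ heB, α (s' a) - (w b) ^ q,
    B.sub_mem hsαa (B.pow_mem (hwB b hb) q), hsV _ he, ?_, ?_⟩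
  · apply hV₂
    rw [map_mul, map_inv₀, hwπ, map_sub, map_pow, hww, hwα]
    -- `b ^ q - (α a) ^ q = (b - α a) * c` with `c ∈ B`
    obtain ⟨c, hc⟩ := sub_dvd_pow_sub_pow (⟨b, hb⟩ : B) ⟨α a, hαa⟩ q
    have hc' : b ^ q - (α a) ^ q = (b - α a) * (c : F) := by
      have := congrArg (fun x : B => (x : F)) hc
      simpa using this
    have e : (algebraMap R F π)⁻¹ * (β (s' a) - b ^ q) =
        (algebraMap R F π)⁻¹ * (β (s' a) - (α a) ^ q) -
          (algebraMap R F π)⁻¹ * (b - α a) * (c : F) := by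
      have h2 : β (s' a) - b ^ q = (β (s' a) - (α a) ^ q) - (b ^ q - (α a) ^ q) := by ring
      rw [h2, hc']; ring
    rw [e]
    exact V₁.sub_mem (hfrob a ha) (V₁.mul_mem he (hBV _ c.2))
  · rw [map_sub, hsα]; ring

/-- **Global (K) ⟹ (K), (SS) and `s² n = n` at the nodes.** -/
theorem nf96_nodeCong_of_global (π : R) (B : Subalgebra R F) (V₁ V₂ : Subring F)
    (s w : F →+* F) (q : ℕ) (hq : q ≠ 0)
    (hsB : ∀ x ∈ B, s x ∈ B) (hwB : ∀ x ∈ B, w x ∈ B)
    (hww : ∀ x, w (w x) = x) (hws : ∀ x, w (s x) = s (w x))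
    (hK : nf96_GlobalK π B V₁ V₂ s w q) :
    nf96_NodeCong π B V₁ V₂ s w q := by
  intro n hn hn₁ hn₂
  have key : ∀ y z₁ z₂ : B, (z₁ : F) = s (y : F) → (z₂ : F) = w (y : F) → z₁ - z₂ ^ q ∈ n := by
    intro y z₁ z₂ hz₁ hz₂
    obtain ⟨e₁, he₁, e₂, he₂, h₁, h₂, hsum⟩ := hK (y : F) y.2
    have e : z₁ - z₂ ^ q = (⟨e₁, he₁⟩ : B) + ⟨e₂, he₂⟩ := by
      apply Subtype.ext
      show (z₁ : F) - (z₂ : F) ^ q = e₁ + e₂
      rw [hz₁, hz₂, hsum]
    rw [e]
    exact n.add_mem (hn₁ ⟨e₁, he₁⟩ h₁) (hn₂ ⟨e₂, he₂⟩ h₂)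
  have hSS : ∀ y z : B, (z : F) = s (s (y : F)) → z - y ^ (q ^ 2) ∈ n := by
    intro y z hz
    -- `t = s (w y)`, `= w (s y)`
    have hsy : s (y : F) ∈ B := hsB _ y.2
    have hwy : w (y : F) ∈ B := hwB _ y.2
    have hswy : s (w (y : F)) ∈ B := hsB _ hwy
    have h1 : z - (⟨s (w (y : F)), hswy⟩ : B) ^ q ∈ n :=
      key ⟨s (y : F), hsy⟩ z ⟨s (w (y : F)), hswy⟩ hz (hws _).symm
    have h2 : (⟨s (w (y : F)), hswy⟩ : B) - y ^ q ∈ n :=
      key ⟨w (y : F), hwy⟩ ⟨s (w (y : F)), hswy⟩ y rfl (hww _).symm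
    obtain ⟨c, hc⟩ := sub_dvd_pow_sub_pow (⟨s (w (y : F)), hswy⟩ : B) (y ^ q) q
    have h3 : (⟨s (w (y : F)), hswy⟩ : B) ^ q - (y ^ q) ^ q ∈ n := by
      rw [hc]; exact n.mul_mem_right c h2
    have e : z - y ^ (q ^ 2) =
        (z - (⟨s (w (y : F)), hswy⟩ : B) ^ q) +
          ((⟨s (w (y : F)), hswy⟩ : B) ^ q - (y ^ q) ^ q) := by
      rw [pow_two, pow_mul]; ring
    rw [e]
    exact n.add_mem h1 h3
  refine ⟨key, hSS, fun y z hz => ?_⟩
  have h := hSS y z hz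
  have hq2 : 0 < q ^ 2 := Nat.pos_of_ne_zero (pow_ne_zero 2 hq)
  constructor
  · intro hzn
    have h3 : y ^ (q ^ 2) ∈ n := by
      have h4 := n.sub_mem hzn h
      rwa [sub_sub_cancel] at h4
    exact hn.mem_of_pow_mem _ h3
  · intro hyn
    have h3 := n.add_mem h (n.pow_mem_of_mem hyn (q ^ 2) hq2)
    rwa [sub_add_cancel] at h3

end nf96_abs

section nf96_inst

variable {R K : Type} [CommRing R] [IsDomain R] [IsDiscreteValuationRing R] [Field K] [CharZero K]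
  [Algebra R K] [IsFractionRing R K] [Algebra K Q̄]
  (M' q : ℕ) [NeZero M'] [NeZero q] (hq : q.Prime) (hM' : ¬ q ∣ M')
  [Algebra R ↥(modularFunctionFieldFullC K M')]
  [IsScalarTower R K ↥(modularFunctionFieldFullC K M')]
  [Algebra R ↥(modularFunctionFieldFullC K (M' * q))]
  [IsScalarTower R K ↥(modularFunctionFieldFullC K (M' * q))]

variable [Algebra.IsAlgebraic K Q̄]

include hq hM' in
/-- **Global (K) on one chart** `B = pk15_chart R s` of level `M' * q` lying over the chart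
`B' = pk15_chart R s'` of level `M'` (the binder block of `fn93_node_chart`). -/
theorem nf96_global_chart {π : R} (hπ : Irreducible π) (hqR : ¬ IsUnit (q : R))
    (σ : K ≃+* K) (σR : R →+* R)
    (hσ : ∀ r, algebraMap R K (σR r) = σ (algebraMap R K r))
    (hfr : ∀ r, π ∣ σR r - r ^ q)
    (s' : Set ↥(modularFunctionFieldFullC K M'))
    (s : Set ↥(modularFunctionFieldFullC K (M' * q)))
    (hs'V : ∀ g ∈ s', g ∈ cm85_Vinf (K := K) M' hπ)
    (hBV : ∀ x ∈ pk15_chart R s, x ∈ cm85_Vinf (K := K) (M' * q) hπ)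
    (hαB : ∀ x ∈ pk15_chart R s', al97L_alpha K M' q x ∈ pk15_chart R s)
    (hwB : ∀ z : ↥(modularFunctionFieldFullC K (M' * q)),
      bz13_w M' q hq hM' z ∈ pk15_chart R s ↔ z ∈ pk15_chart R s)
    (hsB : ∀ z ∈ pk15_chart R s, s34i47_coeffEquiv σ (M' * q) z ∈ pk15_chart R s)
    (hsurj : bi93_Surj (K := K) M' (M' * q) (dvd_mul_right M' q) hπ s' s) :
    nf96_GlobalK π (pk15_chart R s) (cm85_Vinf (K := K) (M' * q) hπ).toSubring
      (s34i47c_V0 (K := K) M' q hq hM' hπ).toSubring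
      (s34i47_coeffEquiv σ (M' * q)) (al97L_w (algebraMap K Q̄) M' q hq hM') q := by
  have hB'V' : ∀ x ∈ pk15_chart R s', x ∈ cm85_Vinf (K := K) M' hπ :=
    fun x hx => pk15_chart_le_V (cm85_Vinf (K := K) M' hπ) (pk85_hRV M' hπ) s' hs'V x hx
  have hwπ : al97L_w (algebraMap K Q̄) M' q hq hM'
      (algebraMap R ↥(modularFunctionFieldFullC K (M' * q)) π) =
      algebraMap R ↥(modularFunctionFieldFullC K (M' * q)) π := by
    rw [IsScalarTower.algebraMap_apply R K ↥(modularFunctionFieldFullC K (M' * q)),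
      AlgEquiv.commutes]
  exact nf96_globalK_abs π (pk15_chart R s) (cm85_Vinf (K := K) (M' * q) hπ).toSubring
    (s34i47c_V0 (K := K) M' q hq hM' hπ).toSubring
    ((pk15_chart R s' : Subalgebra R ↥(modularFunctionFieldFullC K M')) :
      Set ↥(modularFunctionFieldFullC K M'))
    (al97L_alpha K M' q : ↥(modularFunctionFieldFullC K M') →+*
      ↥(modularFunctionFieldFullC K (M' * q)))
    (al97L_beta K M' q : ↥(modularFunctionFieldFullC K M') →+*
      ↥(modularFunctionFieldFullC K (M' * q)))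
    ((s34i47_coeffEquiv σ (M' * q) : ↥(modularFunctionFieldFullC K (M' * q)) ≃+*
        ↥(modularFunctionFieldFullC K (M' * q))) :
      ↥(modularFunctionFieldFullC K (M' * q)) →+* ↥(modularFunctionFieldFullC K (M' * q)))
    ((al97L_w (algebraMap K Q̄) M' q hq hM' : ↥(modularFunctionFieldFullC K (M' * q)) ≃ₐ[K]
        ↥(modularFunctionFieldFullC K (M' * q))) :
      ↥(modularFunctionFieldFullC K (M' * q)) →+* ↥(modularFunctionFieldFullC K (M' * q)))
    (s34i47_coeffEquiv σ M') q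
    (fun x hx => hBV x hx)
    (fun x hx => hsB x hx)
    (fun x hx => (hwB x).mpr hx)
    (fun a ha => hαB a ha)
    (fun a => fn93_coeff_alpha (K := K) M' q σ a)
    (fun a => al97L_w_alpha_apply (algebraMap K Q̄) M' q hq hM' a)
    (fun x => al97L_w_w (algebraMap K Q̄) M' q hq hM' x)
    hwπ
    (fun x hx => (s34i47c_mem_V0 M' q hq hM' hπ x).mpr hx)
    (fun x hx => fn93_coeff_pi_mem (K := K) (M' * q) hπ q hq.ne_zero σ σR hσ hfr x hx)
    (fun x hx => by
      obtain ⟨x', hx', hyx'⟩ := hsurj x hx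
      exact ⟨x', hx', hyx'⟩)
    (fun a ha => fn93_kron_inf (K := K) M' q hq hπ hqR σ σR hσ hfr a (hB'V' a ha))

include hq hM' in
/-- **Global (K) on the canonical frame**: for a Frobenius lift `σ` (restricting to `σR` on `R`,
`σR r ≡ r ^ q mod π`), every admissible Hauptmodul and both affine charts:
`ŝ b - (w b) ^ q ∈ p_∞ + p_0` for every `b` of the chart. -/
theorem nf96_global {π : R} (hπ : Irreducible π)
    (hunit : ∀ n : ℕ, Nat.Coprime n q → IsUnit (n : R)) (hqR : ¬ IsUnit (q : R))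
    (σ : K ≃+* K) (σR : R →+* R)
    (hσ : ∀ r, algebraMap R K (σR r) = σ (algebraMap R K r))
    (hfr : ∀ r, π ∣ σR r - r ^ q)
    (h : ↥(modularFunctionFieldFullC K (M' * q))) (hh : s34i47c_IsHaupt K (M' * q) q h) :
    nf96_GlobalK π (pk15_chart R ({h} : Set ↥(modularFunctionFieldFullC K (M' * q))))
        (cm85_Vinf (K := K) (M' * q) hπ).toSubring
        (s34i47c_V0 (K := K) M' q hq hM' hπ).toSubring
        (s34i47_coeffEquiv σ (M' * q)) (al97L_w (algebraMap K Q̄) M' q hq hM') q ∧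
      nf96_GlobalK π (pk15_chart R ({h⁻¹} : Set ↥(modularFunctionFieldFullC K (M' * q))))
        (cm85_Vinf (K := K) (M' * q) hπ).toSubring
        (s34i47c_V0 (K := K) M' q hq hM' hπ).toSubring
        (s34i47_coeffEquiv σ (M' * q)) (al97L_w (algebraMap K Q̄) M' q hq hM') q := by
  have hdvd : M' ∣ M' * q := dvd_mul_right M' q
  have hMu : IsUnit (M' : R) := hunit M' ((Nat.Prime.coprime_iff_not_dvd hq).mpr hM').symm
  have hf1 := fl71_F1 (R := R) (K := K) M' q hq hM' hπ hqR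
  obtain ⟨hw₁, hw₂, -⟩ := bz13_charts_stable (R := R) M' q hq hM' hunit h hh
  have hBV₁ : ∀ x ∈ pk15_chart R ({h} : Set ↥(modularFunctionFieldFullC K (M' * q))),
      x ∈ cm85_Vinf (K := K) (M' * q) hπ := fun x hx =>
    ((s34i47c_mem_W M' q hq hM' hπ x).mp
      (al97C_chart_le_W M' q hq hM' hπ h hh {h} (by simp) x hx)).1
  have hBV₂ : ∀ x ∈ pk15_chart R ({h⁻¹} : Set ↥(modularFunctionFieldFullC K (M' * q))),
      x ∈ cm85_Vinf (K := K) (M' * q) hπ := fun x hx =>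
    ((s34i47c_mem_W M' q hq hM' hπ x).mp
      (al97C_chart_le_W M' q hq hM' hπ h hh {h⁻¹} (by simp) x hx)).1
  have hR : ∀ r : R, ∃ r' : R,
      s34i47_coeffEquiv σ (M' * q) (algebraMap R ↥(modularFunctionFieldFullC K (M' * q)) r) =
        algebraMap R ↥(modularFunctionFieldFullC K (M' * q)) r' :=
    fun r => ⟨σR r, fn93_coeff_alg (K := K) (M' * q) σ σR hσ r⟩
  rcases hh with ⟨hq2, h2, rfl⟩ | ⟨hq3, h3, rfl⟩
  · have h2' : 2 ∣ M' :=
      ((Nat.coprime_primes Nat.prime_two hq).mpr (Ne.symm hq2)).dvd_of_dvd_mul_right h2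
    obtain ⟨-, -, -, -, hhV, hhV', -⟩ := cm85_facts_level2 (R := R) (K := K) M' hπ h2'
    obtain ⟨⟨hSj₁, -⟩, ⟨hSj₂, -⟩⟩ :=
      bi93_level2 (R := R) (K := K) M' (M' * q) hdvd hπ h2' hMu hf1
    obtain ⟨hs₁, hs₂, -⟩ := in87i_chart_mem_haupt (R := R) (s34i47_coeffEquiv σ (M' * q)) hR
      (pk85_h2 K (M' * q) h2) (cm15_coeffEquiv_h2 (M' * q) σ h2)
    have hhe : al97L_alpha K M' q (pk85_h2 K M' h2') = pk85_h2 K (M' * q) h2 :=
      Subtype.ext (by rw [al97L_alpha_coe, pk85_h2_coe, pk85_h2_coe])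
    have hα₁ : ∀ x ∈ pk15_chart R ({pk85_h2 K M' h2'} : Set ↥(modularFunctionFieldFullC K M')),
        al97L_alpha K M' q x ∈
          pk15_chart R ({pk85_h2 K (M' * q) h2} : Set ↥(modularFunctionFieldFullC K (M' * q))) := by
      intro x hx
      have h1 := fl71_alpha_chart (R := R) (K := K) M' q _ x hx
      rwa [Set.image_singleton, hhe] at h1
    have hα₂ : ∀ x ∈ pk15_chart R ({(pk85_h2 K M' h2')⁻¹} : Set ↥(modularFunctionFieldFullC K M')),
        al97L_alpha K M' q x ∈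
          pk15_chart R ({(pk85_h2 K (M' * q) h2)⁻¹} :
            Set ↥(modularFunctionFieldFullC K (M' * q))) := by
      intro x hx
      have h1 := fl71_alpha_chart (R := R) (K := K) M' q _ x hx
      rwa [Set.image_singleton, map_inv₀, hhe] at h1
    exact ⟨nf96_global_chart (K := K) M' q hq hM' hπ hqR σ σR hσ hfr _ _
        (fun g hg => by rw [Set.mem_singleton_iff.mp hg]; exact hhV) hBV₁ hα₁ hw₁ hs₁ hSj₁,
      nf96_global_chart (K := K) M' q hq hM' hπ hqR σ σR hσ hfr _ _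
        (fun g hg => by rw [Set.mem_singleton_iff.mp hg]; exact hhV') hBV₂ hα₂ hw₂ hs₂ hSj₂⟩
  · have h3' : 3 ∣ M' :=
      ((Nat.coprime_primes Nat.prime_three hq).mpr (Ne.symm hq3)).dvd_of_dvd_mul_right h3
    obtain ⟨-, -, -, -, hhV, hhV', -⟩ := cm85_facts_level3 (R := R) (K := K) M' hπ h3'
    obtain ⟨⟨hSj₁, -⟩, ⟨hSj₂, -⟩⟩ :=
      bi93_level3 (R := R) (K := K) M' (M' * q) hdvd hπ h3' hMu hf1
    obtain ⟨hs₁, hs₂, -⟩ := in87i_chart_mem_haupt (R := R) (s34i47_coeffEquiv σ (M' * q)) hR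
      (pk85_h3 K (M' * q) h3) (cm15_coeffEquiv_h3 (M' * q) σ h3)
    have hhe : al97L_alpha K M' q (pk85_h3 K M' h3') = pk85_h3 K (M' * q) h3 :=
      Subtype.ext (by rw [al97L_alpha_coe, pk85_h3_coe, pk85_h3_coe])
    have hα₁ : ∀ x ∈ pk15_chart R ({pk85_h3 K M' h3'} : Set ↥(modularFunctionFieldFullC K M')),
        al97L_alpha K M' q x ∈
          pk15_chart R ({pk85_h3 K (M' * q) h3} : Set ↥(modularFunctionFieldFullC K (M' * q))) := by
      intro x hx
      have h1 := fl71_alpha_chart (R := R) (K := K) M' q _ x hx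
      rwa [Set.image_singleton, hhe] at h1
    have hα₂ : ∀ x ∈ pk15_chart R ({(pk85_h3 K M' h3')⁻¹} : Set ↥(modularFunctionFieldFullC K M')),
        al97L_alpha K M' q x ∈
          pk15_chart R ({(pk85_h3 K (M' * q) h3)⁻¹} :
            Set ↥(modularFunctionFieldFullC K (M' * q))) := by
      intro x hx
      have h1 := fl71_alpha_chart (R := R) (K := K) M' q _ x hx
      rwa [Set.image_singleton, map_inv₀, hhe] at h1
    exact ⟨nf96_global_chart (K := K) M' q hq hM' hπ hqR σ σR hσ hfr _ _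
        (fun g hg => by rw [Set.mem_singleton_iff.mp hg]; exact hhV) hBV₁ hα₁ hw₁ hs₁ hSj₁,
      nf96_global_chart (K := K) M' q hq hM' hπ hqR σ σR hσ hfr _ _
        (fun g hg => by rw [Set.mem_singleton_iff.mp hg]; exact hhV') hBV₂ hα₂ hw₂ hs₂ hSj₂⟩

include hq hM' in
/-- **(K) + (SS) on the canonical frame**: for a Frobenius lift `σ` (restricting to `σR` on `R`,
`σR r ≡ r ^ q mod π`), at every node `n` of both affine charts of every admissible Hauptmodul:
`ŝ y ≡ (w y) ^ q`, `ŝ² y ≡ y ^ (q²)` modulo `n`, and `ŝ² n = n`. -/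
theorem nf96_node {π : R} (hπ : Irreducible π)
    (hunit : ∀ n : ℕ, Nat.Coprime n q → IsUnit (n : R)) (hqR : ¬ IsUnit (q : R))
    (σ : K ≃+* K) (σR : R →+* R)
    (hσ : ∀ r, algebraMap R K (σR r) = σ (algebraMap R K r))
    (hfr : ∀ r, π ∣ σR r - r ^ q)
    (h : ↥(modularFunctionFieldFullC K (M' * q))) (hh : s34i47c_IsHaupt K (M' * q) q h) :
    nf96_NodeCong π (pk15_chart R ({h} : Set ↥(modularFunctionFieldFullC K (M' * q))))
        (cm85_Vinf (K := K) (M' * q) hπ).toSubring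
        (s34i47c_V0 (K := K) M' q hq hM' hπ).toSubring
        (s34i47_coeffEquiv σ (M' * q)) (al97L_w (algebraMap K Q̄) M' q hq hM') q ∧
      nf96_NodeCong π (pk15_chart R ({h⁻¹} : Set ↥(modularFunctionFieldFullC K (M' * q))))
        (cm85_Vinf (K := K) (M' * q) hπ).toSubring
        (s34i47c_V0 (K := K) M' q hq hM' hπ).toSubring
        (s34i47_coeffEquiv σ (M' * q)) (al97L_w (algebraMap K Q̄) M' q hq hM') q := by
  obtain ⟨hK₁, hK₂⟩ := nf96_global (K := K) M' q hq hM' hπ hunit hqR σ σR hσ hfr h hh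
  obtain ⟨hw₁, hw₂, -⟩ := bz13_charts_stable (R := R) M' q hq hM' hunit h hh
  have hR : ∀ r : R, ∃ r' : R,
      s34i47_coeffEquiv σ (M' * q) (algebraMap R ↥(modularFunctionFieldFullC K (M' * q)) r) =
        algebraMap R ↥(modularFunctionFieldFullC K (M' * q)) r' :=
    fun r => ⟨σR r, fn93_coeff_alg (K := K) (M' * q) σ σR hσ r⟩
  obtain ⟨hs₁, hs₂, -⟩ := in87i_chart_mem_haupt (R := R) (s34i47_coeffEquiv σ (M' * q)) hR h
    (ff50_haupt M' q σ h hh)
  have hww : ∀ x : ↥(modularFunctionFieldFullC K (M' * q)),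
      al97L_w (algebraMap K Q̄) M' q hq hM' (al97L_w (algebraMap K Q̄) M' q hq hM' x) = x :=
    fun x => al97L_w_w (algebraMap K Q̄) M' q hq hM' x
  have hws : ∀ x : ↥(modularFunctionFieldFullC K (M' * q)),
      al97L_w (algebraMap K Q̄) M' q hq hM' (s34i47_coeffEquiv σ (M' * q) x) =
        s34i47_coeffEquiv σ (M' * q) (al97L_w (algebraMap K Q̄) M' q hq hM' x) :=
    fun x => al97V_w_coeffEquiv (algebraMap K Q̄) M' q hq hM' σ x
  exact ⟨nf96_nodeCong_of_global π _ _ _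
      ((s34i47_coeffEquiv σ (M' * q) : ↥(modularFunctionFieldFullC K (M' * q)) ≃+*
        ↥(modularFunctionFieldFullC K (M' * q))) :
        ↥(modularFunctionFieldFullC K (M' * q)) →+* ↥(modularFunctionFieldFullC K (M' * q)))
      ((al97L_w (algebraMap K Q̄) M' q hq hM' : ↥(modularFunctionFieldFullC K (M' * q)) ≃ₐ[K]
        ↥(modularFunctionFieldFullC K (M' * q))) :
        ↥(modularFunctionFieldFullC K (M' * q)) →+* ↥(modularFunctionFieldFullC K (M' * q)))
      q hq.ne_zero (fun x hx => hs₁ x hx) (fun x hx => (hw₁ x).mpr hx) hww hws hK₁,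
    nf96_nodeCong_of_global π _ _ _
      ((s34i47_coeffEquiv σ (M' * q) : ↥(modularFunctionFieldFullC K (M' * q)) ≃+*
        ↥(modularFunctionFieldFullC K (M' * q))) :
        ↥(modularFunctionFieldFullC K (M' * q)) →+* ↥(modularFunctionFieldFullC K (M' * q)))
      ((al97L_w (algebraMap K Q̄) M' q hq hM' : ↥(modularFunctionFieldFullC K (M' * q)) ≃ₐ[K]
        ↥(modularFunctionFieldFullC K (M' * q))) :
        ↥(modularFunctionFieldFullC K (M' * q)) →+* ↥(modularFunctionFieldFullC K (M' * q)))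
      q hq.ne_zero (fun x hx => hs₂ x hx) (fun x hx => (hw₂ x).mpr hx) hww hws hK₂⟩

/-- The restriction `ff50_sigmaR` of a Frobenius lift (helper50's predicate) satisfies
`σR r ≡ r ^ q mod π`. -/
theorem nf96_frob_dvd {π : R} (hπ : Irreducible π) (σ : K ≃+* K) (hσ : ff50_Frob R q σ) (r : R) :
    π ∣ ff50_sigmaR σ hσ r - r ^ q := by
  have h : ff50_sigmaRfun σ hσ r - r ^ q ∈ IsLocalRing.maximalIdeal R := (hσ r).choose_spec.2
  rw [(IsDiscreteValuationRing.irreducible_iff_uniformizer π).mp hπ,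
    Ideal.mem_span_singleton] at h
  exact h

include hq hM' in
/-- `nf96_global` for `ff50_Frob R q σ`. -/
theorem nf96_global_frob {π : R} (hπ : Irreducible π)
    (hunit : ∀ n : ℕ, Nat.Coprime n q → IsUnit (n : R)) (hqR : ¬ IsUnit (q : R))
    (σ : K ≃+* K) (hσ : ff50_Frob R q σ)
    (h : ↥(modularFunctionFieldFullC K (M' * q))) (hh : s34i47c_IsHaupt K (M' * q) q h) :
    nf96_GlobalK π (pk15_chart R ({h} : Set ↥(modularFunctionFieldFullC K (M' * q))))
        (cm85_Vinf (K := K) (M' * q) hπ).toSubring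
        (s34i47c_V0 (K := K) M' q hq hM' hπ).toSubring
        (s34i47_coeffEquiv σ (M' * q)) (al97L_w (algebraMap K Q̄) M' q hq hM') q ∧
      nf96_GlobalK π (pk15_chart R ({h⁻¹} : Set ↥(modularFunctionFieldFullC K (M' * q))))
        (cm85_Vinf (K := K) (M' * q) hπ).toSubring
        (s34i47c_V0 (K := K) M' q hq hM' hπ).toSubring
        (s34i47_coeffEquiv σ (M' * q)) (al97L_w (algebraMap K Q̄) M' q hq hM') q :=
  nf96_global (K := K) M' q hq hM' hπ hunit hqR σ (ff50_sigmaR σ hσ) (ff50_sigmaR_spec σ hσ)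
    (nf96_frob_dvd (q := q) hπ σ hσ) h hh

include hq hM' in
/-- `nf96_node` for `ff50_Frob R q σ`: **(K), (SS) and `ŝ² n = n` at the nodes of the canonical
charts, for every Frobenius lift.** -/
theorem nf96_node_frob {π : R} (hπ : Irreducible π)
    (hunit : ∀ n : ℕ, Nat.Coprime n q → IsUnit (n : R)) (hqR : ¬ IsUnit (q : R))
    (σ : K ≃+* K) (hσ : ff50_Frob R q σ)
    (h : ↥(modularFunctionFieldFullC K (M' * q))) (hh : s34i47c_IsHaupt K (M' * q) q h) :
    nf96_NodeCong π (pk15_chart R ({h} : Set ↥(modularFunctionFieldFullC K (M' * q))))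
        (cm85_Vinf (K := K) (M' * q) hπ).toSubring
        (s34i47c_V0 (K := K) M' q hq hM' hπ).toSubring
        (s34i47_coeffEquiv σ (M' * q)) (al97L_w (algebraMap K Q̄) M' q hq hM') q ∧
      nf96_NodeCong π (pk15_chart R ({h⁻¹} : Set ↥(modularFunctionFieldFullC K (M' * q))))
        (cm85_Vinf (K := K) (M' * q) hπ).toSubring
        (s34i47c_V0 (K := K) M' q hq hM' hπ).toSubring
        (s34i47_coeffEquiv σ (M' * q)) (al97L_w (algebraMap K Q̄) M' q hq hM') q :=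
  nf96_node (K := K) M' q hq hM' hπ hunit hqR σ (ff50_sigmaR σ hσ) (ff50_sigmaR_spec σ hσ)
    (nf96_frob_dvd (q := q) hπ σ hσ) h hh

end nf96_inst

end Fermat.Agent.S35
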