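import Mathlib
import Fermat.Agent.S34.Iface47
import Fermat.Agent.S34.SpecFibre79
import Fermat.Agent.S34.Transv66

/-!
# S35 lab, row 546 (L1d-smooth, helper89): the local datum at one-branch points

Abstract, in the vocabulary of `Iface47` / `SpecFibre79` (S34 lab).  `B` is a chart, `V₁`, `V₂` the
two valuation rings above the Gauss valuation (as subrings of the function field `F`), `π` the
uniformiser of the base, `p = algebraMap R F π`.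

For ANY function `u` with `u ≡ 1` modulo `π V₁` which is locally an `m`-th power up to a
horizontal unit at `n` (the clause of `s34i47_LocPrin` at `n`), the local datum consumed by the
nodal two-chart lemma (`s34i47_LocalDatum`) exists at every closed point `n` of the special fibre
which lies on the branch `V₁` but NOT on the branch `V₂`:

* `sd89_datum_one` : `∃ φ, π⁻¹ (φ - 1) ∈ V₁ ∧ π⁻¹ (φ - 1) ∈ V₂ ∧ ∃ s ∉ n, s * (φ ^ m * u) ∈ B`.
* `sd89_datum` : the same at every closed point which does not lie on both branches.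
* `sd89_localDatum` : `s34i47_LocalDatum π m W B u` from the datum at the points lying on both
  branches (the nodes) only.

Proof: `u = ε c ^ m` with `c` a unit of `V₁`; `ε` is a unit of `B_n` (Krull property + saturation
at a point off `V₂`, `sd89_mem_loc_of_horiz`); the class of `c` modulo `π V₁` lies in the discrete
valuation ring `(B / p₁)_n` (`tv66_frac`, `tv66_hval`), so `c ≡ t₀` modulo `π V₁` with
`t₀ ∈ B_n`; `B_n` is dense for the other valuation (`sd89_dense`: add a high power of an element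
of `p₂ ∖ n` to the denominator), so `t₀` can be corrected by an element of `π B_n` to `t` with
`t / c ≡ 1` modulo `π V₂` as well; `φ := t / c`.
-/

set_option autoImplicit false

namespace Fermat.Agent.S35

open Fermat.Agent.S34

section SD89

variable {R F : Type*} [CommRing R] [Field F] [Algebra R F]

/-- `1 + π y` is a unit of `V` for `y ∈ V`. -/
theorem sd89_one_add (π : R) (V : Subring F) (hπV : (algebraMap R F π)⁻¹ ∉ V)
    (hV : ∀ x ∈ V, (algebraMap R F π)⁻¹ * x ∉ V → x⁻¹ ∈ V)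
    (hp : algebraMap R F π ∈ V) (y : F) (hy : y ∈ V) :
    (1 + algebraMap R F π * y)⁻¹ ∈ V := by
  have hp0 : algebraMap R F π ≠ 0 := by
    intro h0
    apply hπV
    rw [h0, inv_zero]
    exact V.zero_mem
  apply hV _ (V.add_mem V.one_mem (V.mul_mem hp hy))
  intro h
  apply hπV
  have e : (algebraMap R F π)⁻¹ = (algebraMap R F π)⁻¹ * (1 + algebraMap R F π * y) - y := by
    field_simp
    ring
  rw [e]
  exact V.sub_mem h hy

/-- Every nonzero element of `B` is a power of `π` times a unit of `V`. -/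
theorem sd89_unit_of_mem (π : R) (B : Subalgebra R F) (V : Subring F)
    (hBV : ∀ x ∈ B, x ∈ V)
    (hV : ∀ x ∈ V, (algebraMap R F π)⁻¹ * x ∉ V → x⁻¹ ∈ V)
    (harch : ∀ x ∈ B, x ≠ 0 → ∃ k : ℕ, (algebraMap R F π ^ k)⁻¹ * x ∉ V)
    (b : F) (hb : b ∈ B) (hb0 : b ≠ 0) :
    ∃ j : ℕ, (algebraMap R F π ^ j)⁻¹ * b ∈ V ∧ ((algebraMap R F π ^ j)⁻¹ * b)⁻¹ ∈ V := by
  classical
  have hex : ∃ k : ℕ, (algebraMap R F π ^ k)⁻¹ * b ∉ V := harch b hb hb0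
  have hk0 : (algebraMap R F π ^ Nat.find hex)⁻¹ * b ∉ V := Nat.find_spec hex
  have hk0pos : Nat.find hex ≠ 0 := by
    intro h0
    apply hk0
    rw [h0, pow_zero, inv_one, one_mul]
    exact hBV b hb
  obtain ⟨j, hj⟩ := Nat.exists_eq_succ_of_ne_zero hk0pos
  have hjmem : (algebraMap R F π ^ j)⁻¹ * b ∈ V := by
    by_contra hnot
    have : Nat.find hex ≤ j := Nat.find_min' hex hnot
    omega
  refine ⟨j, hjmem, hV _ hjmem ?_⟩
  intro h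
  apply hk0
  have e : (algebraMap R F π ^ Nat.find hex)⁻¹ * b =
      (algebraMap R F π)⁻¹ * ((algebraMap R F π ^ j)⁻¹ * b) := by
    rw [hj, Nat.succ_eq_add_one, pow_succ, mul_inv]
    ring
  rw [e]
  exact h

/-- Every nonzero element of `F` is a power of `π` times a unit of `V`. -/
theorem sd89_unit_decomp (π : R) (B : Subalgebra R F) (V : Subring F)
    (hBV : ∀ x ∈ B, x ∈ V) (hπV : (algebraMap R F π)⁻¹ ∉ V)
    (hV : ∀ x ∈ V, (algebraMap R F π)⁻¹ * x ∉ V → x⁻¹ ∈ V)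
    (harch : ∀ x ∈ B, x ≠ 0 → ∃ k : ℕ, (algebraMap R F π ^ k)⁻¹ * x ∉ V)
    (hFrac : ∀ x : F, ∃ a ∈ B, ∃ b ∈ B, b ≠ 0 ∧ x * b = a)
    (x : F) (hx : x ≠ 0) :
    ∃ i j : ℕ, x * algebraMap R F π ^ j * (algebraMap R F π ^ i)⁻¹ ∈ V ∧
      (x * algebraMap R F π ^ j * (algebraMap R F π ^ i)⁻¹)⁻¹ ∈ V := by
  have hp0 : algebraMap R F π ≠ 0 := by
    intro h0
    apply hπV
    rw [h0, inv_zero]
    exact V.zero_mem
  obtain ⟨a, ha, b, hb, hb0, hab⟩ := hFrac x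
  have ha0 : a ≠ 0 := by
    rw [← hab]
    exact mul_ne_zero hx hb0
  obtain ⟨i, hi, hi'⟩ := sd89_unit_of_mem π B V hBV hV harch a ha ha0
  obtain ⟨j, hj, hj'⟩ := sd89_unit_of_mem π B V hBV hV harch b hb hb0
  have hpi : algebraMap R F π ^ i ≠ 0 := pow_ne_zero _ hp0
  have hpj : algebraMap R F π ^ j ≠ 0 := pow_ne_zero _ hp0
  have e : x * algebraMap R F π ^ j * (algebraMap R F π ^ i)⁻¹ =
      ((algebraMap R F π ^ i)⁻¹ * a) * ((algebraMap R F π ^ j)⁻¹ * b)⁻¹ := by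
    rw [← hab]
    field_simp
  refine ⟨i, j, ?_, ?_⟩
  · rw [e]
    exact V.mul_mem hi hj'
  · rw [e, mul_inv, inv_inv]
    exact V.mul_mem hi' hj

/-- Discreteness: every element of `F` is multiplied into `V` by a power of `π`. -/
theorem sd89_disc (π : R) (B : Subalgebra R F) (V : Subring F)
    (hBV : ∀ x ∈ B, x ∈ V) (hπV : (algebraMap R F π)⁻¹ ∉ V)
    (hV : ∀ x ∈ V, (algebraMap R F π)⁻¹ * x ∉ V → x⁻¹ ∈ V)
    (harch : ∀ x ∈ B, x ≠ 0 → ∃ k : ℕ, (algebraMap R F π ^ k)⁻¹ * x ∉ V)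
    (hFrac : ∀ x : F, ∃ a ∈ B, ∃ b ∈ B, b ≠ 0 ∧ x * b = a)
    (x : F) : ∃ N : ℕ, algebraMap R F π ^ N * x ∈ V := by
  have hp0 : algebraMap R F π ≠ 0 := by
    intro h0
    apply hπV
    rw [h0, inv_zero]
    exact V.zero_mem
  have hp : algebraMap R F π ∈ V := hBV _ (B.algebraMap_mem π)
  by_cases hx : x = 0
  · exact ⟨0, by rw [hx, mul_zero]; exact V.zero_mem⟩
  · obtain ⟨i, j, h1, -⟩ := sd89_unit_decomp π B V hBV hπV hV harch hFrac x hx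
    refine ⟨j, ?_⟩
    have e : algebraMap R F π ^ j * x =
        (x * algebraMap R F π ^ j * (algebraMap R F π ^ i)⁻¹) * algebraMap R F π ^ i := by
      have hpi : algebraMap R F π ^ i ≠ 0 := pow_ne_zero _ hp0
      field_simp
    rw [e]
    exact V.mul_mem h1 (V.pow_mem hp i)

/-- **Density** of `B_n` for the valuation `V₂` at a prime `n` which does not contain the branch
`B ∩ π V₂`: every element of `F` is approximated by elements of `B_n` to any precision. -/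
theorem sd89_dense (π : R) (B : Subalgebra R F) (V₂ : Subring F)
    (hB₂ : ∀ x ∈ B, x ∈ V₂) (hπ₂ : (algebraMap R F π)⁻¹ ∉ V₂)
    (hV₂ : ∀ x ∈ V₂, (algebraMap R F π)⁻¹ * x ∉ V₂ → x⁻¹ ∈ V₂)
    (harch₂ : ∀ x ∈ B, x ≠ 0 → ∃ k : ℕ, (algebraMap R F π ^ k)⁻¹ * x ∉ V₂)
    (hFrac : ∀ x : F, ∃ a ∈ B, ∃ b ∈ B, b ≠ 0 ∧ x * b = a)
    (n : Ideal B) [hn : n.IsPrime] (e : B) (he : e ∉ n)
    (he₂ : (algebraMap R F π)⁻¹ * (e : F) ∈ V₂) (x d : F) (hd : d ≠ 0) :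
    ∃ δ : F, δ ∈ sf79_loc B n ∧ d⁻¹ * (δ - x) ∈ V₂ := by
  have hp0 : algebraMap R F π ≠ 0 := by
    intro h0
    apply hπ₂
    rw [h0, inv_zero]
    exact V₂.zero_mem
  have hp : algebraMap R F π ∈ V₂ := hB₂ _ (B.algebraMap_mem π)
  obtain ⟨a, ha, b, hb, hb0, hab⟩ := hFrac x
  by_cases hbn : (⟨b, hb⟩ : B) ∈ n
  · -- the denominator lies in `n`: add a high power of `e`
    obtain ⟨k, hk⟩ := sd89_disc π B V₂ hB₂ hπ₂ hV₂ harch₂ hFrac b⁻¹
    obtain ⟨N₀, hN₀⟩ := sd89_disc π B V₂ hB₂ hπ₂ hV₂ harch₂ hFrac (d⁻¹ * a * (b⁻¹) ^ 2)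
    set g : F := (algebraMap R F π)⁻¹ * (e : F) with hg
    have he_eq : (e : F) = algebraMap R F π * g := by
      rw [hg]
      field_simp
    set N : ℕ := N₀ + k + 1 with hN
    set y1 : F := algebraMap R F π ^ N₀ * g ^ N * (algebraMap R F π ^ k * b⁻¹) with hy1
    have hy1mem : y1 ∈ V₂ :=
      V₂.mul_mem (V₂.mul_mem (V₂.pow_mem hp _) (V₂.pow_mem he₂ _)) hk
    have hunit : (1 + algebraMap R F π * y1)⁻¹ ∈ V₂ := sd89_one_add π V₂ hπ₂ hV₂ hp y1 hy1mem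
    have hb''n : (⟨b, hb⟩ + e ^ N : B) ∉ n := by
      intro h
      have h1 : e ^ N ∈ n := by
        have := n.sub_mem h hbn
        simpa using this
      exact he (hn.mem_of_pow_mem N h1)
    have hb''0 : ((⟨b, hb⟩ + e ^ N : B) : F) ≠ 0 := sf79_ne_zero B n _ hb''n
    have hb''eq : ((⟨b, hb⟩ + e ^ N : B) : F) = b * (1 + algebraMap R F π * y1) := by
      push_cast
      rw [hy1, he_eq, hN]
      field_simp
      ring
    have h1ne : (1 + algebraMap R F π * y1) ≠ 0 := by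
      intro h0
      rw [h0, mul_zero] at hb''eq
      exact hb''0 hb''eq
    refine ⟨a * ((⟨b, hb⟩ + e ^ N : B) : F)⁻¹, ⟨⟨b, hb⟩ + e ^ N, hb''n, ?_⟩, ?_⟩
    · have e1 : ((⟨b, hb⟩ + e ^ N : B) : F) * (a * ((⟨b, hb⟩ + e ^ N : B) : F)⁻¹) = a := by
        field_simp
      rw [e1]
      exact ha
    · have hx : x = a * b⁻¹ := by
        rw [← hab]
        field_simp
      have e2 : d⁻¹ * (a * ((⟨b, hb⟩ + e ^ N : B) : F)⁻¹ - x) =
          -((algebraMap R F π ^ N₀ * (d⁻¹ * a * (b⁻¹) ^ 2)) *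
            (algebraMap R F π ^ (k + 1) * g ^ N * (1 + algebraMap R F π * y1)⁻¹)) := by
        rw [hx, hb''eq]
        have hgN : algebraMap R F π * y1 * b = (algebraMap R F π * g) ^ N := by
          rw [hy1, hN]
          field_simp
          ring
        have hy1b : 1 + algebraMap R F π * y1 = (b + (algebraMap R F π * g) ^ N) * b⁻¹ := by
          rw [← hgN]
          field_simp
        have key : (algebraMap R F π * g) ^ N =
            algebraMap R F π ^ N₀ * algebraMap R F π ^ (k + 1) * g ^ N := by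
          rw [hN, mul_pow, ← pow_add]
          congr 2
        field_simp
        rw [hy1b] 
        field_simp
        rw [key]
        ring
      rw [e2]
      exact V₂.neg_mem (V₂.mul_mem hN₀
        (V₂.mul_mem (V₂.mul_mem (V₂.pow_mem hp _) (V₂.pow_mem he₂ _)) hunit))
  · -- the denominator is a unit at `n`
    refine ⟨x, ⟨⟨b, hb⟩, hbn, ?_⟩, ?_⟩
    · show b * x ∈ B
      rw [mul_comm, hab]
      exact ha
    · rw [sub_self, mul_zero]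
      exact V₂.zero_mem

/-- Removing powers of `π` at a point off the branch `V₂`: if `π ^ k y ∈ B_n` and `y ∈ V₁` then
`y ∈ B_n`. -/
theorem sd89_desc (π : R) (B : Subalgebra R F) (V₁ V₂ : Subring F)
    (hB₁ : ∀ x ∈ B, x ∈ V₁) (hB₂ : ∀ x ∈ B, x ∈ V₂) (hπ₁ : (algebraMap R F π)⁻¹ ∉ V₁)
    (hsat : ∀ x ∈ B, (algebraMap R F π)⁻¹ * x ∈ V₁ → (algebraMap R F π)⁻¹ * x ∈ V₂ →
      (algebraMap R F π)⁻¹ * x ∈ B)
    (n : Ideal B) [hn : n.IsPrime] (e : B) (he : e ∉ n)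
    (he₂ : (algebraMap R F π)⁻¹ * (e : F) ∈ V₂) (k : ℕ) (y : F) (hy : y ∈ V₁)
    (h : algebraMap R F π ^ k * y ∈ sf79_loc B n) : y ∈ sf79_loc B n := by
  have hp0 : algebraMap R F π ≠ 0 := by
    intro h0
    apply hπ₁
    rw [h0, inv_zero]
    exact V₁.zero_mem
  have hp : algebraMap R F π ∈ V₁ := hB₁ _ (B.algebraMap_mem π)
  induction k with
  | zero => simpa using h
  | succ k ih =>
    apply ih
    obtain ⟨t, ht, htm⟩ := h
    refine ⟨e * t, fun h' => (hn.mem_or_mem h').elim he ht, ?_⟩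
    have e1 : ((e * t : B) : F) * (algebraMap R F π ^ k * y) =
        (algebraMap R F π)⁻¹ * ((e : F) * ((t : F) * (algebraMap R F π ^ (k + 1) * y))) := by
      push_cast
      rw [pow_succ]
      field_simp
    rw [e1]
    apply hsat _ (B.mul_mem e.2 htm)
    · have e2 : (algebraMap R F π)⁻¹ * ((e : F) * ((t : F) * (algebraMap R F π ^ (k + 1) * y))) =
          (e : F) * ((t : F) * (algebraMap R F π ^ k * y)) := by
        rw [pow_succ]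
        field_simp
      rw [e2]
      exact V₁.mul_mem (hB₁ _ e.2) (V₁.mul_mem (hB₁ _ t.2) (V₁.mul_mem (V₁.pow_mem hp k) hy))
    · have e3 : (algebraMap R F π)⁻¹ * ((e : F) * ((t : F) * (algebraMap R F π ^ (k + 1) * y))) =
          ((algebraMap R F π)⁻¹ * (e : F)) * ((t : F) * (algebraMap R F π ^ (k + 1) * y)) := by
        ring
      rw [e3]
      exact V₂.mul_mem he₂ (hB₂ _ htm)

/-- A function which is regular along every horizontal `O` through `n` and along `V₁` lies in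
`B_n`, at a closed point `n` off the branch `V₂` (Krull property + saturation). -/
theorem sd89_mem_loc_of_horiz (π : R) (B : Subalgebra R F) (V₁ V₂ : Subring F)
    (hB₁ : ∀ x ∈ B, x ∈ V₁) (hB₂ : ∀ x ∈ B, x ∈ V₂) (hπ₁ : (algebraMap R F π)⁻¹ ∉ V₁)
    (hsat : ∀ x ∈ B, (algebraMap R F π)⁻¹ * x ∈ V₁ → (algebraMap R F π)⁻¹ * x ∈ V₂ →
      (algebraMap R F π)⁻¹ * x ∈ B)
    (hKr : s34i47_Krull π B)
    (n : Ideal B) (hn : n.IsMaximal) (hπn : algebraMap R B π ∈ n) (e : B) (he : e ∉ n)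
    (he₂ : (algebraMap R F π)⁻¹ * (e : F) ∈ V₂) (x : F) (hx₁ : x ∈ V₁)
    (hx : ∀ O : ValuationSubring F, s34i47_IsHoriz π O → s34i47_Through B n O → x ∈ O) :
    haveI := hn.isPrime
    x ∈ sf79_loc B n := by
  haveI hnp : n.IsPrime := hn.isPrime
  obtain ⟨s, hs, k, hk⟩ := hKr n hn hπn x hx
  have h1 : (s : F) * x ∈ sf79_loc B n :=
    sd89_desc π B V₁ V₂ hB₁ hB₂ hπ₁ hsat n e he he₂ k _ (V₁.mul_mem (hB₁ _ s.2) hx₁)
      (sf79_le_loc B n _ hk)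
  obtain ⟨t, ht, htm⟩ := h1
  refine ⟨t * s, fun h' => (hnp.mem_or_mem h').elim ht hs, ?_⟩
  have e1 : ((t * s : B) : F) * x = (t : F) * ((s : F) * x) := by
    push_cast
    ring
  rw [e1]
  exact htm

/-- **Row 546 (L1d-smooth), one-branch form.**  At a closed point `n` of the special fibre which
lies on the branch `V₁` (with a local coordinate `z`) and not on the branch `V₂`, every `u ≡ 1`
modulo `π V₁` which is an `m`-th power up to a horizontal unit at `n` has a local datum. -/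
theorem sd89_datum_one (π : R) (m : ℕ) (hm : 0 < m) (B : Subalgebra R F) [IsNoetherianRing B]
    (V₁ V₂ : Subring F)
    (hB₁ : ∀ x ∈ B, x ∈ V₁) (hB₂ : ∀ x ∈ B, x ∈ V₂)
    (hπ₁ : (algebraMap R F π)⁻¹ ∉ V₁) (hπ₂ : (algebraMap R F π)⁻¹ ∉ V₂)
    (hV₁ : ∀ x ∈ V₁, (algebraMap R F π)⁻¹ * x ∉ V₁ → x⁻¹ ∈ V₁)
    (hV₂ : ∀ x ∈ V₂, (algebraMap R F π)⁻¹ * x ∉ V₂ → x⁻¹ ∈ V₂)
    (hsat : ∀ x ∈ B, (algebraMap R F π)⁻¹ * x ∈ V₁ → (algebraMap R F π)⁻¹ * x ∈ V₂ →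
      (algebraMap R F π)⁻¹ * x ∈ B)
    (hFrac : ∀ x : F, ∃ a ∈ B, ∃ b ∈ B, b ≠ 0 ∧ x * b = a)
    (harch₁ : ∀ x ∈ B, x ≠ 0 → ∃ k : ℕ, (algebraMap R F π ^ k)⁻¹ * x ∉ V₁)
    (harch₂ : ∀ x ∈ B, x ≠ 0 → ∃ k : ℕ, (algebraMap R F π ^ k)⁻¹ * x ∉ V₂)
    (hKr : s34i47_Krull π B)
    (n : Ideal B) (hn : n.IsMaximal) (hπn : algebraMap R B π ∈ n)
    (hOn : sf79_OnBr π B V₁ n) (hOff : ¬ sf79_OnBr π B V₂ n)
    (z : B) (hz : sf79_Unif π B V₁ n z)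
    (u : F) (hu₁ : (algebraMap R F π)⁻¹ * (u - 1) ∈ V₁)
    (c : F) (hc : c ≠ 0)
    (hLP : ∀ O : ValuationSubring F, s34i47_IsHoriz π O → s34i47_Through B n O →
      u / c ^ m ∈ O ∧ c ^ m / u ∈ O) :
    ∃ φ : F, (algebraMap R F π)⁻¹ * (φ - 1) ∈ V₁ ∧ (algebraMap R F π)⁻¹ * (φ - 1) ∈ V₂ ∧
      ∃ s : B, s ∉ n ∧ (s : F) * (φ ^ m * u) ∈ B := by
  have hnp : n.IsPrime := hn.isPrime
  have := hn
  set p : F := algebraMap R F π with hp_def
  have hp0 : p ≠ 0 := by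
    intro h0
    apply hπ₁
    rw [h0, inv_zero]
    exact V₁.zero_mem
  have hpB : p ∈ B := B.algebraMap_mem π
  have hp₁ : p ∈ V₁ := hB₁ _ hpB
  -- an element of the other branch outside `n`
  obtain ⟨e, he₂, he⟩ : ∃ e : B, p⁻¹ * (e : F) ∈ V₂ ∧ e ∉ n := by
    by_contra hcon
    apply hOff
    intro x hx
    by_contra hxn
    exact hcon ⟨x, hx, hxn⟩
  have he₁ : p⁻¹ * (e : F) ∉ V₁ := fun h => he (hOn e h)
  -- `u` is a unit of `V₁`
  have hu_eq : u = 1 + p * (p⁻¹ * (u - 1)) := by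
    field_simp
    ring
  have hu_mem : u ∈ V₁ := by
    rw [hu_eq]
    exact V₁.add_mem V₁.one_mem (V₁.mul_mem hp₁ hu₁)
  have hu_inv : u⁻¹ ∈ V₁ := by
    rw [hu_eq]
    exact sd89_one_add π V₁ hπ₁ hV₁ hp₁ _ hu₁
  have hu0 : u ≠ 0 := by
    intro h0
    apply hπ₁
    have e1 : p⁻¹ = -(p⁻¹ * (u - 1)) := by
      rw [h0]
      ring
    rw [e1]
    exact V₁.neg_mem hu₁
  -- Step 0: normalise `c` to a unit `c₁` of `V₁`
  obtain ⟨i, j, hc1, hc1'⟩ := sd89_unit_decomp π B V₁ hB₁ hπ₁ hV₁ harch₁ hFrac c hc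
  set c₁ : F := c * p ^ j * (p ^ i)⁻¹ with hc₁_def
  have hpi : p ^ i ≠ 0 := pow_ne_zero _ hp0
  have hpj : p ^ j ≠ 0 := pow_ne_zero _ hp0
  have hc₁0 : c₁ ≠ 0 := by
    rw [hc₁_def]
    exact mul_ne_zero (mul_ne_zero hc hpj) (inv_ne_zero hpi)
  -- Step 1: `ε = u / c₁ ^ m` is a unit of `B_n`
  set ε : F := u / c₁ ^ m with hε_def
  have hε₁ : ε ∈ V₁ := by
    rw [hε_def, div_eq_mul_inv, ← inv_pow]
    exact V₁.mul_mem hu_mem (V₁.pow_mem hc1' m)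
  have hε₁' : ε⁻¹ ∈ V₁ := by
    rw [hε_def, inv_div, div_eq_mul_inv]
    exact V₁.mul_mem (V₁.pow_mem hc1 m) hu_inv
  have hεO : ∀ O : ValuationSubring F, s34i47_IsHoriz π O → s34i47_Through B n O →
      ε ∈ O ∧ ε⁻¹ ∈ O := by
    intro O hO hT
    obtain ⟨h1, h2⟩ := hLP O hO hT
    have hpO : p ∈ O := hO.2.2.1 π
    have hpO' : p⁻¹ ∈ O := hO.2.2.2
    have hc₁a : c₁ = c * (p ^ j * (p⁻¹) ^ i) := by
      rw [hc₁_def, inv_pow, mul_assoc]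
    have hc₁b : c₁⁻¹ = c⁻¹ * ((p⁻¹) ^ j * p ^ i) := by
      rw [hc₁_def, mul_inv, mul_inv, inv_inv, inv_pow, mul_assoc]
    constructor
    · have e1 : ε = u / c ^ m * ((p⁻¹) ^ j * p ^ i) ^ m := by
        rw [hε_def, div_eq_mul_inv, ← inv_pow, hc₁b, mul_pow, div_eq_mul_inv, ← inv_pow]
        ring
      rw [e1]
      exact O.mul_mem _ _ h1 (O.pow_mem (O.mul_mem _ _ (O.pow_mem hpO' j) (O.pow_mem hpO i)) m)
    · have e1 : ε⁻¹ = c ^ m / u * (p ^ j * (p⁻¹) ^ i) ^ m := by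
        rw [hε_def, inv_div, hc₁a, mul_pow, div_eq_mul_inv, div_eq_mul_inv]
        ring
      rw [e1]
      exact O.mul_mem _ _ h2 (O.pow_mem (O.mul_mem _ _ (O.pow_mem hpO j) (O.pow_mem hpO' i)) m)
  have hεB : ε ∈ sf79_loc B n :=
    sd89_mem_loc_of_horiz π B V₁ V₂ hB₁ hB₂ hπ₁ hsat hKr n hn hπn e he he₂ ε hε₁
      fun O hO hT => (hεO O hO hT).1
  have hεB' : ε⁻¹ ∈ sf79_loc B n :=
    sd89_mem_loc_of_horiz π B V₁ V₂ hB₁ hB₂ hπ₁ hsat hKr n hn hπn e he he₂ ε⁻¹ hε₁'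
      fun O hO hT => (hεO O hO hT).2
  -- Step 2: `c₁ ≡ t₀` modulo `π V₁` with `t₀ ∈ B_n`
  have hstep2 : ∃ t₀ : F, t₀ ∈ sf79_loc B n ∧ p⁻¹ * (c₁ - t₀) ∈ V₁ := by
    obtain ⟨b, b', hb', hbb'⟩ := tv66_frac π B V₂ V₁ hB₂ hB₁ hV₁
      (fun x hx h2 h1 => hsat x hx h1 h2) hFrac harch₁ e he₂ he₁ c₁ hc1
    have hbx : p⁻¹ * ((b' : F) * c₁ - (b : F)) ∈ V₁ := by
      rw [hbb', sub_self, mul_zero]
      exact V₁.zero_mem
    rcases tv66_hval π B V₁ hB₁ hπ₁ hV₁ n hOn z hz c₁ hc1 b b' hb' hbx with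
      ⟨c', d, hd, hcd⟩ | ⟨c', d, hd, hcd⟩
    · have hdinv : (d : F)⁻¹ ∈ V₁ := sf79_inv_mem π B V₁ hB₁ hV₁ n hOn d hd
      have hd0 : (d : F) ≠ 0 := sf79_ne_zero B n d hd
      refine ⟨(d : F)⁻¹ * (c' : F), ⟨d, hd, ?_⟩, ?_⟩
      · rw [← mul_assoc, mul_inv_cancel₀ hd0, one_mul]
        exact c'.2
      · have e1 : p⁻¹ * (c₁ - (d : F)⁻¹ * (c' : F)) =
            (d : F)⁻¹ * (p⁻¹ * ((d : F) * c₁ - (c' : F))) := by
          field_simp
        rw [e1]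
        exact V₁.mul_mem hdinv hcd
    · -- `c'` is a unit at `n`
      have hc'n : c' ∉ n := by
        intro hc'
        obtain ⟨tε, htε, htεm⟩ := hεB'
        obtain ⟨aε, haεF⟩ : ∃ aε : B, (aε : F) = (tε : F) * ε⁻¹ := ⟨⟨_, htεm⟩, rfl⟩
        have hεinv : ε⁻¹ = c₁ ^ m * u⁻¹ := by
          rw [hε_def, inv_div, div_eq_mul_inv]
        have hX : p⁻¹ * ((tε * d ^ m - c' ^ m * aε : B) : F) ∈ V₁ := by
          have hpow : p⁻¹ * ((d : F) ^ m - ((c' : F) * c₁) ^ m) ∈ V₁ :=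
            tv66_pow_cong π V₁ (d : F) ((c' : F) * c₁) (hB₁ _ d.2)
              (V₁.mul_mem (hB₁ _ c'.2) hc1) m hcd
          have huu : u⁻¹ * u = 1 := inv_mul_cancel₀ hu0
          have e1 : p⁻¹ * ((tε * d ^ m - c' ^ m * aε : B) : F) =
              (tε : F) * (p⁻¹ * ((d : F) ^ m - ((c' : F) * c₁) ^ m)) +
                (tε : F) * ((c' : F) * c₁) ^ m * u⁻¹ * (p⁻¹ * (u - 1)) := by
            push_cast
            rw [haεF, hεinv, mul_pow]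
            linear_combination (-(p⁻¹ * (tε : F) * (c' : F) ^ m * c₁ ^ m)) * huu
          rw [e1]
          exact V₁.add_mem (V₁.mul_mem (hB₁ _ tε.2) hpow)
            (V₁.mul_mem (V₁.mul_mem (V₁.mul_mem (hB₁ _ tε.2)
              (V₁.pow_mem (V₁.mul_mem (hB₁ _ c'.2) hc1) m)) hu_inv) hu₁)
        have hXn : tε * d ^ m - c' ^ m * aε ∈ n := hOn _ hX
        have h2 : c' ^ m * aε ∈ n :=
          n.mul_mem_right _ (Ideal.pow_mem_of_mem n hc' m hm)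
        have h3 : tε * d ^ m ∈ n := by
          have := n.add_mem hXn h2
          simpa using this
        rcases hnp.mem_or_mem h3 with h4 | h4
        · exact htε h4
        · exact hd (hnp.mem_of_pow_mem m h4)
      have hc'inv : (c' : F)⁻¹ ∈ V₁ := sf79_inv_mem π B V₁ hB₁ hV₁ n hOn c' hc'n
      have hc'0 : (c' : F) ≠ 0 := sf79_ne_zero B n c' hc'n
      refine ⟨(c' : F)⁻¹ * (d : F), ⟨c', hc'n, ?_⟩, ?_⟩
      · rw [← mul_assoc, mul_inv_cancel₀ hc'0, one_mul]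
        exact d.2
      · have e1 : p⁻¹ * (c₁ - (c' : F)⁻¹ * (d : F)) =
            -((c' : F)⁻¹ * (p⁻¹ * ((d : F) - (c' : F) * c₁))) := by
          field_simp
          ring
        rw [e1]
        exact V₁.neg_mem (V₁.mul_mem hc'inv hcd)
  obtain ⟨t₀, ht₀B, ht₀⟩ := hstep2
  -- Step 3: density for the other valuation
  obtain ⟨δ, hδB, hδ⟩ := sd89_dense π B V₂ hB₂ hπ₂ hV₂ harch₂ hFrac n e he he₂
    (p⁻¹ * (c₁ - t₀)) c₁ hc₁0
  have hδ₁ : δ ∈ V₁ := sf79_loc_le π B V₁ hB₁ hV₁ n hOn hδB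
  -- Step 4: `φ = (t₀ + π δ) / c₁`
  refine ⟨c₁⁻¹ * (t₀ + p * δ), ?_, ?_, ?_⟩
  · have e1 : p⁻¹ * (c₁⁻¹ * (t₀ + p * δ) - 1) = c₁⁻¹ * (δ - p⁻¹ * (c₁ - t₀)) := by
      field_simp
      ring
    rw [e1]
    exact V₁.mul_mem hc1' (V₁.sub_mem hδ₁ ht₀)
  · have e1 : p⁻¹ * (c₁⁻¹ * (t₀ + p * δ) - 1) = c₁⁻¹ * (δ - p⁻¹ * (c₁ - t₀)) := by
      field_simp
      ring
    rw [e1]
    exact hδ
  · have hpL : p ∈ sf79_loc B n := sf79_le_loc B n p hpB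
    have ht : t₀ + p * δ ∈ sf79_loc B n :=
      (sf79_loc B n).add_mem ht₀B ((sf79_loc B n).mul_mem hpL hδB)
    have hprod : (t₀ + p * δ) ^ m * ε ∈ sf79_loc B n :=
      (sf79_loc B n).mul_mem ((sf79_loc B n).pow_mem ht m) hεB
    obtain ⟨s, hs, hsm⟩ := hprod
    refine ⟨s, hs, ?_⟩
    have e1 : (c₁⁻¹ * (t₀ + p * δ)) ^ m * u = (t₀ + p * δ) ^ m * ε := by
      rw [hε_def, mul_pow, inv_pow]
      field_simp
    rw [e1]
    exact hsm

/-- **Row 546 (L1d-smooth).**  The local datum at every closed point of the special fibre which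
does not lie on both branches, for any `u ≡ 1` modulo `π (V₁ ⊓ V₂)` with `s34i47_LocPrin`. -/
theorem sd89_datum (π : R) (m : ℕ) (hm : 0 < m) (B : Subalgebra R F) [IsNoetherianRing B]
    (V₁ V₂ : Subring F)
    (hB₁ : ∀ x ∈ B, x ∈ V₁) (hB₂ : ∀ x ∈ B, x ∈ V₂)
    (hπ₁ : (algebraMap R F π)⁻¹ ∉ V₁) (hπ₂ : (algebraMap R F π)⁻¹ ∉ V₂)
    (hV₁ : ∀ x ∈ V₁, (algebraMap R F π)⁻¹ * x ∉ V₁ → x⁻¹ ∈ V₁)
    (hV₂ : ∀ x ∈ V₂, (algebraMap R F π)⁻¹ * x ∉ V₂ → x⁻¹ ∈ V₂)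
    (hsat : ∀ x ∈ B, (algebraMap R F π)⁻¹ * x ∈ V₁ → (algebraMap R F π)⁻¹ * x ∈ V₂ →
      (algebraMap R F π)⁻¹ * x ∈ B)
    (hFrac : ∀ x : F, ∃ a ∈ B, ∃ b ∈ B, b ≠ 0 ∧ x * b = a)
    (harch₁ : ∀ x ∈ B, x ≠ 0 → ∃ k : ℕ, (algebraMap R F π ^ k)⁻¹ * x ∉ V₁)
    (harch₂ : ∀ x ∈ B, x ≠ 0 → ∃ k : ℕ, (algebraMap R F π ^ k)⁻¹ * x ∉ V₂)
    (hKr : s34i47_Krull π B)
    (hS₁ : sf79_Smooth π B V₁) (hS₂ : sf79_Smooth π B V₂)
    (u : F) (hu₁ : (algebraMap R F π)⁻¹ * (u - 1) ∈ V₁)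
    (hu₂ : (algebraMap R F π)⁻¹ * (u - 1) ∈ V₂)
    (hLP : s34i47_LocPrin π m B u)
    (n : Ideal B) (hn : n.IsMaximal) (hπn : algebraMap R B π ∈ n)
    (hnode : ¬ (sf79_OnBr π B V₁ n ∧ sf79_OnBr π B V₂ n)) :
    ∃ φ : F, (algebraMap R F π)⁻¹ * (φ - 1) ∈ V₁ ∧ (algebraMap R F π)⁻¹ * (φ - 1) ∈ V₂ ∧
      ∃ s : B, s ∉ n ∧ (s : F) * (φ ^ m * u) ∈ B := by
  have hnp : n.IsPrime := hn.isPrime
  obtain ⟨c, hc, hLPn⟩ := hLP n hn hπn
  by_cases h1 : sf79_OnBr π B V₁ n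
  · have h2 : ¬ sf79_OnBr π B V₂ n := fun h2 => hnode ⟨h1, h2⟩
    obtain ⟨z, hz⟩ := hS₁ n hn hπn h1
    exact sd89_datum_one π m hm B V₁ V₂ hB₁ hB₂ hπ₁ hπ₂ hV₁ hV₂ hsat hFrac harch₁ harch₂ hKr
      n hn hπn h1 h2 z hz u hu₁ c hc hLPn
  · by_cases h2 : sf79_OnBr π B V₂ n
    · obtain ⟨z, hz⟩ := hS₂ n hn hπn h2
      obtain ⟨φ, hφ₂, hφ₁, hs⟩ := sd89_datum_one π m hm B V₂ V₁ hB₂ hB₁ hπ₂ hπ₁ hV₂ hV₁
        (fun x hx h2' h1' => hsat x hx h1' h2') hFrac harch₂ harch₁ hKr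
        n hn hπn h2 h1 z hz u hu₂ c hc hLPn
      exact ⟨φ, hφ₁, hφ₂, hs⟩
    · -- impossible: `n ∋ π` contains one of the two branches
      exfalso
      obtain ⟨e₁, he₁, he₁n⟩ : ∃ e : B, (algebraMap R F π)⁻¹ * (e : F) ∈ V₁ ∧ e ∉ n := by
        by_contra hcon
        apply h1
        intro x hx
        by_contra hxn
        exact hcon ⟨x, hx, hxn⟩
      obtain ⟨e₂, he₂, he₂n⟩ : ∃ e : B, (algebraMap R F π)⁻¹ * (e : F) ∈ V₂ ∧ e ∉ n := by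
        by_contra hcon
        apply h2
        intro x hx
        by_contra hxn
        exact hcon ⟨x, hx, hxn⟩
      have hp0 : algebraMap R F π ≠ 0 := by
        intro h0
        apply hπ₁
        rw [h0, inv_zero]
        exact V₁.zero_mem
      have hy : (algebraMap R F π)⁻¹ * ((e₁ : F) * (e₂ : F)) ∈ B := by
        apply hsat _ (B.mul_mem e₁.2 e₂.2)
        · rw [← mul_assoc]
          exact V₁.mul_mem he₁ (hB₁ _ e₂.2)
        · have e : (algebraMap R F π)⁻¹ * ((e₁ : F) * (e₂ : F)) =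
              (e₁ : F) * ((algebraMap R F π)⁻¹ * (e₂ : F)) := by ring
          rw [e]
          exact V₂.mul_mem (hB₂ _ e₁.2) he₂
      have hprod : e₁ * e₂ = algebraMap R B π * ⟨_, hy⟩ := by
        apply Subtype.ext
        push_cast
        show (e₁ : F) * (e₂ : F) =
          algebraMap R F π * ((algebraMap R F π)⁻¹ * ((e₁ : F) * (e₂ : F)))
        field_simp
      have hmem : e₁ * e₂ ∈ n := by
        rw [hprod]
        exact n.mul_mem_right _ hπn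
      exact (hnp.mem_or_mem hmem).elim he₁n he₂n

/-- **Row 546, `s34i47_LocalDatum` form.**  For `u ≡ 1` modulo `π W`, `W = V₁ ⊓ V₂`, with
`s34i47_LocPrin`, the local datum of the nodal two-chart lemma exists on the whole chart as soon
as it exists at the closed points lying on BOTH branches (the nodes). -/
theorem sd89_localDatum (π : R) (m : ℕ) (hm : 0 < m) (B : Subalgebra R F) [IsNoetherianRing B]
    (V₁ V₂ W : Subring F) (hW : ∀ x : F, x ∈ V₁ → x ∈ V₂ → x ∈ W)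
    (hB₁ : ∀ x ∈ B, x ∈ V₁) (hB₂ : ∀ x ∈ B, x ∈ V₂)
    (hπ₁ : (algebraMap R F π)⁻¹ ∉ V₁) (hπ₂ : (algebraMap R F π)⁻¹ ∉ V₂)
    (hV₁ : ∀ x ∈ V₁, (algebraMap R F π)⁻¹ * x ∉ V₁ → x⁻¹ ∈ V₁)
    (hV₂ : ∀ x ∈ V₂, (algebraMap R F π)⁻¹ * x ∉ V₂ → x⁻¹ ∈ V₂)
    (hsat : ∀ x ∈ B, (algebraMap R F π)⁻¹ * x ∈ V₁ → (algebraMap R F π)⁻¹ * x ∈ V₂ →
      (algebraMap R F π)⁻¹ * x ∈ B)
    (hFrac : ∀ x : F, ∃ a ∈ B, ∃ b ∈ B, b ≠ 0 ∧ x * b = a)
    (harch₁ : ∀ x ∈ B, x ≠ 0 → ∃ k : ℕ, (algebraMap R F π ^ k)⁻¹ * x ∉ V₁)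
    (harch₂ : ∀ x ∈ B, x ≠ 0 → ∃ k : ℕ, (algebraMap R F π ^ k)⁻¹ * x ∉ V₂)
    (hKr : s34i47_Krull π B)
    (hS₁ : sf79_Smooth π B V₁) (hS₂ : sf79_Smooth π B V₂)
    (u : F) (hu₁ : (algebraMap R F π)⁻¹ * (u - 1) ∈ V₁)
    (hu₂ : (algebraMap R F π)⁻¹ * (u - 1) ∈ V₂)
    (hLP : s34i47_LocPrin π m B u)
    (hNode : ∀ n : Ideal B, n.IsMaximal → algebraMap R B π ∈ n → sf79_OnBr π B V₁ n →
      sf79_OnBr π B V₂ n →
      ∃ φ : F, (algebraMap R F π)⁻¹ * (φ - 1) ∈ W ∧ ∃ s : B, s ∉ n ∧ (s : F) * (φ ^ m * u) ∈ B) :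
    s34i47_LocalDatum π m W B u := by
  intro n hn hπn
  by_cases hnode : sf79_OnBr π B V₁ n ∧ sf79_OnBr π B V₂ n
  · exact hNode n hn hπn hnode.1 hnode.2
  · obtain ⟨φ, h1, h2, hs⟩ := sd89_datum π m hm B V₁ V₂ hB₁ hB₂ hπ₁ hπ₂ hV₁ hV₂ hsat hFrac
      harch₁ harch₂ hKr hS₁ hS₂ u hu₁ hu₂ hLP n hn hπn hnode
    exact ⟨φ, hW _ h1 h2, hs⟩

end SD89

end Fermat.Agent.S35
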