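import Mathlib
import Fermat.Agent.S35.SmoothDatum89
import Fermat.Agent.S34.TransvInst66
import Fermat.Agent.S34.FrameLS7
import Fermat.Agent.S34.SmoothCanon73
import Fermat.Agent.S34.Krull65
import Fermat.Agent.S34.FrameSat85

/-!
# S35 lab, row 546 (L1d-smooth, helper89): the local datum at one-branch points, canonical frame

`SmoothDatum89` on the canonical frame data of `Iface47c` at level `M' * q`:
`V_∞ = cm85_Vinf (M' * q) hπ`, `V_0 = s34i47c_V0 M' q hq hM' hπ`, `W = s34i47c_W M' q hq hM' hπ`,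
charts `pk15_chart R {h}`, `pk15_chart R {h⁻¹}` for every admissible Hauptmodul `h`.

* `sd89c_datum_of` / `sd89c_localDatum_of` : any noetherian integrally closed chart `B ⊆ W`,
  saturated in `W`, with fraction field `F` and the two branches smooth.
* `sd89c_datum` : for both charts of every admissible Hauptmodul, every `u ≡ 1` modulo `π W` with
  `s34i47_LocPrin` and every closed point `n ∋ π` which does not lie on both branches:
  `∃ φ, π⁻¹ (φ - 1) ∈ W ∧ ∃ s ∉ n, s * (φ ^ m * u) ∈ B`  (the first alternative of `tl39_main`).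
* `sd89c_localDatum` : `s34i47_LocalDatum π m W B u` for both charts from the datum at the nodes.
-/

set_option autoImplicit false
set_option linter.unusedSectionVars false

namespace Fermat.Agent.S35

open ModularCurve AlgebraicCurve
open Fermat.Agent.S34 Fermat.Agent.S18

local notation "Q̄" => AlgebraicClosure ℚ

section SD89Canon

variable {R K : Type} [CommRing R] [IsDomain R] [IsDiscreteValuationRing R] [Field K] [CharZero K]
  [Algebra R K] [IsFractionRing R K] [Algebra K Q̄]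
  (M' q : ℕ) [NeZero M'] [NeZero q] (hq : q.Prime) (hM' : ¬ q ∣ M')
  [Algebra R ↥(modularFunctionFieldFullC K (M' * q))]
  [IsScalarTower R K ↥(modularFunctionFieldFullC K (M' * q))] {π : R} (hπ : Irreducible π)

/-- The local datum at the closed points which are not nodes, for a chart of the canonical frame
given by its abstract properties. -/
theorem sd89c_datum_of (B : Subalgebra R ↥(modularFunctionFieldFullC K (M' * q)))
    [IsNoetherianRing B]
    (hBW : ∀ x ∈ B, x ∈ s34i47c_W (K := K) M' q hq hM' hπ)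
    (hsatW : ∀ x ∈ B, (algebraMap R ↥(modularFunctionFieldFullC K (M' * q)) π)⁻¹ * x ∈
        s34i47c_W (K := K) M' q hq hM' hπ →
      (algebraMap R ↥(modularFunctionFieldFullC K (M' * q)) π)⁻¹ * x ∈ B)
    (hFrac : ∀ x : ↥(modularFunctionFieldFullC K (M' * q)), ∃ a ∈ B, ∃ b ∈ B, b ≠ 0 ∧ x * b = a)
    (hKr : s34i47_Krull π B)
    (hS₁ : sf79_Smooth π B (cm85_Vinf (K := K) (M' * q) hπ).toSubring)
    (hS₂ : sf79_Smooth π B (s34i47c_V0 (K := K) M' q hq hM' hπ).toSubring)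
    (m : ℕ) (hm : 0 < m) (u : ↥(modularFunctionFieldFullC K (M' * q)))
    (hu : (algebraMap R ↥(modularFunctionFieldFullC K (M' * q)) π)⁻¹ * (u - 1) ∈
      s34i47c_W (K := K) M' q hq hM' hπ)
    (hLP : s34i47_LocPrin π m B u)
    (n : Ideal B) (hn : n.IsMaximal) (hπn : algebraMap R B π ∈ n)
    (hnode : ¬ (sf79_OnBr π B (cm85_Vinf (K := K) (M' * q) hπ).toSubring n ∧
      sf79_OnBr π B (s34i47c_V0 (K := K) M' q hq hM' hπ).toSubring n)) :
    ∃ φ : ↥(modularFunctionFieldFullC K (M' * q)),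
      (algebraMap R ↥(modularFunctionFieldFullC K (M' * q)) π)⁻¹ * (φ - 1) ∈
        s34i47c_W (K := K) M' q hq hM' hπ ∧
      ∃ s : B, s ∉ n ∧ (s : ↥(modularFunctionFieldFullC K (M' * q))) * (φ ^ m * u) ∈ B := by
  obtain ⟨hu₁, hu₂⟩ := (s34i47c_mem_W M' q hq hM' hπ _).mp hu
  obtain ⟨φ, h1, h2, hs⟩ := sd89_datum π m hm B
    (cm85_Vinf (K := K) (M' * q) hπ).toSubring (s34i47c_V0 (K := K) M' q hq hM' hπ).toSubring
    (fun x hx => ((s34i47c_mem_W M' q hq hM' hπ x).mp (hBW x hx)).1)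
    (fun x hx => ((s34i47c_mem_W M' q hq hM' hπ x).mp (hBW x hx)).2)
    (fl7_pi_inv_not_mem_Vinf M' q hπ) (fl7_pi_inv_not_mem_V0 M' q hq hM' hπ)
    (fl7_hmax_Vinf M' q hπ) (fl7_hmax_V0 M' q hq hM' hπ)
    (fun x hx h1 h2 => hsatW x hx ((s34i47c_mem_W M' q hq hM' hπ _).mpr ⟨h1, h2⟩))
    hFrac
    (fun x _ hx0 => wi18_arch (M' * q) hπ x hx0)
    (fun x _ hx0 => tv66_arch_V0 M' q hq hM' hπ x hx0)
    hKr hS₁ hS₂ u hu₁ hu₂ hLP n hn hπn hnode
  exact ⟨φ, (s34i47c_mem_W M' q hq hM' hπ _).mpr ⟨h1, h2⟩, hs⟩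

/-- `s34i47_LocalDatum` on a chart of the canonical frame from the datum at the nodes. -/
theorem sd89c_localDatum_of (B : Subalgebra R ↥(modularFunctionFieldFullC K (M' * q)))
    [IsNoetherianRing B]
    (hBW : ∀ x ∈ B, x ∈ s34i47c_W (K := K) M' q hq hM' hπ)
    (hsatW : ∀ x ∈ B, (algebraMap R ↥(modularFunctionFieldFullC K (M' * q)) π)⁻¹ * x ∈
        s34i47c_W (K := K) M' q hq hM' hπ →
      (algebraMap R ↥(modularFunctionFieldFullC K (M' * q)) π)⁻¹ * x ∈ B)
    (hFrac : ∀ x : ↥(modularFunctionFieldFullC K (M' * q)), ∃ a ∈ B, ∃ b ∈ B, b ≠ 0 ∧ x * b = a)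
    (hKr : s34i47_Krull π B)
    (hS₁ : sf79_Smooth π B (cm85_Vinf (K := K) (M' * q) hπ).toSubring)
    (hS₂ : sf79_Smooth π B (s34i47c_V0 (K := K) M' q hq hM' hπ).toSubring)
    (m : ℕ) (hm : 0 < m) (u : ↥(modularFunctionFieldFullC K (M' * q)))
    (hu : (algebraMap R ↥(modularFunctionFieldFullC K (M' * q)) π)⁻¹ * (u - 1) ∈
      s34i47c_W (K := K) M' q hq hM' hπ)
    (hLP : s34i47_LocPrin π m B u)
    (hNode : ∀ n : Ideal B, n.IsMaximal → algebraMap R B π ∈ n →
      sf79_OnBr π B (cm85_Vinf (K := K) (M' * q) hπ).toSubring n →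
      sf79_OnBr π B (s34i47c_V0 (K := K) M' q hq hM' hπ).toSubring n →
      ∃ φ : ↥(modularFunctionFieldFullC K (M' * q)),
        (algebraMap R ↥(modularFunctionFieldFullC K (M' * q)) π)⁻¹ * (φ - 1) ∈
          s34i47c_W (K := K) M' q hq hM' hπ ∧
        ∃ s : B, s ∉ n ∧ (s : ↥(modularFunctionFieldFullC K (M' * q))) * (φ ^ m * u) ∈ B) :
    s34i47_LocalDatum π m (s34i47c_W (K := K) M' q hq hM' hπ) B u := by
  intro n hn hπn
  by_cases hnode : sf79_OnBr π B (cm85_Vinf (K := K) (M' * q) hπ).toSubring n ∧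
      sf79_OnBr π B (s34i47c_V0 (K := K) M' q hq hM' hπ).toSubring n
  · exact hNode n hn hπn hnode.1 hnode.2
  · exact sd89c_datum_of M' q hq hM' hπ B hBW hsatW hFrac hKr hS₁ hS₂ m hm u hu hLP n hn hπn
      hnode

end SD89Canon

section SD89Haupt

variable {R K : Type} [CommRing R] [IsDomain R] [IsDiscreteValuationRing R] [Field K]
  [NumberField K] [Algebra R K] [IsFractionRing R K] [Algebra K Q̄]
  (M' q : ℕ) [NeZero M'] [NeZero q] (hq : q.Prime) (hM' : ¬ q ∣ M')
  [Algebra R ↥(modularFunctionFieldFullC K (M' * q))]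
  [IsScalarTower R K ↥(modularFunctionFieldFullC K (M' * q))] {π : R} (hπ : Irreducible π)

/-- The chart facts of both affine charts of an admissible Hauptmodul, in the shapes consumed by
`sd89c_datum_of`. -/
theorem sd89c_chart_facts (hunit : ∀ n : ℕ, Nat.Coprime n q → IsUnit (n : R))
    (hqR : ¬ IsUnit (q : R))
    (h : ↥(modularFunctionFieldFullC K (M' * q))) (hh : s34i47c_IsHaupt K (M' * q) q h)
    (B : Subalgebra R ↥(modularFunctionFieldFullC K (M' * q)))
    (hB : B = pk15_chart R ({h} : Set ↥(modularFunctionFieldFullC K (M' * q))) ∨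
      B = pk15_chart R ({h⁻¹} : Set ↥(modularFunctionFieldFullC K (M' * q)))) :
    IsNoetherianRing B ∧
    (∀ x ∈ B, x ∈ s34i47c_W (K := K) M' q hq hM' hπ) ∧
    (∀ x ∈ B, (algebraMap R ↥(modularFunctionFieldFullC K (M' * q)) π)⁻¹ * x ∈
        s34i47c_W (K := K) M' q hq hM' hπ →
      (algebraMap R ↥(modularFunctionFieldFullC K (M' * q)) π)⁻¹ * x ∈ B) ∧
    (∀ x : ↥(modularFunctionFieldFullC K (M' * q)), ∃ a ∈ B, ∃ b ∈ B, b ≠ 0 ∧ x * b = a) ∧
    s34i47_Krull π B ∧
    sf79_Smooth π B (cm85_Vinf (K := K) (M' * q) hπ).toSubring ∧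
    sf79_Smooth π B (s34i47c_V0 (K := K) M' q hq hM' hπ).toSubring := by
  obtain ⟨-, hCall⟩ := fs85_frameSat M' q hq hM' R K π hπ hunit hqR
  obtain ⟨-, -, hsat₁, hsat₂, -, -, -, -, -⟩ := hCall h hh
  obtain ⟨-, -, -, -, -, -, hN₁, hN₂, -, -, hfrac₁, hfrac₂, -⟩ := tv66_facts M' q hπ h hh
  obtain ⟨⟨hS11, hS12⟩, ⟨hS21, hS22⟩⟩ := sc73_smooth M' q hq hM' hπ hunit hqR h hh
  have hπ0 : algebraMap R ↥(modularFunctionFieldFullC K (M' * q)) π ≠ 0 := by
    intro h0
    apply fl7_pi_inv_not_mem_Vinf (K := K) M' q hπ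
    rw [h0, inv_zero]
    exact Subring.zero_mem _
  rcases hB with rfl | rfl
  · haveI := hN₁
    exact ⟨hN₁, al97C_chart_le_W M' q hq hM' hπ h hh {h} (by simp), hsat₁, hfrac₁,
      kr65_krull π hπ0 _ (kr65_chart_closed _) hfrac₁, hS11, hS12⟩
  · haveI := hN₂
    exact ⟨hN₂, al97C_chart_le_W M' q hq hM' hπ h hh {h⁻¹} (by simp), hsat₂, hfrac₂,
      kr65_krull π hπ0 _ (kr65_chart_closed _) hfrac₂, hS21, hS22⟩

/-- **Row 546 on the canonical frame.**  For both affine charts `B` of every admissible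
Hauptmodul, every `u ≡ 1` modulo `π W` with `s34i47_LocPrin π m B u` has a local datum at every
closed point of the special fibre of `B` which does not lie on both branches. -/
theorem sd89c_datum (hunit : ∀ n : ℕ, Nat.Coprime n q → IsUnit (n : R))
    (hqR : ¬ IsUnit (q : R))
    (h : ↥(modularFunctionFieldFullC K (M' * q))) (hh : s34i47c_IsHaupt K (M' * q) q h)
    (B : Subalgebra R ↥(modularFunctionFieldFullC K (M' * q)))
    (hB : B = pk15_chart R ({h} : Set ↥(modularFunctionFieldFullC K (M' * q))) ∨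
      B = pk15_chart R ({h⁻¹} : Set ↥(modularFunctionFieldFullC K (M' * q))))
    (m : ℕ) (hm : 0 < m) (u : ↥(modularFunctionFieldFullC K (M' * q)))
    (hu : (algebraMap R ↥(modularFunctionFieldFullC K (M' * q)) π)⁻¹ * (u - 1) ∈
      s34i47c_W (K := K) M' q hq hM' hπ)
    (hLP : s34i47_LocPrin π m B u)
    (n : Ideal B) (hn : n.IsMaximal) (hπn : algebraMap R B π ∈ n)
    (hnode : ¬ (sf79_OnBr π B (cm85_Vinf (K := K) (M' * q) hπ).toSubring n ∧
      sf79_OnBr π B (s34i47c_V0 (K := K) M' q hq hM' hπ).toSubring n)) :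
    ∃ φ : ↥(modularFunctionFieldFullC K (M' * q)),
      (algebraMap R ↥(modularFunctionFieldFullC K (M' * q)) π)⁻¹ * (φ - 1) ∈
        s34i47c_W (K := K) M' q hq hM' hπ ∧
      ∃ s : B, s ∉ n ∧ (s : ↥(modularFunctionFieldFullC K (M' * q))) * (φ ^ m * u) ∈ B := by
  obtain ⟨hN, hBW, hsatW, hFrac, hKr, hS₁, hS₂⟩ :=
    sd89c_chart_facts M' q hq hM' hπ hunit hqR h hh B hB
  haveI := hN
  exact sd89c_datum_of M' q hq hM' hπ B hBW hsatW hFrac hKr hS₁ hS₂ m hm u hu hLP n hn hπn hnode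

/-- **Row 546 on the canonical frame, `s34i47_LocalDatum` form**: for both affine charts of every
admissible Hauptmodul, from the datum at the nodes only. -/
theorem sd89c_localDatum (hunit : ∀ n : ℕ, Nat.Coprime n q → IsUnit (n : R))
    (hqR : ¬ IsUnit (q : R))
    (h : ↥(modularFunctionFieldFullC K (M' * q))) (hh : s34i47c_IsHaupt K (M' * q) q h)
    (B : Subalgebra R ↥(modularFunctionFieldFullC K (M' * q)))
    (hB : B = pk15_chart R ({h} : Set ↥(modularFunctionFieldFullC K (M' * q))) ∨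
      B = pk15_chart R ({h⁻¹} : Set ↥(modularFunctionFieldFullC K (M' * q))))
    (m : ℕ) (hm : 0 < m) (u : ↥(modularFunctionFieldFullC K (M' * q)))
    (hu : (algebraMap R ↥(modularFunctionFieldFullC K (M' * q)) π)⁻¹ * (u - 1) ∈
      s34i47c_W (K := K) M' q hq hM' hπ)
    (hLP : s34i47_LocPrin π m B u)
    (hNode : ∀ n : Ideal B, n.IsMaximal → algebraMap R B π ∈ n →
      sf79_OnBr π B (cm85_Vinf (K := K) (M' * q) hπ).toSubring n →
      sf79_OnBr π B (s34i47c_V0 (K := K) M' q hq hM' hπ).toSubring n →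
      ∃ φ : ↥(modularFunctionFieldFullC K (M' * q)),
        (algebraMap R ↥(modularFunctionFieldFullC K (M' * q)) π)⁻¹ * (φ - 1) ∈
          s34i47c_W (K := K) M' q hq hM' hπ ∧
        ∃ s : B, s ∉ n ∧ (s : ↥(modularFunctionFieldFullC K (M' * q))) * (φ ^ m * u) ∈ B) :
    s34i47_LocalDatum π m (s34i47c_W (K := K) M' q hq hM' hπ) B u := by
  obtain ⟨hN, hBW, hsatW, hFrac, hKr, hS₁, hS₂⟩ :=
    sd89c_chart_facts M' q hq hM' hπ hunit hqR h hh B hB
  haveI := hN
  exact sd89c_localDatum_of M' q hq hM' hπ B hBW hsatW hFrac hKr hS₁ hS₂ m hm u hu hLP hNode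

end SD89Haupt

end Fermat.Agent.S35
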