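import Mathlib
import Fermat.Agent.S35.LPTransport3
import Fermat.Agent.S35.Iface62
import Fermat.Agent.S35.FrobFrame50
import Fermat.Agent.S35.NodeFrob96
import Fermat.Agent.S35.SmoothDatumInst89
import Fermat.Agent.S34.UniqueZero37
import Fermat.Agent.S34.LocPrin9
import Fermat.Agent.S34.FrameSat85
import Fermat.Agent.S34.FrameLSAsm71
import Fermat.Agent.S34.FinSupp29
import Fermat.Agent.S34.CoreAsm57
import Fermat.Agent.S34.CoreAsmUZ57
import Fermat.Agent.S34.PkgMain85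

/-!
# S35 lab (helper3): carve-off for `s35i62_Pkg_Core`, chain A — (LP) on the canonical frame

Everything below is hypothesis-free on the canonical frame of `Iface47c` at level `M' * q`
(`V_∞ = cm85_Vinf`, `V_0 = s34i47c_V0`, `W = s34i47c_W`, charts `B = pk15_chart R {h}` or
`pk15_chart R {h⁻¹}` of an admissible Hauptmodul `h`), for a Frobenius lift `σ` (`ff50_Frob R q σ`,
the body of `s35i62_Frobenial`), `ŝ = s34i47_coeffEquiv σ (M' * q)` and `τ = ŝ² = clp3_tau M' q σ`.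

* `clp3_symm_g0`, `clp3_symm_g0'` : a Frobenius lift maps `R` ONTO `R` (`σ⁻¹ R ⊆ R`).
* `clp3_tau_g0`, `clp3_tau_chart`, `clp3_tau_G1` : `τ R ⊆ R`, `τ B = B` (both directions),
  `τ x / x ∈ W`.
* `clp3_locPrin_f` : **(A)** `s34i47_LocPrin π m B f` from the place-form hypotheses of
  `s35i62_Core` on `f` (orders divisible by `m`, rational zeros and poles).
* `clp3_locPrin_u` : **(C)** `s34i47_LocPrin π m B (lpt3_u τ m (q ^ 2) f G)` for every `G ≠ 0`
  (the `hLP` of `sd89c_datum` / `sd89c_localDatum`).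
* `clp3_op_eq` : **(D)** `s35i62_op q ŝ f = lpt3_u τ m (q ^ 2) f G * (τ G / G ^ (q ^ 2)) ^ m`.
* `clp3_node_shape` : **(F)** at a closed point `n` on both branches: `τ`-stability of `n` and
  the root shape `f₃ = ε * c₃ ^ m`, `c₃` a unit of `W`, `ε` a unit of `W` and of `B_n`, for every
  unit `G` of `W` (`f₃ = lpt3_f3 τ m f G`).
* `clp3_core_of` : **the last step of CORE35**: from a unit `G` with `u ≡ 1` modulo `π W` and the
  local datum of `u` at the nodes of both charts: `∃ f₀ c, f₀ ^ m * s35i62_op q ŝ f = c`.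
-/

set_option autoImplicit false
set_option linter.unusedSectionVars false
set_option linter.unusedVariables false

namespace Fermat.Agent.S35

open ModularCurve AlgebraicCurve
open Fermat.Agent.S34 Fermat.Agent.S18

local notation "Q̄" => AlgebraicClosure ℚ

section Symm

variable {R K : Type*} [CommRing R] [IsDomain R] [IsDiscreteValuationRing R] [Field K]
  [Algebra R K] [IsFractionRing R K]

/-- A Frobenius lift maps `R` ONTO `R`: `σ⁻¹ R ⊆ R`. -/
theorem clp3_symm_g0 {q : ℕ} (hq0 : q ≠ 0) (σ : K ≃+* K) (hσ : ff50_Frob R q σ) (r : R) :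
    ∃ r' : R, σ.symm (algebraMap R K r) = algebraMap R K r' := by
  by_cases hr : r = 0
  · exact ⟨0, by rw [hr, map_zero, map_zero]⟩
  have hinj : Function.Injective (algebraMap R K) := IsFractionRing.injective R K
  rcases ValuationRing.isInteger_or_isInteger R (σ.symm (algebraMap R K r)) with ⟨a, ha⟩ | ⟨b, hb⟩
  · exact ⟨a, ha.symm⟩
  · obtain ⟨b', hb', hbq⟩ := hσ b
    have h1 : algebraMap R K b' = (algebraMap R K r)⁻¹ := by
      rw [← hb', hb, map_inv₀, σ.apply_symm_apply]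
    have h2 : r * b' = 1 := by
      apply hinj
      rw [map_mul, h1, map_one, mul_inv_cancel₀]
      exact fun h => hr (hinj (by rw [h, map_zero]))
    have hb'u : IsUnit b' := ⟨⟨b', r, by rw [mul_comm]; exact h2, h2⟩, rfl⟩
    have hbu : IsUnit b := by
      by_contra hnu
      have hbm : b ∈ IsLocalRing.maximalIdeal R := (IsLocalRing.mem_maximalIdeal b).mpr hnu
      have hbqm : b ^ q ∈ IsLocalRing.maximalIdeal R :=
        Ideal.pow_mem_of_mem _ hbm q (Nat.pos_of_ne_zero hq0)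
      have hb'm : b' ∈ IsLocalRing.maximalIdeal R := by
        have h3 := Ideal.add_mem _ hbq hbqm
        rwa [sub_add_cancel] at h3
      exact (IsLocalRing.mem_maximalIdeal b').mp hb'm hb'u
    obtain ⟨v, rfl⟩ := hbu
    refine ⟨((v⁻¹ : Rˣ) : R), ?_⟩
    have h3 : σ.symm (algebraMap R K r) = (algebraMap R K (v : R))⁻¹ := by rw [hb, inv_inv]
    rw [h3]
    exact inv_eq_of_mul_eq_one_right (by rw [← map_mul, Units.mul_inv, map_one])

end Symm

section OpAbs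

variable {F : Type*} [Field F]

theorem clp3_f3_ne_zero (τ : F ≃+* F) (m : ℕ) (f G : F) (hf : f ≠ 0) (hG : G ≠ 0) :
    lpt3_f3 τ m f G ≠ 0 := by
  have h1 : f / τ f ≠ 0 := div_ne_zero hf ((map_ne_zero τ).mpr hf)
  exact div_ne_zero (div_ne_zero h1 ((map_ne_zero τ).mpr h1)) (pow_ne_zero m hG)

theorem clp3_u_ne_zero (τ : F ≃+* F) (m Q : ℕ) (f G : F) (hf : f ≠ 0) (hG : G ≠ 0) :
    lpt3_u τ m Q f G ≠ 0 := by
  have h3 := clp3_f3_ne_zero τ m f G hf hG
  exact div_ne_zero ((map_ne_zero τ).mpr h3) (pow_ne_zero Q h3)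

theorem clp3_op_aux (a b c d g g' : F) (Q m : ℕ) (ha : a ≠ 0) (hb : b ≠ 0) (hc : c ≠ 0)
    (hg : g ≠ 0) (hg' : g' ≠ 0) :
    d * b ^ (2 * Q + 1) / (c ^ (Q + 2) * a ^ Q) =
      b / c / (c / d) / g' ^ m / (a / b / (b / c) / g ^ m) ^ Q * (g' / g ^ Q) ^ m := by
  have hX : a / b / (b / c) / g ^ m = a * c / (b ^ 2 * g ^ m) := by field_simp
  have hY : b / c / (c / d) / g' ^ m = b * d / (c ^ 2 * g' ^ m) := by field_simp
  have e1 : b ^ (2 * Q + 1) = (b ^ Q) ^ 2 * b := by ring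
  have e2 : c ^ (Q + 2) = c ^ Q * c ^ 2 := by ring
  have e3 : (a * c / (b ^ 2 * g ^ m)) ^ Q = a ^ Q * c ^ Q / ((b ^ Q) ^ 2 * (g ^ Q) ^ m) := by
    rw [div_pow, mul_pow, mul_pow, ← pow_mul, ← pow_mul, ← pow_mul, ← pow_mul, mul_comm 2 Q,
      mul_comm m Q]
  have e4 : (g' / g ^ Q) ^ m = g' ^ m / (g ^ Q) ^ m := div_pow _ _ _
  rw [hX, hY, e1, e2, e3, e4]
  have h1 : a ^ Q ≠ 0 := pow_ne_zero _ ha
  have h2 : b ^ Q ≠ 0 := pow_ne_zero _ hb
  have h3 : c ^ Q ≠ 0 := pow_ne_zero _ hc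
  have h4 : (g ^ Q) ^ m ≠ 0 := pow_ne_zero _ (pow_ne_zero _ hg)
  have h5 : g' ^ m ≠ 0 := pow_ne_zero _ hg'
  generalize a ^ Q = A at h1 ⊢
  generalize b ^ Q = B at h2 ⊢
  generalize c ^ Q = C at h3 ⊢
  generalize (g ^ Q) ^ m = GG at h4 ⊢
  generalize g' ^ m = HH at h5 ⊢
  field_simp

/-- **(D)** `op(f) = u * (τ G / G ^ (q ^ 2)) ^ m` for `τ = s²`. -/
theorem clp3_op_eq_abs (s : F ≃+* F) (q m : ℕ) (f G : F) (hf : f ≠ 0) (hG : G ≠ 0) :
    s35i62_op q s f =
      lpt3_u (s.trans s) m (q ^ 2) f G * ((s.trans s) G / G ^ (q ^ 2)) ^ m := by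
  have h1 : s (s f) ≠ 0 := (map_ne_zero s).mpr ((map_ne_zero s).mpr hf)
  have h2 : s (s (s (s f))) ≠ 0 := (map_ne_zero s).mpr ((map_ne_zero s).mpr h1)
  have h4 : s (s G) ≠ 0 := (map_ne_zero s).mpr ((map_ne_zero s).mpr hG)
  unfold s35i62_op lpt3_u lpt3_f3
  simp only [RingEquiv.trans_apply, map_div₀, map_pow]
  exact clp3_op_aux f (s (s f)) (s (s (s (s f)))) (s (s (s (s (s (s f)))))) G (s (s G))
    (q ^ 2) m hf h1 h2 hG h4

end OpAbs

/-! ## The canonical frame -/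

section Frame

variable {R K : Type} [CommRing R] [IsDomain R] [IsDiscreteValuationRing R] [Field K]
  [NumberField K] [Algebra R K] [IsFractionRing R K] [Algebra K Q̄]
  (M' q : ℕ) [NeZero M'] [NeZero q] (hq : q.Prime) (hM' : ¬ q ∣ M')
  [Algebra R ↥(modularFunctionFieldFullC K (M' * q))]
  [IsScalarTower R K ↥(modularFunctionFieldFullC K (M' * q))] {π : R} (hπ : Irreducible π)

/-- `τ = ŝ²`, the square of the coefficientwise action of `σ` on `F_K(M' q)`. -/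
noncomputable def clp3_tau (σ : K ≃+* K) :
    ↥(modularFunctionFieldFullC K (M' * q)) ≃+* ↥(modularFunctionFieldFullC K (M' * q)) :=
  (s34i47_coeffEquiv σ (M' * q)).trans (s34i47_coeffEquiv σ (M' * q))

theorem clp3_tau_apply (σ : K ≃+* K) (x : ↥(modularFunctionFieldFullC K (M' * q))) :
    clp3_tau M' q σ x = s34i47_coeffEquiv σ (M' * q) (s34i47_coeffEquiv σ (M' * q) x) := rfl

theorem clp3_tau_symm_apply (σ : K ≃+* K) (x : ↥(modularFunctionFieldFullC K (M' * q))) :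
    (clp3_tau M' q σ).symm x =
      s34i47_coeffEquiv σ.symm (M' * q) (s34i47_coeffEquiv σ.symm (M' * q) x) := rfl

/-- (G0) for `ŝ⁻¹` over `F_K(M' q)`. -/
theorem clp3_symm_g0' (σ : K ≃+* K) (hσ : ff50_Frob R q σ) (r : R) :
    ∃ r' : R, s34i47_coeffEquiv σ.symm (M' * q)
        (algebraMap R ↥(modularFunctionFieldFullC K (M' * q)) r) =
      algebraMap R ↥(modularFunctionFieldFullC K (M' * q)) r' := by
  obtain ⟨r', hr'⟩ := clp3_symm_g0 (NeZero.ne q) σ hσ r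
  refine ⟨r', ?_⟩
  rw [IsScalarTower.algebraMap_apply R K ↥(modularFunctionFieldFullC K (M' * q)),
    in87i_coeffEquiv_eq, in87_aut_algebraMap, hr',
    ← IsScalarTower.algebraMap_apply R K ↥(modularFunctionFieldFullC K (M' * q))]

/-- (G0) for `τ`. -/
theorem clp3_tau_g0 (σ : K ≃+* K) (hσ : ff50_Frob R q σ) (r : R) :
    ∃ r' : R, clp3_tau M' q σ (algebraMap R ↥(modularFunctionFieldFullC K (M' * q)) r) =
      algebraMap R ↥(modularFunctionFieldFullC K (M' * q)) r' := by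
  obtain ⟨r₁, h₁⟩ := ff50_g0' (M' * q) σ hσ r
  obtain ⟨r₂, h₂⟩ := ff50_g0' (M' * q) σ hσ r₁
  exact ⟨r₂, by rw [clp3_tau_apply, h₁, h₂]⟩

/-- `τ B = B` for both affine charts of an admissible Hauptmodul. -/
theorem clp3_tau_chart (σ : K ≃+* K) (hσ : ff50_Frob R q σ)
    (h : ↥(modularFunctionFieldFullC K (M' * q))) (hh : s34i47c_IsHaupt K (M' * q) q h)
    (B : Subalgebra R ↥(modularFunctionFieldFullC K (M' * q)))
    (hB : B = pk15_chart R ({h} : Set ↥(modularFunctionFieldFullC K (M' * q))) ∨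
      B = pk15_chart R ({h⁻¹} : Set ↥(modularFunctionFieldFullC K (M' * q)))) :
    (∀ x ∈ B, clp3_tau M' q σ x ∈ B) ∧ (∀ x ∈ B, (clp3_tau M' q σ).symm x ∈ B) := by
  obtain ⟨f1, f2, -⟩ := ff50_chart M' q σ hσ h hh
  obtain ⟨b1, b2, -⟩ := in87i_chart_mem_haupt (R := R) (s34i47_coeffEquiv σ.symm (M' * q))
    (fun r => clp3_symm_g0' M' q σ hσ r) h (ff50_haupt M' q σ.symm h hh)
  rcases hB with rfl | rfl
  · exact ⟨fun x hx => f1 _ (f1 x hx), fun x hx => b1 _ (b1 x hx)⟩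
  · exact ⟨fun x hx => f2 _ (f2 x hx), fun x hx => b2 _ (b2 x hx)⟩

include hq hM' in
/-- (G1) for `τ`: both valuations are `τ`-invariant. -/
theorem clp3_tau_G1 (σ : K ≃+* K) (hσ : ff50_Frob R q σ)
    (x : ↥(modularFunctionFieldFullC K (M' * q))) (hx : x ≠ 0) :
    clp3_tau M' q σ x / x ∈ s34i47c_W (K := K) M' q hq hM' hπ := by
  have hx' : s34i47_coeffEquiv σ (M' * q) x ≠ 0 := (map_ne_zero _).mpr hx
  have h1 := ff50_div_mem_W M' q hq hM' hπ σ hσ x hx
  have h2 := ff50_div_mem_W M' q hq hM' hπ σ hσ _ hx'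
  have e : clp3_tau M' q σ x / x =
      s34i47_coeffEquiv σ (M' * q) (s34i47_coeffEquiv σ (M' * q) x) /
        s34i47_coeffEquiv σ (M' * q) x * (s34i47_coeffEquiv σ (M' * q) x / x) := by
    rw [clp3_tau_apply, div_mul_div_cancel₀ hx']
  rw [e]
  exact Subring.mul_mem _ h2 h1

include hq hM' hπ in
/-- **(A)** (LP) for `f` on both affine charts, from the place-form hypotheses of CORE35. -/
theorem clp3_locPrin_f (hunit : ∀ n : ℕ, Nat.Coprime n q → IsUnit (n : R))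
    (hqR : ¬ IsUnit (q : R))
    (h : ↥(modularFunctionFieldFullC K (M' * q))) (hh : s34i47c_IsHaupt K (M' * q) q h)
    (B : Subalgebra R ↥(modularFunctionFieldFullC K (M' * q)))
    (hB : B = pk15_chart R ({h} : Set ↥(modularFunctionFieldFullC K (M' * q))) ∨
      B = pk15_chart R ({h⁻¹} : Set ↥(modularFunctionFieldFullC K (M' * q))))
    (m : ℕ) (hm : 0 < m) (f : ↥(modularFunctionFieldFullC K (M' * q))) (hf : f ≠ 0)
    (hord : ∀ P : Place K ↥(modularFunctionFieldFullC K (M' * q)), (m : ℤ) ∣ P.ord f)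
    (hrat : ∀ P : Place K ↥(modularFunctionFieldFullC K (M' * q)),
      (f ∈ P.toValuationSubring ∧ f⁻¹ ∈ P.toValuationSubring) ∨
        s34i47_IsRat K P.toValuationSubring) :
    s34i47_LocPrin π m B f := by
  have hSat := fs85_frameSat M' q hq hM'
  have hLS := fl71_frameLS M' q hq hM'
  obtain ⟨hUZ₁, hUZ₂⟩ :=
    cau57_frameUZ_of_LS uz37_Pkg_UZ M' q hq hM' hSat hLS R K π hπ hunit hqR h hh
  have hOrd : s34i47_Ord π m f := ca57_ord (K := K) hπ m f hf hord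
  have hRat : s34i47_Rat K π f := ca57_rat (K := K) hπ f hrat
  have hFinS : s34i47_Fin π f :=
    ca57_fin (K := K) hπ f (fs29_Pkg_Fin (M' * q) inferInstance K f hf)
  rcases hB with rfl | rfl
  · exact lp9_Pkg_LP R K ↥(modularFunctionFieldFullC K (M' * q)) π hπ _ m hm f hf hUZ₁ hOrd
      hRat hFinS
  · exact lp9_Pkg_LP R K ↥(modularFunctionFieldFullC K (M' * q)) π hπ _ m hm f hf hUZ₂ hOrd
      hRat hFinS

include hq hM' hπ in
/-- **(C)** (LP) for `u = τ f₃ / f₃ ^ (q²)`, `f₃ = f₁ / τ f₁ / G ^ m`, `f₁ = f / τ f`, on both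
affine charts, for every `G ≠ 0`. -/
theorem clp3_locPrin_u (hunit : ∀ n : ℕ, Nat.Coprime n q → IsUnit (n : R))
    (hqR : ¬ IsUnit (q : R)) (σ : K ≃+* K) (hσ : ff50_Frob R q σ)
    (h : ↥(modularFunctionFieldFullC K (M' * q))) (hh : s34i47c_IsHaupt K (M' * q) q h)
    (B : Subalgebra R ↥(modularFunctionFieldFullC K (M' * q)))
    (hB : B = pk15_chart R ({h} : Set ↥(modularFunctionFieldFullC K (M' * q))) ∨
      B = pk15_chart R ({h⁻¹} : Set ↥(modularFunctionFieldFullC K (M' * q))))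
    (m : ℕ) (hm : 0 < m) (f : ↥(modularFunctionFieldFullC K (M' * q))) (hf : f ≠ 0)
    (hord : ∀ P : Place K ↥(modularFunctionFieldFullC K (M' * q)), (m : ℤ) ∣ P.ord f)
    (hrat : ∀ P : Place K ↥(modularFunctionFieldFullC K (M' * q)),
      (f ∈ P.toValuationSubring ∧ f⁻¹ ∈ P.toValuationSubring) ∨
        s34i47_IsRat K P.toValuationSubring)
    (G : ↥(modularFunctionFieldFullC K (M' * q))) (hG : G ≠ 0) :
    s34i47_LocPrin π m B (lpt3_u (clp3_tau M' q σ) m (q ^ 2) f G) := by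
  obtain ⟨hτB, hτB'⟩ := clp3_tau_chart M' q σ hσ h hh B hB
  exact lpt3_locPrin_u (K := K) π hπ m (q ^ 2) B (clp3_tau M' q σ)
    (fun r => clp3_tau_g0 M' q σ hσ r) hτB hτB'
    (clp3_locPrin_f M' q hq hM' hπ hunit hqR h hh B hB m hm f hf hord hrat) hG

/-- **(D)** `op(f) = u * (τ G / G ^ (q²)) ^ m` on the canonical frame. -/
theorem clp3_op_eq (σ : K ≃+* K) (m : ℕ) (f G : ↥(modularFunctionFieldFullC K (M' * q)))
    (hf : f ≠ 0) (hG : G ≠ 0) :
    s35i62_op q (s34i47_coeffEquiv σ (M' * q)) f =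
      lpt3_u (clp3_tau M' q σ) m (q ^ 2) f G *
        (clp3_tau M' q σ G / G ^ (q ^ 2)) ^ m :=
  clp3_op_eq_abs (s34i47_coeffEquiv σ (M' * q)) q m f G hf hG

include hq hM' in
/-- **(F)** root shape at a closed point on both branches: for every unit `G` of `W`,
`f₃ = ε * c₃ ^ m` with `c₃` a unit of `W` and `ε` a unit of `W` and of `B_n`. -/
theorem clp3_node_shape (hunit : ∀ n : ℕ, Nat.Coprime n q → IsUnit (n : R))
    (hqR : ¬ IsUnit (q : R)) (σ : K ≃+* K) (hσ : ff50_Frob R q σ)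
    (h : ↥(modularFunctionFieldFullC K (M' * q))) (hh : s34i47c_IsHaupt K (M' * q) q h)
    (B : Subalgebra R ↥(modularFunctionFieldFullC K (M' * q)))
    (hB : B = pk15_chart R ({h} : Set ↥(modularFunctionFieldFullC K (M' * q))) ∨
      B = pk15_chart R ({h⁻¹} : Set ↥(modularFunctionFieldFullC K (M' * q))))
    (m : ℕ) (hm : 0 < m) (f : ↥(modularFunctionFieldFullC K (M' * q))) (hf : f ≠ 0)
    (hord : ∀ P : Place K ↥(modularFunctionFieldFullC K (M' * q)), (m : ℤ) ∣ P.ord f)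
    (hrat : ∀ P : Place K ↥(modularFunctionFieldFullC K (M' * q)),
      (f ∈ P.toValuationSubring ∧ f⁻¹ ∈ P.toValuationSubring) ∨
        s34i47_IsRat K P.toValuationSubring)
    (n : Ideal B) (hn : n.IsMaximal) (hπn : algebraMap R B π ∈ n)
    (hn₁ : sf79_OnBr π B (cm85_Vinf (K := K) (M' * q) hπ).toSubring n)
    (hn₂ : sf79_OnBr π B (s34i47c_V0 (K := K) M' q hq hM' hπ).toSubring n)
    (G : ↥(modularFunctionFieldFullC K (M' * q))) (hG : G ≠ 0)
    (hGW : G ∈ s34i47c_W (K := K) M' q hq hM' hπ)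
    (hGW' : G⁻¹ ∈ s34i47c_W (K := K) M' q hq hM' hπ) :
    ∃ c₃ ε : ↥(modularFunctionFieldFullC K (M' * q)),
      c₃ ≠ 0 ∧ c₃ ∈ s34i47c_W (K := K) M' q hq hM' hπ ∧
      c₃⁻¹ ∈ s34i47c_W (K := K) M' q hq hM' hπ ∧
      ε ∈ s34i47c_W (K := K) M' q hq hM' hπ ∧ ε⁻¹ ∈ s34i47c_W (K := K) M' q hq hM' hπ ∧
      (∃ s : B, s ∉ n ∧ (s : ↥(modularFunctionFieldFullC K (M' * q))) * ε ∈ B) ∧
      (∃ s : B, s ∉ n ∧ (s : ↥(modularFunctionFieldFullC K (M' * q))) * ε⁻¹ ∈ B) ∧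
      lpt3_f3 (clp3_tau M' q σ) m f G = ε * c₃ ^ m := by
  obtain ⟨hN, hBW, hsatW, hFrac, hKr, -, -⟩ :=
    sd89c_chart_facts M' q hq hM' hπ hunit hqR h hh B hB
  obtain ⟨hτB, hτB'⟩ := clp3_tau_chart M' q σ hσ h hh B hB
  obtain ⟨c, hc⟩ := clp3_locPrin_f M' q hq hM' hπ hunit hqR h hh B hB m hm f hf hord hrat n hn hπn
  haveI : Algebra.IsAlgebraic K Q̄ := fs85_isAlgebraic K
  letI : Algebra R ↥(modularFunctionFieldFullC K M') :=
    ((algebraMap K ↥(modularFunctionFieldFullC K M')).comp (algebraMap R K)).toAlgebra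
  haveI : IsScalarTower R K ↥(modularFunctionFieldFullC K M') :=
    IsScalarTower.of_algebraMap_eq (fun _ => rfl)
  obtain ⟨hNC₁, hNC₂⟩ := nf96_node_frob (K := K) M' q hq hM' hπ hunit hqR σ hσ h hh
  have hfix : ∀ y z : B, (z : ↥(modularFunctionFieldFullC K (M' * q))) =
      s34i47_coeffEquiv σ (M' * q) (s34i47_coeffEquiv σ (M' * q) (y : _)) → (z ∈ n ↔ y ∈ n) := by
    rcases hB with rfl | rfl
    · exact (hNC₁ n hn.isPrime hn₁ hn₂).2.2
    · exact (hNC₂ n hn.isPrime hn₁ hn₂).2.2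
  have hτn : ∀ d : B, d ∉ n → (⟨clp3_tau M' q σ d, hτB d d.2⟩ : B) ∉ n :=
    fun d hd hz => hd ((hfix d ⟨clp3_tau M' q σ d, hτB d d.2⟩ rfl).mp hz)
  obtain ⟨h1, h2, h3, h4, h5, h6, h7, h8⟩ := lpt3_node_shape (K := K) π hπ m
    (s34i47c_W (K := K) M' q hq hM' hπ) B hBW hsatW (clp3_tau M' q σ)
    (fun r => clp3_tau_g0 M' q σ hσ r) hτB (clp3_tau_G1 M' q hq hM' hπ σ hσ) n hτn
    (hKr n hn hπn) f c G hf hc hG hGW hGW'
  exact ⟨_, _, h1, h2, h3, h4, h5, h6, h7, h8⟩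

include hq hM' in
/-- **The last step of CORE35 (chain A).**  From a `G ≠ 0` with `u ≡ 1` modulo `π W`
(`u = lpt3_u τ m (q²) f G`; from the constant reductions of `f₃`, step (1c)) and the local datum
of `u` at the closed points lying on both branches of the two affine charts (row 547):
`f₀ ^ m * s35i62_op q ŝ f` is a nonzero constant.  The one-branch points are handled by
`sd89c_localDatum` with `clp3_locPrin_u`, the two charts by `cm85_pkg_main`. -/
theorem clp3_core_of (hunit : ∀ n : ℕ, Nat.Coprime n q → IsUnit (n : R))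
    (hqR : ¬ IsUnit (q : R)) (σ : K ≃+* K) (hσ : ff50_Frob R q σ)
    (h : ↥(modularFunctionFieldFullC K (M' * q))) (hh : s34i47c_IsHaupt K (M' * q) q h)
    (m : ℕ) (hm : 0 < m) (hmR : IsUnit (m : R))
    (f : ↥(modularFunctionFieldFullC K (M' * q))) (hf : f ≠ 0)
    (hord : ∀ P : Place K ↥(modularFunctionFieldFullC K (M' * q)), (m : ℤ) ∣ P.ord f)
    (hrat : ∀ P : Place K ↥(modularFunctionFieldFullC K (M' * q)),
      (f ∈ P.toValuationSubring ∧ f⁻¹ ∈ P.toValuationSubring) ∨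
        s34i47_IsRat K P.toValuationSubring)
    (G : ↥(modularFunctionFieldFullC K (M' * q))) (hG : G ≠ 0)
    (hu : (algebraMap R ↥(modularFunctionFieldFullC K (M' * q)) π)⁻¹ *
        (lpt3_u (clp3_tau M' q σ) m (q ^ 2) f G - 1) ∈ s34i47c_W (K := K) M' q hq hM' hπ)
    (hNode : ∀ B : Subalgebra R ↥(modularFunctionFieldFullC K (M' * q)),
      (B = pk15_chart R ({h} : Set ↥(modularFunctionFieldFullC K (M' * q))) ∨
        B = pk15_chart R ({h⁻¹} : Set ↥(modularFunctionFieldFullC K (M' * q)))) →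
      ∀ n : Ideal B, n.IsMaximal → algebraMap R B π ∈ n →
      sf79_OnBr π B (cm85_Vinf (K := K) (M' * q) hπ).toSubring n →
      sf79_OnBr π B (s34i47c_V0 (K := K) M' q hq hM' hπ).toSubring n →
      ∃ φ : ↥(modularFunctionFieldFullC K (M' * q)),
        (algebraMap R ↥(modularFunctionFieldFullC K (M' * q)) π)⁻¹ * (φ - 1) ∈
          s34i47c_W (K := K) M' q hq hM' hπ ∧
        ∃ s : B, s ∉ n ∧ (s : ↥(modularFunctionFieldFullC K (M' * q))) *
          (φ ^ m * lpt3_u (clp3_tau M' q σ) m (q ^ 2) f G) ∈ B) :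
    ∃ (f₀ : ↥(modularFunctionFieldFullC K (M' * q))) (c : K), f₀ ≠ 0 ∧ c ≠ 0 ∧
      f₀ ^ m * s35i62_op q (s34i47_coeffEquiv σ (M' * q)) f =
        algebraMap K ↥(modularFunctionFieldFullC K (M' * q)) c := by
  have hLP : ∀ B : Subalgebra R ↥(modularFunctionFieldFullC K (M' * q)),
      (B = pk15_chart R ({h} : Set ↥(modularFunctionFieldFullC K (M' * q))) ∨
        B = pk15_chart R ({h⁻¹} : Set ↥(modularFunctionFieldFullC K (M' * q)))) →
      s34i47_LocPrin π m B (lpt3_u (clp3_tau M' q σ) m (q ^ 2) f G) := fun B hB =>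
    clp3_locPrin_u M' q hq hM' hπ hunit hqR σ hσ h hh B hB m hm f hf hord hrat G hG
  have hLD₁ := sd89c_localDatum M' q hq hM' hπ hunit hqR h hh _ (Or.inl rfl) m hm _ hu
    (hLP _ (Or.inl rfl)) (hNode _ (Or.inl rfl))
  have hLD₂ := sd89c_localDatum M' q hq hM' hπ hunit hqR h hh _ (Or.inr rfl) m hm _ hu
    (hLP _ (Or.inr rfl)) (hNode _ (Or.inr rfl))
  obtain ⟨hW, hCall⟩ := fs85_frameSat M' q hq hM' R K π hπ hunit hqR
  have hC := hCall h hh
  obtain ⟨f₀, c, hf₀, hfc⟩ := cm85_pkg_main R K ↥(modularFunctionFieldFullC K (M' * q)) π hπ m hm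
    hmR (cap87_algClosed_in (modularFunctionFieldFullC K (M' * q)))
    (s34i47c_W (K := K) M' q hq hM' hπ) h hW hC _ hu hLD₁ hLD₂
  have hu0 : lpt3_u (clp3_tau M' q σ) m (q ^ 2) f G ≠ 0 := clp3_u_ne_zero _ m (q ^ 2) f G hf hG
  have hτG : clp3_tau M' q σ G ≠ 0 := (map_ne_zero _).mpr hG
  have hGq : G ^ (q ^ 2) ≠ 0 := pow_ne_zero _ hG
  refine ⟨f₀ * (G ^ (q ^ 2) / clp3_tau M' q σ G), algebraMap R K c,
    mul_ne_zero hf₀ (div_ne_zero hGq hτG), ?_, ?_⟩
  · intro h0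
    have h1 : f₀ ^ m * lpt3_u (clp3_tau M' q σ) m (q ^ 2) f G = 0 := by
      rw [hfc, IsScalarTower.algebraMap_apply R K ↥(modularFunctionFieldFullC K (M' * q)), h0,
        map_zero]
    rcases mul_eq_zero.mp h1 with h2 | h2
    · exact hf₀ (pow_eq_zero_iff (Nat.pos_iff_ne_zero.mp hm) |>.mp h2)
    · exact hu0 h2
  · rw [clp3_op_eq M' q σ m f G hf hG,
      ← IsScalarTower.algebraMap_apply R K ↥(modularFunctionFieldFullC K (M' * q)), ← hfc,
      mul_pow, div_pow, div_pow]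
    have h1 : (G ^ (q ^ 2)) ^ m ≠ 0 := pow_ne_zero _ hGq
    have h2 : clp3_tau M' q σ G ^ m ≠ 0 := pow_ne_zero _ hτG
    field_simp

end Frame

end Fermat.Agent.S35
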