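import Mathlib
import Fermat.Agent.S34.Iface47
import Fermat.Agent.S34.SpecFibre79
import Fermat.Agent.S34.Transv66

/-!
# S35 lab, row 547 (L1d-node, variant 2), helper14: the coordinate-free local datum at a node

Abstract setting of `SpecFibre79`: `B` a noetherian chart inside the two valuation rings `V₁`,
`V₂` of the function field `F`, `π` the uniformiser of the base, `n` a closed point of the
special fibre lying on both branches (a node), `B_n = sf79_loc B n`.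

`τ` is a ring endomorphism of `F` (in the application `τ = ŝ²`, `ŝ` the coefficientwise action of
a Frobenius lift, and `Q = q²`) with

* `τ(π V_i) ⊆ π V_i`, `τ(V_i) ⊆ V_i`;
* **(FN)** `τ b ∈ B` and `τ b ≡ b ^ Q` modulo `n` for every `b ∈ B`.

`f ≠ 0` is a function with

* `f = c ^ m · ε`, `c` a unit of `V₁` and of `V₂`, `ε` a unit of `B_n`;
* the reduction of `f` on each branch is a unit at `n`: `f ≡ k_i` modulo `π V_i` with `k_i` a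
  unit of `B_n` (e.g. a constant).

Then (`nd14_node_core`) there is `φ ≡ 1` modulo `π V₁` and modulo `π V₂` with
`φ ^ m · (τ f / f ^ Q)` regular at `n`: the local datum `s34i47_LocalDatum` at `n` for
`u = τ f / f ^ Q`.  No local coordinates of the node are used: `φ = η / Ψ`,
`Ψ = τ c / c ^ Q`, and `η ∈ B_n` is glued (transversality `n B_n = p₁ B_n + p₂ B_n`) from
`τ x_i / x_i ^ Q`, `x_i ∈ B_n^×` a lift of the reduction of `c` on the branch `i`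
(`nd14_root`: `(B / p_i)_n` is a valuation ring of the residue field of `V_i`).
-/

set_option autoImplicit false

namespace Fermat.Agent.S35

open Fermat.Agent.S34

section ND14

variable {R F : Type*} [CommRing R] [Field F] [Algebra R F]

/-- `A ≡ A'` modulo `p V` for `A, A' ∈ V` implies `A ^ k ≡ A' ^ k` modulo `p V`. -/
theorem nd14_pow_cong (V : Subring F) (p : F) (A A' : F) (hA : A ∈ V) (hA' : A' ∈ V)
    (h : p⁻¹ * (A - A') ∈ V) (k : ℕ) : p⁻¹ * (A ^ k - A' ^ k) ∈ V := by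
  induction k with
  | zero => simp [V.zero_mem]
  | succ k ih =>
    have e : p⁻¹ * (A ^ (k + 1) - A' ^ (k + 1)) =
        A ^ k * (p⁻¹ * (A - A')) + (p⁻¹ * (A ^ k - A' ^ k)) * A' := by ring
    rw [e]
    exact V.add_mem (V.mul_mem (V.pow_mem hA k) h) (V.mul_mem ih hA')

/-- A unit of `B_n` is `a / s` with `a, s ∈ B ∖ n`. -/
theorem nd14_unit_repr (B : Subalgebra R F) (n : Ideal B) [hn : n.IsPrime] (e : F)
    (he : e ∈ sf79_loc B n) (he' : e⁻¹ ∈ sf79_loc B n) (he0 : e ≠ 0) :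
    ∃ a s : B, a ∉ n ∧ s ∉ n ∧ (s : F) * e = (a : F) := by
  obtain ⟨s, hs, hse⟩ := he
  obtain ⟨t, ht, hte⟩ := he'
  refine ⟨⟨_, hse⟩, s, ?_, hs, rfl⟩
  intro ha
  have h1 : (⟨_, hse⟩ : B) * ⟨_, hte⟩ = s * t := by
    apply Subtype.ext
    show (s : F) * e * ((t : F) * e⁻¹) = (s : F) * (t : F)
    field_simp
  have h2 : s * t ∈ n := by rw [← h1]; exact n.mul_mem_right _ ha
  exact (hn.mem_or_mem h2).elim hs ht

/-- **The reduction of `c` on a smooth branch is a unit at `n`** if an `m`-th power of it is: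
if `c ∈ V` and `c ^ m ≡ e` modulo `π V` with `e` a unit of `B_n`, then `c ≡ x` modulo `π V`
with `x` a unit of `B_n`. -/
theorem nd14_root (π : R) (B : Subalgebra R F) [IsNoetherianRing B] (V : Subring F)
    (hBV : ∀ x ∈ B, x ∈ V) (hπV : (algebraMap R F π)⁻¹ ∉ V)
    (hV : ∀ x ∈ V, (algebraMap R F π)⁻¹ * x ∉ V → x⁻¹ ∈ V)
    (n : Ideal B) [hn : n.IsMaximal] (hOn : sf79_OnBr π B V n)
    (z : B) (hz : sf79_Unif π B V n z)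
    (hFr : ∀ x ∈ V, ∃ b b' : B, (algebraMap R F π)⁻¹ * (b' : F) ∉ V ∧ (b' : F) * x = (b : F))
    (m : ℕ) (hm : 0 < m) (c : F) (hc : c ∈ V)
    (e : F) (he : e ∈ sf79_loc B n) (he' : e⁻¹ ∈ sf79_loc B n) (he0 : e ≠ 0)
    (hce : (algebraMap R F π)⁻¹ * (c ^ m - e) ∈ V) :
    ∃ x : F, x ∈ sf79_loc B n ∧ x⁻¹ ∈ sf79_loc B n ∧ x ≠ 0 ∧
      (algebraMap R F π)⁻¹ * (x - c) ∈ V := by
  have hnp : n.IsPrime := hn.isPrime
  obtain ⟨a, s, ha, hs, hse⟩ := nd14_unit_repr B n e he he' he0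
  have hs0 : (s : F) ≠ 0 := sf79_ne_zero B n s hs
  obtain ⟨b, b', hb', hbx⟩ := hFr c hc
  have hbx' : (algebraMap R F π)⁻¹ * ((b' : F) * c - (b : F)) ∈ V := by
    rw [hbx, sub_self, mul_zero]; exact V.zero_mem
  rcases tv66_hval π B V hBV hπV hV n hOn z hz c hc b b' hb' hbx' with
    ⟨c₀, d, hd, h⟩ | ⟨c₀, d, hd, h⟩
  · -- `d c ≡ c₀`
    have hd0 : (d : F) ≠ 0 := sf79_ne_zero B n d hd
    have hdinv : (d : F)⁻¹ ∈ V := sf79_inv_mem π B V hBV hV n hOn d hd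
    have hc₀ : c₀ ∉ n := by
      intro hc₀n
      have hX : (algebraMap R F π)⁻¹ * (((s * c₀ ^ m - a * d ^ m : B) : F)) ∈ V := by
        have h1 := nd14_pow_cong V (algebraMap R F π) ((d : F) * c) (c₀ : F)
          (V.mul_mem (hBV _ d.2) hc) (hBV _ c₀.2) h m
        have e1 : (algebraMap R F π)⁻¹ * (((s * c₀ ^ m - a * d ^ m : B) : F)) =
            - ((s : F) * ((algebraMap R F π)⁻¹ * (((d : F) * c) ^ m - (c₀ : F) ^ m))) +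
              ((s : F) * (d : F) ^ m) * ((algebraMap R F π)⁻¹ * (c ^ m - e)) := by
          push_cast
          rw [← hse]
          ring
        rw [e1]
        exact V.add_mem (V.neg_mem (V.mul_mem (hBV _ s.2) h1))
          (V.mul_mem (V.mul_mem (hBV _ s.2) (V.pow_mem (hBV _ d.2) m)) hce)
      have hXn : s * c₀ ^ m - a * d ^ m ∈ n := hOn _ hX
      have h2 : a * d ^ m ∈ n := by
        have h3 : s * c₀ ^ m ∈ n :=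
          n.mul_mem_left _ (Ideal.pow_mem_of_mem n hc₀n m hm)
        have e2 : a * d ^ m = s * c₀ ^ m - (s * c₀ ^ m - a * d ^ m) := by ring
        rw [e2]; exact n.sub_mem h3 hXn
      rcases hnp.mem_or_mem h2 with h4 | h4
      · exact ha h4
      · exact hd (hnp.mem_of_pow_mem m h4)
    have hc₀0 : (c₀ : F) ≠ 0 := sf79_ne_zero B n c₀ hc₀
    refine ⟨(c₀ : F) * (d : F)⁻¹, ⟨d, hd, ?_⟩, ⟨c₀, hc₀, ?_⟩, mul_ne_zero hc₀0 (inv_ne_zero hd0), ?_⟩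
    · have e1 : (d : F) * ((c₀ : F) * (d : F)⁻¹) = (c₀ : F) := by field_simp
      rw [e1]; exact c₀.2
    · have e1 : (c₀ : F) * ((c₀ : F) * (d : F)⁻¹)⁻¹ = (d : F) := by field_simp
      rw [e1]; exact d.2
    · have e1 : (algebraMap R F π)⁻¹ * ((c₀ : F) * (d : F)⁻¹ - c) =
          - ((d : F)⁻¹ * ((algebraMap R F π)⁻¹ * ((d : F) * c - (c₀ : F)))) := by
        field_simp
        ring
      rw [e1]
      exact V.neg_mem (V.mul_mem hdinv h)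
  · -- `d ≡ c₀ c`
    have hd0 : (d : F) ≠ 0 := sf79_ne_zero B n d hd
    have hc₀ : c₀ ∉ n := by
      intro hc₀n
      have hX : (algebraMap R F π)⁻¹ * (((s * d ^ m - a * c₀ ^ m : B) : F)) ∈ V := by
        have h1 := nd14_pow_cong V (algebraMap R F π) (d : F) ((c₀ : F) * c)
          (hBV _ d.2) (V.mul_mem (hBV _ c₀.2) hc) h m
        have e1 : (algebraMap R F π)⁻¹ * (((s * d ^ m - a * c₀ ^ m : B) : F)) =
            (s : F) * ((algebraMap R F π)⁻¹ * ((d : F) ^ m - ((c₀ : F) * c) ^ m)) +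
              ((s : F) * (c₀ : F) ^ m) * ((algebraMap R F π)⁻¹ * (c ^ m - e)) := by
          push_cast
          rw [← hse]
          ring
        rw [e1]
        exact V.add_mem (V.mul_mem (hBV _ s.2) h1)
          (V.mul_mem (V.mul_mem (hBV _ s.2) (V.pow_mem (hBV _ c₀.2) m)) hce)
      have hXn : s * d ^ m - a * c₀ ^ m ∈ n := hOn _ hX
      have h2 : s * d ^ m ∈ n := by
        have h3 : a * c₀ ^ m ∈ n :=
          n.mul_mem_left _ (Ideal.pow_mem_of_mem n hc₀n m hm)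
        have e2 : s * d ^ m = a * c₀ ^ m + (s * d ^ m - a * c₀ ^ m) := by ring
        rw [e2]; exact n.add_mem h3 hXn
      rcases hnp.mem_or_mem h2 with h4 | h4
      · exact hs h4
      · exact hd (hnp.mem_of_pow_mem m h4)
    have hc₀0 : (c₀ : F) ≠ 0 := sf79_ne_zero B n c₀ hc₀
    have hc₀inv : (c₀ : F)⁻¹ ∈ V := sf79_inv_mem π B V hBV hV n hOn c₀ hc₀
    refine ⟨(d : F) * (c₀ : F)⁻¹, ⟨c₀, hc₀, ?_⟩, ⟨d, hd, ?_⟩, mul_ne_zero hd0 (inv_ne_zero hc₀0), ?_⟩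
    · have e1 : (c₀ : F) * ((d : F) * (c₀ : F)⁻¹) = (d : F) := by field_simp
      rw [e1]; exact d.2
    · have e1 : (d : F) * ((d : F) * (c₀ : F)⁻¹)⁻¹ = (c₀ : F) := by field_simp
      rw [e1]; exact c₀.2
    · have e1 : (algebraMap R F π)⁻¹ * ((d : F) * (c₀ : F)⁻¹ - c) =
          (c₀ : F)⁻¹ * ((algebraMap R F π)⁻¹ * ((d : F) - (c₀ : F) * c)) := by
        field_simp
      rw [e1]
      exact V.mul_mem hc₀inv h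

/-- **(FN) transports `B_n` into itself.** -/
theorem nd14_tau_loc (B : Subalgebra R F) (n : Ideal B) [hn : n.IsPrime] (τ : F →+* F) (Q : ℕ)
    (hFN : ∀ b : B, ∃ b' : B, (b' : F) = τ (b : F) ∧ b' - b ^ Q ∈ n)
    (x : F) (hx : x ∈ sf79_loc B n) : τ x ∈ sf79_loc B n := by
  obtain ⟨s, hs, hsx⟩ := hx
  obtain ⟨s₁, hs₁, hs₁n⟩ := hFN s
  obtain ⟨b₁, hb₁, -⟩ := hFN ⟨_, hsx⟩
  refine ⟨s₁, ?_, ?_⟩
  · intro h
    have h1 : s ^ Q ∈ n := by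
      have e : s ^ Q = s₁ - (s₁ - s ^ Q) := by ring
      rw [e]; exact n.sub_mem h hs₁n
    exact hs (hn.mem_of_pow_mem Q h1)
  · have e : (s₁ : F) * τ x = (b₁ : F) := by
      rw [hs₁, hb₁, ← map_mul]
    rw [e]; exact b₁.2

/-- **(FN)**: for a unit `x` of `B_n`, `τ x / x ^ Q ≡ 1` modulo `n B_n`. -/
theorem nd14_tau_nmem (B : Subalgebra R F) (n : Ideal B) [hn : n.IsPrime] (τ : F →+* F) (Q : ℕ)
    (hFN : ∀ b : B, ∃ b' : B, (b' : F) = τ (b : F) ∧ b' - b ^ Q ∈ n)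
    (x : F) (hx : x ∈ sf79_loc B n) (hx' : x⁻¹ ∈ sf79_loc B n) (hx0 : x ≠ 0) :
    sf79_nmem B n (τ x * (x⁻¹) ^ Q - 1) := by
  obtain ⟨b, s, hb, hs, hsx⟩ := nd14_unit_repr B n x hx hx' hx0
  have hs0 : (s : F) ≠ 0 := sf79_ne_zero B n s hs
  have hb0 : (b : F) ≠ 0 := sf79_ne_zero B n b hb
  obtain ⟨s₁, hs₁, hs₁n⟩ := hFN s
  obtain ⟨b₁, hb₁, hb₁n⟩ := hFN b
  have hs₁' : s₁ ∉ n := by
    intro h
    have h1 : s ^ Q ∈ n := by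
      have e : s ^ Q = s₁ - (s₁ - s ^ Q) := by ring
      rw [e]; exact n.sub_mem h hs₁n
    exact hs (hn.mem_of_pow_mem Q h1)
  have hs₁0 : (s₁ : F) ≠ 0 := sf79_ne_zero B n s₁ hs₁'
  refine ⟨s₁ * b ^ Q, ?_, (b₁ - b ^ Q) * s ^ Q - (s₁ - s ^ Q) * b ^ Q, ?_, ?_⟩
  · intro h
    rcases hn.mem_or_mem h with h | h
    · exact hs₁' h
    · exact hb (hn.mem_of_pow_mem Q h)
  · exact n.sub_mem (n.mul_mem_right _ hb₁n) (n.mul_mem_right _ hs₁n)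
  · have hx1 : x = (b : F) * (s : F)⁻¹ := by
      rw [← hsx]; field_simp
    have hτ : τ x = (b₁ : F) * (s₁ : F)⁻¹ := by
      rw [hx1, map_mul, map_inv₀, hb₁, hs₁]
    have hxinv : x⁻¹ = (s : F) * (b : F)⁻¹ := by
      rw [hx1, mul_inv, inv_inv, mul_comm]
    have hA : (b : F) ^ Q * ((b : F)⁻¹) ^ Q = 1 := by
      rw [← mul_pow, mul_inv_cancel₀ hb0, one_pow]
    have hS : (s₁ : F) * (s₁ : F)⁻¹ = 1 := mul_inv_cancel₀ hs₁0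
    rw [hτ, hxinv, mul_pow]
    push_cast
    linear_combination ((b₁ : F) * (s : F) ^ Q * ((s₁ : F) * (s₁ : F)⁻¹)) * hA +
      ((b₁ : F) * (s : F) ^ Q) * hS

/-- **One branch.**  On a smooth branch `V` through `n` there is `y ∈ B_n`, `y ≡ 1` modulo
`n B_n`, with `y ≡ τ c / c ^ Q` modulo `π V`. -/
theorem nd14_branch (π : R) (B : Subalgebra R F) [IsNoetherianRing B] (V : Subring F)
    (hBV : ∀ x ∈ B, x ∈ V) (hπV : (algebraMap R F π)⁻¹ ∉ V)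
    (hV : ∀ x ∈ V, (algebraMap R F π)⁻¹ * x ∉ V → x⁻¹ ∈ V)
    (n : Ideal B) [hn : n.IsMaximal] (hOn : sf79_OnBr π B V n)
    (z : B) (hz : sf79_Unif π B V n z)
    (hFr : ∀ x ∈ V, ∃ b b' : B, (algebraMap R F π)⁻¹ * (b' : F) ∉ V ∧ (b' : F) * x = (b : F))
    (τ : F →+* F) (Q : ℕ) (hτV : ∀ x ∈ V, τ x ∈ V)
    (hτ : ∀ x : F, (algebraMap R F π)⁻¹ * x ∈ V → (algebraMap R F π)⁻¹ * τ x ∈ V)
    (hFN : ∀ b : B, ∃ b' : B, (b' : F) = τ (b : F) ∧ b' - b ^ Q ∈ n)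
    (m : ℕ) (hm : 0 < m) (f c : F) (hf0 : f ≠ 0) (hc0 : c ≠ 0) (hc : c ∈ V) (hc' : c⁻¹ ∈ V)
    (hε' : c ^ m / f ∈ sf79_loc B n) (hε : f / c ^ m ∈ sf79_loc B n)
    (k : F) (hk : k ∈ sf79_loc B n) (hk' : k⁻¹ ∈ sf79_loc B n) (hk0 : k ≠ 0)
    (hf : (algebraMap R F π)⁻¹ * (f - k) ∈ V) :
    ∃ y : F, y ∈ sf79_loc B n ∧ sf79_nmem B n (y - 1) ∧
      (algebraMap R F π)⁻¹ * (y - τ c * (c⁻¹) ^ Q) ∈ V := by
  have hnp : n.IsPrime := hn.isPrime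
  have hle : sf79_loc B n ≤ V := sf79_loc_le π B V hBV hV n hOn
  have hcm0 : c ^ m ≠ 0 := pow_ne_zero m hc0
  -- the unit `e = k · c ^ m / f` of `B_n` is congruent to `c ^ m`
  have he : k * (c ^ m / f) ∈ sf79_loc B n := (sf79_loc B n).mul_mem hk hε'
  have he' : (k * (c ^ m / f))⁻¹ ∈ sf79_loc B n := by
    have e1 : (k * (c ^ m / f))⁻¹ = k⁻¹ * (f / c ^ m) := by
      rw [mul_inv, inv_div]
    rw [e1]; exact (sf79_loc B n).mul_mem hk' hε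
  have he0 : k * (c ^ m / f) ≠ 0 := mul_ne_zero hk0 (div_ne_zero hcm0 hf0)
  have hce : (algebraMap R F π)⁻¹ * (c ^ m - k * (c ^ m / f)) ∈ V := by
    have e1 : (algebraMap R F π)⁻¹ * (c ^ m - k * (c ^ m / f)) =
        (c ^ m / f) * ((algebraMap R F π)⁻¹ * (f - k)) := by
      field_simp
    rw [e1]; exact V.mul_mem (hle hε') hf
  obtain ⟨x, hx, hx', hx0, hxc⟩ := nd14_root π B V hBV hπV hV n hOn z hz hFr m hm c hc _ he he'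
    he0 hce
  refine ⟨τ x * (x⁻¹) ^ Q, ?_, nd14_tau_nmem B n τ Q hFN x hx hx' hx0, ?_⟩
  · exact (sf79_loc B n).mul_mem (nd14_tau_loc B n τ Q hFN x hx) ((sf79_loc B n).pow_mem hx' Q)
  · have h1 : (algebraMap R F π)⁻¹ * (τ x - τ c) ∈ V := by
      rw [← map_sub]; exact hτ _ hxc
    have h2 : (algebraMap R F π)⁻¹ * (x⁻¹ - c⁻¹) ∈ V := by
      have e1 : (algebraMap R F π)⁻¹ * (x⁻¹ - c⁻¹) =
          - (x⁻¹ * c⁻¹ * ((algebraMap R F π)⁻¹ * (x - c))) := by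
        field_simp
        ring
      rw [e1]
      exact V.neg_mem (V.mul_mem (V.mul_mem (hle hx') hc') hxc)
    have h3 := nd14_pow_cong V (algebraMap R F π) x⁻¹ c⁻¹ (hle hx') hc' h2 Q
    have e2 : (algebraMap R F π)⁻¹ * (τ x * (x⁻¹) ^ Q - τ c * (c⁻¹) ^ Q) =
        ((algebraMap R F π)⁻¹ * (τ x - τ c)) * (x⁻¹) ^ Q +
          τ c * ((algebraMap R F π)⁻¹ * ((x⁻¹) ^ Q - (c⁻¹) ^ Q)) := by ring
    rw [e2]
    exact V.add_mem (V.mul_mem h1 (V.pow_mem (hle hx') Q)) (V.mul_mem (hτV c hc) h3)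

/-- **The coordinate-free local datum at a node** (see the header): `φ ≡ 1` modulo `π V₁` and
modulo `π V₂` with `φ ^ m · (τ f / f ^ Q)` regular at `n`. -/
theorem nd14_node_core (π : R) (B : Subalgebra R F) [IsNoetherianRing B] (V₁ V₂ : Subring F)
    (hB₁ : ∀ x ∈ B, x ∈ V₁) (hB₂ : ∀ x ∈ B, x ∈ V₂)
    (hπ₁ : (algebraMap R F π)⁻¹ ∉ V₁) (hπ₂ : (algebraMap R F π)⁻¹ ∉ V₂)
    (hV₁ : ∀ x ∈ V₁, (algebraMap R F π)⁻¹ * x ∉ V₁ → x⁻¹ ∈ V₁)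
    (hV₂ : ∀ x ∈ V₂, (algebraMap R F π)⁻¹ * x ∉ V₂ → x⁻¹ ∈ V₂)
    (n : Ideal B) [hn : n.IsMaximal]
    (h1 : sf79_OnBr π B V₁ n) (h2 : sf79_OnBr π B V₂ n)
    (z₁ : B) (hz₁ : sf79_Unif π B V₁ n z₁) (z₂ : B) (hz₂ : sf79_Unif π B V₂ n z₂)
    (hT : ∀ x ∈ n, ∃ s : B, s ∉ n ∧ ∃ y y' : B, s * x = y + y' ∧
      (algebraMap R F π)⁻¹ * (y : F) ∈ V₁ ∧ (algebraMap R F π)⁻¹ * (y' : F) ∈ V₂)
    (hFr₁ : ∀ x ∈ V₁, ∃ b b' : B, (algebraMap R F π)⁻¹ * (b' : F) ∉ V₁ ∧ (b' : F) * x = (b : F))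
    (hFr₂ : ∀ x ∈ V₂, ∃ b b' : B, (algebraMap R F π)⁻¹ * (b' : F) ∉ V₂ ∧ (b' : F) * x = (b : F))
    (τ : F →+* F) (Q : ℕ)
    (hτV₁ : ∀ x ∈ V₁, τ x ∈ V₁) (hτV₂ : ∀ x ∈ V₂, τ x ∈ V₂)
    (hτ₁ : ∀ x : F, (algebraMap R F π)⁻¹ * x ∈ V₁ → (algebraMap R F π)⁻¹ * τ x ∈ V₁)
    (hτ₂ : ∀ x : F, (algebraMap R F π)⁻¹ * x ∈ V₂ → (algebraMap R F π)⁻¹ * τ x ∈ V₂)
    (hFN : ∀ b : B, ∃ b' : B, (b' : F) = τ (b : F) ∧ b' - b ^ Q ∈ n)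
    (m : ℕ) (hm : 0 < m) (f c : F) (hf0 : f ≠ 0) (hc0 : c ≠ 0)
    (hc₁ : c ∈ V₁) (hc₁' : c⁻¹ ∈ V₁) (hc₂ : c ∈ V₂) (hc₂' : c⁻¹ ∈ V₂)
    (hε : f / c ^ m ∈ sf79_loc B n) (hε' : c ^ m / f ∈ sf79_loc B n)
    (k₁ k₂ : F) (hk₁ : k₁ ∈ sf79_loc B n) (hk₁' : k₁⁻¹ ∈ sf79_loc B n) (hk₁0 : k₁ ≠ 0)
    (hk₂ : k₂ ∈ sf79_loc B n) (hk₂' : k₂⁻¹ ∈ sf79_loc B n) (hk₂0 : k₂ ≠ 0)
    (hf₁ : (algebraMap R F π)⁻¹ * (f - k₁) ∈ V₁)
    (hf₂ : (algebraMap R F π)⁻¹ * (f - k₂) ∈ V₂) :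
    ∃ φ : F, (algebraMap R F π)⁻¹ * (φ - 1) ∈ V₁ ∧ (algebraMap R F π)⁻¹ * (φ - 1) ∈ V₂ ∧
      ∃ s : B, s ∉ n ∧ (s : F) * (φ ^ m * (τ f / f ^ Q)) ∈ B := by
  have hnp : n.IsPrime := hn.isPrime
  obtain ⟨y₁, hy₁, hy₁n, hy₁c⟩ := nd14_branch π B V₁ hB₁ hπ₁ hV₁ n h1 z₁ hz₁ hFr₁ τ Q hτV₁ hτ₁ hFN
    m hm f c hf0 hc0 hc₁ hc₁' hε' hε k₁ hk₁ hk₁' hk₁0 hf₁
  obtain ⟨y₂, hy₂, hy₂n, hy₂c⟩ := nd14_branch π B V₂ hB₂ hπ₂ hV₂ n h2 z₂ hz₂ hFr₂ τ Q hτV₂ hτ₂ hFN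
    m hm f c hf0 hc0 hc₂ hc₂' hε' hε k₂ hk₂ hk₂' hk₂0 hf₂
  -- glue
  have hdiff : sf79_nmem B n (y₁ - y₂) := by
    have e1 : y₁ - y₂ = (y₁ - 1) + (-1 : F) * (y₂ - 1) := by ring
    rw [e1]
    exact sf79_nmem_add B n _ _ hy₁n
      (sf79_nmem_mul B n _ _ ((sf79_loc B n).neg_mem (sf79_loc B n).one_mem) hy₂n)
  obtain ⟨S, hS, N, hN, hSN⟩ := hdiff
  obtain ⟨s', hs', Y, Y', hYY, hY₁, hY₂⟩ := hT N hN
  have hsS : s' * S ∉ n := fun h => (hnp.mem_or_mem h).elim hs' hS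
  have hsS0 : ((s' * S : B) : F) ≠ 0 := sf79_ne_zero B n _ hsS
  have hYY' : (s' : F) * (N : F) = (Y : F) + (Y' : F) := by
    have := congrArg (fun t : B => (t : F)) hYY
    simpa using this
  set η : F := y₁ - (Y : F) * ((s' * S : B) : F)⁻¹ with hη
  have hηloc : η ∈ sf79_loc B n :=
    (sf79_loc B n).sub_mem hy₁
      ((sf79_loc B n).mul_mem (sf79_le_loc B n _ Y.2) (sf79_inv_mem_loc B n _ hsS))
  have hη₁ : (algebraMap R F π)⁻¹ * (η - y₁) ∈ V₁ := by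
    have e1 : (algebraMap R F π)⁻¹ * (η - y₁) =
        - (((s' * S : B) : F)⁻¹ * ((algebraMap R F π)⁻¹ * (Y : F))) := by
      rw [hη]; ring
    rw [e1]
    exact V₁.neg_mem (V₁.mul_mem (sf79_inv_mem π B V₁ hB₁ hV₁ n h1 _ hsS) hY₁)
  have hη₂ : (algebraMap R F π)⁻¹ * (η - y₂) ∈ V₂ := by
    have e1 : (algebraMap R F π)⁻¹ * (η - y₂) =
        ((s' * S : B) : F)⁻¹ * ((algebraMap R F π)⁻¹ * (Y' : F)) := by
      have hDD : ((s' * S : B) : F)⁻¹ * ((s' * S : B) : F) = 1 := inv_mul_cancel₀ hsS0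
      have e2 : (Y' : F) = ((s' * S : B) : F) * (y₁ - y₂) - (Y : F) := by
        have e3 : ((s' * S : B) : F) = (s' : F) * (S : F) := rfl
        rw [e3, mul_assoc, hSN, hYY']; ring
      rw [hη, e2]
      linear_combination (-((algebraMap R F π)⁻¹ * (y₁ - y₂))) * hDD
    rw [e1]
    exact V₂.mul_mem (sf79_inv_mem π B V₂ hB₂ hV₂ n h2 _ hsS) hY₂
  -- `Ψ = τ c / c ^ Q` and its inverse
  have hτc0 : τ c ≠ 0 := (map_ne_zero τ).mpr hc0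
  set Ψi : F := τ c⁻¹ * c ^ Q with hΨi
  have hΨ : τ c * (c⁻¹) ^ Q * Ψi = 1 := by
    rw [hΨi, map_inv₀]
    have hA : (c⁻¹) ^ Q * c ^ Q = 1 := by
      rw [← mul_pow, inv_mul_cancel₀ hc0, one_pow]
    have hT' : τ c * (τ c)⁻¹ = 1 := mul_inv_cancel₀ hτc0
    linear_combination (τ c * (τ c)⁻¹) * hA + hT'
  have key₁ : (algebraMap R F π)⁻¹ * (η * Ψi - 1) ∈ V₁ := by
    have e1 : (algebraMap R F π)⁻¹ * (η * Ψi - 1) =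
        Ψi * ((algebraMap R F π)⁻¹ * (η - y₁) +
          (algebraMap R F π)⁻¹ * (y₁ - τ c * (c⁻¹) ^ Q)) := by
      linear_combination ((algebraMap R F π)⁻¹) * hΨ
    rw [e1]
    exact V₁.mul_mem (V₁.mul_mem (hτV₁ _ hc₁') (V₁.pow_mem hc₁ Q)) (V₁.add_mem hη₁ hy₁c)
  have key₂ : (algebraMap R F π)⁻¹ * (η * Ψi - 1) ∈ V₂ := by
    have e1 : (algebraMap R F π)⁻¹ * (η * Ψi - 1) =
        Ψi * ((algebraMap R F π)⁻¹ * (η - y₂) +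
          (algebraMap R F π)⁻¹ * (y₂ - τ c * (c⁻¹) ^ Q)) := by
      linear_combination ((algebraMap R F π)⁻¹) * hΨ
    rw [e1]
    exact V₂.mul_mem (V₂.mul_mem (hτV₂ _ hc₂') (V₂.pow_mem hc₂ Q)) (V₂.add_mem hη₂ hy₂c)
  refine ⟨η * Ψi, key₁, key₂, ?_⟩
  have hfin : (η * Ψi) ^ m * (τ f / f ^ Q) = η ^ m * τ (f / c ^ m) * (c ^ m / f) ^ Q := by
    rw [hΨi, map_div₀, map_pow, map_inv₀]
    simp only [mul_pow, div_pow, inv_pow, ← pow_mul]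
    field_simp
    ring
  have hmem : (η * Ψi) ^ m * (τ f / f ^ Q) ∈ sf79_loc B n := by
    rw [hfin]
    exact (sf79_loc B n).mul_mem
      ((sf79_loc B n).mul_mem ((sf79_loc B n).pow_mem hηloc m) (nd14_tau_loc B n τ Q hFN _ hε))
      ((sf79_loc B n).pow_mem hε' Q)
  obtain ⟨s, hs, hsx⟩ := hmem
  exact ⟨s, hs, hsx⟩

/-- **`V_i = B_{p_i}` at a node**, from `F = Frac B`, the saturation of `B`, the archimedean
property of `V₁`, `V₂` on `B` and the pair `u v = π ^ e · s` of `sf79_UVAt`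
(`v ∈ p₁ ∖ p₂`, `u ∈ p₂ ∖ p₁`; `tv66_frac`). -/
theorem nd14_frac_of_UV (π : R) (B : Subalgebra R F) (V₁ V₂ : Subring F)
    (hB₁ : ∀ x ∈ B, x ∈ V₁) (hB₂ : ∀ x ∈ B, x ∈ V₂)
    (hV₁ : ∀ x ∈ V₁, (algebraMap R F π)⁻¹ * x ∉ V₁ → x⁻¹ ∈ V₁)
    (hV₂ : ∀ x ∈ V₂, (algebraMap R F π)⁻¹ * x ∉ V₂ → x⁻¹ ∈ V₂)
    (hsat : ∀ x ∈ B, (algebraMap R F π)⁻¹ * x ∈ V₁ → (algebraMap R F π)⁻¹ * x ∈ V₂ →
      (algebraMap R F π)⁻¹ * x ∈ B)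
    (hFrac : ∀ x : F, ∃ a ∈ B, ∃ b ∈ B, b ≠ 0 ∧ x * b = a)
    (harch₁ : ∀ x ∈ B, x ≠ 0 → ∃ k : ℕ, (algebraMap R F π ^ k)⁻¹ * x ∉ V₁)
    (harch₂ : ∀ x ∈ B, x ≠ 0 → ∃ k : ℕ, (algebraMap R F π ^ k)⁻¹ * x ∉ V₂)
    (u v s : B) (e : ℕ) (he : 1 ≤ e) (huv : u * v = algebraMap R B π ^ e * s)
    (hu : (algebraMap R F π)⁻¹ * (u : F) ∉ V₁) (hv : (algebraMap R F π)⁻¹ * (v : F) ∉ V₂) :
    (∀ x ∈ V₁, ∃ b b' : B, (algebraMap R F π)⁻¹ * (b' : F) ∉ V₁ ∧ (b' : F) * x = (b : F)) ∧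
      (∀ x ∈ V₂, ∃ b b' : B, (algebraMap R F π)⁻¹ * (b' : F) ∉ V₂ ∧ (b' : F) * x = (b : F)) := by
  have hu0 : (u : F) ≠ 0 := by
    intro h0; apply hu; rw [h0, mul_zero]; exact V₁.zero_mem
  have hv0 : (v : F) ≠ 0 := by
    intro h0; apply hv; rw [h0, mul_zero]; exact V₂.zero_mem
  obtain ⟨e', rfl⟩ : ∃ e', e = e' + 1 := ⟨e - 1, by omega⟩
  have huv' : (u : F) * (v : F) = algebraMap R F π ^ (e' + 1) * (s : F) := by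
    have := congrArg (fun t : B => (t : F)) huv
    simpa using this
  have hp0 : algebraMap R F π ≠ 0 := by
    intro h0
    rw [h0, zero_pow (Nat.succ_ne_zero e'), zero_mul] at huv'
    exact (mul_ne_zero hu0 hv0) huv'
  have hpB : algebraMap R F π ∈ B := B.algebraMap_mem π
  have hrest : algebraMap R F π ^ e' * (s : F) ∈ B := B.mul_mem (B.pow_mem hpB e') s.2
  have hv₁ : (algebraMap R F π)⁻¹ * (v : F) ∈ V₁ := by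
    have e1 : (algebraMap R F π)⁻¹ * (v : F) = (u : F)⁻¹ * (algebraMap R F π ^ e' * (s : F)) := by
      have e2 : (v : F) = (u : F)⁻¹ * (algebraMap R F π ^ (e' + 1) * (s : F)) := by
        rw [← huv']; field_simp
      rw [e2, pow_succ]; field_simp
    rw [e1]
    exact V₁.mul_mem (hV₁ _ (hB₁ _ u.2) hu) (hB₁ _ hrest)
  have hu₂ : (algebraMap R F π)⁻¹ * (u : F) ∈ V₂ := by
    have e1 : (algebraMap R F π)⁻¹ * (u : F) = (v : F)⁻¹ * (algebraMap R F π ^ e' * (s : F)) := by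
      have e2 : (u : F) = (v : F)⁻¹ * (algebraMap R F π ^ (e' + 1) * (s : F)) := by
        rw [← huv']; field_simp
      rw [e2, pow_succ]; field_simp
    rw [e1]
    exact V₂.mul_mem (hV₂ _ (hB₂ _ v.2) hv) (hB₂ _ hrest)
  exact ⟨fun x hx => tv66_frac π B V₂ V₁ hB₂ hB₁ hV₁ (fun x hx a b => hsat x hx b a) hFrac harch₁
      u hu₂ hu x hx,
    fun x hx => tv66_frac π B V₁ V₂ hB₁ hB₂ hV₂ hsat hFrac harch₂ v hv₁ hv x hx⟩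

/-- **Krull + saturation at a node**: a function of `V₁ ⊓ V₂` which is regular along every
horizontal `O` through `n` lies in `B_n`. -/
theorem nd14_mem_loc_of_horiz (π : R) (B : Subalgebra R F) (V₁ V₂ : Subring F)
    (hB₁ : ∀ x ∈ B, x ∈ V₁) (hB₂ : ∀ x ∈ B, x ∈ V₂) (hπ₁ : (algebraMap R F π)⁻¹ ∉ V₁)
    (hsat : ∀ x ∈ B, (algebraMap R F π)⁻¹ * x ∈ V₁ → (algebraMap R F π)⁻¹ * x ∈ V₂ →
      (algebraMap R F π)⁻¹ * x ∈ B)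
    (hKr : s34i47_Krull π B)
    (n : Ideal B) (hn : n.IsMaximal) (hπn : algebraMap R B π ∈ n) (x : F) (hx₁ : x ∈ V₁)
    (hx₂ : x ∈ V₂)
    (hx : ∀ O : ValuationSubring F, s34i47_IsHoriz π O → s34i47_Through B n O → x ∈ O) :
    ∃ s : B, s ∉ n ∧ (s : F) * x ∈ B := by
  have hp0 : algebraMap R F π ≠ 0 := by
    intro h0
    apply hπ₁
    rw [h0, inv_zero]
    exact V₁.zero_mem
  have hpB : algebraMap R F π ∈ B := B.algebraMap_mem π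
  obtain ⟨s, hs, k, hk⟩ := hKr n hn hπn x hx
  refine ⟨s, hs, ?_⟩
  have hsx₁ : (s : F) * x ∈ V₁ := V₁.mul_mem (hB₁ _ s.2) hx₁
  have hsx₂ : (s : F) * x ∈ V₂ := V₂.mul_mem (hB₂ _ s.2) hx₂
  induction k with
  | zero => simpa using hk
  | succ k ih =>
    apply ih
    have e1 : algebraMap R F π ^ k * ((s : F) * x) =
        (algebraMap R F π)⁻¹ * (algebraMap R F π ^ (k + 1) * ((s : F) * x)) := by
      rw [pow_succ]; field_simp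
    rw [e1]
    apply hsat _ hk
    · rw [← e1]; exact V₁.mul_mem (V₁.pow_mem (hB₁ _ hpB) k) hsx₁
    · rw [← e1]; exact V₂.mul_mem (V₂.pow_mem (hB₂ _ hpB) k) hsx₂

/-- **Row 547, node clause of `s34i47_LocalDatum`** (the literal `hNode` shape of
`sd89_localDatum`) for `u = τ f / f ^ Q`: the chart hypotheses are those of `sd89_localDatum`
plus transversality and `sf79_UVAt`; at every node `n` one needs **(FN)** and a root `c` of `f`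
at `n` (`c` a unit of `V₁` and `V₂`, `f / c ^ m` a unit of `B_n`); `f` has the constant unit
reductions `k₁`, `k₂` on the two branches. -/
theorem nd14_hNode (π : R) (m : ℕ) (hm : 0 < m) (B : Subalgebra R F) [IsNoetherianRing B]
    (V₁ V₂ W : Subring F) (hW : ∀ x : F, x ∈ V₁ → x ∈ V₂ → x ∈ W)
    (hB₁ : ∀ x ∈ B, x ∈ V₁) (hB₂ : ∀ x ∈ B, x ∈ V₂)
    (hπ₁ : (algebraMap R F π)⁻¹ ∉ V₁) (hπ₂ : (algebraMap R F π)⁻¹ ∉ V₂)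
    (hV₁ : ∀ x ∈ V₁, (algebraMap R F π)⁻¹ * x ∉ V₁ → x⁻¹ ∈ V₁)
    (hV₂ : ∀ x ∈ V₂, (algebraMap R F π)⁻¹ * x ∉ V₂ → x⁻¹ ∈ V₂)
    (hsat : ∀ x ∈ B, (algebraMap R F π)⁻¹ * x ∈ V₁ → (algebraMap R F π)⁻¹ * x ∈ V₂ →
      (algebraMap R F π)⁻¹ * x ∈ B)
    (hFrac : ∀ x : F, ∃ a ∈ B, ∃ b ∈ B, b ≠ 0 ∧ x * b = a)
    (harch₁ : ∀ x ∈ B, x ≠ 0 → ∃ k : ℕ, (algebraMap R F π ^ k)⁻¹ * x ∉ V₁)
    (harch₂ : ∀ x ∈ B, x ≠ 0 → ∃ k : ℕ, (algebraMap R F π ^ k)⁻¹ * x ∉ V₂)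
    (hS₁ : sf79_Smooth π B V₁) (hS₂ : sf79_Smooth π B V₂)
    (hT : sf79_Transv π B V₁ V₂) (hUV : sf79_UVAt π B V₁ V₂)
    (τ : F →+* F) (Q : ℕ)
    (hτV₁ : ∀ x ∈ V₁, τ x ∈ V₁) (hτV₂ : ∀ x ∈ V₂, τ x ∈ V₂)
    (hτ₁ : ∀ x : F, (algebraMap R F π)⁻¹ * x ∈ V₁ → (algebraMap R F π)⁻¹ * τ x ∈ V₁)
    (hτ₂ : ∀ x : F, (algebraMap R F π)⁻¹ * x ∈ V₂ → (algebraMap R F π)⁻¹ * τ x ∈ V₂)
    (f : F) (hf0 : f ≠ 0) (k₁ k₂ : R) (hk₁ : IsUnit k₁) (hk₂ : IsUnit k₂)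
    (hf₁ : (algebraMap R F π)⁻¹ * (f - algebraMap R F k₁) ∈ V₁)
    (hf₂ : (algebraMap R F π)⁻¹ * (f - algebraMap R F k₂) ∈ V₂)
    (hNd : ∀ n : Ideal B, n.IsMaximal → algebraMap R B π ∈ n → sf79_OnBr π B V₁ n →
      sf79_OnBr π B V₂ n →
      (∀ b : B, ∃ b' : B, (b' : F) = τ (b : F) ∧ b' - b ^ Q ∈ n) ∧
      ∃ c : F, c ≠ 0 ∧ c ∈ V₁ ∧ c⁻¹ ∈ V₁ ∧ c ∈ V₂ ∧ c⁻¹ ∈ V₂ ∧
        (∃ s : B, s ∉ n ∧ (s : F) * (f / c ^ m) ∈ B) ∧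
        (∃ s : B, s ∉ n ∧ (s : F) * (c ^ m / f) ∈ B)) :
    ∀ n : Ideal B, n.IsMaximal → algebraMap R B π ∈ n → sf79_OnBr π B V₁ n →
      sf79_OnBr π B V₂ n →
      ∃ φ : F, (algebraMap R F π)⁻¹ * (φ - 1) ∈ W ∧
        ∃ s : B, s ∉ n ∧ (s : F) * (φ ^ m * (τ f / f ^ Q)) ∈ B := by
  intro n hn hπn h1 h2
  have hnp : n.IsPrime := hn.isPrime
  obtain ⟨hFN, c, hc0, hc₁, hc₁', hc₂, hc₂', hε, hε'⟩ := hNd n hn hπn h1 h2
  obtain ⟨z₁, hz₁⟩ := hS₁ n hn hπn h1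
  obtain ⟨z₂, hz₂⟩ := hS₂ n hn hπn h2
  obtain ⟨u, v, s₀, e, -, he, huv, hu, hv⟩ := hUV n hn hπn h1 h2
  obtain ⟨hFr₁, hFr₂⟩ := nd14_frac_of_UV π B V₁ V₂ hB₁ hB₂ hV₁ hV₂ hsat hFrac harch₁ harch₂
    u v s₀ e he huv hu hv
  -- the constants are units of `B_n`
  have hconst : ∀ k : R, IsUnit k → algebraMap R F k ∈ sf79_loc B n ∧
      (algebraMap R F k)⁻¹ ∈ sf79_loc B n ∧ algebraMap R F k ≠ 0 := by
    intro k hk
    obtain ⟨k', hk'⟩ := hk.exists_right_inv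
    have e1 : algebraMap R F k * algebraMap R F k' = 1 := by
      rw [← map_mul, hk', map_one]
    have e2 : (algebraMap R F k)⁻¹ = algebraMap R F k' := (eq_inv_of_mul_eq_one_right e1).symm
    refine ⟨sf79_le_loc B n _ (B.algebraMap_mem k), ?_, left_ne_zero_of_mul_eq_one e1⟩
    rw [e2]; exact sf79_le_loc B n _ (B.algebraMap_mem k')
  obtain ⟨hk₁l, hk₁l', hk₁0⟩ := hconst k₁ hk₁
  obtain ⟨hk₂l, hk₂l', hk₂0⟩ := hconst k₂ hk₂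
  obtain ⟨φ, hφ₁, hφ₂, hφ⟩ := nd14_node_core π B V₁ V₂ hB₁ hB₂ hπ₁ hπ₂ hV₁ hV₂ n h1 h2 z₁ hz₁ z₂ hz₂
    (hT n hn hπn h1 h2) hFr₁ hFr₂ τ Q hτV₁ hτV₂ hτ₁ hτ₂ hFN m hm f c hf0 hc0 hc₁ hc₁' hc₂ hc₂'
    hε hε' (algebraMap R F k₁) (algebraMap R F k₂) hk₁l hk₁l' hk₁0 hk₂l hk₂l' hk₂0 hf₁ hf₂
  exact ⟨φ, hW _ hφ₁ hφ₂, hφ⟩

/-- **Row 547, node clause, (LP) form**: as `nd14_hNode`, with the root `c` of `f` at the node
`n` given by the horizontal-unit property `f / c ^ m, c ^ m / f ∈ O` for every horizontal `O`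
through `n` (`s34i47_LocPrin` shape) and the Krull property of the chart. -/
theorem nd14_hNode_LP (π : R) (m : ℕ) (hm : 0 < m) (B : Subalgebra R F) [IsNoetherianRing B]
    (V₁ V₂ W : Subring F) (hW : ∀ x : F, x ∈ V₁ → x ∈ V₂ → x ∈ W)
    (hB₁ : ∀ x ∈ B, x ∈ V₁) (hB₂ : ∀ x ∈ B, x ∈ V₂)
    (hπ₁ : (algebraMap R F π)⁻¹ ∉ V₁) (hπ₂ : (algebraMap R F π)⁻¹ ∉ V₂)
    (hV₁ : ∀ x ∈ V₁, (algebraMap R F π)⁻¹ * x ∉ V₁ → x⁻¹ ∈ V₁)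
    (hV₂ : ∀ x ∈ V₂, (algebraMap R F π)⁻¹ * x ∉ V₂ → x⁻¹ ∈ V₂)
    (hsat : ∀ x ∈ B, (algebraMap R F π)⁻¹ * x ∈ V₁ → (algebraMap R F π)⁻¹ * x ∈ V₂ →
      (algebraMap R F π)⁻¹ * x ∈ B)
    (hFrac : ∀ x : F, ∃ a ∈ B, ∃ b ∈ B, b ≠ 0 ∧ x * b = a)
    (harch₁ : ∀ x ∈ B, x ≠ 0 → ∃ k : ℕ, (algebraMap R F π ^ k)⁻¹ * x ∉ V₁)
    (harch₂ : ∀ x ∈ B, x ≠ 0 → ∃ k : ℕ, (algebraMap R F π ^ k)⁻¹ * x ∉ V₂)
    (hKr : s34i47_Krull π B)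
    (hS₁ : sf79_Smooth π B V₁) (hS₂ : sf79_Smooth π B V₂)
    (hT : sf79_Transv π B V₁ V₂) (hUV : sf79_UVAt π B V₁ V₂)
    (τ : F →+* F) (Q : ℕ)
    (hτV₁ : ∀ x ∈ V₁, τ x ∈ V₁) (hτV₂ : ∀ x ∈ V₂, τ x ∈ V₂)
    (hτ₁ : ∀ x : F, (algebraMap R F π)⁻¹ * x ∈ V₁ → (algebraMap R F π)⁻¹ * τ x ∈ V₁)
    (hτ₂ : ∀ x : F, (algebraMap R F π)⁻¹ * x ∈ V₂ → (algebraMap R F π)⁻¹ * τ x ∈ V₂)
    (f : F) (hf0 : f ≠ 0) (k₁ k₂ : R) (hk₁ : IsUnit k₁) (hk₂ : IsUnit k₂)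
    (hf₁ : (algebraMap R F π)⁻¹ * (f - algebraMap R F k₁) ∈ V₁)
    (hf₂ : (algebraMap R F π)⁻¹ * (f - algebraMap R F k₂) ∈ V₂)
    (hNd : ∀ n : Ideal B, n.IsMaximal → algebraMap R B π ∈ n → sf79_OnBr π B V₁ n →
      sf79_OnBr π B V₂ n →
      (∀ b : B, ∃ b' : B, (b' : F) = τ (b : F) ∧ b' - b ^ Q ∈ n) ∧
      ∃ c : F, c ≠ 0 ∧ c ∈ V₁ ∧ c⁻¹ ∈ V₁ ∧ c ∈ V₂ ∧ c⁻¹ ∈ V₂ ∧
        ∀ O : ValuationSubring F, s34i47_IsHoriz π O → s34i47_Through B n O →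
          f / c ^ m ∈ O ∧ c ^ m / f ∈ O) :
    ∀ n : Ideal B, n.IsMaximal → algebraMap R B π ∈ n → sf79_OnBr π B V₁ n →
      sf79_OnBr π B V₂ n →
      ∃ φ : F, (algebraMap R F π)⁻¹ * (φ - 1) ∈ W ∧
        ∃ s : B, s ∉ n ∧ (s : F) * (φ ^ m * (τ f / f ^ Q)) ∈ B := by
  -- `f` is a unit of `V₁` and of `V₂`
  have hunit : ∀ (V : Subring F) (k : R), IsUnit k → (∀ x ∈ B, x ∈ V) →
      (algebraMap R F π)⁻¹ ∉ V → (∀ x ∈ V, (algebraMap R F π)⁻¹ * x ∉ V → x⁻¹ ∈ V) →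
      (algebraMap R F π)⁻¹ * (f - algebraMap R F k) ∈ V → f ∈ V ∧ f⁻¹ ∈ V := by
    intro V k hk hBV hπV hV hfk
    obtain ⟨k', hk'⟩ := hk.exists_right_inv
    have e1 : algebraMap R F k * algebraMap R F k' = 1 := by
      rw [← map_mul, hk', map_one]
    have hkV : algebraMap R F k ∈ V := hBV _ (B.algebraMap_mem k)
    have hk'V : algebraMap R F k' ∈ V := hBV _ (B.algebraMap_mem k')
    have hpV : algebraMap R F π ∈ V := hBV _ (B.algebraMap_mem π)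
    have hp0 : algebraMap R F π ≠ 0 := by
      intro h0
      apply hπV
      rw [h0, inv_zero]
      exact V.zero_mem
    have hfV : f ∈ V := by
      have e2 : f = algebraMap R F k +
          algebraMap R F π * ((algebraMap R F π)⁻¹ * (f - algebraMap R F k)) := by
        field_simp
        ring
      rw [e2]; exact V.add_mem hkV (V.mul_mem hpV hfk)
    refine ⟨hfV, hV f hfV ?_⟩
    intro hcon
    apply hπV
    have e3 : (algebraMap R F π)⁻¹ = algebraMap R F k' *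
        ((algebraMap R F π)⁻¹ * f - (algebraMap R F π)⁻¹ * (f - algebraMap R F k)) := by
      have e4 : (algebraMap R F π)⁻¹ * f - (algebraMap R F π)⁻¹ * (f - algebraMap R F k) =
          (algebraMap R F π)⁻¹ * algebraMap R F k := by ring
      rw [e4, mul_comm (algebraMap R F k'), mul_assoc, e1, mul_one]
    rw [e3]
    exact V.mul_mem hk'V (V.sub_mem hcon hfk)
  obtain ⟨hfV₁, hfV₁'⟩ := hunit V₁ k₁ hk₁ hB₁ hπ₁ hV₁ hf₁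
  obtain ⟨hfV₂, hfV₂'⟩ := hunit V₂ k₂ hk₂ hB₂ hπ₂ hV₂ hf₂
  refine nd14_hNode π m hm B V₁ V₂ W hW hB₁ hB₂ hπ₁ hπ₂ hV₁ hV₂ hsat hFrac harch₁ harch₂ hS₁ hS₂
    hT hUV τ Q hτV₁ hτV₂ hτ₁ hτ₂ f hf0 k₁ k₂ hk₁ hk₂ hf₁ hf₂ ?_
  intro n hn hπn h1 h2
  obtain ⟨hFN, c, hc0, hc₁, hc₁', hc₂, hc₂', hO⟩ := hNd n hn hπn h1 h2
  refine ⟨hFN, c, hc0, hc₁, hc₁', hc₂, hc₂', ?_, ?_⟩
  · refine nd14_mem_loc_of_horiz π B V₁ V₂ hB₁ hB₂ hπ₁ hsat hKr n hn hπn _ ?_ ?_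
      (fun O hO₁ hO₂ => (hO O hO₁ hO₂).1)
    · rw [div_eq_mul_inv, ← inv_pow]; exact V₁.mul_mem hfV₁ (V₁.pow_mem hc₁' m)
    · rw [div_eq_mul_inv, ← inv_pow]; exact V₂.mul_mem hfV₂ (V₂.pow_mem hc₂' m)
  · refine nd14_mem_loc_of_horiz π B V₁ V₂ hB₁ hB₂ hπ₁ hsat hKr n hn hπn _ ?_ ?_
      (fun O hO₁ hO₂ => (hO O hO₁ hO₂).2)
    · rw [div_eq_mul_inv]; exact V₁.mul_mem (V₁.pow_mem hc₁ m) hfV₁'
    · rw [div_eq_mul_inv]; exact V₂.mul_mem (V₂.pow_mem hc₂ m) hfV₂'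

end ND14

end Fermat.Agent.S35
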