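import Fermat.Agent.S35.FrobNode93

/-!
# S35 lab (helper93), step (1e), companion congruences at the nodes: (K) and (SS)

Canonical frame of the S34 lab at level `M' * q`, a Frobenius lift `σ` (restricting to `σR` on
`R`, `σR r ≡ r ^ q mod π`), `ŝ = s34i47_coeffEquiv σ _`, `w = al97L_w`.  At every prime `n` of
a chart `B` containing both branches (a node):

* (K)  `ŝ y - (w y) ^ q ∈ n`;
* (SS) `ŝ (ŝ y) - y ^ (q ^ 2) ∈ n`  (`ŝ²` induces the `q²`-Frobenius on `B / n`);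
* (S2) `ŝ (ŝ y) ∈ n ↔ y ∈ n`         (`ŝ² n = n`).

* `fn93_K_abs` : abstract form of (K) (elementwise in the field `F`);
* `fn93_kron_zero` : `π⁻¹ (α (ŝ x) - (β x) ^ q) ∈ V_0` for `x ∈ V'` (Kronecker on the `0`-branch);
* `fn93_w_pi_mem` : `w (π V_∞) ⊆ π V_0`;
* `fn93_nodeK_chart`, `fn93_nodeK` : (K), (SS), (S2) on the canonical charts (`fn93_NodeK`).
-/

set_option autoImplicit false
set_option linter.unusedSectionVars false
set_option linter.style.haveILetI false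

open ModularCurve

namespace Fermat.Agent.S35

open Fermat.Agent.S18 Fermat.Agent.S24 Fermat.Agent.S34

local notation "Q̄" => AlgebraicClosure ℚ

section fn93K_abs

variable {R F : Type*} [CommRing R] [Field F] [Algebra R F]

/-- In a commutative ring, `x - y ∈ n` implies `x ^ k - y ^ k ∈ n`. -/
theorem fn93_pow_sub_mem {A : Type*} [CommRing A] (n : Ideal A) (x y : A) (k : ℕ)
    (h : x - y ∈ n) : x ^ k - y ^ k ∈ n := by
  obtain ⟨c, hc⟩ := sub_dvd_pow_sub_pow x y k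
  rw [hc]
  exact n.mul_mem_right c h

/-- **Abstract (K).**  Every `y ∈ B` is `a + p` with `π⁻¹ p ∈ V₁` and
`s a ≡ (w a) ^ q mod π V₂`; `s` maps `B ∩ π V₁` into itself and `w` maps it into `B ∩ π V₂`.
Then `s y - (w y) ^ q ∈ n` at every ideal `n` of `B` containing both branches. -/
theorem fn93_K_abs (π : R) (B : Subalgebra R F) (V₁ V₂ : Subring F) (s w : F →+* F) (q : ℕ)
    (h1 : ∀ y ∈ B, ∃ a ∈ B, (algebraMap R F π)⁻¹ * (y - a) ∈ V₁ ∧ s a ∈ B ∧ w a ∈ B ∧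
      (algebraMap R F π)⁻¹ * (s a - w a ^ q) ∈ V₂)
    (h2 : ∀ p ∈ B, (algebraMap R F π)⁻¹ * p ∈ V₁ → s p ∈ B ∧ (algebraMap R F π)⁻¹ * s p ∈ V₁)
    (h3 : ∀ p ∈ B, (algebraMap R F π)⁻¹ * p ∈ V₁ → w p ∈ B ∧ (algebraMap R F π)⁻¹ * w p ∈ V₂)
    (n : Ideal B) (hn₁ : sf79_OnBr π B V₁ n) (hn₂ : sf79_OnBr π B V₂ n)
    (y z₁ z₂ : B) (hz₁ : (z₁ : F) = s (y : F)) (hz₂ : (z₂ : F) = w (y : F)) :
    z₁ - z₂ ^ q ∈ n := by
  obtain ⟨a, ha, hya, hsa, hwa, hkr⟩ := h1 y y.2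
  obtain ⟨hsp, hsp2⟩ := h2 ((y : F) - a) (B.sub_mem y.2 ha) hya
  obtain ⟨hwp, hwp2⟩ := h3 ((y : F) - a) (B.sub_mem y.2 ha) hya
  have e1 : (⟨s ((y : F) - a), hsp⟩ : B) ∈ n := hn₁ ⟨s ((y : F) - a), hsp⟩ hsp2
  have e2 : (⟨w ((y : F) - a), hwp⟩ : B) ∈ n := hn₂ ⟨w ((y : F) - a), hwp⟩ hwp2
  have e3 : (⟨s a, hsa⟩ : B) - ⟨w a, hwa⟩ ^ q ∈ n := hn₂ (⟨s a, hsa⟩ - ⟨w a, hwa⟩ ^ q) hkr
  have hz₁' : z₁ = ⟨s a, hsa⟩ + ⟨s ((y : F) - a), hsp⟩ := by
    apply Subtype.ext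
    show (z₁ : F) = s a + s ((y : F) - a)
    rw [hz₁, ← map_add]
    congr 1
    ring
  have hz₂' : z₂ - ⟨w a, hwa⟩ = ⟨w ((y : F) - a), hwp⟩ := by
    apply Subtype.ext
    show (z₂ : F) - w a = w ((y : F) - a)
    rw [hz₂, ← map_sub]
  have e4 : z₂ ^ q - (⟨w a, hwa⟩ : B) ^ q ∈ n :=
    fn93_pow_sub_mem n _ _ q (by rw [hz₂']; exact e2)
  have e5 : z₁ - z₂ ^ q = ((⟨s a, hsa⟩ : B) - ⟨w a, hwa⟩ ^ q) + ⟨s ((y : F) - a), hsp⟩ -
      (z₂ ^ q - (⟨w a, hwa⟩ : B) ^ q) := by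
    rw [hz₁']
    ring
  rw [e5]
  exact n.sub_mem (n.add_mem e3 e1) e4

end fn93K_abs

section fn93K_inst

variable {R K : Type} [CommRing R] [IsDomain R] [IsDiscreteValuationRing R] [Field K] [CharZero K]
  [Algebra R K] [IsFractionRing R K] [Algebra K Q̄]
  (M' q : ℕ) [NeZero M'] [NeZero q] (hq : q.Prime) (hM' : ¬ q ∣ M')
  [Algebra R ↥(modularFunctionFieldFullC K M')]
  [IsScalarTower R K ↥(modularFunctionFieldFullC K M')]
  [Algebra R ↥(modularFunctionFieldFullC K (M' * q))]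
  [IsScalarTower R K ↥(modularFunctionFieldFullC K (M' * q))]

include hq in
/-- **Kronecker congruence for a Frobenius lift on the `0`-branch**: `α (ŝ x) ≡ (β x) ^ q`
modulo `π V_0`, for `x` in the Gauss valuation ring `V'` of level `M'`. -/
theorem fn93_kron_zero {π : R} (hπ : Irreducible π) (hqR : ¬ IsUnit (q : R))
    (σ : K ≃+* K) (σR : R →+* R)
    (hσ : ∀ r, algebraMap R K (σR r) = σ (algebraMap R K r))
    (hfr : ∀ r, π ∣ σR r - r ^ q)
    (x : ↥(modularFunctionFieldFullC K M')) (hx : x ∈ cm85_Vinf (K := K) M' hπ) :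
    (algebraMap R ↥(modularFunctionFieldFullC K (M' * q)) π)⁻¹ *
        (al97L_alpha K M' q (s34i47_coeffEquiv σ M' x) - al97L_beta K M' q x ^ q) ∈
      s34i47c_V0 (K := K) M' q hq hM' hπ := by
  rw [s34i47c_mem_V0, map_mul, map_inv₀,
    IsScalarTower.algebraMap_apply R K ↥(modularFunctionFieldFullC K (M' * q)),
    AlgEquiv.commutes,
    ← IsScalarTower.algebraMap_apply R K ↥(modularFunctionFieldFullC K (M' * q)), map_sub,
    map_pow, al97L_w_alpha_apply, al97L_w_beta_apply]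
  exact fn93_kron_inf (K := K) M' q hq hπ hqR σ σR hσ hfr x hx

/-- `w (π V_∞) ⊆ π V_0`. -/
theorem fn93_w_pi_mem {π : R} (hπ : Irreducible π)
    (p : ↥(modularFunctionFieldFullC K (M' * q)))
    (hp : (algebraMap R ↥(modularFunctionFieldFullC K (M' * q)) π)⁻¹ * p ∈
      cm85_Vinf (K := K) (M' * q) hπ) :
    (algebraMap R ↥(modularFunctionFieldFullC K (M' * q)) π)⁻¹ *
        al97L_w (algebraMap K Q̄) M' q hq hM' p ∈ s34i47c_V0 (K := K) M' q hq hM' hπ := by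
  rw [s34i47c_mem_V0, map_mul, map_inv₀,
    IsScalarTower.algebraMap_apply R K ↥(modularFunctionFieldFullC K (M' * q)),
    AlgEquiv.commutes,
    ← IsScalarTower.algebraMap_apply R K ↥(modularFunctionFieldFullC K (M' * q)), al97L_w_w]
  exact hp

/-- **(K), (SS), (S2) at the nodes of the chart `B`**: at every prime `n` of `B` containing
both branches, `s y - (w y) ^ q ∈ n`, `s (s y) - y ^ (q ^ 2) ∈ n` and `s (s y) ∈ n ↔ y ∈ n`. -/
def fn93_NodeK {R F : Type*} [CommRing R] [Field F] [Algebra R F] (π : R) (B : Subalgebra R F)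
    (V₁ V₂ : Subring F) (s w : F → F) (q : ℕ) : Prop :=
  ∀ n : Ideal B, n.IsPrime → sf79_OnBr π B V₁ n → sf79_OnBr π B V₂ n →
    (∀ y z₁ z₂ : B, (z₁ : F) = s (y : F) → (z₂ : F) = w (y : F) → z₁ - z₂ ^ q ∈ n) ∧
    (∀ y z : B, (z : F) = s (s (y : F)) → z - y ^ (q ^ 2) ∈ n) ∧
    (∀ y z : B, (z : F) = s (s (y : F)) → (z ∈ n ↔ y ∈ n))

variable [Algebra.IsAlgebraic K Q̄]

include hq hM' in
/-- **(K), (SS), (S2) on one chart** `B = pk15_chart R s` of level `M' * q` lying over the chart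
`B' = pk15_chart R s'` of level `M'`. -/
theorem fn93_nodeK_chart {π : R} (hπ : Irreducible π) (hqR : ¬ IsUnit (q : R))
    (σ : K ≃+* K) (σR : R →+* R)
    (hσ : ∀ r, algebraMap R K (σR r) = σ (algebraMap R K r))
    (hfr : ∀ r, π ∣ σR r - r ^ q)
    (s' : Set ↥(modularFunctionFieldFullC K M'))
    (s : Set ↥(modularFunctionFieldFullC K (M' * q)))
    (hs'V : ∀ g ∈ s', g ∈ cm85_Vinf (K := K) M' hπ)
    (hαB : ∀ x ∈ pk15_chart R s', al97L_alpha K M' q x ∈ pk15_chart R s)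
    (hwB : ∀ z : ↥(modularFunctionFieldFullC K (M' * q)),
      bz13_w M' q hq hM' z ∈ pk15_chart R s ↔ z ∈ pk15_chart R s)
    (hsB : ∀ z ∈ pk15_chart R s, s34i47_coeffEquiv σ (M' * q) z ∈ pk15_chart R s)
    (hsurj : bi93_Surj (K := K) M' (M' * q) (dvd_mul_right M' q) hπ s' s) :
    fn93_NodeK π (pk15_chart R s) (cm85_Vinf (K := K) (M' * q) hπ).toSubring
      (s34i47c_V0 (K := K) M' q hq hM' hπ).toSubring
      (s34i47_coeffEquiv σ (M' * q)) (al97L_w (algebraMap K Q̄) M' q hq hM') q := by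
  intro n hn hn₁ hn₂
  set sF : ↥(modularFunctionFieldFullC K (M' * q)) →+* ↥(modularFunctionFieldFullC K (M' * q)) :=
    ((s34i47_coeffEquiv σ (M' * q) : ↥(modularFunctionFieldFullC K (M' * q)) ≃+*
        ↥(modularFunctionFieldFullC K (M' * q))) :
      ↥(modularFunctionFieldFullC K (M' * q)) →+* ↥(modularFunctionFieldFullC K (M' * q)))
    with hsF
  set wF : ↥(modularFunctionFieldFullC K (M' * q)) →+* ↥(modularFunctionFieldFullC K (M' * q)) :=
    ((bz13_w (K := K) M' q hq hM' : ↥(modularFunctionFieldFullC K (M' * q)) ≃+*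
        ↥(modularFunctionFieldFullC K (M' * q))) :
      ↥(modularFunctionFieldFullC K (M' * q)) →+* ↥(modularFunctionFieldFullC K (M' * q)))
    with hwF
  have hsap : ∀ x : ↥(modularFunctionFieldFullC K (M' * q)),
      sF x = s34i47_coeffEquiv σ (M' * q) x := fun x => rfl
  have hwap : ∀ x : ↥(modularFunctionFieldFullC K (M' * q)),
      wF x = al97L_w (algebraMap K Q̄) M' q hq hM' x := fun x => rfl
  have hwB' : ∀ x ∈ pk15_chart R s, al97L_w (algebraMap K Q̄) M' q hq hM' x ∈ pk15_chart R s :=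
    fun x hx => (hwB x).mpr hx
  have hB'V' : ∀ x ∈ pk15_chart R s', x ∈ cm85_Vinf (K := K) M' hπ :=
    fun x hx => pk15_chart_le_V (cm85_Vinf (K := K) M' hπ) (pk85_hRV M' hπ) s' hs'V x hx
  have h1 : ∀ y ∈ pk15_chart R s, ∃ a ∈ pk15_chart R s,
      (algebraMap R ↥(modularFunctionFieldFullC K (M' * q)) π)⁻¹ * (y - a) ∈
        (cm85_Vinf (K := K) (M' * q) hπ).toSubring ∧ sF a ∈ pk15_chart R s ∧
      wF a ∈ pk15_chart R s ∧
      (algebraMap R ↥(modularFunctionFieldFullC K (M' * q)) π)⁻¹ * (sF a - wF a ^ q) ∈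
        (s34i47c_V0 (K := K) M' q hq hM' hπ).toSubring := by
    intro y hy
    obtain ⟨x', hx', hyx'⟩ := hsurj y hy
    refine ⟨al97L_alpha K M' q x', hαB x' hx', hyx', hsB _ (hαB x' hx'), hwB' _ (hαB x' hx'), ?_⟩
    have e : sF (al97L_alpha K M' q x') - wF (al97L_alpha K M' q x') ^ q =
        al97L_alpha K M' q (s34i47_coeffEquiv σ M' x') - al97L_beta K M' q x' ^ q := by
      rw [hsap, hwap, fn93_coeff_alpha, al97L_w_alpha_apply]
    rw [e]
    exact fn93_kron_zero (K := K) M' q hq hM' hπ hqR σ σR hσ hfr x' (hB'V' x' hx')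
  have h2 : ∀ p ∈ pk15_chart R s,
      (algebraMap R ↥(modularFunctionFieldFullC K (M' * q)) π)⁻¹ * p ∈
        (cm85_Vinf (K := K) (M' * q) hπ).toSubring →
      sF p ∈ pk15_chart R s ∧
        (algebraMap R ↥(modularFunctionFieldFullC K (M' * q)) π)⁻¹ * sF p ∈
          (cm85_Vinf (K := K) (M' * q) hπ).toSubring :=
    fun p hp hpV => ⟨hsB p hp,
      fn93_coeff_pi_mem (K := K) (M' * q) hπ q hq.ne_zero σ σR hσ hfr p hpV⟩
  have h3 : ∀ p ∈ pk15_chart R s,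
      (algebraMap R ↥(modularFunctionFieldFullC K (M' * q)) π)⁻¹ * p ∈
        (cm85_Vinf (K := K) (M' * q) hπ).toSubring →
      wF p ∈ pk15_chart R s ∧
        (algebraMap R ↥(modularFunctionFieldFullC K (M' * q)) π)⁻¹ * wF p ∈
          (s34i47c_V0 (K := K) M' q hq hM' hπ).toSubring :=
    fun p hp hpV => ⟨hwB' p hp, fn93_w_pi_mem (K := K) M' q hq hM' hπ p hpV⟩
  have hK : ∀ y z₁ z₂ : ↥(pk15_chart R s),
      (z₁ : ↥(modularFunctionFieldFullC K (M' * q))) =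
        s34i47_coeffEquiv σ (M' * q) (y : ↥(modularFunctionFieldFullC K (M' * q))) →
      (z₂ : ↥(modularFunctionFieldFullC K (M' * q))) =
        al97L_w (algebraMap K Q̄) M' q hq hM' (y : ↥(modularFunctionFieldFullC K (M' * q))) →
      z₁ - z₂ ^ q ∈ n :=
    fun y z₁ z₂ hz₁ hz₂ => fn93_K_abs π (pk15_chart R s) _ _ sF wF q h1 h2 h3 n hn₁ hn₂ y z₁ z₂
      hz₁ hz₂
  obtain ⟨hfix, hsw⟩ := fn93_node_chart (K := K) M' q hq hM' hπ hqR σ σR hσ hfr s' s hs'V hαB hwB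
    hsB hsurj n hn hn₁ hn₂
  refine ⟨hK, ?_, ?_⟩
  · intro y z hz
    -- `u = ŝ y`, `v = w y`, `t = ŝ (w y) = w (ŝ y)`
    set u : ↥(pk15_chart R s) := ⟨s34i47_coeffEquiv σ (M' * q) (y : _), hsB _ y.2⟩ with hu
    set v : ↥(pk15_chart R s) := ⟨al97L_w (algebraMap K Q̄) M' q hq hM' (y : _), hwB' _ y.2⟩
      with hv
    set t : ↥(pk15_chart R s) := ⟨s34i47_coeffEquiv σ (M' * q) (v : _), hsB _ v.2⟩ with ht
    have hcomm : (t : ↥(modularFunctionFieldFullC K (M' * q))) =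
        al97L_w (algebraMap K Q̄) M' q hq hM' (u : ↥(modularFunctionFieldFullC K (M' * q))) :=
      (al97V_w_coeffEquiv (algebraMap K Q̄) M' q hq hM' σ _).symm
    -- (K) at `u`: `z - t ^ q ∈ n`
    have k1 : z - t ^ q ∈ n := hK u z t hz hcomm
    -- (K) at `v`: `t - y ^ q ∈ n` (since `w v = y`)
    have k2 : t - y ^ q ∈ n := hK v t y rfl (by rw [hv]; exact (al97L_w_w _ _ _ _ _ _).symm)
    have k3 : t ^ q - (y ^ q) ^ q ∈ n := fn93_pow_sub_mem n _ _ q k2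
    have e : z - y ^ (q ^ 2) = (z - t ^ q) + (t ^ q - (y ^ q) ^ q) := by
      rw [pow_two, pow_mul]
      ring
    rw [e]
    exact n.add_mem k1 k3
  · intro y z hz
    set u : ↥(pk15_chart R s) := ⟨s34i47_coeffEquiv σ (M' * q) (y : _), hsB _ y.2⟩ with hu
    set t : ↥(pk15_chart R s) :=
      ⟨al97L_w (algebraMap K Q̄) M' q hq hM' (u : _), hwB' _ u.2⟩ with ht
    exact (hsw u z t hz rfl).trans (hfix y t rfl)

include hq hM' in
/-- **(K), (SS), (S2) on the canonical frame**: both affine charts of every admissible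
Hauptmodul, every Frobenius lift. -/
theorem fn93_nodeK {π : R} (hπ : Irreducible π)
    (hunit : ∀ n : ℕ, Nat.Coprime n q → IsUnit (n : R)) (hqR : ¬ IsUnit (q : R))
    (σ : K ≃+* K) (σR : R →+* R)
    (hσ : ∀ r, algebraMap R K (σR r) = σ (algebraMap R K r))
    (hfr : ∀ r, π ∣ σR r - r ^ q)
    (h : ↥(modularFunctionFieldFullC K (M' * q))) (hh : s34i47c_IsHaupt K (M' * q) q h) :
    fn93_NodeK π (pk15_chart R ({h} : Set ↥(modularFunctionFieldFullC K (M' * q))))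
        (cm85_Vinf (K := K) (M' * q) hπ).toSubring
        (s34i47c_V0 (K := K) M' q hq hM' hπ).toSubring
        (s34i47_coeffEquiv σ (M' * q)) (al97L_w (algebraMap K Q̄) M' q hq hM') q ∧
      fn93_NodeK π (pk15_chart R ({h⁻¹} : Set ↥(modularFunctionFieldFullC K (M' * q))))
        (cm85_Vinf (K := K) (M' * q) hπ).toSubring
        (s34i47c_V0 (K := K) M' q hq hM' hπ).toSubring
        (s34i47_coeffEquiv σ (M' * q)) (al97L_w (algebraMap K Q̄) M' q hq hM') q := by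
  have hdvd : M' ∣ M' * q := dvd_mul_right M' q
  have hMu : IsUnit (M' : R) := hunit M' ((Nat.Prime.coprime_iff_not_dvd hq).mpr hM').symm
  have hf1 := fl71_F1 (R := R) (K := K) M' q hq hM' hπ hqR
  obtain ⟨hw₁, hw₂, -⟩ := bz13_charts_stable (R := R) M' q hq hM' hunit h hh
  have hR : ∀ r : R, ∃ r' : R,
      s34i47_coeffEquiv σ (M' * q) (algebraMap R ↥(modularFunctionFieldFullC K (M' * q)) r) =
        algebraMap R ↥(modularFunctionFieldFullC K (M' * q)) r' :=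
    fun r => ⟨σR r, fn93_coeff_alg (K := K) (M' * q) σ σR hσ r⟩
  rcases hh with ⟨hq2, h2, rfl⟩ | ⟨hq3, h3, rfl⟩
  · have h2' : 2 ∣ M' :=
      ((Nat.coprime_primes Nat.prime_two hq).mpr (Ne.symm hq2)).dvd_of_dvd_mul_right h2
    obtain ⟨-, -, -, -, hhV, hhV', -⟩ := cm85_facts_level2 (R := R) (K := K) M' hπ h2'
    obtain ⟨⟨hSj₁, -⟩, ⟨hSj₂, -⟩⟩ :=
      bi93_level2 (R := R) (K := K) M' (M' * q) hdvd hπ h2' hMu hf1
    obtain ⟨hs₁, hs₂, -⟩ := in87i_chart_mem_haupt (R := R) (s34i47_coeffEquiv σ (M' * q)) hR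
      (pk85_h2 K (M' * q) h2) (cm15_coeffEquiv_h2 (M' * q) σ h2)
    have hhe : al97L_alpha K M' q (pk85_h2 K M' h2') = pk85_h2 K (M' * q) h2 :=
      Subtype.ext (by rw [al97L_alpha_coe, pk85_h2_coe, pk85_h2_coe])
    have hα₁ : ∀ x ∈ pk15_chart R ({pk85_h2 K M' h2'} : Set ↥(modularFunctionFieldFullC K M')),
        al97L_alpha K M' q x ∈
          pk15_chart R ({pk85_h2 K (M' * q) h2} : Set ↥(modularFunctionFieldFullC K (M' * q))) := by
      intro x hx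
      have h1 := fl71_alpha_chart (R := R) (K := K) M' q _ x hx
      rwa [Set.image_singleton, hhe] at h1
    have hα₂ : ∀ x ∈ pk15_chart R ({(pk85_h2 K M' h2')⁻¹} : Set ↥(modularFunctionFieldFullC K M')),
        al97L_alpha K M' q x ∈
          pk15_chart R ({(pk85_h2 K (M' * q) h2)⁻¹} :
            Set ↥(modularFunctionFieldFullC K (M' * q))) := by
      intro x hx
      have h1 := fl71_alpha_chart (R := R) (K := K) M' q _ x hx
      rwa [Set.image_singleton, map_inv₀, hhe] at h1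
    exact ⟨fn93_nodeK_chart (K := K) M' q hq hM' hπ hqR σ σR hσ hfr _ _
        (fun g hg => by rw [Set.mem_singleton_iff.mp hg]; exact hhV) hα₁ hw₁ hs₁ hSj₁,
      fn93_nodeK_chart (K := K) M' q hq hM' hπ hqR σ σR hσ hfr _ _
        (fun g hg => by rw [Set.mem_singleton_iff.mp hg]; exact hhV') hα₂ hw₂ hs₂ hSj₂⟩
  · have h3' : 3 ∣ M' :=
      ((Nat.coprime_primes Nat.prime_three hq).mpr (Ne.symm hq3)).dvd_of_dvd_mul_right h3
    obtain ⟨-, -, -, -, hhV, hhV', -⟩ := cm85_facts_level3 (R := R) (K := K) M' hπ h3'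
    obtain ⟨⟨hSj₁, -⟩, ⟨hSj₂, -⟩⟩ :=
      bi93_level3 (R := R) (K := K) M' (M' * q) hdvd hπ h3' hMu hf1
    obtain ⟨hs₁, hs₂, -⟩ := in87i_chart_mem_haupt (R := R) (s34i47_coeffEquiv σ (M' * q)) hR
      (pk85_h3 K (M' * q) h3) (cm15_coeffEquiv_h3 (M' * q) σ h3)
    have hhe : al97L_alpha K M' q (pk85_h3 K M' h3') = pk85_h3 K (M' * q) h3 :=
      Subtype.ext (by rw [al97L_alpha_coe, pk85_h3_coe, pk85_h3_coe])
    have hα₁ : ∀ x ∈ pk15_chart R ({pk85_h3 K M' h3'} : Set ↥(modularFunctionFieldFullC K M')),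
        al97L_alpha K M' q x ∈
          pk15_chart R ({pk85_h3 K (M' * q) h3} : Set ↥(modularFunctionFieldFullC K (M' * q))) := by
      intro x hx
      have h1 := fl71_alpha_chart (R := R) (K := K) M' q _ x hx
      rwa [Set.image_singleton, hhe] at h1
    have hα₂ : ∀ x ∈ pk15_chart R ({(pk85_h3 K M' h3')⁻¹} : Set ↥(modularFunctionFieldFullC K M')),
        al97L_alpha K M' q x ∈
          pk15_chart R ({(pk85_h3 K (M' * q) h3)⁻¹} :
            Set ↥(modularFunctionFieldFullC K (M' * q))) := by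
      intro x hx
      have h1 := fl71_alpha_chart (R := R) (K := K) M' q _ x hx
      rwa [Set.image_singleton, map_inv₀, hhe] at h1
    exact ⟨fn93_nodeK_chart (K := K) M' q hq hM' hπ hqR σ σR hσ hfr _ _
        (fun g hg => by rw [Set.mem_singleton_iff.mp hg]; exact hhV) hα₁ hw₁ hs₁ hSj₁,
      fn93_nodeK_chart (K := K) M' q hq hM' hπ hqR σ σR hσ hfr _ _
        (fun g hg => by rw [Set.mem_singleton_iff.mp hg]; exact hhV') hα₂ hw₂ hs₂ hSj₂⟩

end fn93K_inst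

end Fermat.Agent.S35
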