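import Mathlib
import Fermat.Agent.S35.Iface62
import Fermat.Agent.S35.FrobFrame50
import Fermat.Agent.S35.FrobNodeK93

/-!
# S35 lab, row 568 carve-off (helper93): the Frobenius clauses at the nodes, for the assemblers

In the LITERAL binder block of `s35i62_Core` (`R K : Type`, `[NumberField K]`, `hunit`, `hqR`,
`σ` with `hσ : s35i62_Frobenial R q σ`), for an admissible Hauptmodul `h`, a chart
`B = pk15_chart R {h}` or `B = pk15_chart R {h⁻¹}`, and `ŝ := s34i47_coeffEquiv σ (M' * q)`: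

* `fn93c_chart`   : `ŝ B ⊆ B`, `ŝ (ŝ B) ⊆ B`;
* `fn93c_node`    : at every prime `n` of `B` containing both branches (`sf79_OnBr` for
  `V_∞ = cm85_Vinf` and `V_0 = s34i47c_V0`): for every `b : B` the element `b' = ŝ (ŝ b)` of `B`
  satisfies `b' - b ^ (q ^ 2) ∈ n` and `b' ∈ n ↔ b ∈ n`;
* `fn93c_FN`      : the clause (FN) of `nd14_hNode_LP` for `τ := ŝ ∘ ŝ` (a ring homomorphism) and
  `Q := q ^ 2`;
* `fn93c_fix`, `fn93c_SS` : the hypotheses `hfix`, `hSS` of `nd74_datum` for `T := ŝ.trans ŝ`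
  (a ring isomorphism) and `Q := q ^ 2`;
* `fn93c_K`       : (K) `ŝ b ≡ (w b) ^ q` modulo `n`.

Everything is a thin binding of `fn93_nodeK` (`FrobNodeK93`) and `ff50_chart` (`FrobFrame50`).
All names are prefixed `fn93c_`.
-/

set_option autoImplicit false
set_option linter.unusedSectionVars false
set_option linter.unusedVariables false
set_option linter.style.longLine false
set_option linter.style.haveILetI false

open ModularCurve AlgebraicCurve

namespace Fermat.Agent.S35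

open Fermat.Agent.S18 Fermat.Agent.S34

local notation "Q̄" => AlgebraicClosure ℚ

section fn93c

variable (M' q : ℕ) [NeZero M'] [NeZero q] (hq : q.Prime) (hM' : ¬ q ∣ M')
  (R K : Type) [CommRing R] [IsDomain R] [IsDiscreteValuationRing R] [Field K] [NumberField K]
  [Algebra K Q̄] [Algebra R K] [IsFractionRing R K]
  [Algebra R ↥(modularFunctionFieldFullC K (M' * q))]
  [IsScalarTower R K ↥(modularFunctionFieldFullC K (M' * q))]

/-- The restriction of a Frobenial automorphism to `R` is congruent to the `q`-th power map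
modulo the uniformiser. -/
theorem fn93c_dvd {π : R} (hπ : Irreducible π) (σ : K ≃+* K) (hσ : s35i62_Frobenial R q σ)
    (r : R) : π ∣ ff50_sigmaR σ hσ r - r ^ q := by
  have h : ff50_sigmaRfun σ hσ r - r ^ q ∈ IsLocalRing.maximalIdeal R := (hσ r).choose_spec.2
  rw [(IsDiscreteValuationRing.irreducible_iff_uniformizer π).mp hπ,
    Ideal.mem_span_singleton] at h
  exact h

/-- `ŝ` and `ŝ ∘ ŝ` preserve both affine charts of an admissible Hauptmodul. -/
theorem fn93c_chart (σ : K ≃+* K) (hσ : s35i62_Frobenial R q σ)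
    (h : ↥(modularFunctionFieldFullC K (M' * q))) (hh : s34i47c_IsHaupt K (M' * q) q h)
    (B : Subalgebra R ↥(modularFunctionFieldFullC K (M' * q)))
    (hB : B = pk15_chart R ({h} : Set ↥(modularFunctionFieldFullC K (M' * q))) ∨
      B = pk15_chart R ({h⁻¹} : Set ↥(modularFunctionFieldFullC K (M' * q)))) :
    (∀ x ∈ B, s34i47_coeffEquiv σ (M' * q) x ∈ B) ∧
      (∀ x ∈ B, s34i47_coeffEquiv σ (M' * q) (s34i47_coeffEquiv σ (M' * q) x) ∈ B) := by
  obtain ⟨h1, h2, -⟩ := ff50_chart (R := R) M' q σ hσ h hh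
  have key : ∀ x ∈ B, s34i47_coeffEquiv σ (M' * q) x ∈ B := by
    rcases hB with rfl | rfl
    · exact h1
    · exact h2
  exact ⟨key, fun x hx => key _ (key x hx)⟩

include hq hM' in
/-- **(SS) and (S2) at the nodes**, existential form: at every prime `n` of the chart `B`
containing both branches, `b' := ŝ (ŝ b) ∈ B` satisfies `b' ≡ b ^ (q ^ 2)` modulo `n` and
`b' ∈ n ↔ b ∈ n`; moreover (K): `ŝ b ≡ (w b) ^ q` modulo `n`. -/
theorem fn93c_node (π : R) (hπ : Irreducible π)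
    (hunit : ∀ n : ℕ, Nat.Coprime n q → IsUnit (n : R)) (hqR : ¬ IsUnit (q : R))
    (σ : K ≃+* K) (hσ : s35i62_Frobenial R q σ)
    (h : ↥(modularFunctionFieldFullC K (M' * q))) (hh : s34i47c_IsHaupt K (M' * q) q h)
    (B : Subalgebra R ↥(modularFunctionFieldFullC K (M' * q)))
    (hB : B = pk15_chart R ({h} : Set ↥(modularFunctionFieldFullC K (M' * q))) ∨
      B = pk15_chart R ({h⁻¹} : Set ↥(modularFunctionFieldFullC K (M' * q))))
    (n : Ideal B) (hn : n.IsPrime)
    (h₁ : sf79_OnBr π B (cm85_Vinf (K := K) (M' * q) hπ).toSubring n)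
    (h₂ : sf79_OnBr π B (s34i47c_V0 (K := K) M' q hq hM' hπ).toSubring n) :
    (∀ y z₁ z₂ : B, (z₁ : ↥(modularFunctionFieldFullC K (M' * q))) =
        s34i47_coeffEquiv σ (M' * q) (y : ↥(modularFunctionFieldFullC K (M' * q))) →
      (z₂ : ↥(modularFunctionFieldFullC K (M' * q))) =
        al97L_w (algebraMap K Q̄) M' q hq hM' (y : ↥(modularFunctionFieldFullC K (M' * q))) →
      z₁ - z₂ ^ q ∈ n) ∧
    (∀ y z : B, (z : ↥(modularFunctionFieldFullC K (M' * q))) =
        s34i47_coeffEquiv σ (M' * q) (s34i47_coeffEquiv σ (M' * q)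
          (y : ↥(modularFunctionFieldFullC K (M' * q)))) → z - y ^ (q ^ 2) ∈ n) ∧
    (∀ y z : B, (z : ↥(modularFunctionFieldFullC K (M' * q))) =
        s34i47_coeffEquiv σ (M' * q) (s34i47_coeffEquiv σ (M' * q)
          (y : ↥(modularFunctionFieldFullC K (M' * q)))) → (z ∈ n ↔ y ∈ n)) := by
  haveI : Algebra.IsAlgebraic K Q̄ := fs85_isAlgebraic K
  letI : Algebra R ↥(modularFunctionFieldFullC K M') :=
    ((algebraMap K ↥(modularFunctionFieldFullC K M')).comp (algebraMap R K)).toAlgebra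
  haveI : IsScalarTower R K ↥(modularFunctionFieldFullC K M') :=
    IsScalarTower.of_algebraMap_eq (fun _ => rfl)
  obtain ⟨hK₁, hK₂⟩ := fn93_nodeK (R := R) (K := K) M' q hq hM' hπ hunit hqR σ
    (ff50_sigmaR σ hσ) (ff50_sigmaR_spec σ hσ) (fn93c_dvd q R K hπ σ hσ) h hh
  rcases hB with rfl | rfl
  · exact hK₁ n hn h₁ h₂
  · exact hK₂ n hn h₁ h₂

include hq hM' in
/-- **The clause (FN) of `nd14_hNode_LP`** for `τ := ŝ ∘ ŝ` (as a ring homomorphism) and
`Q := q ^ 2`, at every prime of the chart containing both branches. -/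
theorem fn93c_FN (π : R) (hπ : Irreducible π)
    (hunit : ∀ n : ℕ, Nat.Coprime n q → IsUnit (n : R)) (hqR : ¬ IsUnit (q : R))
    (σ : K ≃+* K) (hσ : s35i62_Frobenial R q σ)
    (h : ↥(modularFunctionFieldFullC K (M' * q))) (hh : s34i47c_IsHaupt K (M' * q) q h)
    (B : Subalgebra R ↥(modularFunctionFieldFullC K (M' * q)))
    (hB : B = pk15_chart R ({h} : Set ↥(modularFunctionFieldFullC K (M' * q))) ∨
      B = pk15_chart R ({h⁻¹} : Set ↥(modularFunctionFieldFullC K (M' * q))))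
    (n : Ideal B) (hn : n.IsPrime)
    (h₁ : sf79_OnBr π B (cm85_Vinf (K := K) (M' * q) hπ).toSubring n)
    (h₂ : sf79_OnBr π B (s34i47c_V0 (K := K) M' q hq hM' hπ).toSubring n) :
    ∀ b : B, ∃ b' : B, (b' : ↥(modularFunctionFieldFullC K (M' * q))) =
        ((s34i47_coeffEquiv σ (M' * q) : ↥(modularFunctionFieldFullC K (M' * q)) →+*
            ↥(modularFunctionFieldFullC K (M' * q))).comp
          (s34i47_coeffEquiv σ (M' * q) : ↥(modularFunctionFieldFullC K (M' * q)) →+*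
            ↥(modularFunctionFieldFullC K (M' * q))))
          (b : ↥(modularFunctionFieldFullC K (M' * q))) ∧
      b' - b ^ (q ^ 2) ∈ n := by
  intro b
  obtain ⟨-, hSS, -⟩ := fn93c_node M' q hq hM' R K π hπ hunit hqR σ hσ h hh B hB n hn h₁ h₂
  have hmem := (fn93c_chart M' q R K σ hσ h hh B hB).2 (b : _) b.2
  exact ⟨⟨_, hmem⟩, rfl, hSS b ⟨_, hmem⟩ rfl⟩

include hq hM' in
/-- **The hypothesis `hfix` of `nd74_datum`** for `T := ŝ.trans ŝ`. -/
theorem fn93c_fix (π : R) (hπ : Irreducible π)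
    (hunit : ∀ n : ℕ, Nat.Coprime n q → IsUnit (n : R)) (hqR : ¬ IsUnit (q : R))
    (σ : K ≃+* K) (hσ : s35i62_Frobenial R q σ)
    (h : ↥(modularFunctionFieldFullC K (M' * q))) (hh : s34i47c_IsHaupt K (M' * q) q h)
    (B : Subalgebra R ↥(modularFunctionFieldFullC K (M' * q)))
    (hB : B = pk15_chart R ({h} : Set ↥(modularFunctionFieldFullC K (M' * q))) ∨
      B = pk15_chart R ({h⁻¹} : Set ↥(modularFunctionFieldFullC K (M' * q))))
    (hTB : ∀ x ∈ B, ((s34i47_coeffEquiv σ (M' * q)).trans (s34i47_coeffEquiv σ (M' * q))) x ∈ B)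
    (n : Ideal B) (hn : n.IsPrime)
    (h₁ : sf79_OnBr π B (cm85_Vinf (K := K) (M' * q) hπ).toSubring n)
    (h₂ : sf79_OnBr π B (s34i47c_V0 (K := K) M' q hq hM' hπ).toSubring n) :
    ∀ x : B, x ∉ n →
      (⟨((s34i47_coeffEquiv σ (M' * q)).trans (s34i47_coeffEquiv σ (M' * q)))
        (x : ↥(modularFunctionFieldFullC K (M' * q))), hTB _ x.2⟩ : B) ∉ n := by
  intro x hx hcon
  obtain ⟨-, -, hS2⟩ := fn93c_node M' q hq hM' R K π hπ hunit hqR σ hσ h hh B hB n hn h₁ h₂
  exact hx ((hS2 x ⟨_, hTB _ x.2⟩ rfl).mp hcon)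

include hq hM' in
/-- **The hypothesis `hSS` of `nd74_datum`** for `T := ŝ.trans ŝ` and `Q := q ^ 2`. -/
theorem fn93c_SS (π : R) (hπ : Irreducible π)
    (hunit : ∀ n : ℕ, Nat.Coprime n q → IsUnit (n : R)) (hqR : ¬ IsUnit (q : R))
    (σ : K ≃+* K) (hσ : s35i62_Frobenial R q σ)
    (h : ↥(modularFunctionFieldFullC K (M' * q))) (hh : s34i47c_IsHaupt K (M' * q) q h)
    (B : Subalgebra R ↥(modularFunctionFieldFullC K (M' * q)))
    (hB : B = pk15_chart R ({h} : Set ↥(modularFunctionFieldFullC K (M' * q))) ∨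
      B = pk15_chart R ({h⁻¹} : Set ↥(modularFunctionFieldFullC K (M' * q))))
    (hTB : ∀ x ∈ B, ((s34i47_coeffEquiv σ (M' * q)).trans (s34i47_coeffEquiv σ (M' * q))) x ∈ B)
    (n : Ideal B) (hn : n.IsPrime)
    (h₁ : sf79_OnBr π B (cm85_Vinf (K := K) (M' * q) hπ).toSubring n)
    (h₂ : sf79_OnBr π B (s34i47c_V0 (K := K) M' q hq hM' hπ).toSubring n) :
    ∀ x : B,
      (⟨((s34i47_coeffEquiv σ (M' * q)).trans (s34i47_coeffEquiv σ (M' * q)))
        (x : ↥(modularFunctionFieldFullC K (M' * q))), hTB _ x.2⟩ : B) - x ^ (q ^ 2) ∈ n := by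
  intro x
  obtain ⟨-, hSS, -⟩ := fn93c_node M' q hq hM' R K π hπ hunit hqR σ hσ h hh B hB n hn h₁ h₂
  exact hSS x ⟨_, hTB _ x.2⟩ rfl

/-- `T := ŝ.trans ŝ` preserves both affine charts (the hypothesis `hTB` of `nd74_datum`). -/
theorem fn93c_TB (σ : K ≃+* K) (hσ : s35i62_Frobenial R q σ)
    (h : ↥(modularFunctionFieldFullC K (M' * q))) (hh : s34i47c_IsHaupt K (M' * q) q h)
    (B : Subalgebra R ↥(modularFunctionFieldFullC K (M' * q)))
    (hB : B = pk15_chart R ({h} : Set ↥(modularFunctionFieldFullC K (M' * q))) ∨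
      B = pk15_chart R ({h⁻¹} : Set ↥(modularFunctionFieldFullC K (M' * q)))) :
    ∀ x ∈ B, ((s34i47_coeffEquiv σ (M' * q)).trans (s34i47_coeffEquiv σ (M' * q))) x ∈ B :=
  fun x hx => (fn93c_chart M' q R K σ hσ h hh B hB).2 x hx

end fn93c

end Fermat.Agent.S35
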