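import Mathlib
import Fermat.Agent.S34.Iface47

/-!
# S35 lab (helper70): (LP) is stable under a ring automorphism that PERMUTES the closed points

Setting of `s34i47_Pkg_LP` (a discrete valuation ring `R`, a field `F` which is an `R`-algebra,
a chart `B ⊆ F`).  In the S34 lab the Galois elements were inertial and fixed every
closed point of the special fibre; a Frobenius lift `ŝ` (and `τ = ŝ²`) only permutes them.  This
file transports horizontal valuation rings and the local principality (LP) along such a `τ`.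

`lpt70_Aut π B τ` : `τ R ⊆ R`, `τ π ∈ π R`, `τ B ⊆ B`, `τ⁻¹ B ⊆ B`.

* `lpt70_horiz` : `O` horizontal ⟹ `O.comap τ` horizontal.
* `lpt70_comapIdeal B τ n` : the ideal `τ⁻¹ n` of `B`; `lpt70_comapIdeal_isMaximal`,
  `lpt70_pi_mem_comapIdeal`.
* `lpt70_through` : `O` through `n` ⟹ `O.comap τ` through `τ⁻¹ n`.
* `lpt70_at_map` : a local root `c` of `f` at `τ⁻¹ n` gives the local root `τ c` of `τ f` at `n`.
* `lpt70_locPrin_map` : `s34i47_LocPrin π m B f → s34i47_LocPrin π m B (τ f)`.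
* `lpt70_At π m B f n c` : "`c` is a local `m`-th root of `f` at `n` up to horizontal units";
  `lpt70_at_mul`, `lpt70_at_inv`, `lpt70_at_div`, `lpt70_at_pow`, `lpt70_at_powm`.
* `lpt70_locPrin_mul`, `_inv`, `_div`, `_pow`, `_powm`, `_one` : (LP) is multiplicative, and every
  `m`-th power satisfies (LP).
* `lpt70_locPrin_op` : (LP) for `f` ⟹ (LP) for
  `τ³ f · (τ f)^(2Q+1) / ((τ² f)^(Q+2) · f^Q)` (the Kummer operator of `(τ - Q)(1 - τ)²`).
* `lpt70_locPrin_u` : (LP) for `f` ⟹ (LP) for `τ f₃ / f₃ ^ Q`, `f₃ = f · τ² f / (τ f)² / G ^ m`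
  (`G ≠ 0` arbitrary: NO hypothesis on the zeros and poles of `G`).
* `lpt70_at_fixed` : at a `τ`-fixed closed point `n`, a local root `c` of `f` gives the local
  root `c · τ² c / (τ c)² / G` of `f₃`.

* `lpt70_aut_trans`, `lpt70_aut_sq`, `lpt70_aut_of_finOrder` : closure properties of `lpt70_Aut`.

Imports Mathlib and `S34/Iface47` only.  All names are prefixed `lpt70_`.
-/

set_option autoImplicit false
set_option linter.unusedSectionVars false
set_option linter.style.haveILetI false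

namespace Fermat.Agent.S35

open Fermat.Agent.S34

section lpt70

variable {R F : Type*} [CommRing R] [IsDomain R] [IsDiscreteValuationRing R] [Field F]
  [Algebra R F]

/-- The hypotheses on the automorphism `τ` of `F`: it maps `R` into `R`, `π` into `π R`, and
the chart `B` onto itself. -/
def lpt70_Aut (π : R) (B : Subalgebra R F) (τ : F ≃+* F) : Prop :=
  (∀ r : R, ∃ r' : R, τ (algebraMap R F r) = algebraMap R F r') ∧
  (∃ r : R, τ (algebraMap R F π) = algebraMap R F (π * r)) ∧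
  (∀ x ∈ B, τ x ∈ B) ∧ (∀ x ∈ B, τ.symm x ∈ B)

/-- A horizontal valuation ring contains the inverse of every nonzero element of `R`. -/
theorem lpt70_inv_mem {π : R} (hπ : Irreducible π) (O : ValuationSubring F)
    (hO : s34i47_IsHoriz π O) (r : R) (hr : r ≠ 0) : (algebraMap R F r)⁻¹ ∈ O := by
  obtain ⟨n, e, rfl⟩ := IsDiscreteValuationRing.eq_unit_mul_pow_irreducible hr hπ
  have he : algebraMap R F (e : R) * algebraMap R F ((e⁻¹ : Rˣ) : R) = 1 := by
    rw [← map_mul, Units.mul_inv, map_one]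
  have h1 : (algebraMap R F (↑e * π ^ n))⁻¹ =
      algebraMap R F ((e⁻¹ : Rˣ) : R) * ((algebraMap R F π)⁻¹) ^ n := by
    rw [map_mul, map_pow, mul_inv, eq_inv_of_mul_eq_one_right he, inv_pow]
  rw [h1]
  exact O.mul_mem _ _ (hO.2.2.1 _) (pow_mem hO.2.2.2 n)

/-- **Transport of horizontal valuation rings.** -/
theorem lpt70_horiz {π : R} (hπ : Irreducible π) (B : Subalgebra R F) (τ : F ≃+* F)
    (hτ : lpt70_Aut π B τ) (O : ValuationSubring F) (hO : s34i47_IsHoriz π O) :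
    s34i47_IsHoriz π (O.comap (τ : F →+* F)) := by
  obtain ⟨hR, -, -, -⟩ := hτ
  refine ⟨?_, ?_, ?_, ?_⟩
  · intro htop
    apply hO.1
    rw [eq_top_iff]
    intro x _
    have hx : τ.symm x ∈ O.comap (τ : F →+* F) := by rw [htop]; trivial
    rw [ValuationSubring.mem_comap] at hx
    simpa using hx
  · haveI := hO.2.1
    let g : ↥O →+* ↥(O.comap (τ : F →+* F)) :=
      { toFun := fun x => ⟨τ.symm x, by
          rw [ValuationSubring.mem_comap]
          simp⟩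
        map_one' := Subtype.ext (by simp)
        map_mul' := fun x y => Subtype.ext (by simp)
        map_zero' := Subtype.ext (by simp)
        map_add' := fun x y => Subtype.ext (by simp) }
    have hg : Function.Surjective g := by
      rintro ⟨y, hy⟩
      rw [ValuationSubring.mem_comap] at hy
      exact ⟨⟨τ y, hy⟩, Subtype.ext (by simp [g])⟩
    exact IsPrincipalIdealRing.of_surjective g hg
  · intro r
    rw [ValuationSubring.mem_comap]
    obtain ⟨r', hr'⟩ := hR r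
    show τ (algebraMap R F r) ∈ O
    rw [hr']
    exact hO.2.2.1 r'
  · rw [ValuationSubring.mem_comap]
    obtain ⟨r', hr'⟩ := hR π
    show τ ((algebraMap R F π)⁻¹) ∈ O
    rw [map_inv₀, hr']
    by_cases hπF : algebraMap R F π = 0
    · have hr'0 : algebraMap R F r' = 0 := by rw [← hr', hπF, map_zero]
      rw [hr'0, inv_zero]
      exact O.zero_mem
    have hr0 : r' ≠ 0 := by
      rintro rfl
      rw [map_zero] at hr'
      exact hπF ((map_eq_zero τ).mp hr')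
    exact lpt70_inv_mem hπ O hO r' hr0

/-- The restriction of `τ` to the chart `B`. -/
def lpt70_res (B : Subalgebra R F) (τ : F ≃+* F) (hτB : ∀ x ∈ B, τ x ∈ B) : ↥B →+* ↥B where
  toFun x := ⟨τ x, hτB x x.2⟩
  map_one' := Subtype.ext (by simp)
  map_mul' x y := Subtype.ext (by simp)
  map_zero' := Subtype.ext (by simp)
  map_add' x y := Subtype.ext (by simp)

@[simp]
theorem lpt70_res_coe (B : Subalgebra R F) (τ : F ≃+* F) (hτB : ∀ x ∈ B, τ x ∈ B) (x : ↥B) :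
    ((lpt70_res B τ hτB x : ↥B) : F) = τ (x : F) := rfl

/-- The ideal `τ⁻¹ n` of the chart. -/
def lpt70_comapIdeal (B : Subalgebra R F) (τ : F ≃+* F) (hτB : ∀ x ∈ B, τ x ∈ B)
    (n : Ideal ↥B) : Ideal ↥B :=
  Ideal.comap (lpt70_res B τ hτB) n

theorem lpt70_mem_comapIdeal (B : Subalgebra R F) (τ : F ≃+* F) (hτB : ∀ x ∈ B, τ x ∈ B)
    (n : Ideal ↥B) (x : ↥B) :
    x ∈ lpt70_comapIdeal B τ hτB n ↔ lpt70_res B τ hτB x ∈ n := Ideal.mem_comap

theorem lpt70_res_surjective (B : Subalgebra R F) (τ : F ≃+* F) (hτB : ∀ x ∈ B, τ x ∈ B)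
    (hτB' : ∀ x ∈ B, τ.symm x ∈ B) : Function.Surjective (lpt70_res B τ hτB) := by
  intro y
  exact ⟨⟨τ.symm y, hτB' y y.2⟩, Subtype.ext (by simp)⟩

theorem lpt70_comapIdeal_isMaximal {π : R} (B : Subalgebra R F) (τ : F ≃+* F)
    (hτ : lpt70_Aut π B τ) (n : Ideal ↥B) (hn : n.IsMaximal) :
    (lpt70_comapIdeal B τ hτ.2.2.1 n).IsMaximal :=
  Ideal.comap_isMaximal_of_surjective _ (lpt70_res_surjective B τ hτ.2.2.1 hτ.2.2.2)

theorem lpt70_pi_mem_comapIdeal {π : R} (B : Subalgebra R F) (τ : F ≃+* F)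
    (hτ : lpt70_Aut π B τ) (n : Ideal ↥B) (hπn : algebraMap R ↥B π ∈ n) :
    algebraMap R ↥B π ∈ lpt70_comapIdeal B τ hτ.2.2.1 n := by
  rw [lpt70_mem_comapIdeal]
  obtain ⟨r, hr⟩ := hτ.2.1
  have h1 : lpt70_res B τ hτ.2.2.1 (algebraMap R ↥B π) = algebraMap R ↥B π * algebraMap R ↥B r := by
    apply Subtype.ext
    rw [lpt70_res_coe]
    show τ (algebraMap R F π) = algebraMap R F π * algebraMap R F r
    rw [hr, map_mul]
  rw [h1]
  exact n.mul_mem_right _ hπn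

/-- **Transport of "through `n`".** -/
theorem lpt70_through (B : Subalgebra R F) (τ : F ≃+* F) (hτB : ∀ x ∈ B, τ x ∈ B)
    (n : Ideal ↥B) (O : ValuationSubring F) (hO : s34i47_Through B n O) :
    s34i47_Through B (lpt70_comapIdeal B τ hτB n) (O.comap (τ : F →+* F)) := by
  refine ⟨fun x hx => ?_, fun x hx => ?_⟩
  · rw [ValuationSubring.mem_comap]
    exact hO.1 _ (hτB x hx)
  · rw [ValuationSubring.mem_comap]
    have h1 : lpt70_res B τ hτB x ∉ n := fun h => hx ((lpt70_mem_comapIdeal B τ hτB n x).mpr h)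
    have h2 := hO.2 _ h1
    show τ ((x : F)⁻¹) ∈ O
    rw [map_inv₀]
    exact h2

/-- `c` is a local `m`-th root of `f` at the closed point `n`, up to units of the horizontal
valuation rings through `n`. -/
def lpt70_At (π : R) (m : ℕ) (B : Subalgebra R F) (f : F) (n : Ideal ↥B) (c : F) : Prop :=
  c ≠ 0 ∧ ∀ O : ValuationSubring F, s34i47_IsHoriz π O → s34i47_Through B n O →
    f / c ^ m ∈ O ∧ c ^ m / f ∈ O

/-- **Transport of a local root**: a local root of `f` at `τ⁻¹ n` gives a local root of `τ f`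
at `n`. -/
theorem lpt70_at_map {π : R} (hπ : Irreducible π) (m : ℕ) (B : Subalgebra R F) (τ : F ≃+* F)
    (hτ : lpt70_Aut π B τ) (f : F) (n : Ideal ↥B) (c : F)
    (h : lpt70_At π m B f (lpt70_comapIdeal B τ hτ.2.2.1 n) c) :
    lpt70_At π m B (τ f) n (τ c) := by
  refine ⟨(map_ne_zero τ).mpr h.1, fun O hO hOn => ?_⟩
  have h1 := h.2 _ (lpt70_horiz hπ B τ hτ O hO) (lpt70_through B τ hτ.2.2.1 n O hOn)
  rw [ValuationSubring.mem_comap, ValuationSubring.mem_comap] at h1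
  have e1 : τ f / τ c ^ m = τ (f / c ^ m) := by rw [map_div₀, map_pow]
  have e2 : τ c ^ m / τ f = τ (c ^ m / f) := by rw [map_div₀, map_pow]
  rw [e1, e2]
  exact h1

/-- (LP) in terms of local roots. -/
theorem lpt70_locPrin_iff (π : R) (m : ℕ) (B : Subalgebra R F) (f : F) :
    s34i47_LocPrin π m B f ↔
      ∀ n : Ideal ↥B, n.IsMaximal → algebraMap R ↥B π ∈ n → ∃ c : F, lpt70_At π m B f n c :=
  Iff.rfl

/-- **(LP) is stable under `τ`.** -/
theorem lpt70_locPrin_map {π : R} (hπ : Irreducible π) (m : ℕ) (B : Subalgebra R F)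
    (τ : F ≃+* F) (hτ : lpt70_Aut π B τ) (f : F) (h : s34i47_LocPrin π m B f) :
    s34i47_LocPrin π m B (τ f) := by
  intro n hn hπn
  obtain ⟨c, hc⟩ := h _ (lpt70_comapIdeal_isMaximal B τ hτ n hn)
    (lpt70_pi_mem_comapIdeal B τ hτ n hπn)
  exact ⟨τ c, lpt70_at_map hπ m B τ hτ f n c hc⟩

/-! ### Multiplicativity of local roots -/

theorem lpt70_at_mul (π : R) (m : ℕ) (B : Subalgebra R F) (f g : F) (n : Ideal ↥B) (c d : F)
    (hf : lpt70_At π m B f n c) (hg : lpt70_At π m B g n d) :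
    lpt70_At π m B (f * g) n (c * d) := by
  refine ⟨mul_ne_zero hf.1 hg.1, fun O hO hOn => ?_⟩
  obtain ⟨h1, h2⟩ := hf.2 O hO hOn
  obtain ⟨h3, h4⟩ := hg.2 O hO hOn
  have e1 : f * g / (c * d) ^ m = (f / c ^ m) * (g / d ^ m) := by
    rw [mul_pow, mul_div_mul_comm]
  have e2 : (c * d) ^ m / (f * g) = (c ^ m / f) * (d ^ m / g) := by
    rw [mul_pow, mul_div_mul_comm]
  rw [e1, e2]
  exact ⟨O.mul_mem _ _ h1 h3, O.mul_mem _ _ h2 h4⟩

theorem lpt70_at_inv (π : R) (m : ℕ) (B : Subalgebra R F) (f : F) (n : Ideal ↥B) (c : F)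
    (hf : lpt70_At π m B f n c) : lpt70_At π m B f⁻¹ n c⁻¹ := by
  refine ⟨inv_ne_zero hf.1, fun O hO hOn => ?_⟩
  obtain ⟨h1, h2⟩ := hf.2 O hO hOn
  have e1 : f⁻¹ / c⁻¹ ^ m = c ^ m / f := by
    rw [inv_pow, inv_div_inv]
  have e2 : c⁻¹ ^ m / f⁻¹ = f / c ^ m := by
    rw [inv_pow, inv_div_inv]
  rw [e1, e2]
  exact ⟨h2, h1⟩

theorem lpt70_at_div (π : R) (m : ℕ) (B : Subalgebra R F) (f g : F) (n : Ideal ↥B) (c d : F)
    (hf : lpt70_At π m B f n c) (hg : lpt70_At π m B g n d) :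
    lpt70_At π m B (f / g) n (c / d) := by
  rw [div_eq_mul_inv, div_eq_mul_inv]
  exact lpt70_at_mul π m B f g⁻¹ n c d⁻¹ hf (lpt70_at_inv π m B g n d hg)

theorem lpt70_at_pow (π : R) (m : ℕ) (B : Subalgebra R F) (f : F) (n : Ideal ↥B) (c : F)
    (hf : lpt70_At π m B f n c) (k : ℕ) : lpt70_At π m B (f ^ k) n (c ^ k) := by
  refine ⟨pow_ne_zero k hf.1, fun O hO hOn => ?_⟩
  obtain ⟨h1, h2⟩ := hf.2 O hO hOn
  have e1 : f ^ k / (c ^ k) ^ m = (f / c ^ m) ^ k := by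
    rw [div_pow, ← pow_mul, ← pow_mul, mul_comm]
  have e2 : (c ^ k) ^ m / f ^ k = (c ^ m / f) ^ k := by
    rw [div_pow, ← pow_mul, ← pow_mul, mul_comm]
  rw [e1, e2]
  exact ⟨pow_mem h1 k, pow_mem h2 k⟩

/-- Every `m`-th power has itself as local root. -/
theorem lpt70_at_powm (π : R) (m : ℕ) (B : Subalgebra R F) (g : F) (hg : g ≠ 0) (n : Ideal ↥B) :
    lpt70_At π m B (g ^ m) n g := by
  refine ⟨hg, fun O _ _ => ?_⟩
  rw [div_self (pow_ne_zero m hg)]
  exact ⟨O.one_mem, O.one_mem⟩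

/-! ### (LP) is multiplicative -/

theorem lpt70_locPrin_mul (π : R) (m : ℕ) (B : Subalgebra R F) (f g : F)
    (hf : s34i47_LocPrin π m B f) (hg : s34i47_LocPrin π m B g) :
    s34i47_LocPrin π m B (f * g) := by
  intro n hn hπn
  obtain ⟨c, hc⟩ := hf n hn hπn
  obtain ⟨d, hd⟩ := hg n hn hπn
  exact ⟨c * d, lpt70_at_mul π m B f g n c d hc hd⟩

theorem lpt70_locPrin_inv (π : R) (m : ℕ) (B : Subalgebra R F) (f : F)
    (hf : s34i47_LocPrin π m B f) : s34i47_LocPrin π m B f⁻¹ := by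
  intro n hn hπn
  obtain ⟨c, hc⟩ := hf n hn hπn
  exact ⟨c⁻¹, lpt70_at_inv π m B f n c hc⟩

theorem lpt70_locPrin_div (π : R) (m : ℕ) (B : Subalgebra R F) (f g : F)
    (hf : s34i47_LocPrin π m B f) (hg : s34i47_LocPrin π m B g) :
    s34i47_LocPrin π m B (f / g) := by
  intro n hn hπn
  obtain ⟨c, hc⟩ := hf n hn hπn
  obtain ⟨d, hd⟩ := hg n hn hπn
  exact ⟨c / d, lpt70_at_div π m B f g n c d hc hd⟩

theorem lpt70_locPrin_pow (π : R) (m : ℕ) (B : Subalgebra R F) (f : F)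
    (hf : s34i47_LocPrin π m B f) (k : ℕ) : s34i47_LocPrin π m B (f ^ k) := by
  intro n hn hπn
  obtain ⟨c, hc⟩ := hf n hn hπn
  exact ⟨c ^ k, lpt70_at_pow π m B f n c hc k⟩

theorem lpt70_locPrin_powm (π : R) (m : ℕ) (B : Subalgebra R F) (g : F) (hg : g ≠ 0) :
    s34i47_LocPrin π m B (g ^ m) :=
  fun n _ _ => ⟨g, lpt70_at_powm π m B g hg n⟩

/-! ### The Kummer operator of `(τ - Q)(1 - τ)²` -/

/-- **(LP) for the Kummer operator**: `τ³ f · (τ f)^(2Q+1) / ((τ² f)^(Q+2) · f^Q)`. -/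
theorem lpt70_locPrin_op {π : R} (hπ : Irreducible π) (m : ℕ) (B : Subalgebra R F)
    (τ : F ≃+* F) (hτ : lpt70_Aut π B τ) (Q : ℕ) (f : F) (h : s34i47_LocPrin π m B f) :
    s34i47_LocPrin π m B
      (τ (τ (τ f)) * τ f ^ (2 * Q + 1) / (τ (τ f) ^ (Q + 2) * f ^ Q)) := by
  have h1 := lpt70_locPrin_map hπ m B τ hτ f h
  have h2 := lpt70_locPrin_map hπ m B τ hτ _ h1
  have h3 := lpt70_locPrin_map hπ m B τ hτ _ h2
  exact lpt70_locPrin_div π m B _ _
    (lpt70_locPrin_mul π m B _ _ h3 (lpt70_locPrin_pow π m B _ h1 _))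
    (lpt70_locPrin_mul π m B _ _ (lpt70_locPrin_pow π m B _ h2 _) (lpt70_locPrin_pow π m B _ h _))

/-- The function `f₃ = f · τ² f / (τ f)² / G ^ m`. -/
def lpt70_f3 (τ : F ≃+* F) (m : ℕ) (G f : F) : F :=
  f * τ (τ f) / τ f ^ 2 / G ^ m

/-- (LP) for `f₃`. -/
theorem lpt70_locPrin_f3 {π : R} (hπ : Irreducible π) (m : ℕ) (B : Subalgebra R F)
    (τ : F ≃+* F) (hτ : lpt70_Aut π B τ) (G : F) (hG : G ≠ 0) (f : F)
    (h : s34i47_LocPrin π m B f) : s34i47_LocPrin π m B (lpt70_f3 τ m G f) := by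
  have h1 := lpt70_locPrin_map hπ m B τ hτ f h
  have h2 := lpt70_locPrin_map hπ m B τ hτ _ h1
  exact lpt70_locPrin_div π m B _ _
    (lpt70_locPrin_div π m B _ _ (lpt70_locPrin_mul π m B _ _ h h2)
      (lpt70_locPrin_pow π m B _ h1 2))
    (lpt70_locPrin_powm π m B G hG)

/-- **(LP) for `u = τ f₃ / f₃ ^ Q`**, `f₃ = f · τ² f / (τ f)² / G ^ m`, from (LP) for `f`.
No hypothesis on the zeros and poles of `G`. -/
theorem lpt70_locPrin_u {π : R} (hπ : Irreducible π) (m : ℕ) (B : Subalgebra R F)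
    (τ : F ≃+* F) (hτ : lpt70_Aut π B τ) (Q : ℕ) (G : F) (hG : G ≠ 0) (f : F)
    (h : s34i47_LocPrin π m B f) :
    s34i47_LocPrin π m B (τ (lpt70_f3 τ m G f) / lpt70_f3 τ m G f ^ Q) := by
  have h3 := lpt70_locPrin_f3 hπ m B τ hτ G hG f h
  exact lpt70_locPrin_div π m B _ _ (lpt70_locPrin_map hπ m B τ hτ _ h3)
    (lpt70_locPrin_pow π m B _ h3 Q)

/-- **Explicit local root of `f₃` at a `τ`-fixed closed point** (a node): if `τ⁻¹ n = n` and `c`
is a local root of `f` at `n`, then `c · τ² c / (τ c)² / G` is a local root of `f₃` at `n`. -/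
theorem lpt70_at_fixed {π : R} (hπ : Irreducible π) (m : ℕ) (B : Subalgebra R F)
    (τ : F ≃+* F) (hτ : lpt70_Aut π B τ) (G : F) (hG : G ≠ 0) (f : F) (n : Ideal ↥B)
    (hfix : lpt70_comapIdeal B τ hτ.2.2.1 n = n) (c : F) (hc : lpt70_At π m B f n c) :
    lpt70_At π m B (lpt70_f3 τ m G f) n (c * τ (τ c) / τ c ^ 2 / G) := by
  have hc' : lpt70_At π m B f (lpt70_comapIdeal B τ hτ.2.2.1 n) c := by rw [hfix]; exact hc
  have h1 := lpt70_at_map hπ m B τ hτ f n c hc'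
  have h1' : lpt70_At π m B (τ f) (lpt70_comapIdeal B τ hτ.2.2.1 n) (τ c) := by
    rw [hfix]; exact h1
  have h2 := lpt70_at_map hπ m B τ hτ _ n _ h1'
  exact lpt70_at_div π m B _ _ n _ _
    (lpt70_at_div π m B _ _ n _ _ (lpt70_at_mul π m B _ _ n _ _ hc h2)
      (lpt70_at_pow π m B _ n _ h1 2))
    (lpt70_at_powm π m B G hG n)

/-- The explicit local root of `u = τ f₃ / f₃ ^ Q` at a `τ`-fixed closed point: `τ c₃ / c₃ ^ Q`
for `c₃ = c · τ² c / (τ c)² / G`. -/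
theorem lpt70_at_fixed_u {π : R} (hπ : Irreducible π) (m : ℕ) (B : Subalgebra R F)
    (τ : F ≃+* F) (hτ : lpt70_Aut π B τ) (Q : ℕ) (G : F) (hG : G ≠ 0) (f : F) (n : Ideal ↥B)
    (hfix : lpt70_comapIdeal B τ hτ.2.2.1 n = n) (c : F) (hc : lpt70_At π m B f n c) :
    lpt70_At π m B (τ (lpt70_f3 τ m G f) / lpt70_f3 τ m G f ^ Q) n
      (τ (c * τ (τ c) / τ c ^ 2 / G) / (c * τ (τ c) / τ c ^ 2 / G) ^ Q) := by
  have h3 := lpt70_at_fixed hπ m B τ hτ G hG f n hfix c hc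
  have h3' : lpt70_At π m B (lpt70_f3 τ m G f) (lpt70_comapIdeal B τ hτ.2.2.1 n)
      (c * τ (τ c) / τ c ^ 2 / G) := by rw [hfix]; exact h3
  exact lpt70_at_div π m B _ _ n _ _ (lpt70_at_map hπ m B τ hτ _ n _ h3')
    (lpt70_at_pow π m B _ n _ h3 Q)

/-! ### Closure properties of `lpt70_Aut` -/

/-- `lpt70_Aut` is stable under composition (`(τ₁.trans τ₂) x = τ₂ (τ₁ x)`). -/
theorem lpt70_aut_trans (π : R) (B : Subalgebra R F) (τ₁ τ₂ : F ≃+* F)
    (h₁ : lpt70_Aut π B τ₁) (h₂ : lpt70_Aut π B τ₂) : lpt70_Aut π B (τ₁.trans τ₂) := by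
  obtain ⟨hR₁, ⟨r₁, hr₁⟩, hB₁, hB₁'⟩ := h₁
  obtain ⟨hR₂, ⟨r₂, hr₂⟩, hB₂, hB₂'⟩ := h₂
  refine ⟨fun r => ?_, ?_, fun x hx => ?_, fun x hx => ?_⟩
  · obtain ⟨r', hr'⟩ := hR₁ r
    obtain ⟨r'', hr''⟩ := hR₂ r'
    exact ⟨r'', by rw [RingEquiv.trans_apply, hr', hr'']⟩
  · obtain ⟨r', hr'⟩ := hR₂ r₁
    refine ⟨r₂ * r', ?_⟩
    rw [RingEquiv.trans_apply, hr₁, map_mul, map_mul, hr₂, hr', ← map_mul, mul_assoc]
  · rw [RingEquiv.trans_apply]
    exact hB₂ _ (hB₁ x hx)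
  · rw [RingEquiv.symm_trans_apply]
    exact hB₁' _ (hB₂' x hx)

/-- `lpt70_Aut` for `τ²`. -/
theorem lpt70_aut_sq (π : R) (B : Subalgebra R F) (τ : F ≃+* F) (h : lpt70_Aut π B τ) :
    lpt70_Aut π B (τ.trans τ) :=
  lpt70_aut_trans π B τ τ h h

/-- A finite-order automorphism mapping `B` into `B` maps `B` onto `B`. -/
theorem lpt70_symm_mem_of_pow (B : Subalgebra R F) (τ : F ≃+* F) (hτB : ∀ x ∈ B, τ x ∈ B)
    (k : ℕ) (hk0 : 0 < k) (hk : τ ^ k = 1) (x : F) (hx : x ∈ B) : τ.symm x ∈ B := by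
  have hpow : ∀ j : ℕ, ∀ y ∈ B, (τ ^ j) y ∈ B := by
    intro j
    induction j with
    | zero => intro y hy; simpa using hy
    | succ j ih =>
      intro y hy
      have e : (τ ^ (j + 1)) y = (τ ^ j) (τ y) := by rw [pow_succ]; rfl
      rw [e]
      exact ih _ (hτB y hy)
  obtain ⟨j, rfl⟩ : ∃ j, k = j + 1 := ⟨k - 1, by omega⟩
  have h1 : τ.symm x = (τ ^ j) x := by
    apply τ.injective
    rw [RingEquiv.apply_symm_apply]
    have h2 : τ ((τ ^ j) x) = (τ ^ (j + 1)) x := by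
      rw [pow_succ']; rfl
    rw [h2, hk]
    rfl
  rw [h1]
  exact hpow j x hx

/-- `lpt70_Aut` from: `τ R ⊆ R`, `τ π ∈ π R`, `τ B ⊆ B` and finite order. -/
theorem lpt70_aut_of_finOrder (π : R) (B : Subalgebra R F) (τ : F ≃+* F)
    (hR : ∀ r : R, ∃ r' : R, τ (algebraMap R F r) = algebraMap R F r')
    (hπ' : ∃ r : R, τ (algebraMap R F π) = algebraMap R F (π * r))
    (hτB : ∀ x ∈ B, τ x ∈ B) (k : ℕ) (hk0 : 0 < k) (hk : τ ^ k = 1) : lpt70_Aut π B τ :=
  ⟨hR, hπ', hτB, fun x hx => lpt70_symm_mem_of_pow B τ hτB k hk0 hk x hx⟩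

end lpt70

end Fermat.Agent.S35
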