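import Mathlib
import Fermat.Agent.S34.Iface47b

/-!
# S35 lab, row L1f (helper39): the toric lemma, abstract form

Step (1f) of the S35 proof text, in the variant `u := τ f / f ^ Q` (`τ = ŝ²`, `Q = q²`), which
needs no action of the Atkin–Lehner involution on divisor classes.

* `tl39_cong` : congruence transport.  If `ψ ≡ Λ`, `ψ₁ ≡ Λ₁` modulo `π V` (`Λ` a unit constant
  of `R`) and `τ Λ₁ ≡ Λ ^ Q` modulo `π V`, then `ψ ^ Q / τ ψ₁ ≡ 1` modulo `π V`.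
* `tl39_cong_inf` : the same for an intersection `V₁ ⊓ V₂` (two different pairs of constants).
* `tl39_Shape` : the local shape datum at a prime `n` of a chart `B`:
  `f = ε ψ ^ m` with `ε⁻¹` regular at `n`, `f = ε₁ ψ₁ ^ m` with `τ ε₁` regular at `n`
  (the shape of `f` at `τ⁻¹ n`, transported), and `ψ ^ Q / τ ψ₁ ≡ 1` modulo `π W`.
* `tl39_localDatum_at` : a shape at `n` gives the clause of `s34i47_LocalDatum` at `n` for
  `u := τ f / f ^ Q` (`φ := ψ ^ Q / τ ψ₁`, `φ ^ m u = τ ε₁ · (ε⁻¹) ^ Q`).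
* `tl39_shape_of_fixed` : at a `τ`-stable prime a single shape `f = ε ψ ^ m`, `ε` a unit at `n`,
  with `ψ ^ Q / τ ψ ≡ 1` suffices.
* `tl39_localDatum` : `s34i47_LocalDatum` for `u` on a chart from a direct clause or a shape at
  every closed point of the special fibre.
* `tl39_main` : with `s34i47b_main` (the nodal two-chart lemma): `f₀ ^ m * (τ f / f ^ Q) = c`.
-/

set_option autoImplicit false

namespace Fermat.Agent.S35

open Fermat.Agent.S34 Fermat.Agent.S18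

section Cong

variable {R F : Type*} [CommRing R] [Field F] [Algebra R F]

/-- **Congruence transport** for one ring `V`: if `ψ ≡ Λ` and `ψ₁ ≡ Λ₁` modulo `π V` with
constants `Λ = c` (a unit of `R`), `Λ₁ = c₁`, and `τ Λ₁ ≡ Λ ^ Q` modulo `π V`, then
`ψ ^ Q / τ ψ₁ ≡ 1` modulo `π V`. -/
theorem tl39_cong (π : R) (hπ0 : algebraMap R F π ≠ 0) (V : Subring F)
    (hRV : ∀ r : R, algebraMap R F r ∈ V)
    (hinv : ∀ x ∈ V, (1 + algebraMap R F π * x)⁻¹ ∈ V)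
    (τ : F ≃+* F) (hτV : ∀ x ∈ V, τ x ∈ V)
    (hτπ : (algebraMap R F π)⁻¹ * τ (algebraMap R F π) ∈ V)
    (Q : ℕ) (c c₁ : R) (hc : IsUnit c)
    (hΛ : (algebraMap R F π)⁻¹ * (τ (algebraMap R F c₁) - algebraMap R F c ^ Q) ∈ V)
    (ψ ψ₁ : F) (hψ : (algebraMap R F π)⁻¹ * (ψ - algebraMap R F c) ∈ V)
    (hψ₁ : (algebraMap R F π)⁻¹ * (ψ₁ - algebraMap R F c₁) ∈ V) :
    (algebraMap R F π)⁻¹ * (ψ ^ Q / τ ψ₁ - 1) ∈ V := by
  set p : F := algebraMap R F π with hp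
  set L : F := algebraMap R F c with hL
  set L₁ : F := algebraMap R F c₁ with hL₁
  obtain ⟨d, hd⟩ := hc.exists_right_inv
  have hLd : L * algebraMap R F d = 1 := by rw [hL, ← map_mul, hd, map_one]
  have hL0 : L ≠ 0 := left_ne_zero_of_mul_eq_one hLd
  have hLinv : L⁻¹ ∈ V := by
    rw [← eq_inv_of_mul_eq_one_right hLd]; exact hRV d
  have hLV : L ∈ V := hRV c
  -- `ψ = L + p a`, `ψ₁ = L₁ + p a₁`
  set a : F := p⁻¹ * (ψ - L) with ha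
  set a₁ : F := p⁻¹ * (ψ₁ - L₁) with ha₁
  have hψe : ψ = L + p * a := by rw [ha]; field_simp; ring
  have hψ₁e : ψ₁ = L₁ + p * a₁ := by rw [ha₁]; field_simp; ring
  have hψV : ψ ∈ V := by
    rw [hψe]; exact V.add_mem hLV (V.mul_mem (hRV π) hψ)
  -- `ψ ^ Q = L ^ Q + p a'`
  obtain ⟨a', ha'V, ha'⟩ : ∃ a' ∈ V, ψ ^ Q = L ^ Q + p * a' := by
    have hgeom := (Commute.all ψ L).mul_geom_sum₂ Q
    refine ⟨a * ∑ i ∈ Finset.range Q, ψ ^ i * L ^ (Q - 1 - i), ?_, ?_⟩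
    · exact V.mul_mem hψ (V.sum_mem fun i _ => V.mul_mem (V.pow_mem hψV _) (V.pow_mem hLV _))
    · have h1 : ψ - L = p * a := by rw [hψe]; ring
      rw [h1] at hgeom
      rw [← mul_assoc, hgeom]; ring
  -- `τ ψ₁ = L ^ Q + p b`
  set b : F := p⁻¹ * (τ L₁ - L ^ Q) + p⁻¹ * τ p * τ a₁ with hb
  have hbV : b ∈ V := V.add_mem hΛ (V.mul_mem hτπ (hτV _ hψ₁))
  have hτψ₁ : τ ψ₁ = L ^ Q + p * b := by
    rw [hψ₁e, map_add, map_mul, hb]; field_simp; ring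
  have hLQ0 : L ^ Q ≠ 0 := pow_ne_zero _ hL0
  set x : F := L⁻¹ ^ Q * b with hx
  have hxV : x ∈ V := V.mul_mem (V.pow_mem hLinv _) hbV
  have hden : τ ψ₁ = L ^ Q * (1 + p * x) := by
    rw [hτψ₁, hx, inv_pow]; field_simp
  have hdenV : (τ ψ₁)⁻¹ ∈ V := by
    rw [hden, mul_inv]
    refine V.mul_mem ?_ (hinv _ hxV)
    rw [← inv_pow]; exact V.pow_mem hLinv _
  by_cases h0 : τ ψ₁ = 0
  · -- degenerate case: then `p⁻¹ = -x ∈ V`
    have h2 : 1 + p * x = 0 := by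
      have h1 : L ^ Q * (1 + p * x) = 0 := by rw [← hden, h0]
      rcases mul_eq_zero.mp h1 with h | h
      · exact absurd h hLQ0
      · exact h
    have h3 : p⁻¹ = -x := by
      field_simp
      linear_combination h2
    rw [h0, div_zero, zero_sub, mul_neg, mul_one, h3, neg_neg]
    exact hxV
  · have key : ψ ^ Q / τ ψ₁ - 1 = p * ((a' - b) * (τ ψ₁)⁻¹) := by
      have h1 : ψ ^ Q - τ ψ₁ = p * (a' - b) := by rw [ha', hτψ₁]; ring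
      field_simp
      linear_combination h1
    rw [key, ← mul_assoc, inv_mul_cancel₀ hπ0, one_mul]
    exact V.mul_mem (V.sub_mem ha'V hbV) hdenV

/-- Congruence transport for an intersection of two rings, with a pair of constants for each. -/
theorem tl39_cong_inf (π : R) (hπ0 : algebraMap R F π ≠ 0) (V₁ V₂ : Subring F)
    (hRV₁ : ∀ r : R, algebraMap R F r ∈ V₁) (hRV₂ : ∀ r : R, algebraMap R F r ∈ V₂)
    (hinv₁ : ∀ x ∈ V₁, (1 + algebraMap R F π * x)⁻¹ ∈ V₁)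
    (hinv₂ : ∀ x ∈ V₂, (1 + algebraMap R F π * x)⁻¹ ∈ V₂)
    (τ : F ≃+* F) (hτV₁ : ∀ x ∈ V₁, τ x ∈ V₁) (hτV₂ : ∀ x ∈ V₂, τ x ∈ V₂)
    (hτπ₁ : (algebraMap R F π)⁻¹ * τ (algebraMap R F π) ∈ V₁)
    (hτπ₂ : (algebraMap R F π)⁻¹ * τ (algebraMap R F π) ∈ V₂)
    (Q : ℕ) (c c₁ d d₁ : R) (hc : IsUnit c) (hd : IsUnit d)
    (hΛ₁ : (algebraMap R F π)⁻¹ * (τ (algebraMap R F c₁) - algebraMap R F c ^ Q) ∈ V₁)
    (hΛ₂ : (algebraMap R F π)⁻¹ * (τ (algebraMap R F d₁) - algebraMap R F d ^ Q) ∈ V₂)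
    (ψ ψ₁ : F)
    (hψ : (algebraMap R F π)⁻¹ * (ψ - algebraMap R F c) ∈ V₁)
    (hψ' : (algebraMap R F π)⁻¹ * (ψ - algebraMap R F d) ∈ V₂)
    (hψ₁ : (algebraMap R F π)⁻¹ * (ψ₁ - algebraMap R F c₁) ∈ V₁)
    (hψ₁' : (algebraMap R F π)⁻¹ * (ψ₁ - algebraMap R F d₁) ∈ V₂) :
    (algebraMap R F π)⁻¹ * (ψ ^ Q / τ ψ₁ - 1) ∈ V₁ ⊓ V₂ :=
  Subring.mem_inf.mpr
    ⟨tl39_cong π hπ0 V₁ hRV₁ hinv₁ τ hτV₁ hτπ₁ Q c c₁ hc hΛ₁ ψ ψ₁ hψ hψ₁,
      tl39_cong π hπ0 V₂ hRV₂ hinv₂ τ hτV₂ hτπ₂ Q d d₁ hd hΛ₂ ψ ψ₁ hψ' hψ₁'⟩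

end Cong

section Local

variable {R F : Type*} [CommRing R] [Field F] [Algebra R F]

/-- **Local shape datum** of `f` at the prime `n` of the chart `B`, relative to `τ` and `Q`:
`f = ε ψ ^ m` with `ε⁻¹` regular at `n`; `f = ε₁ ψ₁ ^ m` with `τ ε₁` regular at `n` (this is the
shape of `f` at `τ⁻¹ n`, transported by `τ`); and `ψ ^ Q / τ ψ₁ ≡ 1` modulo `π W`. -/
def tl39_Shape (π : R) (m Q : ℕ) (W : Subring F) (B : Subalgebra R F) (τ : F ≃+* F) (f : F)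
    (n : Ideal B) : Prop :=
  ∃ ε ψ ε₁ ψ₁ : F, f = ε * ψ ^ m ∧ f = ε₁ * ψ₁ ^ m ∧
    (∃ s : B, s ∉ n ∧ (s : F) * ε⁻¹ ∈ B) ∧ (∃ s : B, s ∉ n ∧ (s : F) * τ ε₁ ∈ B) ∧
    (algebraMap R F π)⁻¹ * (ψ ^ Q / τ ψ₁ - 1) ∈ W

/-- A shape at `n` gives the clause of `s34i47_LocalDatum` at `n` for `u := τ f / f ^ Q`. -/
theorem tl39_localDatum_at (π : R) (m Q : ℕ) (hm : 0 < m) (W : Subring F) (B : Subalgebra R F)
    (τ : F ≃+* F) (f : F) (hf : f ≠ 0) (n : Ideal B) [hn : n.IsPrime]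
    (h : tl39_Shape π m Q W B τ f n) :
    ∃ φ : F, (algebraMap R F π)⁻¹ * (φ - 1) ∈ W ∧
      ∃ s : B, s ∉ n ∧ (s : F) * (φ ^ m * (τ f / f ^ Q)) ∈ B := by
  obtain ⟨ε, ψ, ε₁, ψ₁, h1, h2, ⟨s, hs, hsε⟩, ⟨s₁, hs₁, hs₁ε⟩, hψ⟩ := h
  have hε0 : ε ≠ 0 := fun h0 => hf (by rw [h1, h0, zero_mul])
  have hψ0 : ψ ≠ 0 := fun h0 => hf (by rw [h1, h0, zero_pow hm.ne', mul_zero])
  have hε₁0 : ε₁ ≠ 0 := fun h0 => hf (by rw [h2, h0, zero_mul])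
  have hψ₁0 : ψ₁ ≠ 0 := fun h0 => hf (by rw [h2, h0, zero_pow hm.ne', mul_zero])
  have hτψ₁0 : τ ψ₁ ≠ 0 := (map_ne_zero_iff τ τ.injective).mpr hψ₁0
  have hτε₁0 : τ ε₁ ≠ 0 := (map_ne_zero_iff τ τ.injective).mpr hε₁0
  refine ⟨ψ ^ Q / τ ψ₁, hψ, s₁ * s ^ Q, ?_, ?_⟩
  · exact fun hmem => (hn.mem_or_mem hmem).elim hs₁ (fun h' => hs (hn.mem_of_pow_mem Q h'))
  · have key : ((s₁ * s ^ Q : B) : F) * ((ψ ^ Q / τ ψ₁) ^ m * (τ f / f ^ Q)) =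
        ((s₁ : F) * τ ε₁) * ((s : F) * ε⁻¹) ^ Q := by
      have e1 : τ f = τ ε₁ * τ ψ₁ ^ m := by rw [h2, map_mul, map_pow]
      have e2 : f ^ Q = ε ^ Q * (ψ ^ Q) ^ m := by rw [h1, mul_pow, ← pow_mul, ← pow_mul, mul_comm m Q]
      rw [e1, e2]
      have e3 : (ψ ^ Q / τ ψ₁) ^ m * (τ ε₁ * τ ψ₁ ^ m / (ε ^ Q * (ψ ^ Q) ^ m)) =
          τ ε₁ * ε⁻¹ ^ Q := by
        rw [div_pow, inv_pow]
        field_simp
      rw [e3, mul_pow]
      push_cast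
      ring
    rw [key]
    exact B.mul_mem hs₁ε (B.pow_mem hsε Q)

/-- At a `τ`-stable prime (`τ B ⊆ B`, `τ` maps the complement of `n` into itself) one shape
`f = ε ψ ^ m` with `ε` a unit at `n` and `ψ ^ Q / τ ψ ≡ 1` modulo `π W` is a shape datum. -/
theorem tl39_shape_of_fixed (π : R) (m Q : ℕ) (W : Subring F) (B : Subalgebra R F)
    (τ : F ≃+* F) (hτB : ∀ x ∈ B, τ x ∈ B) (f : F) (n : Ideal B)
    (hτn : ∀ s : B, s ∉ n → (⟨τ (s : F), hτB _ s.2⟩ : B) ∉ n)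
    (ε ψ : F) (h1 : f = ε * ψ ^ m)
    (hε : ∃ s : B, s ∉ n ∧ (s : F) * ε ∈ B) (hε' : ∃ s : B, s ∉ n ∧ (s : F) * ε⁻¹ ∈ B)
    (hψ : (algebraMap R F π)⁻¹ * (ψ ^ Q / τ ψ - 1) ∈ W) :
    tl39_Shape π m Q W B τ f n := by
  obtain ⟨s, hs, hsε⟩ := hε
  refine ⟨ε, ψ, ε, ψ, h1, h1, hε', ⟨⟨τ (s : F), hτB _ s.2⟩, hτn s hs, ?_⟩, hψ⟩
  show τ (s : F) * τ ε ∈ B
  rw [← map_mul]
  exact hτB _ hsε

/-- **Local datum for `u := τ f / f ^ Q` on a chart**: at every closed point of the special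
fibre either a clause is given directly (smooth points) or a shape datum is given (nodes). -/
theorem tl39_localDatum (π : R) (m Q : ℕ) (hm : 0 < m) (W : Subring F) (B : Subalgebra R F)
    (τ : F ≃+* F) (f : F) (hf : f ≠ 0)
    (h : ∀ n : Ideal B, n.IsMaximal → algebraMap R B π ∈ n →
      (∃ φ : F, (algebraMap R F π)⁻¹ * (φ - 1) ∈ W ∧
        ∃ s : B, s ∉ n ∧ (s : F) * (φ ^ m * (τ f / f ^ Q)) ∈ B) ∨
      tl39_Shape π m Q W B τ f n) :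
    s34i47_LocalDatum π m W B (τ f / f ^ Q) := by
  intro n hn hπn
  rcases h n hn hπn with h1 | h2
  · exact h1
  · have := hn.isPrime
    exact tl39_localDatum_at π m Q hm W B τ f hf n h2

end Local

/-- **Toric lemma, abstract form.**  In the setting of the nodal two-chart lemma
(`s34i47_Pkg_Main`): if `u := τ f / f ^ Q` is `≡ 1` modulo `π W` and at every closed point of the
special fibre of both charts a local datum for `u` or a shape datum for `f` is given, then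
`f₀ ^ m * (τ f / f ^ Q)` is a constant for some `f₀ ≠ 0`. -/
theorem tl39_main {R K F : Type} [CommRing R] [IsDomain R] [IsDiscreteValuationRing R] [Field K]
    [Field F] [Algebra R K] [IsFractionRing R K] [Algebra R F] [Algebra K F] [IsScalarTower R K F]
    (π : R) (hπ : Irreducible π) (m : ℕ) (hm0 : 0 < m) (hm : IsUnit (m : R))
    (hK : ∀ y : F, IsAlgebraic K y → ∃ c : K, y = algebraMap K F c)
    (W : Subring F) (h : F) (hW : s34i47_WProps π W) (hC : s34i47_ChartProps K π W h)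
    (τ : F ≃+* F) (Q : ℕ) (f : F) (hf : f ≠ 0)
    (hu : (algebraMap R F π)⁻¹ * (τ f / f ^ Q - 1) ∈ W)
    (h₁ : ∀ n : Ideal (pk15_chart R ({h} : Set F)), n.IsMaximal → algebraMap R _ π ∈ n →
      (∃ φ : F, (algebraMap R F π)⁻¹ * (φ - 1) ∈ W ∧
        ∃ s : pk15_chart R ({h} : Set F), s ∉ n ∧ (s : F) * (φ ^ m * (τ f / f ^ Q)) ∈
          pk15_chart R ({h} : Set F)) ∨
      tl39_Shape π m Q W (pk15_chart R ({h} : Set F)) τ f n)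
    (h₂ : ∀ n : Ideal (pk15_chart R ({h⁻¹} : Set F)), n.IsMaximal → algebraMap R _ π ∈ n →
      (∃ φ : F, (algebraMap R F π)⁻¹ * (φ - 1) ∈ W ∧
        ∃ s : pk15_chart R ({h⁻¹} : Set F), s ∉ n ∧ (s : F) * (φ ^ m * (τ f / f ^ Q)) ∈
          pk15_chart R ({h⁻¹} : Set F)) ∨
      tl39_Shape π m Q W (pk15_chart R ({h⁻¹} : Set F)) τ f n) :
    ∃ (f₀ : F) (c : R), f₀ ≠ 0 ∧ f₀ ^ m * (τ f / f ^ Q) = algebraMap R F c :=
  s34i47b_main R K F π hπ m hm0 hm hK W h hW hC (τ f / f ^ Q) hu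
    (tl39_localDatum π m Q hm0 W _ τ f hf h₁) (tl39_localDatum π m Q hm0 W _ τ f hf h₂)

end Fermat.Agent.S35
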