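import Mathlib
import Fermat.Agent.S35.Iface62
import Fermat.Agent.S35.ToricLemma39
import Fermat.Agent.S35.FrobFrame50
import Fermat.Agent.S35.NodeFrob96
import Fermat.Agent.S35.LPTransport3
import Fermat.Agent.S35.LocPrinTau70
import Fermat.Agent.S35.SmoothDatumInst89
import Fermat.Agent.S34.CoreAsm57
import Fermat.Agent.S34.UniqueZero37
import Fermat.Agent.S34.LocPrin9
import Fermat.Agent.S34.FinSupp29
import Fermat.Agent.S34.PkgMain85
import Fermat.Agent.S34.FrameLSAsm71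
import Fermat.Agent.S34.FrameSat85

/-!
# S35 lab, row 568 (PKG-Core-A, helper39): the assembly of chain A on the canonical frame

`τ = ŝ²` (`pc39_tau σ M`), `ŝ = s34i47_coeffEquiv σ M` the coefficientwise action of a Frobenius
lift, `Q = q²`, `f₃ = lpt3_f3 τ m f G`, `u = lpt3_u τ m Q f G = τ f₃ / f₃ ^ Q` (helper3).

* `pc39_op_eq` : `s35i62_op q ŝ f = u * (τ G / G ^ Q) ^ m`  (pure algebra).
* `pc39_tau_*` : `τ` on `R`, `V_∞`, `V_0`, the charts (both directions), `τ π ∈ π R`,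
  `τ c ≡ c ^ Q mod π` for `c ∈ R`.
* `pc39_u_cong` : constant reductions of `f₃` on both branches give `u ≡ 1 mod π W`.
* `pc39_ToricCong` : the claim of (1c) in congruence form (row 572).
* `pc39_NodeDatum` : the claim of (1d)-node + (1e) + (1f) at the nodes (rows 547/549).
* `pc39_core_of : pc39_ToricCong → pc39_NodeDatum → s35i62_Pkg_Core`.
-/

set_option autoImplicit false
set_option linter.style.longLine false
set_option linter.unusedVariables false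
set_option linter.unusedSectionVars false

open ModularCurve AlgebraicCurve

namespace Fermat.Agent.S35

open Fermat.Agent.S18 Fermat.Agent.S34

local notation "Q̄" => AlgebraicClosure ℚ

/-! ## 0. Algebra -/

section pc39_alg

variable {F : Type*} [Field F]

/-- `z ≡ 1 mod p V` implies `z⁻¹ ≡ 1 mod p V`. -/
theorem pc39_inv_cong (V : Subring F) (p : F) (hinv : ∀ x ∈ V, (1 + p * x)⁻¹ ∈ V) (z : F)
    (hz : p⁻¹ * (z - 1) ∈ V) : p⁻¹ * (z⁻¹ - 1) ∈ V := by
  by_cases hp : p = 0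
  · rw [hp, inv_zero, zero_mul]
    exact V.zero_mem
  by_cases hz0 : z = 0
  · rw [hz0, inv_zero]
    rw [hz0] at hz
    exact hz
  have h1 := hinv _ hz
  have e1 : 1 + p * (p⁻¹ * (z - 1)) = z := by
    field_simp
    ring
  rw [e1] at h1
  have e2 : p⁻¹ * (z⁻¹ - 1) = -(p⁻¹ * (z - 1)) * z⁻¹ := by
    field_simp
    ring
  rw [e2]
  exact V.mul_mem (V.neg_mem hz) h1

/-- The Kummer operator of `(s² − q²)(1 − s²)²` in terms of `u = τ f₃ / f₃ ^ Q`. -/
theorem pc39_op_eq (q m : ℕ) (s : F ≃+* F) (f G : F) (hf : f ≠ 0) (hG : G ≠ 0) :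
    s35i62_op q s f =
      lpt3_u (s.trans s) m (q ^ 2) f G * ((s.trans s) G / G ^ (q ^ 2)) ^ m := by
  have h1 : s (s f) ≠ 0 := (map_ne_zero s).mpr ((map_ne_zero s).mpr hf)
  have h2 : s (s (s (s f))) ≠ 0 := (map_ne_zero s).mpr ((map_ne_zero s).mpr h1)
  have h3 : s (s (s (s (s (s f))))) ≠ 0 := (map_ne_zero s).mpr ((map_ne_zero s).mpr h2)
  have hG1 : s (s G) ≠ 0 := (map_ne_zero s).mpr ((map_ne_zero s).mpr hG)
  unfold s35i62_op lpt3_u lpt3_f3
  simp only [RingEquiv.trans_apply, map_div₀, map_pow]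
  generalize s (s f) = B at *
  generalize s (s B) = C at *
  generalize s (s C) = D at *
  generalize s (s G) = H at *
  generalize q ^ 2 = Q
  have e3 : f / B / (B / C) / G ^ m = f * C / (B ^ 2 * G ^ m) := by
    field_simp
  have e4 : B / C / (C / D) / H ^ m = B * D / (C ^ 2 * H ^ m) := by
    field_simp
  have a1 : B ^ (2 * Q + 1) = B * (B ^ Q) ^ 2 := by ring
  have a2 : C ^ (Q + 2) = C ^ Q * C ^ 2 := by ring
  have a3 : (f * C / (B ^ 2 * G ^ m)) ^ Q = f ^ Q * C ^ Q / ((B ^ Q) ^ 2 * (G ^ m) ^ Q) := by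
    rw [div_pow, mul_pow, mul_pow, pow_right_comm B 2 Q]
  have a4 : (H / G ^ Q) ^ m = H ^ m / (G ^ m) ^ Q := by
    rw [div_pow, pow_right_comm G Q m]
  rw [e3, e4, a1, a2, a3, a4]
  have hbQ : B ^ Q ≠ 0 := pow_ne_zero _ h1
  have hcQ : C ^ Q ≠ 0 := pow_ne_zero _ h2
  have hfQ : f ^ Q ≠ 0 := pow_ne_zero _ hf
  have hHm : H ^ m ≠ 0 := pow_ne_zero _ hG1
  have hGmQ : (G ^ m) ^ Q ≠ 0 := pow_ne_zero _ (pow_ne_zero _ hG)
  generalize B ^ Q = bQ at *
  generalize C ^ Q = cQ at *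
  generalize f ^ Q = fQ at *
  generalize H ^ m = Hm at *
  generalize (G ^ m) ^ Q = GmQ at *
  field_simp

end pc39_alg

/-- `τ = ŝ²`, the square of the coefficientwise action of `σ`. -/
noncomputable def pc39_tau {K : Type*} [Field K] (σ : K ≃+* K) (M : ℕ) :
    ↥(modularFunctionFieldFullC K M) ≃+* ↥(modularFunctionFieldFullC K M) :=
  (s34i47_coeffEquiv σ M).trans (s34i47_coeffEquiv σ M)

theorem pc39_tau_apply {K : Type*} [Field K] (σ : K ≃+* K) (M : ℕ)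
    (x : ↥(modularFunctionFieldFullC K M)) :
    pc39_tau σ M x = s34i47_coeffEquiv σ M (s34i47_coeffEquiv σ M x) := rfl

/-! ## 1. `τ = ŝ²` on the canonical frame -/

section pc39_frame

variable {R K : Type} [CommRing R] [IsDomain R] [IsDiscreteValuationRing R] [Field K]
  [NumberField K] [Algebra R K] [IsFractionRing R K] [Algebra K Q̄]
  (M' q : ℕ) [NeZero M'] [NeZero q] (hq : q.Prime) (hM' : ¬ q ∣ M')
  [Algebra R ↥(modularFunctionFieldFullC K (M' * q))]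
  [IsScalarTower R K ↥(modularFunctionFieldFullC K (M' * q))] {π : R} (hπ : Irreducible π)

/-- `τ` on the constants of `R`. -/
theorem pc39_tau_alg (σ : K ≃+* K) (hσ : ff50_Frob R q σ) (r : R) :
    pc39_tau σ (M' * q) (algebraMap R ↥(modularFunctionFieldFullC K (M' * q)) r) =
      algebraMap R ↥(modularFunctionFieldFullC K (M' * q))
        (ff50_sigmaR σ hσ (ff50_sigmaR σ hσ r)) := by
  rw [pc39_tau_apply, fn93_coeff_alg (M' * q) σ (ff50_sigmaR σ hσ) (ff50_sigmaR_spec σ hσ),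
    fn93_coeff_alg (M' * q) σ (ff50_sigmaR σ hσ) (ff50_sigmaR_spec σ hσ)]

include hπ in
/-- `σ r ≡ r ^ q` modulo `π`. -/
theorem pc39_frob_dvd (σ : K ≃+* K) (hσ : ff50_Frob R q σ) (r : R) :
    π ∣ ff50_sigmaR σ hσ r - r ^ q := by
  have h : ff50_sigmaRfun σ hσ r - r ^ q ∈ IsLocalRing.maximalIdeal R := (hσ r).choose_spec.2
  rw [(IsDiscreteValuationRing.irreducible_iff_uniformizer π).mp hπ,
    Ideal.mem_span_singleton] at h
  exact h

include hπ in
/-- `σ² r ≡ r ^ (q²)` modulo `π`. -/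
theorem pc39_frob_sq (σ : K ≃+* K) (hσ : ff50_Frob R q σ) (r : R) :
    π ∣ ff50_sigmaR σ hσ (ff50_sigmaR σ hσ r) - r ^ (q ^ 2) := by
  have h1 := pc39_frob_dvd (q := q) hπ σ hσ (ff50_sigmaR σ hσ r)
  have h2 := pc39_frob_dvd (q := q) hπ σ hσ r
  have h3 : ff50_sigmaR σ hσ r - r ^ q ∣ (ff50_sigmaR σ hσ r) ^ q - (r ^ q) ^ q :=
    sub_dvd_pow_sub_pow _ _ q
  have e : ff50_sigmaR σ hσ (ff50_sigmaR σ hσ r) - r ^ (q ^ 2) =
      (ff50_sigmaR σ hσ (ff50_sigmaR σ hσ r) - (ff50_sigmaR σ hσ r) ^ q) +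
        ((ff50_sigmaR σ hσ r) ^ q - (r ^ q) ^ q) := by
    rw [← pow_mul, pow_two]
    ring
  rw [e]
  exact dvd_add h1 (h2.trans h3)

include hπ in
/-- `σ² π ∈ π R`. -/
theorem pc39_sq_pi (hq0 : q ≠ 0) (σ : K ≃+* K) (hσ : ff50_Frob R q σ) :
    π ∣ ff50_sigmaR σ hσ (ff50_sigmaR σ hσ π) := by
  have h0 : π ∣ ff50_sigmaR σ hσ π := by
    have h1 : π ∣ π ^ q := dvd_pow_self π hq0
    have h2 := dvd_add (pc39_frob_dvd (q := q) hπ σ hσ π) h1
    rwa [sub_add_cancel] at h2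
  obtain ⟨r₁, hr₁⟩ := h0
  rw [hr₁, map_mul, hr₁]
  exact ⟨r₁ * ff50_sigmaR σ hσ r₁, by ring⟩

/-- `τ R ⊆ R`. -/
theorem pc39_tau_R (σ : K ≃+* K) (hσ : ff50_Frob R q σ) (r : R) :
    ∃ r' : R, pc39_tau σ (M' * q) (algebraMap R ↥(modularFunctionFieldFullC K (M' * q)) r) =
      algebraMap R ↥(modularFunctionFieldFullC K (M' * q)) r' :=
  ⟨_, pc39_tau_alg M' q σ hσ r⟩

/-- `τ` has finite order. -/
theorem pc39_tau_finOrder (σ : K ≃+* K) (M : ℕ) :
    ∃ k : ℕ, 0 < k ∧ (pc39_tau σ M) ^ k = 1 := by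
  obtain ⟨k, hk0, hk⟩ := in87i_finOrder σ
  refine ⟨k, hk0, ?_⟩
  have h1 : (s34i47_coeffEquiv σ M) ^ k = 1 := by
    rw [in87i_coeffEquiv_eq]
    exact in87_aut_pow_eq_one M σ k hk
  have h2 : pc39_tau σ M = s34i47_coeffEquiv σ M * s34i47_coeffEquiv σ M := rfl
  rw [h2, ← sq, ← pow_mul, Nat.mul_comm, pow_mul, h1, one_pow]

/-- `τ` maps both charts of an admissible Hauptmodul onto themselves. -/
theorem pc39_tau_chart (σ : K ≃+* K) (hσ : ff50_Frob R q σ)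
    (h : ↥(modularFunctionFieldFullC K (M' * q))) (hh : s34i47c_IsHaupt K (M' * q) q h)
    (B : Subalgebra R ↥(modularFunctionFieldFullC K (M' * q)))
    (hB : B = pk15_chart R ({h} : Set ↥(modularFunctionFieldFullC K (M' * q))) ∨
      B = pk15_chart R ({h⁻¹} : Set ↥(modularFunctionFieldFullC K (M' * q)))) :
    (∀ x ∈ B, pc39_tau σ (M' * q) x ∈ B) ∧ (∀ x ∈ B, (pc39_tau σ (M' * q)).symm x ∈ B) := by
  obtain ⟨h1, h2, -⟩ := ff50_chart M' q σ hσ h hh
  obtain ⟨k, hk0, hk⟩ := pc39_tau_finOrder σ (M' * q)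
  have key : ∀ x ∈ B, pc39_tau σ (M' * q) x ∈ B := by
    rcases hB with rfl | rfl
    · exact fun x hx => h1 _ (h1 x hx)
    · exact fun x hx => h2 _ (h2 x hx)
  exact ⟨key, fun x hx => lpt70_symm_mem_of_pow B _ key k hk0 hk x hx⟩

include hπ in
/-- `u ≡ 1` modulo `π V` from a constant reduction of `f₃` along `V` (`V` any `τ`-stable subring
containing `R` in which `1 + π V` consists of units). -/
theorem pc39_u_cong_V (σ : K ≃+* K) (hσ : ff50_Frob R q σ)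
    (V : Subring ↥(modularFunctionFieldFullC K (M' * q)))
    (hRV : ∀ r : R, algebraMap R ↥(modularFunctionFieldFullC K (M' * q)) r ∈ V)
    (hinv : ∀ x ∈ V, (1 + algebraMap R ↥(modularFunctionFieldFullC K (M' * q)) π * x)⁻¹ ∈ V)
    (hτV : ∀ x ∈ V, pc39_tau σ (M' * q) x ∈ V)
    (C : R) (hC : IsUnit C) (f3 : ↥(modularFunctionFieldFullC K (M' * q)))
    (h : (algebraMap R ↥(modularFunctionFieldFullC K (M' * q)) π)⁻¹ *
      (f3 - algebraMap R ↥(modularFunctionFieldFullC K (M' * q)) C) ∈ V) :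
    (algebraMap R ↥(modularFunctionFieldFullC K (M' * q)) π)⁻¹ *
      (pc39_tau σ (M' * q) f3 / f3 ^ (q ^ 2) - 1) ∈ V := by
  have hπ0 : algebraMap R ↥(modularFunctionFieldFullC K (M' * q)) π ≠ 0 := by
    rw [IsScalarTower.algebraMap_apply R K ↥(modularFunctionFieldFullC K (M' * q))]
    exact (map_ne_zero _).mpr
      ((map_ne_zero_iff _ (IsFractionRing.injective R K)).mpr hπ.ne_zero)
  have hτπ : (algebraMap R ↥(modularFunctionFieldFullC K (M' * q)) π)⁻¹ *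
      pc39_tau σ (M' * q) (algebraMap R ↥(modularFunctionFieldFullC K (M' * q)) π) ∈ V := by
    obtain ⟨r, hr⟩ := pc39_sq_pi (q := q) hπ (NeZero.ne q) σ hσ
    rw [pc39_tau_alg M' q σ hσ, hr, map_mul, inv_mul_cancel_left₀ hπ0]
    exact hRV r
  have hΛ : (algebraMap R ↥(modularFunctionFieldFullC K (M' * q)) π)⁻¹ *
      (pc39_tau σ (M' * q) (algebraMap R ↥(modularFunctionFieldFullC K (M' * q)) C) -
        algebraMap R ↥(modularFunctionFieldFullC K (M' * q)) C ^ (q ^ 2)) ∈ V := by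
    obtain ⟨r, hr⟩ := pc39_frob_sq (q := q) hπ σ hσ C
    rw [pc39_tau_alg M' q σ hσ, ← map_pow, ← map_sub, hr, map_mul, inv_mul_cancel_left₀ hπ0]
    exact hRV r
  have h1 := tl39_cong π hπ0 V hRV hinv (pc39_tau σ (M' * q)) hτV hτπ (q ^ 2) C C hC hΛ
    f3 f3 h h
  have h2 := pc39_inv_cong V _ hinv _ h1
  rwa [inv_div] at h2

include hq hM' in
/-- **`u ≡ 1` modulo `π W`** from constant reductions of `f₃` on both branches. -/
theorem pc39_u_cong (σ : K ≃+* K) (hσ : ff50_Frob R q σ)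
    (C₁ C₂ : R) (hC₁ : IsUnit C₁) (hC₂ : IsUnit C₂)
    (f3 : ↥(modularFunctionFieldFullC K (M' * q)))
    (h₁ : (algebraMap R ↥(modularFunctionFieldFullC K (M' * q)) π)⁻¹ *
      (f3 - algebraMap R ↥(modularFunctionFieldFullC K (M' * q)) C₁) ∈
        cm85_Vinf (K := K) (M' * q) hπ)
    (h₂ : (algebraMap R ↥(modularFunctionFieldFullC K (M' * q)) π)⁻¹ *
      (f3 - algebraMap R ↥(modularFunctionFieldFullC K (M' * q)) C₂) ∈
        s34i47c_V0 (K := K) M' q hq hM' hπ) :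
    (algebraMap R ↥(modularFunctionFieldFullC K (M' * q)) π)⁻¹ *
      (pc39_tau σ (M' * q) f3 / f3 ^ (q ^ 2) - 1) ∈ s34i47c_W (K := K) M' q hq hM' hπ := by
  have hRV₁ : ∀ r : R, algebraMap R ↥(modularFunctionFieldFullC K (M' * q)) r ∈
      (cm85_Vinf (K := K) (M' * q) hπ).toSubring := fun r => pk85_hRV (M' * q) hπ r
  have hRV₂ : ∀ r : R, algebraMap R ↥(modularFunctionFieldFullC K (M' * q)) r ∈
      (s34i47c_V0 (K := K) M' q hq hM' hπ).toSubring := fun r => by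
    show algebraMap R ↥(modularFunctionFieldFullC K (M' * q)) r ∈
      s34i47c_V0 (K := K) M' q hq hM' hπ
    rw [s34i47c_mem_V0, fl7_w_algebraMap]
    exact pk85_hRV (M' * q) hπ r
  have h1 := pc39_u_cong_V M' q hπ σ hσ (cm85_Vinf (K := K) (M' * q) hπ).toSubring hRV₁
    (fun x hx => sd89_one_add π _ (fl7_pi_inv_not_mem_Vinf M' q hπ) (fl7_hmax_Vinf M' q hπ)
      (hRV₁ π) x hx)
    (fun x hx => ff50_mem_Vinf (M' * q) hq.ne_zero hπ σ hσ _
      (ff50_mem_Vinf (M' * q) hq.ne_zero hπ σ hσ x hx)) C₁ hC₁ f3 h₁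
  have h2 := pc39_u_cong_V M' q hπ σ hσ (s34i47c_V0 (K := K) M' q hq hM' hπ).toSubring hRV₂
    (fun x hx => sd89_one_add π _ (fl7_pi_inv_not_mem_V0 M' q hq hM' hπ)
      (fl7_hmax_V0 M' q hq hM' hπ) (hRV₂ π) x hx)
    (fun x hx => ff50_mem_V0 M' q hq hM' hπ σ hσ _
      (ff50_mem_V0 M' q hq hM' hπ σ hσ x hx)) C₂ hC₂ f3 h₂
  exact (s34i47c_mem_W M' q hq hM' hπ _).mpr ⟨h1, (s34i47c_mem_V0 M' q hq hM' hπ _).mp h2⟩

end pc39_frame

/-! ## 2. The two claims consumed by the assembly -/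

/-- **(1c) in congruence form** (row 572): in the binder block of `s35i62_Core`, from the two norm
relations: a unit `G` of `W` such that `f₃ = f₁ / τ f₁ / G ^ m` (`f₁ = f / τ f`, `τ = ŝ²`) is
congruent to unit constants of `R` modulo `π V_∞` and modulo `π V_0`. -/
def pc39_ToricCong : Prop :=
  ∀ (M' q m : ℕ) [NeZero M'] [NeZero q] (hq : q.Prime) (hM' : ¬ q ∣ M'), 0 < m →
    Nat.Coprime m q →
  ∀ (R K : Type) [CommRing R] [IsDomain R] [IsDiscreteValuationRing R] [Field K] [NumberField K]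
    [Algebra K Q̄] [Algebra R K] [IsFractionRing R K]
    [Algebra R ↥(modularFunctionFieldFullC K (M' * q))]
    [IsScalarTower R K ↥(modularFunctionFieldFullC K (M' * q))] (π : R) (hπ : Irreducible π),
    (∀ n : ℕ, Nat.Coprime n q → IsUnit (n : R)) → ¬ IsUnit (q : R) →
    (∃ ζ : K, IsPrimitiveRoot ζ q) →
    ∀ σ : K ≃+* K, s35i62_Frobenial R q σ →
    ∀ (f : ↥(modularFunctionFieldFullC K (M' * q))) (a b : ↥(modularFunctionFieldFullC K M'))
      (ca cb : K), f ≠ 0 → a ≠ 0 → b ≠ 0 → ca ≠ 0 → cb ≠ 0 →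
      (∀ P : Place K ↥(modularFunctionFieldFullC K (M' * q)), (m : ℤ) ∣ P.ord f) →
      s35i62_normA K M' q f = algebraMap K ↥(modularFunctionFieldFullC K M') ca * a ^ m →
      s35i62_normB K M' q f = algebraMap K ↥(modularFunctionFieldFullC K M') cb * b ^ m →
      ∃ G : ↥(modularFunctionFieldFullC K (M' * q)),
        G ∈ s34i47c_W (K := K) M' q hq hM' hπ ∧ G⁻¹ ∈ s34i47c_W (K := K) M' q hq hM' hπ ∧
        ∃ C₁ C₂ : R, IsUnit C₁ ∧ IsUnit C₂ ∧
          (algebraMap R ↥(modularFunctionFieldFullC K (M' * q)) π)⁻¹ *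
              (lpt3_f3 (pc39_tau σ (M' * q)) m f G -
                algebraMap R ↥(modularFunctionFieldFullC K (M' * q)) C₁) ∈
            cm85_Vinf (K := K) (M' * q) hπ ∧
          (algebraMap R ↥(modularFunctionFieldFullC K (M' * q)) π)⁻¹ *
              (lpt3_f3 (pc39_tau σ (M' * q)) m f G -
                algebraMap R ↥(modularFunctionFieldFullC K (M' * q)) C₂) ∈
            s34i47c_V0 (K := K) M' q hq hM' hπ

/-- **The local datum at the nodes** (rows 547/548/549): on both affine charts `B` of every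
admissible Hauptmodul, for `f` with (LP) on `B`, `G` a unit of `W` and `f₃ = lpt3_f3 τ m f G`
with constant reductions on both branches: the clause of `s34i47_LocalDatum` for
`u = τ f₃ / f₃ ^ (q²)` at every closed point of the special fibre lying on both branches. -/
def pc39_NodeDatum : Prop :=
  ∀ (M' q m : ℕ) [NeZero M'] [NeZero q] (hq : q.Prime) (hM' : ¬ q ∣ M'), 0 < m →
    Nat.Coprime m q →
  ∀ (R K : Type) [CommRing R] [IsDomain R] [IsDiscreteValuationRing R] [Field K] [NumberField K]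
    [Algebra K Q̄] [Algebra R K] [IsFractionRing R K]
    [Algebra R ↥(modularFunctionFieldFullC K (M' * q))]
    [IsScalarTower R K ↥(modularFunctionFieldFullC K (M' * q))] (π : R) (hπ : Irreducible π),
    (∀ n : ℕ, Nat.Coprime n q → IsUnit (n : R)) → ¬ IsUnit (q : R) →
    ∀ σ : K ≃+* K, s35i62_Frobenial R q σ →
    ∀ h : ↥(modularFunctionFieldFullC K (M' * q)), s34i47c_IsHaupt K (M' * q) q h →
    ∀ B : Subalgebra R ↥(modularFunctionFieldFullC K (M' * q)),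
      (B = pk15_chart R ({h} : Set ↥(modularFunctionFieldFullC K (M' * q))) ∨
        B = pk15_chart R ({h⁻¹} : Set ↥(modularFunctionFieldFullC K (M' * q)))) →
    ∀ f G : ↥(modularFunctionFieldFullC K (M' * q)), f ≠ 0 → s34i47_LocPrin π m B f →
      G ∈ s34i47c_W (K := K) M' q hq hM' hπ → G⁻¹ ∈ s34i47c_W (K := K) M' q hq hM' hπ →
    ∀ C₁ C₂ : R, IsUnit C₁ → IsUnit C₂ →
      (algebraMap R ↥(modularFunctionFieldFullC K (M' * q)) π)⁻¹ *
          (lpt3_f3 (pc39_tau σ (M' * q)) m f G -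
            algebraMap R ↥(modularFunctionFieldFullC K (M' * q)) C₁) ∈
        cm85_Vinf (K := K) (M' * q) hπ →
      (algebraMap R ↥(modularFunctionFieldFullC K (M' * q)) π)⁻¹ *
          (lpt3_f3 (pc39_tau σ (M' * q)) m f G -
            algebraMap R ↥(modularFunctionFieldFullC K (M' * q)) C₂) ∈
        s34i47c_V0 (K := K) M' q hq hM' hπ →
    ∀ n : Ideal B, n.IsMaximal → algebraMap R B π ∈ n →
      sf79_OnBr π B (cm85_Vinf (K := K) (M' * q) hπ).toSubring n →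
      sf79_OnBr π B (s34i47c_V0 (K := K) M' q hq hM' hπ).toSubring n →
      ∃ φ : ↥(modularFunctionFieldFullC K (M' * q)),
        (algebraMap R ↥(modularFunctionFieldFullC K (M' * q)) π)⁻¹ * (φ - 1) ∈
          s34i47c_W (K := K) M' q hq hM' hπ ∧
        ∃ s : B, s ∉ n ∧ (s : ↥(modularFunctionFieldFullC K (M' * q))) *
          (φ ^ m * lpt3_u (pc39_tau σ (M' * q)) m (q ^ 2) f G) ∈ B

/-! ## 3. The assembly -/

/-- **PKG-Core-A**: the literal `s35i62_Pkg_Core` from (1c) in congruence form and the local datum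
at the nodes.  Everything else is on main: the frame (`fs85`, `fl71`), (UZ), (LP) for `f`
(`uz37`, `lp9`, `fs29`), (LP) for `u` (`lpt3_locPrin_u`), the one-branch points
(`sd89c_localDatum`), `u ≡ 1 mod π W` (`pc39_u_cong`), the nodal two-chart lemma
(`cm85_pkg_main`). -/
theorem pc39_core_of (hToric : pc39_ToricCong) (hNode : pc39_NodeDatum) : s35i62_Pkg_Core := by
  intro M' q m p₀ _ _ hq hM' hp₀ hp₀q hp₀M hm hmq
  intro R K _ _ _ _ _ _ _ _ _ _ π hπ hunit hqR hζ σ hσ f a b ca cb hf ha hb hca hcb hord hNa hNb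
    hrat
  have hσ' : ff50_Frob R q σ := hσ
  -- the Hauptmodul
  have hp₀M' : p₀ ∣ M' * q := Dvd.dvd.mul_right hp₀M q
  obtain ⟨h, hh⟩ : ∃ h : ↥(modularFunctionFieldFullC K (M' * q)),
      s34i47c_IsHaupt K (M' * q) q h := by
    rcases hp₀ with rfl | rfl
    · exact ⟨pk85_h2 K (M' * q) hp₀M', Or.inl ⟨Ne.symm hp₀q, hp₀M', rfl⟩⟩
    · exact ⟨pk85_h3 K (M' * q) hp₀M', Or.inr ⟨Ne.symm hp₀q, hp₀M', rfl⟩⟩
  -- the frame
  obtain ⟨hW, hCall⟩ := fs85_pkg_frameSat M' q hq hM' R K π hπ hunit hqR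
  have hC := hCall h hh
  obtain ⟨hLS₁, hLS₂⟩ := fl71_pkg_frameLS M' q hq hM' R K π hπ hunit hqR h hh
  have hC' := hC
  obtain ⟨htr, h12W, hsat₁, hsat₂, -, hN₁, hN₂, hfin, hfrac⟩ := hC'
  have hh0 : h ≠ 0 := by
    rintro rfl
    exact htr isAlgebraic_zero
  have hfrac₂ := ca57_frac_inv (R := R) h hh0 hfrac
  -- (LP) for `f` on both charts
  have hOrd : s34i47_Ord π m f := ca57_ord (K := K) hπ m f hf hord
  have hRat : s34i47_Rat K π f := ca57_rat (K := K) hπ f (hrat f (Or.inl rfl))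
  have hFinS : s34i47_Fin π f := ca57_fin (K := K) hπ f (fs29_Pkg_Fin (M' * q) inferInstance K f hf)
  have hUZ₁ := uz37_Pkg_UZ R K ↥(modularFunctionFieldFullC K (M' * q)) π hπ _ hN₁ hfrac hLS₁
  have hUZ₂ := uz37_Pkg_UZ R K ↥(modularFunctionFieldFullC K (M' * q)) π hπ _ hN₂ hfrac₂ hLS₂
  have hLP₁ := lp9_Pkg_LP R K ↥(modularFunctionFieldFullC K (M' * q)) π hπ _ m hm f hf hUZ₁
    hOrd hRat hFinS
  have hLP₂ := lp9_Pkg_LP R K ↥(modularFunctionFieldFullC K (M' * q)) π hπ _ m hm f hf hUZ₂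
    hOrd hRat hFinS
  -- (1c)
  obtain ⟨G, hGW, hGW', C₁, C₂, hC₁, hC₂, hc₁, hc₂⟩ :=
    hToric M' q m hq hM' hm hmq R K π hπ hunit hqR hζ σ hσ f a b ca cb hf ha hb hca hcb hord
      hNa hNb
  have hπ0 : algebraMap R ↥(modularFunctionFieldFullC K (M' * q)) π ≠ 0 := by
    rw [IsScalarTower.algebraMap_apply R K ↥(modularFunctionFieldFullC K (M' * q))]
    exact (map_ne_zero _).mpr
      ((map_ne_zero_iff _ (IsFractionRing.injective R K)).mpr hπ.ne_zero)
  have hG0 : G ≠ 0 := by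
    rintro rfl
    apply fl7_pi_inv_not_mem_Vinf (K := K) M' q hπ
    have e0 : lpt3_f3 (pc39_tau σ (M' * q)) m f 0 = 0 := by
      unfold lpt3_f3
      rw [zero_pow hm.ne', div_zero]
    rw [e0, zero_sub] at hc₁
    obtain ⟨d, hd⟩ := hC₁.exists_right_inv
    have h1 := (cm85_Vinf (K := K) (M' * q) hπ).mul_mem _ _ hc₁
      (pk85_hRV (M' * q) hπ (-d))
    have e1 : (algebraMap R ↥(modularFunctionFieldFullC K (M' * q)) π)⁻¹ *
        -(algebraMap R ↥(modularFunctionFieldFullC K (M' * q)) C₁) *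
          algebraMap R ↥(modularFunctionFieldFullC K (M' * q)) (-d) =
        (algebraMap R ↥(modularFunctionFieldFullC K (M' * q)) π)⁻¹ := by
      rw [map_neg, mul_assoc, neg_mul_neg, ← map_mul, hd, map_one, mul_one]
    rw [e1] at h1
    exact h1
  have hτf : ∀ x : ↥(modularFunctionFieldFullC K (M' * q)), x ≠ 0 →
      pc39_tau σ (M' * q) x ≠ 0 := fun x hx => (map_ne_zero _).mpr hx
  have hf3 : lpt3_f3 (pc39_tau σ (M' * q)) m f G ≠ 0 := by
    unfold lpt3_f3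
    have h1 : f / pc39_tau σ (M' * q) f ≠ 0 := div_ne_zero hf (hτf f hf)
    exact div_ne_zero (div_ne_zero h1 (hτf _ h1)) (pow_ne_zero m hG0)
  have hu0 : lpt3_u (pc39_tau σ (M' * q)) m (q ^ 2) f G ≠ 0 := by
    unfold lpt3_u
    exact div_ne_zero (hτf _ hf3) (pow_ne_zero _ hf3)
  -- `u ≡ 1 mod π W`
  have hu : (algebraMap R ↥(modularFunctionFieldFullC K (M' * q)) π)⁻¹ *
      (lpt3_u (pc39_tau σ (M' * q)) m (q ^ 2) f G - 1) ∈
        s34i47c_W (K := K) M' q hq hM' hπ :=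
    pc39_u_cong M' q hq hM' hπ σ hσ' C₁ C₂ hC₁ hC₂ _ hc₁ hc₂
  -- (LP) for `u` on both charts
  obtain ⟨hτB₁, hτB₁'⟩ := pc39_tau_chart M' q σ hσ' h hh _ (Or.inl rfl)
  obtain ⟨hτB₂, hτB₂'⟩ := pc39_tau_chart M' q σ hσ' h hh _ (Or.inr rfl)
  have hLPu₁ := lpt3_locPrin_u (K := K) π hπ m (q ^ 2) _ (pc39_tau σ (M' * q))
    (pc39_tau_R M' q σ hσ') hτB₁ hτB₁' hLP₁ hG0
  have hLPu₂ := lpt3_locPrin_u (K := K) π hπ m (q ^ 2) _ (pc39_tau σ (M' * q))
    (pc39_tau_R M' q σ hσ') hτB₂ hτB₂' hLP₂ hG0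
  -- the local datum on both charts
  have hLD₁ := sd89c_localDatum M' q hq hM' hπ hunit hqR h hh _ (Or.inl rfl) m hm _ hu hLPu₁
    (fun n hn hπn h1 h2 => hNode M' q m hq hM' hm hmq R K π hπ hunit hqR σ hσ h hh _
      (Or.inl rfl) f G hf hLP₁ hGW hGW' C₁ C₂ hC₁ hC₂ hc₁ hc₂ n hn hπn h1 h2)
  have hLD₂ := sd89c_localDatum M' q hq hM' hπ hunit hqR h hh _ (Or.inr rfl) m hm _ hu hLPu₂
    (fun n hn hπn h1 h2 => hNode M' q m hq hM' hm hmq R K π hπ hunit hqR σ hσ h hh _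
      (Or.inr rfl) f G hf hLP₂ hGW hGW' C₁ C₂ hC₁ hC₂ hc₁ hc₂ n hn hπn h1 h2)
  -- the nodal two-chart lemma
  obtain ⟨f₀, c, hf₀, hfc⟩ := cm85_pkg_main R K ↥(modularFunctionFieldFullC K (M' * q)) π hπ m
    hm (hunit m hmq) (cap87_algClosed_in (modularFunctionFieldFullC K (M' * q)))
    (s34i47c_W (K := K) M' q hq hM' hπ) h hW hC _ hu hLD₁ hLD₂
  have hτG : pc39_tau σ (M' * q) G ≠ 0 := hτf G hG0
  have hop : s35i62_op q (s34i47_coeffEquiv σ (M' * q)) f =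
      lpt3_u (pc39_tau σ (M' * q)) m (q ^ 2) f G *
        (pc39_tau σ (M' * q) G / G ^ (q ^ 2)) ^ m :=
    pc39_op_eq q m (s34i47_coeffEquiv σ (M' * q)) f G hf hG0
  have hGq : G ^ (q ^ 2) ≠ 0 := pow_ne_zero _ hG0
  have key : (f₀ * (G ^ (q ^ 2) / pc39_tau σ (M' * q) G)) ^ m *
      s35i62_op q (s34i47_coeffEquiv σ (M' * q)) f =
      algebraMap R ↥(modularFunctionFieldFullC K (M' * q)) c := by
    rw [hop, ← hfc, mul_pow, div_pow, div_pow]
    have h1 : pc39_tau σ (M' * q) G ^ m ≠ 0 := pow_ne_zero m hτG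
    have h2 : (G ^ (q ^ 2)) ^ m ≠ 0 := pow_ne_zero m hGq
    field_simp
  refine ⟨f₀ * (G ^ (q ^ 2) / pc39_tau σ (M' * q) G), algebraMap R K c,
    mul_ne_zero hf₀ (div_ne_zero hGq hτG), ?_, ?_⟩
  · intro h0
    have h1 : f₀ ^ m * lpt3_u (pc39_tau σ (M' * q)) m (q ^ 2) f G = 0 := by
      rw [hfc, IsScalarTower.algebraMap_apply R K ↥(modularFunctionFieldFullC K (M' * q)), h0,
        map_zero]
    rcases mul_eq_zero.mp h1 with h2 | h2
    · exact hf₀ (pow_eq_zero_iff (Nat.pos_iff_ne_zero.mp hm) |>.mp h2)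
    · exact hu0 h2
  · rw [key, IsScalarTower.algebraMap_apply R K ↥(modularFunctionFieldFullC K (M' * q))]

end Fermat.Agent.S35
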