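import Mathlib
import Fermat.Agent.S35.PkgCoreA39
import Fermat.Agent.S35.NodeDatum14
import Fermat.Agent.S35.NodeFN93
import Fermat.Agent.S35.CoreLP3
import Fermat.Agent.S34.PkgFrameTransv66
import Fermat.Agent.S34.UVAtFrame22
import Fermat.Agent.S34.TransvInst66
import Fermat.Agent.S34.WIntInst18

/-!
# S35 lab, row 568 (PKG-Core-A, helper39): the local datum at the nodes, canonical frame

`pc39_nodeDatum : pc39_NodeDatum` — the second input of `pc39_core_of` (`PkgCoreA39`), proved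
from main: the abstract node lemma `nd14_hNode` (helper14), the Frobenius clause at the nodes
`fn93c_FN` / `fn93c_fix` (helper93), the root shape `lpt3_node_shape` (helper3), the chart facts
`sd89c_chart_facts` (helper89), transversality `tv66_pkg_frameTransv` and `uvf22_UVAt` (S34 lab).

Hence `pc39_core_of_toric : pc39_ToricCong → s35i62_Pkg_Core`.
-/

set_option autoImplicit false
set_option linter.style.longLine false
set_option linter.unusedVariables false
set_option linter.unusedSectionVars false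

open ModularCurve AlgebraicCurve

namespace Fermat.Agent.S35

open Fermat.Agent.S18 Fermat.Agent.S34

local notation "Q̄" => AlgebraicClosure ℚ

/-- **The local datum at the nodes on the canonical frame.** -/
theorem pc39_nodeDatum : pc39_NodeDatum := by
  intro M' q m _ _ hq hM' hm hmq R K _ _ _ _ _ _ _ _ _ _ π hπ hunit hqR σ hσ h hh B hB f G hf hLP
    hGW hGW' C₁ C₂ hC₁ hC₂ hc₁ hc₂
  have hσ' : ff50_Frob R q σ := hσ
  obtain ⟨hN, hBW, hsatW, hFrac, hKr, hS₁, hS₂⟩ :=
    sd89c_chart_facts M' q hq hM' hπ hunit hqR h hh B hB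
  haveI := hN
  have hπ0 : algebraMap R ↥(modularFunctionFieldFullC K (M' * q)) π ≠ 0 := by
    rw [IsScalarTower.algebraMap_apply R K ↥(modularFunctionFieldFullC K (M' * q))]
    exact (map_ne_zero _).mpr
      ((map_ne_zero_iff _ (IsFractionRing.injective R K)).mpr hπ.ne_zero)
  -- transversality and the (u, v) elements
  have hT : sf79_Transv π B (cm85_Vinf (K := K) (M' * q) hπ).toSubring
      (s34i47c_V0 (K := K) M' q hq hM' hπ).toSubring := by
    obtain ⟨hT₁, hT₂⟩ := tv66_pkg_frameTransv M' q hq hM' R K π hπ hunit hqR h hh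
    rcases hB with rfl | rfl
    · exact hT₁
    · exact hT₂
  have hUV : sf79_UVAt π B (cm85_Vinf (K := K) (M' * q) hπ).toSubring
      (s34i47c_V0 (K := K) M' q hq hM' hπ).toSubring := by
    obtain ⟨hUV₁, hUV₂⟩ := uvf22_UVAt (K := K) M' q hq hM' hπ hunit hqR h hh
    rcases hB with rfl | rfl
    · exact hUV₁
    · exact hUV₂
  -- `τ` on the chart and on the two valuation rings
  obtain ⟨hτB, hτB'⟩ := pc39_tau_chart M' q σ hσ' h hh B hB
  have hτV₁ : ∀ x ∈ (cm85_Vinf (K := K) (M' * q) hπ).toSubring,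
      (pc39_tau σ (M' * q) : ↥(modularFunctionFieldFullC K (M' * q)) →+*
        ↥(modularFunctionFieldFullC K (M' * q))) x ∈
        (cm85_Vinf (K := K) (M' * q) hπ).toSubring := fun x hx =>
    ff50_mem_Vinf (M' * q) hq.ne_zero hπ σ hσ' _ (ff50_mem_Vinf (M' * q) hq.ne_zero hπ σ hσ' x hx)
  have hτV₂ : ∀ x ∈ (s34i47c_V0 (K := K) M' q hq hM' hπ).toSubring,
      (pc39_tau σ (M' * q) : ↥(modularFunctionFieldFullC K (M' * q)) →+*
        ↥(modularFunctionFieldFullC K (M' * q))) x ∈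
        (s34i47c_V0 (K := K) M' q hq hM' hπ).toSubring := fun x hx =>
    ff50_mem_V0 M' q hq hM' hπ σ hσ' _ (ff50_mem_V0 M' q hq hM' hπ σ hσ' x hx)
  obtain ⟨r₀, hr₀⟩ := pc39_sq_pi (q := q) hπ hq.ne_zero σ hσ'
  have hτp : pc39_tau σ (M' * q) (algebraMap R ↥(modularFunctionFieldFullC K (M' * q)) π) =
      algebraMap R ↥(modularFunctionFieldFullC K (M' * q)) π *
        algebraMap R ↥(modularFunctionFieldFullC K (M' * q)) r₀ := by
    rw [pc39_tau_alg M' q σ hσ', hr₀, map_mul]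
  have hτmul : ∀ x : ↥(modularFunctionFieldFullC K (M' * q)),
      (algebraMap R ↥(modularFunctionFieldFullC K (M' * q)) π)⁻¹ * pc39_tau σ (M' * q) x =
        algebraMap R ↥(modularFunctionFieldFullC K (M' * q)) r₀ *
          pc39_tau σ (M' * q)
            ((algebraMap R ↥(modularFunctionFieldFullC K (M' * q)) π)⁻¹ * x) := by
    intro x
    have hτp0 : pc39_tau σ (M' * q) (algebraMap R ↥(modularFunctionFieldFullC K (M' * q)) π) ≠ 0 :=
      (map_ne_zero _).mpr hπ0
    rw [map_mul, map_inv₀]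
    have hr0 : algebraMap R ↥(modularFunctionFieldFullC K (M' * q)) r₀ ≠ 0 := by
      intro h0
      rw [hτp, h0, mul_zero] at hτp0
      exact hτp0 rfl
    rw [hτp]
    field_simp
  have hRV₁ : ∀ r : R, algebraMap R ↥(modularFunctionFieldFullC K (M' * q)) r ∈
      (cm85_Vinf (K := K) (M' * q) hπ).toSubring := fun r => pk85_hRV (M' * q) hπ r
  have hRV₂ : ∀ r : R, algebraMap R ↥(modularFunctionFieldFullC K (M' * q)) r ∈
      (s34i47c_V0 (K := K) M' q hq hM' hπ).toSubring := fun r => by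
    show algebraMap R ↥(modularFunctionFieldFullC K (M' * q)) r ∈
      s34i47c_V0 (K := K) M' q hq hM' hπ
    rw [s34i47c_mem_V0, fl7_w_algebraMap]
    exact pk85_hRV (M' * q) hπ r
  have hτ₁ : ∀ x : ↥(modularFunctionFieldFullC K (M' * q)),
      (algebraMap R ↥(modularFunctionFieldFullC K (M' * q)) π)⁻¹ * x ∈
        (cm85_Vinf (K := K) (M' * q) hπ).toSubring →
      (algebraMap R ↥(modularFunctionFieldFullC K (M' * q)) π)⁻¹ *
        (pc39_tau σ (M' * q) : ↥(modularFunctionFieldFullC K (M' * q)) →+*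
          ↥(modularFunctionFieldFullC K (M' * q))) x ∈
        (cm85_Vinf (K := K) (M' * q) hπ).toSubring := by
    intro x hx
    have h1 := hτmul x
    rw [show ((pc39_tau σ (M' * q) : ↥(modularFunctionFieldFullC K (M' * q)) →+*
      ↥(modularFunctionFieldFullC K (M' * q))) x) = pc39_tau σ (M' * q) x from rfl, h1]
    exact Subring.mul_mem _ (hRV₁ r₀) (hτV₁ _ hx)
  have hτ₂ : ∀ x : ↥(modularFunctionFieldFullC K (M' * q)),
      (algebraMap R ↥(modularFunctionFieldFullC K (M' * q)) π)⁻¹ * x ∈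
        (s34i47c_V0 (K := K) M' q hq hM' hπ).toSubring →
      (algebraMap R ↥(modularFunctionFieldFullC K (M' * q)) π)⁻¹ *
        (pc39_tau σ (M' * q) : ↥(modularFunctionFieldFullC K (M' * q)) →+*
          ↥(modularFunctionFieldFullC K (M' * q))) x ∈
        (s34i47c_V0 (K := K) M' q hq hM' hπ).toSubring := by
    intro x hx
    have h1 := hτmul x
    rw [show ((pc39_tau σ (M' * q) : ↥(modularFunctionFieldFullC K (M' * q)) →+*
      ↥(modularFunctionFieldFullC K (M' * q))) x) = pc39_tau σ (M' * q) x from rfl, h1]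
    exact Subring.mul_mem _ (hRV₂ r₀) (hτV₂ _ hx)
  have hG0 : G ≠ 0 := by
    rintro rfl
    apply fl7_pi_inv_not_mem_Vinf (K := K) M' q hπ
    have e0 : lpt3_f3 (pc39_tau σ (M' * q)) m f 0 = 0 := by
      unfold lpt3_f3
      rw [zero_pow hm.ne', div_zero]
    rw [e0, zero_sub] at hc₁
    obtain ⟨d, hd⟩ := hC₁.exists_right_inv
    have h1 := (cm85_Vinf (K := K) (M' * q) hπ).mul_mem _ _ hc₁
      (pk85_hRV (M' * q) hπ (-d))
    have e1 : (algebraMap R ↥(modularFunctionFieldFullC K (M' * q)) π)⁻¹ *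
        -(algebraMap R ↥(modularFunctionFieldFullC K (M' * q)) C₁) *
          algebraMap R ↥(modularFunctionFieldFullC K (M' * q)) (-d) =
        (algebraMap R ↥(modularFunctionFieldFullC K (M' * q)) π)⁻¹ := by
      rw [map_neg, mul_assoc, neg_mul_neg, ← map_mul, hd, map_one, mul_one]
    rw [e1] at h1
    exact h1
  have hf3 : lpt3_f3 (pc39_tau σ (M' * q)) m f G ≠ 0 := clp3_f3_ne_zero _ m f G hf hG0
  -- the abstract node lemma
  have key := nd14_hNode π m hm B (cm85_Vinf (K := K) (M' * q) hπ).toSubring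
    (s34i47c_V0 (K := K) M' q hq hM' hπ).toSubring (s34i47c_W (K := K) M' q hq hM' hπ)
    (fun x h1 h2 => (s34i47c_mem_W M' q hq hM' hπ x).mpr
      ⟨h1, (s34i47c_mem_V0 M' q hq hM' hπ x).mp h2⟩)
    (fun x hx => ((s34i47c_mem_W M' q hq hM' hπ x).mp (hBW x hx)).1)
    (fun x hx => ((s34i47c_mem_W M' q hq hM' hπ x).mp (hBW x hx)).2)
    (fl7_pi_inv_not_mem_Vinf M' q hπ) (fl7_pi_inv_not_mem_V0 M' q hq hM' hπ)
    (fl7_hmax_Vinf M' q hπ) (fl7_hmax_V0 M' q hq hM' hπ)
    (fun x hx h1 h2 => hsatW x hx ((s34i47c_mem_W M' q hq hM' hπ _).mpr ⟨h1, h2⟩))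
    hFrac
    (fun x _ hx0 => wi18_arch (M' * q) hπ x hx0)
    (fun x _ hx0 => tv66_arch_V0 M' q hq hM' hπ x hx0)
    hS₁ hS₂ hT hUV
    (pc39_tau σ (M' * q) : ↥(modularFunctionFieldFullC K (M' * q)) →+*
      ↥(modularFunctionFieldFullC K (M' * q))) (q ^ 2) hτV₁ hτV₂ hτ₁ hτ₂
    (lpt3_f3 (pc39_tau σ (M' * q)) m f G) hf3 C₁ C₂ hC₁ hC₂ hc₁ hc₂ ?_
  · exact key
  · intro n hn hπn h1 h2
    refine ⟨?_, ?_⟩
    · exact fn93c_FN M' q hq hM' R K π hπ hunit hqR σ hσ h hh B hB n hn.isPrime h1 h2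
    · obtain ⟨c, hc⟩ := hLP n hn hπn
      have hτn : ∀ d : B, d ∉ n → (⟨pc39_tau σ (M' * q) d, hτB d d.2⟩ : B) ∉ n :=
        fn93c_fix M' q hq hM' R K π hπ hunit hqR σ hσ h hh B hB hτB n hn.isPrime h1 h2
      obtain ⟨e1, e2, e3, e4, e5, e6, e7, e8⟩ := lpt3_node_shape (K := K) π hπ m
        (s34i47c_W (K := K) M' q hq hM' hπ) B hBW hsatW (pc39_tau σ (M' * q))
        (pc39_tau_R M' q σ hσ') hτB (clp3_tau_G1 M' q hq hM' hπ σ hσ') n hτn
        (hKr n hn hπn) f c G hf hc hG0 hGW hGW'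
      obtain ⟨e2a, e2b⟩ := (s34i47c_mem_W M' q hq hM' hπ _).mp e2
      obtain ⟨e3a, e3b⟩ := (s34i47c_mem_W M' q hq hM' hπ _).mp e3
      refine ⟨lpt3_c3 (pc39_tau σ (M' * q)) c G, e1, e2a, e3a, e2b, e3b, e6, ?_⟩
      rw [← inv_div]
      exact e7

/-- **PKG-Core-A from (1c) alone**: the literal `s35i62_Pkg_Core` from the congruence form of
"new ⟹ toric". -/
theorem pc39_core_of_toric (hToric : pc39_ToricCong) : s35i62_Pkg_Core :=
  pc39_core_of hToric pc39_nodeDatum

end Fermat.Agent.S35
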