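import Fermat.Agent.S35.LevelNorm52
import Fermat.Agent.S35.Iface62

/-!
# S35 lab (helper52): P-LEVEL — the level-change package of `Iface62`, literally

`lv52_pkg_level : s35i62_Pkg_Level` : FFA (the function-field form of (A*)) for all `p ^ n` at the
levels `lcm(M', p₀) q`, `p₀ ∈ {2, 3}`, `p₀ ≠ q`, gives FFA for all `p ^ n` at level `M' q`.

Proof.  `p₀ := lv52_p0 p q` (`3` if `q = 2` or `p = 3`, else `2`), `M'' := lcm(M', p₀)`, so that
`d = [F(M'' q) : F(M' q)] = ψ(M'' q) / ψ(M' q) ∈ {1, p₀ + 1}` is prime to `p`.  For `f ∈ F(M' q)`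
with the FFA hypotheses, `ι f ∈ F(M'' q)` satisfies them at level `M'' q`: the orders by
`Place.ord_restrictAlong`, the two norm conditions by `lv52_norm_alpha` / `lv52_norm_beta`
(`LevelNorm52`: the norms along `α`, `β` commute with raising the level).  The Kummer operator
commutes with `ι` (`lv52_op_iota`), so `ι (op f) = g₁ ^ m`, and `lv52_pow_descend` (norm from
`F(M'' q)` to `F(M' q)` and Bezout for `d`, `m`) makes `op f` an `m`-th power at level `M' q`.

* `lv52_pow_descend` : abstract (Mathlib only) descent of `m`-th powers along a finite field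
  extension of degree prime to `m`;
* `lv52_arith_iota`, `lv52_op_iota` : compatibility with `tv1_iota`;
* `lv52_FFA_of_dvd` : FFA at level `M'' q` ⟹ FFA at level `M' q` for `M' ∣ M''`, `q ∤ M''`,
  `gcd(ψ(M'' q) / ψ(M' q), m) = 1`;
* `lv52_p0`, `lv52_psi_lcm`, `lv52_pkg_level`.
-/

set_option autoImplicit false
set_option linter.style.haveILetI false
set_option linter.style.longLine false

open ModularCurve AlgebraicCurve IntermediateField
open Fermat.Agent.S24 Fermat.Agent.S28 Fermat.Agent.S18 Fermat.Agent.S37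

namespace Fermat.Agent.S35

local notation "Qb" => AlgebraicClosure ℚ
local notation "GQ" => AlgebraicClosure ℚ ≃ₐ[ℚ] AlgebraicClosure ℚ

/-! ### Abstract descent of `m`-th powers along a finite field extension -/

/-- If `u ∈ F` becomes an `m`-th power in a finite extension `F'` of degree prime to `m`, then
`u` is an `m`-th power in `F`. -/
theorem lv52_pow_descend {F F' : Type*} [Field F] [Field F'] [Algebra F F']
    [FiniteDimensional F F'] {m : ℕ}
    (hcop : Nat.Coprime (Module.finrank F F') m) (u : F) (g₁ : F')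
    (hg : g₁ ^ m = algebraMap F F' u) : ∃ g : F, g ^ m = u := by
  by_cases hm : m = 0
  · subst hm
    rw [pow_zero] at hg
    refine ⟨1, ?_⟩
    rw [pow_zero]
    exact (algebraMap F F').injective (by rw [map_one, hg])
  by_cases hu : u = 0
  · exact ⟨0, by rw [hu, zero_pow hm]⟩
  have hN : Algebra.norm F g₁ ^ m = u ^ Module.finrank F F' := by
    rw [← map_pow, hg, Algebra.norm_algebraMap]
  have hco : IsCoprime ((Module.finrank F F' : ℕ) : ℤ) (m : ℤ) := Nat.isCoprime_iff_coprime.mpr hcop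
  obtain ⟨a, b, hab⟩ := hco
  refine ⟨Algebra.norm F g₁ ^ a * u ^ b, ?_⟩
  have h1 : (Algebra.norm F g₁ ^ a) ^ m = u ^ (a * (Module.finrank F F' : ℤ)) := by
    rw [← zpow_natCast (Algebra.norm F g₁ ^ a) m, ← zpow_mul, mul_comm a (m : ℤ), zpow_mul,
      zpow_natCast, hN, ← zpow_natCast u (Module.finrank F F'), ← zpow_mul, mul_comm]
  have h2 : (u ^ b) ^ m = u ^ (b * (m : ℤ)) := by
    rw [← zpow_natCast (u ^ b) m, ← zpow_mul]
  rw [mul_pow, h1, h2, ← zpow_add₀ hu, hab, zpow_one]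

/-! ### The Kummer operator and the level inclusion -/

section Level

variable {M' M'' q : ℕ} [NeZero M'] [NeZero M''] [NeZero q]

/-- The coefficientwise Galois action commutes with the inclusion `F(N) ⊆ F(N')`. -/
theorem lv52_arith_iota {N N' : ℕ} [NeZero N] [NeZero N'] (h : N ∣ N') (σ : GQ)
    (x : ↥(modularFunctionFieldBar N)) :
    arithmeticRingAut (modularFunctionFieldFull N') σ (tv1_iota h x) =
      tv1_iota h (arithmeticRingAut (modularFunctionFieldFull N) σ x) := by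
  apply Subtype.ext
  rw [tv1_coe_iota]
  show coeffMap (σ : Qb →+* Qb) ((tv1_iota h x : ↥(modularFunctionFieldBar N')) : LaurentSeries Qb) =
    coeffMap (σ : Qb →+* Qb) (x : LaurentSeries Qb)
  rw [tv1_coe_iota]

/-- The Kummer operator commutes with the inclusion `F(N) ⊆ F(N')`. -/
theorem lv52_op_iota {N N' : ℕ} [NeZero N] [NeZero N'] (h : N ∣ N') (q : ℕ) (σ : GQ)
    (f : ↥(modularFunctionFieldBar N)) :
    s35i62_op q (arithmeticRingAut (modularFunctionFieldFull N') σ) (tv1_iota h f) =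
      tv1_iota h (s35i62_op q (arithmeticRingAut (modularFunctionFieldFull N) σ) f) := by
  unfold s35i62_op
  rw [map_div₀, map_mul, map_mul, map_pow, map_pow, map_pow]
  simp only [lv52_arith_iota]

/-- **Level change for FFA**: for `M' ∣ M''`, `q ∤ M''` and `m` prime to the degree
`ψ(M'' q) / ψ(M' q)` of `F(M'' q)` over `F(M' q)`, FFA at level `M'' q` gives FFA at level
`M' q`. -/
theorem lv52_FFA_of_dvd {m : ℕ} (hq : q.Prime) (hNN : M' ∣ M'') (hqM'' : ¬ q ∣ M'')
    (hcop : Nat.Coprime (dedekindPsi (M'' * q) / dedekindPsi (M' * q)) m)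
    (h : s35i62_FFA M'' q m) : s35i62_FFA M' q m := by
  intro A hA σ hσ f hf hord ha hb
  have hd : M' * q ∣ M'' * q := Nat.mul_dvd_mul_right hNN q
  obtain ⟨a, ha⟩ := ha
  obtain ⟨b, hb⟩ := hb
  -- the hypotheses at level `M'' q`
  have hf₁ : tv1_iota hd f ≠ 0 := (map_ne_zero (tv1_iota hd)).mpr hf
  have hord₁ : ∀ v : Place Qb ↥(modularFunctionFieldBar (M'' * q)),
      (m : ℤ) ∣ v.ord (tv1_iota hd f) := by
    intro v
    rw [Place.ord_restrictAlong (tv1_iota hd) (tv1_iota_integral hd) v f]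
    exact Dvd.dvd.mul_left (hord _) _
  have ha₁ : ∃ a₁ : ↥(modularFunctionFieldBar M''),
      s35i62_normABar M'' q (tv1_iota hd f) = a₁ ^ m := by
    refine ⟨tv1_iota hNN a, ?_⟩
    have h1 := lv52_norm_alpha hNN hq hqM'' f
    have h2 : s35i62_normABar M' q f = a ^ m := ha
    rw [← map_pow, ← h2]
    exact h1
  have hb₁ : ∃ b₁ : ↥(modularFunctionFieldBar M''),
      s35i62_normBBar M'' q (tv1_iota hd f) = b₁ ^ m := by
    refine ⟨tv1_iota hNN b, ?_⟩
    have h1 := lv52_norm_beta hNN hq hqM'' f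
    have h2 : s35i62_normBBar M' q f = b ^ m := hb
    rw [← map_pow, ← h2]
    exact h1
  obtain ⟨g₁, hg₁⟩ := h A hA σ hσ (tv1_iota hd f) hf₁ hord₁ ha₁ hb₁
  rw [lv52_op_iota hd q σ f] at hg₁
  -- descent of the `m`-th power
  letI := algebraAlong (tv1_iota hd)
  haveI : Module.Finite ↥(modularFunctionFieldBar (M' * q)) ↥(modularFunctionFieldBar (M'' * q)) :=
    tv1_iota_finite hd
  have hfr : Module.finrank ↥(modularFunctionFieldBar (M' * q))
      ↥(modularFunctionFieldBar (M'' * q)) = dedekindPsi (M'' * q) / dedekindPsi (M' * q) :=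
    tv1_finrank hd
  exact lv52_pow_descend (by rw [hfr]; exact hcop) _ g₁ hg₁

end Level

/-! ### The choice of the auxiliary prime and the package -/

/-- The auxiliary prime `p₀ ∈ {2, 3}` for the pair `(p, q)`: `p₀ ≠ q` and `p ∤ p₀ + 1`. -/
def lv52_p0 (p q : ℕ) : ℕ := if q = 2 ∨ p = 3 then 3 else 2

theorem lv52_p0_eq (p q : ℕ) : lv52_p0 p q = 2 ∨ lv52_p0 p q = 3 := by
  unfold lv52_p0
  split_ifs
  · exact Or.inr rfl
  · exact Or.inl rfl

theorem lv52_p0_prime (p q : ℕ) : (lv52_p0 p q).Prime := by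
  rcases lv52_p0_eq p q with h | h <;> rw [h]
  · exact Nat.prime_two
  · exact Nat.prime_three

theorem lv52_p0_ne {p q : ℕ} (hpq : p ≠ q) : lv52_p0 p q ≠ q := by
  unfold lv52_p0
  split_ifs with h
  · rcases h with h | h
    · omega
    · omega
  · intro h2
    exact h (Or.inl h2.symm)

theorem lv52_p0_coprime {p q : ℕ} (hp : p.Prime) (hpq : p ≠ q) :
    Nat.Coprime (lv52_p0 p q + 1) p := by
  unfold lv52_p0
  split_ifs with h
  · -- `p₀ = 3`: `p ≠ 2`
    have hp2 : p ≠ 2 := by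
      rcases h with h | h
      · omega
      · omega
    have h4 : (3 + 1 : ℕ) = 2 ^ 2 := by norm_num
    rw [h4]
    exact Nat.Coprime.pow_left 2 ((Nat.coprime_primes Nat.prime_two hp).mpr (Ne.symm hp2))
  · -- `p₀ = 2`: `p ≠ 3`
    have hp3 : p ≠ 3 := fun h3 => h (Or.inr h3)
    exact (Nat.coprime_primes Nat.prime_three hp).mpr (Ne.symm hp3)

/-- The degree of `F(lcm(M', p₀) q)` over `F(M' q)` is `1` or `p₀ + 1`. -/
theorem lv52_psi_lcm (M' q p0 : ℕ) [NeZero M'] (hq : q.Prime) (hp0 : p0.Prime) (hp0q : p0 ≠ q) :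
    dedekindPsi (Nat.lcm M' p0 * q) / dedekindPsi (M' * q) = 1 ∨
      dedekindPsi (Nat.lcm M' p0 * q) / dedekindPsi (M' * q) = p0 + 1 := by
  haveI : NeZero (M' * q) := ⟨Nat.mul_ne_zero (NeZero.ne M') hq.ne_zero⟩
  by_cases hd : p0 ∣ M'
  · left
    rw [Nat.lcm_eq_left hd]
    exact Nat.div_self (nd38_psi_pos (M' * q))
  · right
    have hc : Nat.Coprime M' p0 := ((Nat.Prime.coprime_iff_not_dvd hp0).mpr hd).symm
    rw [Nat.Coprime.lcm_eq_mul hc, Nat.mul_right_comm M' p0 q]
    refine S34.lc52_psi_mul_prime hp0 ?_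
    intro hdv
    rcases (Nat.Prime.dvd_mul hp0).mp hdv with h1 | h1
    · exact hd h1
    · exact hp0q ((Nat.prime_dvd_prime_iff_eq hp0 hq).mp h1)

/-- **P-LEVEL.**  The level-change package of `Iface62`, literally: FFA for all `p ^ n` at the
levels `lcm(M', p₀) q` (`p₀ ∈ {2, 3}`, `p₀ ≠ q`) gives FFA for all `p ^ n` at level `M' q`. -/
theorem lv52_pkg_level : s35i62_Pkg_Level := by
  intro M' q p _ _ hq hqM' hp hpq H n
  have hp0 := lv52_p0_prime p q
  have hp0q := lv52_p0_ne hpq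
  have hM''0 : Nat.lcm M' (lv52_p0 p q) ≠ 0 := Nat.lcm_ne_zero (NeZero.ne M') hp0.ne_zero
  haveI : NeZero (Nat.lcm M' (lv52_p0 p q)) := ⟨hM''0⟩
  have hqM'' : ¬ q ∣ Nat.lcm M' (lv52_p0 p q) := by
    intro hd
    have h1 : q ∣ M' * lv52_p0 p q := hd.trans (Nat.lcm_dvd_mul M' (lv52_p0 p q))
    rcases (Nat.Prime.dvd_mul hq).mp h1 with h2 | h2
    · exact hqM' h2
    · exact hp0q ((Nat.prime_dvd_prime_iff_eq hq hp0).mp h2).symm
  have hcop : Nat.Coprime (dedekindPsi (Nat.lcm M' (lv52_p0 p q) * q) / dedekindPsi (M' * q))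
      (p ^ n) := by
    apply Nat.Coprime.pow_right
    rcases lv52_psi_lcm M' q (lv52_p0 p q) hq hp0 hp0q with h | h <;> rw [h]
    · exact Nat.coprime_one_left p
    · exact lv52_p0_coprime hp hpq
  exact lv52_FFA_of_dvd hq (Nat.dvd_lcm_left M' (lv52_p0 p q)) hqM'' hcop
    (H (lv52_p0 p q) (Nat.lcm M' (lv52_p0 p q)) (lv52_p0_eq p q) hp0q rfl n)

example : s35i62_Pkg_Level := lv52_pkg_level

end Fermat.Agent.S35
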