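import Mathlib

/-!
# S35 lab, flatness glue for the marked vector (helper56) — Mathlib only

Proof text #2519 (2): "`cores(x0) = 0`, and by flatness of `O` over `ℤ` the components of `w0`
lie in `O ⊗ (ker α_* ∩ ker β_*)`".  Abstract form on the lattice side, the shape consumed by the
marked-vector row: for `ℤ`-linear maps `f₁ : L → L₁`, `f₂ : L → L₂` and a `ℤ`-flat ring `O`,

  `f₁.baseChange O x = 0 → f₂.baseChange O x = 0 →`
  `x ∈ Submodule.span O ((fun c => 1 ⊗ₜ c) '' {c | f₁ c = 0 ∧ f₂ c = 0})`.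

* `fk56_flat_int` : a domain of characteristic zero is flat over `ℤ`;
* `fk56_exists_lTensor` : `ker (f.lTensor O) = range ((ker f).subtype.lTensor O)`, elementwise;
* `fk56_mem_span_ker` : one map;
* `fk56_mem_span_ker₂` : two maps (`cores_α`, `cores_β`);
* `fk56_baseChange_comp_eq_zero` : consequence — every `ℤ`-linear `g : L → J` vanishing on the
  common kernel has `g.baseChange O x = 0`.
-/

set_option autoImplicit false
set_option linter.unusedSectionVars false
set_option linter.unusedVariables false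
set_option linter.style.longLine false

open TensorProduct

namespace Fermat.Agent.S35

/-- A domain of characteristic zero is flat over `ℤ`. -/
theorem fk56_flat_int (O : Type*) [CommRing O] [IsDomain O] [CharZero O] : Module.Flat ℤ O :=
  inferInstance

section fk56

variable {O L L₁ L₂ J : Type*} [CommRing O] [Module.Flat ℤ O] [AddCommGroup L] [AddCommGroup L₁]
  [AddCommGroup L₂] [AddCommGroup J]

/-- Flat base change of a kernel, elementwise. -/
theorem fk56_exists_lTensor (f : L →ₗ[ℤ] L₁) (x : O ⊗[ℤ] L) (hx : f.lTensor O x = 0) :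
    ∃ y : O ⊗[ℤ] ↥(LinearMap.ker f), (LinearMap.ker f).subtype.lTensor O y = x :=
  (Module.Flat.lTensor_exact O (LinearMap.exact_subtype_ker_map f) x).mp hx

/-- `baseChange` and `lTensor` agree on elements. -/
theorem fk56_baseChange_apply (f : L →ₗ[ℤ] L₁) (x : O ⊗[ℤ] L) :
    f.baseChange O x = f.lTensor O x :=
  congrFun (LinearMap.baseChange_eq_ltensor (A := O) f) x

/-- The image of `O ⊗ K → O ⊗ L` lies in the `O`-span of the pure tensors `1 ⊗ c`, `c ∈ K`. -/
theorem fk56_lTensor_subtype_mem_span (K : Submodule ℤ L) (P : L → Prop) (hK : ∀ c ∈ K, P c)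
    (y : O ⊗[ℤ] ↥K) :
    K.subtype.lTensor O y ∈ Submodule.span O ((fun c : L => (1 : O) ⊗ₜ[ℤ] c) '' {c | P c}) := by
  induction y using TensorProduct.induction_on with
  | zero => rw [map_zero]; exact Submodule.zero_mem _
  | tmul o c =>
    rw [LinearMap.lTensor_tmul]
    have h : o ⊗ₜ[ℤ] (K.subtype c) = o • ((1 : O) ⊗ₜ[ℤ] (c : L)) := by
      rw [TensorProduct.smul_tmul', smul_eq_mul, mul_one]
      rfl
    rw [h]
    exact Submodule.smul_mem _ _ (Submodule.subset_span ⟨(c : L), hK c c.2, rfl⟩)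
  | add y y' hy hy' => rw [map_add]; exact Submodule.add_mem _ hy hy'

/-- **One map**: the kernel of `f.baseChange O` is spanned by `1 ⊗ c`, `c ∈ ker f`. -/
theorem fk56_mem_span_ker (f : L →ₗ[ℤ] L₁) (x : O ⊗[ℤ] L) (hx : f.baseChange O x = 0) :
    x ∈ Submodule.span O ((fun c : L => (1 : O) ⊗ₜ[ℤ] c) '' {c | f c = 0}) := by
  rw [fk56_baseChange_apply] at hx
  obtain ⟨y, rfl⟩ := fk56_exists_lTensor f x hx
  exact fk56_lTensor_subtype_mem_span (LinearMap.ker f) (fun c => f c = 0)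
    (fun c hc => LinearMap.mem_ker.mp hc) y

/-- **Two maps**: the common kernel of `f₁.baseChange O`, `f₂.baseChange O` is spanned by
`1 ⊗ c`, `f₁ c = 0 = f₂ c`. -/
theorem fk56_mem_span_ker₂ (f₁ : L →ₗ[ℤ] L₁) (f₂ : L →ₗ[ℤ] L₂) (x : O ⊗[ℤ] L)
    (hx₁ : f₁.baseChange O x = 0) (hx₂ : f₂.baseChange O x = 0) :
    x ∈ Submodule.span O ((fun c : L => (1 : O) ⊗ₜ[ℤ] c) '' {c | f₁ c = 0 ∧ f₂ c = 0}) := by
  rw [fk56_baseChange_apply] at hx₁ hx₂
  obtain ⟨y, hyx⟩ := fk56_exists_lTensor f₁ x hx₁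
  -- the second map, restricted to `ker f₁`
  have hy : (f₂.comp (LinearMap.ker f₁).subtype).lTensor O y = 0 := by
    rw [LinearMap.lTensor_comp, LinearMap.comp_apply, hyx]
    exact hx₂
  obtain ⟨z, hzy⟩ := fk56_exists_lTensor (f₂.comp (LinearMap.ker f₁).subtype) y hy
  have hmem : ∀ z : O ⊗[ℤ] ↥(LinearMap.ker (f₂.comp (LinearMap.ker f₁).subtype)),
      (LinearMap.ker f₁).subtype.lTensor O
        ((LinearMap.ker (f₂.comp (LinearMap.ker f₁).subtype)).subtype.lTensor O z) ∈
        Submodule.span O ((fun c : L => (1 : O) ⊗ₜ[ℤ] c) '' {c | f₁ c = 0 ∧ f₂ c = 0}) := by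
    intro z
    induction z using TensorProduct.induction_on with
    | zero => rw [map_zero, map_zero]; exact Submodule.zero_mem _
    | tmul o c =>
      rw [LinearMap.lTensor_tmul, LinearMap.lTensor_tmul]
      have h : o ⊗ₜ[ℤ] ((LinearMap.ker f₁).subtype
          ((LinearMap.ker (f₂.comp (LinearMap.ker f₁).subtype)).subtype c)) =
          o • ((1 : O) ⊗ₜ[ℤ] ((c : ↥(LinearMap.ker f₁)) : L)) := by
        rw [TensorProduct.smul_tmul', smul_eq_mul, mul_one]
        rfl
      rw [h]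
      refine Submodule.smul_mem _ _
        (Submodule.subset_span ⟨((c : ↥(LinearMap.ker f₁)) : L), ⟨?_, ?_⟩, rfl⟩)
      · exact LinearMap.mem_ker.mp (c : ↥(LinearMap.ker f₁)).2
      · exact LinearMap.mem_ker.mp c.2
    | add z z' hz hz' => rw [map_add, map_add]; exact Submodule.add_mem _ hz hz'
  rw [← hyx, ← hzy]
  exact hmem z

/-- **Consequence**: a `ℤ`-linear map `g` vanishing on the common kernel of `f₁`, `f₂` has
`g.baseChange O` vanishing on the common kernel of `f₁.baseChange O`, `f₂.baseChange O`. -/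
theorem fk56_baseChange_comp_eq_zero (f₁ : L →ₗ[ℤ] L₁) (f₂ : L →ₗ[ℤ] L₂) (g : L →ₗ[ℤ] J)
    (hg : ∀ c : L, f₁ c = 0 → f₂ c = 0 → g c = 0) (x : O ⊗[ℤ] L)
    (hx₁ : f₁.baseChange O x = 0) (hx₂ : f₂.baseChange O x = 0) :
    g.baseChange O x = 0 := by
  have hx := fk56_mem_span_ker₂ f₁ f₂ x hx₁ hx₂
  refine Submodule.span_induction ?_ ?_ ?_ ?_ hx
  · rintro _ ⟨c, ⟨h1, h2⟩, rfl⟩
    show g.baseChange O ((1 : O) ⊗ₜ[ℤ] c) = 0
    rw [LinearMap.baseChange_tmul, hg c h1 h2, TensorProduct.tmul_zero]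
  · exact map_zero _
  · intro u v _ _ hu hv
    rw [map_add, hu, hv, add_zero]
  · intro o u _ hu
    rw [map_smul, hu, smul_zero]

end fk56

end Fermat.Agent.S35
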