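import Mathlib
import Fermat.Agent.S30.EigenChar83
import Fermat.Agent.S35.FlatKer56

/-!
# S35 lab, registry row 557 (N5-NewEigenvector), TWIN (helper34): the abstract descent

Mathlib + `S30/EigenChar83` + `S35/FlatKer56` only.

`L` a finite free `ℤ`-module with an action `act : A →+* End_ℤ L`, `R` a discrete valuation ring
of characteristic zero, `χ : A →+* R` a character, `Ω` a FIELD containing `R`, and a finite family
of `ℤ`-linear maps `c i : L → L' i` (`L' i` free; the "corestrictions").

If there is a nonzero `χ`-eigenvector `x̄ ∈ Ω ⊗ L` killed by all the `c i`, then there is a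
PRIMITIVE `χ`-eigenvector `x0 ∈ R ⊗ L` killed by all the `c i`, and `x0` lies in the `R`-span of
the pure tensors `1 ⊗ l`, `l` in the common kernel of the `c i`.

* `ne34_Phi φ L` : the map `Ω ⊗ L → K ⊗ L` induced by a `K`-linear functional `φ : Ω → K`;
* `ne34_exists_Phi_ne_zero` : a nonzero vector survives under some `ne34_Phi φ`;
* `ne34_mem_span_ker_family` : flatness, finite family form of `fk56_mem_span_ker₂`;
* `ne34_descend_frac` : the descent, `K` a fraction field of `R` and `Ω` a `K`-algebra;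
* `ne34_descend` : the descent, `Ω` an `R`-algebra with injective structure map.
-/

set_option autoImplicit false
set_option linter.unusedSectionVars false
set_option linter.unusedVariables false
set_option linter.style.longLine false
set_option linter.style.haveILetI false

open scoped TensorProduct

namespace Fermat.Agent.S35

open Fermat.Agent.S30

section ne34_functional

variable {K : Type*} [Field K] {Ω : Type*} [Field Ω] [Algebra K Ω]

/-- The map `Ω ⊗ L → K ⊗ L` induced by a `K`-linear functional on `Ω`. -/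
noncomputable def ne34_Phi (φ : Ω →ₗ[K] K) (L : Type*) [AddCommGroup L] :
    Ω ⊗[ℤ] L →ₗ[ℤ] K ⊗[ℤ] L :=
  LinearMap.rTensor L (φ.restrictScalars ℤ)

theorem ne34_Phi_tmul (φ : Ω →ₗ[K] K) {L : Type*} [AddCommGroup L] (ω : Ω) (l : L) :
    ne34_Phi φ L (ω ⊗ₜ[ℤ] l) = φ ω ⊗ₜ[ℤ] l := rfl

/-- `ne34_Phi φ` is `K`-semilinear for the scalars coming from `K`. -/
theorem ne34_Phi_smul (φ : Ω →ₗ[K] K) {L : Type*} [AddCommGroup L] (k : K) (x : Ω ⊗[ℤ] L) :
    ne34_Phi φ L (algebraMap K Ω k • x) = k • ne34_Phi φ L x := by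
  induction x using TensorProduct.induction_on with
  | zero => simp only [smul_zero, map_zero]
  | tmul ω l =>
    rw [TensorProduct.smul_tmul', ne34_Phi_tmul, ne34_Phi_tmul, TensorProduct.smul_tmul',
      smul_eq_mul, ← Algebra.smul_def, map_smul]
  | add x y hx hy => simp only [smul_add, map_add, hx, hy]

/-- `ne34_Phi φ` is natural in the lattice. -/
theorem ne34_Phi_baseChange (φ : Ω →ₗ[K] K) {L L' : Type*} [AddCommGroup L] [AddCommGroup L']
    (f : L →ₗ[ℤ] L') (x : Ω ⊗[ℤ] L) :
    f.baseChange K (ne34_Phi φ L x) = ne34_Phi φ L' (f.baseChange Ω x) := by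
  induction x using TensorProduct.induction_on with
  | zero => simp only [map_zero]
  | tmul ω l =>
    rw [ne34_Phi_tmul, LinearMap.baseChange_tmul, LinearMap.baseChange_tmul, ne34_Phi_tmul]
  | add x y hx hy => simp only [map_add, hx, hy]

/-- A nonzero vector of `Ω ⊗ L` (`L` free) survives under some functional. -/
theorem ne34_exists_Phi_ne_zero {L : Type*} [AddCommGroup L] [Module.Free ℤ L]
    (x : Ω ⊗[ℤ] L) (hx : x ≠ 0) : ∃ φ : Ω →ₗ[K] K, ne34_Phi φ L x ≠ 0 := by
  classical
  let ι := Module.Free.ChooseBasisIndex ℤ L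
  let b : Module.Basis ι ℤ L := Module.Free.chooseBasis ℤ L
  let bΩ : Module.Basis ι Ω (Ω ⊗[ℤ] L) := Algebra.TensorProduct.basis Ω b
  let bK : Module.Basis ι K (K ⊗[ℤ] L) := Algebra.TensorProduct.basis K b
  have hcoord : ∀ (φ : Ω →ₗ[K] K) (y : Ω ⊗[ℤ] L) (j : ι),
      bK.repr (ne34_Phi φ L y) j = φ (bΩ.repr y j) := by
    intro φ y j
    induction y using TensorProduct.induction_on with
    | zero => simp only [map_zero, Finsupp.coe_zero, Pi.zero_apply]
    | tmul ω l =>
      rw [ne34_Phi_tmul]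
      simp only [bK, bΩ, Algebra.TensorProduct.basis_repr_tmul, Finsupp.smul_apply,
        Finsupp.mapRange_apply, smul_eq_mul, eq_intCast]
      rw [mul_comm ω, ← zsmul_eq_mul, map_zsmul, zsmul_eq_mul, mul_comm]
    | add y z hy hz => simp only [map_add, Finsupp.add_apply, hy, hz]
  obtain ⟨j, hj⟩ : ∃ j, bΩ.repr x j ≠ 0 := by
    by_contra hall
    push Not at hall
    exact hx (bΩ.repr.map_eq_zero_iff.mp (Finsupp.ext hall))
  obtain ⟨φ, hφ⟩ := Module.Projective.exists_dual_ne_zero K hj
  refine ⟨φ, fun h0 => hφ ?_⟩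
  have h1 := hcoord φ x j
  rw [h0, map_zero] at h1
  exact h1.symm

end ne34_functional

section ne34_flat

variable {O : Type*} [CommRing O] [Module.Flat ℤ O] {L : Type*} [AddCommGroup L]

/-- **Flatness, finite family form**: the common kernel of the `(c i).baseChange O` is spanned by
the pure tensors `1 ⊗ l`, `l` in the common kernel of the `c i`. -/
theorem ne34_mem_span_ker_family {ι : Type*} [Finite ι] {L' : ι → Type*}
    [∀ i, AddCommGroup (L' i)] (c : ∀ i, L →ₗ[ℤ] L' i) (x : O ⊗[ℤ] L)
    (hx : ∀ i, (c i).baseChange O x = 0) :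
    x ∈ Submodule.span O ((fun l : L => (1 : O) ⊗ₜ[ℤ] l) '' {l | ∀ i, c i l = 0}) := by
  classical
  haveI : Fintype ι := Fintype.ofFinite ι
  have hpi : (LinearMap.pi c).baseChange O x = 0 := by
    apply (TensorProduct.piRight ℤ ℤ O L').injective
    rw [map_zero]
    funext i
    have key : ∀ y : O ⊗[ℤ] L,
        TensorProduct.piRight ℤ ℤ O L' ((LinearMap.pi c).baseChange O y) i =
          (c i).baseChange O y := by
      intro y
      induction y using TensorProduct.induction_on with
      | zero => simp only [map_zero, Pi.zero_apply]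
      | tmul o l =>
        rw [LinearMap.baseChange_tmul, LinearMap.baseChange_tmul, TensorProduct.piRight_apply,
          TensorProduct.piRightHom_tmul]
        rfl
      | add y z hy hz => simp only [map_add, Pi.add_apply, hy, hz]
    rw [key x, hx i]
    rfl
  have h := fk56_mem_span_ker (LinearMap.pi c) x hpi
  have hset : {l : L | LinearMap.pi c l = 0} = {l : L | ∀ i, c i l = 0} := by
    ext l
    constructor
    · intro h0 i
      exact congrFun h0 i
    · intro h0
      funext i
      exact h0 i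
  rw [hset] at h
  exact h

end ne34_flat

section ne34_descent

variable {A : Type*} [CommRing A] {L : Type*} [AddCommGroup L] [Module.Free ℤ L]
  [Module.Finite ℤ L]

/-- `ec83_incl` is natural in the lattice. -/
theorem ne34_incl_baseChange (R : Type*) [CommRing R] [IsDomain R] (K : Type*) [Field K]
    [Algebra R K] [IsFractionRing R K] {L₁ L₂ : Type*} [AddCommGroup L₁] [AddCommGroup L₂]
    (f : L₁ →ₗ[ℤ] L₂) (x : R ⊗[ℤ] L₁) :
    ec83_incl R K L₂ (f.baseChange R x) = f.baseChange K (ec83_incl R K L₁ x) := by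
  induction x using TensorProduct.induction_on with
  | zero => simp only [map_zero]
  | tmul r l =>
    rw [LinearMap.baseChange_tmul, ec83_incl_tmul, ec83_incl_tmul, LinearMap.baseChange_tmul]
  | add x y hx hy => simp only [map_add, hx, hy]

/-- **The descent, fraction-field form.** -/
theorem ne34_descend_frac {R : Type*} [CommRing R] [IsDomain R] [IsDiscreteValuationRing R]
    [CharZero R] {K : Type*} [Field K] [Algebra R K] [IsFractionRing R K]
    {Ω : Type*} [Field Ω] [Algebra K Ω]
    {ι : Type*} [Finite ι] {L' : ι → Type*} [∀ i, AddCommGroup (L' i)]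
    [∀ i, Module.Free ℤ (L' i)]
    (act : A →+* Module.End ℤ L) (χ : A →+* R) (c : ∀ i, L →ₗ[ℤ] L' i)
    (xbar : Ω ⊗[ℤ] L) (hx0 : xbar ≠ 0)
    (heig : ∀ a, (act a).baseChange Ω xbar = algebraMap K Ω (algebraMap R K (χ a)) • xbar)
    (hc : ∀ i, (c i).baseChange Ω xbar = 0) :
    ∃ x0 : R ⊗[ℤ] L, x0 ∉ IsLocalRing.maximalIdeal R • (⊤ : Submodule R (R ⊗[ℤ] L)) ∧
      (∀ a, (act a).baseChange R x0 = χ a • x0) ∧ (∀ i, (c i).baseChange R x0 = 0) ∧
      x0 ∈ Submodule.span R ((fun l : L => (1 : R) ⊗ₜ[ℤ] l) '' {l | ∀ i, c i l = 0}) := by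
  classical
  haveI : CharZero K := charZero_of_injective_algebraMap (IsFractionRing.injective R K)
  -- step 1: down to `K ⊗ L`
  obtain ⟨φ, hφ⟩ := ne34_exists_Phi_ne_zero (K := K) xbar hx0
  set v : K ⊗[ℤ] L := ne34_Phi φ L xbar with hv
  have hveig : ∀ a, (act a).baseChange K v = algebraMap R K (χ a) • v := by
    intro a
    rw [hv, ne34_Phi_baseChange, heig a, ne34_Phi_smul]
  have hvc : ∀ i, (c i).baseChange K v = 0 := by
    intro i
    rw [hv, ne34_Phi_baseChange, hc i, map_zero]
  -- step 2: clear denominators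
  obtain ⟨d, hd, x, hx⟩ := ec83_clear R K v
  have hd' : algebraMap R K d ≠ 0 := by
    intro h'
    exact hd ((IsFractionRing.injective R K) (by rw [h', map_zero]))
  have hdv : d • v ≠ 0 := by
    intro h
    rw [← algebraMap_smul K d v] at h
    exact hφ ((smul_eq_zero_iff_right hd').mp h)
  have hxne : x ≠ 0 := fun h => hdv (by rw [← hx, h, map_zero])
  have hx' : ec83_incl R K L x = algebraMap R K d • v := by rw [hx, algebraMap_smul]
  have hxeig : ∀ a, (act a).baseChange R x = χ a • x := by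
    intro a
    apply ec83_incl_injective R K
    rw [ec83_incl_baseChange, map_smul, hx', map_smul, hveig a,
      ← algebraMap_smul K (χ a) (algebraMap R K d • v), smul_comm]
  have hxc : ∀ i, (c i).baseChange R x = 0 := by
    intro i
    apply ec83_incl_injective R K (L := L' i)
    rw [ne34_incl_baseChange, hx', map_smul, hvc i, smul_zero, map_zero]
  -- step 3: make it primitive
  obtain ⟨ϖ, hϖ⟩ := IsDiscreteValuationRing.exists_irreducible R
  have hm : IsLocalRing.maximalIdeal R = Ideal.span {ϖ} := hϖ.maximalIdeal_eq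
  have hmem : ∀ (k : ℕ) (y : R ⊗[ℤ] L),
      y ∈ IsLocalRing.maximalIdeal R ^ k • (⊤ : Submodule R (R ⊗[ℤ] L)) ↔
        ∃ z : R ⊗[ℤ] L, ϖ ^ k • z = y := by
    intro k y
    rw [hm, Ideal.span_singleton_pow, Submodule.ideal_span_singleton_smul,
      Submodule.mem_smul_pointwise_iff_exists]
    constructor
    · rintro ⟨z, -, hz⟩
      exact ⟨z, hz⟩
    · rintro ⟨z, hz⟩
      exact ⟨z, Submodule.mem_top, hz⟩
  have hkrull : ∃ k : ℕ, x ∉ IsLocalRing.maximalIdeal R ^ k • (⊤ : Submodule R (R ⊗[ℤ] L)) := by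
    by_contra hall
    push Not at hall
    have h1 : x ∈ ⨅ i : ℕ, IsLocalRing.maximalIdeal R ^ i • (⊤ : Submodule R (R ⊗[ℤ] L)) :=
      (Submodule.mem_iInf _).mpr hall
    rw [Ideal.iInf_pow_smul_eq_bot_of_isLocalRing (IsLocalRing.maximalIdeal R)
      (Ideal.IsMaximal.ne_top inferInstance)] at h1
    exact hxne h1
  have hk0 : Nat.find hkrull ≠ 0 := by
    intro h0
    have h1 := Nat.find_spec hkrull
    rw [h0, pow_zero, Ideal.one_eq_top, Submodule.top_smul] at h1
    exact h1 Submodule.mem_top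
  obtain ⟨k, hk⟩ := Nat.exists_eq_succ_of_ne_zero hk0
  have hin : x ∈ IsLocalRing.maximalIdeal R ^ k • (⊤ : Submodule R (R ⊗[ℤ] L)) := by
    by_contra h
    exact Nat.find_min hkrull (m := k) (by omega) h
  have hout : x ∉ IsLocalRing.maximalIdeal R ^ (k + 1) • (⊤ : Submodule R (R ⊗[ℤ] L)) := by
    have h1 := Nat.find_spec hkrull
    rwa [hk] at h1
  obtain ⟨y, hy⟩ := (hmem k x).mp hin
  have hϖk : ϖ ^ k ≠ 0 := pow_ne_zero k hϖ.ne_zero
  have hyc : ∀ i, (c i).baseChange R y = 0 := by
    intro i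
    have h1 : ϖ ^ k • (c i).baseChange R y = 0 := by
      rw [← map_smul, hy, hxc i]
    exact (smul_eq_zero_iff_right hϖk).mp h1
  refine ⟨y, fun hymem => hout ?_, fun a => ?_, hyc, ?_⟩
  · rw [← pow_one (IsLocalRing.maximalIdeal R)] at hymem
    obtain ⟨z, hz⟩ := (hmem 1 y).mp hymem
    rw [pow_one] at hz
    refine (hmem (k + 1) x).mpr ⟨z, ?_⟩
    rw [pow_succ, mul_smul, hz, hy]
  · have h1 : ϖ ^ k • ((act a).baseChange R y - χ a • y) = 0 := by
      rw [smul_sub, ← map_smul, smul_comm, hy, hxeig a, sub_self]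
    exact sub_eq_zero.mp ((smul_eq_zero_iff_right hϖk).mp h1)
  · exact ne34_mem_span_ker_family c y hyc

/-- **The descent** (`Ω` a field containing `R`): a nonzero `χ`-eigenvector over `Ω` killed by
the finite family `c` gives a primitive `χ`-eigenvector over `R`, killed by the family and lying
in the `R`-span of the common kernel of the family. -/
theorem ne34_descend {R : Type*} [CommRing R] [IsDomain R] [IsDiscreteValuationRing R]
    [CharZero R] {Ω : Type*} [Field Ω] [Algebra R Ω]
    (hinj : Function.Injective (algebraMap R Ω))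
    {ι : Type*} [Finite ι] {L' : ι → Type*} [∀ i, AddCommGroup (L' i)]
    [∀ i, Module.Free ℤ (L' i)]
    (act : A →+* Module.End ℤ L) (χ : A →+* R) (c : ∀ i, L →ₗ[ℤ] L' i)
    (xbar : Ω ⊗[ℤ] L) (hx0 : xbar ≠ 0)
    (heig : ∀ a, (act a).baseChange Ω xbar = algebraMap R Ω (χ a) • xbar)
    (hc : ∀ i, (c i).baseChange Ω xbar = 0) :
    ∃ x0 : R ⊗[ℤ] L, x0 ∉ IsLocalRing.maximalIdeal R • (⊤ : Submodule R (R ⊗[ℤ] L)) ∧
      (∀ a, (act a).baseChange R x0 = χ a • x0) ∧ (∀ i, (c i).baseChange R x0 = 0) ∧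
      x0 ∈ Submodule.span R ((fun l : L => (1 : R) ⊗ₜ[ℤ] l) '' {l | ∀ i, c i l = 0}) := by
  haveI : FaithfulSMul R Ω := (faithfulSMul_iff_algebraMap_injective R Ω).mpr hinj
  letI : Algebra (FractionRing R) Ω := FractionRing.liftAlgebra R Ω
  haveI : IsScalarTower R (FractionRing R) Ω := FractionRing.isScalarTower_liftAlgebra R Ω
  refine ne34_descend_frac (K := FractionRing R) act χ c xbar hx0 (fun a => ?_) hc
  rw [heig a, IsScalarTower.algebraMap_apply R (FractionRing R) Ω]

end ne34_descent

end Fermat.Agent.S35
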