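/-
S35 lab, lattice newness (helper42).

**An eigenvector in the lattice `O ⊗ Hom_par(Γ₀(N), ℤ)` produces a normalised eigenform of level `N`.**

`L := parabolicHoms ℤ (Gamma0 N) ℤ` (the lattice of S31/HeckeLattice42), `hl42_TL N ℓ` the Hecke
operator at `ℓ` on `L`.  `P` a set of primes not dividing `N`; `O` a domain; `R` a commutative ring
with an INJECTIVE ring hom `ι : R →+* O` and a ring hom `j : R →+* ℂ`; `r : ℕ → R`.

* `nl42_Theta N : ℂ ⊗[ℤ] L →ₗ[ℂ] Hom(Γ₀(N), ℂ)`, `c ⊗ χ ↦ c • χ`, is INJECTIVE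
  (`nl42_Theta_injective`: a `ℤ`-basis of `L` stays `ℂ`-linearly independent), lands in the
  parabolic homomorphisms and commutes with the Hecke operators.
* `nl42_exists_eigenform` : if `0 ≠ y ∈ O ⊗[ℤ] L` satisfies `(1 ⊗ T_ℓ) y = ι (r ℓ) • y` for all
  `ℓ ∈ P`, there is a normalised eigenform `f` of level `N` with `a_ℓ(f) = j (r ℓ)` for `ℓ ∈ P`.
* `nl42_newform_kills` : if `g` is a NEWFORM of level `M`, `N ∣ M`, `N ≠ M`, and
  `j (r ℓ) = a_ℓ(g)` for all primes `ℓ ∤ M`, then every `y ∈ O ⊗[ℤ] L` with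
  `(1 ⊗ T_ℓ) y = ι (r ℓ) • y` for all primes `ℓ ∤ M` is ZERO.
-/
import Mathlib
import Fermat.Prelude.Def_CuspForm_Newforms
import Fermat.Agent.S30.EigE4_42

set_option autoImplicit false
set_option linter.unusedSectionVars false
set_option linter.style.longLine false

open CongruenceSubgroup ModularCurve ModularCurve.Period
open scoped TensorProduct

namespace Fermat.Agent.S35

open Fermat.Agent.S16 Fermat.Agent.S31 Fermat.Agent.S41 Fermat.Agent.S30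

section Theta

variable (N : ℕ)

/-- `Θ : ℂ ⊗[ℤ] L → Hom(Γ₀(N), ℂ)`, `c ⊗ χ ↦ c • χ`. -/
noncomputable def nl42_Theta :
    ℂ ⊗[ℤ] ↥(parabolicHoms ℤ (Gamma0 N) ℤ) →ₗ[ℂ] (Additive (Gamma0 N) →+ ℂ) :=
  (hl42_iota N).liftBaseChange ℂ

theorem nl42_Theta_tmul (c : ℂ) (χ : parabolicHoms ℤ (Gamma0 N) ℤ) :
    nl42_Theta N (c ⊗ₜ[ℤ] χ) = c • hl42_iota N χ := rfl

/-- `Θ` lands in the parabolic homomorphisms. -/
theorem nl42_Theta_parabolic (v : ℂ ⊗[ℤ] ↥(parabolicHoms ℤ (Gamma0 N) ℤ)) :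
    nl42_Theta N v ∈ parabolicHoms ℂ (Gamma0 N) ℂ := by
  induction v using TensorProduct.induction_on with
  | zero => rw [map_zero]; exact Submodule.zero_mem _
  | tmul c χ =>
    rw [nl42_Theta_tmul]
    exact Submodule.smul_mem _ c (hl42_iota_parabolic N χ)
  | add x y hx hy => rw [map_add]; exact Submodule.add_mem _ hx hy

/-- `Θ` commutes with the Hecke operators. -/
theorem nl42_Theta_hecke (ℓ : ℕ) (v : ℂ ⊗[ℤ] ↥(parabolicHoms ℤ (Gamma0 N) ℤ)) :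
    heckeHom N ℓ ℂ (nl42_Theta N v) = nl42_Theta N ((hl42_TL N ℓ).baseChange ℂ v) := by
  induction v using TensorProduct.induction_on with
  | zero => simp only [map_zero]
  | tmul c χ =>
    rw [LinearMap.baseChange_tmul, nl42_Theta_tmul, nl42_Theta_tmul, hl42_hecke_smul,
      ← hl42_TC_iota]
    rfl
  | add x y hx hy => rw [map_add, map_add, map_add, map_add, hx, hy]

end Theta

section Inj

variable (N : ℕ) [NeZero N]

/-- **`Θ` is injective**: a `ℤ`-basis of the lattice stays linearly independent over `ℂ`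
(apply an arbitrary `ℚ`-linear functional `ℂ → ℚ` to a complex relation). -/
theorem nl42_Theta_injective : Function.Injective (nl42_Theta N) := by
  have := ee42_finite N
  have := ee42_free N
  rw [injective_iff_map_eq_zero]
  intro v hv
  let b := Module.Free.chooseBasis ℤ ↥(parabolicHoms ℤ (Gamma0 N) ℤ)
  let bC := b.baseChange ℂ
  have hrepr : v = ∑ i, bC.repr v i • ((1 : ℂ) ⊗ₜ[ℤ] b i) := by
    conv_lhs => rw [← bC.sum_repr v]
    refine Finset.sum_congr rfl fun i _ => ?_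
    rw [Module.Basis.baseChange_apply]
  have hpt : ∀ γ : Additive (Gamma0 N),
      ∑ i, bC.repr v i * (((b i : Additive (Gamma0 N) →+ ℤ) γ : ℤ) : ℂ) = 0 := by
    intro γ
    have h1 := congrArg (fun w : Additive (Gamma0 N) →+ ℂ => w γ) hv
    rw [hrepr] at h1
    simp only [map_sum, map_smul, nl42_Theta_tmul, one_smul, AddMonoidHom.zero_apply,
      AddMonoidHom.finsetSum_apply] at h1
    exact h1
  let w : Module.Free.ChooseBasisIndex ℤ ↥(parabolicHoms ℤ (Gamma0 N) ℤ) →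
      (Additive (Gamma0 N) → ℚ) :=
    fun i γ => (((b i : Additive (Gamma0 N) →+ ℤ) γ : ℤ) : ℚ)
  have hwZ : LinearIndependent ℤ w := by
    let e : ↥(parabolicHoms ℤ (Gamma0 N) ℤ) →ₗ[ℤ] (Additive (Gamma0 N) → ℚ) :=
      { toFun := fun χ γ => (((χ : Additive (Gamma0 N) →+ ℤ) γ : ℤ) : ℚ)
        map_add' := fun x y => by
          funext γ
          simp
        map_smul' := fun n x => by
          funext γ
          simp }
    have he : LinearMap.ker e = ⊥ := by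
      rw [LinearMap.ker_eq_bot']
      intro χ hχ
      apply Subtype.ext
      apply AddMonoidHom.ext
      intro γ
      have h2 := congrFun hχ γ
      simpa [e] using h2
    exact b.linearIndependent.map' e he
  have hwQ : LinearIndependent ℚ w := (LinearIndependent.iff_fractionRing ℤ ℚ).mp hwZ
  have hc : ∀ i, bC.repr v i = 0 := by
    intro i
    rw [← Module.forall_dual_apply_eq_zero_iff ℚ (bC.repr v i)]
    intro φ
    have h2 : ∑ k, φ (bC.repr v k) • w k = 0 := by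
      funext γ
      have h3 := congrArg φ (hpt γ)
      rw [map_sum, map_zero] at h3
      rw [Finset.sum_apply, Pi.zero_apply, ← h3]
      refine Finset.sum_congr rfl fun k _ => ?_
      have h4 : bC.repr v k * (((b k : Additive (Gamma0 N) →+ ℤ) γ : ℤ) : ℂ)
          = ((((b k : Additive (Gamma0 N) →+ ℤ) γ : ℤ) : ℚ)) • bC.repr v k := by
        rw [Rat.smul_def, Rat.cast_intCast, mul_comm]
      rw [h4, map_smul, Pi.smul_apply, smul_eq_mul, smul_eq_mul, mul_comm]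
    exact Fintype.linearIndependent_iff.mp hwQ (fun k => φ (bC.repr v k)) h2 i
  have hz : bC.repr v = 0 := Finsupp.ext hc
  exact (LinearEquiv.map_eq_zero_iff bC.repr).mp hz

end Inj

section Scalar

variable (N : ℕ) [NeZero N]

/-- Every element of the Hecke algebra generated by the `T_ℓ`, `ℓ ∈ P`, acts on an eigenvector
`y` of these `T_ℓ` by a scalar coming from `R`. -/
theorem nl42_scalar (P : Set ℕ) (hP : ∀ ℓ ∈ P, ℓ.Prime ∧ ¬ ℓ ∣ N)
    {O : Type*} [CommRing O] {R : Type*} [CommRing R] (ι : R →+* O) (r : ℕ → R)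
    (y : O ⊗[ℤ] ↥(parabolicHoms ℤ (Gamma0 N) ℤ))
    (hev : ∀ ℓ ∈ P, (hl42_TL N ℓ).baseChange O y = ι (r ℓ) • y)
    (t : CuspForm.heckeAlgebra N 2 Pᶜ) :
    ∃ c : R, (hl42_act N Pᶜ t).baseChange O y = ι c • y := by
  obtain ⟨x, hx⟩ := t
  refine Algebra.adjoin_induction
    (p := fun x hx => ∃ c : R, (hl42_act N Pᶜ ⟨x, hx⟩).baseChange O y = ι c • y)
    ?_ ?_ ?_ ?_ hx
  · rintro x (⟨ℓ, hℓ, hℓN, hℓS, rfl⟩ | ⟨q, hqN, hq, hqS, rfl⟩)
    · have hℓP : ℓ ∈ P := Set.notMem_compl_iff.mp hℓS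
      refine ⟨r ℓ, ?_⟩
      have h1 := hl42_act_T N Pᶜ hℓ hℓN hℓS
      have h2 : (hl42_act N Pᶜ ⟨CuspForm.heckeTLin 2 hℓ hℓN,
          Algebra.subset_adjoin (Or.inl ⟨ℓ, hℓ, hℓN, hℓS, rfl⟩)⟩) = hl42_TL N ℓ := h1
      rw [h2]
      exact hev ℓ hℓP
    · exact absurd hqN (hP q (Set.notMem_compl_iff.mp hqS)).2
  · intro n
    refine ⟨(n : R), ?_⟩
    have h1 : (⟨algebraMap ℤ _ n, Subalgebra.algebraMap_mem _ n⟩ :
        CuspForm.heckeAlgebra N 2 Pᶜ) = ((n : ℤ) : CuspForm.heckeAlgebra N 2 Pᶜ) := by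
      apply Subtype.ext
      simp
    rw [h1, map_intCast, map_intCast]
    have h2 : ((n : ℤ) : Module.End ℤ ↥(parabolicHoms ℤ (Gamma0 N) ℤ)) = n • 1 := by
      simp
    rw [h2, LinearMap.baseChange_smul, LinearMap.baseChange_one, LinearMap.smul_apply,
      Module.End.one_apply, Int.cast_smul_eq_zsmul]
  · rintro a b ha hb ⟨ca, hca⟩ ⟨cb, hcb⟩
    refine ⟨ca + cb, ?_⟩
    have h1 : (⟨a + b, add_mem ha hb⟩ : CuspForm.heckeAlgebra N 2 Pᶜ) = ⟨a, ha⟩ + ⟨b, hb⟩ := rfl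
    rw [h1, map_add, LinearMap.baseChange_add, LinearMap.add_apply, hca, hcb, map_add, add_smul]
  · rintro a b ha hb ⟨ca, hca⟩ ⟨cb, hcb⟩
    refine ⟨ca * cb, ?_⟩
    have h1 : (⟨a * b, mul_mem ha hb⟩ : CuspForm.heckeAlgebra N 2 Pᶜ) = ⟨a, ha⟩ * ⟨b, hb⟩ := rfl
    rw [h1, map_mul, LinearMap.baseChange_mul, Module.End.mul_apply, hcb, map_smul, hca,
      smul_smul, map_mul, mul_comm]

end Scalar

section Main

variable (N : ℕ) [NeZero N]

/-- **Lattice eigenvector ⟹ eigenform.**  A nonzero vector of `O ⊗[ℤ] Hom_par(Γ₀(N), ℤ)` which is an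
eigenvector of the Hecke operators `T_ℓ`, `ℓ ∈ P` (`P` a set of primes not dividing `N`), with
eigenvalues `ι (r ℓ)`, `ι : R →+* O` injective, gives a normalised eigenform of level `N` whose
`ℓ`-th coefficients are `j (r ℓ)`, `ℓ ∈ P`, for any ring homomorphism `j : R →+* ℂ`. -/
theorem nl42_exists_eigenform (P : Set ℕ) (hP : ∀ ℓ ∈ P, ℓ.Prime ∧ ¬ ℓ ∣ N)
    {O : Type*} [CommRing O] [IsDomain O] {R : Type*} [CommRing R]
    (ι : R →+* O) (hι : Function.Injective ι) (j : R →+* ℂ) (r : ℕ → R)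
    (y : O ⊗[ℤ] ↥(parabolicHoms ℤ (Gamma0 N) ℤ)) (hy : y ≠ 0)
    (hev : ∀ ℓ ∈ P, (hl42_TL N ℓ).baseChange O y = ι (r ℓ) • y) :
    ∃ f : CuspForm (Gamma0 N) 2, f.IsNormalizedEigenform ∧
      ∀ ℓ ∈ P, ModularFormClass.qCoeff f ℓ = j (r ℓ) := by
  classical
  have := ee42_finite N
  have := ee42_free N
  -- uniqueness of the scalar
  have huniq : ∀ c c' : R, ι c • y = ι c' • y → c = c' := by
    intro c c' h
    apply hι
    have h1 : (ι c - ι c') • y = 0 := by rw [sub_smul, h, sub_self]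
    rcases smul_eq_zero.mp h1 with h2 | h2
    · exact sub_eq_zero.mp h2
    · exact absurd h2 hy
  choose ψ₀ hψ₀ using fun t => nl42_scalar N P hP ι r y hev t
  -- the eigencharacter, with values in `R`
  let ψ : CuspForm.heckeAlgebra N 2 Pᶜ →+* R :=
    { toFun := ψ₀
      map_one' := by
        apply huniq
        rw [← hψ₀, map_one, LinearMap.baseChange_one, Module.End.one_apply, map_one, one_smul]
      map_mul' := fun s t => by
        apply huniq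
        rw [← hψ₀, map_mul, LinearMap.baseChange_mul, Module.End.mul_apply, hψ₀ t, map_smul,
          hψ₀ s, smul_smul, map_mul, mul_comm]
      map_zero' := by
        apply huniq
        rw [← hψ₀, map_zero, LinearMap.baseChange_zero, LinearMap.zero_apply, map_zero, zero_smul]
      map_add' := fun s t => by
        apply huniq
        rw [← hψ₀, map_add, LinearMap.baseChange_add, LinearMap.add_apply, hψ₀, hψ₀, map_add,
          add_smul] }
  have hψT : ∀ ℓ (hℓ : ℓ ∈ P), ψ (CuspForm.heckeAlgebra.T (hP ℓ hℓ).1 (hP ℓ hℓ).2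
      (Set.notMem_compl_iff.mpr hℓ)) = r ℓ := by
    intro ℓ hℓ
    apply huniq
    show ι (ψ₀ _) • y = _
    rw [← hψ₀, hl42_act_T]
    exact hev ℓ hℓ
  -- an eigenvector over `ℂ`
  obtain ⟨v, hv0, hv⟩ := ec83_exists_field ℂ (hl42_act N Pᶜ) (hl42_act_injective N Pᶜ)
    (j.comp ψ)
  -- the corresponding parabolic homomorphism
  have hχ0 : nl42_Theta N v ≠ 0 := fun h =>
    hv0 (nl42_Theta_injective N (by rw [h, map_zero]))
  have hχeig : ∀ ℓ ∈ P, heckeHom N ℓ ℂ (nl42_Theta N v) = j (r ℓ) • nl42_Theta N v := by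
    intro ℓ hℓ
    rw [nl42_Theta_hecke, ← hl42_act_T N Pᶜ (hP ℓ hℓ).1 (hP ℓ hℓ).2
      (Set.notMem_compl_iff.mpr hℓ), hv, map_smul, RingHom.comp_apply, hψT ℓ hℓ]
  -- a cusp form with the same eigenvalues
  obtain ⟨f, hf0, hf, -⟩ := es60_exists_form P ∅ (nl42_Theta N v) (nl42_Theta_parabolic N v)
    hχ0 (fun ℓ => j (r ℓ)) hχeig (fun ℓ hℓ => absurd hℓ (Set.notMem_empty ℓ))
  -- a common eigenvector of ALL Hecke operators in the eigenspace
  have := es60_finiteDimensional N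
  let W : Submodule ℂ (CuspForm (Gamma0 N) 2) :=
    { carrier := {h | ∀ ℓ ∈ P, es60_T N ℓ h = j (r ℓ) • h}
      add_mem' := by
        intro a b ha hb ℓ hℓ
        rw [map_add, ha ℓ hℓ, hb ℓ hℓ, smul_add]
      zero_mem' := fun ℓ _ => by rw [map_zero, smul_zero]
      smul_mem' := by
        intro c a ha ℓ hℓ
        rw [map_smul, ha ℓ hℓ, smul_comm] }
  have hWmem : ∀ h, h ∈ W ↔ ∀ ℓ ∈ P, es60_T N ℓ h = j (r ℓ) • h := fun h => Iff.rfl
  have hW : W ≠ ⊥ := by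
    intro h0
    apply hf0
    have : f ∈ W := (hWmem f).2 hf
    rw [h0] at this
    exact (Submodule.mem_bot ℂ).1 this
  let 𝒯 : Set (Module.End ℂ (CuspForm (Gamma0 N) 2)) := Set.range (es60_T N)
  have hcomm : ∀ A ∈ 𝒯, ∀ B ∈ 𝒯, ∀ x : CuspForm (Gamma0 N) 2, A (B x) = B (A x) := by
    rintro _ ⟨ℓ, rfl⟩ _ ⟨ℓ', rfl⟩ x
    exact es60_T_comm_apply ℓ ℓ' x
  have hinv : ∀ A ∈ 𝒯, ∀ w ∈ W, A w ∈ W := by
    rintro _ ⟨ℓ', rfl⟩ w hw
    refine (hWmem _).2 fun ℓ hℓ => ?_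
    rw [es60_T_comm_apply ℓ ℓ' w, (hWmem w).1 hw ℓ hℓ, map_smul]
  obtain ⟨w, hwW, hw0, hwe⟩ := Fermat.Agent.S49.exists_common_eigenvector 𝒯 hcomm W hW hinv
  choose lam hlam using fun ℓ : ℕ => hwe (es60_T N ℓ) ⟨ℓ, rfl⟩
  obtain ⟨g, hg, hgp⟩ := Fermat.Agent.S49.exists_normalized_of_eigenvector w hw0 lam
    (fun p hp hpM => by rw [← es60_T_of_not_dvd hp hpM]; exact hlam p)
    (fun p hp hpM => by rw [← es60_T_of_dvd hp hpM]; exact hlam p)
  refine ⟨g, hg, fun ℓ hℓ => ?_⟩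
  rw [hgp ℓ (hP ℓ hℓ).1]
  have h := (hWmem w).1 hwW ℓ hℓ
  rw [hlam ℓ] at h
  exact smul_left_injective ℂ hw0 h

/-- **Lattice newness.**  Let `g` be a NEWFORM of level `M` and `N` a proper divisor of `M`.
If `j (r ℓ) = a_ℓ(g)` for all primes `ℓ ∤ M` (`j : R →+* ℂ`, `ι : R →+* O` injective, `O` a
domain), then every `y ∈ O ⊗[ℤ] Hom_par(Γ₀(N), ℤ)` with `(1 ⊗ T_ℓ) y = ι (r ℓ) • y` for all primes
`ℓ ∤ M` vanishes: the eigensystem of a newform does not occur in the lattice of a lower level. -/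
theorem nl42_newform_kills {M : ℕ} (hNM : N ∣ M) (hne : N ≠ M)
    {g : CuspForm (Gamma0 M) 2} (hg : g.IsNewform)
    {O : Type*} [CommRing O] [IsDomain O] {R : Type*} [CommRing R]
    (ι : R →+* O) (hι : Function.Injective ι) (j : R →+* ℂ) (r : ℕ → R)
    (hr : ∀ ℓ : ℕ, ℓ.Prime → ¬ ℓ ∣ M → j (r ℓ) = ModularFormClass.qCoeff g ℓ)
    (y : O ⊗[ℤ] ↥(parabolicHoms ℤ (Gamma0 N) ℤ))
    (hev : ∀ ℓ : ℕ, ℓ.Prime → ¬ ℓ ∣ M → (hl42_TL N ℓ).baseChange O y = ι (r ℓ) • y) :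
    y = 0 := by
  by_contra hy
  obtain ⟨f, hf, hfa⟩ := nl42_exists_eigenform N {ℓ | ℓ.Prime ∧ ¬ ℓ ∣ M}
    (fun ℓ hℓ => ⟨hℓ.1, fun h => hℓ.2 (h.trans hNM)⟩) ι hι j r y hy
    (fun ℓ hℓ => hev ℓ hℓ.1 hℓ.2)
  exact hg.2 N hNM hne ⟨f, hf, fun ℓ hℓ hℓM => (hfa ℓ ⟨hℓ, hℓM⟩).trans (hr ℓ hℓ hℓM)⟩

end Main

section NewVec

/-- **Lattice newness, kernel form** (the literal shape of registry row N2b, `nv28_newvec`):
`ι : R →+* O` need not be injective, only `ker ι ⊆ ker j`.  Let `g` be a NEWFORM of level `M`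
and `M'` a proper divisor of `M`.  If `j (c ℓ) = a_ℓ(g)` for all primes `ℓ ∤ M`, then every
`y ∈ O ⊗[ℤ] Hom_par(Γ₀(M'), ℤ)` with `(1 ⊗ T_ℓ) y = ι (c ℓ) • y` for all primes `ℓ ∤ M`
vanishes. -/
theorem nl42_newvec {M : ℕ} [NeZero M] {g : CuspForm (Gamma0 M) 2} (hg : g.IsNewform)
    (M' : ℕ) [NeZero M'] (hM' : M' ∣ M) (hne : M' ≠ M)
    {O : Type*} [CommRing O] [IsDomain O] {R : Type*} [CommRing R]
    (j : R →+* ℂ) (ι : R →+* O) (hker : ∀ r, ι r = 0 → j r = 0)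
    (c : ℕ → R)
    (hc : ∀ ℓ : ℕ, ℓ.Prime → ¬ ℓ ∣ M → j (c ℓ) = ModularFormClass.qCoeff g ℓ)
    (y : O ⊗[ℤ] ↥(parabolicHoms ℤ (Gamma0 M') ℤ))
    (hy : ∀ ℓ : ℕ, ℓ.Prime → ¬ ℓ ∣ M → (hl42_TL M' ℓ).baseChange O y = ι (c ℓ) • y) :
    y = 0 := by
  refine nl42_newform_kills M' hM' hne hg (RingHom.kerLift ι) (RingHom.kerLift_injective ι)
    (Ideal.Quotient.lift (RingHom.ker ι) j fun r hr => hker r ((RingHom.mem_ker).1 hr))
    (fun ℓ => Ideal.Quotient.mk (RingHom.ker ι) (c ℓ)) (fun ℓ hℓ hℓM => ?_) y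
    (fun ℓ hℓ hℓM => ?_)
  · rw [Ideal.Quotient.lift_mk]
    exact hc ℓ hℓ hℓM
  · rw [RingHom.kerLift_mk]
    exact hy ℓ hℓ hℓM

/-- The same with an arbitrary family `TL` of endomorphisms of the lattice whose underlying
maps are the Hecke operators `heckeHom M' ℓ ℤ` (the shape of `s30i37_ETClaim`). -/
theorem nl42_newvec_of_coe {M : ℕ} [NeZero M] {g : CuspForm (Gamma0 M) 2} (hg : g.IsNewform)
    (M' : ℕ) [NeZero M'] (hM' : M' ∣ M) (hne : M' ≠ M)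
    {O : Type*} [CommRing O] [IsDomain O] {R : Type*} [CommRing R]
    (j : R →+* ℂ) (ι : R →+* O) (hker : ∀ r, ι r = 0 → j r = 0)
    (c : ℕ → R)
    (hc : ∀ ℓ : ℕ, ℓ.Prime → ¬ ℓ ∣ M → j (c ℓ) = ModularFormClass.qCoeff g ℓ)
    (TL : ℕ → Module.End ℤ ↥(parabolicHoms ℤ (Gamma0 M') ℤ))
    (hTL : ∀ (ℓ : ℕ) (χ : ↥(parabolicHoms ℤ (Gamma0 M') ℤ)),
      ((TL ℓ χ : ↥(parabolicHoms ℤ (Gamma0 M') ℤ)) : Additive (Gamma0 M') →+ ℤ)
        = heckeHom M' ℓ ℤ (χ : Additive (Gamma0 M') →+ ℤ))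
    (y : O ⊗[ℤ] ↥(parabolicHoms ℤ (Gamma0 M') ℤ))
    (hy : ∀ ℓ : ℕ, ℓ.Prime → ¬ ℓ ∣ M → (TL ℓ).baseChange O y = ι (c ℓ) • y) :
    y = 0 := by
  have hTLeq : ∀ ℓ, TL ℓ = hl42_TL M' ℓ := by
    intro ℓ
    refine LinearMap.ext fun χ => Subtype.ext ?_
    rw [hTL ℓ χ]
    rfl
  refine nl42_newvec hg M' hM' hne j ι hker c hc y fun ℓ hℓ hℓM => ?_
  rw [← hTLeq ℓ]
  exact hy ℓ hℓ hℓM

end NewVec

end Fermat.Agent.S35
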