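import Mathlib
import Fermat.Agent.S35.NewEigAbs34
import Fermat.Agent.S35.NewLattice42

/-!
# S35 lab, registry row 557 (N5-NewEigenvector), TWIN (helper34): the concrete marked eigenvector

The frozen statement S35 gives `iota` only on `chig.range = ℤ[a_ℓ(g) : ℓ ∤ M, ℓ ∉ S]`, while
newness (`IsNewform`) speaks about ALL primes `ℓ ∤ M`.  This file produces, over `O'` ITSELF, a
primitive eigenvector `x0 ∈ O' ⊗ L(M)` of the Hecke algebra away from `S` with character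
`iota ∘ chig`, which is killed by every `ℤ`-linear map `c i : L(M) → L(M' i)` to the lattice of a
proper divisor level `M' i` commuting with the Hecke operators at all primes `ℓ ∤ M`
(the corestrictions), and lies in the `O'`-span of the common kernel of the `c i`.

Route: `Ω := AlgebraicClosure (FractionRing O')`; the full eigencharacter `Ψ` of `g` on the Hecke
algebra away from the primes of `M`; `iota` extends to `Ψ.range → Ω` (`IsAlgClosed.lift`);
`ec83_exists_field` gives an eigenvector over `Ω`; it is killed by the `c i` by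
`nl42_newvec` (helper42) at `O := Ω`; descent by `ne34_descend`.

* `ne34_hecke_induction` : induction principle for `heckeAlgebra M 2 S₁`, `S₁ ⊇ primes of M`;
* `ne34_exists_char` : the eigencharacter of a normalised eigenform;
* `ne34_injective_of_integral` : a ring hom from a domain integral over `ℤ` to a ring of
  characteristic zero is injective;
* `ne34_exists_Omega` : the eigenvector over `Ω`;
* `ne34_exists` : the marked NEW primitive eigenvector over `O'`;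
* `ne34_exists_hE4` : the same in the shape of `hE4` of `s30e37_endgame` / `s35i62_NewClaim`.
-/

set_option autoImplicit false
set_option linter.unusedSectionVars false
set_option linter.unusedVariables false
set_option linter.style.longLine false
set_option linter.style.haveILetI false

open CongruenceSubgroup ModularCurve ModularCurve.Period
open scoped TensorProduct

namespace Fermat.Agent.S35

open Fermat.Agent.S16 Fermat.Agent.S31 Fermat.Agent.S41 Fermat.Agent.S30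

/-! ### Small base-change lemmas -/

section ne34_bc

variable {O : Type*} [CommRing O] {L : Type*} [AddCommGroup L]

theorem ne34_bc_int (r : ℤ) (y : O ⊗[ℤ] L) :
    ((r : Module.End ℤ L)).baseChange O y = (r : O) • y := by
  induction y using TensorProduct.induction_on with
  | zero => simp only [map_zero, smul_zero]
  | tmul o l =>
    rw [LinearMap.baseChange_tmul, Module.End.intCast_apply, TensorProduct.tmul_smul,
      ← Int.cast_smul_eq_zsmul O r (o ⊗ₜ[ℤ] l)]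
  | add y z hy hz => simp only [map_add, smul_add, hy, hz]

theorem ne34_bc_add (f g : Module.End ℤ L) (y : O ⊗[ℤ] L) :
    (f + g).baseChange O y = f.baseChange O y + g.baseChange O y := by
  rw [LinearMap.baseChange_add, LinearMap.add_apply]

theorem ne34_bc_mul (f g : Module.End ℤ L) (y : O ⊗[ℤ] L) :
    (f * g).baseChange O y = f.baseChange O (g.baseChange O y) := by
  rw [Module.End.mul_eq_comp, LinearMap.baseChange_comp, LinearMap.comp_apply]

theorem ne34_bc_comp {L₁ L₂ : Type*} [AddCommGroup L₁] [AddCommGroup L₂]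
    (f : L₁ →ₗ[ℤ] L₂) (g : L →ₗ[ℤ] L₁) (y : O ⊗[ℤ] L) :
    (f ∘ₗ g).baseChange O y = f.baseChange O (g.baseChange O y) := by
  rw [LinearMap.baseChange_comp, LinearMap.comp_apply]

end ne34_bc

/-! ### Integral domains over `ℤ` -/

/-- A ring homomorphism from a domain integral over `ℤ` to a ring of characteristic zero is
injective. -/
theorem ne34_injective_of_integral {A B : Type*} [CommRing A] [IsDomain A]
    [Algebra.IsIntegral ℤ A] [Ring B] [CharZero B] (f : A →+* B) : Function.Injective f := by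
  rw [RingHom.injective_iff_ker_eq_bot]
  apply Ideal.eq_bot_of_comap_eq_bot (R := ℤ)
  rw [eq_bot_iff]
  intro n hn
  rw [Ideal.mem_comap, RingHom.mem_ker, eq_intCast, map_intCast] at hn
  rw [Ideal.mem_bot]
  exact_mod_cast hn

/-! ### The Hecke algebra away from the primes of the level -/

section ne34_hecke

variable {M : ℕ} [NeZero M]

/-- Induction principle for the Hecke algebra away from `S₁ ⊇ {primes dividing M}`: it is
generated by the `T_ℓ`, `ℓ ∤ M`, `ℓ ∉ S₁`. -/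
theorem ne34_hecke_induction (S₁ : Set ℕ) (hS₁ : ∀ q : ℕ, q.Prime → q ∣ M → q ∈ S₁)
    (P : CuspForm.heckeAlgebra M 2 S₁ → Prop)
    (hT : ∀ (ℓ : ℕ) (hℓ : ℓ.Prime) (hℓM : ¬ ℓ ∣ M) (hℓS : ℓ ∉ S₁),
      P (CuspForm.heckeAlgebra.T hℓ hℓM hℓS))
    (hint : ∀ r : ℤ, P (r : CuspForm.heckeAlgebra M 2 S₁))
    (hadd : ∀ s t, P s → P t → P (s + t)) (hmul : ∀ s t, P s → P t → P (s * t)) :
    ∀ t, P t := by
  rintro ⟨t, ht⟩
  induction ht using Algebra.adjoin_induction with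
  | mem x hx =>
    rcases hx with ⟨ℓ, hℓ, hℓN, hℓS, rfl⟩ | ⟨q, hqN, hq, hqS, rfl⟩
    · exact hT ℓ hℓ hℓN hℓS
    · exact absurd (hS₁ q hq hqN) hqS
  | algebraMap r =>
    have h1 : (⟨algebraMap ℤ _ r, Subalgebra.algebraMap_mem _ r⟩ :
        CuspForm.heckeAlgebra M 2 S₁) = ((r : ℤ) : CuspForm.heckeAlgebra M 2 S₁) := by
      apply Subtype.ext
      show algebraMap ℤ _ r = Subtype.val ((r : ℤ) : CuspForm.heckeAlgebra M 2 S₁)
      rw [eq_intCast]
      rfl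
    rw [h1]
    exact hint r
  | add x₁ x₂ h₁ h₂ ih₁ ih₂ => exact hadd ⟨x₁, h₁⟩ ⟨x₂, h₂⟩ ih₁ ih₂
  | mul x₁ x₂ h₁ h₂ ih₁ ih₂ => exact hmul ⟨x₁, h₁⟩ ⟨x₂, h₂⟩ ih₁ ih₂

variable {g : CuspForm (CongruenceSubgroup.Gamma0 M) 2}

/-- Every element of the Hecke algebra away from the primes of `M` acts on a normalised
eigenform through a scalar. -/
theorem ne34_scalar (hg : g.IsNormalizedEigenform) (S₁ : Set ℕ)
    (hS₁ : ∀ q : ℕ, q.Prime → q ∣ M → q ∈ S₁) (t : CuspForm.heckeAlgebra M 2 S₁) :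
    ∃ c : ℂ, (t : Module.End ℂ (CuspForm (CongruenceSubgroup.Gamma0 M) 2)) g = c • g := by
  refine ne34_hecke_induction S₁ hS₁
    (fun t => ∃ c : ℂ, (t : Module.End ℂ (CuspForm (CongruenceSubgroup.Gamma0 M) 2)) g = c • g)
    ?_ ?_ ?_ ?_ t
  · intro ℓ hℓ hℓM hℓS
    exact ⟨ModularFormClass.qCoeff g ℓ, eb67_heckeT_eq hg hℓ hℓM⟩
  · intro r
    refine ⟨(r : ℂ), ?_⟩
    rw [SubringClass.coe_intCast, Module.End.intCast_apply, Int.cast_smul_eq_zsmul]
  · rintro s t ⟨a, ha⟩ ⟨b, hb⟩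
    exact ⟨a + b, by rw [Subalgebra.coe_add, LinearMap.add_apply, ha, hb, add_smul]⟩
  · rintro s t ⟨a, ha⟩ ⟨b, hb⟩
    exact ⟨a * b, by
      rw [Subalgebra.coe_mul, Module.End.mul_apply, hb, map_smul, ha, smul_smul, mul_comm]⟩

/-- **The eigencharacter** of a normalised eigenform on the Hecke algebra away from
`S₁ ⊇ {primes dividing M}`. -/
theorem ne34_exists_char (hg : g.IsNormalizedEigenform) (S₁ : Set ℕ)
    (hS₁ : ∀ q : ℕ, q.Prime → q ∣ M → q ∈ S₁) :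
    ∃ Ψ : CuspForm.heckeAlgebra M 2 S₁ →+* ℂ,
      ∀ t : CuspForm.heckeAlgebra M 2 S₁,
        (t : Module.End ℂ (CuspForm (CongruenceSubgroup.Gamma0 M) 2)) g = Ψ t • g := by
  classical
  choose r hr using ne34_scalar hg S₁ hS₁
  have huniq : ∀ (t : CuspForm.heckeAlgebra M 2 S₁) (c : ℂ),
      (t : Module.End ℂ (CuspForm (CongruenceSubgroup.Gamma0 M) 2)) g = c • g → r t = c := by
    intro t c h
    exact smul_left_injective ℂ hg.ne_zero ((hr t).symm.trans h)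
  refine ⟨{ toFun := r, map_one' := ?_, map_mul' := ?_, map_zero' := ?_, map_add' := ?_ }, hr⟩
  · exact huniq 1 1 (by rw [Subalgebra.coe_one, Module.End.one_apply, one_smul])
  · intro s t
    exact huniq (s * t) (r s * r t) (by
      rw [Subalgebra.coe_mul, Module.End.mul_apply, hr t, map_smul, hr s, smul_smul, mul_comm])
  · exact huniq 0 0 (by rw [Subalgebra.coe_zero, LinearMap.zero_apply, zero_smul])
  · intro s t
    exact huniq (s + t) (r s + r t) (by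
      rw [Subalgebra.coe_add, LinearMap.add_apply, hr s, hr t, add_smul])

/-- A character of the Hecke algebra away from `S ⊇ {primes dividing M}` with the values
`a_ℓ(g)` on the `T_ℓ` is the eigencharacter of `g`. -/
theorem ne34_chig_eigen (hg : g.IsNormalizedEigenform) (S : Set ℕ)
    (hMS : ∀ q : ℕ, q.Prime → q ∣ M → q ∈ S)
    (chig : CuspForm.heckeAlgebra M 2 S →+* ℂ)
    (hchig : ∀ (ℓ : ℕ) (hℓ : ℓ.Prime) (hℓM : ¬ ℓ ∣ M) (hℓS : ℓ ∉ S),
      chig (CuspForm.heckeAlgebra.T hℓ hℓM hℓS) = ModularFormClass.qCoeff g ℓ)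
    (t : CuspForm.heckeAlgebra M 2 S) :
    (t : Module.End ℂ (CuspForm (CongruenceSubgroup.Gamma0 M) 2)) g = chig t • g := by
  refine ne34_hecke_induction S hMS
    (fun t => (t : Module.End ℂ (CuspForm (CongruenceSubgroup.Gamma0 M) 2)) g = chig t • g)
    ?_ ?_ ?_ ?_ t
  · intro ℓ hℓ hℓM hℓS
    show ((CuspForm.heckeAlgebra.T hℓ hℓM hℓS : CuspForm.heckeAlgebra M 2 S) :
      Module.End ℂ (CuspForm (CongruenceSubgroup.Gamma0 M) 2)) g = _
    rw [hchig ℓ hℓ hℓM hℓS]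
    exact eb67_heckeT_eq hg hℓ hℓM
  · intro r
    show ((r : CuspForm.heckeAlgebra M 2 S) :
      Module.End ℂ (CuspForm (CongruenceSubgroup.Gamma0 M) 2)) g = chig (r : _) • g
    rw [map_intCast, SubringClass.coe_intCast, Module.End.intCast_apply, Int.cast_smul_eq_zsmul]
  · intro s t hs ht
    show ((s + t : CuspForm.heckeAlgebra M 2 S) :
      Module.End ℂ (CuspForm (CongruenceSubgroup.Gamma0 M) 2)) g = chig (s + t) • g
    rw [Subalgebra.coe_add, LinearMap.add_apply, hs, ht, map_add, add_smul]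
  · intro s t hs ht
    show ((s * t : CuspForm.heckeAlgebra M 2 S) :
      Module.End ℂ (CuspForm (CongruenceSubgroup.Gamma0 M) 2)) g = chig (s * t) • g
    rw [Subalgebra.coe_mul, Module.End.mul_apply, ht, map_smul, hs, smul_smul, map_mul, mul_comm]

end ne34_hecke

/-! ### The eigenvector over an algebraically closed field containing `O'` -/

section ne34_main

variable {M : ℕ} [NeZero M] {g : CuspForm (CongruenceSubgroup.Gamma0 M) 2}

set_option maxHeartbeats 1000000 in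
/-- **The eigenvector over `Ω`.**  `Ω` an algebraically closed field containing the domain `O'`
of characteristic zero.  There are a subring `R₁ ⊆ ℂ` containing all `a_ℓ(g)`, `ℓ ∤ M` (as
`cR ℓ`), an INJECTIVE ring homomorphism `φ : R₁ → Ω`, and a nonzero `v ∈ Ω ⊗ L(M)` which is an
eigenvector of every `T_ℓ`, `ℓ ∤ M` prime, with eigenvalue `φ (a_ℓ(g))`, and on which the Hecke
algebra away from `S` acts through `iota ∘ chig`. -/
theorem ne34_exists_Omega (hg : g.IsNormalizedEigenform) (S : Set ℕ)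
    (hMS : ∀ q : ℕ, q.Prime → q ∣ M → q ∈ S)
    (O' : Type) [CommRing O'] [IsDomain O'] [CharZero O']
    (chig : CuspForm.heckeAlgebra M 2 S →+* ℂ)
    (hchig : ∀ (ℓ : ℕ) (hℓ : ℓ.Prime) (hℓM : ¬ ℓ ∣ M) (hℓS : ℓ ∉ S),
      chig (CuspForm.heckeAlgebra.T hℓ hℓM hℓS) = ModularFormClass.qCoeff g ℓ)
    (iota : chig.range →+* O')
    (Ω : Type*) [Field Ω] [IsAlgClosed Ω] [Algebra O' Ω]
    (he : Function.Injective (algebraMap O' Ω)) :
    ∃ (R₁ : Subring ℂ) (φ : ↥R₁ →+* Ω) (cR : ℕ → ↥R₁)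
      (v : Ω ⊗[ℤ] ↥(parabolicHoms ℤ (Gamma0 M) ℤ)),
      Function.Injective φ ∧
      (∀ ℓ : ℕ, ℓ.Prime → ¬ ℓ ∣ M → ((cR ℓ : ↥R₁) : ℂ) = ModularFormClass.qCoeff g ℓ) ∧
      v ≠ 0 ∧
      (∀ ℓ : ℕ, ℓ.Prime → ¬ ℓ ∣ M → (hl42_TL M ℓ).baseChange Ω v = φ (cR ℓ) • v) ∧
      (∀ t : CuspForm.heckeAlgebra M 2 S, (hl42_act M S t).baseChange Ω v =
        algebraMap O' Ω ((iota.comp chig.rangeRestrict) t) • v) := by
  classical
  haveI := ee42_finite M
  haveI := ee42_free M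
  haveI : CharZero Ω := charZero_of_injective_algebraMap he
  -- the Hecke algebra away from the primes of `M`
  obtain ⟨S₀, hS₀M, hS₀S, hnot⟩ : ∃ S₀ : Set ℕ, (∀ q : ℕ, q.Prime → q ∣ M → q ∈ S₀) ∧
      S₀ ⊆ S ∧ ∀ ℓ : ℕ, ¬ ℓ ∣ M → ℓ ∉ S₀ :=
    ⟨{q | q.Prime ∧ q ∣ M}, fun q hq hqM => ⟨hq, hqM⟩, fun q hq => hMS q hq.1 hq.2,
      fun ℓ hℓM h => hℓM h.2⟩
  obtain ⟨Ψ, hΨ⟩ := ne34_exists_char hg S₀ hS₀M
  have hchig' := ne34_chig_eigen hg S hMS chig hchig
  have hg0 : g ≠ 0 := hg.ne_zero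
  have hΨT : ∀ (ℓ : ℕ) (hℓ : ℓ.Prime) (hℓM : ¬ ℓ ∣ M),
      Ψ (CuspForm.heckeAlgebra.T hℓ hℓM (hnot ℓ hℓM)) = ModularFormClass.qCoeff g ℓ := by
    intro ℓ hℓ hℓM
    have h1 := hΨ (CuspForm.heckeAlgebra.T hℓ hℓM (hnot ℓ hℓM))
    have h2 : ((CuspForm.heckeAlgebra.T hℓ hℓM (hnot ℓ hℓM) : CuspForm.heckeAlgebra M 2 S₀) :
        Module.End ℂ (CuspForm (CongruenceSubgroup.Gamma0 M) 2)) g =
        ModularFormClass.qCoeff g ℓ • g := eb67_heckeT_eq hg hℓ hℓM
    exact smul_left_injective ℂ hg0 (h1.symm.trans h2)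
  -- `chig = Ψ ∘ incl`
  have hincl : ∀ t : CuspForm.heckeAlgebra M 2 S,
      chig t = Ψ ⟨t.1, CuspForm.heckeAlgebra_mono hS₀S t.2⟩ := by
    intro t
    have h1 := hΨ ⟨t.1, CuspForm.heckeAlgebra_mono hS₀S t.2⟩
    exact smul_left_injective ℂ hg0 ((hchig' t).symm.trans h1)
  have h01 : chig.range ≤ Ψ.range := by
    rintro _ ⟨t, rfl⟩
    exact ⟨⟨t.1, CuspForm.heckeAlgebra_mono hS₀S t.2⟩, (hincl t).symm⟩
  -- finiteness and integrality over `ℤ`
  have hfinS : ∀ S₁ : Set ℕ, Module.Finite ℤ (CuspForm.heckeAlgebra M 2 S₁) := fun S₁ =>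
    Module.Finite.of_injective (hl42_act M S₁).toIntAlgHom.toLinearMap (hl42_act_injective M S₁)
  haveI : Module.Finite ℤ ↥chig.range := by
    haveI := hfinS S
    exact Module.Finite.of_surjective chig.rangeRestrict.toIntAlgHom.toLinearMap
      chig.rangeRestrict_surjective
  haveI : Module.Finite ℤ ↥Ψ.range := by
    haveI := hfinS S₀
    exact Module.Finite.of_surjective Ψ.rangeRestrict.toIntAlgHom.toLinearMap
      Ψ.rangeRestrict_surjective
  haveI : Algebra.IsIntegral ℤ ↥chig.range := Algebra.IsIntegral.of_finite ℤ _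
  haveI : Algebra.IsIntegral ℤ ↥Ψ.range := Algebra.IsIntegral.of_finite ℤ _
  have hiota : Function.Injective iota := ne34_injective_of_integral iota
  -- the extension of `iota` to `Ψ.range`
  obtain ⟨φ, hφinj, hφ⟩ : ∃ φ : ↥Ψ.range →+* Ω, Function.Injective φ ∧
      ∀ r : ↥chig.range, φ (Subring.inclusion h01 r) = algebraMap O' Ω (iota r) := by
    letI : Algebra ↥chig.range ↥Ψ.range := (Subring.inclusion h01).toAlgebra
    letI : Algebra ↥chig.range Ω := ((algebraMap O' Ω).comp iota).toAlgebra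
    haveI : Module.IsTorsionFree ↥chig.range ↥Ψ.range :=
      Module.isTorsionFree_iff_algebraMap_injective.mpr (Subring.inclusion_injective h01)
    haveI : Module.IsTorsionFree ↥chig.range Ω :=
      Module.isTorsionFree_iff_algebraMap_injective.mpr (he.comp hiota)
    haveI : Algebra.IsAlgebraic ↥chig.range ↥Ψ.range :=
      ⟨fun x => (IsIntegral.tower_top (R := ℤ) (Algebra.IsIntegral.isIntegral x)).isAlgebraic⟩
    exact ⟨((IsAlgClosed.lift : ↥Ψ.range →ₐ[↥chig.range] Ω) : ↥Ψ.range →+* Ω),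
      ne34_injective_of_integral _,
      fun r => (IsAlgClosed.lift : ↥Ψ.range →ₐ[↥chig.range] Ω).commutes r⟩
  -- the eigenvector
  obtain ⟨v, hv0, hv⟩ := ec83_exists_field Ω (hl42_act M S₀) (hl42_act_injective M S₀)
    (φ.comp Ψ.rangeRestrict)
  obtain ⟨cR, hcR⟩ : ∃ cR : ℕ → ↥Ψ.range, ∀ (ℓ : ℕ) (hℓ : ℓ.Prime) (hℓM : ¬ ℓ ∣ M),
      cR ℓ = Ψ.rangeRestrict (CuspForm.heckeAlgebra.T hℓ hℓM (hnot ℓ hℓM)) :=
    ⟨fun ℓ => if h : ℓ.Prime ∧ ¬ ℓ ∣ M then
        Ψ.rangeRestrict (CuspForm.heckeAlgebra.T h.1 h.2 (hnot ℓ h.2)) else 0,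
      fun ℓ hℓ hℓM => dif_pos ⟨hℓ, hℓM⟩⟩
  have hTL : ∀ ℓ : ℕ, ℓ.Prime → ¬ ℓ ∣ M →
      (hl42_TL M ℓ).baseChange Ω v = φ (cR ℓ) • v := by
    intro ℓ hℓ hℓM
    have h1 := hv (CuspForm.heckeAlgebra.T hℓ hℓM (hnot ℓ hℓM))
    rw [hl42_act_T] at h1
    rw [h1, hcR ℓ hℓ hℓM]
    rfl
  refine ⟨Ψ.range, φ, cR, v, hφinj, ?_, hv0, hTL, ?_⟩
  · intro ℓ hℓ hℓM
    rw [hcR ℓ hℓ hℓM, RingHom.coe_rangeRestrict]
    exact hΨT ℓ hℓ hℓM
  · refine ne34_hecke_induction S hMS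
      (fun t => (hl42_act M S t).baseChange Ω v =
        algebraMap O' Ω ((iota.comp chig.rangeRestrict) t) • v) ?_ ?_ ?_ ?_
    · intro ℓ hℓ hℓM hℓS
      have hsub : Ψ.rangeRestrict (CuspForm.heckeAlgebra.T hℓ hℓM (hnot ℓ hℓM)) =
          Subring.inclusion h01 (chig.rangeRestrict (CuspForm.heckeAlgebra.T hℓ hℓM hℓS)) := by
        apply Subtype.ext
        show Ψ (CuspForm.heckeAlgebra.T hℓ hℓM (hnot ℓ hℓM)) =
          chig (CuspForm.heckeAlgebra.T hℓ hℓM hℓS)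
        rw [hΨT ℓ hℓ hℓM, hchig ℓ hℓ hℓM hℓS]
      have hkey : φ (cR ℓ) = algebraMap O' Ω
          ((iota.comp chig.rangeRestrict) (CuspForm.heckeAlgebra.T hℓ hℓM hℓS)) := by
        rw [hcR ℓ hℓ hℓM, hsub]
        exact hφ _
      show (hl42_act M S (CuspForm.heckeAlgebra.T hℓ hℓM hℓS)).baseChange Ω v = _
      rw [hl42_act_T, hTL ℓ hℓ hℓM, hkey]
    · intro r
      have h1 : algebraMap O' Ω ((iota.comp chig.rangeRestrict)
          (r : CuspForm.heckeAlgebra M 2 S)) = (r : Ω) := by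
        rw [map_intCast (iota.comp chig.rangeRestrict) r, map_intCast (algebraMap O' Ω) r]
      show (hl42_act M S (r : CuspForm.heckeAlgebra M 2 S)).baseChange Ω v = _
      rw [h1, map_intCast (hl42_act M S) r, ne34_bc_int]
    · intro s t hs ht
      show (hl42_act M S (s + t)).baseChange Ω v = _
      rw [map_add, ne34_bc_add, hs, ht, map_add, map_add, add_smul]
    · intro s t hs ht
      show (hl42_act M S (s * t)).baseChange Ω v = _
      rw [map_mul, ne34_bc_mul, ht, map_smul, hs, smul_smul, map_mul, map_mul, mul_comm]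

/-- Auxiliary form of `ne34_exists`, through an arbitrary algebraically closed field `Ω`
containing `O'`. -/
theorem ne34_exists_aux (hg : g.IsNewform) (S : Set ℕ)
    (hMS : ∀ q : ℕ, q.Prime → q ∣ M → q ∈ S)
    (O' : Type) [CommRing O'] [IsDomain O'] [IsDiscreteValuationRing O'] [CharZero O']
    (chig : CuspForm.heckeAlgebra M 2 S →+* ℂ)
    (hchig : ∀ (ℓ : ℕ) (hℓ : ℓ.Prime) (hℓM : ¬ ℓ ∣ M) (hℓS : ℓ ∉ S),
      chig (CuspForm.heckeAlgebra.T hℓ hℓM hℓS) = ModularFormClass.qCoeff g ℓ)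
    (iota : chig.range →+* O')
    (Ω : Type*) [Field Ω] [IsAlgClosed Ω] [Algebra O' Ω]
    (he : Function.Injective (algebraMap O' Ω))
    {ι : Type*} [Finite ι] (M' : ι → ℕ) [∀ i, NeZero (M' i)] (hM' : ∀ i, M' i ∣ M)
    (hne : ∀ i, M' i ≠ M)
    (c : ∀ i, ↥(parabolicHoms ℤ (Gamma0 M) ℤ) →ₗ[ℤ] ↥(parabolicHoms ℤ (Gamma0 (M' i)) ℤ))
    (hcomm : ∀ (i : ι) (ℓ : ℕ), ℓ.Prime → ¬ ℓ ∣ M →
      ∀ x, hl42_TL (M' i) ℓ (c i x) = c i (hl42_TL M ℓ x)) :
    ∃ x0 : O' ⊗[ℤ] ↥(parabolicHoms ℤ (Gamma0 M) ℤ),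
      x0 ∉ IsLocalRing.maximalIdeal O' •
        (⊤ : Submodule O' (O' ⊗[ℤ] ↥(parabolicHoms ℤ (Gamma0 M) ℤ))) ∧
      (∀ t : CuspForm.heckeAlgebra M 2 S,
        (hl42_act M S t).baseChange O' x0 = (iota.comp chig.rangeRestrict) t • x0) ∧
      (∀ i, (c i).baseChange O' x0 = 0) ∧
      x0 ∈ Submodule.span O'
        ((fun l : ↥(parabolicHoms ℤ (Gamma0 M) ℤ) => (1 : O') ⊗ₜ[ℤ] l) '' {l | ∀ i, c i l = 0}) := by
  classical
  haveI := ee42_finite M
  haveI := ee42_free M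
  haveI : ∀ i, Module.Free ℤ ↥(parabolicHoms ℤ (Gamma0 (M' i)) ℤ) := fun i => ee42_free (M' i)
  obtain ⟨R₁, φ, cR, v, hφinj, hcR, hv0, hTL, hact⟩ :=
    ne34_exists_Omega hg.1 S hMS O' chig hchig iota Ω he
  have hcv : ∀ i, (c i).baseChange Ω v = 0 := by
    intro i
    refine nl42_newvec hg (M' i) (hM' i) (hne i) R₁.subtype φ (fun r hr => ?_) cR
      (fun ℓ hℓ hℓM => hcR ℓ hℓ hℓM) _ (fun ℓ hℓ hℓM => ?_)
    · have h0 : r = 0 := hφinj (by rw [hr, map_zero])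
      rw [h0, map_zero]
    · rw [← ne34_bc_comp,
        (show hl42_TL (M' i) ℓ ∘ₗ c i = c i ∘ₗ hl42_TL M ℓ from
          LinearMap.ext (hcomm i ℓ hℓ hℓM)),
        ne34_bc_comp, hTL ℓ hℓ hℓM, map_smul]
  exact ne34_descend he (hl42_act M S) (iota.comp chig.rangeRestrict) c v hv0 hact hcv

/-- **Row 557 (N5), concrete form: the marked NEW primitive eigenvector over `O'` itself.**
`g` a newform of level `M`; `S ⊇ {primes of M}`; `iota` defined on `chig.range` only.  For every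
finite family of `ℤ`-linear maps `c i : L(M) → L(M' i)` to the lattices of PROPER divisor levels
which commute with the Hecke operators at all primes `ℓ ∤ M`, there is a primitive eigenvector
`x0 ∈ O' ⊗ L(M)` of the Hecke algebra away from `S` with character `iota ∘ chig`, killed by all
the `c i`, and lying in the `O'`-span of the pure tensors `1 ⊗ l`, `l` in the common kernel. -/
theorem ne34_exists (hg : g.IsNewform) (S : Set ℕ)
    (hMS : ∀ q : ℕ, q.Prime → q ∣ M → q ∈ S)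
    (O' : Type) [CommRing O'] [IsDomain O'] [IsDiscreteValuationRing O'] [CharZero O']
    (chig : CuspForm.heckeAlgebra M 2 S →+* ℂ)
    (hchig : ∀ (ℓ : ℕ) (hℓ : ℓ.Prime) (hℓM : ¬ ℓ ∣ M) (hℓS : ℓ ∉ S),
      chig (CuspForm.heckeAlgebra.T hℓ hℓM hℓS) = ModularFormClass.qCoeff g ℓ)
    (iota : chig.range →+* O')
    {ι : Type*} [Finite ι] (M' : ι → ℕ) [∀ i, NeZero (M' i)] (hM' : ∀ i, M' i ∣ M)
    (hne : ∀ i, M' i ≠ M)
    (c : ∀ i, ↥(parabolicHoms ℤ (Gamma0 M) ℤ) →ₗ[ℤ] ↥(parabolicHoms ℤ (Gamma0 (M' i)) ℤ))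
    (hcomm : ∀ (i : ι) (ℓ : ℕ), ℓ.Prime → ¬ ℓ ∣ M →
      ∀ x, hl42_TL (M' i) ℓ (c i x) = c i (hl42_TL M ℓ x)) :
    ∃ x0 : O' ⊗[ℤ] ↥(parabolicHoms ℤ (Gamma0 M) ℤ),
      x0 ∉ IsLocalRing.maximalIdeal O' •
        (⊤ : Submodule O' (O' ⊗[ℤ] ↥(parabolicHoms ℤ (Gamma0 M) ℤ))) ∧
      (∀ t : CuspForm.heckeAlgebra M 2 S,
        (hl42_act M S t).baseChange O' x0 = (iota.comp chig.rangeRestrict) t • x0) ∧
      (∀ i, (c i).baseChange O' x0 = 0) ∧
      x0 ∈ Submodule.span O'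
        ((fun l : ↥(parabolicHoms ℤ (Gamma0 M) ℤ) => (1 : O') ⊗ₜ[ℤ] l) '' {l | ∀ i, c i l = 0}) := by
  have he : Function.Injective (algebraMap O' (AlgebraicClosure (FractionRing O'))) := by
    rw [IsScalarTower.algebraMap_eq O' (FractionRing O') (AlgebraicClosure (FractionRing O'))]
    exact (algebraMap (FractionRing O') (AlgebraicClosure (FractionRing O'))).injective.comp
      (IsFractionRing.injective O' (FractionRing O'))
  exact ne34_exists_aux hg S hMS O' chig hchig iota (AlgebraicClosure (FractionRing O')) he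
    M' hM' hne c hcomm

/-- The same in the shape of `hE4` of `s30e37_endgame` (and of `s35i62_NewClaim`): the lattice
action `Φ`, the primitive `χ`-eigenvector `x0`, the cores clauses and the span clause. -/
theorem ne34_exists_hE4 (hg : g.IsNewform) (S : Set ℕ)
    (hMS : ∀ q : ℕ, q.Prime → q ∣ M → q ∈ S)
    (O' : Type) [CommRing O'] [IsDomain O'] [IsDiscreteValuationRing O'] [CharZero O']
    (chig : CuspForm.heckeAlgebra M 2 S →+* ℂ)
    (hchig : ∀ (ℓ : ℕ) (hℓ : ℓ.Prime) (hℓM : ¬ ℓ ∣ M) (hℓS : ℓ ∉ S),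
      chig (CuspForm.heckeAlgebra.T hℓ hℓM hℓS) = ModularFormClass.qCoeff g ℓ)
    (iota : chig.range →+* O')
    {ι : Type*} [Finite ι] (M' : ι → ℕ) [∀ i, NeZero (M' i)] (hM' : ∀ i, M' i ∣ M)
    (hne : ∀ i, M' i ≠ M)
    (c : ∀ i, ↥(parabolicHoms ℤ (Gamma0 M) ℤ) →ₗ[ℤ] ↥(parabolicHoms ℤ (Gamma0 (M' i)) ℤ))
    (hcomm : ∀ (i : ι) (ℓ : ℕ), ℓ.Prime → ¬ ℓ ∣ M →
      ∀ x, hl42_TL (M' i) ℓ (c i x) = c i (hl42_TL M ℓ x)) :
    ∃ Φ : CuspForm.heckeAlgebra M 2 S →+* Module.End ℤ ↥(parabolicHoms ℤ (Gamma0 M) ℤ),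
      (∀ (ℓ : ℕ) (hℓ : ℓ.Prime) (hℓN : ¬ ℓ ∣ M) (hℓS : ℓ ∉ S)
          (x : ↥(parabolicHoms ℤ (Gamma0 M) ℤ)),
        ((Φ (CuspForm.heckeAlgebra.T hℓ hℓN hℓS) x : ↥(parabolicHoms ℤ (Gamma0 M) ℤ)) :
          Additive ↥(Gamma0 M) →+ ℤ) = heckeHom M ℓ ℤ (x : Additive ↥(Gamma0 M) →+ ℤ)) ∧
      ∃ x0 : O' ⊗[ℤ] ↥(parabolicHoms ℤ (Gamma0 M) ℤ),
        x0 ∉ IsLocalRing.maximalIdeal O' •
          (⊤ : Submodule O' (O' ⊗[ℤ] ↥(parabolicHoms ℤ (Gamma0 M) ℤ))) ∧
        (∀ t : CuspForm.heckeAlgebra M 2 S,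
          (Φ t).baseChange O' x0 = (iota.comp chig.rangeRestrict) t • x0) ∧
        (∀ i, (c i).baseChange O' x0 = 0) ∧
        x0 ∈ Submodule.span O'
          ((fun l : ↥(parabolicHoms ℤ (Gamma0 M) ℤ) => (1 : O') ⊗ₜ[ℤ] l) ''
            {l | ∀ i, c i l = 0}) :=
  ⟨hl42_act M S, fun ℓ hℓ hℓN hℓS x => hl42_act_apply_coe M S hℓ hℓN hℓS x,
    ne34_exists hg S hMS O' chig hchig iota M' hM' hne c hcomm⟩

end ne34_main

end Fermat.Agent.S35
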