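import Fermat.Agent.S35.PkgNewB32
import Fermat.Agent.S35.NewEig34

/-!
# S35 lab: the LITERAL package `s35i62_Pkg_New` (helper34)

`pn32_pkg_new_of_N5 : pn32_N5 → s35i62_Pkg_New` (helper32, `PkgNewB32`) applied to
`ne34_exists_hE4` (row 557, `NewEig34`): the hypothesis (N5) of helper32's assembly is exactly
the marked NEW primitive eigenvector over `O'` itself.

* `pnf34_N5 : pn32_N5`;
* `pnf34_pkg_new : s35i62_Pkg_New` — the literal `Iface62` package P-NEW, no hypothesis.
-/

set_option autoImplicit false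
set_option linter.unusedVariables false
set_option linter.style.longLine false

open CongruenceSubgroup ModularCurve ModularCurve.Period
open scoped TensorProduct

namespace Fermat.Agent.S35

/-- **(N5)**, the hypothesis of `pn32_pkg_new_of_N5`, is a theorem. -/
theorem pnf34_N5 : pn32_N5 := by
  intro M _ g hg lam _ S O' _ _ _ _ _ _ hlam chig hchig iota hlamS hMS ι _ M' _ hM' hne c hcomm
  obtain ⟨Φ, hΦ, x0, hx0, hx0e, hc, -⟩ :=
    ne34_exists_hE4 hg (↑S : Set ℕ) hMS O' chig hchig iota M' hM' hne c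
      (fun i ℓ hℓ hℓM x => (hcomm i ℓ hℓ hℓM x).symm)
  exact ⟨Φ, hΦ, x0, hx0, hx0e, hc⟩

/-- **P-NEW**: the literal package `s35i62_Pkg_New` of `Iface62`. -/
theorem pnf34_pkg_new : s35i62_Pkg_New :=
  pn32_pkg_new_of_N5 pnf34_N5

end Fermat.Agent.S35
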