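import Mathlib
import Fermat.Prelude.Def_ModularCurve_ArithmeticGalois

/-!
# S35 lab (helper17), registry row 551 (LJ, twin): the dictionary class ↔ Kummer function
for an integer polynomial in one semilinear automorphism

Abstract (Prelude `SemilinearAut` / `Pic0` only):

* `jf17_ord_pow_smul` : `ord_v (g ^ i • f) = m * (g ^ i • D) v` when `m • D = div f`;
* `jf17_pic0_word_of` : if `m • D = div f` and `∏ i ∈ s, (g ^ i • f) ^ (c i) = w ^ m` with `w ≠ 0`
  then `∑ i ∈ s, c i • (g ^ i • [D]) = 0` in `Pic⁰`;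
* `jf17_pic0_word` : the same from `m • [D] = 0` and a function-field hypothesis `hfun` which may
  use an arbitrary property `P D` of the divisor (e.g. "the push-forwards of `D` along `α` and `β`
  are principal");
* `jf17_jzero_word` : the form on `JZero N` for an element `σ` of `Gal(ℚ̄/ℚ)`.

All names are prefixed `jf17_`.
-/

set_option autoImplicit false

open AlgebraicCurve ModularCurve

namespace Fermat.Agent.S35

section Abstract

variable {K F : Type*} [Field K] [Field F] [Algebra K F]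

/-- If `m • D = div f` then `ord_v (g • f) = m * (g • D) v`. -/
theorem jf17_ord_smul (g : SemilinearAut K F) (m : ℤ) (D : Divisor K F) (f : F)
    (hD : ∀ v : Place K F, m * D v = v.ord f) (v : Place K F) :
    v.ord (g • f) = m * (g • D) v := by
  have h := SemilinearAut.ord_smul g (g⁻¹ • v) f
  rw [smul_inv_smul] at h
  rw [h, SemilinearAut.divisor_smul_apply, hD]

/-- The order of a finite product of integer powers. -/
theorem jf17_ord_prod_zpow (v : Place K F) (s : Finset ℕ) (c : ℕ → ℤ) (x : ℕ → F)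
    (hx : ∀ i, x i ≠ 0) :
    v.ord (∏ i ∈ s, x i ^ (c i)) = ∑ i ∈ s, c i * v.ord (x i) := by
  classical
  induction s using Finset.induction_on with
  | empty => simp
  | insert a s ha ih =>
    rw [Finset.prod_insert ha, Finset.sum_insert ha,
      v.ord_mul (zpow_ne_zero _ (hx a))
        (Finset.prod_ne_zero_iff.mpr fun i _ => zpow_ne_zero _ (hx i)), ih, v.ord_zpow]

/-- The class of `g • D`. -/
theorem jf17_smul_mk (g : SemilinearAut K F) (D : Divisor.degZero (K := K) (F := F)) :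
    g • Pic0.mk D = Pic0.mk (SemilinearAut.degZeroSMulHom g D) :=
  SemilinearAut.pic0_smul_mk g D

/-- A `ℤ`-combination of classes of translates is the class of the combination. -/
theorem jf17_sum_mk (g : SemilinearAut K F) (s : Finset ℕ) (c : ℕ → ℤ)
    (D : Divisor.degZero (K := K) (F := F)) :
    ∑ i ∈ s, c i • (g ^ i • Pic0.mk D) =
      Pic0.mk (∑ i ∈ s, c i • SemilinearAut.degZeroSMulHom (g ^ i) D) := by
  classical
  induction s using Finset.induction_on with
  | empty => simp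
  | insert a s ha ih =>
    rw [Finset.sum_insert ha, Finset.sum_insert ha, ih, jf17_smul_mk]
    rfl

/-- **The dictionary, explicit form.** -/
theorem jf17_pic0_word_of (g : SemilinearAut K F) (m : ℕ) (hm : 0 < m) (s : Finset ℕ) (c : ℕ → ℤ)
    (D : Divisor.degZero (K := K) (F := F)) (f : F) (hf : f ≠ 0)
    (hfD : ∀ v : Place K F, (m : ℤ) * (D : Divisor K F) v = v.ord f)
    (w : F) (hw : w ≠ 0) (hfun : ∏ i ∈ s, (g ^ i • f) ^ (c i) = w ^ m) :
    ∑ i ∈ s, c i • (g ^ i • Pic0.mk D) = 0 := by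
  classical
  have hmZ : (m : ℤ) ≠ 0 := by exact_mod_cast hm.ne'
  have hgf : ∀ i : ℕ, g ^ i • f ≠ 0 := fun i => by simpa using hf
  rw [jf17_sum_mk]
  refine (QuotientAddGroup.eq_zero_iff _).mpr ?_
  rw [AddSubgroup.mem_addSubgroupOf]
  refine ⟨w, hw, fun v => ?_⟩
  have e1 := congrArg v.ord hfun
  rw [jf17_ord_prod_zpow v s c (fun i => g ^ i • f) hgf, ← zpow_natCast, v.ord_zpow] at e1
  have e2 : ∑ i ∈ s, c i * v.ord (g ^ i • f) =
      (m : ℤ) * ∑ i ∈ s, c i * ((g ^ i) • (D : Divisor K F)) v := by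
    rw [Finset.mul_sum]
    refine Finset.sum_congr rfl fun i _ => ?_
    rw [jf17_ord_smul (g ^ i) m D f hfD v]
    ring
  rw [e2] at e1
  have e3 := mul_left_cancel₀ hmZ e1
  rw [← e3]
  have e4 : ((∑ i ∈ s, c i • SemilinearAut.degZeroSMulHom (g ^ i) D :
      Divisor.degZero (K := K) (F := F)) : Divisor K F) =
      ∑ i ∈ s, c i • ((g ^ i) • (D : Divisor K F)) := by
    rw [AddSubmonoidClass.coe_finsetSum]
    rfl
  rw [e4, Finsupp.finsetSum_apply]
  refine Finset.sum_congr rfl fun i _ => ?_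
  rw [Finsupp.smul_apply, smul_eq_mul]

/-- **The dictionary.**  `P` is an arbitrary property of divisors (for instance: the
push-forwards of `D` along two maps are principal). -/
theorem jf17_pic0_word (g : SemilinearAut K F) (m : ℕ) (hm : 0 < m) (s : Finset ℕ) (c : ℕ → ℤ)
    (P : Divisor K F → Prop)
    (hfun : ∀ (D : Divisor K F) (f : F), f ≠ 0 →
      (∀ v : Place K F, (m : ℤ) * D v = v.ord f) → P D →
      ∃ w : F, w ≠ 0 ∧ ∏ i ∈ s, (g ^ i • f) ^ (c i) = w ^ m)
    (D : Divisor.degZero (K := K) (F := F)) (hP : P (D : Divisor K F))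
    (hx : (m : ℤ) • Pic0.mk D = 0) :
    ∑ i ∈ s, c i • (g ^ i • Pic0.mk D) = 0 := by
  have h1 : ((m : ℤ) • D : Divisor.degZero (K := K) (F := F)) ∈
      (Divisor.principal (K := K) (F := F)).addSubgroupOf (Divisor.degZero (K := K) (F := F)) := by
    have h2 : Pic0.mk ((m : ℤ) • D) = (m : ℤ) • Pic0.mk D := rfl
    rw [← h2] at hx
    exact (QuotientAddGroup.eq_zero_iff _).mp hx
  rw [AddSubgroup.mem_addSubgroupOf] at h1
  obtain ⟨f, hf0, hf⟩ := h1
  have hfD : ∀ v : Place K F, (m : ℤ) * (D : Divisor K F) v = v.ord f := by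
    intro v
    rw [← hf v]
    simp
  obtain ⟨w, hw0, hw⟩ := hfun D f hf0 hfD hP
  exact jf17_pic0_word_of g m hm s c D f hf0 hfD w hw0 hw

end Abstract

section JZero

local notation "Q̄" => AlgebraicClosure ℚ

/-- **The dictionary on `JZero N`** for one element `σ` of `Gal(ℚ̄/ℚ)`. -/
theorem jf17_jzero_word (N : ℕ) (m : ℕ) (hm : 0 < m) (σ : Q̄ ≃ₐ[ℚ] Q̄) (s : Finset ℕ) (c : ℕ → ℤ)
    (P : Divisor Q̄ ↥(modularFunctionFieldBar N) → Prop)
    (hfun : ∀ (D : Divisor Q̄ ↥(modularFunctionFieldBar N)) (f : ↥(modularFunctionFieldBar N)),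
      f ≠ 0 → (∀ v : Place Q̄ ↥(modularFunctionFieldBar N), (m : ℤ) * D v = v.ord f) → P D →
      ∃ w : ↥(modularFunctionFieldBar N), w ≠ 0 ∧
        ∏ i ∈ s, (arithmeticGalois (modularFunctionFieldFull N) (σ ^ i) • f) ^ (c i) = w ^ m)
    (D : Divisor.degZero (K := Q̄) (F := ↥(modularFunctionFieldBar N)))
    (hP : P (D : Divisor Q̄ ↥(modularFunctionFieldBar N)))
    (hx : m • (Pic0.mk D : JZero N) = 0) :
    ∑ i ∈ s, c i • (σ ^ i • (Pic0.mk D : JZero N)) = 0 := by
  have hx' : (m : ℤ) • (Pic0.mk D : JZero N) = 0 := by rwa [natCast_zsmul]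
  have h := jf17_pic0_word (arithmeticGalois (modularFunctionFieldFull N) σ) m hm s c P
    (fun D f hf hD hP => by
      obtain ⟨w, hw0, hw⟩ := hfun D f hf hD hP
      exact ⟨w, hw0, by simpa only [map_pow] using hw⟩) D hP hx'
  simpa only [← map_pow, ← galois_smul_pic0_def] using h

end JZero

end Fermat.Agent.S35
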