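import Fermat.Agent.S35.Iface62
import Fermat.Agent.S35.JacWord17
import Fermat.Agent.S37.HeckeInputs63
import Fermat.Agent.S42.PlacesAbs36
import Fermat.Agent.S42.HeckeTheta45

/-!
# S35 lab (helper17), registry row 551 (LJ, twin): the package `s35i62_Pkg_Pic`

`jf17_pkg_pic : s35i62_Pkg_Pic` : the function-field form `s35i62_FFA M' q (p ^ n)` (for all `n`)
gives the class form `s35i62_AStar M' q p` on `J₀(M' q)`.

Proof.  Let `x = [D]` be `q`-new with `p ^ n • x = 0`, so `p ^ n • D = div f`.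
* `jf17_norm_pow` : as `ψ_* D` is principal (`ψ = α, β`), the norm formula gives
  `div (N_ψ f) = p ^ n • div a₀`, hence `N_ψ f = c · a₀ ^ (p ^ n)` with `c` constant, and `c` is a
  `p ^ n`-th power in `ℚ̄`;
* FFA then gives `g` with `g ^ (p ^ n) = ŝ⁶f · (ŝ²f)^(2q²+1) / ((ŝ⁴f)^(q²+2) · f^(q²))`;
* the dictionary `jf17_jzero_word` (file `JacWord17`) turns this into the relation
  `σ⁶x + (2q²+1) σ²x = (q²+2) σ⁴x + q² x`.

All names are prefixed `jf17_`.
-/

set_option autoImplicit false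
set_option linter.style.haveILetI false

open AlgebraicCurve ModularCurve IntermediateField

namespace Fermat.Agent.S35

open Fermat.Agent.S37 Fermat.Agent.S42

local notation "Q̄" => AlgebraicClosure ℚ
local notation "GQ" => AlgebraicClosure ℚ ≃ₐ[ℚ] AlgebraicClosure ℚ

section NormLink

variable {K F F' : Type*} [Field K] [IsAlgClosed K] [CharZero K] [Field F] [Field F']
  [Algebra K F] [Algebra K F']

/-- **Norm link.**  If `m • D = div f` on the upper curve and the push-forward `ψ_* D` is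
principal, then the norm `N_ψ f` is an `m`-th power. -/
theorem jf17_norm_pow (ψ : F →ₐ[K] F') (hψ : ψ.toRingHom.IsIntegral) (hfin : FiniteAlong K ψ)
    (hN : NormFormulaAlong K ψ hfin) (x : F) (hx : Transcendental K x)
    [FiniteDimensional K⟮x⟯ F] (m : ℕ) (hm : 0 < m) (D : Divisor K F') (f : F') (hf : f ≠ 0)
    (hfD : ∀ v : Place K F', (m : ℤ) * D v = v.ord f)
    (hD : (Divisor.pushforwardAlong ψ hψ D).IsPrincipal) :
    ∃ a : F, ht45_normAlong ψ f = a ^ m := by
  obtain ⟨a₀, ha₀, hDa⟩ := hD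
  have h1 : ∀ v : Place K F', ((m : ℤ) • D) v = v.ord f := fun v => by
    rw [Finsupp.smul_apply, smul_eq_mul]
    exact hfD v
  have h2 : ∀ v : Place K F, (m : ℤ) * v.ord a₀ = v.ord (ht45_normAlong ψ f) := by
    intro v
    have h := ht45_pushforward_div ψ hψ hfin hN hf h1 v
    rw [map_zsmul, Finsupp.smul_apply, smul_eq_mul, hDa v] at h
    exact h
  have hNf : ht45_normAlong ψ f ≠ 0 := ht45_normAlong_ne_zero ψ hfin hf
  have h3 : ∀ v : Place K F, v.ord (ht45_normAlong ψ f / a₀ ^ m) = 0 := by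
    intro v
    rw [div_eq_mul_inv, v.ord_mul hNf (inv_ne_zero (pow_ne_zero _ ha₀)), v.ord_inv,
      ← zpow_natCast, v.ord_zpow, ← h2 v]
    ring
  obtain ⟨c, hc⟩ := pa36_const_of_ord_eq_zero x hx _ h3
  obtain ⟨d, hd⟩ := IsAlgClosed.exists_pow_nat_eq c hm
  refine ⟨algebraMap K F d * a₀, ?_⟩
  rw [mul_pow, ← map_pow, hd, ← hc, div_mul_cancel₀ _ (pow_ne_zero _ ha₀)]

end NormLink

/-- The coefficients of `P(s) = (s² − q²)(1 − s²)² = s⁶ − (q²+2) s⁴ + (2q²+1) s² − q²`. -/
def jf17_c (q : ℕ) : ℕ → ℤ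
  | 0 => -((q ^ 2 : ℕ) : ℤ)
  | 2 => ((2 * q ^ 2 + 1 : ℕ) : ℤ)
  | 4 => -((q ^ 2 + 2 : ℕ) : ℤ)
  | 6 => 1
  | _ => 0

/-- The action of `σ ^ i` on functions is the `i`-th iterate of the coefficientwise action. -/
theorem jf17_arith_pow_smul (N : ℕ) (σ : GQ) (i : ℕ) (f : ↥(modularFunctionFieldBar N)) :
    arithmeticGalois (modularFunctionFieldFull N) (σ ^ i) • f =
      (⇑(arithmeticRingAut (modularFunctionFieldFull N) σ))^[i] f := by
  induction i with
  | zero => rw [pow_zero, map_one, one_smul]; rfl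
  | succ k ih =>
    rw [pow_succ', map_mul, mul_smul, ih, Function.iterate_succ_apply']
    rfl

/-- The Kummer operator as a word in the translates. -/
theorem jf17_op_eq_prod (N q : ℕ) (σ : GQ) (f : ↥(modularFunctionFieldBar N)) :
    ∏ i ∈ Finset.range 7,
        (arithmeticGalois (modularFunctionFieldFull N) (σ ^ i) • f) ^ (jf17_c q i) =
      s35i62_op q (arithmeticRingAut (modularFunctionFieldFull N) σ) f := by
  simp only [Finset.prod_range_succ, Finset.prod_range_zero, jf17_arith_pow_smul, jf17_c,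
    zpow_zero, one_mul, mul_one, zpow_one, zpow_neg, zpow_natCast, Function.iterate_succ,
    Function.iterate_zero, Function.comp_apply, id_eq]
  unfold s35i62_op
  rw [div_eq_mul_inv, mul_inv]
  ring

/-- **The package `s35i62_Pkg_Pic`** (registry row 551): FFA at all exponents `p ^ n` gives
(A\*) on `J₀(M' q)`. -/
theorem jf17_pkg_pic : s35i62_Pkg_Pic := by
  intro M' q p _ _ hq hqM hp hpq hFFA n A hA σ hσ x hx hnew
  obtain ⟨hα, hβ, D, rfl, hDα, hDβ⟩ := hnew
  haveI : NeZero (M' * q) := ⟨mul_ne_zero (NeZero.ne M') (NeZero.ne q)⟩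
  have hm : 0 < p ^ n := pow_pos hp.pos n
  haveI := hi63_finite_x M'
  haveI := hi63_finite_x (M' * q)
  haveI := hi63_hasPrincipalDivisors_bar (M' * q)
  obtain ⟨-, hfinα, -, hNα⟩ := hi63_along_all (heckeAlphaBar Q̄ M' q)
    (hi63_x M') (hi63_x_transcendental M') (hi63_x (M' * q)) (hi63_x_transcendental (M' * q))
  obtain ⟨-, hfinβ, -, hNβ⟩ := hi63_along_all (heckeBetaBar Q̄ M' q)
    (hi63_x M') (hi63_x_transcendental M') (hi63_x (M' * q)) (hi63_x_transcendental (M' * q))
  have h := jf17_jzero_word (M' * q) (p ^ n) hm σ (Finset.range 7) (jf17_c q)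
    (fun D => (Divisor.pushforwardAlong (heckeAlphaBar Q̄ M' q) hα D).IsPrincipal ∧
      (Divisor.pushforwardAlong (heckeBetaBar Q̄ M' q) hβ D).IsPrincipal)
    (fun D f hf hfD hP => by
      obtain ⟨a, ha⟩ := jf17_norm_pow (heckeAlphaBar Q̄ M' q) hα hfinα hNα (hi63_x M')
        (hi63_x_transcendental M') (p ^ n) hm D f hf hfD hP.1
      obtain ⟨b, hb⟩ := jf17_norm_pow (heckeBetaBar Q̄ M' q) hβ hfinβ hNβ (hi63_x M')
        (hi63_x_transcendental M') (p ^ n) hm D f hf hfD hP.2
      obtain ⟨g, hg⟩ := hFFA n A hA σ hσ f hf (fun v => ⟨_, (hfD v).symm⟩) ⟨a, ha⟩ ⟨b, hb⟩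
      have hop : s35i62_op q (arithmeticRingAut (modularFunctionFieldFull (M' * q)) σ) f ≠ 0 := by
        unfold s35i62_op
        have hs : ∀ y : ↥(modularFunctionFieldBar (M' * q)), y ≠ 0 →
            arithmeticRingAut (modularFunctionFieldFull (M' * q)) σ y ≠ 0 := fun y hy =>
          (map_ne_zero_iff _ (RingEquiv.injective _)).mpr hy
        have h1 := hs _ hf
        have h2 := hs _ h1
        have h3 := hs _ h2
        have h4 := hs _ h3
        have h5 := hs _ h4
        have h6 := hs _ h5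
        exact div_ne_zero (mul_ne_zero h6 (pow_ne_zero _ h2))
          (mul_ne_zero (pow_ne_zero _ h4) (pow_ne_zero _ hf))
      have hg0 : g ≠ 0 := by
        rintro rfl
        rw [zero_pow hm.ne'] at hg
        exact hop hg.symm
      exact ⟨g, hg0, by rw [jf17_op_eq_prod (M' * q) q σ f, hg]⟩)
    D ⟨hDα, hDβ⟩ hx
  simp only [Finset.sum_range_succ, Finset.sum_range_zero, jf17_c, zero_zsmul, add_zero, zero_add,
    neg_zsmul, natCast_zsmul, pow_zero, one_smul] at h
  rw [← sub_eq_zero, ← h]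
  abel

end Fermat.Agent.S35
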