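import Mathlib

/-!
# S35 lab (helper98): step (1c) of the proof text, "new ⇒ toric" — abstract core (Mathlib only)

Fields `F` (function field at level `M = M' q`), `F'` (level `M'`), `Λ` (the residue field of the
Gauss valuation, `κ((Q))`).  Data, all TOTAL functions (the hypotheses only speak about members of
the relevant subrings, so every concrete frame binds by a `dite`):

* `W ⊆ F` (`= V_∞ ∩ V_0`), `V' ⊆ F'` subrings; `rinf r0 : F → Λ`, `r' : F' → Λ` the reductions;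
* `sh : F ≃+* F`, `sh' : F' ≃+* F'` the Frobenius lift `ŝ` at the two levels, `sb : Λ →+* Λ`
  the coefficientwise Frobenius;
* `α β : F' →+* F` the two degeneracy maps, `Nα Nβ : F →* F'` the two norms;
* `e0 ∈ W` with `rinf e0 = 0`, `r0 e0 = 1`.

`nt98_Frame` collects the literal outputs of (1a) (Frobenius-lift frame), (1b) (norm formula) and
the equivariance of the norms.  For `f ≠ 0` in `F`, `a b ≠ 0` in `F'` with
`Nα f = c1 * a ^ m`, `Nβ f = c2 * b ^ m` put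

* `f1 := f / ŝ² f` (`nt98_tw sh f`), `a1 := a / ŝ'² a`, `b1 := b / ŝ'² b`, `γi := ci / ŝ'² ci`;
* `G := (1 - e0) * α (a1 / ŝ' b1) + e0 * β (b1 / ŝ' a1)` (`nt98_G`);
* `f3 := (f1 / ŝ² f1) / G ^ m` (`nt98_f3`).

Main results:

* `nt98_G_unit` : `G ∈ W`, `G⁻¹ ∈ W`, `rinf G = r' a1 / sb (r' b1)`, `r0 G = r' b1 / sb (r' a1)`;
* `nt98_main` : **`f3 ∈ W`, `f3⁻¹ ∈ W`, `rinf f3 = r' γ1 / sb (r' γ2)`,
  `r0 f3 = r' γ2 / sb (r' γ1)`**, and `r' γ1 ≠ 0`, `r' γ2 ≠ 0`;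
* `nt98_main_const` : if the `r' γi` lie in a subfield `Cst ⊆ Λ` of constants stable under `sb`,
  then `f3` is a unit of `W` with nonzero CONSTANT reductions `c_inf, c_0 ∈ Cst`;
* `nt98_exists` : the existential form (`∃ G`, unit of `W`, ...).
-/

set_option autoImplicit false

namespace Fermat.Agent.S35

/-! ## 1. Multiplicative reductions on a subring -/

section Generic

variable {E Λ : Type*} [Field E] [Field Λ]

/-- The reduction of a unit of `S` is nonzero. -/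
theorem nt98_red_ne_zero (S : Subring E) (r : E → Λ) (h1 : r 1 = 1)
    (hmul : ∀ x ∈ S, ∀ y ∈ S, r (x * y) = r x * r y) {x : E} (hx0 : x ≠ 0) (hx : x ∈ S)
    (hxi : x⁻¹ ∈ S) : r x ≠ 0 := by
  intro h
  have h2 := hmul x hx x⁻¹ hxi
  rw [mul_inv_cancel₀ hx0, h1, h, zero_mul] at h2
  exact one_ne_zero h2

/-- The reduction of a quotient by a unit of `S`. -/
theorem nt98_red_div (S : Subring E) (r : E → Λ) (h1 : r 1 = 1)
    (hmul : ∀ x ∈ S, ∀ y ∈ S, r (x * y) = r x * r y) {x y : E} (hy0 : y ≠ 0) (hx : x ∈ S)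
    (hy : y ∈ S) (hyi : y⁻¹ ∈ S) : r (x / y) = r x / r y := by
  have hry := nt98_red_ne_zero S r h1 hmul hy0 hy hyi
  have hxy : x / y ∈ S := by
    rw [div_eq_mul_inv]
    exact S.mul_mem hx hyi
  rw [eq_div_iff hry, ← hmul (x / y) hxy y hy, div_mul_cancel₀ x hy0]

/-- The reduction of a power. -/
theorem nt98_red_pow (S : Subring E) (r : E → Λ) (h1 : r 1 = 1)
    (hmul : ∀ x ∈ S, ∀ y ∈ S, r (x * y) = r x * r y) {x : E} (hx : x ∈ S) (m : ℕ) :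
    r (x ^ m) = r x ^ m := by
  induction m with
  | zero => rw [pow_zero, pow_zero, h1]
  | succ k ih => rw [pow_succ, hmul _ (S.pow_mem hx k) _ hx, ih, pow_succ]

/-- `x / s² x` is a unit of `S` as soon as `s x / x` and `x / s x` always lie in `S`. -/
theorem nt98_tw_unit (S : Subring E) (s : E ≃+* E)
    (hdiv : ∀ x : E, x ≠ 0 → s x / x ∈ S ∧ x / s x ∈ S) {x : E} (hx : x ≠ 0) :
    x / s (s x) ∈ S ∧ (x / s (s x))⁻¹ ∈ S := by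
  have hsx : s x ≠ 0 := (map_ne_zero s).mpr hx
  have hssx : s (s x) ≠ 0 := (map_ne_zero s).mpr hsx
  have e1 : x / s (s x) = (x / s x) * (s x / s (s x)) := by field_simp
  have e2 : (x / s (s x))⁻¹ = (s (s x) / s x) * (s x / x) := by field_simp
  refine ⟨?_, ?_⟩
  · rw [e1]
    exact S.mul_mem (hdiv x hx).2 (hdiv (s x) hsx).2
  · rw [e2]
    exact S.mul_mem (hdiv (s x) hsx).1 (hdiv x hx).1

/-- A monoid homomorphism between fields commutes with division by a nonzero element. -/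
theorem nt98_map_div {E' : Type*} [Field E'] (N : E →* E') (x : E) {y : E} (hy : y ≠ 0) :
    N (x / y) = N x / N y := by
  have hNy : N y ≠ 0 := by
    intro h
    have h2 : N y * N y⁻¹ = 1 := by rw [← map_mul, mul_inv_cancel₀ hy, map_one]
    rw [h, zero_mul] at h2
    exact zero_ne_one h2
  rw [eq_div_iff hNy, ← map_mul, div_mul_cancel₀ x hy]

theorem nt98_map_ne_zero {E' : Type*} [Field E'] (N : E →* E') {y : E} (hy : y ≠ 0) :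
    N y ≠ 0 := by
  intro h
  have h2 : N y * N y⁻¹ = 1 := by rw [← map_mul, mul_inv_cancel₀ hy, map_one]
  rw [h, zero_mul] at h2
  exact zero_ne_one h2

/-- The elimination step of (1c) in the residue field. -/
theorem nt98_elim (m : ℕ) (g1 sg2 A sB x sy ssx : Λ) (hsg2 : sg2 ≠ 0) (hA : A ≠ 0)
    (hsB : sB ≠ 0) (hssx : ssx ≠ 0) (E1 : g1 * A ^ m = x * sy)
    (E2 : sg2 * sB ^ m = sy * ssx) : x / ssx / (A / sB) ^ m = g1 / sg2 := by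
  have hAm : A ^ m ≠ 0 := pow_ne_zero m hA
  have hBm : sB ^ m ≠ 0 := pow_ne_zero m hsB
  rw [div_pow, div_div, div_eq_div_iff (mul_ne_zero hssx (div_ne_zero hAm hBm)) hsg2]
  have e : ssx * (A ^ m / sB ^ m) * sB ^ m = ssx * A ^ m := by field_simp
  have e3 : x * sg2 * sB ^ m = g1 * (ssx * (A ^ m / sB ^ m)) * sB ^ m := by
    rw [mul_assoc g1, e]
    linear_combination x * E2 - ssx * E1
  exact mul_right_cancel₀ hBm e3

end Generic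

/-! ## 2. The abstract frame -/

/-- The abstract frame for step (1c): the literal outputs of the Frobenius-lift frame (1a), of
the norm formula (1b) and the equivariance of the two norms. -/
structure nt98_Frame {F F' Λ : Type*} [Field F] [Field F'] [Field Λ]
    (W : Subring F) (V' : Subring F') (rinf r0 : F → Λ) (r' : F' → Λ)
    (sh : F ≃+* F) (sh' : F' ≃+* F') (sb : Λ →+* Λ) (α β : F' →+* F) (Nα Nβ : F →* F')
    (e0 : F) : Prop where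
  /-- `red_∞` is a ring homomorphism on `W`. -/
  rinf_one : rinf 1 = 1
  rinf_mul : ∀ x ∈ W, ∀ y ∈ W, rinf (x * y) = rinf x * rinf y
  rinf_add : ∀ x ∈ W, ∀ y ∈ W, rinf (x + y) = rinf x + rinf y
  /-- `red_0` is a ring homomorphism on `W`. -/
  r0_one : r0 1 = 1
  r0_mul : ∀ x ∈ W, ∀ y ∈ W, r0 (x * y) = r0 x * r0 y
  r0_add : ∀ x ∈ W, ∀ y ∈ W, r0 (x + y) = r0 x + r0 y
  /-- `red'` is multiplicative on `V'`. -/
  r'_one : r' 1 = 1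
  r'_mul : ∀ x ∈ V', ∀ y ∈ V', r' (x * y) = r' x * r' y
  /-- `ŝ` preserves `W`, and `ŝ x / x`, `x / ŝ x ∈ W` (the two valuations are `ŝ`-invariant). -/
  sh_mem : ∀ x ∈ W, sh x ∈ W
  sh_div : ∀ x : F, x ≠ 0 → sh x / x ∈ W ∧ x / sh x ∈ W
  /-- `red (ŝ x) = sb (red x)`. -/
  rinf_sh : ∀ x ∈ W, rinf (sh x) = sb (rinf x)
  r0_sh : ∀ x ∈ W, r0 (sh x) = sb (r0 x)
  /-- The same at level `M'`. -/
  sh'_mem : ∀ x ∈ V', sh' x ∈ V'
  sh'_div : ∀ x : F', x ≠ 0 → sh' x / x ∈ V' ∧ x / sh' x ∈ V'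
  r'_sh : ∀ x ∈ V', r' (sh' x) = sb (r' x)
  /-- The degeneracy maps: `α V' ⊆ W`, `β V' ⊆ W`, `red_∞ ∘ α = red' = red_0 ∘ β`. -/
  α_mem : ∀ h ∈ V', α h ∈ W
  β_mem : ∀ h ∈ V', β h ∈ W
  rinf_α : ∀ h ∈ V', rinf (α h) = r' h
  r0_β : ∀ h ∈ V', r0 (β h) = r' h
  /-- The norms are `ŝ`-equivariant. -/
  Nα_sh : ∀ x : F, x ≠ 0 → Nα (sh x) = sh' (Nα x)
  Nβ_sh : ∀ x : F, x ≠ 0 → Nβ (sh x) = sh' (Nβ x)
  /-- The norm formula (1b), on units of `W`. -/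
  Nα_red : ∀ x : F, x ∈ W → x⁻¹ ∈ W → r' (Nα x) = rinf x * sb (r0 x)
  Nβ_red : ∀ x : F, x ∈ W → x⁻¹ ∈ W → r' (Nβ x) = r0 x * sb (rinf x)
  /-- The separating element `e0`. -/
  e0_mem : e0 ∈ W
  rinf_e0 : rinf e0 = 0
  r0_e0 : r0 e0 = 1
  /-- Unit criterion: `W = V_∞ ∩ V_0` and the kernels of the reductions are the maximal ideals. -/
  unit_crit : ∀ x ∈ W, rinf x ≠ 0 → r0 x ≠ 0 → x⁻¹ ∈ W

/-- The twist `x / ŝ² x`. -/
def nt98_tw {E : Type*} [Field E] (s : E ≃+* E) (x : E) : E := x / s (s x)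

/-- The element `G := (1 - e0) * α (a1 / ŝ' b1) + e0 * β (b1 / ŝ' a1)`, `a1 = a / ŝ'² a`,
`b1 = b / ŝ'² b`. -/
def nt98_G {F F' : Type*} [Field F] [Field F'] (sh' : F' ≃+* F') (α β : F' →+* F) (e0 : F)
    (a b : F') : F :=
  (1 - e0) * α (nt98_tw sh' a / sh' (nt98_tw sh' b)) +
    e0 * β (nt98_tw sh' b / sh' (nt98_tw sh' a))

/-- The toric function `f3 := (f1 / ŝ² f1) / G ^ m`, `f1 = f / ŝ² f`. -/
def nt98_f3 {F F' : Type*} [Field F] [Field F'] (sh : F ≃+* F) (sh' : F' ≃+* F')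
    (α β : F' →+* F) (e0 : F) (m : ℕ) (f : F) (a b : F') : F :=
  nt98_tw sh (nt98_tw sh f) / nt98_G sh' α β e0 a b ^ m

section Main

variable {F F' Λ : Type*} [Field F] [Field F'] [Field Λ]
  {W : Subring F} {V' : Subring F'} {rinf r0 : F → Λ} {r' : F' → Λ}
  {sh : F ≃+* F} {sh' : F' ≃+* F'} {sb : Λ →+* Λ} {α β : F' →+* F} {Nα Nβ : F →* F'}
  {e0 : F}

theorem nt98_tw_ne_zero {E : Type*} [Field E] (s : E ≃+* E) {x : E} (hx : x ≠ 0) :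
    nt98_tw s x ≠ 0 :=
  div_ne_zero hx ((map_ne_zero s).mpr ((map_ne_zero s).mpr hx))

/-- `f / ŝ² f` is a unit of `W`. -/
theorem nt98_tw_mem (H : nt98_Frame W V' rinf r0 r' sh sh' sb α β Nα Nβ e0) {x : F}
    (hx : x ≠ 0) : nt98_tw sh x ∈ W ∧ (nt98_tw sh x)⁻¹ ∈ W :=
  nt98_tw_unit W sh H.sh_div hx

/-- `a / ŝ'² a` is a unit of `V'`. -/
theorem nt98_tw_mem' (H : nt98_Frame W V' rinf r0 r' sh sh' sb α β Nα Nβ e0) {x : F'}
    (hx : x ≠ 0) : nt98_tw sh' x ∈ V' ∧ (nt98_tw sh' x)⁻¹ ∈ V' :=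
  nt98_tw_unit V' sh' H.sh'_div hx

/-- `red_∞ (x / ŝ² x) = red_∞ x / sb² (red_∞ x)` for a unit `x` of `W`. -/
theorem nt98_rinf_tw (H : nt98_Frame W V' rinf r0 r' sh sh' sb α β Nα Nβ e0) {x : F}
    (hx0 : x ≠ 0) (hx : x ∈ W) (hxi : x⁻¹ ∈ W) :
    rinf (nt98_tw sh x) = rinf x / sb (sb (rinf x)) := by
  have h1 : sh (sh x) ∈ W := H.sh_mem _ (H.sh_mem _ hx)
  have h2 : (sh (sh x))⁻¹ ∈ W := by
    rw [← map_inv₀, ← map_inv₀]
    exact H.sh_mem _ (H.sh_mem _ hxi)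
  have h0 : sh (sh x) ≠ 0 := (map_ne_zero sh).mpr ((map_ne_zero sh).mpr hx0)
  rw [nt98_tw, nt98_red_div W rinf H.rinf_one H.rinf_mul h0 hx h1 h2,
    H.rinf_sh _ (H.sh_mem _ hx), H.rinf_sh _ hx]

/-- `red_0 (x / ŝ² x) = red_0 x / sb² (red_0 x)` for a unit `x` of `W`. -/
theorem nt98_r0_tw (H : nt98_Frame W V' rinf r0 r' sh sh' sb α β Nα Nβ e0) {x : F}
    (hx0 : x ≠ 0) (hx : x ∈ W) (hxi : x⁻¹ ∈ W) :
    r0 (nt98_tw sh x) = r0 x / sb (sb (r0 x)) := by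
  have h1 : sh (sh x) ∈ W := H.sh_mem _ (H.sh_mem _ hx)
  have h2 : (sh (sh x))⁻¹ ∈ W := by
    rw [← map_inv₀, ← map_inv₀]
    exact H.sh_mem _ (H.sh_mem _ hxi)
  have h0 : sh (sh x) ≠ 0 := (map_ne_zero sh).mpr ((map_ne_zero sh).mpr hx0)
  rw [nt98_tw, nt98_red_div W r0 H.r0_one H.r0_mul h0 hx h1 h2,
    H.r0_sh _ (H.sh_mem _ hx), H.r0_sh _ hx]

/-- The norm of the twist: `Nα (f / ŝ² f) = Nα f / ŝ'² (Nα f)`. -/
theorem nt98_Nα_tw (H : nt98_Frame W V' rinf r0 r' sh sh' sb α β Nα Nβ e0) {f : F}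
    (hf : f ≠ 0) : Nα (nt98_tw sh f) = nt98_tw sh' (Nα f) := by
  have h0 : sh (sh f) ≠ 0 := (map_ne_zero sh).mpr ((map_ne_zero sh).mpr hf)
  rw [nt98_tw, nt98_map_div Nα f h0, H.Nα_sh _ ((map_ne_zero sh).mpr hf), H.Nα_sh _ hf, nt98_tw]

theorem nt98_Nβ_tw (H : nt98_Frame W V' rinf r0 r' sh sh' sb α β Nα Nβ e0) {f : F}
    (hf : f ≠ 0) : Nβ (nt98_tw sh f) = nt98_tw sh' (Nβ f) := by
  have h0 : sh (sh f) ≠ 0 := (map_ne_zero sh).mpr ((map_ne_zero sh).mpr hf)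
  rw [nt98_tw, nt98_map_div Nβ f h0, H.Nβ_sh _ ((map_ne_zero sh).mpr hf), H.Nβ_sh _ hf, nt98_tw]

/-- The twist of `c * a ^ m`. -/
theorem nt98_tw_mul_pow {E : Type*} [Field E] (s : E ≃+* E) (c a : E) (m : ℕ) :
    nt98_tw s (c * a ^ m) = nt98_tw s c * nt98_tw s a ^ m := by
  simp only [nt98_tw, map_mul, map_pow, div_pow, mul_div_mul_comm]

/-- The first residue equation: `red' γ * (red' a1) ^ m = red_∞ f1 * sb (red_0 f1)`. -/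
theorem nt98_E1 (H : nt98_Frame W V' rinf r0 r' sh sh' sb α β Nα Nβ e0) (m : ℕ) {f : F}
    {a c : F'} (hf : f ≠ 0) (ha : a ≠ 0) (hc : c ≠ 0) (hN : Nα f = c * a ^ m) :
    r' (nt98_tw sh' c) * r' (nt98_tw sh' a) ^ m =
      rinf (nt98_tw sh f) * sb (r0 (nt98_tw sh f)) := by
  have h1 := nt98_tw_mem H hf
  have ha1 := nt98_tw_mem' H ha
  have hc1 := nt98_tw_mem' H hc
  rw [← H.Nα_red _ h1.1 h1.2, nt98_Nα_tw H hf, hN, nt98_tw_mul_pow,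
    H.r'_mul _ hc1.1 _ (V'.pow_mem ha1.1 m), nt98_red_pow V' r' H.r'_one H.r'_mul ha1.1]

/-- The second residue equation: `red' γ * (red' b1) ^ m = red_0 f1 * sb (red_∞ f1)`. -/
theorem nt98_E2 (H : nt98_Frame W V' rinf r0 r' sh sh' sb α β Nα Nβ e0) (m : ℕ) {f : F}
    {b c : F'} (hf : f ≠ 0) (hb : b ≠ 0) (hc : c ≠ 0) (hN : Nβ f = c * b ^ m) :
    r' (nt98_tw sh' c) * r' (nt98_tw sh' b) ^ m =
      r0 (nt98_tw sh f) * sb (rinf (nt98_tw sh f)) := by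
  have h1 := nt98_tw_mem H hf
  have hb1 := nt98_tw_mem' H hb
  have hc1 := nt98_tw_mem' H hc
  rw [← H.Nβ_red _ h1.1 h1.2, nt98_Nβ_tw H hf, hN, nt98_tw_mul_pow,
    H.r'_mul _ hc1.1 _ (V'.pow_mem hb1.1 m), nt98_red_pow V' r' H.r'_one H.r'_mul hb1.1]

/-- `red' (a1 / ŝ' b1) = red' a1 / sb (red' b1)` and membership. -/
theorem nt98_quot (H : nt98_Frame W V' rinf r0 r' sh sh' sb α β Nα Nβ e0) {a b : F'}
    (ha : a ≠ 0) (hb : b ≠ 0) :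
    nt98_tw sh' a / sh' (nt98_tw sh' b) ∈ V' ∧
      r' (nt98_tw sh' a / sh' (nt98_tw sh' b)) =
        r' (nt98_tw sh' a) / sb (r' (nt98_tw sh' b)) := by
  have ha1 := nt98_tw_mem' H ha
  have hb1 := nt98_tw_mem' H hb
  have h1 : sh' (nt98_tw sh' b) ∈ V' := H.sh'_mem _ hb1.1
  have h2 : (sh' (nt98_tw sh' b))⁻¹ ∈ V' := by
    rw [← map_inv₀]
    exact H.sh'_mem _ hb1.2
  have h0 : sh' (nt98_tw sh' b) ≠ 0 := (map_ne_zero sh').mpr (nt98_tw_ne_zero sh' hb)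
  refine ⟨?_, ?_⟩
  · rw [div_eq_mul_inv]
    exact V'.mul_mem ha1.1 h2
  · rw [nt98_red_div V' r' H.r'_one H.r'_mul h0 ha1.1 h1 h2, H.r'_sh _ hb1.1]

/-- **The unit `G`**: `G ∈ W`, `red_∞ G = red' a1 / sb (red' b1)`,
`red_0 G = red' b1 / sb (red' a1)`, and `G⁻¹ ∈ W`. -/
theorem nt98_G_unit (H : nt98_Frame W V' rinf r0 r' sh sh' sb α β Nα Nβ e0) {a b : F'}
    (ha : a ≠ 0) (hb : b ≠ 0) :
    nt98_G sh' α β e0 a b ∈ W ∧ (nt98_G sh' α β e0 a b)⁻¹ ∈ W ∧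
      rinf (nt98_G sh' α β e0 a b) = r' (nt98_tw sh' a) / sb (r' (nt98_tw sh' b)) ∧
      r0 (nt98_G sh' α β e0 a b) = r' (nt98_tw sh' b) / sb (r' (nt98_tw sh' a)) ∧
      r' (nt98_tw sh' a) ≠ 0 ∧ r' (nt98_tw sh' b) ≠ 0 := by
  have ha1 := nt98_tw_mem' H ha
  have hb1 := nt98_tw_mem' H hb
  have hA : r' (nt98_tw sh' a) ≠ 0 :=
    nt98_red_ne_zero V' r' H.r'_one H.r'_mul (nt98_tw_ne_zero sh' ha) ha1.1 ha1.2
  have hB : r' (nt98_tw sh' b) ≠ 0 :=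
    nt98_red_ne_zero V' r' H.r'_one H.r'_mul (nt98_tw_ne_zero sh' hb) hb1.1 hb1.2
  obtain ⟨hp, hpr⟩ := nt98_quot H ha hb
  obtain ⟨hp', hpr'⟩ := nt98_quot H hb ha
  have h1e : (1 - e0) ∈ W := W.sub_mem W.one_mem H.e0_mem
  have hαp := H.α_mem _ hp
  have hβp := H.β_mem _ hp'
  have hm1 : (1 - e0) * α (nt98_tw sh' a / sh' (nt98_tw sh' b)) ∈ W := W.mul_mem h1e hαp
  have hm2 : e0 * β (nt98_tw sh' b / sh' (nt98_tw sh' a)) ∈ W := W.mul_mem H.e0_mem hβp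
  have hG : nt98_G sh' α β e0 a b ∈ W := W.add_mem hm1 hm2
  have hr1 : rinf (1 - e0) = 1 := by
    have h := H.rinf_add _ h1e _ H.e0_mem
    rw [sub_add_cancel, H.rinf_one, H.rinf_e0, add_zero] at h
    exact h.symm
  have hr2 : r0 (1 - e0) = 0 := by
    have h := H.r0_add _ h1e _ H.e0_mem
    rw [sub_add_cancel, H.r0_one, H.r0_e0] at h
    exact (add_eq_right.mp h.symm)
  have hGinf : rinf (nt98_G sh' α β e0 a b) = r' (nt98_tw sh' a) / sb (r' (nt98_tw sh' b)) := by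
    rw [nt98_G, H.rinf_add _ hm1 _ hm2, H.rinf_mul _ h1e _ hαp, H.rinf_mul _ H.e0_mem _ hβp,
      hr1, H.rinf_e0, one_mul, zero_mul, add_zero, H.rinf_α _ hp, hpr]
  have hG0 : r0 (nt98_G sh' α β e0 a b) = r' (nt98_tw sh' b) / sb (r' (nt98_tw sh' a)) := by
    rw [nt98_G, H.r0_add _ hm1 _ hm2, H.r0_mul _ h1e _ hαp, H.r0_mul _ H.e0_mem _ hβp,
      hr2, H.r0_e0, one_mul, zero_mul, zero_add, H.r0_β _ hp', hpr']
  have hsA : sb (r' (nt98_tw sh' a)) ≠ 0 := (map_ne_zero sb).mpr hA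
  have hsB : sb (r' (nt98_tw sh' b)) ≠ 0 := (map_ne_zero sb).mpr hB
  refine ⟨hG, H.unit_crit _ hG ?_ ?_, hGinf, hG0, hA, hB⟩
  · rw [hGinf]
    exact div_ne_zero hA hsB
  · rw [hG0]
    exact div_ne_zero hB hsA

/-- `G ≠ 0`. -/
theorem nt98_G_ne_zero (H : nt98_Frame W V' rinf r0 r' sh sh' sb α β Nα Nβ e0) {a b : F'}
    (ha : a ≠ 0) (hb : b ≠ 0) : nt98_G sh' α β e0 a b ≠ 0 := by
  obtain ⟨-, -, hGinf, -, hA, hB⟩ := nt98_G_unit H ha hb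
  intro h
  rw [h] at hGinf
  have h4 := H.rinf_add 0 W.zero_mem 0 W.zero_mem
  rw [add_zero] at h4
  have h5 : rinf 0 = 0 := left_eq_add.mp h4
  rw [h5] at hGinf
  exact div_ne_zero hA ((map_ne_zero sb).mpr hB) hGinf.symm

/-- **Step (1c), new ⇒ toric (abstract core).**  If `Nα f = c1 * a ^ m` and
`Nβ f = c2 * b ^ m`, then `f3 = (f1 / ŝ² f1) / G ^ m` (`f1 = f / ŝ² f`) is a unit of `W` with
`red_∞ f3 = red' γ1 / sb (red' γ2)` and `red_0 f3 = red' γ2 / sb (red' γ1)`, where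
`γi = ci / ŝ'² ci`. -/
theorem nt98_main (H : nt98_Frame W V' rinf r0 r' sh sh' sb α β Nα Nβ e0) (m : ℕ) {f : F}
    {a b c1 c2 : F'} (hf : f ≠ 0) (ha : a ≠ 0) (hb : b ≠ 0) (hNα : Nα f = c1 * a ^ m)
    (hNβ : Nβ f = c2 * b ^ m) :
    nt98_f3 sh sh' α β e0 m f a b ∈ W ∧ (nt98_f3 sh sh' α β e0 m f a b)⁻¹ ∈ W ∧
      rinf (nt98_f3 sh sh' α β e0 m f a b) =
        r' (nt98_tw sh' c1) / sb (r' (nt98_tw sh' c2)) ∧
      r0 (nt98_f3 sh sh' α β e0 m f a b) =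
        r' (nt98_tw sh' c2) / sb (r' (nt98_tw sh' c1)) ∧
      r' (nt98_tw sh' c1) ≠ 0 ∧ r' (nt98_tw sh' c2) ≠ 0 := by
  have hc1 : c1 ≠ 0 := by
    rintro rfl
    rw [zero_mul] at hNα
    exact nt98_map_ne_zero Nα hf hNα
  have hc2 : c2 ≠ 0 := by
    rintro rfl
    rw [zero_mul] at hNβ
    exact nt98_map_ne_zero Nβ hf hNβ
  have hγ1 := nt98_tw_mem' H hc1
  have hγ2 := nt98_tw_mem' H hc2
  have hg1 : r' (nt98_tw sh' c1) ≠ 0 :=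
    nt98_red_ne_zero V' r' H.r'_one H.r'_mul (nt98_tw_ne_zero sh' hc1) hγ1.1 hγ1.2
  have hg2 : r' (nt98_tw sh' c2) ≠ 0 :=
    nt98_red_ne_zero V' r' H.r'_one H.r'_mul (nt98_tw_ne_zero sh' hc2) hγ2.1 hγ2.2
  obtain ⟨hG, hGi, hGinf, hG0, hA, hB⟩ := nt98_G_unit H ha hb
  have hf1 := nt98_tw_mem H hf
  have hf10 : nt98_tw sh f ≠ 0 := nt98_tw_ne_zero sh hf
  have hf2 := nt98_tw_mem H hf10
  have hf20 : nt98_tw sh (nt98_tw sh f) ≠ 0 := nt98_tw_ne_zero sh hf10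
  have hGm : nt98_G sh' α β e0 a b ^ m ∈ W := W.pow_mem hG m
  have hGmi : (nt98_G sh' α β e0 a b ^ m)⁻¹ ∈ W := by
    rw [← inv_pow]
    exact W.pow_mem hGi m
  have hG00 : nt98_G sh' α β e0 a b ≠ 0 := nt98_G_ne_zero H ha hb
  have hGm0 : nt98_G sh' α β e0 a b ^ m ≠ 0 := pow_ne_zero m hG00
  have hu1 : rinf (nt98_tw sh f) ≠ 0 :=
    nt98_red_ne_zero W rinf H.rinf_one H.rinf_mul hf10 hf1.1 hf1.2
  have hu0 : r0 (nt98_tw sh f) ≠ 0 :=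
    nt98_red_ne_zero W r0 H.r0_one H.r0_mul hf10 hf1.1 hf1.2
  have E1 := nt98_E1 H m hf ha hc1 hNα
  have E2 := nt98_E2 H m hf hb hc2 hNβ
  have E1s := congrArg sb E1
  have E2s := congrArg sb E2
  rw [map_mul, map_pow, map_mul] at E1s E2s
  refine ⟨?_, ?_, ?_, ?_, hg1, hg2⟩
  · rw [nt98_f3, div_eq_mul_inv]
    exact W.mul_mem hf2.1 hGmi
  · rw [nt98_f3, inv_div, div_eq_mul_inv]
    exact W.mul_mem hGm hf2.2
  · rw [nt98_f3, nt98_red_div W rinf H.rinf_one H.rinf_mul hGm0 hf2.1 hGm hGmi,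
      nt98_red_pow W rinf H.rinf_one H.rinf_mul hG, hGinf,
      nt98_rinf_tw H hf10 hf1.1 hf1.2]
    exact nt98_elim m _ _ _ _ _ _ _ ((map_ne_zero sb).mpr hg2) hA ((map_ne_zero sb).mpr hB)
      ((map_ne_zero sb).mpr ((map_ne_zero sb).mpr hu1)) E1 E2s
  · rw [nt98_f3, nt98_red_div W r0 H.r0_one H.r0_mul hGm0 hf2.1 hGm hGmi,
      nt98_red_pow W r0 H.r0_one H.r0_mul hG, hG0,
      nt98_r0_tw H hf10 hf1.1 hf1.2]
    exact nt98_elim m _ _ _ _ _ _ _ ((map_ne_zero sb).mpr hg1) hB ((map_ne_zero sb).mpr hA)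
      ((map_ne_zero sb).mpr ((map_ne_zero sb).mpr hu0)) E2 E1s

/-- **Step (1c) with constants.**  If the reductions of `γi = ci / ŝ'² ci` lie in a subfield
`Cst ⊆ Λ` stable under `sb`, then `f3` is a unit of `W` whose two reductions are nonzero
constants. -/
theorem nt98_main_const (H : nt98_Frame W V' rinf r0 r' sh sh' sb α β Nα Nβ e0) (m : ℕ)
    {f : F} {a b c1 c2 : F'} (hf : f ≠ 0) (ha : a ≠ 0) (hb : b ≠ 0)
    (hNα : Nα f = c1 * a ^ m) (hNβ : Nβ f = c2 * b ^ m) (Cst : Subfield Λ)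
    (hsb : ∀ c ∈ Cst, sb c ∈ Cst) (h1 : r' (nt98_tw sh' c1) ∈ Cst)
    (h2 : r' (nt98_tw sh' c2) ∈ Cst) :
    nt98_f3 sh sh' α β e0 m f a b ∈ W ∧ (nt98_f3 sh sh' α β e0 m f a b)⁻¹ ∈ W ∧
      ∃ cinf ∈ Cst, ∃ c0 ∈ Cst, cinf ≠ 0 ∧ c0 ≠ 0 ∧
        rinf (nt98_f3 sh sh' α β e0 m f a b) = cinf ∧
        r0 (nt98_f3 sh sh' α β e0 m f a b) = c0 := by
  obtain ⟨hm, hmi, hri, hr0, hg1, hg2⟩ := nt98_main H m hf ha hb hNα hNβ
  refine ⟨hm, hmi, _, Cst.div_mem h1 (hsb _ h2), _, Cst.div_mem h2 (hsb _ h1),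
    div_ne_zero hg1 ((map_ne_zero sb).mpr hg2), div_ne_zero hg2 ((map_ne_zero sb).mpr hg1),
    hri, hr0⟩

/-- **Step (1c), existential form**: there is a unit `G` of `W` such that
`f3 := (f1 / ŝ² f1) / G ^ m` (`f1 = f / ŝ² f`) is a unit of `W` with nonzero constant
reductions. -/
theorem nt98_exists (H : nt98_Frame W V' rinf r0 r' sh sh' sb α β Nα Nβ e0) (m : ℕ)
    {f : F} {a b c1 c2 : F'} (hf : f ≠ 0) (ha : a ≠ 0) (hb : b ≠ 0)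
    (hNα : Nα f = c1 * a ^ m) (hNβ : Nβ f = c2 * b ^ m) (Cst : Subfield Λ)
    (hsb : ∀ c ∈ Cst, sb c ∈ Cst) (h1 : r' (c1 / sh' (sh' c1)) ∈ Cst)
    (h2 : r' (c2 / sh' (sh' c2)) ∈ Cst) :
    ∃ G : F, G ≠ 0 ∧ G ∈ W ∧ G⁻¹ ∈ W ∧
      f / sh (sh f) / sh (sh (f / sh (sh f))) / G ^ m ∈ W ∧
      (f / sh (sh f) / sh (sh (f / sh (sh f))) / G ^ m)⁻¹ ∈ W ∧
      ∃ cinf ∈ Cst, ∃ c0 ∈ Cst, cinf ≠ 0 ∧ c0 ≠ 0 ∧
        rinf (f / sh (sh f) / sh (sh (f / sh (sh f))) / G ^ m) = cinf ∧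
        r0 (f / sh (sh f) / sh (sh (f / sh (sh f))) / G ^ m) = c0 := by
  obtain ⟨hG, hGi, -, -, -, -⟩ := nt98_G_unit H ha hb
  have hG0 : nt98_G sh' α β e0 a b ≠ 0 := nt98_G_ne_zero H ha hb
  exact ⟨nt98_G sh' α β e0 a b, hG0, hG, hGi, nt98_main_const H m hf ha hb hNα hNβ Cst hsb h1 h2⟩

end Main

end Fermat.Agent.S35
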