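import Mathlib
import Fermat.Agent.S35.NewToric98
import Fermat.Agent.S35.FrobFrame50

/-!
# S35 lab (helper35): the INSTANCE of `nt98_Frame` on the canonical frame (step (1c))

`nt98_Frame` (helper98, `NewToric98`) collects the abstract inputs of "new ⇒ toric".  This file
binds it to the canonical data of the S34/S35 frames:

* `F = F_K(M' q)`, `F' = F_K(M')`, `Λ = κ((Q))`, `κ` the residue field of the DVR `R ⊆ K`;
* `W = s34i47c_W` (`= V_∞ ⊓ V_0`), `V' = cm85_Vinf M'`;
* `rinf = ntf35_red R (M' q)` (the reduction `tv84_red` of Gauss-integral series, extended by `0`),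
  `r0 = rinf ∘ w` (`w = al97L_w`), `r' = ntf35_red R M'`;
* `ŝ = s34i47_coeffEquiv σ _` for a Frobenius lift `σ` (`ff50_Frob R q σ`),
  `sb = coeffMap (frobenius κ q)`;
* `α = al97L_alpha`, `β = al97L_beta`, `Nα`, `Nβ` the field norms along `α`, `β`
  (ANY `Algebra` instances with these structure maps);
* `e0` any element with `π⁻¹ e0 ∈ V_∞`, `π⁻¹ (e0 - 1) ∈ V_0` (helper66's `se66_e0` shape).

Main results:

* `ntf35_norm_equiv`, `ntf35_norm_twist` (Mathlib only): norms commute with compatible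
  automorphisms; `ntf35_norm_sh` : `N (ŝ x) = ŝ' (N x)` along `α` and along `β`;
  `ntf35_norm_beta_eq` : `N_β x = N_α (w x)`;
* `ntf35_red_*` : the total reduction and its calculus (ring homomorphism on `V_∞`, kernel
  `π V_∞`, unit criterion, compatibility with `α`, `β`, `ŝ`, constants);
* `ntf35_Nα_red_of_cong` : the congruence form `α (N_α y) ≡ y · ŝ (w y)` mod `π V_∞` of the norm
  formula gives the reduction form `r' (N_α y) = rinf y * sb (r0 y)`;
* **`ntf35_frame`** : `nt98_Frame` for the canonical data, from the reduction form of the norm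
  formula along `α` ONLY (the `β` form follows by `w`);
* **`ntf35_toric`** : for `f ≠ 0` with `N_α f = k₁ a ^ m`, `N_β f = k₂ b ^ m` (`k₁, k₂ ∈ K`
  constants) there is a unit `G` of `W` such that `f3 = (f1 / ŝ² f1) / G ^ m`, `f1 = f / ŝ² f`,
  is a unit of `W` congruent to unit constants of `R` modulo `π V_∞` and modulo `π V_0`.
-/

set_option autoImplicit false
set_option linter.unusedSectionVars false
set_option linter.style.haveILetI false

open ModularCurve IntermediateField

namespace Fermat.Agent.S35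

open Fermat.Agent.S18 Fermat.Agent.S34 Fermat.Agent.S37

local notation "Q̄" => AlgebraicClosure ℚ

/-! ## 0. Norms and compatible automorphisms (Mathlib only) -/

/-- The norm commutes with a pair of compatible automorphisms. -/
theorem ntf35_norm_equiv {A B : Type*} [Field A] [Field B] [Algebra A B] (e₁ : A ≃+* A)
    (e₂ : B ≃+* B) (he : ∀ a, e₂ (algebraMap A B a) = algebraMap A B (e₁ a)) (x : B) :
    Algebra.norm A (e₂ x) = e₁ (Algebra.norm A x) := by
  have h := Algebra.norm_eq_of_equiv_equiv e₁ e₂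
    (by ext a; exact (he a).symm) x
  rw [h, RingEquiv.apply_symm_apply]

/-- Two algebra structures exchanged by an automorphism of the top field have norms exchanged by
that automorphism. -/
theorem ntf35_norm_twist {A B : Type*} [Field A] [Field B] (inst₁ inst₂ : Algebra A B)
    (w : B ≃+* B)
    (hw : ∀ a, w (@algebraMap A B _ _ inst₁ a) = @algebraMap A B _ _ inst₂ a) (x : B) :
    @Algebra.norm A B _ _ inst₁ x = @Algebra.norm A B _ _ inst₂ (w x) := by
  have h := @Algebra.norm_eq_of_equiv_equiv A B A B _ _ _ _ inst₁ inst₂ (RingEquiv.refl A) w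
    (by ext a; exact (hw a).symm) x
  rw [h]
  rfl

/-! ## 1. The total reduction of Gauss-integral series -/

section RedS

variable (R : Type) {K : Type} [CommRing R] [IsDomain R] [IsDiscreteValuationRing R] [Field K]
  [Algebra R K] [IsFractionRing R K]

open Classical in
/-- The reduction `tv84_red` of a Gauss-integral series of `K((Q))`, extended by `0` outside
the ring `tv84_G` of Gauss-integral series. -/
noncomputable def ntf35_redS (z : LaurentSeries K) :
    LaurentSeries (IsLocalRing.ResidueField R) :=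
  if h : z ∈ tv84_G K (IsLocalRing.residue R) then tv84_red (IsLocalRing.residue R) ⟨z, h⟩
  else 0

variable {R}

theorem ntf35_redS_of_mem {z : LaurentSeries K} (h : z ∈ tv84_G K (IsLocalRing.residue R)) :
    ntf35_redS R z = tv84_red (IsLocalRing.residue R) ⟨z, h⟩ :=
  dif_pos h

theorem ntf35_redS_one : ntf35_redS R (1 : LaurentSeries K) = 1 := by
  have h1 := (tv84_G K (IsLocalRing.residue R)).one_mem
  have e : (⟨1, h1⟩ : tv84_G K (IsLocalRing.residue R)) = 1 := rfl
  rw [ntf35_redS_of_mem h1, e, map_one]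

theorem ntf35_redS_mul {x y : LaurentSeries K} (hx : x ∈ tv84_G K (IsLocalRing.residue R))
    (hy : y ∈ tv84_G K (IsLocalRing.residue R)) :
    ntf35_redS R (x * y) = ntf35_redS R x * ntf35_redS R y := by
  have hxy := (tv84_G K (IsLocalRing.residue R)).mul_mem hx hy
  have e : (⟨x * y, hxy⟩ : tv84_G K (IsLocalRing.residue R)) = ⟨x, hx⟩ * ⟨y, hy⟩ := rfl
  rw [ntf35_redS_of_mem hx, ntf35_redS_of_mem hy, ntf35_redS_of_mem hxy, e, map_mul]

theorem ntf35_redS_add {x y : LaurentSeries K} (hx : x ∈ tv84_G K (IsLocalRing.residue R))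
    (hy : y ∈ tv84_G K (IsLocalRing.residue R)) :
    ntf35_redS R (x + y) = ntf35_redS R x + ntf35_redS R y := by
  have hxy := (tv84_G K (IsLocalRing.residue R)).add_mem hx hy
  have e : (⟨x + y, hxy⟩ : tv84_G K (IsLocalRing.residue R)) = ⟨x, hx⟩ + ⟨y, hy⟩ := rfl
  rw [ntf35_redS_of_mem hx, ntf35_redS_of_mem hy, ntf35_redS_of_mem hxy, e, map_add]

/-- The reduction of a constant of `R`. -/
theorem ntf35_redS_C (r : R) :
    ntf35_redS R (HahnSeries.C (algebraMap R K r) : LaurentSeries K) =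
      HahnSeries.C (IsLocalRing.residue R r) := by
  rw [ntf35_redS_of_mem (tv84_C_mem (IsLocalRing.residue R) r),
    tv84_red_of_integral (IsLocalRing.residue R) _ (HahnSeries.C r)
      (by rw [gv85_coeffMap_C]), gv85_coeffMap_C]

/-- The kernel of the reduction is `π G`. -/
theorem ntf35_redS_eq_zero_iff {π : R} (hπ : Irreducible π) {x : LaurentSeries K}
    (hx : x ∈ tv84_G K (IsLocalRing.residue R)) :
    ntf35_redS R x = 0 ↔
      (HahnSeries.C (algebraMap R K π))⁻¹ * x ∈ tv84_G K (IsLocalRing.residue R) := by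
  rw [ntf35_redS_of_mem hx]
  exact tv84_red_eq_zero_iff (IsLocalRing.residue R) π (pk85_res_iff hπ) hπ.ne_zero ⟨x, hx⟩

/-- The reduction commutes with `Q ↦ Q^q`. -/
theorem ntf35_redS_qExpand (q : ℕ) [NeZero q] {x : LaurentSeries K}
    (hx : x ∈ tv84_G K (IsLocalRing.residue R)) :
    ntf35_redS R (qExpand K q x) =
      qExpand (IsLocalRing.ResidueField R) q (ntf35_redS R x) := by
  rw [ntf35_redS_of_mem hx,
    ntf35_redS_of_mem (tv84_qExpand_mem_G (IsLocalRing.residue R) q x hx)]
  exact tv84_red_qExpand (IsLocalRing.residue R) q ⟨x, hx⟩ _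

end RedS

/-! ## 2. The reduction on `F_K(M)` -/

section Level

variable (R : Type) {K : Type} [CommRing R] [IsDomain R] [IsDiscreteValuationRing R] [Field K]
  [Algebra R K] [IsFractionRing R K] (M : ℕ) [NeZero M]

/-- The reduction `F_K(M) → κ((Q))` along the Gauss valuation at `∞` (total; `0` outside
`V_∞`). -/
noncomputable def ntf35_red (x : ↥(modularFunctionFieldFullC K M)) :
    LaurentSeries (IsLocalRing.ResidueField R) :=
  ntf35_redS R (x : LaurentSeries K)

variable {R}

theorem ntf35_red_one : ntf35_red R M (1 : ↥(modularFunctionFieldFullC K M)) = 1 :=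
  ntf35_redS_one

theorem ntf35_red_zero : ntf35_red R M (0 : ↥(modularFunctionFieldFullC K M)) = 0 := by
  have h0 := (tv84_G K (IsLocalRing.residue R)).zero_mem
  have e : (⟨0, h0⟩ : tv84_G K (IsLocalRing.residue R)) = 0 := rfl
  show ntf35_redS R (0 : LaurentSeries K) = 0
  rw [ntf35_redS_of_mem h0, e, map_zero]

theorem ntf35_red_mul {π : R} (hπ : Irreducible π) (x y : ↥(modularFunctionFieldFullC K M))
    (hx : x ∈ cm85_Vinf (K := K) M hπ) (hy : y ∈ cm85_Vinf (K := K) M hπ) :
    ntf35_red R M (x * y) = ntf35_red R M x * ntf35_red R M y :=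
  ntf35_redS_mul hx hy

theorem ntf35_red_add {π : R} (hπ : Irreducible π) (x y : ↥(modularFunctionFieldFullC K M))
    (hx : x ∈ cm85_Vinf (K := K) M hπ) (hy : y ∈ cm85_Vinf (K := K) M hπ) :
    ntf35_red R M (x + y) = ntf35_red R M x + ntf35_red R M y :=
  ntf35_redS_add hx hy

/-- The reduction of a constant of `R`. -/
theorem ntf35_red_algebraMap (r : R) :
    ntf35_red R M (algebraMap K ↥(modularFunctionFieldFullC K M) (algebraMap R K r)) =
      HahnSeries.C (IsLocalRing.residue R r) := by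
  rw [ntf35_red, gv85_coe_algebraMap]
  exact ntf35_redS_C r

/-- Constants of `R` lie in `V_∞`. -/
theorem ntf35_algebraMap_mem {π : R} (hπ : Irreducible π) (r : R) :
    algebraMap K ↥(modularFunctionFieldFullC K M) (algebraMap R K r) ∈
      cm85_Vinf (K := K) M hπ := by
  refine gv85_mem_V_of_integral _ _ _ _ (HahnSeries.C r) ?_
  rw [gv85_coe_algebraMap, gv85_coeffMap_C]

/-- The kernel of the reduction on `V_∞` is `π V_∞`. -/
theorem ntf35_red_eq_zero_iff {π : R} (hπ : Irreducible π)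
    (x : ↥(modularFunctionFieldFullC K M)) (hx : x ∈ cm85_Vinf (K := K) M hπ) :
    ntf35_red R M x = 0 ↔
      (algebraMap K ↥(modularFunctionFieldFullC K M) (algebraMap R K π))⁻¹ * x ∈
        cm85_Vinf (K := K) M hπ := by
  rw [ntf35_red, ntf35_redS_eq_zero_iff hπ hx]
  show _ ↔ (((algebraMap K ↥(modularFunctionFieldFullC K M) (algebraMap R K π))⁻¹ * x :
      ↥(modularFunctionFieldFullC K M)) : LaurentSeries K) ∈ tv84_G K (IsLocalRing.residue R)
  rw [gv85_coe_inv_mul]

/-- Congruent elements of `V_∞` have the same reduction. -/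
theorem ntf35_red_cong {π : R} (hπ : Irreducible π)
    (x y : ↥(modularFunctionFieldFullC K M)) (hy : y ∈ cm85_Vinf (K := K) M hπ)
    (hxy : (algebraMap K ↥(modularFunctionFieldFullC K M) (algebraMap R K π))⁻¹ * (x - y) ∈
      cm85_Vinf (K := K) M hπ) :
    x ∈ cm85_Vinf (K := K) M hπ ∧ ntf35_red R M x = ntf35_red R M y := by
  have hπF : algebraMap K ↥(modularFunctionFieldFullC K M) (algebraMap R K π) ≠ 0 := by
    intro h
    have h2 := (map_eq_zero_iff _ (algebraMap K ↥(modularFunctionFieldFullC K M)).injective).mp h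
    exact hπ.ne_zero (IsFractionRing.injective R K (by rw [h2, map_zero]))
  have hd : x - y ∈ cm85_Vinf (K := K) M hπ := by
    have h1 : x - y = algebraMap K ↥(modularFunctionFieldFullC K M) (algebraMap R K π) *
        ((algebraMap K ↥(modularFunctionFieldFullC K M) (algebraMap R K π))⁻¹ * (x - y)) := by
      rw [← mul_assoc, mul_inv_cancel₀ hπF, one_mul]
    rw [h1]
    exact (cm85_Vinf (K := K) M hπ).mul_mem _ _ (ntf35_algebraMap_mem M hπ π) hxy
  have hx : x ∈ cm85_Vinf (K := K) M hπ := by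
    have h1 : x = y + (x - y) := by ring
    rw [h1]
    exact (cm85_Vinf (K := K) M hπ).add_mem _ _ hy hd
  refine ⟨hx, ?_⟩
  have h0 : ntf35_red R M (x - y) = 0 := (ntf35_red_eq_zero_iff M hπ _ hd).mpr hxy
  have h1 : x = y + (x - y) := by ring
  rw [h1, ntf35_red_add M hπ _ _ hy hd, h0, add_zero]

/-- Unit criterion: an element of `V_∞` with nonzero reduction is a unit of `V_∞`. -/
theorem ntf35_inv_mem {π : R} (hπ : Irreducible π)
    (x : ↥(modularFunctionFieldFullC K M)) (hx : x ∈ cm85_Vinf (K := K) M hπ)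
    (hr : ntf35_red R M x ≠ 0) : x⁻¹ ∈ cm85_Vinf (K := K) M hπ := by
  by_contra hx'
  exact hr ((ntf35_red_eq_zero_iff M hπ x hx).mpr
    (gv85_hmax (IsLocalRing.residue R) π (pk85_res_iff hπ) hπ.ne_zero _ _ x hx hx'))

/-- `red (σ̂ x) = Frob (red x)` for a Frobenius lift `σ` and `x ∈ V_∞`. -/
theorem ntf35_red_sh {q : ℕ} (hq : q.Prime) [ExpChar (IsLocalRing.ResidueField R) q]
    {π : R} (hπ : Irreducible π) (σ : K ≃+* K) (hσ : ff50_Frob R q σ)
    (x : ↥(modularFunctionFieldFullC K M)) (hx : x ∈ cm85_Vinf (K := K) M hπ) :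
    ntf35_red R M (s34i47_coeffEquiv σ M x) =
      coeffMap (frobenius (IsLocalRing.ResidueField R) q) (ntf35_red R M x) := by
  obtain ⟨h1, h2, h⟩ := ff50_red M hq hπ σ hσ x hx
  rw [ntf35_red, ntf35_red, ntf35_redS_of_mem h2, ntf35_redS_of_mem h1]
  exact h inferInstance

/-- The reduction depends only on the `q`-expansion, not on the level. -/
theorem ntf35_red_congr_level (M₁ M₂ : ℕ) [NeZero M₁] [NeZero M₂]
    (x : ↥(modularFunctionFieldFullC K M₁)) (y : ↥(modularFunctionFieldFullC K M₂))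
    (hxy : (x : LaurentSeries K) = (y : LaurentSeries K)) :
    ntf35_red R M₁ x = ntf35_red R M₂ y := by
  rw [ntf35_red, ntf35_red, hxy]

/-- A constant `u ∈ K` which is a unit of `V_∞` is a unit of `R`. -/
theorem ntf35_const_unit {π : R} (hπ : Irreducible π) (u : K) (hu00 : u ≠ 0)
    (hu : algebraMap K ↥(modularFunctionFieldFullC K M) u ∈ cm85_Vinf (K := K) M hπ)
    (hui : (algebraMap K ↥(modularFunctionFieldFullC K M) u)⁻¹ ∈ cm85_Vinf (K := K) M hπ) :
    ∃ r : R, IsUnit r ∧ u = algebraMap R K r := by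
  have hu0 : algebraMap K ↥(modularFunctionFieldFullC K M) u ≠ 0 := fun h =>
    hu00 ((map_eq_zero_iff _ (algebraMap K ↥(modularFunctionFieldFullC K M)).injective).mp h)
  have hred : ntf35_red R M (algebraMap K ↥(modularFunctionFieldFullC K M) u) *
      ntf35_red R M (algebraMap K ↥(modularFunctionFieldFullC K M) u)⁻¹ = 1 := by
    rw [← ntf35_red_mul M hπ _ _ hu hui, mul_inv_cancel₀ hu0, ntf35_red_one]
  have key : ∀ r : R, ntf35_red R M (algebraMap K ↥(modularFunctionFieldFullC K M)
      (algebraMap R K r)) ≠ 0 → IsUnit r := by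
    intro r hr
    rw [ntf35_red_algebraMap] at hr
    by_contra hnu
    apply hr
    have : IsLocalRing.residue R r = 0 := by
      rw [IsLocalRing.residue_eq_zero_iff]
      exact (IsLocalRing.mem_maximalIdeal r).mpr hnu
    rw [this, map_zero]
  rcases ValuationRing.isInteger_or_isInteger R u with ⟨r, hr⟩ | ⟨r, hr⟩
  · refine ⟨r, key r ?_, hr.symm⟩
    rw [hr]
    exact left_ne_zero_of_mul_eq_one hred
  · have hr' : IsUnit r := by
      apply key r
      rw [hr, map_inv₀]
      exact right_ne_zero_of_mul_eq_one hred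
    obtain ⟨v, rfl⟩ := hr'
    refine ⟨((v⁻¹ : Rˣ) : R), Units.isUnit _, ?_⟩
    have hv : algebraMap R K (v : R) * algebraMap R K ((v⁻¹ : Rˣ) : R) = 1 := by
      rw [← map_mul, Units.mul_inv, map_one]
    have hu1 : u⁻¹ * algebraMap R K ((v⁻¹ : Rˣ) : R) = 1 := by rw [← hr]; exact hv
    field_simp at hu1
    exact hu1.symm

/-- Elements of `V_∞` with the same reduction are congruent modulo `π V_∞`. -/
theorem ntf35_cong_of_red {π : R} (hπ : Irreducible π)
    (x y : ↥(modularFunctionFieldFullC K M)) (hx : x ∈ cm85_Vinf (K := K) M hπ)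
    (hy : y ∈ cm85_Vinf (K := K) M hπ) (h : ntf35_red R M x = ntf35_red R M y) :
    (algebraMap K ↥(modularFunctionFieldFullC K M) (algebraMap R K π))⁻¹ * (x - y) ∈
      cm85_Vinf (K := K) M hπ := by
  have hd : x - y ∈ cm85_Vinf (K := K) M hπ := sub_mem hx hy
  refine (ntf35_red_eq_zero_iff M hπ _ hd).mp ?_
  have h1 := ntf35_red_add M hπ _ _ hd hy
  rw [sub_add_cancel, h] at h1
  exact right_eq_add.mp h1

/-- The twist `k / σ² k` of a nonzero constant is a unit of `R`. -/
theorem ntf35_tw_const [NumberField K] {q : ℕ} (hq0 : q ≠ 0) {π : R} (hπ : Irreducible π)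
    (σ : K ≃+* K) (hσ : ff50_Frob R q σ) (k : K) (hk : k ≠ 0) :
    ∃ r : R, IsUnit r ∧
      nt98_tw (s34i47_coeffEquiv σ M) (algebraMap K ↥(modularFunctionFieldFullC K M) k) =
        algebraMap K ↥(modularFunctionFieldFullC K M) (algebraMap R K r) := by
  have hc : algebraMap K ↥(modularFunctionFieldFullC K M) k ≠ 0 := fun h =>
    hk ((map_eq_zero_iff _ (algebraMap K ↥(modularFunctionFieldFullC K M)).injective).mp h)
  have hs : ∀ c : K, s34i47_coeffEquiv σ M (algebraMap K ↥(modularFunctionFieldFullC K M) c) =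
      algebraMap K ↥(modularFunctionFieldFullC K M) (σ c) := fun c => by
    rw [in87i_coeffEquiv_eq, in87_aut_algebraMap]
  have e : nt98_tw (s34i47_coeffEquiv σ M) (algebraMap K ↥(modularFunctionFieldFullC K M) k) =
      algebraMap K ↥(modularFunctionFieldFullC K M) (k / σ (σ k)) := by
    rw [nt98_tw, hs, hs, map_div₀]
  have hu := nt98_tw_unit (cm85_Vinf (K := K) M hπ).toSubring (s34i47_coeffEquiv σ M)
    (fun x hx => ⟨ff50_div_mem_Vinf M hq0 hπ σ hσ x hx,
      ff50_inv_div_mem_Vinf M hq0 hπ σ hσ x hx⟩) hc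
  have hu' : nt98_tw (s34i47_coeffEquiv σ M)
        (algebraMap K ↥(modularFunctionFieldFullC K M) k) ∈ cm85_Vinf (K := K) M hπ ∧
      (nt98_tw (s34i47_coeffEquiv σ M)
        (algebraMap K ↥(modularFunctionFieldFullC K M) k))⁻¹ ∈ cm85_Vinf (K := K) M hπ := hu
  rw [e] at hu'
  have hne : k / σ (σ k) ≠ 0 :=
    div_ne_zero hk ((map_ne_zero σ).mpr ((map_ne_zero σ).mpr hk))
  obtain ⟨r, hr, hkr⟩ := ntf35_const_unit M hπ _ hne hu'.1 hu'.2
  exact ⟨r, hr, by rw [e, hkr]⟩

end Level

/-! ## 3. Constants -/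

section Const

variable {R : Type} [CommRing R] [IsDomain R] [IsDiscreteValuationRing R]

/-- `sb` on constants. -/
theorem ntf35_sb_C (κ : Type*) [Field κ] (q : ℕ) [ExpChar κ q] (a : κ) :
    coeffMap (frobenius κ q) (HahnSeries.C a : LaurentSeries κ) = HahnSeries.C (a ^ q) := by
  rw [gv85_coeffMap_C, frobenius_def]

/-- A quotient `C (res v₁) / sb (C (res v₂))` of reductions of units of `R` is the reduction
of a unit of `R`. -/
theorem ntf35_unit_quot (q : ℕ) [ExpChar (IsLocalRing.ResidueField R) q] (r₁ r₂ : R) (h₁ : IsUnit r₁)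
    (h₂ : IsUnit r₂) :
    ∃ ρ : R, IsUnit ρ ∧
      (HahnSeries.C (IsLocalRing.residue R r₁) : LaurentSeries (IsLocalRing.ResidueField R)) /
        coeffMap (frobenius (IsLocalRing.ResidueField R) q)
          (HahnSeries.C (IsLocalRing.residue R r₂)) =
      HahnSeries.C (IsLocalRing.residue R ρ) := by
  obtain ⟨v₁, rfl⟩ := h₁
  obtain ⟨v₂, rfl⟩ := h₂
  refine ⟨((v₁ * v₂⁻¹ ^ q : Rˣ) : R), Units.isUnit _, ?_⟩
  have h2 : IsLocalRing.residue R (v₂ : R) ≠ 0 := by
    intro h
    have h3 : IsLocalRing.residue R (v₂ : R) * IsLocalRing.residue R ((v₂⁻¹ : Rˣ) : R) = 1 := by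
      rw [← map_mul, Units.mul_inv, map_one]
    rw [h, zero_mul] at h3
    exact zero_ne_one h3
  have h4 : IsLocalRing.residue R ((v₂⁻¹ : Rˣ) : R) = (IsLocalRing.residue R (v₂ : R))⁻¹ := by
    apply eq_inv_of_mul_eq_one_right
    rw [← map_mul, Units.mul_inv, map_one]
  have e : IsLocalRing.residue R ((v₁ * v₂⁻¹ ^ q : Rˣ) : R) =
      IsLocalRing.residue R (v₁ : R) * ((IsLocalRing.residue R (v₂ : R))⁻¹) ^ q := by
    rw [Units.val_mul, Units.val_pow_eq_pow_val, map_mul, map_pow, h4]
  rw [ntf35_sb_C, e, map_mul, map_pow, map_pow, map_inv₀, div_eq_mul_inv, inv_pow]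

end Const

/-! ## 4. The canonical frame -/

section Frame

variable {R K : Type} [CommRing R] [IsDomain R] [IsDiscreteValuationRing R] [Field K]
  [Algebra R K] [IsFractionRing R K] [Algebra K Q̄]
  (M' q : ℕ) [NeZero M'] [NeZero q] (hq : q.Prime) (hM' : ¬ q ∣ M')

variable (R) in
/-- The reduction at `0`: `r0 = rinf ∘ w`. -/
noncomputable def ntf35_red0 (x : ↥(modularFunctionFieldFullC K (M' * q))) :
    LaurentSeries (IsLocalRing.ResidueField R) :=
  ntf35_red R (M' * q) (al97L_w (algebraMap K Q̄) M' q hq hM' x)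

/-- The norm along `α` commutes with the coefficientwise action. -/
theorem ntf35_norm_alpha_sh (σ : K ≃+* K)
    (inst : Algebra ↥(modularFunctionFieldFullC K M') ↥(modularFunctionFieldFullC K (M' * q)))
    (hinst : ∀ a, @algebraMap ↥(modularFunctionFieldFullC K M')
      ↥(modularFunctionFieldFullC K (M' * q)) _ _ inst a = al97L_alpha K M' q a)
    (x : ↥(modularFunctionFieldFullC K (M' * q))) :
    @Algebra.norm ↥(modularFunctionFieldFullC K M') ↥(modularFunctionFieldFullC K (M' * q))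
        _ _ inst (s34i47_coeffEquiv σ (M' * q) x) =
      s34i47_coeffEquiv σ M' (@Algebra.norm ↥(modularFunctionFieldFullC K M')
        ↥(modularFunctionFieldFullC K (M' * q)) _ _ inst x) := by
  letI := inst
  exact ntf35_norm_equiv (s34i47_coeffEquiv σ M') (s34i47_coeffEquiv σ (M' * q))
    (fun a => by rw [hinst, ff50_alpha_comm, hinst]) x

/-- The norm along `β` commutes with the coefficientwise action. -/
theorem ntf35_norm_beta_sh (σ : K ≃+* K)
    (inst : Algebra ↥(modularFunctionFieldFullC K M') ↥(modularFunctionFieldFullC K (M' * q)))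
    (hinst : ∀ a, @algebraMap ↥(modularFunctionFieldFullC K M')
      ↥(modularFunctionFieldFullC K (M' * q)) _ _ inst a = al97L_beta K M' q a)
    (x : ↥(modularFunctionFieldFullC K (M' * q))) :
    @Algebra.norm ↥(modularFunctionFieldFullC K M') ↥(modularFunctionFieldFullC K (M' * q))
        _ _ inst (s34i47_coeffEquiv σ (M' * q) x) =
      s34i47_coeffEquiv σ M' (@Algebra.norm ↥(modularFunctionFieldFullC K M')
        ↥(modularFunctionFieldFullC K (M' * q)) _ _ inst x) := by
  letI := inst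
  exact ntf35_norm_equiv (s34i47_coeffEquiv σ M') (s34i47_coeffEquiv σ (M' * q))
    (fun a => by rw [hinst, ff50_beta_comm, hinst]) x

/-- `N_β x = N_α (w x)`. -/
theorem ntf35_norm_beta_eq
    (instα instβ : Algebra ↥(modularFunctionFieldFullC K M')
      ↥(modularFunctionFieldFullC K (M' * q)))
    (hα : ∀ a, @algebraMap ↥(modularFunctionFieldFullC K M')
      ↥(modularFunctionFieldFullC K (M' * q)) _ _ instα a = al97L_alpha K M' q a)
    (hβ : ∀ a, @algebraMap ↥(modularFunctionFieldFullC K M')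
      ↥(modularFunctionFieldFullC K (M' * q)) _ _ instβ a = al97L_beta K M' q a)
    (x : ↥(modularFunctionFieldFullC K (M' * q))) :
    @Algebra.norm ↥(modularFunctionFieldFullC K M') ↥(modularFunctionFieldFullC K (M' * q))
        _ _ instβ x =
      @Algebra.norm ↥(modularFunctionFieldFullC K M') ↥(modularFunctionFieldFullC K (M' * q))
        _ _ instα (al97L_w (algebraMap K Q̄) M' q hq hM' x) :=
  ntf35_norm_twist instβ instα (al97L_w (algebraMap K Q̄) M' q hq hM').toRingEquiv
    (fun a => by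
      rw [hβ, hα]
      exact al97L_w_beta_apply (algebraMap K Q̄) M' q hq hM' a) x

/-- `w` preserves `W`. -/
theorem ntf35_w_mem_W {π : R} (hπ : Irreducible π)
    (x : ↥(modularFunctionFieldFullC K (M' * q)))
    (hx : x ∈ s34i47c_W (K := K) M' q hq hM' hπ) :
    al97L_w (algebraMap K Q̄) M' q hq hM' x ∈ s34i47c_W (K := K) M' q hq hM' hπ := by
  rw [s34i47c_mem_W] at hx ⊢
  refine ⟨hx.2, ?_⟩
  rw [al97L_w_w]
  exact hx.1

/-- **The norm formula, from its congruence form.**  If `α (N_α y) ≡ y · ŝ (w y)` modulo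
`π V_∞` for every `y ∈ W`, then `red' (N_α y) = red_∞ y · sb (red_0 y)` for every `y ∈ W`. -/
theorem ntf35_Nα_red_of_cong [ExpChar (IsLocalRing.ResidueField R) q] {π : R}
    (hπ : Irreducible π) (σ : K ≃+* K) (hσ : ff50_Frob R q σ)
    (N : ↥(modularFunctionFieldFullC K (M' * q)) → ↥(modularFunctionFieldFullC K M'))
    (hcong : ∀ y : ↥(modularFunctionFieldFullC K (M' * q)),
      y ∈ s34i47c_W (K := K) M' q hq hM' hπ →
      (algebraMap K ↥(modularFunctionFieldFullC K (M' * q)) (algebraMap R K π))⁻¹ *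
        (al97L_alpha K M' q (N y) -
          y * s34i47_coeffEquiv σ (M' * q) (al97L_w (algebraMap K Q̄) M' q hq hM' y)) ∈
        cm85_Vinf (K := K) (M' * q) hπ)
    (y : ↥(modularFunctionFieldFullC K (M' * q)))
    (hy : y ∈ s34i47c_W (K := K) M' q hq hM' hπ) :
    ntf35_red R M' (N y) =
      ntf35_red R (M' * q) y *
        coeffMap (frobenius (IsLocalRing.ResidueField R) q) (ntf35_red0 R M' q hq hM' y) := by
  have hy' := (s34i47c_mem_W M' q hq hM' hπ y).mp hy
  have hs : s34i47_coeffEquiv σ (M' * q) (al97L_w (algebraMap K Q̄) M' q hq hM' y) ∈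
      cm85_Vinf (K := K) (M' * q) hπ :=
    ff50_mem_Vinf (M' * q) hq.ne_zero hπ σ hσ _ hy'.2
  have hz : y * s34i47_coeffEquiv σ (M' * q) (al97L_w (algebraMap K Q̄) M' q hq hM' y) ∈
      cm85_Vinf (K := K) (M' * q) hπ := (cm85_Vinf (K := K) (M' * q) hπ).mul_mem _ _ hy'.1 hs
  obtain ⟨-, h2⟩ := ntf35_red_cong (M' * q) hπ _ _ hz (hcong y hy)
  rw [ntf35_red_mul (M' * q) hπ _ _ hy'.1 hs, ntf35_red_sh (M' * q) hq hπ σ hσ _ hy'.2] at h2
  exact ((ntf35_red_congr_level (M' * q) M' _ _ (al97L_alpha_coe K M' q (N y))).symm).trans h2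

/-- **The canonical instance of `nt98_Frame`** (step (1c)): `K` a number field, `R ⊆ K` a
discrete valuation ring with residue characteristic `q`, `σ` a Frobenius lift, `q ∤ M'`;
`e0` a separating element (`π⁻¹ e0 ∈ V_∞`, `π⁻¹ (e0 - 1) ∈ V_0`), and the norm formula along `α`
in its reduction form.  The norm formula along `β` follows by `w`. -/
theorem ntf35_frame [NumberField K] [ExpChar (IsLocalRing.ResidueField R) q] {π : R}
    (hπ : Irreducible π) (σ : K ≃+* K) (hσ : ff50_Frob R q σ)
    (instα instβ : Algebra ↥(modularFunctionFieldFullC K M')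
      ↥(modularFunctionFieldFullC K (M' * q)))
    (hα : ∀ a, @algebraMap ↥(modularFunctionFieldFullC K M')
      ↥(modularFunctionFieldFullC K (M' * q)) _ _ instα a = al97L_alpha K M' q a)
    (hβ : ∀ a, @algebraMap ↥(modularFunctionFieldFullC K M')
      ↥(modularFunctionFieldFullC K (M' * q)) _ _ instβ a = al97L_beta K M' q a)
    (e0 : ↥(modularFunctionFieldFullC K (M' * q)))
    (he0 : (algebraMap K ↥(modularFunctionFieldFullC K (M' * q)) (algebraMap R K π))⁻¹ * e0 ∈
      cm85_Vinf (K := K) (M' * q) hπ)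
    (he0' : (algebraMap K ↥(modularFunctionFieldFullC K (M' * q)) (algebraMap R K π))⁻¹ *
      (e0 - 1) ∈ s34i47c_V0 (K := K) M' q hq hM' hπ)
    (hN : ∀ y : ↥(modularFunctionFieldFullC K (M' * q)),
      y ∈ s34i47c_W (K := K) M' q hq hM' hπ →
      ntf35_red R M' (@Algebra.norm ↥(modularFunctionFieldFullC K M')
        ↥(modularFunctionFieldFullC K (M' * q)) _ _ instα y) =
      ntf35_red R (M' * q) y *
        coeffMap (frobenius (IsLocalRing.ResidueField R) q) (ntf35_red0 R M' q hq hM' y)) :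
    nt98_Frame (s34i47c_W (K := K) M' q hq hM' hπ) (cm85_Vinf (K := K) M' hπ).toSubring
      (ntf35_red R (M' * q)) (ntf35_red0 R M' q hq hM') (ntf35_red R M')
      (s34i47_coeffEquiv σ (M' * q)) (s34i47_coeffEquiv σ M')
      (coeffMap (frobenius (IsLocalRing.ResidueField R) q))
      (al97L_alpha K M' q : ↥(modularFunctionFieldFullC K M') →+*
        ↥(modularFunctionFieldFullC K (M' * q)))
      (al97L_beta K M' q : ↥(modularFunctionFieldFullC K M') →+*
        ↥(modularFunctionFieldFullC K (M' * q)))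
      (@Algebra.norm ↥(modularFunctionFieldFullC K M') ↥(modularFunctionFieldFullC K (M' * q))
        _ _ instα)
      (@Algebra.norm ↥(modularFunctionFieldFullC K M') ↥(modularFunctionFieldFullC K (M' * q))
        _ _ instβ) e0 := by
  have hW : ∀ x, x ∈ s34i47c_W (K := K) M' q hq hM' hπ →
      x ∈ cm85_Vinf (K := K) (M' * q) hπ ∧
        al97L_w (algebraMap K Q̄) M' q hq hM' x ∈ cm85_Vinf (K := K) (M' * q) hπ :=
    fun x hx => (s34i47c_mem_W M' q hq hM' hπ x).mp hx
  -- the separating element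
  have he0inf := ntf35_red_cong (M' * q) hπ e0 0 (cm85_Vinf (K := K) (M' * q) hπ).zero_mem
    (by rw [sub_zero]; exact he0)
  have he0w : (algebraMap K ↥(modularFunctionFieldFullC K (M' * q)) (algebraMap R K π))⁻¹ *
      (al97L_w (algebraMap K Q̄) M' q hq hM' e0 - 1) ∈ cm85_Vinf (K := K) (M' * q) hπ := by
    have h := (s34i47c_mem_V0 M' q hq hM' hπ _).mp he0'
    rwa [map_mul, map_inv₀, AlgEquiv.commutes, map_sub, map_one] at h
  have he0zero := ntf35_red_cong (M' * q) hπ (al97L_w (algebraMap K Q̄) M' q hq hM' e0) 1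
    (cm85_Vinf (K := K) (M' * q) hπ).one_mem he0w
  exact
  { rinf_one := ntf35_red_one (M' * q)
    rinf_mul := fun x hx y hy => ntf35_red_mul (M' * q) hπ x y (hW x hx).1 (hW y hy).1
    rinf_add := fun x hx y hy => ntf35_red_add (M' * q) hπ x y (hW x hx).1 (hW y hy).1
    r0_one := by
      show ntf35_red R (M' * q) (al97L_w (algebraMap K Q̄) M' q hq hM' 1) = 1
      rw [map_one]
      exact ntf35_red_one (M' * q)
    r0_mul := fun x hx y hy => by
      show ntf35_red R (M' * q) (al97L_w (algebraMap K Q̄) M' q hq hM' (x * y)) = _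
      rw [map_mul]
      exact ntf35_red_mul (M' * q) hπ _ _ (hW x hx).2 (hW y hy).2
    r0_add := fun x hx y hy => by
      show ntf35_red R (M' * q) (al97L_w (algebraMap K Q̄) M' q hq hM' (x + y)) = _
      rw [map_add]
      exact ntf35_red_add (M' * q) hπ _ _ (hW x hx).2 (hW y hy).2
    r'_one := ntf35_red_one M'
    r'_mul := fun x hx y hy => ntf35_red_mul M' hπ x y hx hy
    sh_mem := fun x hx => ff50_mem_W M' q hq hM' hπ σ hσ x hx
    sh_div := fun x hx => ⟨ff50_div_mem_W M' q hq hM' hπ σ hσ x hx,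
      ff50_inv_div_mem_W M' q hq hM' hπ σ hσ x hx⟩
    rinf_sh := fun x hx => ntf35_red_sh (M' * q) hq hπ σ hσ x (hW x hx).1
    r0_sh := fun x hx => by
      show ntf35_red R (M' * q) (al97L_w (algebraMap K Q̄) M' q hq hM'
        (s34i47_coeffEquiv σ (M' * q) x)) = _
      rw [in87g_w_comm]
      exact ntf35_red_sh (M' * q) hq hπ σ hσ _ (hW x hx).2
    sh'_mem := fun x hx => ff50_mem_Vinf M' hq.ne_zero hπ σ hσ x hx
    sh'_div := fun x hx => ⟨ff50_div_mem_Vinf M' hq.ne_zero hπ σ hσ x hx,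
      ff50_inv_div_mem_Vinf M' hq.ne_zero hπ σ hσ x hx⟩
    r'_sh := fun x hx => ntf35_red_sh M' hq hπ σ hσ x hx
    α_mem := fun h hh => by
      rw [s34i47c_mem_W]
      refine ⟨(tv84_alpha_mem M' q hπ h).mpr hh, ?_⟩
      show al97L_w (algebraMap K Q̄) M' q hq hM' (al97L_alpha K M' q h) ∈ _
      rw [al97L_w_alpha_apply]
      exact tv84_beta_mem M' q hπ h hh
    β_mem := fun h hh => by
      rw [s34i47c_mem_W]
      refine ⟨tv84_beta_mem M' q hπ h hh, ?_⟩
      show al97L_w (algebraMap K Q̄) M' q hq hM' (al97L_beta K M' q h) ∈ _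
      rw [al97L_w_beta_apply]
      exact (tv84_alpha_mem M' q hπ h).mpr hh
    rinf_α := fun h _ =>
      ntf35_red_congr_level (M' * q) M' _ _ (al97L_alpha_coe K M' q h)
    r0_β := fun h _ => by
      show ntf35_red R (M' * q) (al97L_w (algebraMap K Q̄) M' q hq hM' (al97L_beta K M' q h)) = _
      rw [al97L_w_beta_apply]
      exact ntf35_red_congr_level (M' * q) M' _ _ (al97L_alpha_coe K M' q h)
    Nα_sh := fun x _ => ntf35_norm_alpha_sh M' q σ instα hα x
    Nβ_sh := fun x _ => ntf35_norm_beta_sh M' q σ instβ hβ x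
    Nα_red := fun x hx _ => hN x hx
    Nβ_red := fun x hx _ => by
      show ntf35_red R M' (@Algebra.norm ↥(modularFunctionFieldFullC K M')
        ↥(modularFunctionFieldFullC K (M' * q)) _ _ instβ x) = _
      rw [ntf35_norm_beta_eq M' q hq hM' instα instβ hα hβ x,
        hN _ (ntf35_w_mem_W M' q hq hM' hπ x hx)]
      show _ * coeffMap (frobenius (IsLocalRing.ResidueField R) q)
        (ntf35_red R (M' * q) (al97L_w (algebraMap K Q̄) M' q hq hM'
          (al97L_w (algebraMap K Q̄) M' q hq hM' x))) = _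
      rw [al97L_w_w]
      rfl
    e0_mem := by
      rw [s34i47c_mem_W]
      exact ⟨he0inf.1, he0zero.1⟩
    rinf_e0 := by
      rw [he0inf.2]
      exact ntf35_red_zero (M' * q)
    r0_e0 := by
      show ntf35_red R (M' * q) (al97L_w (algebraMap K Q̄) M' q hq hM' e0) = 1
      rw [he0zero.2]
      exact ntf35_red_one (M' * q)
    unit_crit := fun x hx h1 h2 => by
      rw [s34i47c_mem_W]
      refine ⟨ntf35_inv_mem (M' * q) hπ x (hW x hx).1 h1, ?_⟩
      rw [map_inv₀]
      exact ntf35_inv_mem (M' * q) hπ _ (hW x hx).2 h2 }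

/-- **Step (1c) on the canonical frame: new ⇒ toric.**  `K` a number field, `R ⊆ K` a discrete
valuation ring with residue characteristic `q`, `σ` a Frobenius lift, `q ∤ M'`, `e0` a separating
element and the norm formula along `α`.  If `f ≠ 0` in `F_K(M' q)` has
`N_α f = k₁ a ^ m` and `N_β f = k₂ b ^ m` with constants `k₁, k₂ ∈ K`, then
`G = nt98_G ŝ' α β e0 a b` is a unit of `W` and
`f3 = nt98_f3 ŝ ŝ' α β e0 m f a b = (f1 / ŝ² f1) / G ^ m`, `f1 = f / ŝ² f`, is a unit of `W`
congruent to a unit constant of `R` modulo `π V_∞`, and to a unit constant of `R` modulo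
`π V_0`. -/
theorem ntf35_toric [NumberField K] [ExpChar (IsLocalRing.ResidueField R) q] {π : R}
    (hπ : Irreducible π) (σ : K ≃+* K) (hσ : ff50_Frob R q σ)
    (instα instβ : Algebra ↥(modularFunctionFieldFullC K M')
      ↥(modularFunctionFieldFullC K (M' * q)))
    (hα : ∀ a, @algebraMap ↥(modularFunctionFieldFullC K M')
      ↥(modularFunctionFieldFullC K (M' * q)) _ _ instα a = al97L_alpha K M' q a)
    (hβ : ∀ a, @algebraMap ↥(modularFunctionFieldFullC K M')
      ↥(modularFunctionFieldFullC K (M' * q)) _ _ instβ a = al97L_beta K M' q a)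
    (e0 : ↥(modularFunctionFieldFullC K (M' * q)))
    (he0 : (algebraMap K ↥(modularFunctionFieldFullC K (M' * q)) (algebraMap R K π))⁻¹ * e0 ∈
      cm85_Vinf (K := K) (M' * q) hπ)
    (he0' : (algebraMap K ↥(modularFunctionFieldFullC K (M' * q)) (algebraMap R K π))⁻¹ *
      (e0 - 1) ∈ s34i47c_V0 (K := K) M' q hq hM' hπ)
    (hN : ∀ y : ↥(modularFunctionFieldFullC K (M' * q)),
      y ∈ s34i47c_W (K := K) M' q hq hM' hπ →
      ntf35_red R M' (@Algebra.norm ↥(modularFunctionFieldFullC K M')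
        ↥(modularFunctionFieldFullC K (M' * q)) _ _ instα y) =
      ntf35_red R (M' * q) y *
        coeffMap (frobenius (IsLocalRing.ResidueField R) q) (ntf35_red0 R M' q hq hM' y))
    (m : ℕ) {f : ↥(modularFunctionFieldFullC K (M' * q))}
    {a b : ↥(modularFunctionFieldFullC K M')} {k₁ k₂ : K} (hf : f ≠ 0) (ha : a ≠ 0)
    (hb : b ≠ 0)
    (hNα : @Algebra.norm ↥(modularFunctionFieldFullC K M')
      ↥(modularFunctionFieldFullC K (M' * q)) _ _ instα f =
        algebraMap K ↥(modularFunctionFieldFullC K M') k₁ * a ^ m)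
    (hNβ : @Algebra.norm ↥(modularFunctionFieldFullC K M')
      ↥(modularFunctionFieldFullC K (M' * q)) _ _ instβ f =
        algebraMap K ↥(modularFunctionFieldFullC K M') k₂ * b ^ m) :
    nt98_G (s34i47_coeffEquiv σ M')
        (al97L_alpha K M' q : ↥(modularFunctionFieldFullC K M') →+*
          ↥(modularFunctionFieldFullC K (M' * q)))
        (al97L_beta K M' q : ↥(modularFunctionFieldFullC K M') →+*
          ↥(modularFunctionFieldFullC K (M' * q))) e0 a b ≠ 0 ∧
    nt98_G (s34i47_coeffEquiv σ M')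
        (al97L_alpha K M' q : ↥(modularFunctionFieldFullC K M') →+*
          ↥(modularFunctionFieldFullC K (M' * q)))
        (al97L_beta K M' q : ↥(modularFunctionFieldFullC K M') →+*
          ↥(modularFunctionFieldFullC K (M' * q))) e0 a b ∈
      s34i47c_W (K := K) M' q hq hM' hπ ∧
    (nt98_G (s34i47_coeffEquiv σ M')
        (al97L_alpha K M' q : ↥(modularFunctionFieldFullC K M') →+*
          ↥(modularFunctionFieldFullC K (M' * q)))
        (al97L_beta K M' q : ↥(modularFunctionFieldFullC K M') →+*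
          ↥(modularFunctionFieldFullC K (M' * q))) e0 a b)⁻¹ ∈
      s34i47c_W (K := K) M' q hq hM' hπ ∧
    nt98_f3 (s34i47_coeffEquiv σ (M' * q)) (s34i47_coeffEquiv σ M')
        (al97L_alpha K M' q : ↥(modularFunctionFieldFullC K M') →+*
          ↥(modularFunctionFieldFullC K (M' * q)))
        (al97L_beta K M' q : ↥(modularFunctionFieldFullC K M') →+*
          ↥(modularFunctionFieldFullC K (M' * q))) e0 m f a b ∈
      s34i47c_W (K := K) M' q hq hM' hπ ∧
    (nt98_f3 (s34i47_coeffEquiv σ (M' * q)) (s34i47_coeffEquiv σ M')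
        (al97L_alpha K M' q : ↥(modularFunctionFieldFullC K M') →+*
          ↥(modularFunctionFieldFullC K (M' * q)))
        (al97L_beta K M' q : ↥(modularFunctionFieldFullC K M') →+*
          ↥(modularFunctionFieldFullC K (M' * q))) e0 m f a b)⁻¹ ∈
      s34i47c_W (K := K) M' q hq hM' hπ ∧
    ∃ ρinf ρ0 : R, IsUnit ρinf ∧ IsUnit ρ0 ∧
      (algebraMap K ↥(modularFunctionFieldFullC K (M' * q)) (algebraMap R K π))⁻¹ *
        (nt98_f3 (s34i47_coeffEquiv σ (M' * q)) (s34i47_coeffEquiv σ M')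
          (al97L_alpha K M' q : ↥(modularFunctionFieldFullC K M') →+*
            ↥(modularFunctionFieldFullC K (M' * q)))
          (al97L_beta K M' q : ↥(modularFunctionFieldFullC K M') →+*
            ↥(modularFunctionFieldFullC K (M' * q))) e0 m f a b -
          algebraMap K ↥(modularFunctionFieldFullC K (M' * q)) (algebraMap R K ρinf)) ∈
        cm85_Vinf (K := K) (M' * q) hπ ∧
      (algebraMap K ↥(modularFunctionFieldFullC K (M' * q)) (algebraMap R K π))⁻¹ *
        (nt98_f3 (s34i47_coeffEquiv σ (M' * q)) (s34i47_coeffEquiv σ M')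
          (al97L_alpha K M' q : ↥(modularFunctionFieldFullC K M') →+*
            ↥(modularFunctionFieldFullC K (M' * q)))
          (al97L_beta K M' q : ↥(modularFunctionFieldFullC K M') →+*
            ↥(modularFunctionFieldFullC K (M' * q))) e0 m f a b -
          algebraMap K ↥(modularFunctionFieldFullC K (M' * q)) (algebraMap R K ρ0)) ∈
        s34i47c_V0 (K := K) M' q hq hM' hπ := by
  have H := ntf35_frame M' q hq hM' hπ σ hσ instα instβ hα hβ e0 he0 he0' hN
  have hk₁ : k₁ ≠ 0 := by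
    rintro rfl
    rw [map_zero, zero_mul] at hNα
    exact nt98_map_ne_zero _ hf hNα
  have hk₂ : k₂ ≠ 0 := by
    rintro rfl
    rw [map_zero, zero_mul] at hNβ
    exact nt98_map_ne_zero _ hf hNβ
  obtain ⟨hG, hGi, -, -, -, -⟩ := nt98_G_unit H ha hb
  have hG0 := nt98_G_ne_zero H ha hb
  obtain ⟨hf3, hf3i, hri, hr0, -, -⟩ := nt98_main H m hf ha hb hNα hNβ
  obtain ⟨r₁, hr₁, e₁⟩ := ntf35_tw_const M' hq.ne_zero hπ σ hσ k₁ hk₁
  obtain ⟨r₂, hr₂, e₂⟩ := ntf35_tw_const M' hq.ne_zero hπ σ hσ k₂ hk₂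
  rw [e₁, e₂, ntf35_red_algebraMap, ntf35_red_algebraMap] at hri hr0
  obtain ⟨ρinf, hρinf, eρinf⟩ := ntf35_unit_quot q r₁ r₂ hr₁ hr₂
  obtain ⟨ρ0, hρ0, eρ0⟩ := ntf35_unit_quot q r₂ r₁ hr₂ hr₁
  rw [eρinf, ← ntf35_red_algebraMap (K := K) (M' * q) ρinf] at hri
  rw [eρ0, ← ntf35_red_algebraMap (K := K) (M' * q) ρ0] at hr0
  have hf3' := (s34i47c_mem_W M' q hq hM' hπ _).mp hf3
  refine ⟨hG0, hG, hGi, hf3, hf3i, ρinf, ρ0, hρinf, hρ0, ?_, ?_⟩
  · exact ntf35_cong_of_red (M' * q) hπ _ _ hf3'.1 (ntf35_algebraMap_mem (M' * q) hπ ρinf) hri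
  · rw [s34i47c_mem_V0, map_mul, map_inv₀, AlgEquiv.commutes, map_sub, AlgEquiv.commutes]
    exact ntf35_cong_of_red (M' * q) hπ _ _ hf3'.2 (ntf35_algebraMap_mem (M' * q) hπ ρ0) hr0

end Frame

end Fermat.Agent.S35
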