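import Fermat.Agent.S35.NormGenL97
import Fermat.Agent.S34.Iface47c
import Fermat.Agent.S34.ChartM85
import Fermat.Agent.S34.FrobInsep66

/-!
# S35 lab (helper97): the norm congruence (1b) on the canonical frame, via `ng97_norm_gen`

Frame data as in `Iface47c`: `R` a discrete valuation ring with fraction field `K`
(`Algebra K ℚ̄`), level `M' * q` with `q` prime, `q ∤ M'`, residue characteristic `q`
(`hqR : ¬ IsUnit (q : R)`), `V_∞ = cm85_Vinf (M' * q) hπ`, `V_0 = s34i47c_V0 = V_∞.comap w`,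
`w = al97L_w (algebraMap K ℚ̄) M' q hq hM'`, `α = al97L_alpha K M' q`, `β = al97L_beta K M' q`,
`Nm_α` / `Nm_β` = `Algebra.norm` of `F_K(M' q)` over `F_K(M')` along `α` / `β`
(`algebraAlong`), and a FROBENIUS LIFT `σ : K ≃+* K`: `σ R ⊆ R` and `σ r ≡ r ^ q mod 𝔪_R`
(hypothesis `hσ`, literally the body of `ff50_Frob R q σ`).  `σ̂ = s34i47_coeffEquiv σ _`.

For EVERY `y ∈ W = V_∞ ⊓ V_0` (hypotheses `hy : y ∈ V_∞`, `hwy : w y ∈ V_∞`); no power basis,
no modular polynomial: the proof is `ng97_norm_gen` (the `q + 1` conjugate `Q`-expansions)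
reduced modulo a prime of the integral closure of `R` in `ℚ̄`.

* `ng97_norm_cong_nonunits` : `α (Nm_α y) - y * σ̂ (w y) ∈ 𝔪_{V_∞}`;
* `ng97_norm_cong` : `π⁻¹ * (α (Nm_α y) - y * σ̂ (w y)) ∈ V_∞`
  (the norm congruence "`α(N_α y) ≡ y · σ̂(ŵ y) mod π V_∞`", i.e.
  `red'(N_α y) = red_∞(y) · sb(red_0 y)`);
* `ng97_norm_cong_V0_nonunits`, `ng97_norm_cong_V0` : `β (Nm_α y) ≡ w y · σ̂ y mod π V_0`;
* `ng97_norm_mem` : `Nm_α y ∈ V' = cm85_Vinf M' hπ`;
* `ng97_norm_beta` : `Nm_β y = Nm_α (w y)` (every `y`);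
* `ng97_normBeta_cong_nonunits`, `ng97_normBeta_cong_V0_nonunits` :
  `α (Nm_β y) - w y * σ̂ y ∈ 𝔪_{V_∞}`, `β (Nm_β y) - y * σ̂ (w y) ∈ 𝔪_{V_0}`;
* helpers: `ng97_sigma_series`, `ng97_sigma_mem` (`σ̂ V_∞ ⊆ V_∞`), `ng97_w_sigma`
  (`w σ̂ = σ̂ w`), `ng97_mem_V0_nonunits`, `ng97_exists_red`.

All names are prefixed `ng97_`.
-/

set_option autoImplicit false
set_option linter.style.haveILetI false

open ModularCurve AlgebraicCurve IntermediateField
open Fermat.Agent.S24 Fermat.Agent.S28 Fermat.Agent.S18 Fermat.Agent.S37 Fermat.Agent.S34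
open Fermat.Agent.S42

namespace Fermat.Agent.S35

section ng97_cong

variable {R K : Type} [CommRing R] [IsDomain R] [IsDiscreteValuationRing R] [Field K]
  [Algebra R K] [IsFractionRing R K]

/-- A Frobenius lift acts on `R`-integral series: the coefficientwise image of an integral series
is integral, and congruent to the coefficientwise `q`-th power. -/
theorem ng97_sigma_series (q : ℕ) (σ : K ≃+* K)
    (hσ : ∀ r : R, ∃ r' : R, σ (algebraMap R K r) = algebraMap R K r' ∧
      r' - r ^ q ∈ IsLocalRing.maximalIdeal R)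
    (s : LaurentSeries R) :
    ∃ s' : LaurentSeries R,
      coeffMap (algebraMap R K) s' =
        coeffMap (σ : K →+* K) (coeffMap (algebraMap R K) s) ∧
      ∀ n, s'.coeff n - s.coeff n ^ q ∈ IsLocalRing.maximalIdeal R := by
  have hinj : Function.Injective (algebraMap R K) := IsFractionRing.injective R K
  obtain ⟨s', hs'⟩ := kn97_exists_lift (algebraMap R K) hinj
    (coeffMap (σ : K →+* K) (coeffMap (algebraMap R K) s)) (fun n => by
      obtain ⟨r', hr', -⟩ := hσ (s.coeff n)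
      exact ⟨r', by rw [coeffMap_coeff, coeffMap_coeff]; exact hr'.symm⟩)
  refine ⟨s', hs', fun n => ?_⟩
  obtain ⟨r', hr', hr'2⟩ := hσ (s.coeff n)
  have h1 : algebraMap R K (s'.coeff n) = algebraMap R K r' := by
    have h2 := congrArg (fun x : LaurentSeries K => x.coeff n) hs'
    simp only [coeffMap_coeff] at h2
    rw [h2]
    exact hr'
  rw [hinj h1]
  exact hr'2

end ng97_cong



/-- Reduction data in `ℚ̄` above a discrete valuation ring `R ⊆ K ⊆ ℚ̄` of residue
characteristic `q`: a ring `B` (the integral closure of `R` in `ℚ̄`) with `R → B ↪ ℚ̄`, a field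
`k` of characteristic `q` with `ρ : B → k` whose kernel meets `R` in the maximal ideal, and a
primitive `q`-th root of unity `ζ ∈ Bˣ` with `ρ ζ = 1`. -/
theorem ng97_exists_red {R K : Type} [CommRing R] [IsDomain R] [IsDiscreteValuationRing R]
    [Field K] [Algebra R K] [IsFractionRing R K] [Algebra K Kbar] (q : ℕ) [NeZero q]
    (hq : q.Prime) (hqR : (q : R) ∈ IsLocalRing.maximalIdeal R) :
    ∃ (B : Type) (_ : CommRing B) (j : B →+* Kbar) (ι : R →+* B) (k : Type) (_ : Field k)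
      (_ : CharP k q) (ρ : B →+* k) (ζB : Bˣ),
      Function.Injective j ∧
      (∀ r, j (ι r) = algebraMap K Kbar (algebraMap R K r)) ∧
      (∀ r, ρ (ι r) = 0 ↔ r ∈ IsLocalRing.maximalIdeal R) ∧
      IsPrimitiveRoot (Units.map (j : B →* Kbar) ζB) q ∧ Units.map (ρ : B →* k) ζB = 1 := by
  classical
  let ψ : R →+* Kbar := (algebraMap K Kbar).comp (algebraMap R K)
  have hψ : Function.Injective ψ :=
    (algebraMap K Kbar).injective.comp (IsFractionRing.injective R K)
  letI : Algebra R Kbar := ψ.toAlgebra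
  let B0 : Subalgebra R Kbar := integralClosure R Kbar
  have hker : RingHom.ker (algebraMap R B0) ≤ IsLocalRing.maximalIdeal R := by
    intro r hr
    rw [RingHom.mem_ker] at hr
    have h1 : ψ r = 0 := congrArg Subtype.val hr
    rw [(injective_iff_map_eq_zero ψ).mp hψ r h1]
    exact Ideal.zero_mem _
  obtain ⟨𝔫, h𝔫max, h𝔫⟩ := Ideal.exists_ideal_over_maximal_of_isIntegral (S := B0)
    (IsLocalRing.maximalIdeal R) hker
  letI : Field (B0 ⧸ 𝔫) := Ideal.Quotient.field 𝔫
  have hchar : CharP (B0 ⧸ 𝔫) q := by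
    refine (CharP.charP_iff_prime_eq_zero hq).mpr ?_
    have h1 : algebraMap R B0 (q : R) ∈ 𝔫 := by
      have : (q : R) ∈ 𝔫.comap (algebraMap R B0) := by rw [h𝔫]; exact hqR
      exact this
    have h2 : Ideal.Quotient.mk 𝔫 (algebraMap R B0 (q : R)) = 0 :=
      Ideal.Quotient.eq_zero_iff_mem.mpr h1
    rw [map_natCast, map_natCast] at h2
    exact h2
  haveI : ExpChar (B0 ⧸ 𝔫) q := ExpChar.prime hq
  -- the root of unity
  haveI : NeZero ((q : ℕ) : Kbar) := ⟨by exact_mod_cast NeZero.ne q⟩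
  obtain ⟨μ, hμ⟩ := IsAlgClosed.exists_root (Polynomial.cyclotomic q Kbar)
    (Polynomial.degree_cyclotomic_pos q Kbar hq.pos).ne'
  have hprim : IsPrimitiveRoot μ q := Polynomial.isRoot_cyclotomic_iff.mp hμ
  have hμ0 : μ ≠ 0 := hprim.ne_zero (NeZero.ne q)
  have hμB : μ ∈ B0 :=
    IsIntegral.of_pow hq.pos (by rw [hprim.pow_eq_one]; exact isIntegral_one)
  have hμB' : μ⁻¹ ∈ B0 :=
    IsIntegral.of_pow hq.pos (by rw [inv_pow, hprim.pow_eq_one, inv_one]; exact isIntegral_one)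
  let ζB : (↥B0)ˣ := ⟨⟨μ, hμB⟩, ⟨μ⁻¹, hμB'⟩, Subtype.ext (mul_inv_cancel₀ hμ0),
    Subtype.ext (inv_mul_cancel₀ hμ0)⟩
  have hζB : ζB ^ q = 1 := by
    apply Units.ext
    apply Subtype.ext
    show μ ^ q = 1
    exact hprim.pow_eq_one
  refine ⟨↥B0, inferInstance, B0.val.toRingHom, algebraMap R B0, B0 ⧸ 𝔫, inferInstance, hchar,
    Ideal.Quotient.mk 𝔫, ζB, Subtype.val_injective, fun r => rfl, fun r => ?_, ?_, ?_⟩
  · rw [Ideal.Quotient.eq_zero_iff_mem, ← h𝔫]
    rfl
  · rw [← IsPrimitiveRoot.coe_units_iff]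
    exact hprim
  · have h1 : (Units.map ((Ideal.Quotient.mk 𝔫 : ↥B0 →+* B0 ⧸ 𝔫) : ↥B0 →* B0 ⧸ 𝔫) ζB) ^ q = 1 := by
      rw [← map_pow, hζB, map_one]
    apply Units.ext
    have h2 : (((Units.map ((Ideal.Quotient.mk 𝔫 : ↥B0 →+* B0 ⧸ 𝔫) : ↥B0 →* B0 ⧸ 𝔫) ζB :
        (B0 ⧸ 𝔫)ˣ) : B0 ⧸ 𝔫) - 1) ^ q = 0 := by
      rw [sub_pow_expChar, one_pow, ← Units.val_pow_eq_pow_val, h1, Units.val_one, sub_self]
    have h3 := pow_eq_zero_iff (NeZero.ne q) |>.mp h2
    rw [Units.val_one]
    exact sub_eq_zero.mp h3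


section ng97_main

variable {R K : Type} [CommRing R] [IsDomain R] [IsDiscreteValuationRing R] [Field K]
  [Algebra R K] [IsFractionRing R K] [Algebra K Kbar]
  (M' q : ℕ) [NeZero M'] [NeZero q] (hq : q.Prime) (hM' : ¬ q ∣ M')

/-- **The norm congruence (1b), `V_∞`-form, as membership in the maximal ideal.**
For `y ∈ W = V_∞ ⊓ V_0` and a Frobenius lift `σ`: `α (Nm_α y) - y · σ̂ (w y) ∈ 𝔪_{V_∞}`. -/
theorem ng97_norm_cong_nonunits {π : R} (hπ : Irreducible π)
    (hqR : ¬ IsUnit (q : R)) (σ : K ≃+* K)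
    (hσ : ∀ r : R, ∃ r' : R, σ (algebraMap R K r) = algebraMap R K r' ∧
      r' - r ^ q ∈ IsLocalRing.maximalIdeal R)
    (y : ↥(modularFunctionFieldFullC K (M' * q)))
    (hy : y ∈ cm85_Vinf (K := K) (M' * q) hπ)
    (hwy : al97L_w (algebraMap K Kbar) M' q hq hM' y ∈ cm85_Vinf (K := K) (M' * q) hπ) :
    letI := algebraAlong (al97L_alpha K M' q)
    al97L_alpha K M' q (Algebra.norm ↥(modularFunctionFieldFullC K M') y) -
      y * s34i47_coeffEquiv σ (M' * q) (al97L_w (algebraMap K Kbar) M' q hq hM' y) ∈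
        (cm85_Vinf (K := K) (M' * q) hπ).nonunits := by
  letI := algebraAlong (al97L_alpha K M' q)
  haveI : CharZero K := RingHom.charZero (algebraMap K Kbar)
  have hL : ((M' * q : ℕ) : K) ≠ 0 := Nat.cast_ne_zero.mpr (NeZero.ne (M' * q))
  obtain ⟨B, _, j, ι, k, _, _, ρ, ζB, hj, hjι, hρι, hζ, hρζ⟩ :=
    ng97_exists_red (R := R) (K := K) q hq hqR
  haveI : ExpChar k q := ExpChar.prime hq
  have hnorm := ng97_norm_gen (algebraMap K Kbar) M' q hq hM' hL _ hζ y
  set φ : K →+* Kbar := algebraMap K Kbar with hφ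
  set ζ : Kbarˣ := Units.map (j : B →* Kbar) ζB with hζdef
  set wy : ↥(modularFunctionFieldFullC K (M' * q)) := al97L_w φ M' q hq hM' y with hwy_def
  set Ny : ↥(modularFunctionFieldFullC K M') :=
    Algebra.norm ↥(modularFunctionFieldFullC K M') y with hNy
  set D : ↥(modularFunctionFieldFullC K (M' * q)) :=
    al97L_alpha K M' q Ny - y * s34i47_coeffEquiv σ (M' * q) wy with hD
  have hDcoe : (D : LaurentSeries K) = (Ny : LaurentSeries K) -
      (y : LaurentSeries K) * coeffMap (σ : K →+* K) (wy : LaurentSeries K) := by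
    rw [← al97L_alpha_coe K M' q Ny, ← s34i47_coeffEquiv_coe σ (M' * q) wy]
    rfl
  by_contra hcon
  have hD0 : D ≠ 0 := fun h0 => hcon (by
    rw [h0, ValuationSubring.mem_nonunits_iff, map_zero]
    exact zero_lt_one)
  have hDinv : D⁻¹ ∈ cm85_Vinf (K := K) (M' * q) hπ := by
    rw [← ValuationSubring.valuation_le_one_iff, map_inv₀]
    have h1 : ¬ (cm85_Vinf (K := K) (M' * q) hπ).valuation D < 1 := fun h =>
      hcon ((ValuationSubring.mem_nonunits_iff _).mpr h)
    exact inv_le_one_of_one_le₀ (not_lt.mp h1)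
  obtain ⟨s, t, hs, hst⟩ := hDinv
  obtain ⟨s1, t1, hs1, hst1⟩ := hy
  obtain ⟨s2, t2, hs2, hst2⟩ := hwy
  obtain ⟨s2σ, hs2σ, hs2σ'⟩ := ng97_sigma_series q σ hσ s2
  obtain ⟨t2σ, ht2σ, ht2σ'⟩ := ng97_sigma_series q σ hσ t2
  -- `s = t * D`
  have hsD : coeffMap (algebraMap R K) s = coeffMap (algebraMap R K) t * (D : LaurentSeries K) := by
    have h1 : ((D⁻¹ : ↥(modularFunctionFieldFullC K (M' * q))) : LaurentSeries K) *
        (D : LaurentSeries K) = 1 := by
      have h2 := congrArg (fun x : ↥(modularFunctionFieldFullC K (M' * q)) =>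
        (x : LaurentSeries K)) (inv_mul_cancel₀ hD0)
      exact h2
    rw [← hst, mul_assoc, h1, mul_one]
  -- the `σ`-twisted relation
  have hst2σ : coeffMap (algebraMap R K) s2σ * coeffMap (σ : K →+* K) (wy : LaurentSeries K) =
      coeffMap (algebraMap R K) t2σ := by
    rw [hs2σ, ht2σ, ← map_mul, hst2]
  -- transfer to `ℚ̄((Q))`
  let T : LaurentSeries K →+* LaurentSeries Kbar := (qExpand Kbar q).comp (coeffMap φ)
  have hcomp : j.comp ι = φ.comp (algebraMap R K) := RingHom.ext hjι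
  have hT : ∀ x : LaurentSeries R, T (coeffMap (algebraMap R K) x) =
      coeffMap j (qExpand B q (coeffMap ι x)) := by
    intro x
    show qExpand Kbar q (coeffMap φ (coeffMap (algebraMap R K) x)) = _
    rw [coeffMap_qExpand, coeffMap_coeffMap, coeffMap_coeffMap, hcomp]
  have htw : ∀ (b : ℕ) (x : LaurentSeries R),
      twist (ζ ^ b) (coeffMap φ (coeffMap (algebraMap R K) x)) =
        coeffMap j (twist (ζB ^ b) (coeffMap ι x)) := by
    intro b x
    rw [coeffMap_twist, map_pow, coeffMap_coeffMap, coeffMap_coeffMap, hcomp]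
  have e1 : T (coeffMap (algebraMap R K) s1) * T (y : LaurentSeries K) =
      T (coeffMap (algebraMap R K) t1) := by rw [← map_mul, hst1]
  have e2 : (∏ b : Fin q, twist (ζ ^ (b : ℕ)) (coeffMap φ (coeffMap (algebraMap R K) s2))) *
      (∏ b : Fin q, twist (ζ ^ (b : ℕ)) (coeffMap φ (wy : LaurentSeries K))) =
      ∏ b : Fin q, twist (ζ ^ (b : ℕ)) (coeffMap φ (coeffMap (algebraMap R K) t2)) := by
    rw [← Finset.prod_mul_distrib]
    refine Finset.prod_congr rfl fun b _ => ?_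
    rw [← map_mul, ← map_mul, hst2]
  have e3 : T (coeffMap (algebraMap R K) s2σ) *
      T (coeffMap (σ : K →+* K) (wy : LaurentSeries K)) =
      T (coeffMap (algebraMap R K) t2σ) := by rw [← map_mul, hst2σ]
  have e4 : T (Ny : LaurentSeries K) = T (y : LaurentSeries K) *
      ∏ b : Fin q, twist (ζ ^ (b : ℕ)) (coeffMap φ (wy : LaurentSeries K)) := hnorm
  have e5 : T (D : LaurentSeries K) = T (Ny : LaurentSeries K) -
      T (y : LaurentSeries K) * T (coeffMap (σ : K →+* K) (wy : LaurentSeries K)) := by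
    rw [hDcoe, map_sub, map_mul]
  have e6 : T (coeffMap (algebraMap R K) s) =
      T (coeffMap (algebraMap R K) t) * T (D : LaurentSeries K) := by rw [hsD, map_mul]
  have key : T (coeffMap (algebraMap R K) s) * (T (coeffMap (algebraMap R K) s1) *
      (∏ b : Fin q, twist (ζ ^ (b : ℕ)) (coeffMap φ (coeffMap (algebraMap R K) s2))) *
      T (coeffMap (algebraMap R K) s2σ)) =
      T (coeffMap (algebraMap R K) t) * T (coeffMap (algebraMap R K) t1) *
      ((∏ b : Fin q, twist (ζ ^ (b : ℕ)) (coeffMap φ (coeffMap (algebraMap R K) t2))) *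
        T (coeffMap (algebraMap R K) s2σ) -
       (∏ b : Fin q, twist (ζ ^ (b : ℕ)) (coeffMap φ (coeffMap (algebraMap R K) s2))) *
        T (coeffMap (algebraMap R K) t2σ)) := by
    rw [e6, e5, e4, ← e1, ← e2, ← e3]
    ring
  -- over `B`
  have keyB : qExpand B q (coeffMap ι s) * (qExpand B q (coeffMap ι s1) *
      (∏ b : Fin q, twist (ζB ^ (b : ℕ)) (coeffMap ι s2)) * qExpand B q (coeffMap ι s2σ)) =
      qExpand B q (coeffMap ι t) * qExpand B q (coeffMap ι t1) *
      ((∏ b : Fin q, twist (ζB ^ (b : ℕ)) (coeffMap ι t2)) * qExpand B q (coeffMap ι s2σ) -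
       (∏ b : Fin q, twist (ζB ^ (b : ℕ)) (coeffMap ι s2)) * qExpand B q (coeffMap ι t2σ)) := by
    apply kn97_coeffMap_injective j hj
    simp only [map_mul, map_sub, map_prod, ← hT, ← htw]
    exact key
  -- reduce
  set r : R →+* k := ρ.comp ι with hr
  have hfrob : ∀ (x x' : LaurentSeries R),
      (∀ n, x'.coeff n - x.coeff n ^ q ∈ IsLocalRing.maximalIdeal R) →
      qExpand k q (coeffMap r x') = coeffMap r x ^ q := by
    intro x x' hx
    rw [kn97_frobenius]
    congr 1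
    ext n
    rw [coeffMap_coeff, coeffMap_coeff, coeffMap_coeff, frobenius_def]
    have h1 := (hρι _).mpr (hx n)
    have h2 : r (x'.coeff n - x.coeff n ^ q) = 0 := h1
    rw [map_sub, map_pow] at h2
    exact sub_eq_zero.mp h2
  have hprod : ∀ x : LaurentSeries R,
      coeffMap ρ (∏ b : Fin q, twist (ζB ^ (b : ℕ)) (coeffMap ι x)) = coeffMap r x ^ q := by
    intro x
    rw [map_prod]
    have h4 : ∀ b ∈ (Finset.univ : Finset (Fin q)),
        coeffMap ρ (twist (ζB ^ (b : ℕ)) (coeffMap ι x)) = coeffMap r x := by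
      intro b _
      rw [coeffMap_twist, map_pow, hρζ, one_pow, twist_one, coeffMap_coeffMap]
    rw [Finset.prod_congr rfl h4, Finset.prod_const, Finset.card_univ, Fintype.card_fin]
  have hqe : ∀ x : LaurentSeries R,
      coeffMap ρ (qExpand B q (coeffMap ι x)) = qExpand k q (coeffMap r x) := by
    intro x
    rw [coeffMap_qExpand, coeffMap_coeffMap]
  have hne : ∀ x : LaurentSeries R, coeffMap (IsLocalRing.residue R) x ≠ 0 →
      coeffMap r x ≠ 0 := by
    intro x hx h0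
    apply hx
    ext n
    have h1 := congrArg (fun z : LaurentSeries k => z.coeff n) h0
    simp only [coeffMap_coeff, HahnSeries.coeff_zero] at h1
    rw [coeffMap_coeff, HahnSeries.coeff_zero, IsLocalRing.residue_eq_zero_iff]
    exact (hρι _).mp h1
  have hqne : ∀ x : LaurentSeries R, coeffMap (IsLocalRing.residue R) x ≠ 0 →
      qExpand k q (coeffMap r x) ≠ 0 := by
    intro x hx h0
    exact hne x hx (qExpand_injective q (by rw [h0, map_zero]))
  have hred := congrArg (coeffMap ρ) keyB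
  simp only [map_mul, map_sub, hprod, hqe, hfrob s2 s2σ hs2σ', hfrob t2 t2σ ht2σ'] at hred
  rw [mul_comm (coeffMap r t2 ^ q) (coeffMap r s2 ^ q), sub_self, mul_zero] at hred
  have hs2ne : coeffMap r s2 ^ q ≠ 0 := pow_ne_zero q (hne s2 hs2)
  exact mul_ne_zero (hqne s hs) (mul_ne_zero (mul_ne_zero (hqne s1 hs1) hs2ne) hs2ne) hred


/-- **The norm congruence (1b), `V_∞`-form**: `α (Nm_α y) ≡ y · σ̂ (w y)` modulo `π V_∞`
for `y ∈ W`. -/
theorem ng97_norm_cong {π : R} (hπ : Irreducible π) (hqR : ¬ IsUnit (q : R)) (σ : K ≃+* K)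
    (hσ : ∀ r : R, ∃ r' : R, σ (algebraMap R K r) = algebraMap R K r' ∧
      r' - r ^ q ∈ IsLocalRing.maximalIdeal R)
    (y : ↥(modularFunctionFieldFullC K (M' * q)))
    (hy : y ∈ cm85_Vinf (K := K) (M' * q) hπ)
    (hwy : al97L_w (algebraMap K Kbar) M' q hq hM' y ∈ cm85_Vinf (K := K) (M' * q) hπ) :
    letI := algebraAlong (al97L_alpha K M' q)
    (algebraMap K ↥(modularFunctionFieldFullC K (M' * q)) (algebraMap R K π))⁻¹ *
      (al97L_alpha K M' q (Algebra.norm ↥(modularFunctionFieldFullC K M') y) -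
        y * s34i47_coeffEquiv σ (M' * q) (al97L_w (algebraMap K Kbar) M' q hq hM' y)) ∈
        cm85_Vinf (K := K) (M' * q) hπ :=
  fi66_pi_inv_mul_mem (IsLocalRing.residue R) π (pk85_res_iff hπ) hπ.ne_zero _
    (pk85_HF K (M' * q) hπ) _ (ng97_norm_cong_nonunits M' q hq hM' hπ hqR σ hσ y hy hwy)

omit [Algebra K Kbar] in
/-- A Frobenius lift preserves the Gauss ring `V_∞` (any level). -/
theorem ng97_sigma_mem (M : ℕ) [NeZero M] {π : R} (hπ : Irreducible π) (σ : K ≃+* K)
    (hσ : ∀ r : R, ∃ r' : R, σ (algebraMap R K r) = algebraMap R K r' ∧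
      r' - r ^ q ∈ IsLocalRing.maximalIdeal R)
    (x : ↥(modularFunctionFieldFullC K M)) (hx : x ∈ cm85_Vinf (K := K) M hπ) :
    s34i47_coeffEquiv σ M x ∈ cm85_Vinf (K := K) M hπ := by
  obtain ⟨s, t, hs, hst⟩ := hx
  obtain ⟨sσ, hsσ, hsσ'⟩ := ng97_sigma_series q σ hσ s
  obtain ⟨tσ, htσ, -⟩ := ng97_sigma_series q σ hσ t
  refine ⟨sσ, tσ, fun h0 => hs ?_, ?_⟩
  · ext n
    have h1 := congrArg (fun z : LaurentSeries (IsLocalRing.ResidueField R) => z.coeff n) h0
    simp only [coeffMap_coeff, HahnSeries.coeff_zero] at h1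
    have h2 : IsLocalRing.residue R (sσ.coeff n - s.coeff n ^ q) = 0 :=
      (IsLocalRing.residue_eq_zero_iff _).mpr (hsσ' n)
    rw [map_sub, h1, zero_sub, neg_eq_zero, map_pow] at h2
    rw [coeffMap_coeff, HahnSeries.coeff_zero]
    exact pow_eq_zero_iff (NeZero.ne q) |>.mp h2
  · rw [s34i47_coeffEquiv_coe, hsσ, htσ, ← map_mul, hst]

/-- The norm `Nm_α y` of `y ∈ W` lies in the Gauss ring `V'` of level `M'`. -/
theorem ng97_norm_mem {π : R} (hπ : Irreducible π) (hqR : ¬ IsUnit (q : R)) (σ : K ≃+* K)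
    (hσ : ∀ r : R, ∃ r' : R, σ (algebraMap R K r) = algebraMap R K r' ∧
      r' - r ^ q ∈ IsLocalRing.maximalIdeal R)
    (y : ↥(modularFunctionFieldFullC K (M' * q)))
    (hy : y ∈ cm85_Vinf (K := K) (M' * q) hπ)
    (hwy : al97L_w (algebraMap K Kbar) M' q hq hM' y ∈ cm85_Vinf (K := K) (M' * q) hπ) :
    letI := algebraAlong (al97L_alpha K M' q)
    Algebra.norm ↥(modularFunctionFieldFullC K M') y ∈ cm85_Vinf (K := K) M' hπ := by
  letI := algebraAlong (al97L_alpha K M' q)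
  have h1 := ng97_norm_cong_nonunits M' q hq hM' hπ hqR σ hσ y hy hwy
  have h2 : al97L_alpha K M' q (Algebra.norm ↥(modularFunctionFieldFullC K M') y) -
      y * s34i47_coeffEquiv σ (M' * q) (al97L_w (algebraMap K Kbar) M' q hq hM' y) ∈
      cm85_Vinf (K := K) (M' * q) hπ := by
    rw [← ValuationSubring.valuation_le_one_iff]
    exact ((ValuationSubring.mem_nonunits_iff _).mp h1).le
  have h3 : y * s34i47_coeffEquiv σ (M' * q) (al97L_w (algebraMap K Kbar) M' q hq hM' y) ∈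
      cm85_Vinf (K := K) (M' * q) hπ :=
    mul_mem hy (ng97_sigma_mem q (M' * q) hπ σ hσ _ hwy)
  have h4 : al97L_alpha K M' q (Algebra.norm ↥(modularFunctionFieldFullC K M') y) ∈
      cm85_Vinf (K := K) (M' * q) hπ := by
    have := add_mem h2 h3
    rwa [sub_add_cancel] at this
  obtain ⟨s, t, hs, hst⟩ := h4
  refine ⟨s, t, hs, ?_⟩
  rw [← al97L_alpha_coe K M' q]
  exact hst

/-- `w` commutes with the coefficientwise action. -/
theorem ng97_w_sigma (σ : K ≃+* K) (x : ↥(modularFunctionFieldFullC K (M' * q))) :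
    al97L_w (algebraMap K Kbar) M' q hq hM' (s34i47_coeffEquiv σ (M' * q) x) =
      s34i47_coeffEquiv σ (M' * q) (al97L_w (algebraMap K Kbar) M' q hq hM' x) := by
  apply Subtype.ext
  rw [s34i47_coeffEquiv_coe]
  exact al97L_w_coeffMap (algebraMap K Kbar) (algebraMap K Kbar) (σ : K →+* K) M' q hq hM' x _
    (s34i47_coeffEquiv_coe σ (M' * q) x)

/-- The maximal ideal of `V_0 = V_∞.comap w` is the preimage under `w` of that of `V_∞`. -/
theorem ng97_mem_V0_nonunits {π : R} (hπ : Irreducible π)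
    (x : ↥(modularFunctionFieldFullC K (M' * q))) :
    x ∈ (s34i47c_V0 (K := K) M' q hq hM' hπ).nonunits ↔
      al97L_w (algebraMap K Kbar) M' q hq hM' x ∈ (cm85_Vinf (K := K) (M' * q) hπ).nonunits := by
  rw [ValuationSubring.mem_nonunits_iff_or, ValuationSubring.mem_nonunits_iff_or,
    s34i47c_mem_V0, map_inv₀, EmbeddingLike.map_eq_zero_iff]

/-- **The norm congruence (1b), `V_0`-form, as membership in the maximal ideal**:
`β (Nm_α y) - w y · σ̂ y ∈ 𝔪_{V_0}` for `y ∈ W`. -/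
theorem ng97_norm_cong_V0_nonunits {π : R} (hπ : Irreducible π) (hqR : ¬ IsUnit (q : R))
    (σ : K ≃+* K)
    (hσ : ∀ r : R, ∃ r' : R, σ (algebraMap R K r) = algebraMap R K r' ∧
      r' - r ^ q ∈ IsLocalRing.maximalIdeal R)
    (y : ↥(modularFunctionFieldFullC K (M' * q)))
    (hy : y ∈ cm85_Vinf (K := K) (M' * q) hπ)
    (hwy : al97L_w (algebraMap K Kbar) M' q hq hM' y ∈ cm85_Vinf (K := K) (M' * q) hπ) :
    letI := algebraAlong (al97L_alpha K M' q)
    al97L_beta K M' q (Algebra.norm ↥(modularFunctionFieldFullC K M') y) -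
      al97L_w (algebraMap K Kbar) M' q hq hM' y * s34i47_coeffEquiv σ (M' * q) y ∈
        (s34i47c_V0 (K := K) M' q hq hM' hπ).nonunits := by
  letI := algebraAlong (al97L_alpha K M' q)
  rw [ng97_mem_V0_nonunits, map_sub, map_mul, al97L_w_beta_apply, al97L_w_w, ng97_w_sigma]
  exact ng97_norm_cong_nonunits M' q hq hM' hπ hqR σ hσ y hy hwy

/-- **The norm congruence (1b), `V_0`-form**: `β (Nm_α y) ≡ w y · σ̂ y` modulo `π V_0`
for `y ∈ W`. -/
theorem ng97_norm_cong_V0 {π : R} (hπ : Irreducible π) (hqR : ¬ IsUnit (q : R)) (σ : K ≃+* K)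
    (hσ : ∀ r : R, ∃ r' : R, σ (algebraMap R K r) = algebraMap R K r' ∧
      r' - r ^ q ∈ IsLocalRing.maximalIdeal R)
    (y : ↥(modularFunctionFieldFullC K (M' * q)))
    (hy : y ∈ cm85_Vinf (K := K) (M' * q) hπ)
    (hwy : al97L_w (algebraMap K Kbar) M' q hq hM' y ∈ cm85_Vinf (K := K) (M' * q) hπ) :
    letI := algebraAlong (al97L_alpha K M' q)
    (algebraMap K ↥(modularFunctionFieldFullC K (M' * q)) (algebraMap R K π))⁻¹ *
      (al97L_beta K M' q (Algebra.norm ↥(modularFunctionFieldFullC K M') y) -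
        al97L_w (algebraMap K Kbar) M' q hq hM' y * s34i47_coeffEquiv σ (M' * q) y) ∈
        s34i47c_V0 (K := K) M' q hq hM' hπ := by
  letI := algebraAlong (al97L_alpha K M' q)
  rw [s34i47c_mem_V0, map_mul, map_inv₀, AlgEquiv.commutes, map_sub, map_mul,
    al97L_w_beta_apply, al97L_w_w, ng97_w_sigma]
  exact ng97_norm_cong M' q hq hM' hπ hqR σ hσ y hy hwy

/-- **`Nm_β = Nm_α ∘ w`**: the norm along `β` is the norm along `α` of the Atkin-Lehner
transform. -/
theorem ng97_norm_beta (y : ↥(modularFunctionFieldFullC K (M' * q))) :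
    (letI := algebraAlong (al97L_beta K M' q);
      Algebra.norm ↥(modularFunctionFieldFullC K M') y) =
    (letI := algebraAlong (al97L_alpha K M' q);
      Algebra.norm ↥(modularFunctionFieldFullC K M')
        (al97L_w (algebraMap K Kbar) M' q hq hM' y)) := by
  have he : (@algebraMap ↥(modularFunctionFieldFullC K M') ↥(modularFunctionFieldFullC K (M' * q))
      _ _ (algebraAlong (al97L_alpha K M' q))).comp
        ((RingEquiv.refl ↥(modularFunctionFieldFullC K M') :
          ↥(modularFunctionFieldFullC K M') ≃+* ↥(modularFunctionFieldFullC K M')) :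
          ↥(modularFunctionFieldFullC K M') →+* ↥(modularFunctionFieldFullC K M')) =
      (((al97L_w (algebraMap K Kbar) M' q hq hM').toRingEquiv :
        ↥(modularFunctionFieldFullC K (M' * q)) ≃+* ↥(modularFunctionFieldFullC K (M' * q))) :
        ↥(modularFunctionFieldFullC K (M' * q)) →+* ↥(modularFunctionFieldFullC K (M' * q))).comp
      (@algebraMap ↥(modularFunctionFieldFullC K M') ↥(modularFunctionFieldFullC K (M' * q))
      _ _ (algebraAlong (al97L_beta K M' q))) := by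
    ext1 a
    exact (al97L_w_beta_apply (algebraMap K Kbar) M' q hq hM' a).symm
  exact @Algebra.norm_eq_of_equiv_equiv ↥(modularFunctionFieldFullC K M')
    ↥(modularFunctionFieldFullC K (M' * q)) ↥(modularFunctionFieldFullC K M')
    ↥(modularFunctionFieldFullC K (M' * q)) _ _ _ _ (algebraAlong (al97L_beta K M' q))
    (algebraAlong (al97L_alpha K M' q)) (RingEquiv.refl _)
    (al97L_w (algebraMap K Kbar) M' q hq hM').toRingEquiv he y

/-- **Norm congruence for `Nm_β`, `V_∞`-form**: `α (Nm_β y) - w y · σ̂ y ∈ 𝔪_{V_∞}`. -/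
theorem ng97_normBeta_cong_nonunits {π : R} (hπ : Irreducible π) (hqR : ¬ IsUnit (q : R))
    (σ : K ≃+* K)
    (hσ : ∀ r : R, ∃ r' : R, σ (algebraMap R K r) = algebraMap R K r' ∧
      r' - r ^ q ∈ IsLocalRing.maximalIdeal R)
    (y : ↥(modularFunctionFieldFullC K (M' * q)))
    (hy : y ∈ cm85_Vinf (K := K) (M' * q) hπ)
    (hwy : al97L_w (algebraMap K Kbar) M' q hq hM' y ∈ cm85_Vinf (K := K) (M' * q) hπ) :
    letI := algebraAlong (al97L_beta K M' q)
    al97L_alpha K M' q (Algebra.norm ↥(modularFunctionFieldFullC K M') y) -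
      al97L_w (algebraMap K Kbar) M' q hq hM' y * s34i47_coeffEquiv σ (M' * q) y ∈
        (cm85_Vinf (K := K) (M' * q) hπ).nonunits := by
  have h := ng97_norm_cong_nonunits M' q hq hM' hπ hqR σ hσ
    (al97L_w (algebraMap K Kbar) M' q hq hM' y) hwy (by rw [al97L_w_w]; exact hy)
  rw [al97L_w_w] at h
  rw [ng97_norm_beta M' q hq hM' y]
  exact h

/-- **Norm congruence for `Nm_β`, `V_0`-form**: `β (Nm_β y) - y · σ̂ (w y) ∈ 𝔪_{V_0}`. -/
theorem ng97_normBeta_cong_V0_nonunits {π : R} (hπ : Irreducible π) (hqR : ¬ IsUnit (q : R))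
    (σ : K ≃+* K)
    (hσ : ∀ r : R, ∃ r' : R, σ (algebraMap R K r) = algebraMap R K r' ∧
      r' - r ^ q ∈ IsLocalRing.maximalIdeal R)
    (y : ↥(modularFunctionFieldFullC K (M' * q)))
    (hy : y ∈ cm85_Vinf (K := K) (M' * q) hπ)
    (hwy : al97L_w (algebraMap K Kbar) M' q hq hM' y ∈ cm85_Vinf (K := K) (M' * q) hπ) :
    letI := algebraAlong (al97L_beta K M' q)
    al97L_beta K M' q (Algebra.norm ↥(modularFunctionFieldFullC K M') y) -
      y * s34i47_coeffEquiv σ (M' * q) (al97L_w (algebraMap K Kbar) M' q hq hM' y) ∈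
        (s34i47c_V0 (K := K) M' q hq hM' hπ).nonunits := by
  have h := ng97_norm_cong_V0_nonunits M' q hq hM' hπ hqR σ hσ
    (al97L_w (algebraMap K Kbar) M' q hq hM' y) hwy (by rw [al97L_w_w]; exact hy)
  rw [al97L_w_w] at h
  rw [ng97_norm_beta M' q hq hM' y]
  exact h

end ng97_main

end Fermat.Agent.S35
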