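import Mathlib
import Fermat.Agent.S34.TransvInst66

/-!
# S35 lab, step (1c) on the canonical frame (helper66): the splitting element `e0` and the unit `G`

Canonical frame data of `Iface47c` at level `M' * q`, `q ∤ M'` (ANY level `M'`, no Hauptmodul):
`V_∞ = cm85_Vinf (M' * q) hπ`, `V_0 = s34i47c_V0 M' q hq hM' hπ`, `W = s34i47c_W M' q hq hM' hπ`.

* `se66_one_add_inv_mem` (Mathlib only): `1 + ϖ t` is a unit of a valuation ring `V` when
  `ϖ⁻¹ ∉ V`, `t ∈ V`.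
* `se66_kron` : the Kronecker element `n = β j - (α j) ^ q` has `π⁻¹ n ∈ V_∞`, `n ∈ V_0`,
  `n⁻¹ ∈ V_0`, `n ≠ 0`.
* `se66_e0` : **the splitting element** `e0` with `π⁻¹ e0 ∈ V_∞` and `π⁻¹ (e0 - 1) ∈ V_0`
  (`red_∞ e0 = 0`, `red_0 e0 = 1`); `e0 = n / (n - w n)`.
* `se66_e0_mem_W` : such an element lies in `W`.
* `se66_crt` : for `y₁ y₂ ∈ W` there is `G ∈ W` with `G ≡ y₁` mod `π V_∞` and `G ≡ y₂` mod `π V_0`.
* `se66_crt_unit` : if moreover `y₁` is a unit along `V_∞` and `y₂` a unit along `V_0`, then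
  `G` is a unit of `W`.
* `se66_glue` : for units `u₁ u₂` of `V' = cm85_Vinf M' hπ` there is a unit `G` of `W` with
  `G ≡ α u₁` mod `π V_∞` and `G ≡ β u₂` mod `π V_0` (the `G` of step (1c)).
-/

set_option autoImplicit false
set_option linter.unusedSectionVars false

namespace Fermat.Agent.S35

open ModularCurve AlgebraicCurve IntermediateField
open Fermat.Agent.S24 Fermat.Agent.S37 Fermat.Agent.S18 Fermat.Agent.S28 Fermat.Agent.S34

local notation "Q̄" => AlgebraicClosure ℚ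

/-- In a valuation ring `V` with a non-unit `ϖ` (`ϖ⁻¹ ∉ V`), `1 + ϖ t` is a unit for `t ∈ V`. -/
theorem se66_one_add_inv_mem {F : Type*} [Field F] (V : ValuationSubring F) (ϖ : F)
    (hϖ : ϖ⁻¹ ∉ V) (t : F) (ht : t ∈ V) : (1 + ϖ * t)⁻¹ ∈ V := by
  have h1 : V.valuation ϖ < 1 := by
    by_contra h
    rw [not_lt] at h
    apply hϖ
    rw [← V.valuation_le_one_iff, map_inv₀]
    exact inv_le_one_of_one_le₀ h
  have ht' : V.valuation t ≤ 1 := (V.valuation_le_one_iff t).mpr ht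
  have h2 : V.valuation (ϖ * t) < 1 := by
    rw [map_mul]
    exact mul_lt_one_of_lt_of_le h1 ht'
  have h3 : V.valuation (1 + ϖ * t) = 1 := (V.valuation).map_one_add_of_lt h2
  rw [← V.valuation_le_one_iff, map_inv₀, h3, inv_one]

section SE66Canon

variable {R K : Type} [CommRing R] [IsDomain R] [IsDiscreteValuationRing R] [Field K]
  [CharZero K] [Algebra R K] [IsFractionRing R K] [Algebra K Q̄]
  (M' q : ℕ) [NeZero M'] [NeZero q] (hq : q.Prime) (hM' : ¬ q ∣ M')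
  {π : R} (hπ : Irreducible π)
  [Algebra R ↥(modularFunctionFieldFullC K (M' * q))]
  [IsScalarTower R K ↥(modularFunctionFieldFullC K (M' * q))]

/-- **The Kronecker element** `n = β j - (α j) ^ q` of the canonical frame: it vanishes along
`V_∞` and is a unit along `V_0`. -/
theorem se66_kron (hqR : ¬ IsUnit (q : R)) :
    ∃ n : ↥(modularFunctionFieldFullC K (M' * q)),
      (algebraMap R ↥(modularFunctionFieldFullC K (M' * q)) π)⁻¹ * n ∈
        cm85_Vinf (K := K) (M' * q) hπ ∧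
      n ∈ s34i47c_V0 (K := K) M' q hq hM' hπ ∧
      n⁻¹ ∈ s34i47c_V0 (K := K) M' q hq hM' hπ ∧ n ≠ 0 := by
  have hexp : ExpChar (IsLocalRing.ResidueField R) q :=
    fi66_expChar_residue hq ((IsLocalRing.mem_maximalIdeal _).mpr hqR)
  set j' : ↥(modularFunctionFieldFullC K M') := ⟨jqModC K, jqModC_mem_full K M'⟩ with hj'
  have hs : (j' : LaurentSeries K) = coeffMap (algebraMap R K) (jqModC R) :=
    (coeffMap_jqModC (algebraMap R K)).symm
  have hfrob : (coeffMap (IsLocalRing.residue R) (jqModC R)) ^ q =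
      qExpand (IsLocalRing.ResidueField R) q (coeffMap (IsLocalRing.residue R) (jqModC R)) := by
    rw [coeffMap_jqModC, fr66_pow_expChar (IsLocalRing.ResidueField R) q, coeffMap_jqModC]
  have hsk : (coeffMap (IsLocalRing.residue R) (jqModC R)).coeff (-1) ≠ 0 := by
    rw [coeffMap_jqModC, coeff_jqModC_neg_one]
    exact one_ne_zero
  have hV' : j' ∈ cm85_Vinf (K := K) M' hπ := gv85_mem_V_of_integral _ _ _ j' (jqModC R) hs
  have h1 := tv66_c_mem_Vinf M' q hπ j' (jqModC R) hs hfrob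
  have h2 := tv66_c_not_mem_V0 M' q hq hM' hπ j' (jqModC R) hs (-1)
    (tv66_not_dvd_neg_one q hq) hsk
  have h3 : al97L_beta K M' q j' - (al97L_alpha K M' q j') ^ q ∈
      s34i47c_V0 (K := K) M' q hq hM' hπ :=
    sub_mem ((al97C_beta_mem_V0 M' q hq hM' hπ _).mpr hV')
      (pow_mem ((al97C_alpha_mem_V0 M' q hq hM' hπ _).mpr hV') q)
  refine ⟨_, h1, h3, tv66_hV_V0 M' q hq hM' hπ _ h3 h2, ?_⟩
  intro h0
  apply h2
  rw [h0, mul_zero]
  exact zero_mem _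

/-- **The splitting element `e0`** of the canonical frame: `e0 ≡ 0` modulo `π V_∞` and
`e0 ≡ 1` modulo `π V_0`. -/
theorem se66_e0 (hqR : ¬ IsUnit (q : R)) :
    ∃ e : ↥(modularFunctionFieldFullC K (M' * q)),
      (algebraMap R ↥(modularFunctionFieldFullC K (M' * q)) π)⁻¹ * e ∈
        cm85_Vinf (K := K) (M' * q) hπ ∧
      (algebraMap R ↥(modularFunctionFieldFullC K (M' * q)) π)⁻¹ * (e - 1) ∈
        s34i47c_V0 (K := K) M' q hq hM' hπ := by
  obtain ⟨n, hn1, hn2, hn3, hn0⟩ := se66_kron (K := K) M' q hq hM' hπ hqR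
  set ϖ := algebraMap R ↥(modularFunctionFieldFullC K (M' * q)) π with hϖ
  set w := al97L_w (algebraMap K Q̄) M' q hq hM' with hw
  have hϖ0 : ϖ ≠ 0 := by
    intro h0
    apply al97C_pi_inv_not_mem_Vinf (K := K) M' q hπ
    rw [← hϖ, h0, inv_zero]
    exact zero_mem _
  have hwn0 : w n ≠ 0 := fun h0 => hn0 ((map_eq_zero _).mp h0)
  -- `w n` is a unit of `V_∞`
  have hwn : w n ∈ cm85_Vinf (K := K) (M' * q) hπ := (al97C_mem_V0 M' q hq hM' hπ n).mp hn2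
  have hwn' : (w n)⁻¹ ∈ cm85_Vinf (K := K) (M' * q) hπ := by
    have := (al97C_mem_V0 M' q hq hM' hπ n⁻¹).mp hn3
    rwa [map_inv₀] at this
  -- `π⁻¹ w n ∈ V_0`
  have hwn0' : ϖ⁻¹ * w n ∈ s34i47c_V0 (K := K) M' q hq hM' hπ := by
    rw [al97C_mem_V0, tv66_w_pi_inv_mul, ← hw, hw, al97L_w_w]
    exact hn1
  -- `d = n - w n` is a unit of `V_∞`
  set t := -(ϖ⁻¹ * n * (w n)⁻¹) with ht
  have htV : t ∈ cm85_Vinf (K := K) (M' * q) hπ := neg_mem (mul_mem hn1 hwn')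
  have hd : n - w n = -(w n) * (1 + ϖ * t) := by
    rw [ht]
    field_simp
    ring
  have hone : (1 + ϖ * t)⁻¹ ∈ cm85_Vinf (K := K) (M' * q) hπ :=
    se66_one_add_inv_mem _ ϖ (al97C_pi_inv_not_mem_Vinf (K := K) M' q hπ) t htV
  have hdinv : (n - w n)⁻¹ ∈ cm85_Vinf (K := K) (M' * q) hπ := by
    rw [hd, mul_inv, ← neg_inv]
    exact mul_mem (neg_mem hwn') hone
  have hd0 : n - w n ≠ 0 := by
    rw [hd]
    refine mul_ne_zero (neg_ne_zero.mpr hwn0) ?_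
    intro h0
    apply al97C_pi_inv_not_mem_Vinf (K := K) M' q hπ
    have h2 : ϖ * t = -1 := by linear_combination h0
    have h1 : ϖ⁻¹ = -t := by
      calc ϖ⁻¹ = ϖ⁻¹ * (-(ϖ * t)) := by rw [h2, neg_neg, mul_one]
        _ = -t := by rw [mul_neg, ← mul_assoc, inv_mul_cancel₀ hϖ0, one_mul]
    rw [← hϖ, h1]
    exact neg_mem htV
  -- `d⁻¹ ∈ V_0`, by symmetry
  have hdinv0 : (n - w n)⁻¹ ∈ s34i47c_V0 (K := K) M' q hq hM' hπ := by
    rw [al97C_mem_V0, map_inv₀, map_sub, ← hw, hw, al97L_w_w, ← hw]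
    have h1 : (w n - n)⁻¹ = -(n - w n)⁻¹ := by
      rw [← neg_sub n (w n), neg_inv]
    rw [h1]
    exact neg_mem hdinv
  refine ⟨n * (n - w n)⁻¹, ?_, ?_⟩
  · rw [← mul_assoc]
    exact mul_mem hn1 hdinv
  · have h1 : ϖ⁻¹ * (n * (n - w n)⁻¹ - 1) = ϖ⁻¹ * w n * (n - w n)⁻¹ := by
      field_simp
      ring
    rw [h1]
    exact mul_mem hwn0' hdinv0

/-- An element congruent to `0` modulo `π V_∞` and to `1` modulo `π V_0` lies in `W`. -/
theorem se66_e0_mem_W (e : ↥(modularFunctionFieldFullC K (M' * q)))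
    (he1 : (algebraMap R ↥(modularFunctionFieldFullC K (M' * q)) π)⁻¹ * e ∈
      cm85_Vinf (K := K) (M' * q) hπ)
    (he2 : (algebraMap R ↥(modularFunctionFieldFullC K (M' * q)) π)⁻¹ * (e - 1) ∈
      s34i47c_V0 (K := K) M' q hq hM' hπ) :
    e ∈ s34i47c_W (K := K) M' q hq hM' hπ := by
  set ϖ := algebraMap R ↥(modularFunctionFieldFullC K (M' * q)) π with hϖ
  have hϖ0 : ϖ ≠ 0 := by
    intro h0
    apply al97C_pi_inv_not_mem_Vinf (K := K) M' q hπ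
    rw [← hϖ, h0, inv_zero]
    exact zero_mem _
  have hϖ1 : ϖ ∈ cm85_Vinf (K := K) (M' * q) hπ := al97C_algebraMap_mem_Vinf M' q hπ π
  have hϖ2 : ϖ ∈ s34i47c_V0 (K := K) M' q hq hM' hπ := al97C_algebraMap_mem_V0 M' q hq hM' hπ π
  rw [s34i47c_mem_W]
  constructor
  · have h1 : e = ϖ * (ϖ⁻¹ * e) := by field_simp
    rw [h1]
    exact mul_mem hϖ1 he1
  · have h1 : e = 1 + ϖ * (ϖ⁻¹ * (e - 1)) := by field_simp; ring
    rw [h1]
    exact add_mem (one_mem _) (mul_mem hϖ2 he2)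

/-- **Chinese remainder theorem for `W` modulo `π`** on the canonical frame: any two elements
of `W` are the reductions along `V_∞` and along `V_0` of one element of `W`. -/
theorem se66_crt (hqR : ¬ IsUnit (q : R)) (y₁ y₂ : ↥(modularFunctionFieldFullC K (M' * q)))
    (h₁ : y₁ ∈ s34i47c_W (K := K) M' q hq hM' hπ)
    (h₂ : y₂ ∈ s34i47c_W (K := K) M' q hq hM' hπ) :
    ∃ G : ↥(modularFunctionFieldFullC K (M' * q)),
      G ∈ s34i47c_W (K := K) M' q hq hM' hπ ∧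
      (algebraMap R ↥(modularFunctionFieldFullC K (M' * q)) π)⁻¹ * (G - y₁) ∈
        cm85_Vinf (K := K) (M' * q) hπ ∧
      (algebraMap R ↥(modularFunctionFieldFullC K (M' * q)) π)⁻¹ * (G - y₂) ∈
        s34i47c_V0 (K := K) M' q hq hM' hπ := by
  obtain ⟨e, he1, he2⟩ := se66_e0 (K := K) M' q hq hM' hπ hqR
  have heW := se66_e0_mem_W M' q hq hM' hπ e he1 he2
  have h₁' := (s34i47c_mem_W M' q hq hM' hπ y₁).mp h₁
  have h₂' := (s34i47c_mem_W M' q hq hM' hπ y₂).mp h₂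
  refine ⟨y₁ + e * (y₂ - y₁), add_mem h₁ (mul_mem heW (sub_mem h₂ h₁)), ?_, ?_⟩
  · have h1 : (algebraMap R ↥(modularFunctionFieldFullC K (M' * q)) π)⁻¹ *
        (y₁ + e * (y₂ - y₁) - y₁) =
        (algebraMap R ↥(modularFunctionFieldFullC K (M' * q)) π)⁻¹ * e * (y₂ - y₁) := by ring
    rw [h1]
    exact mul_mem he1 (sub_mem h₂'.1 h₁'.1)
  · have h1 : (algebraMap R ↥(modularFunctionFieldFullC K (M' * q)) π)⁻¹ *
        (y₁ + e * (y₂ - y₁) - y₂) =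
        (algebraMap R ↥(modularFunctionFieldFullC K (M' * q)) π)⁻¹ * (e - 1) * (y₂ - y₁) := by
      ring
    rw [h1]
    exact mul_mem he2 (sub_mem ((al97C_mem_V0 M' q hq hM' hπ y₂).mpr h₂'.2)
      ((al97C_mem_V0 M' q hq hM' hπ y₁).mpr h₁'.2))

/-- **CRT for units of `W`**: if `y₁ ∈ W` is a unit along `V_∞` and `y₂ ∈ W` a unit along `V_0`,
the element `G` of `se66_crt` is a unit of `W`. -/
theorem se66_crt_unit (hqR : ¬ IsUnit (q : R)) (y₁ y₂ : ↥(modularFunctionFieldFullC K (M' * q)))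
    (h₁ : y₁ ∈ s34i47c_W (K := K) M' q hq hM' hπ)
    (h₂ : y₂ ∈ s34i47c_W (K := K) M' q hq hM' hπ)
    (hy₁ : y₁ ≠ 0) (hy₂ : y₂ ≠ 0)
    (h₁' : y₁⁻¹ ∈ cm85_Vinf (K := K) (M' * q) hπ)
    (h₂' : y₂⁻¹ ∈ s34i47c_V0 (K := K) M' q hq hM' hπ) :
    ∃ G : ↥(modularFunctionFieldFullC K (M' * q)),
      G ∈ s34i47c_W (K := K) M' q hq hM' hπ ∧ G⁻¹ ∈ s34i47c_W (K := K) M' q hq hM' hπ ∧
      (algebraMap R ↥(modularFunctionFieldFullC K (M' * q)) π)⁻¹ * (G - y₁) ∈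
        cm85_Vinf (K := K) (M' * q) hπ ∧
      (algebraMap R ↥(modularFunctionFieldFullC K (M' * q)) π)⁻¹ * (G - y₂) ∈
        s34i47c_V0 (K := K) M' q hq hM' hπ := by
  obtain ⟨G, hGW, hG1, hG2⟩ := se66_crt M' q hq hM' hπ hqR y₁ y₂ h₁ h₂
  set ϖ := algebraMap R ↥(modularFunctionFieldFullC K (M' * q)) π with hϖ
  have hϖ0 : ϖ ≠ 0 := by
    intro h0
    apply al97C_pi_inv_not_mem_Vinf (K := K) M' q hπ
    rw [← hϖ, h0, inv_zero]
    exact zero_mem _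
  refine ⟨G, hGW, ?_, hG1, hG2⟩
  rw [s34i47c_mem_W, ← al97C_mem_V0]
  constructor
  · have h1 : G = y₁ * (1 + ϖ * (ϖ⁻¹ * (G - y₁) * y₁⁻¹)) := by field_simp; ring
    rw [h1, mul_inv]
    exact mul_mem h₁' (se66_one_add_inv_mem _ ϖ (al97C_pi_inv_not_mem_Vinf (K := K) M' q hπ) _
      (mul_mem hG1 h₁'))
  · have h1 : G = y₂ * (1 + ϖ * (ϖ⁻¹ * (G - y₂) * y₂⁻¹)) := by field_simp; ring
    rw [h1, mul_inv]
    exact mul_mem h₂' (se66_one_add_inv_mem _ ϖ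
      (al97C_pi_inv_not_mem_V0 (K := K) M' q hq hM' hπ) _ (mul_mem hG2 h₂'))

/-- **The unit `G` of step (1c)**: for units `u₁ u₂` of the level-`M'` Gauss valuation ring
there is a unit `G` of `W` with `G ≡ α u₁` modulo `π V_∞` and `G ≡ β u₂` modulo `π V_0`. -/
theorem se66_glue (hqR : ¬ IsUnit (q : R)) (u₁ u₂ : ↥(modularFunctionFieldFullC K M'))
    (hu₁ : u₁ ∈ cm85_Vinf (K := K) M' hπ) (hu₁' : u₁⁻¹ ∈ cm85_Vinf (K := K) M' hπ)
    (hu₂ : u₂ ∈ cm85_Vinf (K := K) M' hπ) (hu₂' : u₂⁻¹ ∈ cm85_Vinf (K := K) M' hπ)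
    (hu₁0 : u₁ ≠ 0) (hu₂0 : u₂ ≠ 0) :
    ∃ G : ↥(modularFunctionFieldFullC K (M' * q)),
      G ∈ s34i47c_W (K := K) M' q hq hM' hπ ∧ G⁻¹ ∈ s34i47c_W (K := K) M' q hq hM' hπ ∧
      (algebraMap R ↥(modularFunctionFieldFullC K (M' * q)) π)⁻¹ *
          (G - al97L_alpha K M' q u₁) ∈ cm85_Vinf (K := K) (M' * q) hπ ∧
      (algebraMap R ↥(modularFunctionFieldFullC K (M' * q)) π)⁻¹ *
          (G - al97L_beta K M' q u₂) ∈ s34i47c_V0 (K := K) M' q hq hM' hπ := by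
  refine se66_crt_unit M' q hq hM' hπ hqR _ _ ?_ ?_ ?_ ?_ ?_ ?_
  · exact (al97C_alpha_mem_W M' q hq hM' hπ u₁).mpr hu₁
  · rw [s34i47c_mem_W, ← al97C_mem_V0]
    exact ⟨(al97C_beta_mem_Vinf M' q hπ u₂).mpr hu₂, (al97C_beta_mem_V0 M' q hq hM' hπ u₂).mpr hu₂⟩
  · exact fun h0 => hu₁0 ((map_eq_zero _).mp h0)
  · exact fun h0 => hu₂0 ((map_eq_zero _).mp h0)
  · rw [← map_inv₀]
    exact (al97C_alpha_mem_Vinf M' q hπ _).mpr hu₁'
  · rw [← map_inv₀]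
    exact (al97C_beta_mem_V0 M' q hq hM' hπ _).mpr hu₂'

end SE66Canon

end Fermat.Agent.S35
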