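import Mathlib
import Fermat.Agent.S35.NewToricFrame35
import Fermat.Agent.S35.SplitElt66
import Fermat.Agent.S35.NormCong97
import Fermat.Agent.S35.LPTransport3
import Fermat.Agent.S35.Iface62

/-!
# S35 lab (helper35): step (1c) "new ⇒ toric" on the canonical frame, hypothesis-free

Closing file of `NewToricFrame35`: the two remaining inputs of `ntf35_toric` are discharged by
`se66_e0` (helper66, the splitting element) and `ng97_norm_cong` (helper97, the norm congruence).

Binder block of `s35i62_Core` (Iface62): `R ⊆ K` a discrete valuation ring of a number field,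
`π` a uniformiser, `q` not a unit of `R`, `σ` Frobenial, `ŝ = s34i47_coeffEquiv σ (M' q)`,
`τ = ŝ²`.

* `ntc35_hN` : `red' (N_α y) = red_∞ y · sb (red_0 y)` for `y ∈ W` (`N_α = s35i62_normA`);
* `ntc35_u_cong_Vinf` : a unit `x` of `V_∞` congruent to a constant of `R` modulo `π V_∞` has
  `ŝ² x / x ^ (q²) ≡ 1` modulo `π V_∞`;
* **`ntc35_toric`** : if `N_α f = ca · a ^ m` and `N_β f = cb · b ^ m`, there is a unit `G` of `W`
  such that `f3 = lpt3_f3 τ m f G = (f1 / τ f1) / G ^ m`, `f1 = f / τ f`, is a unit of `W`,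
  congruent to unit constants `C₁`, `C₂` of `R` modulo `π V_∞` and modulo `π V_0`, and
  `u = lpt3_u τ m (q²) f G = τ f3 / f3 ^ (q²)` satisfies `π⁻¹ (u - 1) ∈ W`;
* `ntc35_op` : `s35i62_op q ŝ f = u · (τ G / G ^ (q²)) ^ m`.
-/

set_option autoImplicit false
set_option linter.unusedSectionVars false
set_option linter.style.haveILetI false

open ModularCurve IntermediateField AlgebraicCurve

namespace Fermat.Agent.S35

open Fermat.Agent.S18 Fermat.Agent.S34 Fermat.Agent.S37

local notation "Q̄" => AlgebraicClosure ℚ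

/-! ## 1. The Kummer operator in terms of `f3` and `G` (any field) -/

/-- `op(f) = u · (τ G / G ^ (q²)) ^ m` with `τ = s²`, `u = τ f3 / f3 ^ (q²)`,
`f3 = (f1 / τ f1) / G ^ m`, `f1 = f / τ f`. -/
theorem ntc35_op {F : Type*} [Field F] (q m : ℕ) (s : F ≃+* F) (f G : F) (hf : f ≠ 0)
    (hG : G ≠ 0) :
    s35i62_op q s f =
      lpt3_u (s.trans s) m (q ^ 2) f G * ((s.trans s) G / G ^ (q ^ 2)) ^ m := by
  have h2 : s (s f) ≠ 0 := (map_ne_zero s).mpr ((map_ne_zero s).mpr hf)
  have h4 : s (s (s (s f))) ≠ 0 := (map_ne_zero s).mpr ((map_ne_zero s).mpr h2)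
  have h6 : s (s (s (s (s (s f))))) ≠ 0 := (map_ne_zero s).mpr ((map_ne_zero s).mpr h4)
  have hG2 : s (s G) ≠ 0 := (map_ne_zero s).mpr ((map_ne_zero s).mpr hG)
  simp only [s35i62_op, lpt3_u, lpt3_f3, RingEquiv.trans_apply, map_div₀, map_pow]
  generalize s (s f) = B at *
  generalize s (s B) = C at *
  generalize s (s C) = D at *
  generalize s (s G) = G' at *
  have e1 : f / B / (B / C) / G ^ m = f * C / (B ^ 2 * G ^ m) := by field_simp
  have e2 : B / C / (C / D) / G' ^ m = B * D / (C ^ 2 * G' ^ m) := by field_simp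
  rw [e1, e2]
  simp only [div_pow, mul_pow, ← pow_mul]
  have hGq : G ^ (q ^ 2 * m) = G ^ (m * q ^ 2) := by rw [mul_comm]
  rw [hGq]
  have hB2 : B ^ (2 * q ^ 2 + 1) = B ^ (2 * q ^ 2) * B := pow_succ _ _
  have hC2 : C ^ (q ^ 2 + 2) = C ^ (q ^ 2) * C ^ 2 := pow_add _ _ _
  rw [hB2, hC2]
  have hGm : G ^ (m * q ^ 2) ≠ 0 := pow_ne_zero _ hG
  have hG'm : G' ^ m ≠ 0 := pow_ne_zero _ hG2
  have hBq : B ^ (2 * q ^ 2) ≠ 0 := pow_ne_zero _ h2
  have hCq : C ^ (q ^ 2) ≠ 0 := pow_ne_zero _ h4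
  have hfq : f ^ (q ^ 2) ≠ 0 := pow_ne_zero _ hf
  generalize G ^ (m * q ^ 2) = X1 at *
  generalize G' ^ m = X2 at *
  generalize B ^ (2 * q ^ 2) = X3 at *
  generalize C ^ (q ^ 2) = X4 at *
  generalize f ^ (q ^ 2) = X5 at *
  field_simp

/-! ## 2. The canonical frame -/

section Canon

variable {R K : Type} [CommRing R] [IsDomain R] [IsDiscreteValuationRing R] [Field K]
  [Algebra K Q̄] [Algebra R K] [IsFractionRing R K]
  (M' q : ℕ) [NeZero M'] [NeZero q] (hq : q.Prime) (hM' : ¬ q ∣ M')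

/-- The residue field of `R` has characteristic `q` when `q` is not a unit of `R`. -/
theorem ntc35_expChar (R : Type) [CommRing R] [IsDomain R] [IsDiscreteValuationRing R]
    {q : ℕ} (hq : q.Prime) (hqR : ¬ IsUnit (q : R)) :
    ExpChar (IsLocalRing.ResidueField R) q := by
  haveI : CharP (IsLocalRing.ResidueField R) q := by
    refine (CharP.charP_iff_prime_eq_zero hq).mpr ?_
    have h : IsLocalRing.residue R (q : R) = 0 := by
      rw [IsLocalRing.residue_eq_zero_iff]
      exact (IsLocalRing.mem_maximalIdeal _).mpr hqR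
    rw [← h, map_natCast]
  exact ExpChar.prime hq

/-- **The norm formula (1b) in reduction form** for the norm `s35i62_normA` of Iface62:
`red' (N_α y) = red_∞ y · sb (red_0 y)` for `y ∈ W`. -/
theorem ntc35_hN [ExpChar (IsLocalRing.ResidueField R) q] {π : R} (hπ : Irreducible π)
    (hqR : ¬ IsUnit (q : R)) (σ : K ≃+* K) (hσ : s35i62_Frobenial R q σ)
    (y : ↥(modularFunctionFieldFullC K (M' * q)))
    (hy : y ∈ s34i47c_W (K := K) M' q hq hM' hπ) :
    ntf35_red R M' (s35i62_normA K M' q y) =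
      ntf35_red R (M' * q) y *
        coeffMap (frobenius (IsLocalRing.ResidueField R) q) (ntf35_red0 R M' q hq hM' y) :=
  ntf35_Nα_red_of_cong M' q hq hM' hπ σ hσ (fun y => s35i62_normA K M' q y)
    (fun y hy => ng97_norm_cong M' q hq hM' hπ hqR σ hσ y
      ((s34i47c_mem_W M' q hq hM' hπ y).mp hy).1 ((s34i47c_mem_W M' q hq hM' hπ y).mp hy).2) y hy

include hq in
/-- A unit `x` of `V_∞` which is congruent to a constant of `R` modulo `π V_∞` satisfies
`ŝ² x / x ^ (q²) ≡ 1` modulo `π V_∞` (`ŝ` the coefficientwise action of a Frobenius lift). -/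
theorem ntc35_u_cong_Vinf [NumberField K] [ExpChar (IsLocalRing.ResidueField R) q] (M : ℕ)
    [NeZero M] {π : R} (hπ : Irreducible π) (σ : K ≃+* K) (hσ : ff50_Frob R q σ)
    (x : ↥(modularFunctionFieldFullC K M)) (hx0 : x ≠ 0)
    (hxi : x⁻¹ ∈ cm85_Vinf (K := K) M hπ) (C : R)
    (h : (algebraMap K ↥(modularFunctionFieldFullC K M) (algebraMap R K π))⁻¹ *
      (x - algebraMap K ↥(modularFunctionFieldFullC K M) (algebraMap R K C)) ∈
        cm85_Vinf (K := K) M hπ) :
    (algebraMap K ↥(modularFunctionFieldFullC K M) (algebraMap R K π))⁻¹ *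
      (s34i47_coeffEquiv σ M (s34i47_coeffEquiv σ M x) / x ^ (q ^ 2) - 1) ∈
        cm85_Vinf (K := K) M hπ := by
  obtain ⟨hx, hred⟩ := ntf35_red_cong M hπ x _ (ntf35_algebraMap_mem M hπ C) h
  rw [ntf35_red_algebraMap] at hred
  have hsx := ff50_mem_Vinf M hq.ne_zero hπ σ hσ x hx
  have hssx := ff50_mem_Vinf M hq.ne_zero hπ σ hσ _ hsx
  have hmul : ∀ a ∈ (cm85_Vinf (K := K) M hπ).toSubring,
      ∀ b ∈ (cm85_Vinf (K := K) M hπ).toSubring,
      ntf35_red R M (a * b) = ntf35_red R M a * ntf35_red R M b :=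
    fun a ha b hb => ntf35_red_mul M hπ a b ha hb
  have h1 : ntf35_red R M (s34i47_coeffEquiv σ M (s34i47_coeffEquiv σ M x)) =
      HahnSeries.C ((IsLocalRing.residue R C ^ q) ^ q) := by
    rw [ntf35_red_sh M hq hπ σ hσ _ hsx, ntf35_red_sh M hq hπ σ hσ x hx, hred, ntf35_sb_C,
      ntf35_sb_C]
  have hpow : x ^ (q ^ 2) ∈ cm85_Vinf (K := K) M hπ := pow_mem hx _
  have hpowi : (x ^ (q ^ 2))⁻¹ ∈ cm85_Vinf (K := K) M hπ := by
    rw [← inv_pow]
    exact pow_mem hxi _
  have hx0' : x ^ (q ^ 2) ≠ 0 := pow_ne_zero _ hx0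
  have h2 : ntf35_red R M (x ^ (q ^ 2)) = HahnSeries.C ((IsLocalRing.residue R C ^ q) ^ q) := by
    rw [nt98_red_pow (cm85_Vinf (K := K) M hπ).toSubring (ntf35_red R M) (ntf35_red_one M) hmul
      hx, hred, ← map_pow, ← pow_mul, sq]
  have hne : ntf35_red R M (x ^ (q ^ 2)) ≠ 0 :=
    nt98_red_ne_zero (cm85_Vinf (K := K) M hπ).toSubring (ntf35_red R M) (ntf35_red_one M) hmul
      hx0' hpow hpowi
  have h3 : ntf35_red R M (s34i47_coeffEquiv σ M (s34i47_coeffEquiv σ M x) / x ^ (q ^ 2)) = 1 := by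
    rw [nt98_red_div (cm85_Vinf (K := K) M hπ).toSubring (ntf35_red R M) (ntf35_red_one M) hmul
      hx0' hssx hpow hpowi, h1, ← h2, div_self hne]
  have hmem : s34i47_coeffEquiv σ M (s34i47_coeffEquiv σ M x) / x ^ (q ^ 2) ∈
      cm85_Vinf (K := K) M hπ := by
    rw [div_eq_mul_inv]
    exact mul_mem hssx hpowi
  exact ntf35_cong_of_red M hπ _ 1 hmem (one_mem _) (h3.trans (ntf35_red_one M).symm)

variable [NumberField K] [Algebra R ↥(modularFunctionFieldFullC K (M' * q))]
  [IsScalarTower R K ↥(modularFunctionFieldFullC K (M' * q))]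

/-- **Step (1c) on the canonical frame, hypothesis-free (congruence form).**
Binder block of `s35i62_Core`.  If `N_α f = ca · a ^ m` and `N_β f = cb · b ^ m`
(`N_α = s35i62_normA`, `N_β = s35i62_normB`), then there is a unit `G` of `W` such that, with
`τ = ŝ²`, `f3 = lpt3_f3 τ m f G = (f1 / τ f1) / G ^ m`, `f1 = f / τ f`:
`f3` is a unit of `W`, congruent to unit constants `C₁`, `C₂` of `R` modulo `π V_∞` and modulo
`π V_0`, and `u = lpt3_u τ m (q²) f G = τ f3 / f3 ^ (q²)` satisfies `π⁻¹ (u - 1) ∈ W`. -/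
theorem ntc35_toric {π : R} (hπ : Irreducible π) (hqR : ¬ IsUnit (q : R)) (σ : K ≃+* K)
    (hσ : s35i62_Frobenial R q σ) (m : ℕ)
    (f : ↥(modularFunctionFieldFullC K (M' * q))) (a b : ↥(modularFunctionFieldFullC K M'))
    (ca cb : K) (hf : f ≠ 0) (ha : a ≠ 0) (hb : b ≠ 0)
    (hNα : s35i62_normA K M' q f = algebraMap K ↥(modularFunctionFieldFullC K M') ca * a ^ m)
    (hNβ : s35i62_normB K M' q f = algebraMap K ↥(modularFunctionFieldFullC K M') cb * b ^ m) :
    ∃ G : ↥(modularFunctionFieldFullC K (M' * q)), G ≠ 0 ∧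
      G ∈ s34i47c_W (K := K) M' q hq hM' hπ ∧ G⁻¹ ∈ s34i47c_W (K := K) M' q hq hM' hπ ∧
      ∃ C₁ C₂ : R, IsUnit C₁ ∧ IsUnit C₂ ∧
        (algebraMap R ↥(modularFunctionFieldFullC K (M' * q)) π)⁻¹ *
          (lpt3_f3 ((s34i47_coeffEquiv σ (M' * q)).trans (s34i47_coeffEquiv σ (M' * q))) m f G -
            algebraMap R ↥(modularFunctionFieldFullC K (M' * q)) C₁) ∈
          cm85_Vinf (K := K) (M' * q) hπ ∧
        (algebraMap R ↥(modularFunctionFieldFullC K (M' * q)) π)⁻¹ *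
          (lpt3_f3 ((s34i47_coeffEquiv σ (M' * q)).trans (s34i47_coeffEquiv σ (M' * q))) m f G -
            algebraMap R ↥(modularFunctionFieldFullC K (M' * q)) C₂) ∈
          s34i47c_V0 (K := K) M' q hq hM' hπ ∧
        lpt3_f3 ((s34i47_coeffEquiv σ (M' * q)).trans (s34i47_coeffEquiv σ (M' * q))) m f G ∈
          s34i47c_W (K := K) M' q hq hM' hπ ∧
        (lpt3_f3 ((s34i47_coeffEquiv σ (M' * q)).trans (s34i47_coeffEquiv σ (M' * q))) m f G)⁻¹ ∈
          s34i47c_W (K := K) M' q hq hM' hπ ∧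
        (algebraMap R ↥(modularFunctionFieldFullC K (M' * q)) π)⁻¹ *
          (lpt3_u ((s34i47_coeffEquiv σ (M' * q)).trans (s34i47_coeffEquiv σ (M' * q))) m (q ^ 2)
            f G - 1) ∈ s34i47c_W (K := K) M' q hq hM' hπ := by
  haveI : ExpChar (IsLocalRing.ResidueField R) q := ntc35_expChar R hq hqR
  obtain ⟨e0, he0, he0'⟩ := se66_e0 (K := K) M' q hq hM' hπ hqR
  rw [IsScalarTower.algebraMap_apply R K ↥(modularFunctionFieldFullC K (M' * q))] at he0 he0'
  have key := ntf35_toric M' q hq hM' hπ σ hσ (algebraAlong (al97L_alpha K M' q))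
    (algebraAlong (al97L_beta K M' q)) (fun _ => rfl) (fun _ => rfl) e0 he0 he0'
    (fun y hy => ntc35_hN M' q hq hM' hπ hqR σ hσ y hy) m hf ha hb hNα hNβ
  obtain ⟨hG0, hG, hGi, hf3, hf3i, C₁, C₂, hC₁, hC₂, h1, h2⟩ := key
  refine ⟨_, hG0, hG, hGi, C₁, C₂, hC₁, hC₂, ?_, ?_, hf3, hf3i, ?_⟩
  · rw [IsScalarTower.algebraMap_apply R K ↥(modularFunctionFieldFullC K (M' * q)),
      IsScalarTower.algebraMap_apply R K ↥(modularFunctionFieldFullC K (M' * q))]
    exact h1
  · rw [IsScalarTower.algebraMap_apply R K ↥(modularFunctionFieldFullC K (M' * q)),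
      IsScalarTower.algebraMap_apply R K ↥(modularFunctionFieldFullC K (M' * q))]
    exact h2
  · rw [IsScalarTower.algebraMap_apply R K ↥(modularFunctionFieldFullC K (M' * q)),
      s34i47c_mem_W]
    have hf3' := (s34i47c_mem_W M' q hq hM' hπ _).mp hf3
    have hf3i' := (s34i47c_mem_W M' q hq hM' hπ _).mp hf3i
    have hf30 : nt98_f3 (s34i47_coeffEquiv σ (M' * q)) (s34i47_coeffEquiv σ M')
        (al97L_alpha K M' q : ↥(modularFunctionFieldFullC K M') →+*
          ↥(modularFunctionFieldFullC K (M' * q)))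
        (al97L_beta K M' q : ↥(modularFunctionFieldFullC K M') →+*
          ↥(modularFunctionFieldFullC K (M' * q))) e0 m f a b ≠ 0 :=
      div_ne_zero (nt98_tw_ne_zero _ (nt98_tw_ne_zero _ hf)) (pow_ne_zero m hG0)
    refine ⟨ntc35_u_cong_Vinf q hq (M' * q) hπ σ hσ _ hf30 hf3i'.1 C₁ h1, ?_⟩
    have h2' := (s34i47c_mem_V0 M' q hq hM' hπ _).mp h2
    rw [map_mul, map_inv₀, AlgEquiv.commutes, map_sub, AlgEquiv.commutes] at h2'
    have hw0 : al97L_w (algebraMap K Q̄) M' q hq hM'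
        (nt98_f3 (s34i47_coeffEquiv σ (M' * q)) (s34i47_coeffEquiv σ M')
          (al97L_alpha K M' q : ↥(modularFunctionFieldFullC K M') →+*
            ↥(modularFunctionFieldFullC K (M' * q)))
          (al97L_beta K M' q : ↥(modularFunctionFieldFullC K M') →+*
            ↥(modularFunctionFieldFullC K (M' * q))) e0 m f a b) ≠ 0 :=
      (map_ne_zero _).mpr hf30
    have hwi := hf3i'.2
    rw [map_inv₀] at hwi
    have h3 := ntc35_u_cong_Vinf q hq (M' * q) hπ σ hσ _ hw0 hwi C₂ h2'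
    show al97L_w (algebraMap K Q̄) M' q hq hM'
      ((algebraMap K ↥(modularFunctionFieldFullC K (M' * q)) (algebraMap R K π))⁻¹ *
        (s34i47_coeffEquiv σ (M' * q) (s34i47_coeffEquiv σ (M' * q)
          (nt98_f3 (s34i47_coeffEquiv σ (M' * q)) (s34i47_coeffEquiv σ M')
            (al97L_alpha K M' q : ↥(modularFunctionFieldFullC K M') →+*
              ↥(modularFunctionFieldFullC K (M' * q)))
            (al97L_beta K M' q : ↥(modularFunctionFieldFullC K M') →+*
              ↥(modularFunctionFieldFullC K (M' * q))) e0 m f a b)) /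
          nt98_f3 (s34i47_coeffEquiv σ (M' * q)) (s34i47_coeffEquiv σ M')
            (al97L_alpha K M' q : ↥(modularFunctionFieldFullC K M') →+*
              ↥(modularFunctionFieldFullC K (M' * q)))
            (al97L_beta K M' q : ↥(modularFunctionFieldFullC K M') →+*
              ↥(modularFunctionFieldFullC K (M' * q))) e0 m f a b ^ (q ^ 2) - 1)) ∈
      cm85_Vinf (K := K) (M' * q) hπ
    rw [map_mul, map_inv₀, AlgEquiv.commutes, map_sub, map_one, map_div₀, map_pow,
      in87g_w_comm, in87g_w_comm]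
    exact h3

end Canon

end Fermat.Agent.S35
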