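import Mathlib
import Fermat.Agent.S35.NewToricCanon35
import Fermat.Agent.S35.PkgCoreA39

/-!
# S35 lab (helper35): `pc39_ToricCong` — input (I) of `pc39_core_of` (PKG-Core-A, row 568)

`PkgCoreA39` (helper39) reduces the literal `s35i62_Pkg_Core` to two closed `Prop`s:
`pc39_core_of : pc39_ToricCong → pc39_NodeDatum → s35i62_Pkg_Core`.
This file proves the first one, from `ntc35_toric` (`NewToricCanon35`):

* **`ntc35_pc39_toricCong : pc39_ToricCong`**;
* `ntc35_pkg_core_of_node : pc39_NodeDatum → s35i62_Pkg_Core`.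
-/

set_option autoImplicit false

open ModularCurve AlgebraicCurve

namespace Fermat.Agent.S35

open Fermat.Agent.S18 Fermat.Agent.S34

/-- **Input (I) of PKG-Core-A**: step (1c) in congruence form, literally `pc39_ToricCong`. -/
theorem ntc35_pc39_toricCong : pc39_ToricCong := by
  intro M' q m _ _ hq hM' _ _ R K _ _ _ _ _ _ _ _ _ _ π hπ _ hqR _ σ hσ f a b ca cb hf ha hb _ _ _
    hNα hNβ
  obtain ⟨G, -, hG, hGi, C₁, C₂, hC₁, hC₂, h1, h2, -, -, -⟩ :=
    ntc35_toric M' q hq hM' hπ hqR σ hσ m f a b ca cb hf ha hb hNα hNβ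
  exact ⟨G, hG, hGi, C₁, C₂, hC₁, hC₂, h1, h2⟩

/-- PKG-Core-A is reduced to the node datum alone. -/
theorem ntc35_pkg_core_of_node (hNode : pc39_NodeDatum) : s35i62_Pkg_Core :=
  pc39_core_of ntc35_pc39_toricCong hNode

end Fermat.Agent.S35
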