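import Fermat.Agent.S35.PushJac40

/-!
# S35 lab, row N4 (helper40), adapters: the `mk`-formulas of `α_*`, `β_*` in the literal shapes
used by the consumers

* `pj40_alphaPush_mk_exists`, `pj40_betaPush_mk_exists` : for EVERY integrality proof `hα`
  (resp. `hβ`) and every degree-zero divisor `D` at level `N ℓ`:
  `∃ hD, pj40_alphaPush N ℓ (Pic0.mk D) = Pic0.mk ⟨Divisor.pushforwardAlong α hα D, hD⟩`
  (the hypothesis `hP` of `ta1_alpha`, helper1; the shape of `ThetaAlphaFull22`, helper22);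
* `pj40_alphaPush_mk`, `pj40_betaPush_mk` : the same with the membership proof as an argument;
* `pj40_alphaPull_mk_exists`, `pj40_betaPull_mk_exists` : the pull-back analogues.
-/

set_option autoImplicit false
set_option linter.style.haveILetI false
set_option linter.unusedSectionVars false

namespace Fermat.Agent.S35

open ModularCurve AlgebraicCurve Fermat.Agent.S37 Fermat.Agent.S42

local notation "Qb" => AlgebraicClosure ℚ

section pj40_adapters

variable (N ℓ : ℕ) [NeZero N] [NeZero ℓ]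

/-- `α_* [D] = [α_* D]`, for every integrality proof and every membership proof. -/
theorem pj40_alphaPush_mk (hα : HeckeAlphaBarIntegral Qb N ℓ)
    (D : Divisor.degZero (K := Qb) (F := ↥(modularFunctionFieldBar (N * ℓ))))
    (hD : Divisor.pushforwardAlong (heckeAlphaBar Qb N ℓ) hα
        (D : Divisor Qb ↥(modularFunctionFieldBar (N * ℓ))) ∈
      Divisor.degZero (K := Qb) (F := ↥(modularFunctionFieldBar N))) :
    pj40_alphaPush N ℓ (Pic0.mk D) = Pic0.mk ⟨_, hD⟩ :=
  rfl

/-- `β_* [D] = [β_* D]`, for every integrality proof and every membership proof. -/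
theorem pj40_betaPush_mk (hβ : HeckeBetaBarIntegral Qb N ℓ)
    (D : Divisor.degZero (K := Qb) (F := ↥(modularFunctionFieldBar (N * ℓ))))
    (hD : Divisor.pushforwardAlong (heckeBetaBar Qb N ℓ) hβ
        (D : Divisor Qb ↥(modularFunctionFieldBar (N * ℓ))) ∈
      Divisor.degZero (K := Qb) (F := ↥(modularFunctionFieldBar N))) :
    pj40_betaPush N ℓ (Pic0.mk D) = Pic0.mk ⟨_, hD⟩ :=
  rfl

/-- The `mk`-formula of `α_*` in the existential shape (`hP` of `ta1_alpha`). -/
theorem pj40_alphaPush_mk_exists (hα : HeckeAlphaBarIntegral Qb N ℓ)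
    (D : Divisor.degZero (K := Qb) (F := ↥(modularFunctionFieldBar (N * ℓ)))) :
    ∃ hD : Divisor.pushforwardAlong (heckeAlphaBar Qb N ℓ) hα
        (D : Divisor Qb ↥(modularFunctionFieldBar (N * ℓ))) ∈
      Divisor.degZero (K := Qb) (F := ↥(modularFunctionFieldBar N)),
      pj40_alphaPush N ℓ (Pic0.mk D) = Pic0.mk ⟨_, hD⟩ :=
  ⟨Divisor.pushforwardAlong_mem_degZero _ hα D.2, rfl⟩

/-- The `mk`-formula of `β_*` in the existential shape. -/
theorem pj40_betaPush_mk_exists (hβ : HeckeBetaBarIntegral Qb N ℓ)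
    (D : Divisor.degZero (K := Qb) (F := ↥(modularFunctionFieldBar (N * ℓ)))) :
    ∃ hD : Divisor.pushforwardAlong (heckeBetaBar Qb N ℓ) hβ
        (D : Divisor Qb ↥(modularFunctionFieldBar (N * ℓ))) ∈
      Divisor.degZero (K := Qb) (F := ↥(modularFunctionFieldBar N)),
      pj40_betaPush N ℓ (Pic0.mk D) = Pic0.mk ⟨_, hD⟩ :=
  ⟨Divisor.pushforwardAlong_mem_degZero _ hβ D.2, rfl⟩

/-- The `mk`-formula of `α^*` in the existential shape. -/
theorem pj40_alphaPull_mk_exists
    [HasPrincipalDivisors Qb ↥(modularFunctionFieldBar (N * ℓ))]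
    (hα : HeckeAlphaBarIntegral Qb N ℓ)
    (D : Divisor.degZero (K := Qb) (F := ↥(modularFunctionFieldBar N))) :
    ∃ hD : Divisor.pullbackAlong (heckeAlphaBar Qb N ℓ) hα
        (D : Divisor Qb ↥(modularFunctionFieldBar N)) ∈
      Divisor.degZero (K := Qb) (F := ↥(modularFunctionFieldBar (N * ℓ))),
      pj40_alphaPull N ℓ (Pic0.mk D) = Pic0.mk ⟨_, hD⟩ :=
  haveI := pj40_neZero_mul N ℓ
  ⟨(pj40_pull0 (heckeAlphaBar Qb N ℓ) D).2, rfl⟩

/-- The `mk`-formula of `β^*` in the existential shape. -/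
theorem pj40_betaPull_mk_exists
    [HasPrincipalDivisors Qb ↥(modularFunctionFieldBar (N * ℓ))]
    (hβ : HeckeBetaBarIntegral Qb N ℓ)
    (D : Divisor.degZero (K := Qb) (F := ↥(modularFunctionFieldBar N))) :
    ∃ hD : Divisor.pullbackAlong (heckeBetaBar Qb N ℓ) hβ
        (D : Divisor Qb ↥(modularFunctionFieldBar N)) ∈
      Divisor.degZero (K := Qb) (F := ↥(modularFunctionFieldBar (N * ℓ))),
      pj40_betaPull N ℓ (Pic0.mk D) = Pic0.mk ⟨_, hD⟩ :=
  haveI := pj40_neZero_mul N ℓ
  ⟨(pj40_pull0 (heckeBetaBar Qb N ℓ) D).2, rfl⟩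

end pj40_adapters

end Fermat.Agent.S35
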