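import Fermat.Agent.S35.ThetaAlphaFull22

/-!
# S35 lab, row N2a-alpha (helper22): `π ∘ Θ_n = Θ'_n ∘ cor` for every Pic0-pushforward `π`

* `taf22_corPar N q : Hom_par(Γ₀(N q), ℤ) →+ Hom_par(Γ₀(N), ℤ)` : the transfer `cor22` on the
  lattices of integral parabolic homomorphisms (`taf22_corPar_coe`);
* `taf22_compat_alpha_push` : for ANY additive `π : JZero (N q) →+ JZero N` which is the
  pushforward along `α = heckeAlphaBar` on classes (`π (mk D) = mk (pushforwardAlong α D)`), and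
  any families `Θ`, `Θ'` with the existence / evaluation clauses of `te22_family`:
  `π (Θ n c) = Θ' n (taf22_corPar N q c)` — the literal shape `h2a` of helper69's
  `ht69_cores_hecke_family` / `ht69_cores_hecke_two`.
-/

set_option autoImplicit false
set_option linter.unusedSectionVars false
set_option linter.unusedVariables false
set_option linter.style.longLine false
set_option linter.style.haveILetI false

open CongruenceSubgroup ModularCurve ModularCurve.Period AlgebraicCurve UpperHalfPlane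
open scoped MatrixGroups

namespace Fermat.Agent.S35

open Fermat.Agent.S16 Fermat.Agent.S24 Fermat.Agent.S42 Fermat.Agent.S41 Fermat.Agent.S37

local notation "Qb" => AlgebraicClosure ℚ

section taf22_push

variable (N q : ℕ) [NeZero N] [NeZero q]

/-- The transfer along `Γ₀(N q) ≤ Γ₀(N)` on the lattices of integral parabolic homs. -/
noncomputable def taf22_corPar :
    ↥(parabolicHoms ℤ (Gamma0 (N * q)) ℤ) →+ ↥(parabolicHoms ℤ (Gamma0 N) ℤ) :=
  ((cor22 (Gamma0 N) (Gamma0 (N * q)) (A := ℤ)).comp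
    (parabolicHoms ℤ (Gamma0 (N * q)) ℤ).subtype.toAddMonoidHom).codRestrict
    (parabolicHoms ℤ (Gamma0 N) ℤ)
    (fun c => cor22_mem_parabolicHoms ℤ (Gamma0 N) (Gamma0 (N * q)) c.2)

theorem taf22_corPar_coe (c : ↥(parabolicHoms ℤ (Gamma0 (N * q)) ℤ)) :
    ((taf22_corPar N q c : ↥(parabolicHoms ℤ (Gamma0 N) ℤ)) : Additive (Gamma0 N) →+ ℤ)
      = cor22 (Gamma0 N) (Gamma0 (N * q)) (c : Additive (Gamma0 (N * q)) →+ ℤ) := rfl

/-- **`π ∘ Θ_n = Θ'_n ∘ cor`** for every additive `π` inducing the pushforward along `α` on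
classes of degree-zero divisors. -/
theorem taf22_compat_alpha_push (hq : q.Prime) (hqN : ¬ q ∣ N) (p : ℕ) (hp : p ≠ 0)
    (Θ : ℕ → (↥(parabolicHoms ℤ (Gamma0 (N * q)) ℤ) →+ JZero (N * q)))
    (hex : ∀ (n : ℕ) (χ : ↥(parabolicHoms ℤ (Gamma0 (N * q)) ℤ)),
      ∃ (h : mer95_MER) (f : ↥(modularFunctionFieldBar (N * q))),
        thz31_AdmZ Qb (ff79_ev0 phi (N * q)) (p ^ n) (th70_zeta (p ^ n))
          (χ : Additive (Gamma0 (N * q)) →+ ℤ) h f)
    (heval : ∀ (n : ℕ) (χ : ↥(parabolicHoms ℤ (Gamma0 (N * q)) ℤ)) (h : mer95_MER)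
      (f : ↥(modularFunctionFieldBar (N * q))),
      thz31_AdmZ Qb (ff79_ev0 phi (N * q)) (p ^ n) (th70_zeta (p ^ n))
        (χ : Additive (Gamma0 (N * q)) →+ ℤ) h f →
      ∀ D : Divisor.degZero (K := Qb) (F := ↥(modularFunctionFieldBar (N * q))),
        th70_IsDivOf (p ^ n) f (D : Divisor Qb ↥(modularFunctionFieldBar (N * q))) →
          Θ n χ = Pic0.mk D)
    (Θ' : ℕ → (↥(parabolicHoms ℤ (Gamma0 N) ℤ) →+ JZero N))
    (heval' : ∀ (n : ℕ) (χ : ↥(parabolicHoms ℤ (Gamma0 N) ℤ)) (h : mer95_MER)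
      (f : ↥(modularFunctionFieldBar N)),
      thz31_AdmZ Qb (ff79_ev0 phi N) (p ^ n) (th70_zeta (p ^ n))
        (χ : Additive (Gamma0 N) →+ ℤ) h f →
      ∀ D : Divisor.degZero (K := Qb) (F := ↥(modularFunctionFieldBar N)),
        th70_IsDivOf (p ^ n) f (D : Divisor Qb ↥(modularFunctionFieldBar N)) →
          Θ' n χ = Pic0.mk D)
    (π : JZero (N * q) →+ JZero N)
    (hπ : ∀ D : Divisor.degZero (K := Qb) (F := ↥(modularFunctionFieldBar (N * q))),
      π (Pic0.mk D) = Pic0.mk ⟨Divisor.pushforwardAlong (heckeAlphaBar Qb N q)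
        (hx63_heckeAlphaBarIntegral N q) (D : Divisor Qb ↥(modularFunctionFieldBar (N * q))),
        Divisor.pushforwardAlong_mem_degZero _ _ D.2⟩)
    (n : ℕ) (c : ↥(parabolicHoms ℤ (Gamma0 (N * q)) ℤ)) :
    π (Θ n c) = Θ' n (taf22_corPar N q c) := by
  obtain ⟨D, hD, hD'⟩ := taf22_compat_alpha N q hq hqN p hp Θ hex heval Θ' heval' n c
  rw [hD, hπ D]
  exact hD'.symm

end taf22_push

end Fermat.Agent.S35
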