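import Fermat.Agent.S35.PushBeta87
import Fermat.Agent.S35.ThetaAlphaPush22
import Fermat.Agent.S35.PushJacB40
import Fermat.Agent.S35.Iface62

/-!
# S35 lab, package (2a), part beta, Pic0 forms (helper87, twin of row 537)

Levels `N q → N` (`q` prime, `q ∤ N`), families `Θ`, `Θ'` with the existence / evaluation clauses
of `te22_family` at the moduli `p ^ n`.

* `tb87_compat_beta` : divisor form of `β_* ∘ Θ_n = Θ'_n ∘ cor_β` (β copy of
  `taf22_compat_alpha`);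
* `tb87_compat_beta_push` : `π (Θ n c) = Θ' n (tb87_corBpar N q c)` for ANY additive `π` inducing
  the pushforward along `β` on classes (the literal shape `h2a` of `ht69_cores_hecke_family`);
* `tb87_compat_beta_pj40`, `tb87_compat_alpha_pj40` : the instances `π = pj40_betaPush N q`,
  `π = pj40_alphaPush N q` (helper40's `β_*`, `α_*`);
* `tb87_push_zero` : `α_* (Θ n c) = 0 = β_* (Θ n c)` when both transfers of `c` vanish;
* `tb87_isNew` : in that case `Θ n c` is `q`-new in the literal sense `s35i62_IsNew N q` of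
  `Iface62` (the clause of `s35i62_NewClaim`);
* `tb87_family_isNew` : the same for the family of `te22_family (N * q) p`.
-/

set_option autoImplicit false
set_option linter.unusedSectionVars false
set_option linter.unusedVariables false
set_option linter.style.longLine false
set_option linter.style.haveILetI false

open CongruenceSubgroup ModularCurve ModularCurve.Period AlgebraicCurve UpperHalfPlane
open scoped MatrixGroups

namespace Fermat.Agent.S35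

open Fermat.Agent.S16 Fermat.Agent.S24 Fermat.Agent.S42 Fermat.Agent.S41 Fermat.Agent.S37

local notation "Qb" => AlgebraicClosure ℚ

section tb87_full

variable (N q : ℕ) [NeZero N] [NeZero q]

/-- **`β_* ∘ Θ_n = Θ'_n ∘ cor_β`, divisor form.** -/
theorem tb87_compat_beta (hq : q.Prime) (hqN : ¬ q ∣ N) (p : ℕ) (hp : p ≠ 0)
    (Θ : ℕ → (↥(parabolicHoms ℤ (Gamma0 (N * q)) ℤ) →+ JZero (N * q)))
    (hex : ∀ (n : ℕ) (χ : ↥(parabolicHoms ℤ (Gamma0 (N * q)) ℤ)),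
      ∃ (h : mer95_MER) (f : ↥(modularFunctionFieldBar (N * q))),
        thz31_AdmZ Qb (ff79_ev0 phi (N * q)) (p ^ n) (th70_zeta (p ^ n))
          (χ : Additive (Gamma0 (N * q)) →+ ℤ) h f)
    (heval : ∀ (n : ℕ) (χ : ↥(parabolicHoms ℤ (Gamma0 (N * q)) ℤ)) (h : mer95_MER)
      (f : ↥(modularFunctionFieldBar (N * q))),
      thz31_AdmZ Qb (ff79_ev0 phi (N * q)) (p ^ n) (th70_zeta (p ^ n))
        (χ : Additive (Gamma0 (N * q)) →+ ℤ) h f →
      ∀ D : Divisor.degZero (K := Qb) (F := ↥(modularFunctionFieldBar (N * q))),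
        th70_IsDivOf (p ^ n) f (D : Divisor Qb ↥(modularFunctionFieldBar (N * q))) →
          Θ n χ = Pic0.mk D)
    (Θ' : ℕ → (↥(parabolicHoms ℤ (Gamma0 N) ℤ) →+ JZero N))
    (heval' : ∀ (n : ℕ) (χ : ↥(parabolicHoms ℤ (Gamma0 N) ℤ)) (h : mer95_MER)
      (f : ↥(modularFunctionFieldBar N)),
      thz31_AdmZ Qb (ff79_ev0 phi N) (p ^ n) (th70_zeta (p ^ n))
        (χ : Additive (Gamma0 N) →+ ℤ) h f →
      ∀ D : Divisor.degZero (K := Qb) (F := ↥(modularFunctionFieldBar N)),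
        th70_IsDivOf (p ^ n) f (D : Divisor Qb ↥(modularFunctionFieldBar N)) →
          Θ' n χ = Pic0.mk D)
    (n : ℕ) (χ : ↥(parabolicHoms ℤ (Gamma0 (N * q)) ℤ)) :
    ∃ D : Divisor.degZero (K := Qb) (F := ↥(modularFunctionFieldBar (N * q))),
      Θ n χ = Pic0.mk D ∧
      Θ' n (tb87_corBpar N q χ)
        = Pic0.mk ⟨Divisor.pushforwardAlong (heckeBetaBar Qb N q)
            (hx63_heckeBetaBarIntegral N q)
            (D : Divisor Qb ↥(modularFunctionFieldBar (N * q))),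
          Divisor.pushforwardAlong_mem_degZero _ _ D.2⟩ := by
  haveI := hi63_hasPrincipalDivisors_bar (N * q)
  have hm : p ^ n ≠ 0 := pow_ne_zero n hp
  obtain ⟨h, f, H⟩ := hex n χ
  obtain ⟨h0, f0, hchar, hpow, hdvd⟩ := id H
  obtain ⟨D, hD, hdeg⟩ := th70_exists_div (K := Qb) hm f0 hdvd
  obtain ⟨⟨H', hadm⟩, hdiv⟩ := tb87_adm_beta N q hq hqN (p ^ n) hm
    (χ : Additive (Gamma0 (N * q)) →+ ℤ) h f H
  refine ⟨⟨D, Divisor.mem_degZero.mpr hdeg⟩, heval n χ h f H _ hD, ?_⟩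
  exact heval' n (tb87_corBpar N q χ) H' _ hadm
    ⟨_, Divisor.pushforwardAlong_mem_degZero _ _ (Divisor.mem_degZero.mpr hdeg)⟩ (hdiv D hD)

/-- **`π ∘ Θ_n = Θ'_n ∘ cor_β`** for every additive `π` inducing the pushforward along `β` on
classes of degree-zero divisors. -/
theorem tb87_compat_beta_push (hq : q.Prime) (hqN : ¬ q ∣ N) (p : ℕ) (hp : p ≠ 0)
    (Θ : ℕ → (↥(parabolicHoms ℤ (Gamma0 (N * q)) ℤ) →+ JZero (N * q)))
    (hex : ∀ (n : ℕ) (χ : ↥(parabolicHoms ℤ (Gamma0 (N * q)) ℤ)),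
      ∃ (h : mer95_MER) (f : ↥(modularFunctionFieldBar (N * q))),
        thz31_AdmZ Qb (ff79_ev0 phi (N * q)) (p ^ n) (th70_zeta (p ^ n))
          (χ : Additive (Gamma0 (N * q)) →+ ℤ) h f)
    (heval : ∀ (n : ℕ) (χ : ↥(parabolicHoms ℤ (Gamma0 (N * q)) ℤ)) (h : mer95_MER)
      (f : ↥(modularFunctionFieldBar (N * q))),
      thz31_AdmZ Qb (ff79_ev0 phi (N * q)) (p ^ n) (th70_zeta (p ^ n))
        (χ : Additive (Gamma0 (N * q)) →+ ℤ) h f →
      ∀ D : Divisor.degZero (K := Qb) (F := ↥(modularFunctionFieldBar (N * q))),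
        th70_IsDivOf (p ^ n) f (D : Divisor Qb ↥(modularFunctionFieldBar (N * q))) →
          Θ n χ = Pic0.mk D)
    (Θ' : ℕ → (↥(parabolicHoms ℤ (Gamma0 N) ℤ) →+ JZero N))
    (heval' : ∀ (n : ℕ) (χ : ↥(parabolicHoms ℤ (Gamma0 N) ℤ)) (h : mer95_MER)
      (f : ↥(modularFunctionFieldBar N)),
      thz31_AdmZ Qb (ff79_ev0 phi N) (p ^ n) (th70_zeta (p ^ n))
        (χ : Additive (Gamma0 N) →+ ℤ) h f →
      ∀ D : Divisor.degZero (K := Qb) (F := ↥(modularFunctionFieldBar N)),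
        th70_IsDivOf (p ^ n) f (D : Divisor Qb ↥(modularFunctionFieldBar N)) →
          Θ' n χ = Pic0.mk D)
    (π : JZero (N * q) →+ JZero N)
    (hπ : ∀ D : Divisor.degZero (K := Qb) (F := ↥(modularFunctionFieldBar (N * q))),
      π (Pic0.mk D) = Pic0.mk ⟨Divisor.pushforwardAlong (heckeBetaBar Qb N q)
        (hx63_heckeBetaBarIntegral N q) (D : Divisor Qb ↥(modularFunctionFieldBar (N * q))),
        Divisor.pushforwardAlong_mem_degZero _ _ D.2⟩)
    (n : ℕ) (c : ↥(parabolicHoms ℤ (Gamma0 (N * q)) ℤ)) :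
    π (Θ n c) = Θ' n (tb87_corBpar N q c) := by
  obtain ⟨D, hD, hD'⟩ := tb87_compat_beta N q hq hqN p hp Θ hex heval Θ' heval' n c
  rw [hD, hπ D]
  exact hD'.symm

/-- **(2a)-β for helper40's `β_*`**: `pj40_betaPush N q (Θ n c) = Θ' n (cor_β c)`. -/
theorem tb87_compat_beta_pj40 (hq : q.Prime) (hqN : ¬ q ∣ N) (p : ℕ) (hp : p ≠ 0)
    (Θ : ℕ → (↥(parabolicHoms ℤ (Gamma0 (N * q)) ℤ) →+ JZero (N * q)))
    (hex : ∀ (n : ℕ) (χ : ↥(parabolicHoms ℤ (Gamma0 (N * q)) ℤ)),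
      ∃ (h : mer95_MER) (f : ↥(modularFunctionFieldBar (N * q))),
        thz31_AdmZ Qb (ff79_ev0 phi (N * q)) (p ^ n) (th70_zeta (p ^ n))
          (χ : Additive (Gamma0 (N * q)) →+ ℤ) h f)
    (heval : ∀ (n : ℕ) (χ : ↥(parabolicHoms ℤ (Gamma0 (N * q)) ℤ)) (h : mer95_MER)
      (f : ↥(modularFunctionFieldBar (N * q))),
      thz31_AdmZ Qb (ff79_ev0 phi (N * q)) (p ^ n) (th70_zeta (p ^ n))
        (χ : Additive (Gamma0 (N * q)) →+ ℤ) h f →
      ∀ D : Divisor.degZero (K := Qb) (F := ↥(modularFunctionFieldBar (N * q))),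
        th70_IsDivOf (p ^ n) f (D : Divisor Qb ↥(modularFunctionFieldBar (N * q))) →
          Θ n χ = Pic0.mk D)
    (Θ' : ℕ → (↥(parabolicHoms ℤ (Gamma0 N) ℤ) →+ JZero N))
    (heval' : ∀ (n : ℕ) (χ : ↥(parabolicHoms ℤ (Gamma0 N) ℤ)) (h : mer95_MER)
      (f : ↥(modularFunctionFieldBar N)),
      thz31_AdmZ Qb (ff79_ev0 phi N) (p ^ n) (th70_zeta (p ^ n))
        (χ : Additive (Gamma0 N) →+ ℤ) h f →
      ∀ D : Divisor.degZero (K := Qb) (F := ↥(modularFunctionFieldBar N)),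
        th70_IsDivOf (p ^ n) f (D : Divisor Qb ↥(modularFunctionFieldBar N)) →
          Θ' n χ = Pic0.mk D)
    (n : ℕ) (c : ↥(parabolicHoms ℤ (Gamma0 (N * q)) ℤ)) :
    pj40_betaPush N q (Θ n c) = Θ' n (tb87_corBpar N q c) :=
  tb87_compat_beta_push N q hq hqN p hp Θ hex heval Θ' heval' (pj40_betaPush N q)
    (fun D => pj40_betaPush_mk N q (hx63_heckeBetaBarIntegral N q) D _) n c

/-- **(2a)-α for helper40's `α_*`**: `pj40_alphaPush N q (Θ n c) = Θ' n (cor_α c)`. -/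
theorem tb87_compat_alpha_pj40 (hq : q.Prime) (hqN : ¬ q ∣ N) (p : ℕ) (hp : p ≠ 0)
    (Θ : ℕ → (↥(parabolicHoms ℤ (Gamma0 (N * q)) ℤ) →+ JZero (N * q)))
    (hex : ∀ (n : ℕ) (χ : ↥(parabolicHoms ℤ (Gamma0 (N * q)) ℤ)),
      ∃ (h : mer95_MER) (f : ↥(modularFunctionFieldBar (N * q))),
        thz31_AdmZ Qb (ff79_ev0 phi (N * q)) (p ^ n) (th70_zeta (p ^ n))
          (χ : Additive (Gamma0 (N * q)) →+ ℤ) h f)
    (heval : ∀ (n : ℕ) (χ : ↥(parabolicHoms ℤ (Gamma0 (N * q)) ℤ)) (h : mer95_MER)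
      (f : ↥(modularFunctionFieldBar (N * q))),
      thz31_AdmZ Qb (ff79_ev0 phi (N * q)) (p ^ n) (th70_zeta (p ^ n))
        (χ : Additive (Gamma0 (N * q)) →+ ℤ) h f →
      ∀ D : Divisor.degZero (K := Qb) (F := ↥(modularFunctionFieldBar (N * q))),
        th70_IsDivOf (p ^ n) f (D : Divisor Qb ↥(modularFunctionFieldBar (N * q))) →
          Θ n χ = Pic0.mk D)
    (Θ' : ℕ → (↥(parabolicHoms ℤ (Gamma0 N) ℤ) →+ JZero N))
    (heval' : ∀ (n : ℕ) (χ : ↥(parabolicHoms ℤ (Gamma0 N) ℤ)) (h : mer95_MER)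
      (f : ↥(modularFunctionFieldBar N)),
      thz31_AdmZ Qb (ff79_ev0 phi N) (p ^ n) (th70_zeta (p ^ n))
        (χ : Additive (Gamma0 N) →+ ℤ) h f →
      ∀ D : Divisor.degZero (K := Qb) (F := ↥(modularFunctionFieldBar N)),
        th70_IsDivOf (p ^ n) f (D : Divisor Qb ↥(modularFunctionFieldBar N)) →
          Θ' n χ = Pic0.mk D)
    (n : ℕ) (c : ↥(parabolicHoms ℤ (Gamma0 (N * q)) ℤ)) :
    pj40_alphaPush N q (Θ n c) = Θ' n (taf22_corPar N q c) :=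
  taf22_compat_alpha_push N q hq hqN p hp Θ hex heval Θ' heval' (pj40_alphaPush N q)
    (fun D => pj40_alphaPush_mk N q (hx63_heckeAlphaBarIntegral N q) D _) n c

/-- **Kernel form of (2a)**: if both transfers of `c` vanish, then `α_* (Θ n c) = 0` and
`β_* (Θ n c) = 0`. -/
theorem tb87_push_zero (hq : q.Prime) (hqN : ¬ q ∣ N) (p : ℕ) (hp : p ≠ 0)
    (Θ : ℕ → (↥(parabolicHoms ℤ (Gamma0 (N * q)) ℤ) →+ JZero (N * q)))
    (hex : ∀ (n : ℕ) (χ : ↥(parabolicHoms ℤ (Gamma0 (N * q)) ℤ)),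
      ∃ (h : mer95_MER) (f : ↥(modularFunctionFieldBar (N * q))),
        thz31_AdmZ Qb (ff79_ev0 phi (N * q)) (p ^ n) (th70_zeta (p ^ n))
          (χ : Additive (Gamma0 (N * q)) →+ ℤ) h f)
    (heval : ∀ (n : ℕ) (χ : ↥(parabolicHoms ℤ (Gamma0 (N * q)) ℤ)) (h : mer95_MER)
      (f : ↥(modularFunctionFieldBar (N * q))),
      thz31_AdmZ Qb (ff79_ev0 phi (N * q)) (p ^ n) (th70_zeta (p ^ n))
        (χ : Additive (Gamma0 (N * q)) →+ ℤ) h f →
      ∀ D : Divisor.degZero (K := Qb) (F := ↥(modularFunctionFieldBar (N * q))),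
        th70_IsDivOf (p ^ n) f (D : Divisor Qb ↥(modularFunctionFieldBar (N * q))) →
          Θ n χ = Pic0.mk D)
    (n : ℕ) (c : ↥(parabolicHoms ℤ (Gamma0 (N * q)) ℤ))
    (hA : taf22_corPar N q c = 0) (hB : tb87_corBpar N q c = 0) :
    pj40_alphaPush N q (Θ n c) = 0 ∧ pj40_betaPush N q (Θ n c) = 0 := by
  obtain ⟨Θ', -, -, -, -, -, heval'⟩ := te22_family N p hp
  constructor
  · rw [tb87_compat_alpha_pj40 N q hq hqN p hp Θ hex heval Θ' heval' n c, hA, map_zero]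
  · rw [tb87_compat_beta_pj40 N q hq hqN p hp Θ hex heval Θ' heval' n c, hB, map_zero]

/-- **Newness of the Kummer images** (the clause of `s35i62_NewClaim`): if both transfers of `c`
vanish, then `Θ n c` is `q`-new in the sense of `Iface62`. -/
theorem tb87_isNew (hq : q.Prime) (hqN : ¬ q ∣ N) (p : ℕ) (hp : p ≠ 0)
    (Θ : ℕ → (↥(parabolicHoms ℤ (Gamma0 (N * q)) ℤ) →+ JZero (N * q)))
    (hex : ∀ (n : ℕ) (χ : ↥(parabolicHoms ℤ (Gamma0 (N * q)) ℤ)),
      ∃ (h : mer95_MER) (f : ↥(modularFunctionFieldBar (N * q))),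
        thz31_AdmZ Qb (ff79_ev0 phi (N * q)) (p ^ n) (th70_zeta (p ^ n))
          (χ : Additive (Gamma0 (N * q)) →+ ℤ) h f)
    (heval : ∀ (n : ℕ) (χ : ↥(parabolicHoms ℤ (Gamma0 (N * q)) ℤ)) (h : mer95_MER)
      (f : ↥(modularFunctionFieldBar (N * q))),
      thz31_AdmZ Qb (ff79_ev0 phi (N * q)) (p ^ n) (th70_zeta (p ^ n))
        (χ : Additive (Gamma0 (N * q)) →+ ℤ) h f →
      ∀ D : Divisor.degZero (K := Qb) (F := ↥(modularFunctionFieldBar (N * q))),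
        th70_IsDivOf (p ^ n) f (D : Divisor Qb ↥(modularFunctionFieldBar (N * q))) →
          Θ n χ = Pic0.mk D)
    (n : ℕ) (c : ↥(parabolicHoms ℤ (Gamma0 (N * q)) ℤ))
    (hA : taf22_corPar N q c = 0) (hB : tb87_corBpar N q c = 0) :
    s35i62_IsNew N q (Θ n c) := by
  obtain ⟨hα0, hβ0⟩ := tb87_push_zero N q hq hqN p hp Θ hex heval n c hA hB
  obtain ⟨D, hD⟩ := Pic0.mk_surjective (Θ n c)
  rw [← hD] at hα0 hβ0
  exact ⟨hx63_heckeAlphaBarIntegral N q, hx63_heckeBetaBarIntegral N q, D, hD.symm,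
    (pj40_alphaPush_mk_eq_zero_iff N q _ D).mp hα0,
    (pj40_betaPush_mk_eq_zero_iff N q _ D).mp hβ0⟩

end tb87_full

end Fermat.Agent.S35
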