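import Fermat.Agent.S35.PkgNew32
import Fermat.Agent.S35.NewBeta87

/-!
# S35 lab (helper87): hypothesis `pn32_BetaCompat` of `pn32_pkg_new` (row 569) is PROVED

* `bc87_betaCompat : pn32_BetaCompat` — (2a)-β in helper32's literal shape, with
  `cor := tb87_corBpar N q` (`NewBeta87.tb87_compat_beta_pj40`);
* `bc87_pkg_new_of_N5 : pn32_N5 → s35i62_Pkg_New` — so the interface package `s35i62_Pkg_New`
  is reduced to the ONE remaining hypothesis `pn32_N5` (row 557).
-/

set_option autoImplicit false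

namespace Fermat.Agent.S35

/-- **(2a)-β in the literal shape `pn32_BetaCompat`.** -/
theorem bc87_betaCompat : pn32_BetaCompat := by
  intro N q _ _ hq hqN
  refine ⟨tb87_corBpar N q, fun p hp Θ Θ' _ hΘ _ hΘ' n c => ?_⟩
  exact tb87_compat_beta_pj40 N q hq hqN p hp.ne_zero Θ hΘ.1 hΘ.2 Θ' hΘ'.2 n c

/-- **`s35i62_Pkg_New` from (N5) alone.** -/
theorem bc87_pkg_new_of_N5 (hN5 : pn32_N5) : s35i62_Pkg_New :=
  pn32_pkg_new bc87_betaCompat hN5

end Fermat.Agent.S35
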