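import Mathlib

/-!
# S35 lab, chain B (helper85): the final algebra (B6), abstract

Mathlib only.  `K ⊆ F` fields, `m` an exponent.

* `cb85_CP K m x` : `x` is a nonzero constant times an `m`-th power
  (`∃ f₀ ≠ 0, ∃ c ≠ 0, f₀ ^ m * x = c`, the conclusion shape of `s34i47_Core` / `s35i62_Core`);
  it is stable under products, inverses, powers and semilinear ring homomorphisms.
* `cb85_Phi s w q g = s² g · (w s g)^(q+1) · g^q` : the numerator of the operator `TH` of chain B.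
* `cb85_Psi_eq` : `Φ(s² f) · Φ(f)^q / Φ(w s f)^(q+1) = s⁴ f · f^(q²) / (s² f)^(q²+1)`
  (`w` drops out: `(s²-1)(s²-q²)`);
* `cb85_op_eq` : `s⁶ f · (s² f)^(2q²+1) / ((s⁴ f)^(q²+2) · f^(q²)) = s² Ψ / Ψ`
  (`(s²-q²)(1-s²)²`, the operator `s35i62_op` of `Iface62`);
* `cb85_alg_main` : if `Φ(f)`, `Φ(s² f)`, `Φ(w s f)` are constants times `m`-th powers, so is
  `s35i62_op q s f`.
-/

set_option autoImplicit false

namespace Fermat.Agent.S35

section cb85alg

/-- `x` is a nonzero constant (of `K`) times an `m`-th power. -/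
def cb85_CP (K : Type*) {F : Type*} [Field K] [Field F] [Algebra K F] (m : ℕ) (x : F) : Prop :=
  ∃ (f₀ : F) (c : K), f₀ ≠ 0 ∧ c ≠ 0 ∧ f₀ ^ m * x = algebraMap K F c

variable {K F : Type*} [Field K] [Field F] [Algebra K F]

theorem cb85_CP_ne_zero {m : ℕ} {x : F} (h : cb85_CP K m x) : x ≠ 0 := by
  obtain ⟨f₀, c, -, hc, h⟩ := h
  rintro rfl
  rw [mul_zero] at h
  exact hc ((map_eq_zero (algebraMap K F)).mp h.symm)

theorem cb85_CP_const (m : ℕ) (c : K) (hc : c ≠ 0) : cb85_CP K m (algebraMap K F c) :=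
  ⟨1, c, one_ne_zero, hc, by rw [one_pow, one_mul]⟩

theorem cb85_CP_powm (m : ℕ) (g : F) (hg : g ≠ 0) : cb85_CP K m (g ^ m) :=
  ⟨g⁻¹, 1, inv_ne_zero hg, one_ne_zero, by
    rw [inv_pow, inv_mul_cancel₀ (pow_ne_zero m hg), map_one]⟩

theorem cb85_CP_const_mul_powm (m : ℕ) (c : K) (hc : c ≠ 0) (g : F) (hg : g ≠ 0) :
    cb85_CP K m (algebraMap K F c * g ^ m) :=
  ⟨g⁻¹, c, inv_ne_zero hg, hc, by
    rw [inv_pow, mul_left_comm, inv_mul_cancel₀ (pow_ne_zero m hg), mul_one]⟩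

theorem cb85_CP_mul {m : ℕ} {x y : F} (hx : cb85_CP K m x) (hy : cb85_CP K m y) :
    cb85_CP K m (x * y) := by
  obtain ⟨f, c, hf, hc, h1⟩ := hx
  obtain ⟨g, d, hg, hd, h2⟩ := hy
  refine ⟨f * g, c * d, mul_ne_zero hf hg, mul_ne_zero hc hd, ?_⟩
  rw [mul_pow, map_mul, ← h1, ← h2]
  ring

theorem cb85_CP_inv {m : ℕ} {x : F} (hx : cb85_CP K m x) : cb85_CP K m x⁻¹ := by
  obtain ⟨f, c, hf, hc, h1⟩ := hx
  refine ⟨f⁻¹, c⁻¹, inv_ne_zero hf, inv_ne_zero hc, ?_⟩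
  rw [inv_pow, ← mul_inv, h1, map_inv₀]

theorem cb85_CP_div {m : ℕ} {x y : F} (hx : cb85_CP K m x) (hy : cb85_CP K m y) :
    cb85_CP K m (x / y) := by
  rw [div_eq_mul_inv]
  exact cb85_CP_mul hx (cb85_CP_inv hy)

theorem cb85_CP_pow {m : ℕ} {x : F} (hx : cb85_CP K m x) (k : ℕ) : cb85_CP K m (x ^ k) := by
  induction k with
  | zero =>
    rw [pow_zero]
    exact ⟨1, 1, one_ne_zero, one_ne_zero, by rw [one_pow, one_mul, map_one]⟩
  | succ k ih =>
    rw [pow_succ]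
    exact cb85_CP_mul ih hx

/-- Transport along a ring homomorphism which maps constants to constants. -/
theorem cb85_CP_map {F₂ : Type*} [Field F₂] [Algebra K F₂] {m : ℕ} (φ : F →+* F₂)
    (hφ : ∀ c : K, ∃ c' : K, φ (algebraMap K F c) = algebraMap K F₂ c') {x : F}
    (hx : cb85_CP K m x) : cb85_CP K m (φ x) := by
  obtain ⟨f, c, hf, hc, h1⟩ := hx
  obtain ⟨c', hc'⟩ := hφ c
  refine ⟨φ f, c', (map_ne_zero φ).mpr hf, ?_, ?_⟩
  · rintro rfl
    rw [map_zero] at hc'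
    exact hc ((map_eq_zero (algebraMap K F)).mp ((map_eq_zero φ).mp hc'))
  · rw [← map_pow, ← map_mul, h1, hc']

/-- The numerator of the operator `TH` of chain B. -/
def cb85_Phi (s w : F ≃+* F) (q : ℕ) (g : F) : F :=
  s (s g) * (w (s g)) ^ (q + 1) * g ^ q

theorem cb85_Psi_eq (s w : F ≃+* F) (q : ℕ) (hww : ∀ x, w (w x) = x)
    (hsw : ∀ x, s (w x) = w (s x)) (f : F) (hf : f ≠ 0) :
    cb85_Phi s w q (s (s f)) * cb85_Phi s w q f ^ q / cb85_Phi s w q (w (s f)) ^ (q + 1) =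
      s (s (s (s f))) * f ^ (q ^ 2) / s (s f) ^ (q ^ 2 + 1) := by
  unfold cb85_Phi
  have e1 : s (s (w (s f))) = w (s (s (s f))) := by rw [hsw, hsw]
  have e2 : w (s (w (s f))) = s (s f) := by rw [hsw, hww]
  rw [e1, e2]
  have hA : s (s (s (s f))) ≠ 0 := by simpa using hf
  have hB : s (s f) ≠ 0 := by simpa using hf
  have hC : w (s (s (s f))) ≠ 0 := by simpa using hf
  have hD : w (s f) ≠ 0 := by simpa using hf
  generalize s (s (s (s f))) = A at *
  generalize w (s (s (s f))) = C at *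
  generalize w (s f) = D at *
  generalize s (s f) = B at *
  rw [div_eq_div_iff (pow_ne_zero _ (mul_ne_zero (mul_ne_zero hC (pow_ne_zero _ hB))
    (pow_ne_zero _ hD))) (pow_ne_zero _ hB)]
  ring

theorem cb85_op_eq (s : F ≃+* F) (q : ℕ) (f : F) (hf : f ≠ 0) :
    s (s (s (s (s (s f))))) * s (s f) ^ (2 * q ^ 2 + 1) /
        (s (s (s (s f))) ^ (q ^ 2 + 2) * f ^ (q ^ 2)) =
      s (s (s (s (s (s f))) * f ^ (q ^ 2) / s (s f) ^ (q ^ 2 + 1))) /
        (s (s (s (s f))) * f ^ (q ^ 2) / s (s f) ^ (q ^ 2 + 1)) := by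
  simp only [map_div₀, map_mul, map_pow]
  have hA : s (s (s (s f))) ≠ 0 := by simpa using hf
  have hB : s (s f) ≠ 0 := by simpa using hf
  have hE : s (s (s (s (s (s f))))) ≠ 0 := by simpa using hf
  generalize s (s (s (s (s (s f))))) = E at *
  generalize s (s (s (s f))) = A at *
  generalize s (s f) = B at *
  field_simp
  ring

/-- **B6 (chain B, final algebra).**  If `Φ(g) = s² g · (w s g)^(q+1) · g^q` is a constant times
an `m`-th power for `g = f`, `s² f`, `w s f`, then so is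
`s⁶ f · (s² f)^(2q²+1) / ((s⁴ f)^(q²+2) · f^(q²))` (the operator `s35i62_op q s f`). -/
theorem cb85_alg_main (s w : F ≃+* F) (q m : ℕ) (hww : ∀ x, w (w x) = x)
    (hsw : ∀ x, s (w x) = w (s x))
    (hs : ∀ c : K, ∃ c' : K, s (algebraMap K F c) = algebraMap K F c')
    (f : F) (hf : f ≠ 0)
    (h1 : cb85_CP K m (cb85_Phi s w q f))
    (h2 : cb85_CP K m (cb85_Phi s w q (s (s f))))
    (h3 : cb85_CP K m (cb85_Phi s w q (w (s f)))) :
    cb85_CP K m (s (s (s (s (s (s f))))) * s (s f) ^ (2 * q ^ 2 + 1) /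
        (s (s (s (s f))) ^ (q ^ 2 + 2) * f ^ (q ^ 2))) := by
  have hΨ : cb85_CP K m (s (s (s (s f))) * f ^ (q ^ 2) / s (s f) ^ (q ^ 2 + 1)) := by
    rw [← cb85_Psi_eq s w q hww hsw f hf]
    exact cb85_CP_div (cb85_CP_mul h2 (cb85_CP_pow h1 q)) (cb85_CP_pow h3 (q + 1))
  rw [cb85_op_eq s q f hf]
  exact cb85_CP_div (cb85_CP_map (s : F →+* F) hs (cb85_CP_map (s : F →+* F) hs hΨ)) hΨ

end cb85alg

end Fermat.Agent.S35
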