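import Fermat.Agent.S35.ChainBNode85
import Fermat.Agent.S35.SmoothDatumInst89
import Fermat.Agent.S35.LocPrinTau70
import Fermat.Agent.S35.ChainBAlg85
import Fermat.Agent.S34.UniqueZero37
import Fermat.Agent.S34.LocPrin9
import Fermat.Agent.S34.PkgMain85
import Fermat.Agent.S34.FrameSat85
import Fermat.Agent.S34.FrameLSAsm71
import Fermat.Agent.S34.FinSupp29
import Fermat.Agent.S34.CoreAsm57

/-!
# S35 lab, chain B (helper85): `s35i62_Pkg_Core` from ONE input, (B2)

`cb85_pkg_core : (∀ M' q hq hM', cb85_THOne M' q hq hM') → s35i62_Pkg_Core`.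

`cb85_THOne M' q hq hM'` is (B2) of the chain-B plan (registry rows 559/560): in the binder block
of `s35i62_Core`, for a Frobenial `σ` and EVERY `x ≠ 0` of `F_K(M' q)`,
`π⁻¹ (TH x - 1) ∈ W`, `TH x = ŝ² x · (w ŝ x)^(q+1) · x^q / (α N_α(w ŝ x) · β N_α(ŝ x))`.

Proof of `cb85_core` (no unit transport through conjugate places, no semi-local (LP)):

* (LP) for `f` on both charts (`uz37_Pkg_UZ`, `lp9_Pkg_LP`); the class `H` of `g ≠ 0` with (LP) on
  both charts and `N_α g`, `N_α (w g)` constants times `m`-th powers contains `f` and is stable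
  under `ŝ` and `w` (`lpt70_locPrin_map`, `ne68_N1`, `ne68_N2`).
* For `g ∈ H`: the norm factors of `TH g` are constants times `m`-th powers, so (LP) holds for
  `TH g` (`cb85_lpTH`); the local datum of `TH g` at one-branch points is `sd89c_localDatum`
  (row 546, applied to `u = TH g`), at nodes `nt85_datum` with `cb85_node_tr`; the nodal two-chart
  lemma `cm85_pkg_main` gives `TH g ∈ K^× F^{× m}` (`cb85_coreTH`), hence
  `Φ(g) = ŝ² g · (w ŝ g)^(q+1) · g^q ∈ K^× F^{× m}`.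
* `cb85_alg_main` (B6) with `g = f, ŝ² f, w ŝ f` gives `s35i62_op q ŝ f ∈ K^× F^{× m}`.

The rationality hypotheses on `α a`, `β a`, `α b`, `β b` of `s35i62_Core` are not used.
-/

set_option autoImplicit false
set_option linter.unusedSectionVars false
set_option linter.unusedVariables false
set_option linter.style.longLine false
set_option linter.style.haveILetI false

open ModularCurve AlgebraicCurve

namespace Fermat.Agent.S35

open Fermat.Agent.S18 Fermat.Agent.S34

local notation "Q̄" => AlgebraicClosure ℚ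

section cb85_lp

variable {R K F : Type*} [CommRing R] [IsDomain R] [IsDiscreteValuationRing R] [Field K]
  [Algebra R K] [IsFractionRing R K] [Field F] [Algebra R F] [Algebra K F] [IsScalarTower R K F]

/-- A constant times an `m`-th power satisfies (LP) on every chart. -/
theorem cb85_locPrin_of_CP {π : R} (hπ : Irreducible π) (m : ℕ) (B : Subalgebra R F) (x : F)
    (hx : cb85_CP K m x) : s34i47_LocPrin π m B x := by
  obtain ⟨f₀, c, hf₀, hc, h⟩ := hx
  intro n hn hπn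
  refine ⟨f₀⁻¹, inv_ne_zero hf₀, fun O hO hOn => ?_⟩
  have h1 : x / f₀⁻¹ ^ m = algebraMap K F c := by
    rw [inv_pow, div_inv_eq_mul, mul_comm]
    exact h
  have h2 : f₀⁻¹ ^ m / x = algebraMap K F c⁻¹ := by
    rw [map_inv₀, ← h1, inv_div]
  rw [h1, h2]
  exact ⟨ca57_algebraMap_mem hπ O hO.2.2.1 hO.2.2.2 c,
    ca57_algebraMap_mem hπ O hO.2.2.1 hO.2.2.2 c⁻¹⟩

end cb85_lp

section cb85_core

variable {R K : Type} [CommRing R] [IsDomain R] [IsDiscreteValuationRing R] [Field K]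
  [NumberField K] [Algebra R K] [IsFractionRing R K] [Algebra K Q̄]
  (M' q : ℕ) [NeZero M'] [NeZero q] (hq : q.Prime) (hM' : ¬ q ∣ M')
  [Algebra R ↥(modularFunctionFieldFullC K (M' * q))]
  [IsScalarTower R K ↥(modularFunctionFieldFullC K (M' * q))]

/-- `ŝ` maps `R` into `R`, `π` into `π R`, and each chart of an admissible Hauptmodul onto
itself. -/
theorem cb85_aut_s {π : R} (hπ : Irreducible π) (σ : K ≃+* K) (hσ : s35i62_Frobenial R q σ)
    (hq0 : q ≠ 0)
    (h : ↥(modularFunctionFieldFullC K (M' * q))) (hh : s34i47c_IsHaupt K (M' * q) q h) :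
    lpt70_Aut π (pk15_chart R ({h} : Set ↥(modularFunctionFieldFullC K (M' * q))))
        (s34i47_coeffEquiv σ (M' * q)) ∧
      lpt70_Aut π (pk15_chart R ({h⁻¹} : Set ↥(modularFunctionFieldFullC K (M' * q))))
        (s34i47_coeffEquiv σ (M' * q)) := by
  have hR : ∀ r : R, ∃ r' : R,
      s34i47_coeffEquiv σ (M' * q) (algebraMap R ↥(modularFunctionFieldFullC K (M' * q)) r) =
        algebraMap R ↥(modularFunctionFieldFullC K (M' * q)) r' :=
    fun r => ff50_g0' (M' * q) σ hσ r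
  have hπ' : ∃ r : R,
      s34i47_coeffEquiv σ (M' * q) (algebraMap R ↥(modularFunctionFieldFullC K (M' * q)) π) =
        algebraMap R ↥(modularFunctionFieldFullC K (M' * q)) (π * r) := by
    obtain ⟨r', hr', hrq⟩ := hσ π
    have hm : r' ∈ IsLocalRing.maximalIdeal R := by
      have h1 : π ^ q ∈ IsLocalRing.maximalIdeal R :=
        Ideal.pow_mem_of_mem _ ((IsLocalRing.mem_maximalIdeal π).mpr hπ.not_isUnit) q
          (Nat.pos_of_ne_zero hq0)
      have := Ideal.add_mem _ hrq h1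
      rwa [sub_add_cancel] at this
    rw [hπ.maximalIdeal_eq, Ideal.mem_span_singleton] at hm
    obtain ⟨r, rfl⟩ := hm
    refine ⟨r, ?_⟩
    rw [IsScalarTower.algebraMap_apply R K ↥(modularFunctionFieldFullC K (M' * q)) π,
      al97V_coeffEquiv_algebraMap, hr',
      ← IsScalarTower.algebraMap_apply R K ↥(modularFunctionFieldFullC K (M' * q))]
  have hR' : ∀ r : R, ∃ r' : R,
      s34i47_coeffEquiv σ.symm (M' * q) (algebraMap R ↥(modularFunctionFieldFullC K (M' * q)) r) =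
        algebraMap R ↥(modularFunctionFieldFullC K (M' * q)) r' := by
    intro r
    obtain ⟨r', hr'⟩ := cb85_frob_symm q hq0 σ hσ r
    refine ⟨r', ?_⟩
    rw [IsScalarTower.algebraMap_apply R K ↥(modularFunctionFieldFullC K (M' * q)) r,
      al97V_coeffEquiv_algebraMap, hr',
      ← IsScalarTower.algebraMap_apply R K ↥(modularFunctionFieldFullC K (M' * q))]
  obtain ⟨hs₁, hs₂, -⟩ := ff50_chart M' q σ hσ h hh
  obtain ⟨hs₁', hs₂', -⟩ := in87i_chart_mem_haupt (R := R) (s34i47_coeffEquiv σ.symm (M' * q)) hR' h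
    (ff50_haupt M' q σ.symm h hh)
  exact ⟨⟨hR, hπ', hs₁, hs₁'⟩, ⟨hR, hπ', hs₂, hs₂'⟩⟩

include hq hM' in
/-- `w` fixes `R` and maps each chart of an admissible Hauptmodul onto itself. -/
theorem cb85_aut_w {π : R} (hunit : ∀ n : ℕ, Nat.Coprime n q → IsUnit (n : R))
    (h : ↥(modularFunctionFieldFullC K (M' * q))) (hh : s34i47c_IsHaupt K (M' * q) q h) :
    lpt70_Aut π (pk15_chart R ({h} : Set ↥(modularFunctionFieldFullC K (M' * q))))
        (bz13_w M' q hq hM') ∧
      lpt70_Aut π (pk15_chart R ({h⁻¹} : Set ↥(modularFunctionFieldFullC K (M' * q))))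
        (bz13_w M' q hq hM') := by
  have hR : ∀ r : R, bz13_w M' q hq hM'
      (algebraMap R ↥(modularFunctionFieldFullC K (M' * q)) r) =
        algebraMap R ↥(modularFunctionFieldFullC K (M' * q)) r := by
    intro r
    rw [IsScalarTower.algebraMap_apply R K ↥(modularFunctionFieldFullC K (M' * q)) r, bz13_w_apply]
    exact (al97L_w (algebraMap K Q̄) M' q hq hM').commutes _
  obtain ⟨hw₁, hw₂, -⟩ := bz13_charts_stable (R := R) M' q hq hM' hunit h hh
  refine ⟨⟨fun r => ⟨r, hR r⟩, ⟨1, by rw [mul_one]; exact hR π⟩, fun x hx => (hw₁ x).mpr hx,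
      fun x hx => (hw₁ _).mp (by rw [RingEquiv.apply_symm_apply]; exact hx)⟩,
    ⟨fun r => ⟨r, hR r⟩, ⟨1, by rw [mul_one]; exact hR π⟩, fun x hx => (hw₂ x).mpr hx,
      fun x hx => (hw₂ _).mp (by rw [RingEquiv.apply_symm_apply]; exact hx)⟩⟩

include hq hM' in
/-- **(LP) for `TH g`** on a chart stable under `ŝ` and `w`, from (LP) for `g` and the two norm
factors being constants times `m`-th powers. -/
theorem cb85_lpTH {π : R} (hπ : Irreducible π) (σ : K ≃+* K) (m : ℕ)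
    (B : Subalgebra R ↥(modularFunctionFieldFullC K (M' * q)))
    (hs : lpt70_Aut π B (s34i47_coeffEquiv σ (M' * q)))
    (hw : lpt70_Aut π B (bz13_w M' q hq hM'))
    (g : ↥(modularFunctionFieldFullC K (M' * q))) (hLP : s34i47_LocPrin π m B g)
    (hN1 : cb85_CP K m (al97L_alpha K M' q (s35i62_normA K M' q
      (al97L_w (algebraMap K Q̄) M' q hq hM' (s34i47_coeffEquiv σ (M' * q) g)))))
    (hN2 : cb85_CP K m (al97L_beta K M' q (s35i62_normA K M' q (s34i47_coeffEquiv σ (M' * q) g)))) :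
    s34i47_LocPrin π m B (cb85_TH M' q hq hM' σ g) := by
  have h1 : s34i47_LocPrin π m B (s34i47_coeffEquiv σ (M' * q) g) :=
    lpt70_locPrin_map hπ m B _ hs g hLP
  have h2 : s34i47_LocPrin π m B (s34i47_coeffEquiv σ (M' * q) (s34i47_coeffEquiv σ (M' * q) g)) :=
    lpt70_locPrin_map hπ m B _ hs _ h1
  have h3 : s34i47_LocPrin π m B
      (al97L_w (algebraMap K Q̄) M' q hq hM' (s34i47_coeffEquiv σ (M' * q) g)) :=
    lpt70_locPrin_map hπ m B _ hw _ h1
  rw [cb85_TH_apply]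
  exact lpt70_locPrin_div π m B _ _
    (lpt70_locPrin_mul π m B _ _ (lpt70_locPrin_mul π m B _ _ h2 (lpt70_locPrin_pow π m B _ h3 _))
      (lpt70_locPrin_pow π m B _ hLP _))
    (lpt70_locPrin_mul π m B _ _ (cb85_locPrin_of_CP hπ m B _ hN1) (cb85_locPrin_of_CP hπ m B _ hN2))

/-- **The norm preserves the two charts** of a Hauptmodul `h = α h'` coming from level `M'`. -/
theorem cb85_norm_chart_canon [Algebra R ↥(modularFunctionFieldFullC K M')]
    [IsScalarTower R K ↥(modularFunctionFieldFullC K M')]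
    (h' : ↥(modularFunctionFieldFullC K M')) (h : ↥(modularFunctionFieldFullC K (M' * q)))
    (hhe : al97L_alpha K M' q h' = h) :
    (∀ x ∈ pk15_chart R ({h} : Set ↥(modularFunctionFieldFullC K (M' * q))),
      al97L_alpha K M' q (s35i62_normA K M' q x) ∈
        pk15_chart R ({h} : Set ↥(modularFunctionFieldFullC K (M' * q)))) ∧
    (∀ x ∈ pk15_chart R ({h⁻¹} : Set ↥(modularFunctionFieldFullC K (M' * q))),
      al97L_alpha K M' q (s35i62_normA K M' q x) ∈
        pk15_chart R ({h⁻¹} : Set ↥(modularFunctionFieldFullC K (M' * q)))) := by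
  have e1 : ((al97L_alpha K M' q).restrictScalars R) '' ({h'} : Set ↥(modularFunctionFieldFullC K M')) =
      {h} := by
    rw [Set.image_singleton]
    show {al97L_alpha K M' q h'} = _
    rw [hhe]
  have e2 : ((al97L_alpha K M' q).restrictScalars R) '' ({h'⁻¹} : Set ↥(modularFunctionFieldFullC K M')) =
      {h⁻¹} := by
    rw [Set.image_singleton]
    show {al97L_alpha K M' q h'⁻¹} = _
    rw [map_inv₀, hhe]
  constructor
  · intro x hx
    have h1 := cb85_norm_chart ((al97L_alpha K M' q).restrictScalars R) {h'} x (by rw [e1]; exact hx)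
    rw [e1] at h1
    exact h1
  · intro x hx
    have h1 := cb85_norm_chart ((al97L_alpha K M' q).restrictScalars R) {h'⁻¹} x (by rw [e2]; exact hx)
    rw [e2] at h1
    exact h1

include hq hM' in
/-- **CORE_TH on the canonical frame** (chain B): if `TH x ≡ 1 mod π W` for every `x ≠ 0`, then
for every `g ≠ 0` with (LP) for `g` and for `TH g` on both charts, `TH g` is a constant times an
`m`-th power.  One-branch points: `sd89c_localDatum` applied to `u = TH g`; nodes: the one-point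
(LP) of `g` and `cb85_node_tr`; then the nodal two-chart lemma `cm85_pkg_main`. -/
theorem cb85_coreTH {π : R} (hπ : Irreducible π)
    (hunit : ∀ n : ℕ, Nat.Coprime n q → IsUnit (n : R)) (hqR : ¬ IsUnit (q : R))
    (σ : K ≃+* K) (hσ : s35i62_Frobenial R q σ)
    (hTH1 : ∀ x : ↥(modularFunctionFieldFullC K (M' * q)), x ≠ 0 →
      (algebraMap R ↥(modularFunctionFieldFullC K (M' * q)) π)⁻¹ * (cb85_TH M' q hq hM' σ x - 1) ∈
        s34i47c_W (K := K) M' q hq hM' hπ)
    (h : ↥(modularFunctionFieldFullC K (M' * q))) (hh : s34i47c_IsHaupt K (M' * q) q h)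
    (hNB₁ : ∀ x ∈ pk15_chart R ({h} : Set ↥(modularFunctionFieldFullC K (M' * q))),
      al97L_alpha K M' q (s35i62_normA K M' q x) ∈
        pk15_chart R ({h} : Set ↥(modularFunctionFieldFullC K (M' * q))))
    (hNB₂ : ∀ x ∈ pk15_chart R ({h⁻¹} : Set ↥(modularFunctionFieldFullC K (M' * q))),
      al97L_alpha K M' q (s35i62_normA K M' q x) ∈
        pk15_chart R ({h⁻¹} : Set ↥(modularFunctionFieldFullC K (M' * q))))
    (m : ℕ) (hm : 0 < m) (hmu : IsUnit (m : R))
    (g : ↥(modularFunctionFieldFullC K (M' * q))) (hg : g ≠ 0)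
    (hLP₁ : s34i47_LocPrin π m
      (pk15_chart R ({h} : Set ↥(modularFunctionFieldFullC K (M' * q)))) g)
    (hLP₂ : s34i47_LocPrin π m
      (pk15_chart R ({h⁻¹} : Set ↥(modularFunctionFieldFullC K (M' * q)))) g)
    (hLPu₁ : s34i47_LocPrin π m
      (pk15_chart R ({h} : Set ↥(modularFunctionFieldFullC K (M' * q)))) (cb85_TH M' q hq hM' σ g))
    (hLPu₂ : s34i47_LocPrin π m
      (pk15_chart R ({h⁻¹} : Set ↥(modularFunctionFieldFullC K (M' * q))))
      (cb85_TH M' q hq hM' σ g)) :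
    cb85_CP K m (cb85_TH M' q hq hM' σ g) := by
  haveI : Algebra.IsAlgebraic K Q̄ := fs85_isAlgebraic K
  letI : Algebra R ↥(modularFunctionFieldFullC K M') :=
    ((algebraMap K ↥(modularFunctionFieldFullC K M')).comp (algebraMap R K)).toAlgebra
  haveI : IsScalarTower R K ↥(modularFunctionFieldFullC K M') :=
    IsScalarTower.of_algebraMap_eq (fun _ => rfl)
  obtain ⟨hW, hC⟩ := fs85_frameSat M' q hq hM' R K π hπ hunit hqR
  have hCh := hC h hh
  have hp0 : algebraMap R ↥(modularFunctionFieldFullC K (M' * q)) π ≠ 0 := by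
    intro h0
    apply hW.2.1
    rw [h0, inv_zero]
    exact Subring.zero_mem _
  obtain ⟨hs₁, hs₂, -⟩ := ff50_chart M' q σ hσ h hh
  obtain ⟨hw₁, hw₂, -⟩ := bz13_charts_stable (R := R) M' q hq hM' hunit h hh
  obtain ⟨hnc₁, hnc₂⟩ := nf96_node_frob (K := K) M' q hq hM' hπ hunit hqR σ hσ h hh
  -- the local datum on one chart
  have hLD : ∀ (B : Subalgebra R ↥(modularFunctionFieldFullC K (M' * q))),
      (B = pk15_chart R ({h} : Set ↥(modularFunctionFieldFullC K (M' * q))) ∨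
        B = pk15_chart R ({h⁻¹} : Set ↥(modularFunctionFieldFullC K (M' * q)))) →
      (∀ x ∈ B, s34i47_coeffEquiv σ (M' * q) x ∈ B) →
      (∀ x ∈ B, al97L_w (algebraMap K Q̄) M' q hq hM' x ∈ B) →
      (∀ x ∈ B, al97L_alpha K M' q (s35i62_normA K M' q x) ∈ B) →
      nf96_NodeCong π B (cm85_Vinf (K := K) (M' * q) hπ).toSubring
        (s34i47c_V0 (K := K) M' q hq hM' hπ).toSubring
        (s34i47_coeffEquiv σ (M' * q)) (al97L_w (algebraMap K Q̄) M' q hq hM') q →
      s34i47_LocPrin π m B g → s34i47_LocPrin π m B (cb85_TH M' q hq hM' σ g) →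
      s34i47_LocalDatum π m (s34i47c_W (K := K) M' q hq hM' hπ) B (cb85_TH M' q hq hM' σ g) := by
    intro B hB hsB hwB hNB hnc hLPg hLPu
    obtain ⟨hN, hBW, hsatW, hFrac, hKr, -, -⟩ :=
      sd89c_chart_facts M' q hq hM' hπ hunit hqR h hh B hB
    refine sd89c_localDatum M' q hq hM' hπ hunit hqR h hh B hB m hm _ (hTH1 g hg) hLPu ?_
    intro n hn hπn hn₁ hn₂
    refine nt85_datum π m (s34i47c_W (K := K) M' q hq hM' hπ) B hp0 (hW.1 π) hW.2.2.2 hBW hsatW
      n hn hπn hKr (cb85_TH M' q hq hM' σ) hTH1 ?_ g hg (hLPg n hn hπn)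
    intro θ hθ hθ'
    exact cb85_node_tr M' q hq hM' hπ hqR σ hσ B
      (fun x hx => ((s34i47c_mem_W M' q hq hM' hπ x).mp (hBW x hx)).1)
      (fun x hx => ((s34i47c_mem_W M' q hq hM' hπ x).mp (hBW x hx)).2)
      hsB hwB hNB hnc n hn.isPrime hn₁ hn₂ θ hθ hθ'
  have hLD₁ := hLD _ (Or.inl rfl) hs₁ (fun x hx => (hw₁ x).mpr hx) hNB₁ hnc₁ hLP₁ hLPu₁
  have hLD₂ := hLD _ (Or.inr rfl) hs₂ (fun x hx => (hw₂ x).mpr hx) hNB₂ hnc₂ hLP₂ hLPu₂
  obtain ⟨f₀, c, hf₀, hfc⟩ := cm85_pkg_main R K ↥(modularFunctionFieldFullC K (M' * q)) π hπ m hm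
    hmu (cap87_algClosed_in (modularFunctionFieldFullC K (M' * q)))
    (s34i47c_W (K := K) M' q hq hM' hπ) h hW hCh _ (hTH1 g hg) hLD₁ hLD₂
  refine ⟨f₀, algebraMap R K c, hf₀, ?_, ?_⟩
  · intro h0
    have h1 : f₀ ^ m * cb85_TH M' q hq hM' σ g = 0 := by
      rw [hfc, IsScalarTower.algebraMap_apply R K ↥(modularFunctionFieldFullC K (M' * q)), h0,
        map_zero]
    rcases mul_eq_zero.mp h1 with h2 | h2
    · exact hf₀ (pow_eq_zero_iff (Nat.pos_iff_ne_zero.mp hm) |>.mp h2)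
    · exact (map_ne_zero (cb85_TH M' q hq hM' σ)).mpr hg h2
  · rw [hfc, IsScalarTower.algebraMap_apply R K ↥(modularFunctionFieldFullC K (M' * q))]

end cb85_core

/-- **B2 on the canonical frame** (the ONE open input of chain B; rows B1/B2 of the registry):
`TH x ≡ 1 mod π W` for every `x ≠ 0`, in the binder block of `s35i62_Core`. -/
def cb85_THOne (M' q : ℕ) [NeZero M'] [NeZero q] (hq : q.Prime) (hM' : ¬ q ∣ M') : Prop :=
  ∀ (R K : Type) [CommRing R] [IsDomain R] [IsDiscreteValuationRing R] [Field K] [NumberField K]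
    [Algebra K Q̄] [Algebra R K] [IsFractionRing R K]
    [Algebra R ↥(modularFunctionFieldFullC K (M' * q))]
    [IsScalarTower R K ↥(modularFunctionFieldFullC K (M' * q))] (π : R) (hπ : Irreducible π),
    (∀ n : ℕ, Nat.Coprime n q → IsUnit (n : R)) → ¬ IsUnit (q : R) →
    (∃ ζ : K, IsPrimitiveRoot ζ q) →
    ∀ σ : K ≃+* K, s35i62_Frobenial R q σ →
    ∀ x : ↥(modularFunctionFieldFullC K (M' * q)), x ≠ 0 →
      (algebraMap R ↥(modularFunctionFieldFullC K (M' * q)) π)⁻¹ *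
        (s34i47_coeffEquiv σ (M' * q) (s34i47_coeffEquiv σ (M' * q) x) *
            (al97L_w (algebraMap K Q̄) M' q hq hM' (s34i47_coeffEquiv σ (M' * q) x)) ^ (q + 1) *
            x ^ q /
          (al97L_alpha K M' q (s35i62_normA K M' q
              (al97L_w (algebraMap K Q̄) M' q hq hM' (s34i47_coeffEquiv σ (M' * q) x))) *
            al97L_beta K M' q (s35i62_normA K M' q (s34i47_coeffEquiv σ (M' * q) x))) - 1) ∈
        s34i47c_W (K := K) M' q hq hM' hπ

/-- **CORE35 by chain B**: (B2) ⟹ `s35i62_Core M' q m` (for `p₀ ∣ M'`, `p₀ ∈ {2, 3}`,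
`p₀ ≠ q`, `m` prime to `q`). -/
theorem cb85_core (M' q m p₀ : ℕ) [NeZero M'] [NeZero q] (hq : q.Prime) (hM' : ¬ q ∣ M')
    (hp₀ : p₀ = 2 ∨ p₀ = 3) (hp₀q : p₀ ≠ q) (hp₀M : p₀ ∣ M') (hm : 0 < m) (hmq : Nat.Coprime m q)
    (hB2 : cb85_THOne M' q hq hM') : s35i62_Core M' q m := by
  intro R K _ _ _ _ _ _ _ _ _ _ π hπ hunit hqR hζ σ hσ f a b ca cb hf ha hb hca hcb hord hNa hNb
    hrat
  haveI : Algebra.IsAlgebraic K Q̄ := fs85_isAlgebraic K
  letI : Algebra R ↥(modularFunctionFieldFullC K M') :=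
    ((algebraMap K ↥(modularFunctionFieldFullC K M')).comp (algebraMap R K)).toAlgebra
  haveI : IsScalarTower R K ↥(modularFunctionFieldFullC K M') :=
    IsScalarTower.of_algebraMap_eq (fun _ => rfl)
  have hTH1 : ∀ x : ↥(modularFunctionFieldFullC K (M' * q)), x ≠ 0 →
      (algebraMap R ↥(modularFunctionFieldFullC K (M' * q)) π)⁻¹ * (cb85_TH M' q hq hM' σ x - 1) ∈
        s34i47c_W (K := K) M' q hq hM' hπ :=
    fun x hx => hB2 R K π hπ hunit hqR hζ σ hσ x hx
  -- the Hauptmodul and its level-`M'` model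
  obtain ⟨h, h', hh, hhe⟩ : ∃ (h : ↥(modularFunctionFieldFullC K (M' * q)))
      (h' : ↥(modularFunctionFieldFullC K M')), s34i47c_IsHaupt K (M' * q) q h ∧
        al97L_alpha K M' q h' = h := by
    rcases hp₀ with rfl | rfl
    · exact ⟨pk85_h2 K (M' * q) (hp₀M.mul_right q), pk85_h2 K M' hp₀M,
        Or.inl ⟨Ne.symm hp₀q, hp₀M.mul_right q, rfl⟩,
        Subtype.ext (by rw [al97L_alpha_coe, pk85_h2_coe, pk85_h2_coe])⟩
    · exact ⟨pk85_h3 K (M' * q) (hp₀M.mul_right q), pk85_h3 K M' hp₀M,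
        Or.inr ⟨Ne.symm hp₀q, hp₀M.mul_right q, rfl⟩,
        Subtype.ext (by rw [al97L_alpha_coe, pk85_h3_coe, pk85_h3_coe])⟩
  obtain ⟨hNB₁, hNB₂⟩ := cb85_norm_chart_canon (R := R) (K := K) M' q h' h hhe
  obtain ⟨hsA₁, hsA₂⟩ := cb85_aut_s (R := R) M' q hπ σ hσ hq.ne_zero h hh
  obtain ⟨hwA₁, hwA₂⟩ := cb85_aut_w (R := R) (π := π) M' q hq hM' hunit h hh
  -- (LP) for `f` on both charts
  obtain ⟨hLS₁, hLS₂⟩ := fl71_pkg_frameLS M' q hq hM' R K π hπ hunit hqR h hh
  obtain ⟨hN₁, -, -, hFrac₁, -, -, -⟩ :=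
    sd89c_chart_facts M' q hq hM' hπ hunit hqR h hh _ (Or.inl rfl)
  obtain ⟨hN₂, -, -, hFrac₂, -, -, -⟩ :=
    sd89c_chart_facts M' q hq hM' hπ hunit hqR h hh _ (Or.inr rfl)
  have hOrd : s34i47_Ord π m f := ca57_ord (K := K) hπ m f hf hord
  have hRat : s34i47_Rat K π f := ca57_rat (K := K) hπ f (fun P => hrat f (Or.inl rfl) P)
  have hFinS : s34i47_Fin π f :=
    ca57_fin (K := K) hπ f (fs29_Pkg_Fin (M' * q) inferInstance K f hf)
  have hUZ₁ := uz37_Pkg_UZ R K ↥(modularFunctionFieldFullC K (M' * q)) π hπ _ hN₁ hFrac₁ hLS₁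
  have hUZ₂ := uz37_Pkg_UZ R K ↥(modularFunctionFieldFullC K (M' * q)) π hπ _ hN₂ hFrac₂ hLS₂
  have hLPf₁ := lp9_Pkg_LP R K ↥(modularFunctionFieldFullC K (M' * q)) π hπ _ m hm f hf hUZ₁ hOrd
    hRat hFinS
  have hLPf₂ := lp9_Pkg_LP R K ↥(modularFunctionFieldFullC K (M' * q)) π hπ _ m hm f hf hUZ₂ hOrd
    hRat hFinS
  -- constants
  have hsc : ∀ c : K, ∃ c' : K, s34i47_coeffEquiv σ (M' * q)
      (algebraMap K ↥(modularFunctionFieldFullC K (M' * q)) c) =
        algebraMap K ↥(modularFunctionFieldFullC K (M' * q)) c' :=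
    fun c => ⟨σ c, al97V_coeffEquiv_algebraMap σ (M' * q) c⟩
  have hsc' : ∀ c : K, ∃ c' : K, ((s34i47_coeffEquiv σ M' :
      ↥(modularFunctionFieldFullC K M') ≃+* ↥(modularFunctionFieldFullC K M')) :
      ↥(modularFunctionFieldFullC K M') →+* ↥(modularFunctionFieldFullC K M'))
      (algebraMap K ↥(modularFunctionFieldFullC K M') c) =
        algebraMap K ↥(modularFunctionFieldFullC K M') c' :=
    fun c => ⟨σ c, al97V_coeffEquiv_algebraMap σ M' c⟩
  have hαc : ∀ c : K, ∃ c' : K, ((al97L_alpha K M' q : ↥(modularFunctionFieldFullC K M') →ₐ[K]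
      ↥(modularFunctionFieldFullC K (M' * q))) : ↥(modularFunctionFieldFullC K M') →+*
      ↥(modularFunctionFieldFullC K (M' * q))) (algebraMap K ↥(modularFunctionFieldFullC K M') c) =
        algebraMap K ↥(modularFunctionFieldFullC K (M' * q)) c' :=
    fun c => ⟨c, (al97L_alpha K M' q).commutes c⟩
  have hβc : ∀ c : K, ∃ c' : K, ((al97L_beta K M' q : ↥(modularFunctionFieldFullC K M') →ₐ[K]
      ↥(modularFunctionFieldFullC K (M' * q))) : ↥(modularFunctionFieldFullC K M') →+*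
      ↥(modularFunctionFieldFullC K (M' * q))) (algebraMap K ↥(modularFunctionFieldFullC K M') c) =
        algebraMap K ↥(modularFunctionFieldFullC K (M' * q)) c' :=
    fun c => ⟨c, (al97L_beta K M' q).commutes c⟩
  -- the class of admissible functions
  let H : ↥(modularFunctionFieldFullC K (M' * q)) → Prop := fun g =>
    g ≠ 0 ∧
    s34i47_LocPrin π m (pk15_chart R ({h} : Set ↥(modularFunctionFieldFullC K (M' * q)))) g ∧
    s34i47_LocPrin π m (pk15_chart R ({h⁻¹} : Set ↥(modularFunctionFieldFullC K (M' * q)))) g ∧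
    cb85_CP K m (s35i62_normA K M' q g) ∧
    cb85_CP K m (s35i62_normA K M' q (al97L_w (algebraMap K Q̄) M' q hq hM' g))
  have hHf : H f := by
    refine ⟨hf, hLPf₁, hLPf₂, ?_, ?_⟩
    · rw [hNa]
      exact cb85_CP_const_mul_powm m ca hca a ha
    · rw [← ne68_N1 M' q hq hM' f, hNb]
      exact cb85_CP_const_mul_powm m cb hcb b hb
  have hHs : ∀ g, H g → H (s34i47_coeffEquiv σ (M' * q) g) := by
    rintro g ⟨hg, h1, h2, h3, h4⟩
    refine ⟨(map_ne_zero _).mpr hg, lpt70_locPrin_map hπ m _ _ hsA₁ g h1,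
      lpt70_locPrin_map hπ m _ _ hsA₂ g h2, ?_, ?_⟩
    · rw [ne68_N2]
      exact cb85_CP_map _ hsc' h3
    · rw [ng97_w_sigma M' q hq hM' σ g, ne68_N2]
      exact cb85_CP_map _ hsc' h4
  have hHw : ∀ g, H g → H (al97L_w (algebraMap K Q̄) M' q hq hM' g) := by
    rintro g ⟨hg, h1, h2, h3, h4⟩
    refine ⟨(map_ne_zero _).mpr hg, lpt70_locPrin_map hπ m _ _ hwA₁ g h1,
      lpt70_locPrin_map hπ m _ _ hwA₂ g h2, h4, ?_⟩
    rw [al97L_w_w]
    exact h3
  -- `Φ(g)` is a constant times an `m`-th power for every admissible `g`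
  have hΦ : ∀ g, H g → cb85_CP K m (cb85_Phi (s34i47_coeffEquiv σ (M' * q)) (bz13_w M' q hq hM') q g) := by
    rintro g ⟨hg, h1, h2, h3, h4⟩
    have hA : cb85_CP K m (al97L_alpha K M' q (s35i62_normA K M' q
        (al97L_w (algebraMap K Q̄) M' q hq hM' (s34i47_coeffEquiv σ (M' * q) g)))) := by
      rw [ng97_w_sigma M' q hq hM' σ g, ne68_N2]
      exact cb85_CP_map _ hαc (cb85_CP_map _ hsc' h4)
    have hB : cb85_CP K m (al97L_beta K M' q (s35i62_normA K M' q
        (s34i47_coeffEquiv σ (M' * q) g))) := by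
      rw [ne68_N2]
      exact cb85_CP_map _ hβc (cb85_CP_map _ hsc' h3)
    have hu₁ := cb85_lpTH M' q hq hM' hπ σ m _ hsA₁ hwA₁ g h1 hA hB
    have hu₂ := cb85_lpTH M' q hq hM' hπ σ m _ hsA₂ hwA₂ g h2 hA hB
    have hT := cb85_coreTH M' q hq hM' hπ hunit hqR σ hσ hTH1 h hh hNB₁ hNB₂ m hm (hunit m hmq)
      g hg h1 h2 hu₁ hu₂
    have e : cb85_Phi (s34i47_coeffEquiv σ (M' * q)) (bz13_w M' q hq hM') q g =
        cb85_TH M' q hq hM' σ g *
          (al97L_alpha K M' q (s35i62_normA K M' q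
              (al97L_w (algebraMap K Q̄) M' q hq hM' (s34i47_coeffEquiv σ (M' * q) g))) *
            al97L_beta K M' q (s35i62_normA K M' q (s34i47_coeffEquiv σ (M' * q) g))) := by
      rw [cb85_TH_apply, div_mul_cancel₀ _ (mul_ne_zero (cb85_CP_ne_zero hA) (cb85_CP_ne_zero hB))]
      rfl
    rw [e]
    exact cb85_CP_mul hT (cb85_CP_mul hA hB)
  -- the final algebra
  have hfin := cb85_alg_main (K := K) (s34i47_coeffEquiv σ (M' * q)) (bz13_w M' q hq hM') q m
    (fun x => al97L_w_w (algebraMap K Q̄) M' q hq hM' x)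
    (fun x => (ng97_w_sigma M' q hq hM' σ x).symm) hsc f hf (hΦ f hHf)
    (hΦ _ (hHs _ (hHs f hHf))) (hΦ _ (hHw _ (hHs f hHf)))
  exact hfin

/-- **P-CORE by chain B**: (B2) at every level ⟹ `s35i62_Pkg_Core`. -/
theorem cb85_pkg_core
    (hB2 : ∀ (M' q : ℕ) [NeZero M'] [NeZero q] (hq : q.Prime) (hM' : ¬ q ∣ M'),
      cb85_THOne M' q hq hM') : s35i62_Pkg_Core :=
  fun M' q m p₀ _ _ hq hM' hp₀ hp₀q hp₀M hm hmq =>
    cb85_core M' q m p₀ hq hM' hp₀ hp₀q hp₀M hm hmq (hB2 M' q hq hM')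


end Fermat.Agent.S35
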