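import Mathlib
import Fermat.Agent.S34.Iface47
import Fermat.Agent.S34.LocalDatum32

/-!
# S35 lab, chain B (helper85): the local datum at a point fixed by the operator (nodes)

Chain B (registry row 552) proves the Eichler-Shimura relation at `q ∥ M` with the operator
`TH x = ŝ² x · (w ŝ x)^(q+1) · x^q / (α N_α(w ŝ x) · w α N_α(ŝ x))`, which is `≡ 1 mod π W` on
EVERY nonzero `x`.  At a node `n` of a chart `B` one has `w ŝ n = n = ŝ² n` (`NodeFrob99`), so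
the ORDINARY one-point (LP) of `f` at `n` suffices:

* `nt85_reg_norm`, `nt85_reg_pow`: regularity at `n` after inverting `p` (`ld32_Reg`, i.e.
  membership in `B_n[1/p]`) is preserved by a norm-like multiplicative map and by powers;
* `nt85_transport`: the operator maps `θ` with `θ, θ⁻¹ ∈ B_n[1/p]` into `B_n[1/p]`;
* `nt85_norm_mem_iff`: a norm with `N b ≡ b · ŝ (w b)` modulo a branch through `n` satisfies
  `N b ∈ n ↔ b ∈ n` at a node (no going-up, no conjugate places);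
* `nt85_datum`: (LP) of `f` at `n` + Krull + saturation + `TH ≡ 1` + transport give the local
  datum of `ntc47_main` for `TH f` at `n`, with `φ = (TH c)⁻¹`.

Everything is abstract (Mathlib + `Iface47` + `LocalDatum32`).
-/

set_option autoImplicit false

namespace Fermat.Agent.S35

open Fermat.Agent.S34

section nt85

variable {R F : Type*} [CommRing R] [Field F] [Algebra R F]

/-- A multiplicative map `N` (a norm) which preserves the chart `B`, the complement of the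
prime `n`, and `p` up to a power, preserves regularity at `n` after inverting `p`. -/
theorem nt85_reg_norm (B : Subalgebra R F) (n : Ideal B) (p : F) (N : F →*₀ F)
    (hNB : ∀ x ∈ B, N x ∈ B)
    (hNn : ∀ s : B, s ∉ n → (⟨N s, hNB s s.2⟩ : B) ∉ n)
    (hNp : ∃ j : ℕ, ∃ ε ∈ B, p ^ j = ε * N p) {x : F} (hx : ld32_Reg B n p x) :
    ld32_Reg B n p (N x) := by
  obtain ⟨s, hs, k, hk⟩ := hx
  obtain ⟨j, ε, hε, hp⟩ := hNp
  refine ⟨⟨N s, hNB s s.2⟩, hNn s hs, j * k, ?_⟩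
  have h1 : N (p ^ k * (s : F) * x) ∈ B := hNB _ hk
  have h2 : p ^ (j * k) * N (s : F) * N x = ε ^ k * N (p ^ k * (s : F) * x) := by
    rw [map_mul, map_mul, map_pow, pow_mul, hp]; ring
  show p ^ (j * k) * N (s : F) * N x ∈ B
  rw [h2]; exact B.mul_mem (B.pow_mem hε k) h1

/-- Regularity is stable under powers. -/
theorem nt85_reg_pow (B : Subalgebra R F) (n : Ideal B) [n.IsPrime] (p : F) {x : F}
    (hx : ld32_Reg B n p x) (k : ℕ) : ld32_Reg B n p (x ^ k) := by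
  induction k with
  | zero => rw [pow_zero]; exact ld32_Reg_of_mem B n p B.one_mem
  | succ k ih => rw [pow_succ]; exact ld32_Reg_mul B n p ih hx

/-- **Transport at a point fixed by the operator** (chain B, the node case): the operator
`θ ↦ σ₂ θ · (τ θ)^(q+1) · θ^q / (N₁ (τ θ) · N₂ (τ θ))` maps elements `θ` with `θ, θ⁻¹ ∈ B_n[1/p]`
to elements of `B_n[1/p]`, as soon as `σ₂`, `τ` (automorphisms) and `N₁`, `N₂` (norms) preserve
the chart `B`, the complement of `n` and `p` up to units of `B`. -/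
theorem nt85_transport (B : Subalgebra R F) (n : Ideal B) [n.IsPrime] (p : F)
    (σ₂ τ : F ≃+* F) (N₁ N₂ : F →*₀ F) (q : ℕ)
    (hσB : ∀ x ∈ B, σ₂ x ∈ B)
    (hσn : ∀ s : B, s ∉ n → (⟨σ₂ s, hσB s s.2⟩ : B) ∉ n)
    (hσp : ∃ ε ∈ B, p = ε * σ₂ p)
    (hτB : ∀ x ∈ B, τ x ∈ B)
    (hτn : ∀ s : B, s ∉ n → (⟨τ s, hτB s s.2⟩ : B) ∉ n)
    (hτp : ∃ ε ∈ B, p = ε * τ p)
    (hN₁B : ∀ x ∈ B, N₁ x ∈ B)
    (hN₁n : ∀ s : B, s ∉ n → (⟨N₁ s, hN₁B s s.2⟩ : B) ∉ n)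
    (hN₁p : ∃ j : ℕ, ∃ ε ∈ B, p ^ j = ε * N₁ p)
    (hN₂B : ∀ x ∈ B, N₂ x ∈ B)
    (hN₂n : ∀ s : B, s ∉ n → (⟨N₂ s, hN₂B s s.2⟩ : B) ∉ n)
    (hN₂p : ∃ j : ℕ, ∃ ε ∈ B, p ^ j = ε * N₂ p)
    (θ : F) (hθ : ld32_Reg B n p θ) (hθ' : ld32_Reg B n p θ⁻¹) :
    ld32_Reg B n p (σ₂ θ * τ θ ^ (q + 1) * θ ^ q / (N₁ (τ θ) * N₂ (τ θ))) := by
  have h1 : ld32_Reg B n p (σ₂ θ) := ld32_Reg_map B n p σ₂ hσB hσn hσp hθ
  have h2 : ld32_Reg B n p (τ θ) := ld32_Reg_map B n p τ hτB hτn hτp hθ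
  have h2' : ld32_Reg B n p (τ θ⁻¹) := ld32_Reg_map B n p τ hτB hτn hτp hθ'
  have h3 : ld32_Reg B n p (N₁ (τ θ⁻¹)) := nt85_reg_norm B n p N₁ hN₁B hN₁n hN₁p h2'
  have h4 : ld32_Reg B n p (N₂ (τ θ⁻¹)) := nt85_reg_norm B n p N₂ hN₂B hN₂n hN₂p h2'
  have e : σ₂ θ * τ θ ^ (q + 1) * θ ^ q / (N₁ (τ θ) * N₂ (τ θ))
      = σ₂ θ * τ θ ^ (q + 1) * θ ^ q * (N₁ (τ θ⁻¹) * N₂ (τ θ⁻¹)) := by
    rw [map_inv₀, map_inv₀, map_inv₀, div_eq_mul_inv, mul_inv]
  rw [e]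
  exact ld32_Reg_mul B n p
    (ld32_Reg_mul B n p (ld32_Reg_mul B n p h1 (nt85_reg_pow B n p h2 (q + 1)))
      (nt85_reg_pow B n p hθ q))
    (ld32_Reg_mul B n p h3 h4)

/-- **A norm is a unit at a node as soon as its argument is**: if `N b ≡ b · s (w b)` modulo a
branch ideal `P ≤ n` (the norm congruence) and `s ∘ w` preserves `n` in the sense
`s (w b) ∈ n ↔ b ∈ n` (`nf99_ws_iff` at a two-branch point), then `N b ∈ n ↔ b ∈ n`. -/
theorem nt85_norm_mem_iff {B : Type*} [CommRing B] (n : Ideal B) [hn : n.IsPrime] (P : Ideal B)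
    (hP : P ≤ n) (N : B → B) (s w : B →+* B)
    (hcong : ∀ b : B, N b - b * s (w b) ∈ P)
    (hws : ∀ b : B, s (w b) ∈ n ↔ b ∈ n) (b : B) : N b ∈ n ↔ b ∈ n := by
  constructor
  · intro h
    have h1 : b * s (w b) ∈ n := by
      have h2 : b * s (w b) = N b - (N b - b * s (w b)) := by ring
      rw [h2]; exact n.sub_mem h (hP (hcong b))
    rcases hn.mem_or_mem h1 with h3 | h3
    · exact h3
    · exact (hws b).mp h3
  · intro h
    have h2 : N b = (N b - b * s (w b)) + b * s (w b) := by ring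
    rw [h2]; exact n.add_mem (hP (hcong b)) (n.mul_mem_right _ h)


/-- **Local datum from an operator which is `≡ 1 mod π W` on every nonzero element and
transports regularity at `n`** (the S34 `δ`-trick; chain B at a node, where the one-point (LP)
of `f` itself suffices). -/
theorem nt85_datum (π : R) (m : ℕ) (W : Subring F) (B : Subalgebra R F)
    (hp0 : algebraMap R F π ≠ 0) (hpW : algebraMap R F π ∈ W)
    (hWunit : ∀ x ∈ W, (1 + algebraMap R F π * x)⁻¹ ∈ W)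
    (hBW : ∀ x ∈ B, x ∈ W)
    (hsat : ∀ x ∈ B, (algebraMap R F π)⁻¹ * x ∈ W → (algebraMap R F π)⁻¹ * x ∈ B)
    (n : Ideal B) (hn : n.IsMaximal) (hπn : algebraMap R B π ∈ n)
    (hKr : s34i47_Krull π B)
    (TH : F →*₀ F)
    (hTH : ∀ c : F, c ≠ 0 → (algebraMap R F π)⁻¹ * (TH c - 1) ∈ W)
    (htr : ∀ θ : F, ld32_Reg B n (algebraMap R F π) θ → ld32_Reg B n (algebraMap R F π) θ⁻¹ →
      ld32_Reg B n (algebraMap R F π) (TH θ))
    (f : F) (hf : f ≠ 0)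
    (hLP : ∃ c : F, c ≠ 0 ∧ ∀ O : ValuationSubring F, s34i47_IsHoriz π O → s34i47_Through B n O →
      f / c ^ m ∈ O ∧ c ^ m / f ∈ O) :
    ∃ φ : F, (algebraMap R F π)⁻¹ * (φ - 1) ∈ W ∧
      ∃ s : B, s ∉ n ∧ (s : F) * (φ ^ m * TH f) ∈ B := by
  obtain ⟨c, hc0, hc⟩ := hLP
  have hTc0 : TH c ≠ 0 := (map_ne_zero TH).mpr hc0
  refine ⟨(TH c)⁻¹, ld32_cong_inv W _ hp0 hWunit (hTH c hc0), ?_⟩
  obtain ⟨θ, hθ⟩ : ∃ θ : F, θ = f / c ^ m := ⟨_, rfl⟩
  have hθ0 : θ ≠ 0 := by rw [hθ]; exact div_ne_zero hf (pow_ne_zero m hc0)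
  have hkey : ((TH c)⁻¹) ^ m * TH f = TH θ := by
    have hf' : f = θ * c ^ m := by rw [hθ]; field_simp
    conv_lhs => rw [hf']
    rw [map_mul, map_pow, inv_pow, mul_left_comm, inv_mul_cancel₀ (pow_ne_zero m hTc0), mul_one]
  rw [hkey]
  have hΘW : TH θ ∈ W := ld32_mem_of_cong W _ hp0 hpW (hTH θ hθ0)
  have hreg : ld32_Reg B n (algebraMap R F π) θ := by
    obtain ⟨s, hs, k, hk⟩ := hKr n hn hπn θ (fun O hO hOn => by rw [hθ]; exact (hc O hO hOn).1)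
    exact ⟨s, hs, k, by rw [mul_assoc]; exact hk⟩
  have hreg' : ld32_Reg B n (algebraMap R F π) θ⁻¹ := by
    obtain ⟨s, hs, k, hk⟩ := hKr n hn hπn θ⁻¹ (fun O hO hOn => by
      have : θ⁻¹ = c ^ m / f := by rw [hθ, inv_div]
      rw [this]; exact (hc O hO hOn).2)
    exact ⟨s, hs, k, by rw [mul_assoc]; exact hk⟩
  obtain ⟨s, hs, k, hk⟩ := htr θ hreg hreg'
  exact ⟨s, hs, ld32_sat_pow W _ hp0 hpW B hsat k _ (W.mul_mem (hBW _ s.2) hΘW)
    (by rw [← mul_assoc]; exact hk)⟩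

end nt85

end Fermat.Agent.S35
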