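import Fermat.Agent.S35.Iface62
import Fermat.Agent.S35.FrobFrame50
import Fermat.Agent.S35.NormCong97

/-!
# S35 lab, package P-NORM, conjuncts (N1) and (N2) in the LITERAL shapes of `Iface62` (helper68)

`s35i62_NormProps` (Iface62 §2) is `(N1) ∧ (N2) ∧ (N3)`.  This file proves the first two
conjuncts in exactly the interface vocabulary (`s35i62_normA`, `s35i62_normB`,
`s34i47_coeffEquiv`, `al97L_w (algebraMap K ℚ̄)`), with no hypothesis on `R`, `π`, `q`:

* `ne68_N2` : **(N2)** `N_α (τ̂ y) = τ̂ (N_α y)` for every ring automorphism `τ` of `K`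
  (the norm commutes with the coefficientwise action; `Algebra.norm_eq_of_equiv_equiv`);
* `ne68_N2_beta` : the same for `N_β`;
* `ne68_N1` : **(N1)** `N_β y = N_α (w y)` (restatement of helper97's `ng97_norm_beta`);
* `ne68_normProps_of_N3` : `s35i62_NormProps M' q hq hM'` from (N3) alone (in its literal shape);
* `ne68_pkg_norm_of_N3` : `s35i62_Pkg_Norm` from (N3) alone.
-/

set_option autoImplicit false
set_option linter.unusedSectionVars false
set_option linter.unusedVariables false
set_option linter.style.longLine false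

open ModularCurve AlgebraicCurve

namespace Fermat.Agent.S35

open Fermat.Agent.S18 Fermat.Agent.S34 Fermat.Agent.S30 Fermat.Agent.S16

local notation "Q̄" => AlgebraicClosure ℚ

section ne68

variable {K : Type} [Field K] (M' q : ℕ) [NeZero M'] [NeZero q]

/-- **(N2)**: the norm along `α` commutes with the coefficientwise action of every ring
automorphism of the constant field. -/
theorem ne68_N2 (τ : K ≃+* K) (y : ↥(modularFunctionFieldFullC K (M' * q))) :
    s35i62_normA K M' q (s34i47_coeffEquiv τ (M' * q) y) =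
      s34i47_coeffEquiv τ M' (s35i62_normA K M' q y) := by
  have he : (@algebraMap ↥(modularFunctionFieldFullC K M') ↥(modularFunctionFieldFullC K (M' * q))
      _ _ (algebraAlong (al97L_alpha K M' q))).comp
        ((s34i47_coeffEquiv τ M' :
          ↥(modularFunctionFieldFullC K M') ≃+* ↥(modularFunctionFieldFullC K M')) :
          ↥(modularFunctionFieldFullC K M') →+* ↥(modularFunctionFieldFullC K M')) =
      ((s34i47_coeffEquiv τ (M' * q) :
        ↥(modularFunctionFieldFullC K (M' * q)) ≃+* ↥(modularFunctionFieldFullC K (M' * q))) :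
        ↥(modularFunctionFieldFullC K (M' * q)) →+* ↥(modularFunctionFieldFullC K (M' * q))).comp
      (@algebraMap ↥(modularFunctionFieldFullC K M') ↥(modularFunctionFieldFullC K (M' * q))
      _ _ (algebraAlong (al97L_alpha K M' q))) := by
    ext1 a
    exact (ff50_alpha_comm M' q τ a).symm
  have h := @Algebra.norm_eq_of_equiv_equiv ↥(modularFunctionFieldFullC K M')
    ↥(modularFunctionFieldFullC K (M' * q)) ↥(modularFunctionFieldFullC K M')
    ↥(modularFunctionFieldFullC K (M' * q)) _ _ _ _ (algebraAlong (al97L_alpha K M' q))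
    (algebraAlong (al97L_alpha K M' q)) (s34i47_coeffEquiv τ M')
    (s34i47_coeffEquiv τ (M' * q)) he y
  show (letI := algebraAlong (al97L_alpha K M' q);
      Algebra.norm ↥(modularFunctionFieldFullC K M') (s34i47_coeffEquiv τ (M' * q) y)) =
    s34i47_coeffEquiv τ M' (letI := algebraAlong (al97L_alpha K M' q);
      Algebra.norm ↥(modularFunctionFieldFullC K M') y)
  rw [h, RingEquiv.apply_symm_apply]

/-- The norm along `β` commutes with the coefficientwise action as well. -/
theorem ne68_N2_beta (τ : K ≃+* K) (y : ↥(modularFunctionFieldFullC K (M' * q))) :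
    s35i62_normB K M' q (s34i47_coeffEquiv τ (M' * q) y) =
      s34i47_coeffEquiv τ M' (s35i62_normB K M' q y) := by
  have he : (@algebraMap ↥(modularFunctionFieldFullC K M') ↥(modularFunctionFieldFullC K (M' * q))
      _ _ (algebraAlong (al97L_beta K M' q))).comp
        ((s34i47_coeffEquiv τ M' :
          ↥(modularFunctionFieldFullC K M') ≃+* ↥(modularFunctionFieldFullC K M')) :
          ↥(modularFunctionFieldFullC K M') →+* ↥(modularFunctionFieldFullC K M')) =
      ((s34i47_coeffEquiv τ (M' * q) :
        ↥(modularFunctionFieldFullC K (M' * q)) ≃+* ↥(modularFunctionFieldFullC K (M' * q))) :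
        ↥(modularFunctionFieldFullC K (M' * q)) →+* ↥(modularFunctionFieldFullC K (M' * q))).comp
      (@algebraMap ↥(modularFunctionFieldFullC K M') ↥(modularFunctionFieldFullC K (M' * q))
      _ _ (algebraAlong (al97L_beta K M' q))) := by
    ext1 a
    exact (ff50_beta_comm M' q τ a).symm
  have h := @Algebra.norm_eq_of_equiv_equiv ↥(modularFunctionFieldFullC K M')
    ↥(modularFunctionFieldFullC K (M' * q)) ↥(modularFunctionFieldFullC K M')
    ↥(modularFunctionFieldFullC K (M' * q)) _ _ _ _ (algebraAlong (al97L_beta K M' q))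
    (algebraAlong (al97L_beta K M' q)) (s34i47_coeffEquiv τ M')
    (s34i47_coeffEquiv τ (M' * q)) he y
  show (letI := algebraAlong (al97L_beta K M' q);
      Algebra.norm ↥(modularFunctionFieldFullC K M') (s34i47_coeffEquiv τ (M' * q) y)) =
    s34i47_coeffEquiv τ M' (letI := algebraAlong (al97L_beta K M' q);
      Algebra.norm ↥(modularFunctionFieldFullC K M') y)
  rw [h, RingEquiv.apply_symm_apply]

variable [Algebra K Q̄] (hq : q.Prime) (hM' : ¬ q ∣ M')

/-- **(N1)**: `N_β y = N_α (w y)`, in the vocabulary of `Iface62`. -/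
theorem ne68_N1 (y : ↥(modularFunctionFieldFullC K (M' * q))) :
    s35i62_normB K M' q y =
      s35i62_normA K M' q (al97L_w (algebraMap K Q̄) M' q hq hM' y) :=
  ng97_norm_beta M' q hq hM' y

end ne68

/-- `s35i62_NormProps` from its third conjunct (N3) alone. -/
theorem ne68_normProps_of_N3 (M' q : ℕ) [NeZero M'] [NeZero q] (hq : q.Prime) (hM' : ¬ q ∣ M')
    (hN3 : ∀ (R K : Type) [CommRing R] [IsDomain R] [IsDiscreteValuationRing R] [Field K]
      [NumberField K] [Algebra K Q̄] [Algebra R K] [IsFractionRing R K]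
      [Algebra R ↥(modularFunctionFieldFullC K (M' * q))]
      [IsScalarTower R K ↥(modularFunctionFieldFullC K (M' * q))] (π : R) (hπ : Irreducible π),
      (∀ n : ℕ, Nat.Coprime n q → IsUnit (n : R)) → ¬ IsUnit (q : R) →
      (∃ ζ : K, IsPrimitiveRoot ζ q) →
      ∀ σ : K ≃+* K, s35i62_Frobenial R q σ →
        ∀ (y : ↥(modularFunctionFieldFullC K (M' * q))) (k : ℤ), y ≠ 0 →
          (algebraMap K ↥(modularFunctionFieldFullC K (M' * q)) (algebraMap R K π)) ^ (-k) *
              al97L_w (algebraMap K Q̄) M' q hq hM' y ∈ cm85_Vinf (K := K) (M' * q) hπ →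
          ((algebraMap K ↥(modularFunctionFieldFullC K (M' * q)) (algebraMap R K π)) ^ (-k) *
              al97L_w (algebraMap K Q̄) M' q hq hM' y)⁻¹ ∈ cm85_Vinf (K := K) (M' * q) hπ →
          (algebraMap K ↥(modularFunctionFieldFullC K (M' * q)) (algebraMap R K π))⁻¹ *
              (al97L_alpha K M' q (s35i62_normA K M' q y) /
                  (y * s34i47_coeffEquiv σ (M' * q) (al97L_w (algebraMap K Q̄) M' q hq hM' y)) *
                (algebraMap K ↥(modularFunctionFieldFullC K (M' * q))
                    (σ (algebraMap R K π) / algebraMap R K π ^ q)) ^ k - 1) ∈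
            cm85_Vinf (K := K) (M' * q) hπ) :
    s35i62_NormProps M' q hq hM' := by
  intro R K _ _ _ _ _ _ _ _ _ _ π hπ hunit hqR hζ
  exact ⟨fun y => ne68_N1 M' q hq hM' y, fun τ y => ne68_N2 M' q τ y,
    hN3 R K π hπ hunit hqR hζ⟩

/-- `s35i62_Pkg_Norm` from (N3) alone. -/
theorem ne68_pkg_norm_of_N3
    (hN3 : ∀ (M' q : ℕ) [NeZero M'] [NeZero q] (hq : q.Prime) (hM' : ¬ q ∣ M')
      (R K : Type) [CommRing R] [IsDomain R] [IsDiscreteValuationRing R] [Field K]
      [NumberField K] [Algebra K Q̄] [Algebra R K] [IsFractionRing R K]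
      [Algebra R ↥(modularFunctionFieldFullC K (M' * q))]
      [IsScalarTower R K ↥(modularFunctionFieldFullC K (M' * q))] (π : R) (hπ : Irreducible π),
      (∀ n : ℕ, Nat.Coprime n q → IsUnit (n : R)) → ¬ IsUnit (q : R) →
      (∃ ζ : K, IsPrimitiveRoot ζ q) →
      ∀ σ : K ≃+* K, s35i62_Frobenial R q σ →
        ∀ (y : ↥(modularFunctionFieldFullC K (M' * q))) (k : ℤ), y ≠ 0 →
          (algebraMap K ↥(modularFunctionFieldFullC K (M' * q)) (algebraMap R K π)) ^ (-k) *
              al97L_w (algebraMap K Q̄) M' q hq hM' y ∈ cm85_Vinf (K := K) (M' * q) hπ →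
          ((algebraMap K ↥(modularFunctionFieldFullC K (M' * q)) (algebraMap R K π)) ^ (-k) *
              al97L_w (algebraMap K Q̄) M' q hq hM' y)⁻¹ ∈ cm85_Vinf (K := K) (M' * q) hπ →
          (algebraMap K ↥(modularFunctionFieldFullC K (M' * q)) (algebraMap R K π))⁻¹ *
              (al97L_alpha K M' q (s35i62_normA K M' q y) /
                  (y * s34i47_coeffEquiv σ (M' * q) (al97L_w (algebraMap K Q̄) M' q hq hM' y)) *
                (algebraMap K ↥(modularFunctionFieldFullC K (M' * q))
                    (σ (algebraMap R K π) / algebraMap R K π ^ q)) ^ k - 1) ∈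
            cm85_Vinf (K := K) (M' * q) hπ) :
    s35i62_Pkg_Norm := by
  intro M' q _ _ hq hM'
  exact ne68_normProps_of_N3 M' q hq hM' (hN3 M' q hq hM')

end Fermat.Agent.S35
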