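import Fermat.Agent.S35.Iface62
import Fermat.Agent.S35.NormEquiv68
import Fermat.Agent.S35.NodeFrob96
import Fermat.Agent.S35.NodeTransB85
import Fermat.Agent.S34.BranchZeroInst13

/-!
# S35 lab, chain B (helper85): the operator `TH` on the canonical frame and its node transport

Canonical frame of `Iface47c` / `Iface62` at level `M' * q` (`q` prime, `q ∤ M'`): `ŝ` the
coefficientwise action of a Frobenial `σ`, `w = al97L_w`, `α`, `β` the degeneracy maps,
`N_α = s35i62_normA`.

* `cb85_frob_symm`, `cb85_pi_dvd` : for a Frobenius lift `σ` of the discrete valuation ring `R`,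
  `σ⁻¹ R ⊆ R` and `π = e · σ π` with `e ∈ R`.
* `cb85_norm_chart` : integrality of the norm: for an `R`-embedding `α : F' → F` and `y` in the
  chart `pk15_chart R (α '' s')`, `α (N y)` lies in the same chart.
* `cb85_TH` : the operator of chain B as a multiplicative map `F →*₀ F`,
  `TH x = ŝ² x · (w ŝ x)^(q+1) · x^q / (α N_α(w ŝ x) · β N_α(ŝ x))`.
* `cb85_node_tr` : **node transport**: on a chart `B ⊆ W` stable under `ŝ`, `w`, `α ∘ N_α`, with
  the node congruences of `NodeFrob96`, at every prime `n` on both branches `TH` maps `θ` with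
  `θ, θ⁻¹ ∈ B_n[1/π]` into `B_n[1/π]` (inputs: `nt85_transport`, `ng97_norm_cong`,
  `ng97_norm_cong_V0`).  No going-up, no conjugate places, no semi-local (LP).
-/

set_option autoImplicit false
set_option linter.unusedSectionVars false
set_option linter.style.longLine false
set_option linter.style.haveILetI false

open ModularCurve AlgebraicCurve

namespace Fermat.Agent.S35

open Fermat.Agent.S18 Fermat.Agent.S34

local notation "Q̄" => AlgebraicClosure ℚ

section cb85_dvr

variable {R K : Type*} [CommRing R] [IsDomain R] [IsDiscreteValuationRing R] [Field K]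
  [Algebra R K] [IsFractionRing R K]

/-- The inverse of a Frobenius lift preserves `R`. -/
theorem cb85_frob_symm (q : ℕ) (hq0 : q ≠ 0) (σ : K ≃+* K)
    (hσ : ∀ r : R, ∃ r' : R, σ (algebraMap R K r) = algebraMap R K r' ∧
      r' - r ^ q ∈ IsLocalRing.maximalIdeal R) (r : R) :
    ∃ r' : R, σ.symm (algebraMap R K r) = algebraMap R K r' := by
  have hinj : Function.Injective (algebraMap R K) := IsFractionRing.injective R K
  rcases ValuationRing.isInteger_or_isInteger R (σ.symm (algebraMap R K r)) with ⟨a, ha⟩ | ⟨y, hy⟩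
  · exact ⟨a, ha.symm⟩
  · by_cases hr : r = 0
    · exact ⟨0, by simp [hr]⟩
    obtain ⟨y', hy', hyq⟩ := hσ y
    have h1 : algebraMap R K r * algebraMap R K y' = 1 := by
      rw [← hy', hy, map_inv₀, RingEquiv.apply_symm_apply]
      exact mul_inv_cancel₀ (fun h0 => hr (hinj (by rw [h0, map_zero])))
    have h2 : r * y' = 1 := hinj (by rw [map_mul, h1, map_one])
    have hy'u : IsUnit y' := IsUnit.of_mul_eq_one r (by rw [mul_comm]; exact h2)
    have hyu : IsUnit y := by
      by_contra hnu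
      have hym : y ∈ IsLocalRing.maximalIdeal R := (IsLocalRing.mem_maximalIdeal y).mpr hnu
      have hyqm : y ^ q ∈ IsLocalRing.maximalIdeal R :=
        Ideal.pow_mem_of_mem _ hym q (Nat.pos_of_ne_zero hq0)
      have h3 : y' ∈ IsLocalRing.maximalIdeal R := by
        have := Ideal.add_mem _ hyq hyqm
        rwa [sub_add_cancel] at this
      exact (IsLocalRing.mem_maximalIdeal y').mp h3 hy'u
    obtain ⟨v, rfl⟩ := hyu
    refine ⟨((v⁻¹ : Rˣ) : R), ?_⟩
    have h4 : algebraMap R K (v : R) * algebraMap R K ((v⁻¹ : Rˣ) : R) = 1 := by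
      rw [← map_mul, Units.mul_inv, map_one]
    have h5 : σ.symm (algebraMap R K r) = (algebraMap R K (v : R))⁻¹ := by
      rw [hy, inv_inv]
    rw [h5]
    exact inv_eq_of_mul_eq_one_right h4

/-- A Frobenius lift maps the uniformiser to an associate: `π = e · σ π` with `e ∈ R`. -/
theorem cb85_pi_dvd {π : R} (hπ : Irreducible π) (q : ℕ) (hq0 : q ≠ 0) (σ : K ≃+* K)
    (hσ : ∀ r : R, ∃ r' : R, σ (algebraMap R K r) = algebraMap R K r' ∧
      r' - r ^ q ∈ IsLocalRing.maximalIdeal R) :
    ∃ e : R, algebraMap R K π = algebraMap R K e * σ (algebraMap R K π) := by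
  have hinj : Function.Injective (algebraMap R K) := IsFractionRing.injective R K
  obtain ⟨y, hy⟩ := cb85_frob_symm q hq0 σ hσ π
  have hσy : σ (algebraMap R K y) = algebraMap R K π := by
    rw [← hy, RingEquiv.apply_symm_apply]
  have hym : y ∈ IsLocalRing.maximalIdeal R := by
    rw [IsLocalRing.mem_maximalIdeal]
    intro hyu
    obtain ⟨y', hy', hyq⟩ := hσ y
    have h1 : y' = π := hinj (by rw [← hy', hσy])
    have h2 : IsUnit (y ^ q) := hyu.pow q
    have h3 : y' ∉ IsLocalRing.maximalIdeal R := by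
      intro h4
      have := Ideal.sub_mem _ h4 hyq
      rw [sub_sub_cancel] at this
      exact (IsLocalRing.mem_maximalIdeal _).mp this h2
    exact h3 (by rw [h1]; exact (IsLocalRing.mem_maximalIdeal π).mpr hπ.not_isUnit)
  rw [hπ.maximalIdeal_eq, Ideal.mem_span_singleton] at hym
  obtain ⟨z, rfl⟩ := hym
  obtain ⟨z', hz', -⟩ := hσ z
  refine ⟨z', ?_⟩
  rw [map_mul, map_mul, hz'] at hσy
  rw [mul_comm]
  exact hσy.symm

end cb85_dvr


section cb85_norm

variable {R F' F : Type*} [CommRing R] [Field F'] [Field F] [Algebra R F'] [Algebra R F]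

/-- **The norm of an element of a chart lies in the chart** (integrality of the norm): for an
`R`-algebra embedding `α : F' → F` and `y` integral over `R[α s']`, the norm of `y` along `α` is
integral over `R[s']`, hence `α (N y)` is integral over `R[α s']`. -/
theorem cb85_norm_chart (α : F' →ₐ[R] F) (s' : Set F') (y : F)
    (hy : y ∈ pk15_chart R (α '' s')) :
    α (@Algebra.norm F' F _ _ α.toRingHom.toAlgebra y) ∈ pk15_chart R (α '' s') := by
  letI : Algebra F' F := α.toRingHom.toAlgebra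
  refine sf79i_map_mem α s' _ ?_
  rw [pk15_mem_chart] at hy ⊢
  have hmap : ∀ x ∈ Algebra.adjoin R s', α x ∈ Algebra.adjoin R (α '' s') := by
    intro x hx
    rw [← AlgHom.map_adjoin]
    exact ⟨x, hx, rfl⟩
  let g : ↥(Algebra.adjoin R s') →+* ↥(Algebra.adjoin R (α '' s')) :=
    ((α : F' →+* F).comp (algebraMap ↥(Algebra.adjoin R s') F')).codRestrict
      (Algebra.adjoin R (α '' s')) (fun x => hmap x x.2)
  have hg : Function.Surjective g := by
    rintro ⟨b, hb⟩
    rw [← AlgHom.map_adjoin] at hb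
    obtain ⟨x, hx, rfl⟩ := hb
    exact ⟨⟨x, hx⟩, rfl⟩
  obtain ⟨p, hp, hpy⟩ := hy
  obtain ⟨p', hp'map, -, hp'monic⟩ := Polynomial.lifts_and_degree_eq_and_monic (f := g)
    ((Polynomial.mem_lifts _).mpr (Polynomial.map_surjective g hg p)) hp
  letI iAF : Algebra ↥(Algebra.adjoin R s') F :=
    ((algebraMap F' F).comp (algebraMap ↥(Algebra.adjoin R s') F')).toAlgebra
  haveI : IsScalarTower ↥(Algebra.adjoin R s') F' F := IsScalarTower.of_algebraMap_eq (fun _ => rfl)
  have hy' : IsIntegral ↥(Algebra.adjoin R s') y := by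
    refine ⟨p', hp'monic, ?_⟩
    have e : (algebraMap ↥(Algebra.adjoin R s') F) =
        (algebraMap ↥(Algebra.adjoin R (α '' s')) F).comp g := RingHom.ext fun _ => rfl
    rw [e, ← Polynomial.eval₂_map, hp'map]
    exact hpy
  have h3 := @Algebra.isIntegral_norm ↥(Algebra.adjoin R s') _ F F' _ _ _ iAF _ this y hy'
  exact h3

end cb85_norm


section cb85_node

variable {R K : Type} [CommRing R] [IsDomain R] [IsDiscreteValuationRing R] [Field K]
  [NumberField K] [Algebra R K] [IsFractionRing R K] [Algebra K Q̄]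
  (M' q : ℕ) [NeZero M'] [NeZero q] (hq : q.Prime) (hM' : ¬ q ∣ M')
  [Algebra R ↥(modularFunctionFieldFullC K (M' * q))]
  [IsScalarTower R K ↥(modularFunctionFieldFullC K (M' * q))]

/-- **The operator `TH` of chain B** on `F_K(M' q)`, as a multiplicative map:
`TH x = ŝ² x · (w ŝ x)^(q+1) · x^q / (α N_α(w ŝ x) · β N_α(ŝ x))`. -/
noncomputable def cb85_TH (σ : K ≃+* K) :
    ↥(modularFunctionFieldFullC K (M' * q)) →*₀ ↥(modularFunctionFieldFullC K (M' * q)) where
  toFun x := s34i47_coeffEquiv σ (M' * q) (s34i47_coeffEquiv σ (M' * q) x) *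
      (al97L_w (algebraMap K Q̄) M' q hq hM' (s34i47_coeffEquiv σ (M' * q) x)) ^ (q + 1) * x ^ q /
    (al97L_alpha K M' q (s35i62_normA K M' q
        (al97L_w (algebraMap K Q̄) M' q hq hM' (s34i47_coeffEquiv σ (M' * q) x))) *
      al97L_beta K M' q (s35i62_normA K M' q (s34i47_coeffEquiv σ (M' * q) x)))
  map_zero' := by simp
  map_one' := by simp
  map_mul' x y := by
    simp only [map_mul, mul_pow]
    rw [div_mul_div_comm]
    congr 1 <;> ring

theorem cb85_TH_apply (σ : K ≃+* K) (x : ↥(modularFunctionFieldFullC K (M' * q))) :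
    cb85_TH M' q hq hM' σ x =
      s34i47_coeffEquiv σ (M' * q) (s34i47_coeffEquiv σ (M' * q) x) *
        (al97L_w (algebraMap K Q̄) M' q hq hM' (s34i47_coeffEquiv σ (M' * q) x)) ^ (q + 1) * x ^ q /
      (al97L_alpha K M' q (s35i62_normA K M' q
          (al97L_w (algebraMap K Q̄) M' q hq hM' (s34i47_coeffEquiv σ (M' * q) x))) *
        al97L_beta K M' q (s35i62_normA K M' q (s34i47_coeffEquiv σ (M' * q) x))) := rfl

include hq hM' in
/-- The degree of `F_K(M' q)` over `α F_K(M')` is finite. -/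
theorem cb85_finite :
    letI := algebraAlong (al97L_alpha K M' q)
    Module.Finite ↥(modularFunctionFieldFullC K M') ↥(modularFunctionFieldFullC K (M' * q)) := by
  letI := algebraAlong (al97L_alpha K M' q)
  have h := ng97_finrank K M' q hq hM' (Nat.cast_ne_zero.mpr (NeZero.ne (M' * q)))
  exact Module.finite_of_finrank_pos (by rw [h]; omega)

include hq hM' in
/-- `N_α 0 = 0`. -/
theorem cb85_norm_zero : s35i62_normA K M' q 0 = 0 := by
  letI := algebraAlong (al97L_alpha K M' q)
  haveI := cb85_finite (K := K) M' q hq hM'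
  haveI : Module.Free ↥(modularFunctionFieldFullC K M') ↥(modularFunctionFieldFullC K (M' * q)) :=
    Module.Free.of_divisionRing _ _
  exact Algebra.norm_zero

/-- `N_α` of a constant `c ∈ K` is `c ^ d`, `d` the degree. -/
theorem cb85_norm_const (c : K) :
    letI := algebraAlong (al97L_alpha K M' q)
    s35i62_normA K M' q (algebraMap K ↥(modularFunctionFieldFullC K (M' * q)) c) =
      algebraMap K ↥(modularFunctionFieldFullC K M') c ^
        Module.finrank ↥(modularFunctionFieldFullC K M') ↥(modularFunctionFieldFullC K (M' * q)) := by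
  letI := algebraAlong (al97L_alpha K M' q)
  have h1 : algebraMap K ↥(modularFunctionFieldFullC K (M' * q)) c =
      algebraMap ↥(modularFunctionFieldFullC K M') ↥(modularFunctionFieldFullC K (M' * q))
        (algebraMap K ↥(modularFunctionFieldFullC K M') c) :=
    ((al97L_alpha K M' q).commutes c).symm
  rw [h1]
  haveI : Module.Free ↥(modularFunctionFieldFullC K M') ↥(modularFunctionFieldFullC K (M' * q)) :=
    Module.Free.of_divisionRing _ _
  exact Algebra.norm_algebraMap _

/-- `α ∘ N_α` as a multiplicative map of `F_K(M' q)`. -/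
noncomputable def cb85_N1 (hq : q.Prime) (hM' : ¬ q ∣ M') :
    ↥(modularFunctionFieldFullC K (M' * q)) →*₀ ↥(modularFunctionFieldFullC K (M' * q)) where
  toFun x := al97L_alpha K M' q (s35i62_normA K M' q x)
  map_zero' := by rw [cb85_norm_zero M' q hq hM', map_zero]
  map_one' := by rw [map_one, map_one]
  map_mul' x y := by rw [map_mul, map_mul]

/-- `β ∘ N_α ∘ w` as a multiplicative map of `F_K(M' q)`. -/
noncomputable def cb85_N2 :
    ↥(modularFunctionFieldFullC K (M' * q)) →*₀ ↥(modularFunctionFieldFullC K (M' * q)) where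
  toFun x := al97L_beta K M' q (s35i62_normA K M' q (al97L_w (algebraMap K Q̄) M' q hq hM' x))
  map_zero' := by rw [map_zero, cb85_norm_zero M' q hq hM', map_zero]
  map_one' := by rw [map_one, map_one, map_one]
  map_mul' x y := by rw [map_mul, map_mul, map_mul]

theorem cb85_N1_apply (x : ↥(modularFunctionFieldFullC K (M' * q))) :
    cb85_N1 (K := K) M' q hq hM' x = al97L_alpha K M' q (s35i62_normA K M' q x) := rfl

theorem cb85_N2_apply (x : ↥(modularFunctionFieldFullC K (M' * q))) :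
    cb85_N2 (K := K) M' q hq hM' x =
      al97L_beta K M' q (s35i62_normA K M' q (al97L_w (algebraMap K Q̄) M' q hq hM' x)) := rfl

include hq hM' in
/-- **Node transport for `TH` on a chart of the canonical frame.**  `B ⊆ W` a chart stable under
`ŝ`, `w` and `α ∘ N_α`, with the node congruences (K), (SS) of `NodeFrob96`; `n` a prime of `B`
on both branches.  Then `TH` maps `θ` with `θ, θ⁻¹ ∈ B_n[1/π]` into `B_n[1/π]`. -/
theorem cb85_node_tr {π : R} (hπ : Irreducible π) (hqR : ¬ IsUnit (q : R))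
    (σ : K ≃+* K) (hσ : s35i62_Frobenial R q σ)
    (B : Subalgebra R ↥(modularFunctionFieldFullC K (M' * q)))
    (hBV : ∀ x ∈ B, x ∈ cm85_Vinf (K := K) (M' * q) hπ)
    (hBV0 : ∀ x ∈ B, al97L_w (algebraMap K Q̄) M' q hq hM' x ∈ cm85_Vinf (K := K) (M' * q) hπ)
    (hsB : ∀ x ∈ B, s34i47_coeffEquiv σ (M' * q) x ∈ B)
    (hwB : ∀ x ∈ B, al97L_w (algebraMap K Q̄) M' q hq hM' x ∈ B)
    (hNB : ∀ x ∈ B, al97L_alpha K M' q (s35i62_normA K M' q x) ∈ B)
    (hnode : nf96_NodeCong π B (cm85_Vinf (K := K) (M' * q) hπ).toSubring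
      (s34i47c_V0 (K := K) M' q hq hM' hπ).toSubring
      (s34i47_coeffEquiv σ (M' * q)) (al97L_w (algebraMap K Q̄) M' q hq hM') q)
    (n : Ideal B) (hn : n.IsPrime)
    (hn₁ : sf79_OnBr π B (cm85_Vinf (K := K) (M' * q) hπ).toSubring n)
    (hn₂ : sf79_OnBr π B (s34i47c_V0 (K := K) M' q hq hM' hπ).toSubring n)
    (θ : ↥(modularFunctionFieldFullC K (M' * q)))
    (hθ : ld32_Reg B n (algebraMap R ↥(modularFunctionFieldFullC K (M' * q)) π) θ)
    (hθ' : ld32_Reg B n (algebraMap R ↥(modularFunctionFieldFullC K (M' * q)) π) θ⁻¹) :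
    ld32_Reg B n (algebraMap R ↥(modularFunctionFieldFullC K (M' * q)) π)
      (cb85_TH M' q hq hM' σ θ) := by
  haveI := hn
  obtain ⟨hK, -, hss⟩ := hnode n hn hn₁ hn₂
  -- `ŝ (w s) ∈ n → s ∈ n`
  have key : ∀ s z : B, (z : ↥(modularFunctionFieldFullC K (M' * q))) =
      s34i47_coeffEquiv σ (M' * q) (al97L_w (algebraMap K Q̄) M' q hq hM'
        (s : ↥(modularFunctionFieldFullC K (M' * q)))) → z ∈ n → s ∈ n := by
    intro s z hz hzn
    have h1 := hK ⟨_, hwB s s.2⟩ z s hz (by
      show (s : ↥(modularFunctionFieldFullC K (M' * q))) = _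
      rw [al97L_w_w])
    have h2 : s ^ q ∈ n := by
      have := n.sub_mem hzn h1
      rwa [sub_sub_cancel] at this
    exact hn.mem_of_pow_mem q h2
  -- the uniformiser
  obtain ⟨e, he⟩ := cb85_pi_dvd hπ q hq.ne_zero σ hσ
  have hpK : algebraMap R ↥(modularFunctionFieldFullC K (M' * q)) π =
      algebraMap K ↥(modularFunctionFieldFullC K (M' * q)) (algebraMap R K π) :=
    IsScalarTower.algebraMap_apply R K _ π
  have hsp : algebraMap R ↥(modularFunctionFieldFullC K (M' * q)) π =
      algebraMap R ↥(modularFunctionFieldFullC K (M' * q)) e *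
        s34i47_coeffEquiv σ (M' * q) (algebraMap R ↥(modularFunctionFieldFullC K (M' * q)) π) := by
    rw [hpK, al97V_coeffEquiv_algebraMap, IsScalarTower.algebraMap_apply R K _ e, ← map_mul, ← he]
  have hwc : ∀ c : K, al97L_w (algebraMap K Q̄) M' q hq hM'
      (algebraMap K ↥(modularFunctionFieldFullC K (M' * q)) c) =
      algebraMap K ↥(modularFunctionFieldFullC K (M' * q)) c :=
    fun c => (al97L_w (algebraMap K Q̄) M' q hq hM').commutes c
  have heB : algebraMap R ↥(modularFunctionFieldFullC K (M' * q)) e ∈ B := B.algebraMap_mem e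
  -- σ₂ = ŝ²
  have hσB : ∀ x ∈ B, ((s34i47_coeffEquiv σ (M' * q)).trans (s34i47_coeffEquiv σ (M' * q))) x ∈ B :=
    fun x hx => hsB _ (hsB x hx)
  have hσn : ∀ s : B, s ∉ n →
      (⟨((s34i47_coeffEquiv σ (M' * q)).trans (s34i47_coeffEquiv σ (M' * q))) s, hσB s s.2⟩ : B) ∉ n :=
    fun s hs h => hs ((hss s ⟨_, hσB s s.2⟩ rfl).mp h)
  have hσp : ∃ ε ∈ B, algebraMap R ↥(modularFunctionFieldFullC K (M' * q)) π =
      ε * ((s34i47_coeffEquiv σ (M' * q)).trans (s34i47_coeffEquiv σ (M' * q)))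
        (algebraMap R ↥(modularFunctionFieldFullC K (M' * q)) π) := by
    refine ⟨algebraMap R ↥(modularFunctionFieldFullC K (M' * q)) e *
      s34i47_coeffEquiv σ (M' * q) (algebraMap R ↥(modularFunctionFieldFullC K (M' * q)) e),
      B.mul_mem heB (hsB _ heB), ?_⟩
    rw [RingEquiv.trans_apply]
    conv_lhs => rw [hsp]
    conv_lhs => rw [hsp]
    rw [map_mul]
    ring
  -- τ = w ŝ
  have hτB : ∀ x ∈ B, ((s34i47_coeffEquiv σ (M' * q)).trans (bz13_w M' q hq hM')) x ∈ B :=
    fun x hx => hwB _ (hsB x hx)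
  have hτn : ∀ s : B, s ∉ n →
      (⟨((s34i47_coeffEquiv σ (M' * q)).trans (bz13_w M' q hq hM')) s, hτB s s.2⟩ : B) ∉ n :=
    fun s hs h => hs (key s ⟨_, hτB s s.2⟩ (ng97_w_sigma M' q hq hM' σ _) h)
  have hτp : ∃ ε ∈ B, algebraMap R ↥(modularFunctionFieldFullC K (M' * q)) π =
      ε * ((s34i47_coeffEquiv σ (M' * q)).trans (bz13_w M' q hq hM'))
        (algebraMap R ↥(modularFunctionFieldFullC K (M' * q)) π) := by
    refine ⟨algebraMap R ↥(modularFunctionFieldFullC K (M' * q)) e, heB, ?_⟩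
    have h1 : ((s34i47_coeffEquiv σ (M' * q)).trans (bz13_w M' q hq hM'))
        (algebraMap R ↥(modularFunctionFieldFullC K (M' * q)) π) =
        s34i47_coeffEquiv σ (M' * q) (algebraMap R ↥(modularFunctionFieldFullC K (M' * q)) π) := by
      rw [RingEquiv.trans_apply, bz13_w_apply, hpK, al97V_coeffEquiv_algebraMap, hwc]
    rw [h1]
    exact hsp
  -- the two norms
  have hN₁B : ∀ x ∈ B, cb85_N1 (K := K) M' q hq hM' x ∈ B := hNB
  have hN₂B : ∀ x ∈ B, cb85_N2 (K := K) M' q hq hM' x ∈ B := by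
    intro x hx
    rw [cb85_N2_apply, ← al97L_w_alpha_apply (algebraMap K Q̄) M' q hq hM']
    exact hwB _ (hNB _ (hwB x hx))
  have hN₁n : ∀ s : B, s ∉ n → (⟨cb85_N1 (K := K) M' q hq hM' s, hN₁B s s.2⟩ : B) ∉ n := by
    intro s hs h
    have hc := ng97_norm_cong M' q hq hM' hπ hqR σ hσ (s : ↥(modularFunctionFieldFullC K (M' * q)))
      (hBV s s.2) (hBV0 s s.2)
    have hd : (⟨cb85_N1 (K := K) M' q hq hM' s, hN₁B s s.2⟩ : B) - s * ⟨_, hsB _ (hwB s s.2)⟩ ∈ n := by
      apply hn₁
      rw [hpK]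
      exact hc
    have h2 : s * (⟨_, hsB _ (hwB s s.2)⟩ : B) ∈ n := by
      have := n.sub_mem h hd
      rwa [sub_sub_cancel] at this
    rcases hn.mem_or_mem h2 with h3 | h3
    · exact hs h3
    · exact hs (key s _ rfl h3)
  have hN₂n : ∀ s : B, s ∉ n → (⟨cb85_N2 (K := K) M' q hq hM' s, hN₂B s s.2⟩ : B) ∉ n := by
    intro s hs h
    have hc := ng97_norm_cong_V0 M' q hq hM' hπ hqR σ hσ
      (al97L_w (algebraMap K Q̄) M' q hq hM' (s : ↥(modularFunctionFieldFullC K (M' * q))))
      (hBV0 s s.2) (by rw [al97L_w_w]; exact hBV s s.2)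
    rw [al97L_w_w] at hc
    have hd : (⟨cb85_N2 (K := K) M' q hq hM' s, hN₂B s s.2⟩ : B) - s * ⟨_, hsB _ (hwB s s.2)⟩ ∈ n := by
      apply hn₂
      rw [hpK]
      exact hc
    have h2 : s * (⟨_, hsB _ (hwB s s.2)⟩ : B) ∈ n := by
      have := n.sub_mem h hd
      rwa [sub_sub_cancel] at this
    rcases hn.mem_or_mem h2 with h3 | h3
    · exact hs h3
    · exact hs (key s _ rfl h3)
  letI := algebraAlong (al97L_alpha K M' q)
  have hN₁p : ∃ j : ℕ, ∃ ε ∈ B, algebraMap R ↥(modularFunctionFieldFullC K (M' * q)) π ^ j =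
      ε * cb85_N1 (K := K) M' q hq hM' (algebraMap R ↥(modularFunctionFieldFullC K (M' * q)) π) := by
    refine ⟨Module.finrank ↥(modularFunctionFieldFullC K M') ↥(modularFunctionFieldFullC K (M' * q)),
      1, B.one_mem, ?_⟩
    rw [cb85_N1_apply, hpK, cb85_norm_const, map_pow, AlgHom.commutes, one_mul]
  have hN₂p : ∃ j : ℕ, ∃ ε ∈ B, algebraMap R ↥(modularFunctionFieldFullC K (M' * q)) π ^ j =
      ε * cb85_N2 (K := K) M' q hq hM' (algebraMap R ↥(modularFunctionFieldFullC K (M' * q)) π) := by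
    refine ⟨Module.finrank ↥(modularFunctionFieldFullC K M') ↥(modularFunctionFieldFullC K (M' * q)),
      1, B.one_mem, ?_⟩
    rw [cb85_N2_apply, hpK, hwc, cb85_norm_const, map_pow, AlgHom.commutes, one_mul]
  have hmain := nt85_transport B n (algebraMap R ↥(modularFunctionFieldFullC K (M' * q)) π)
    ((s34i47_coeffEquiv σ (M' * q)).trans (s34i47_coeffEquiv σ (M' * q)))
    ((s34i47_coeffEquiv σ (M' * q)).trans (bz13_w M' q hq hM'))
    (cb85_N1 (K := K) M' q hq hM') (cb85_N2 (K := K) M' q hq hM') q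
    hσB hσn hσp hτB hτn hτp hN₁B hN₁n hN₁p hN₂B hN₂n hN₂p θ hθ hθ'
  rw [cb85_N1_apply, cb85_N2_apply, RingEquiv.trans_apply, RingEquiv.trans_apply, bz13_w_apply,
    al97L_w_w] at hmain
  rw [cb85_TH_apply]
  exact hmain

end cb85_node


end Fermat.Agent.S35
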