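/-
S35 lab, chain B, registry row 561 (B3a-NormUnit) -- helper30.

ABSTRACT, Mathlib only.  `F / F'` a finite extension of fields, `O'` a valuation subring of
`F'` of Krull dimension `≤ 1` (instance-found for a principal ideal ring, i.e. for a discrete
valuation ring, or all of `F'`), `y : F`.

* `nu30_norm_mem`      : if `y` lies in EVERY valuation subring `O''` of `F` with
                         `O''.comap (algebraMap F' F) = O'`, then `Algebra.norm F' y ∈ O'`.
* `nu30_norm_unit`     : if moreover `y⁻¹` lies in all those `O''`, then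
                         `Algebra.norm F' y` and its inverse lie in `O'` (a unit of `O'`).
* `nu30_isIntegral`    : the integrality statement behind both (`y` is integral over `O'`).
* `nu30_comap_eq_or`   : a valuation subring of `F` containing the image of `O'` lies over
                         `O'`, or is all of `F`.
No `O' ≠ ⊤` hypothesis is needed (for `O' = ⊤` the statements are trivially true).
-/
import Mathlib

namespace Fermat.Agent.S35

open Polynomial

/-- A valuation subring of `F` whose trace on `F'` is everything is everything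
(`F / F'` algebraic). -/
theorem nu30_eq_top_of_comap_eq_top {F' F : Type*} [Field F'] [Field F] [Algebra F' F]
    [Algebra.IsIntegral F' F] (V : ValuationSubring F)
    (hV : V.comap (algebraMap F' F) = ⊤) : V = ⊤ := by
  rw [eq_top_iff]
  intro z _
  have hmem : ∀ a : F', algebraMap F' F a ∈ V := by
    intro a
    have : a ∈ V.comap (algebraMap F' F) := by rw [hV]; trivial
    exact this
  let g : F' →+* V := (algebraMap F' F).codRestrict V.toSubring hmem
  obtain ⟨p, hp, hpz⟩ := Algebra.IsIntegral.isIntegral (R := F') z
  have hint : IsIntegral V z := by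
    refine ⟨p.map g, hp.map g, ?_⟩
    rw [Polynomial.eval₂_map]
    exact hpz
  obtain ⟨v, hv⟩ := IsIntegrallyClosed.isIntegral_iff.mp hint
  rw [← hv]
  exact v.2

/-- A valuation subring of `F` containing the image of the discrete valuation ring `O'`
lies over `O'` or is all of `F`. -/
theorem nu30_comap_eq_or {F' F : Type*} [Field F'] [Field F] [Algebra F' F]
    [Algebra.IsIntegral F' F] (O' : ValuationSubring F') [Ring.KrullDimLE 1 O']
    (V : ValuationSubring F) (hV : ∀ a ∈ O', algebraMap F' F a ∈ V) :
    V.comap (algebraMap F' F) = O' ∨ V = ⊤ := by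
  have hle : O' ≤ V.comap (algebraMap F' F) := fun a ha => hV a ha
  rcases ValuationSubring.eq_self_or_eq_top_of_le hle with h | h
  · exact Or.inl h.symm
  · exact Or.inr (nu30_eq_top_of_comap_eq_top V h)

/-- **Integrality from the valuation subrings over `O'`.** -/
theorem nu30_isIntegral {F' F : Type*} [Field F'] [Field F] [Algebra F' F]
    [Algebra.IsIntegral F' F] (O' : ValuationSubring F') [Ring.KrullDimLE 1 O'] (y : F)
    (hy : ∀ O'' : ValuationSubring F, O''.comap (algebraMap F' F) = O' → y ∈ O'') :
    ((algebraMap F' F).comp O'.subtype).IsIntegralElem y := by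
  let _ : Algebra O' F := ((algebraMap F' F).comp O'.subtype).toAlgebra
  change IsIntegral O' y
  by_contra hcon
  have hnot : y ∉ (integralClosure O' F).toSubring := fun h => hcon h
  obtain ⟨V, hCV, hyV⟩ :=
    Subring.exists_le_valuationSubring_of_isIntegrallyClosedIn hnot
  have hVO : ∀ a ∈ O', algebraMap F' F a ∈ V := by
    intro a ha
    apply hCV
    change IsIntegral O' (algebraMap F' F a)
    exact isIntegral_algebraMap (R := O') (A := F) (x := ⟨a, ha⟩)
  rcases nu30_comap_eq_or O' V hVO with h | h
  · exact hyV (hy V h)
  · exact hyV (by rw [h]; trivial)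

/-- **Row 561 (B3a-NormUnit), main form.**  If `y` lies in every valuation subring of `F`
over the discrete valuation ring `O'` of `F'`, then its norm lies in `O'`. -/
theorem nu30_norm_mem {F' F : Type*} [Field F'] [Field F] [Algebra F' F]
    [FiniteDimensional F' F] (O' : ValuationSubring F') [Ring.KrullDimLE 1 O'] (y : F)
    (hy : ∀ O'' : ValuationSubring F, O''.comap (algebraMap F' F) = O' → y ∈ O'') :
    Algebra.norm F' y ∈ O' := by
  have hint := nu30_isIntegral O' y hy
  let _ : Algebra O' F := ((algebraMap F' F).comp O'.subtype).toAlgebra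
  have : IsScalarTower O' F' F := IsScalarTower.of_algebraMap_eq (fun _ => rfl)
  have h1 : IsIntegral O' y := hint
  have h2 : IsIntegral O' (Algebra.norm F' y) := Algebra.isIntegral_norm F' h1
  obtain ⟨v, hv⟩ := IsIntegrallyClosed.isIntegral_iff.mp h2
  rw [← hv]
  exact v.2

/-- The norm of a finite field extension commutes with inversion. -/
theorem nu30_norm_inv {F' F : Type*} [Field F'] [Field F] [Algebra F' F]
    [FiniteDimensional F' F] (y : F) :
    Algebra.norm F' y⁻¹ = (Algebra.norm F' y)⁻¹ := by
  by_cases hy0 : y = 0
  · subst hy0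
    simp [Algebra.norm_zero]
  · have h : Algebra.norm F' y * Algebra.norm F' y⁻¹ = 1 := by
      rw [← map_mul, mul_inv_cancel₀ hy0, map_one]
    exact eq_inv_of_mul_eq_one_right h

/-- **Row 561, unit form.**  If both `y` and `y⁻¹` lie in every valuation
subring of `F` over `O'`, then the norm of `y` is a unit of `O'`. -/
theorem nu30_norm_unit {F' F : Type*} [Field F'] [Field F] [Algebra F' F]
    [FiniteDimensional F' F] (O' : ValuationSubring F') [Ring.KrullDimLE 1 O'] (y : F)
    (hy : ∀ O'' : ValuationSubring F, O''.comap (algebraMap F' F) = O' → y ∈ O'')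
    (hy' : ∀ O'' : ValuationSubring F, O''.comap (algebraMap F' F) = O' → y⁻¹ ∈ O'') :
    Algebra.norm F' y ∈ O' ∧ (Algebra.norm F' y)⁻¹ ∈ O' := by
  refine ⟨nu30_norm_mem O' y hy, ?_⟩
  have h := nu30_norm_mem O' y⁻¹ hy'
  rwa [nu30_norm_inv] at h

/-- The same with the hypothesis in the spec's literal shape (`O' ≠ ⊤` is not used). -/
theorem nu30_norm_mem_spec {F' F : Type*} [Field F'] [Field F] [Algebra F' F]
    [FiniteDimensional F' F] (O' : ValuationSubring F') (_hO : O' ≠ ⊤)
    [Ring.KrullDimLE 1 O'] (y : F)
    (hy : ∀ O'' : ValuationSubring F, O''.comap (algebraMap F' F) = O' → y ∈ O'') :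
    Algebra.norm F' y ∈ O' :=
  nu30_norm_mem O' y hy

/-- The instance used by consumers: a valuation subring which is a principal ideal ring
has Krull dimension `≤ 1`, so all of the above applies to a discrete valuation ring. -/
theorem nu30_norm_mem_pid {F' F : Type*} [Field F'] [Field F] [Algebra F' F]
    [FiniteDimensional F' F] (O' : ValuationSubring F') [IsPrincipalIdealRing O'] (y : F)
    (hy : ∀ O'' : ValuationSubring F, O''.comap (algebraMap F' F) = O' → y ∈ O'') :
    Algebra.norm F' y ∈ O' :=
  nu30_norm_mem O' y hy

/-- Unit form for a principal valuation subring. -/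
theorem nu30_norm_unit_pid {F' F : Type*} [Field F'] [Field F] [Algebra F' F]
    [FiniteDimensional F' F] (O' : ValuationSubring F') [IsPrincipalIdealRing O'] (y : F)
    (hy : ∀ O'' : ValuationSubring F, O''.comap (algebraMap F' F) = O' → y ∈ O'')
    (hy' : ∀ O'' : ValuationSubring F, O''.comap (algebraMap F' F) = O' → y⁻¹ ∈ O'') :
    Algebra.norm F' y ∈ O' ∧ (Algebra.norm F' y)⁻¹ ∈ O' :=
  nu30_norm_unit O' y hy hy'

end Fermat.Agent.S35
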