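/-
S35 lab, chain B, companion of row 561 (B3a-NormUnit) for row 563 (B3-UnitTransport) -- helper30.

ABSTRACT, Mathlib only.  The "going-down" half which every consumer of `nu30_norm_mem` /
`nu57_norm_mem` needs in order to take `O' := O.comap φ` for a discrete valuation ring `O`
upstairs (the "going-up" half is helper90's `ExtDVR90`):

* `cd30_comap_isPrincipalIdealRing` : the trace `O.comap φ` of a principal valuation subring
    `O` of `F` along ANY field homomorphism `φ : F' →+* F` is a principal ideal ring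
    (no finiteness needed).
* `cd30_comap_ne_top` : if `F` is algebraic over `φ F'` and `O ≠ ⊤` then `O.comap φ ≠ ⊤`.
* `cd30_norm_mem` : `[Algebra F' F]` finite (use `letI := algebraAlong ψ`), `φ : F' →+* F` any
    field homomorphism, `O` a principal valuation subring of `F`.  If `y` lies in every
    valuation subring `O''` of `F` with `O''.comap (algebraMap F' F) = O.comap φ`, then
    `φ (Algebra.norm F' y) ∈ O`.
* `cd30_norm_unit` : the unit form (`y` and `y⁻¹`); `cd30_norm_unit_along` : explicit `ψ`.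
-/
import Mathlib
import Fermat.Agent.S35.NormUnit30

namespace Fermat.Agent.S35

/-- The trace of a principal valuation subring along any field homomorphism is principal. -/
theorem cd30_comap_isPrincipalIdealRing {F' F : Type*} [Field F'] [Field F] (φ : F' →+* F)
    (O : ValuationSubring F) [IsPrincipalIdealRing O] : IsPrincipalIdealRing (O.comap φ) := by
  constructor
  intro I
  by_cases hI : I = ⊥
  · subst hI
    exact bot_isPrincipal
  · obtain ⟨a₁, ha₁I, ha₁0⟩ : ∃ a ∈ I, a ≠ 0 := Submodule.exists_mem_ne_zero_of_ne_bot hI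
    let g : ↥(O.comap φ) → ↥O := fun x => ⟨φ x.1, x.2⟩
    have hg0 : ∀ x : ↥(O.comap φ), x ≠ 0 → g x ≠ 0 := by
      intro x hx h
      apply hx
      have h1 : φ x.1 = 0 := congrArg Subtype.val h
      have h2 : x.1 = 0 := (map_eq_zero φ).mp h1
      exact Subtype.ext h2
    let T : Set ↥O := {t | ∃ a ∈ I, a ≠ 0 ∧ g a = t}
    have hT : T.Nonempty := ⟨g a₁, a₁, ha₁I, ha₁0, rfl⟩
    obtain ⟨t, ⟨a₀, ha₀I, ha₀0, rfl⟩, hmin⟩ :=
      (wellFounded_dvdNotUnit (α := ↥O)).has_min T hT
    refine ⟨⟨a₀, ?_⟩⟩
    apply le_antisymm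
    · intro x hx
      rw [Submodule.mem_span_singleton]
      by_cases hx0 : x = 0
      · exact ⟨0, by simp [hx0]⟩
      · have hdvd : g a₀ ∣ g x := by
          rcases ValuationRing.dvd_total (g a₀) (g x) with h | h
          · exact h
          · obtain ⟨c, hc⟩ := h
            have hnot := hmin (g x) ⟨x, hx, hx0, rfl⟩
            by_cases hcu : IsUnit c
            · obtain ⟨u, rfl⟩ := hcu
              refine ⟨((u⁻¹ : (↥O)ˣ) : ↥O), ?_⟩
              rw [hc, mul_assoc, Units.mul_inv, mul_one]
            · exact absurd ⟨hg0 x hx0, c, hcu, hc⟩ hnot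
        obtain ⟨c, hc⟩ := hdvd
        have hc' : φ x.1 = φ a₀.1 * c.1 := congrArg Subtype.val hc
        have ha₀' : a₀.1 ≠ 0 := fun h => ha₀0 (Subtype.ext h)
        have hφa₀ : φ a₀.1 ≠ 0 := (map_ne_zero φ).mpr ha₀'
        have hmem : x.1 / a₀.1 ∈ O.comap φ := by
          change φ (x.1 / a₀.1) ∈ O
          have : φ (x.1 / a₀.1) = c.1 := by
            rw [map_div₀, hc']
            field_simp
          rw [this]
          exact c.2
        refine ⟨⟨x.1 / a₀.1, hmem⟩, ?_⟩
        apply Subtype.ext
        change x.1 / a₀.1 * a₀.1 = x.1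
        field_simp
    · rw [Submodule.span_le]
      intro x hx
      rw [Set.mem_singleton_iff] at hx
      rw [hx]
      exact ha₀I

/-- If `F` is algebraic over `φ F'`, a valuation subring `O ≠ ⊤` of `F` has trace `≠ ⊤`. -/
theorem cd30_comap_ne_top {F' F : Type*} [Field F'] [Field F] (φ : F' →+* F)
    (halg : ∀ z : F, ∃ p : Polynomial F', p.Monic ∧ Polynomial.eval₂ φ z p = 0)
    (O : ValuationSubring F) (hO : O ≠ ⊤) : O.comap φ ≠ ⊤ := by
  intro htop
  apply hO
  let _ : Algebra F' F := φ.toAlgebra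
  have : Algebra.IsIntegral F' F := ⟨fun z => halg z⟩
  exact nu30_eq_top_of_comap_eq_top (F' := F') (F := F) O htop

/-- Instance-generic form of `cd30_comap_ne_top`. -/
theorem cd30_comap_algebraMap_ne_top {F' F : Type*} [Field F'] [Field F] [Algebra F' F]
    [Algebra.IsIntegral F' F] (O : ValuationSubring F) (hO : O ≠ ⊤) :
    O.comap (algebraMap F' F) ≠ ⊤ :=
  fun htop => hO (nu30_eq_top_of_comap_eq_top O htop)

/-- **Norm transport** (instance-generic: use `letI := algebraAlong ψ` for the norm along `ψ`).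
`F` finite over `F'`, `φ : F' →+* F` any field homomorphism, `O` a principal valuation subring
of `F`.  If `y` lies in every valuation subring `O''` of `F` whose trace along the structure
map is the trace of `O` along `φ`, then `φ (N y) ∈ O`. -/
theorem cd30_norm_mem {F' F : Type*} [Field F'] [Field F] [Algebra F' F]
    [FiniteDimensional F' F] (φ : F' →+* F)
    (O : ValuationSubring F) [IsPrincipalIdealRing O] (y : F)
    (hy : ∀ O'' : ValuationSubring F, O''.comap (algebraMap F' F) = O.comap φ → y ∈ O'') :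
    φ (Algebra.norm F' y) ∈ O := by
  have : IsPrincipalIdealRing (O.comap φ) := cd30_comap_isPrincipalIdealRing φ O
  have h : Algebra.norm F' y ∈ O.comap φ := nu30_norm_mem (O.comap φ) y hy
  exact h

/-- **Norm transport, unit form.** -/
theorem cd30_norm_unit {F' F : Type*} [Field F'] [Field F] [Algebra F' F]
    [FiniteDimensional F' F] (φ : F' →+* F)
    (O : ValuationSubring F) [IsPrincipalIdealRing O] (y : F)
    (hy : ∀ O'' : ValuationSubring F, O''.comap (algebraMap F' F) = O.comap φ →
      y ∈ O'' ∧ y⁻¹ ∈ O'') :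
    φ (Algebra.norm F' y) ∈ O ∧ (φ (Algebra.norm F' y))⁻¹ ∈ O := by
  have : IsPrincipalIdealRing (O.comap φ) := cd30_comap_isPrincipalIdealRing φ O
  have h := nu30_norm_unit (O.comap φ) y
    (fun O'' hO'' => (hy O'' hO'').1) (fun O'' hO'' => (hy O'' hO'').2)
  refine ⟨h.1, ?_⟩
  have h2 : (Algebra.norm F' y)⁻¹ ∈ O.comap φ := h.2
  have h3 : φ ((Algebra.norm F' y)⁻¹) ∈ O := h2
  rwa [map_inv₀] at h3

/-- **Norm transport along `ψ`** (explicit form: the norm of `F` over `ψ F'`). -/
theorem cd30_norm_unit_along {F' F : Type*} [Field F'] [Field F] (φ ψ : F' →+* F)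
    (hfin : letI : Algebra F' F := ψ.toAlgebra; FiniteDimensional F' F)
    (O : ValuationSubring F) [IsPrincipalIdealRing O] (y : F)
    (hy : ∀ O'' : ValuationSubring F, O''.comap ψ = O.comap φ → y ∈ O'' ∧ y⁻¹ ∈ O'') :
    φ (letI : Algebra F' F := ψ.toAlgebra; Algebra.norm F' y) ∈ O ∧
      (φ (letI : Algebra F' F := ψ.toAlgebra; Algebra.norm F' y))⁻¹ ∈ O := by
  let _ : Algebra F' F := ψ.toAlgebra
  have : FiniteDimensional F' F := hfin
  exact cd30_norm_unit φ O y hy

end Fermat.Agent.S35
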