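/-
S35 lab, chain B, companion of rows 561 / 563 -- helper30.

`cd30_comap_isHoriz` : the trace `O.comap φ` of a HORIZONTAL valuation ring `O` of `F`
(`s34i47_IsHoriz π O`) along an `R`-compatible field homomorphism `φ : F' →+* F` with `F`
algebraic over `φ F'` is horizontal (`s34i47_IsHoriz π (O.comap φ)`).
`cd30_norm_unit_horiz` : unit transport through a norm for horizontal rings: if `y` is a unit of
every valuation subring `O''` of `F` whose trace along the structure map is the trace of the
horizontal `O` along `φ`, then `φ (N y)` is a unit of `O`.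
Imports: Mathlib + S34/Iface47 (the definition `s34i47_IsHoriz`) + S35/ComapDVR30.
-/
import Mathlib
import Fermat.Agent.S34.Iface47
import Fermat.Agent.S35.ComapDVR30

namespace Fermat.Agent.S35

open Fermat.Agent.S34

/-- The trace of a horizontal valuation ring along an `R`-compatible field homomorphism
(`F` algebraic over the image) is horizontal. -/
theorem cd30_comap_isHoriz {R F' F : Type*} [CommRing R] [Field F'] [Field F] [Algebra R F']
    [Algebra R F] (π : R) (φ : F' →+* F)
    (hφR : ∀ r : R, φ (algebraMap R F' r) = algebraMap R F r)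
    (halg : ∀ z : F, ∃ p : Polynomial F', p.Monic ∧ Polynomial.eval₂ φ z p = 0)
    (O : ValuationSubring F) (hO : s34i47_IsHoriz π O) : s34i47_IsHoriz π (O.comap φ) := by
  obtain ⟨hOtop, hOpir, hOR, hOπ⟩ := hO
  refine ⟨cd30_comap_ne_top φ halg O hOtop, ?_, ?_, ?_⟩
  · have : IsPrincipalIdealRing O := hOpir
    exact cd30_comap_isPrincipalIdealRing φ O
  · intro r
    change φ (algebraMap R F' r) ∈ O
    rw [hφR]
    exact hOR r
  · change φ ((algebraMap R F' π)⁻¹) ∈ O
    rw [map_inv₀, hφR]
    exact hOπ

/-- Instance-generic form (`φ = algebraMap F' F`, e.g. under `letI := algebraAlong ψ`). -/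
theorem cd30_comap_algebraMap_isHoriz {R F' F : Type*} [CommRing R] [Field F'] [Field F]
    [Algebra R F'] [Algebra R F] [Algebra F' F] [Algebra.IsIntegral F' F] (π : R)
    (hR : ∀ r : R, algebraMap F' F (algebraMap R F' r) = algebraMap R F r)
    (O : ValuationSubring F) (hO : s34i47_IsHoriz π O) :
    s34i47_IsHoriz π (O.comap (algebraMap F' F)) :=
  cd30_comap_isHoriz π (algebraMap F' F) hR
    (fun z => Algebra.IsIntegral.isIntegral (R := F') z) O hO

/-- **Unit transport through a norm, horizontal form.**  `O` horizontal in `F`,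
`φ : F' →+* F`; if `y` is a unit of every valuation subring `O''` of `F` whose trace along the
structure map `F' → F` equals `O.comap φ`, then `φ (N y)` is a unit of `O`. -/
theorem cd30_norm_unit_horiz {R F' F : Type*} [CommRing R] [Field F'] [Field F] [Algebra R F]
    [Algebra F' F] [FiniteDimensional F' F] (π : R) (φ : F' →+* F)
    (O : ValuationSubring F) (hO : s34i47_IsHoriz π O) (y : F)
    (hy : ∀ O'' : ValuationSubring F, O''.comap (algebraMap F' F) = O.comap φ →
      y ∈ O'' ∧ y⁻¹ ∈ O'') :
    φ (Algebra.norm F' y) ∈ O ∧ (φ (Algebra.norm F' y))⁻¹ ∈ O := by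
  have : IsPrincipalIdealRing O := hO.2.1
  exact cd30_norm_unit φ O y hy

end Fermat.Agent.S35
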