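import Fermat.Agent.S31.JacSide1
import Fermat.Agent.S31.HeckeLattice42
import Fermat.Agent.S30.Iface37
import Fermat.Agent.S54.Helper96Frob

/-!
# S35 lab, row N3 (helper69): Hecke operators commute with push-forward and with corestriction

No double cosets and no correspondence calculus: everything follows from the Eichler–Shimura
relation on torsion (`fi69_frob`, S42) and the THETA-Z families (`s30i37_ThetaFamily`, S30).

* `ht69_push_hecke` (abstract): if `π : J → J'` commutes with a group action and the quadratic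
  relation `τ² x − T (τ x) + d x = 0` holds on the classes killed by `m` in `J` and in `J'`, then
  `π (T y) = T' (π y)` for every `y` killed by `m`.
* `ht69_push_hecke_JZero` (concrete): for ANY additive `π : JZero N → JZero N'` commuting with the
  `G_ℚ`-action and a prime `ℓ ∤ N`, `ℓ ∤ N'`, `ℓ ∤ p`:
  `π (T_ℓ y) = T_ℓ (π y)` for `p ^ n • y = 0`.
* `ht69_cores_hecke` (abstract): `cor (T_L c) = T_L' (cor c)` from `π ∘ Θ_n = Θ'_n ∘ cor`.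
* `ht69_cores_hecke_family` (concrete): for THETA-Z families `Θ`, `Θ'` at the levels `N`, `N'`
  and the prime `p`, a Galois-equivariant additive `π : JZero N → JZero N'` and an additive
  `cor : Hom_par(Γ₀(N), ℤ) → Hom_par(Γ₀(N'), ℤ)` with `π (Θ n c) = Θ' n (cor c)`:
  `cor (T_ℓ c) = T_ℓ (cor c)` for every prime `ℓ ∤ N`, `ℓ ∤ N'`, `ℓ ≠ p`.
* `ht69_cores_hecke_two` : the same for ALL primes `ℓ ∤ N`, `ℓ ∤ N'`, from the families at two
  distinct primes `p₁ ≠ p₂`.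
* `ht69_cores_comp`, `ht69_cores_baseChange`, `ht69_cores_eigen` : the linear-map form, its base
  change to any commutative ring `O`, and the transport of eigenvectors.
-/

set_option autoImplicit false
set_option linter.style.haveILetI false
set_option linter.unusedSectionVars false
set_option linter.unusedVariables false

open CongruenceSubgroup ModularCurve ModularCurve.Period
open scoped TensorProduct

namespace Fermat.Agent.S35

open Fermat.Agent.S16 Fermat.Agent.S31 Fermat.Agent.S42 Fermat.Agent.S30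

local notation "Qb" => AlgebraicClosure ℚ
local notation "GQ" => AlgebraicClosure ℚ ≃ₐ[ℚ] AlgebraicClosure ℚ

/-! ### Abstract statements -/

/-- **Push-forward commutes with `T`** on the classes killed by `m`, from the quadratic relation
of one group element `τ` on both sides. -/
theorem ht69_push_hecke {G J J' : Type*} [Group G] [AddCommGroup J] [AddCommGroup J']
    [DistribMulAction G J] [DistribMulAction G J']
    (π : J →+ J') (hπ : ∀ (g : G) (x : J), π (g • x) = g • π x)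
    (T : Module.End ℤ J) (T' : Module.End ℤ J') (τ : G) (d m : ℕ)
    (hf : ∀ x : J, m • x = 0 → τ • τ • x - T (τ • x) + d • x = 0)
    (hf' : ∀ x : J', m • x = 0 → τ • τ • x - T' (τ • x) + d • x = 0)
    (y : J) (hy : m • y = 0) : π (T y) = T' (π y) := by
  have hy' : m • π y = 0 := by rw [← map_nsmul, hy, map_zero]
  rw [s31j1_hecke_of_frob τ T d m hf y hy, s31j1_hecke_of_frob τ T' d m hf' (π y) hy',
    map_add, map_nsmul, hπ, hπ]

/-- **Corestriction commutes with `T`** on the lattice, from `π ∘ Θ_n = Θ'_n ∘ cor`, the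
equivariance of `Θ`, `Θ'`, of `π` on the image of `Θ`, and `⋂ ker Θ'_n = 0`. -/
theorem ht69_cores_hecke {L L' J J' : Type*} [AddCommGroup L] [AddCommGroup L']
    [AddCommGroup J] [AddCommGroup J'] (p : ℕ)
    (Θ : ℕ → L →+ J) (Θ' : ℕ → L' →+ J') (π : J →+ J') (cor : L →+ L')
    (h2a : ∀ n c, π (Θ n c) = Θ' n (cor c))
    (TL : L →+ L) (TL' : L' →+ L') (TJ : J →+ J) (TJ' : J' →+ J')
    (hΘ : ∀ n c, TJ (Θ n c) = Θ n (TL c)) (hΘ' : ∀ n c, TJ' (Θ' n c) = Θ' n (TL' c))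
    (hπT : ∀ n c, π (TJ (Θ n c)) = TJ' (π (Θ n c)))
    (hker : ∀ n c, Θ' n c = 0 → ∃ c', c = (p ^ n) • c')
    (hsep : ∀ c : L', (∀ n : ℕ, ∃ c', c = (p ^ n) • c') → c = 0)
    (c : L) : cor (TL c) = TL' (cor c) := by
  refine sub_eq_zero.mp (hsep _ fun n => hker n _ ?_)
  rw [map_sub, ← h2a, ← hΘ, hπT, h2a, hΘ', sub_self]

/-- An integer divisible by every power of `p ≥ 2` is zero. -/
theorem ht69_int_eq_zero {p : ℕ} (hp : 2 ≤ p) (x : ℤ) (h : ∀ n : ℕ, ((p : ℤ) ^ n) ∣ x) :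
    x = 0 := by
  by_contra hx
  have h1 := Int.natAbs_dvd_natAbs.mpr (h x.natAbs)
  have h2 : (p ^ x.natAbs) ≤ x.natAbs := by
    rw [Int.natAbs_pow, Int.natAbs_natCast] at h1
    exact Nat.le_of_dvd (Int.natAbs_pos.mpr hx) h1
  have h3 : x.natAbs < 2 ^ x.natAbs := Nat.lt_two_pow_self
  have h4 : 2 ^ x.natAbs ≤ p ^ x.natAbs := Nat.pow_le_pow_left hp _
  omega

/-! ### Concrete statements -/

/-- **`T_ℓ π = π T_ℓ` on `p`-power torsion** for every additive Galois-equivariant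
`π : JZero N → JZero N'` and every prime `ℓ ∤ N`, `ℓ ∤ N'`, `ℓ ∤ p`. -/
theorem ht69_push_hecke_JZero (N N' p : ℕ) [NeZero N] [NeZero N'] (ℓ : ℕ) (hℓ : ℓ.Prime)
    (hN : ¬ ℓ ∣ N) (hN' : ¬ ℓ ∣ N') (hp : ¬ ℓ ∣ p)
    (π : JZero N →+ JZero N') (hπ : ∀ (g : GQ) (x : JZero N), π (g • x) = g • π x)
    (n : ℕ) (y : JZero N) (hy : p ^ n • y = 0) :
    π (heckeOperatorBar N ⟨ℓ, hℓ⟩ y) = heckeOperatorBar N' ⟨ℓ, hℓ⟩ (π y) := by
  obtain ⟨A, τ, hA, hτ⟩ := Fermat.Agent.S54.exists_isFrobeniusAt ℓ hℓ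
  exact ht69_push_hecke π hπ (heckeOperatorBar N ⟨ℓ, hℓ⟩) (heckeOperatorBar N' ⟨ℓ, hℓ⟩) τ ℓ
    (p ^ n) (fun x hx => fi69_frob N p ℓ hℓ hN hp A hA τ hτ x n hx)
    (fun x hx => fi69_frob N' p ℓ hℓ hN' hp A hA τ hτ x n hx) y hy

/-- The lattice `Hom_par(Γ₀(N), ℤ)` is `p`-adically separated. -/
theorem ht69_sep (N : ℕ) {p : ℕ} (hp : 2 ≤ p) (c : ↥(parabolicHoms ℤ (Gamma0 N) ℤ))
    (h : ∀ n : ℕ, ∃ c' : ↥(parabolicHoms ℤ (Gamma0 N) ℤ), c = (p ^ n) • c') : c = 0 := by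
  apply Subtype.ext
  apply AddMonoidHom.ext
  intro γ
  refine ht69_int_eq_zero hp _ fun n => ?_
  obtain ⟨c', hc'⟩ := h n
  refine ⟨(c' : Additive ↥(Gamma0 N) →+ ℤ) γ, ?_⟩
  rw [hc']
  simp

/-- **Corestriction commutes with `T_ℓ`** (`ℓ ∤ N`, `ℓ ∤ N'`, `ℓ ≠ p`), from the THETA-Z families
at the prime `p` and `π ∘ Θ_n = Θ'_n ∘ cor`. -/
theorem ht69_cores_hecke_family (N N' p : ℕ) [NeZero N] [NeZero N'] (hp : p.Prime)
    (Θ : ℕ → (↥(parabolicHoms ℤ (Gamma0 N) ℤ) →+ JZero N))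
    (Θ' : ℕ → (↥(parabolicHoms ℤ (Gamma0 N') ℤ) →+ JZero N'))
    (hΘ : s30i37_ThetaFamily N p Θ) (hΘ' : s30i37_ThetaFamily N' p Θ')
    (π : JZero N →+ JZero N') (hπ : ∀ (g : GQ) (x : JZero N), π (g • x) = g • π x)
    (cor : ↥(parabolicHoms ℤ (Gamma0 N) ℤ) →+ ↥(parabolicHoms ℤ (Gamma0 N') ℤ))
    (h2a : ∀ n c, π (Θ n c) = Θ' n (cor c))
    (ℓ : ℕ) (hℓ : ℓ.Prime) (hN : ¬ ℓ ∣ N) (hN' : ¬ ℓ ∣ N') (hℓp : ℓ ≠ p)
    (c : ↥(parabolicHoms ℤ (Gamma0 N) ℤ)) :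
    cor (hl42_TL N ℓ c) = hl42_TL N' ℓ (cor c) := by
  obtain ⟨ht, -, hh, -⟩ := hΘ
  obtain ⟨-, hk', hh', -⟩ := hΘ'
  have hnp : ¬ ℓ ∣ p := fun h => hℓp ((Nat.prime_dvd_prime_iff_eq hℓ hp).mp h)
  have hdvd : ∀ (K : ℕ), ¬ ℓ ∣ K → ∀ n : ℕ, ¬ ℓ ∣ K * p ^ n := by
    intro K hK n h
    rcases hℓ.dvd_mul.mp h with h | h
    · exact hK h
    · exact hnp (hℓ.dvd_of_dvd_pow h)
  refine ht69_cores_hecke p Θ Θ' π cor h2a (hl42_TL N ℓ).toAddMonoidHom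
    (hl42_TL N' ℓ).toAddMonoidHom (heckeOperatorBar N ⟨ℓ, hℓ⟩).toAddMonoidHom
    (heckeOperatorBar N' ⟨ℓ, hℓ⟩).toAddMonoidHom ?_ ?_ ?_ hk' (ht69_sep N' hp.two_le) c
  · intro n c
    obtain ⟨hχ, h⟩ := hh n ⟨ℓ, hℓ⟩ (hdvd N hN n) c
    exact h
  · intro n c
    obtain ⟨hχ, h⟩ := hh' n ⟨ℓ, hℓ⟩ (hdvd N' hN' n) c
    exact h
  · intro n c
    refine ht69_push_hecke_JZero N N' p ℓ hℓ hN hN' hnp π hπ n (Θ n c) ?_
    have := ht n c
    rwa [natCast_zsmul] at this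

/-- **Corestriction commutes with `T_ℓ` for ALL primes `ℓ ∤ N`, `ℓ ∤ N'`**, from the families at
two distinct primes. -/
theorem ht69_cores_hecke_two (N N' p₁ p₂ : ℕ) [NeZero N] [NeZero N'] (hp₁ : p₁.Prime)
    (hp₂ : p₂.Prime) (h12 : p₁ ≠ p₂)
    (Θ₁ Θ₂ : ℕ → (↥(parabolicHoms ℤ (Gamma0 N) ℤ) →+ JZero N))
    (Θ₁' Θ₂' : ℕ → (↥(parabolicHoms ℤ (Gamma0 N') ℤ) →+ JZero N'))
    (hΘ₁ : s30i37_ThetaFamily N p₁ Θ₁) (hΘ₁' : s30i37_ThetaFamily N' p₁ Θ₁')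
    (hΘ₂ : s30i37_ThetaFamily N p₂ Θ₂) (hΘ₂' : s30i37_ThetaFamily N' p₂ Θ₂')
    (π : JZero N →+ JZero N') (hπ : ∀ (g : GQ) (x : JZero N), π (g • x) = g • π x)
    (cor : ↥(parabolicHoms ℤ (Gamma0 N) ℤ) →+ ↥(parabolicHoms ℤ (Gamma0 N') ℤ))
    (h2a₁ : ∀ n c, π (Θ₁ n c) = Θ₁' n (cor c)) (h2a₂ : ∀ n c, π (Θ₂ n c) = Θ₂' n (cor c))
    (ℓ : ℕ) (hℓ : ℓ.Prime) (hN : ¬ ℓ ∣ N) (hN' : ¬ ℓ ∣ N')
    (c : ↥(parabolicHoms ℤ (Gamma0 N) ℤ)) :
    cor (hl42_TL N ℓ c) = hl42_TL N' ℓ (cor c) := by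
  by_cases h : ℓ = p₁
  · have h2 : ℓ ≠ p₂ := fun h' => h12 (h.symm.trans h')
    exact ht69_cores_hecke_family N N' p₂ hp₂ Θ₂ Θ₂' hΘ₂ hΘ₂' π hπ cor h2a₂ ℓ hℓ hN hN' h2 c
  · exact ht69_cores_hecke_family N N' p₁ hp₁ Θ₁ Θ₁' hΘ₁ hΘ₁' π hπ cor h2a₁ ℓ hℓ hN hN' h c

/-! ### Linear-map form, base change, eigenvectors -/

section Linear

variable {N N' : ℕ}

/-- The linear-map form of the commutation. -/
theorem ht69_cores_comp (ℓ : ℕ)
    (cor : ↥(parabolicHoms ℤ (Gamma0 N) ℤ) →ₗ[ℤ] ↥(parabolicHoms ℤ (Gamma0 N') ℤ))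
    (h : ∀ c, cor (hl42_TL N ℓ c) = hl42_TL N' ℓ (cor c)) :
    cor ∘ₗ hl42_TL N ℓ = hl42_TL N' ℓ ∘ₗ cor :=
  LinearMap.ext h

/-- Base change of the commutation to a commutative ring `O`. -/
theorem ht69_cores_baseChange (O : Type*) [CommRing O] (ℓ : ℕ)
    (cor : ↥(parabolicHoms ℤ (Gamma0 N) ℤ) →ₗ[ℤ] ↥(parabolicHoms ℤ (Gamma0 N') ℤ))
    (h : ∀ c, cor (hl42_TL N ℓ c) = hl42_TL N' ℓ (cor c))
    (x : O ⊗[ℤ] ↥(parabolicHoms ℤ (Gamma0 N) ℤ)) :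
    cor.baseChange O ((hl42_TL N ℓ).baseChange O x) =
      (hl42_TL N' ℓ).baseChange O (cor.baseChange O x) := by
  have h1 := congrArg (fun f => (LinearMap.baseChange O f) x) (ht69_cores_comp ℓ cor h)
  simpa only [LinearMap.baseChange_comp, LinearMap.comp_apply] using h1

/-- Transport of eigenvectors: the corestriction of a `T_ℓ`-eigenvector is a `T_ℓ`-eigenvector
with the same eigenvalue. -/
theorem ht69_cores_eigen (O : Type*) [CommRing O] (ℓ : ℕ)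
    (cor : ↥(parabolicHoms ℤ (Gamma0 N) ℤ) →ₗ[ℤ] ↥(parabolicHoms ℤ (Gamma0 N') ℤ))
    (h : ∀ c, cor (hl42_TL N ℓ c) = hl42_TL N' ℓ (cor c))
    (x : O ⊗[ℤ] ↥(parabolicHoms ℤ (Gamma0 N) ℤ)) (a : O)
    (hx : (hl42_TL N ℓ).baseChange O x = a • x) :
    (hl42_TL N' ℓ).baseChange O (cor.baseChange O x) = a • cor.baseChange O x := by
  rw [← ht69_cores_baseChange O ℓ cor h x, hx, map_smul]

end Linear

end Fermat.Agent.S35
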