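/-
S35 lab, row N2b (helper28): NEWNESS ON THE LATTICE.

`g` a weight-2 newform of level `M` (Prelude sense: no normalised eigenform of a proper divisor
level `M'` has the eigenvalues of `g` at all primes `ℓ ∤ M`).  Then the lattice
`L(M') = parabolicHoms ℤ (Gamma0 M') ℤ` of a proper divisor level contains NO eigenvector with the
eigenvalues of `g` at the primes `ℓ ∤ M`, over any domain `O` receiving these eigenvalues:

* `nv28_indep`     : `ℤ`-independent integer valued functions are independent over a field of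
                     characteristic `0` (Mathlib only);
* `nv28_char`      : a nonzero eigenvector in `O ⊗ L(N)` for the operators `hl42_TL N ℓ`
                     (`ℓ ∉ S`, `S` containing the primes dividing `N`) with eigenvalues `ι (c ℓ)`
                     gives a ring homomorphism `ψ : heckeAlgebra N 2 S →+* ℂ` with
                     `ψ T_ℓ = j (c ℓ)` (here `j : R →+* ℂ`, `ι : R →+* O`, `ker ι ⊆ ker j`);
* `nv28_eigenhom`  : a ring homomorphism `ψ : heckeAlgebra N 2 S →+* ℂ` occurs in the parabolic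
                     homomorphisms `Hom_par(Γ₀(N), ℂ)`;
* `nv28_eigenform` : a nonzero parabolic homomorphism which is an eigenvector of the Hecke
                     operators at the primes of a set `S` gives a normalised eigenform with these
                     eigenvalues;
* `nv28_newvec`    : the main statement (operators `hl42_TL M' ℓ`);
* `nv28_newvec'`   : the same for any family `TL` of operators whose values are `heckeHom M' ℓ ℤ`
                     (the shape of `s30i37_ETClaim`).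

All names are prefixed `nv28_`.
-/
import Mathlib
import Fermat.Prelude.Def_CuspForm_Newforms
import Fermat.Agent.S41.ESTransfer60
import Fermat.Agent.S31.HeckeLattice42
import Fermat.Agent.S30.EigE4_42
import Fermat.Agent.S30.EigenChar0_28

set_option autoImplicit false
set_option linter.unusedSectionVars false
set_option linter.unusedVariables false
set_option linter.style.longLine false
set_option linter.style.haveILetI false

open CongruenceSubgroup ModularCurve ModularCurve.Period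
open scoped TensorProduct

namespace Fermat.Agent.S35

open Fermat.Agent.S16 Fermat.Agent.S31 Fermat.Agent.S41 Fermat.Agent.S30

/-! ### Independence of integer valued functions -/

/-- `ℤ`-independent integer valued functions are linearly independent over a field of
characteristic `0`. -/
theorem nv28_indep {X κ : Type*} [Fintype κ] [DecidableEq κ] (K : Type*) [Field K] [CharZero K]
    (b : κ → X → ℤ)
    (hb : ∀ m : κ → ℤ, (∀ x, ∑ i, m i * b i x = 0) → m = 0)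
    (c : κ → K) (hc : ∀ x, ∑ i, c i * (b i x : K) = 0) : c = 0 := by
  classical
  let W : Submodule ℚ (κ → ℚ) := Submodule.span ℚ (Set.range fun x : X => fun i => (b i x : ℚ))
  have hW : W = ⊤ := by
    by_contra hne
    obtain ⟨f, hf0, hfW⟩ := Submodule.exists_le_ker_of_lt_top W (lt_top_iff_ne_top.mpr hne)
    have hfx : ∀ w : κ → ℚ, f w = ∑ i, w i * f (Pi.single i 1) := by
      intro w
      rw [LinearMap.pi_apply_eq_sum_univ f w]
      refine Finset.sum_congr rfl fun i _ => ?_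
      rw [smul_eq_mul]
      congr 2
      ext k
      simp [Pi.single_apply, eq_comm]
    obtain ⟨D, hD⟩ := IsLocalization.exist_integer_multiples_of_finite (nonZeroDivisors ℤ)
      (fun i : κ => f (Pi.single i 1))
    choose m hm using hD
    have hD0 : ((D : ℤ) : ℚ) ≠ 0 := by
      have := nonZeroDivisors.coe_ne_zero D
      exact_mod_cast this
    have hm' : ∀ i, (m i : ℚ) = ((D : ℤ) : ℚ) * f (Pi.single i 1) := by
      intro i
      have := hm i
      simpa [Algebra.smul_def] using this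
    have hm0 : m = 0 := by
      apply hb
      intro x
      have h1 : f (fun i => (b i x : ℚ)) = 0 :=
        hfW (Submodule.subset_span ⟨x, rfl⟩)
      rw [hfx] at h1
      have h2 : ((∑ i, m i * b i x : ℤ) : ℚ) = 0 := by
        push_cast
        calc ∑ i, (m i : ℚ) * (b i x : ℚ)
            = ((D : ℤ) : ℚ) * ∑ i, (b i x : ℚ) * f (Pi.single i 1) := by
              rw [Finset.mul_sum]
              refine Finset.sum_congr rfl fun i _ => ?_
              rw [hm' i]; ring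
          _ = 0 := by rw [h1, mul_zero]
      exact_mod_cast h2
    apply hf0
    apply LinearMap.ext
    intro w
    rw [hfx, LinearMap.zero_apply]
    refine Finset.sum_eq_zero fun i _ => ?_
    have h3 : ((D : ℤ) : ℚ) * f (Pi.single i 1) = 0 := by
      rw [← hm' i, hm0]; simp
    rcases mul_eq_zero.mp h3 with h | h
    · exact absurd h hD0
    · rw [h, mul_zero]
  let Λ : (κ → ℚ) →ₗ[ℚ] K :=
    ∑ i, (LinearMap.proj i : (κ → ℚ) →ₗ[ℚ] ℚ).smulRight (c i)
  have hΛ : ∀ w : κ → ℚ, Λ w = ∑ i, c i * (w i : K) := by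
    intro w
    simp only [Λ, LinearMap.sum_apply, LinearMap.smulRight_apply, LinearMap.proj_apply]
    refine Finset.sum_congr rfl fun i _ => ?_
    rw [Rat.smul_def, mul_comm]
  have hker : W ≤ LinearMap.ker Λ := by
    refine Submodule.span_le.mpr ?_
    rintro _ ⟨x, rfl⟩
    rw [SetLike.mem_coe, LinearMap.mem_ker, hΛ]
    have := hc x
    simpa using this
  funext k
  have hk : (Pi.single k 1 : κ → ℚ) ∈ LinearMap.ker Λ := hker (hW ▸ Submodule.mem_top)
  rw [LinearMap.mem_ker, hΛ] at hk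
  rw [Finset.sum_eq_single k] at hk
  · simpa using hk
  · intro i _ hik
    simp [hik]
  · intro h; exact absurd (Finset.mem_univ k) h

/-! ### Base change of endomorphisms, pointwise -/

section BC

variable {L : Type*} [AddCommGroup L] {O : Type*} [CommRing O]

theorem nv28_bc_add (f g : Module.End ℤ L) (y : O ⊗[ℤ] L) :
    (f + g).baseChange O y = f.baseChange O y + g.baseChange O y := by
  rw [LinearMap.baseChange_add, LinearMap.add_apply]

theorem nv28_bc_mul (f g : Module.End ℤ L) (y : O ⊗[ℤ] L) :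
    (f * g).baseChange O y = f.baseChange O (g.baseChange O y) := by
  rw [Module.End.mul_eq_comp, LinearMap.baseChange_comp, LinearMap.comp_apply]

theorem nv28_bc_one (y : O ⊗[ℤ] L) : (1 : Module.End ℤ L).baseChange O y = y := by
  rw [Module.End.one_eq_id, LinearMap.baseChange_id, LinearMap.id_apply]

theorem nv28_bc_zero (y : O ⊗[ℤ] L) : (0 : Module.End ℤ L).baseChange O y = 0 := by
  rw [LinearMap.baseChange_zero, LinearMap.zero_apply]

theorem nv28_bc_int (r : ℤ) (y : O ⊗[ℤ] L) :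
    ((r : Module.End ℤ L)).baseChange O y = (r : O) • y := by
  have h2 : ((r : Module.End ℤ L)) = r • LinearMap.id := by
    rw [← Module.End.one_eq_id, zsmul_eq_mul, mul_one]
  rw [h2, LinearMap.baseChange_smul, LinearMap.baseChange_id, LinearMap.smul_apply,
    LinearMap.id_apply, Int.cast_smul_eq_zsmul]

end BC

/-! ### The eigencharacter of an eigenvector -/

section Char

variable (N : ℕ) [NeZero N] (S : Set ℕ)

/-- `O ⊗[ℤ] L(N)` is torsion-free over the domain `O`. -/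
theorem nv28_smul_eq_zero {O : Type*} [CommRing O] [IsDomain O] (a : O)
    (y : O ⊗[ℤ] ↥(parabolicHoms ℤ (Gamma0 N) ℤ)) (h : a • y = 0) : a = 0 ∨ y = 0 := by
  classical
  haveI := ee42_finite N
  haveI := ee42_free N
  let b := Module.Free.chooseBasis ℤ ↥(parabolicHoms ℤ (Gamma0 N) ℤ)
  let B := Algebra.TensorProduct.basis O b
  by_cases ha : a = 0
  · exact Or.inl ha
  · right
    apply B.repr.injective
    ext i
    have h1 := congrArg (fun z => B.repr z i) h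
    simp only [map_smul, Finsupp.smul_apply, smul_eq_mul, map_zero, Finsupp.zero_apply] at h1
    rcases mul_eq_zero.mp h1 with h2 | h2
    · exact absurd h2 ha
    · simpa using h2

/-- Every element of the Hecke algebra away from `S` (`S` containing the primes dividing `N`)
acts on an eigenvector of the `hl42_TL N ℓ`, `ℓ ∉ S`, with eigenvalues in `ι(R)`, through a
scalar in `ι(R)`. -/
theorem nv28_scalar (hS : ∀ q : ℕ, q.Prime → q ∣ N → q ∈ S)
    {O : Type*} [CommRing O] {R : Type*} [CommRing R] (ι : R →+* O) (c : ℕ → R)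
    (y : O ⊗[ℤ] ↥(parabolicHoms ℤ (Gamma0 N) ℤ))
    (hy : ∀ ℓ : ℕ, ℓ.Prime → ℓ ∉ S → (hl42_TL N ℓ).baseChange O y = ι (c ℓ) • y)
    (t : CuspForm.heckeAlgebra N 2 S) :
    ∃ r : R, (hl42_act N S t).baseChange O y = ι r • y := by
  obtain ⟨t, ht⟩ := t
  induction ht using Algebra.adjoin_induction with
  | mem x hx =>
    rcases hx with ⟨ℓ, hℓ, hℓN, hℓS, rfl⟩ | ⟨q, hqN, hq, hqS, rfl⟩
    · refine ⟨c ℓ, ?_⟩
      have h1 : (⟨CuspForm.heckeTLin 2 hℓ hℓN, Algebra.subset_adjoin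
          (Or.inl ⟨ℓ, hℓ, hℓN, hℓS, rfl⟩)⟩ : CuspForm.heckeAlgebra N 2 S)
          = CuspForm.heckeAlgebra.T hℓ hℓN hℓS := rfl
      rw [h1, hl42_act_T]
      exact hy ℓ hℓ hℓS
    · exact absurd (hS q hq hqN) hqS
  | algebraMap r =>
    refine ⟨(r : R), ?_⟩
    have h1 : (⟨algebraMap ℤ _ r, Subalgebra.algebraMap_mem _ r⟩ : CuspForm.heckeAlgebra N 2 S)
        = algebraMap ℤ (CuspForm.heckeAlgebra N 2 S) r := rfl
    rw [h1, eq_intCast, map_intCast, map_intCast, nv28_bc_int]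
  | add x₁ x₂ h₁ h₂ ih₁ ih₂ =>
    obtain ⟨r₁, hr₁⟩ := ih₁
    obtain ⟨r₂, hr₂⟩ := ih₂
    refine ⟨r₁ + r₂, ?_⟩
    have h1 : (⟨x₁ + x₂, Subalgebra.add_mem _ h₁ h₂⟩ : CuspForm.heckeAlgebra N 2 S)
        = ⟨x₁, h₁⟩ + ⟨x₂, h₂⟩ := rfl
    rw [h1, map_add (hl42_act N S), nv28_bc_add, hr₁, hr₂, map_add ι, add_smul]
  | mul x₁ x₂ h₁ h₂ ih₁ ih₂ =>
    obtain ⟨r₁, hr₁⟩ := ih₁
    obtain ⟨r₂, hr₂⟩ := ih₂
    refine ⟨r₁ * r₂, ?_⟩
    have h1 : (⟨x₁ * x₂, Subalgebra.mul_mem _ h₁ h₂⟩ : CuspForm.heckeAlgebra N 2 S)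
        = ⟨x₁, h₁⟩ * ⟨x₂, h₂⟩ := rfl
    rw [h1, map_mul (hl42_act N S), nv28_bc_mul, hr₂, LinearMap.map_smul, hr₁, smul_smul,
      map_mul ι, mul_comm]

/-- **The eigencharacter.**  A nonzero eigenvector in `O ⊗ L(N)` of the operators `hl42_TL N ℓ`
(`ℓ ∉ S`) with eigenvalues `ι (c ℓ)` gives a ring homomorphism of the Hecke algebra to `ℂ` with
`T_ℓ ↦ j (c ℓ)`. -/
theorem nv28_char (hS : ∀ q : ℕ, q.Prime → q ∣ N → q ∈ S)
    {O : Type*} [CommRing O] [IsDomain O] {R : Type*} [CommRing R] (j : R →+* ℂ) (ι : R →+* O)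
    (hker : ∀ r, ι r = 0 → j r = 0) (c : ℕ → R)
    (y : O ⊗[ℤ] ↥(parabolicHoms ℤ (Gamma0 N) ℤ)) (hy0 : y ≠ 0)
    (hy : ∀ ℓ : ℕ, ℓ.Prime → ℓ ∉ S → (hl42_TL N ℓ).baseChange O y = ι (c ℓ) • y) :
    ∃ ψ : CuspForm.heckeAlgebra N 2 S →+* ℂ,
      ∀ (ℓ : ℕ) (hℓ : ℓ.Prime) (hℓN : ¬ ℓ ∣ N) (hℓS : ℓ ∉ S),
        ψ (CuspForm.heckeAlgebra.T hℓ hℓN hℓS) = j (c ℓ) := by
  classical
  choose r hr using nv28_scalar N S hS ι c y hy
  have huniq : ∀ (t : CuspForm.heckeAlgebra N 2 S) (r' : R),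
      (hl42_act N S t).baseChange O y = ι r' • y → j (r t) = j r' := by
    intro t r' h
    have h1 : ι (r t - r') • y = 0 := by
      rw [map_sub, sub_smul, ← hr t, ← h, sub_self]
    rcases nv28_smul_eq_zero N _ y h1 with h2 | h2
    · have h3 := hker _ h2
      rwa [map_sub, sub_eq_zero] at h3
    · exact absurd h2 hy0
  refine ⟨{ toFun := fun t => j (r t), map_one' := ?_, map_mul' := ?_, map_zero' := ?_,
            map_add' := ?_ }, ?_⟩
  · have h1 : (hl42_act N S 1).baseChange O y = ι 1 • y := by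
      rw [map_one (hl42_act N S), nv28_bc_one, map_one ι, one_smul]
    show j (r 1) = 1
    rw [huniq 1 1 h1, map_one j]
  · intro s t
    have h1 : (hl42_act N S (s * t)).baseChange O y = ι (r s * r t) • y := by
      rw [map_mul (hl42_act N S), nv28_bc_mul, hr t, LinearMap.map_smul, hr s, smul_smul,
        map_mul ι, mul_comm]
    show j (r (s * t)) = j (r s) * j (r t)
    rw [huniq (s * t) (r s * r t) h1, map_mul j]
  · have h1 : (hl42_act N S 0).baseChange O y = ι 0 • y := by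
      rw [map_zero (hl42_act N S), nv28_bc_zero, map_zero ι, zero_smul]
    show j (r 0) = 0
    rw [huniq 0 0 h1, map_zero j]
  · intro s t
    have h1 : (hl42_act N S (s + t)).baseChange O y = ι (r s + r t) • y := by
      rw [map_add (hl42_act N S), nv28_bc_add, hr s, hr t, map_add ι, add_smul]
    show j (r (s + t)) = j (r s) + j (r t)
    rw [huniq (s + t) (r s + r t) h1, map_add j]
  · intro ℓ hℓ hℓN hℓS
    exact huniq _ (c ℓ) (by rw [hl42_act_T]; exact hy ℓ hℓ hℓS)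

end Char

/-! ### Characters of the Hecke algebra occur in the parabolic homomorphisms -/

section Occur

variable (N : ℕ) [NeZero N] (S : Set ℕ)

/-- The `ℂ`-linear extension of the inclusion of the lattice into `Hom(Γ₀(N), ℂ)`. -/
noncomputable def nv28_J :
    ℂ ⊗[ℤ] ↥(parabolicHoms ℤ (Gamma0 N) ℤ) →ₗ[ℂ] (Additive (Gamma0 N) →+ ℂ) :=
  LinearMap.liftBaseChange ℂ (hl42_iota N)

theorem nv28_J_tmul (a : ℂ) (l : ↥(parabolicHoms ℤ (Gamma0 N) ℤ)) :
    nv28_J N (a ⊗ₜ[ℤ] l) = a • hl42_iota N l :=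
  LinearMap.liftBaseChange_tmul ℂ (hl42_iota N) a l

theorem nv28_J_hecke (ℓ : ℕ) (x : ℂ ⊗[ℤ] ↥(parabolicHoms ℤ (Gamma0 N) ℤ)) :
    nv28_J N ((hl42_TL N ℓ).baseChange ℂ x) = heckeHom N ℓ ℂ (nv28_J N x) := by
  induction x using TensorProduct.induction_on with
  | zero => rw [map_zero, map_zero, map_zero]
  | tmul a l =>
    rw [LinearMap.baseChange_tmul, nv28_J_tmul, nv28_J_tmul, hl42_hecke_smul, ← hl42_TC_apply,
      hl42_TC_iota]
  | add x y hx hy => rw [map_add, map_add, hx, hy, map_add, map_add]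

theorem nv28_J_mem (x : ℂ ⊗[ℤ] ↥(parabolicHoms ℤ (Gamma0 N) ℤ)) :
    nv28_J N x ∈ parabolicHoms ℂ (Gamma0 N) ℂ := by
  induction x using TensorProduct.induction_on with
  | zero => rw [map_zero]; exact Submodule.zero_mem _
  | tmul a l => rw [nv28_J_tmul]; exact Submodule.smul_mem _ _ (hl42_iota_parabolic N l)
  | add x y hx hy => rw [map_add]; exact Submodule.add_mem _ hx hy

/-- `nv28_J` is injective on coordinate vectors: a `ℤ`-basis of the lattice is `ℂ`-independent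
in `Hom(Γ₀(N), ℂ)`. -/
theorem nv28_J_sum_ne_zero {κ : Type*} [Fintype κ] [DecidableEq κ]
    (b : Module.Basis κ ℤ ↥(parabolicHoms ℤ (Gamma0 N) ℤ)) (v : κ → ℂ) (hv : v ≠ 0) :
    nv28_J N (∑ i, v i ⊗ₜ[ℤ] b i) ≠ 0 := by
  intro h0
  apply hv
  refine nv28_indep ℂ (fun i (γ : Additive (Gamma0 N)) =>
    ((b i : ↥(parabolicHoms ℤ (Gamma0 N) ℤ)) : Additive (Gamma0 N) →+ ℤ) γ) ?_ v ?_
  · intro m hm
    have h1 : ∑ i, m i • b i = 0 := by
      apply Subtype.ext
      apply AddMonoidHom.ext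
      intro γ
      have h2 := hm γ
      simp only [Submodule.coe_sum, Submodule.coe_smul, AddMonoidHom.finsetSum_apply,
        AddMonoidHom.smul_apply, smul_eq_mul, ZeroMemClass.coe_zero, AddMonoidHom.zero_apply]
      exact h2
    exact funext fun i => Fintype.linearIndependent_iff.mp b.linearIndependent m h1 i
  · intro γ
    have h1 := congrArg (fun χ : Additive (Gamma0 N) →+ ℂ => χ γ) h0
    simp only [map_sum, nv28_J_tmul, AddMonoidHom.finsetSum_apply, AddMonoidHom.smul_apply,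
      hl42_iota_apply, smul_eq_mul, AddMonoidHom.zero_apply] at h1
    exact h1

/-- **Every character of the Hecke algebra occurs in the parabolic homomorphisms.** -/
theorem nv28_eigenhom (ψ : CuspForm.heckeAlgebra N 2 S →+* ℂ) :
    ∃ χ : Additive (Gamma0 N) →+ ℂ, χ ∈ parabolicHoms ℂ (Gamma0 N) ℂ ∧ χ ≠ 0 ∧
      ∀ (ℓ : ℕ) (hℓ : ℓ.Prime) (hℓN : ¬ ℓ ∣ N) (hℓS : ℓ ∉ S),
        heckeHom N ℓ ℂ χ = ψ (CuspForm.heckeAlgebra.T hℓ hℓN hℓS) • χ := by
  classical
  haveI := ee42_finite N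
  haveI := ee42_free N
  obtain ⟨v, hv0, hv⟩ := ec0_28_coords (hl42_act N S) (hl42_act_injective N S) ψ
  refine ⟨nv28_J N (∑ i, v i ⊗ₜ[ℤ] Module.Free.chooseBasis ℤ ↥(parabolicHoms ℤ (Gamma0 N) ℤ) i),
    nv28_J_mem N _, nv28_J_sum_ne_zero N _ v hv0, ?_⟩
  intro ℓ hℓ hℓN hℓS
  rw [← nv28_J_hecke, ← hl42_act_T N S hℓ hℓN hℓS, hv, map_smul]

/-- A nonzero parabolic homomorphism which is an eigenvector of the Hecke operators at the
elements of `S` gives a normalised eigenform of the same level with these eigenvalues. -/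
theorem nv28_eigenform (v : Additive (Gamma0 N) →+ ℂ)
    (hpar : v ∈ parabolicHoms ℂ (Gamma0 N) ℂ) (hv : v ≠ 0) (μ : ℕ → ℂ)
    (heig : ∀ ℓ ∈ S, heckeHom N ℓ ℂ v = μ ℓ • v) :
    ∃ g : CuspForm (Gamma0 N) 2, g.IsNormalizedEigenform ∧
      ∀ ℓ ∈ S, ℓ.Prime → ModularFormClass.qCoeff g ℓ = μ ℓ := by
  classical
  haveI := es60_finiteDimensional N
  obtain ⟨f, hf, hf1, -⟩ := es60_exists_form S ∅ v hpar hv μ heig
    (fun ℓ hℓ => absurd hℓ (Set.notMem_empty ℓ))
  let W : Submodule ℂ (CuspForm (Gamma0 N) 2) :=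
    { carrier := {h | ∀ ℓ ∈ S, es60_T N ℓ h = μ ℓ • h}
      add_mem' := by
        intro a b ha hb ℓ hℓ
        rw [map_add, ha ℓ hℓ, hb ℓ hℓ, smul_add]
      zero_mem' := fun ℓ _ => by rw [map_zero, smul_zero]
      smul_mem' := by
        intro c a ha ℓ hℓ
        rw [map_smul, ha ℓ hℓ, smul_comm] }
  have hWmem : ∀ h, h ∈ W ↔ ∀ ℓ ∈ S, es60_T N ℓ h = μ ℓ • h := fun h => Iff.rfl
  have hW : W ≠ ⊥ := by
    intro h0
    apply hf
    have hfW : f ∈ W := (hWmem f).2 hf1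
    rw [h0] at hfW
    exact (Submodule.mem_bot ℂ).1 hfW
  let 𝒯 : Set (Module.End ℂ (CuspForm (Gamma0 N) 2)) := Set.range (es60_T N)
  have hcomm : ∀ A ∈ 𝒯, ∀ B ∈ 𝒯, ∀ x : CuspForm (Gamma0 N) 2, A (B x) = B (A x) := by
    rintro _ ⟨ℓ, rfl⟩ _ ⟨ℓ', rfl⟩ x
    exact es60_T_comm_apply ℓ ℓ' x
  have hinv : ∀ A ∈ 𝒯, ∀ w ∈ W, A w ∈ W := by
    rintro _ ⟨ℓ', rfl⟩ w hw
    refine (hWmem _).2 fun ℓ hℓ => ?_
    rw [es60_T_comm_apply ℓ ℓ' w, (hWmem w).1 hw ℓ hℓ, map_smul]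
  obtain ⟨w, hwW, hw0, hwe⟩ := Fermat.Agent.S49.exists_common_eigenvector 𝒯 hcomm W hW hinv
  have hw1 := (hWmem w).1 hwW
  choose lam hlam using fun ℓ : ℕ => hwe (es60_T N ℓ) ⟨ℓ, rfl⟩
  obtain ⟨g, hg, hgp⟩ := Fermat.Agent.S49.exists_normalized_of_eigenvector w hw0 lam
    (fun p hp hpM => by rw [← es60_T_of_not_dvd hp hpM]; exact hlam p)
    (fun p hp hpM => by rw [← es60_T_of_dvd hp hpM]; exact hlam p)
  refine ⟨g, hg, fun ℓ hℓ hℓp => ?_⟩
  rw [hgp ℓ hℓp]
  have h := hw1 ℓ hℓ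
  rw [hlam ℓ] at h
  exact smul_left_injective ℂ hw0 h

end Occur

/-! ### Newness on the lattice -/

/-- **(2b) Newness on the lattice.**  `g` a newform of level `M`, `M'` a proper divisor of `M`.
An element `y` of `O ⊗ L(M')` (`O` a domain) which is an eigenvector of the Hecke operators
`hl42_TL M' ℓ` at ALL primes `ℓ ∤ M` with the eigenvalues of `g` (transported by
`j : R →+* ℂ`, `ι : R →+* O`, `ker ι ⊆ ker j`, `j (c ℓ) = a_ℓ(g)`) vanishes. -/
theorem nv28_newvec {M : ℕ} [NeZero M] {g : CuspForm (Gamma0 M) 2} (hg : g.IsNewform)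
    (M' : ℕ) [NeZero M'] (hM' : M' ∣ M) (hne : M' ≠ M)
    {O : Type*} [CommRing O] [IsDomain O] {R : Type*} [CommRing R] (j : R →+* ℂ) (ι : R →+* O)
    (hker : ∀ r, ι r = 0 → j r = 0) (c : ℕ → R)
    (hc : ∀ ℓ : ℕ, ℓ.Prime → ¬ ℓ ∣ M → j (c ℓ) = ModularFormClass.qCoeff g ℓ)
    (y : O ⊗[ℤ] ↥(parabolicHoms ℤ (Gamma0 M') ℤ))
    (hy : ∀ ℓ : ℕ, ℓ.Prime → ¬ ℓ ∣ M → (hl42_TL M' ℓ).baseChange O y = ι (c ℓ) • y) :
    y = 0 := by
  by_contra hy0
  have hS : ∀ q : ℕ, q.Prime → q ∣ M' → q ∈ {ℓ : ℕ | ℓ ∣ M} := fun q _ hq => dvd_trans hq hM'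
  obtain ⟨ψ, hψ⟩ := nv28_char M' {ℓ : ℕ | ℓ ∣ M} hS j ι hker c y hy0
    (fun ℓ hℓ hℓS => hy ℓ hℓ hℓS)
  obtain ⟨χ, hχpar, hχ0, hχ⟩ := nv28_eigenhom M' {ℓ : ℕ | ℓ ∣ M} ψ
  obtain ⟨h, hh, hhe⟩ := nv28_eigenform M' {ℓ : ℕ | ℓ.Prime ∧ ¬ ℓ ∣ M} χ hχpar hχ0
    (fun ℓ => j (c ℓ)) (fun ℓ hℓ => by
      have hℓN : ¬ ℓ ∣ M' := fun hd => hℓ.2 (dvd_trans hd hM')
      rw [hχ ℓ hℓ.1 hℓN hℓ.2, hψ])
  exact hg.2 M' hM' hne ⟨h, hh, fun ℓ hℓ hℓM => by rw [hhe ℓ ⟨hℓ, hℓM⟩ hℓ, hc ℓ hℓ hℓM]⟩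

/-- **(2b), the shape of `s30i37_ETClaim`**: the same for any family `TL` of endomorphisms of the
lattice whose values are given by `heckeHom M' ℓ ℤ` at the primes `ℓ ∤ M`. -/
theorem nv28_newvec' {M : ℕ} [NeZero M] {g : CuspForm (Gamma0 M) 2} (hg : g.IsNewform)
    (M' : ℕ) [NeZero M'] (hM' : M' ∣ M) (hne : M' ≠ M)
    {O : Type*} [CommRing O] [IsDomain O] {R : Type*} [CommRing R] (j : R →+* ℂ) (ι : R →+* O)
    (hker : ∀ r, ι r = 0 → j r = 0) (c : ℕ → R)
    (hc : ∀ ℓ : ℕ, ℓ.Prime → ¬ ℓ ∣ M → j (c ℓ) = ModularFormClass.qCoeff g ℓ)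
    (TL : ℕ → Module.End ℤ ↥(parabolicHoms ℤ (Gamma0 M') ℤ))
    (hTL : ∀ ℓ : ℕ, ℓ.Prime → ¬ ℓ ∣ M → ∀ x : ↥(parabolicHoms ℤ (Gamma0 M') ℤ),
      ((TL ℓ x : ↥(parabolicHoms ℤ (Gamma0 M') ℤ)) : Additive ↥(Gamma0 M') →+ ℤ) =
        heckeHom M' ℓ ℤ (x : Additive ↥(Gamma0 M') →+ ℤ))
    (y : O ⊗[ℤ] ↥(parabolicHoms ℤ (Gamma0 M') ℤ))
    (hy : ∀ ℓ : ℕ, ℓ.Prime → ¬ ℓ ∣ M → (TL ℓ).baseChange O y = ι (c ℓ) • y) :
    y = 0 :=
  nv28_newvec hg M' hM' hne j ι hker c hc y fun ℓ hℓ hℓM => by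
    have h1 : hl42_TL M' ℓ = TL ℓ :=
      LinearMap.ext fun x => Subtype.ext (hTL ℓ hℓ hℓM x).symm
    rw [h1]
    exact hy ℓ hℓ hℓM

end Fermat.Agent.S35
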