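import Fermat.Agent.S35.ThetaAlphaPush22
import Fermat.Agent.S35.HeckeTransfer69
import Fermat.Agent.S35.NewVec28

/-!
# S35 lab, rows N2a-alpha + N3 (helper22): the transfer along `α` commutes with ALL `T_ℓ`, `ℓ ∤ N q`

`tah22_corPar_hecke` : for ANY additive, `G_ℚ`-equivariant `π : JZero (N q) →+ JZero N` which is
the pushforward along `α = heckeAlphaBar` on classes of degree-zero divisors, and every prime
`ℓ ∤ N q`: `taf22_corPar N q (T_ℓ c) = T_ℓ (taf22_corPar N q c)` on the lattices of integral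
parabolic homomorphisms.  Proof: helper69's `ht69_cores_hecke_two` with the THETA-Z families
(`te22_family`) at the two primes `2`, `3` and `taf22_compat_alpha_push`.

`tah22_corPar_eigen` : transport of eigenvectors over any commutative ring `O`.

`tah22_corPar_newvec` : **(2b) for α** — if `g` is a NEWFORM of level `N q`, every
`x ∈ O ⊗ Hom_par(Γ₀(N q), ℤ)` which is an eigenvector of all `T_ℓ`, `ℓ ∤ N q`, with the
eigenvalues of `g` (through `j : R → ℂ`, `ι : R → O`, `ker ι ⊆ ker j`), is killed by the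
transfer along `α` (helper28's `nv28_newvec`).
-/

set_option autoImplicit false
set_option linter.unusedSectionVars false
set_option linter.unusedVariables false
set_option linter.style.longLine false
set_option linter.style.haveILetI false

open CongruenceSubgroup ModularCurve ModularCurve.Period AlgebraicCurve UpperHalfPlane
open scoped MatrixGroups TensorProduct

namespace Fermat.Agent.S35

open Fermat.Agent.S16 Fermat.Agent.S24 Fermat.Agent.S42 Fermat.Agent.S41 Fermat.Agent.S37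
open Fermat.Agent.S31 Fermat.Agent.S30

local notation "Qb" => AlgebraicClosure ℚ
local notation "GQ" => AlgebraicClosure ℚ ≃ₐ[ℚ] AlgebraicClosure ℚ

section tah22

variable (N q : ℕ) [NeZero N] [NeZero q]

/-- **The transfer along `α` commutes with `T_ℓ` for every prime `ℓ ∤ N q`.** -/
theorem tah22_corPar_hecke (hq : q.Prime) (hqN : ¬ q ∣ N)
    (π : JZero (N * q) →+ JZero N)
    (hπ : ∀ D : Divisor.degZero (K := Qb) (F := ↥(modularFunctionFieldBar (N * q))),
      π (Pic0.mk D) = Pic0.mk ⟨Divisor.pushforwardAlong (heckeAlphaBar Qb N q)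
        (hx63_heckeAlphaBarIntegral N q) (D : Divisor Qb ↥(modularFunctionFieldBar (N * q))),
        Divisor.pushforwardAlong_mem_degZero _ _ D.2⟩)
    (hgal : ∀ (g : GQ) (x : JZero (N * q)), π (g • x) = g • π x)
    (ℓ : ℕ) (hℓ : ℓ.Prime) (hℓNq : ¬ ℓ ∣ N * q)
    (c : ↥(parabolicHoms ℤ (Gamma0 (N * q)) ℤ)) :
    taf22_corPar N q (hl42_TL (N * q) ℓ c) = hl42_TL N ℓ (taf22_corPar N q c) := by
  have hℓN : ¬ ℓ ∣ N := fun h => hℓNq (Dvd.dvd.mul_right h q)
  obtain ⟨Θ₁, a1, a2, a3, a4, hex1, hev1⟩ := te22_family (N * q) 2 two_ne_zero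
  obtain ⟨Θ₁', b1, b2, b3, b4, -, hev1'⟩ := te22_family N 2 two_ne_zero
  obtain ⟨Θ₂, c1, c2, c3, c4, hex2, hev2⟩ := te22_family (N * q) 3 three_ne_zero
  obtain ⟨Θ₂', d1, d2, d3, d4, -, hev2'⟩ := te22_family N 3 three_ne_zero
  exact ht69_cores_hecke_two (N * q) N 2 3 Nat.prime_two Nat.prime_three (by decide)
    Θ₁ Θ₂ Θ₁' Θ₂' ⟨a1, a2, a3, a4⟩ ⟨b1, b2, b3, b4⟩ ⟨c1, c2, c3, c4⟩ ⟨d1, d2, d3, d4⟩
    π hgal (taf22_corPar N q)
    (taf22_compat_alpha_push N q hq hqN 2 two_ne_zero Θ₁ hex1 hev1 Θ₁' hev1' π hπ)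
    (taf22_compat_alpha_push N q hq hqN 3 three_ne_zero Θ₂ hex2 hev2 Θ₂' hev2' π hπ)
    ℓ hℓ hℓNq hℓN c

/-- **Transport of eigenvectors along the transfer**, over any commutative ring `O`. -/
theorem tah22_corPar_eigen (hq : q.Prime) (hqN : ¬ q ∣ N)
    (π : JZero (N * q) →+ JZero N)
    (hπ : ∀ D : Divisor.degZero (K := Qb) (F := ↥(modularFunctionFieldBar (N * q))),
      π (Pic0.mk D) = Pic0.mk ⟨Divisor.pushforwardAlong (heckeAlphaBar Qb N q)
        (hx63_heckeAlphaBarIntegral N q) (D : Divisor Qb ↥(modularFunctionFieldBar (N * q))),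
        Divisor.pushforwardAlong_mem_degZero _ _ D.2⟩)
    (hgal : ∀ (g : GQ) (x : JZero (N * q)), π (g • x) = g • π x)
    (O : Type*) [CommRing O] (ℓ : ℕ) (hℓ : ℓ.Prime) (hℓNq : ¬ ℓ ∣ N * q)
    (x : O ⊗[ℤ] ↥(parabolicHoms ℤ (Gamma0 (N * q)) ℤ)) (a : O)
    (hx : (hl42_TL (N * q) ℓ).baseChange O x = a • x) :
    (hl42_TL N ℓ).baseChange O ((taf22_corPar N q).toIntLinearMap.baseChange O x)
      = a • (taf22_corPar N q).toIntLinearMap.baseChange O x :=
  ht69_cores_eigen O ℓ (taf22_corPar N q).toIntLinearMap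
    (fun c => tah22_corPar_hecke N q hq hqN π hπ hgal ℓ hℓ hℓNq c) x a hx

/-- **(2b) for `α`**: an eigenvector with the eigensystem of a newform of level `N q` is killed
by the transfer to level `N`. -/
theorem tah22_corPar_newvec (hq : q.Prime) (hqN : ¬ q ∣ N)
    (π : JZero (N * q) →+ JZero N)
    (hπ : ∀ D : Divisor.degZero (K := Qb) (F := ↥(modularFunctionFieldBar (N * q))),
      π (Pic0.mk D) = Pic0.mk ⟨Divisor.pushforwardAlong (heckeAlphaBar Qb N q)
        (hx63_heckeAlphaBarIntegral N q) (D : Divisor Qb ↥(modularFunctionFieldBar (N * q))),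
        Divisor.pushforwardAlong_mem_degZero _ _ D.2⟩)
    (hgal : ∀ (g : GQ) (x : JZero (N * q)), π (g • x) = g • π x)
    {g : CuspForm (Gamma0 (N * q)) 2} (hg : g.IsNewform)
    {O : Type*} [CommRing O] [IsDomain O] {R : Type*} [CommRing R] (j : R →+* ℂ) (ι : R →+* O)
    (hker : ∀ r, ι r = 0 → j r = 0) (c : ℕ → R)
    (hc : ∀ ℓ : ℕ, ℓ.Prime → ¬ ℓ ∣ N * q → j (c ℓ) = ModularFormClass.qCoeff g ℓ)
    (x : O ⊗[ℤ] ↥(parabolicHoms ℤ (Gamma0 (N * q)) ℤ))
    (hx : ∀ ℓ : ℕ, ℓ.Prime → ¬ ℓ ∣ N * q → (hl42_TL (N * q) ℓ).baseChange O x = ι (c ℓ) • x) :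
    (taf22_corPar N q).toIntLinearMap.baseChange O x = 0 := by
  have hne : N ≠ N * q := by
    intro h
    have h1 : N * 1 = N * q := by rw [mul_one]; exact h
    exact hq.one_lt.ne (Nat.eq_of_mul_eq_mul_left (Nat.pos_of_ne_zero (NeZero.ne N)) h1)
  exact nv28_newvec hg N (Dvd.intro q rfl) hne j ι hker c hc _ fun ℓ hℓ hℓM =>
    tah22_corPar_eigen N q hq hqN π hπ hgal O ℓ hℓ hℓM x (ι (c ℓ)) (hx ℓ hℓ hℓM)

end tah22

end Fermat.Agent.S35
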