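import Fermat.Agent.S42.HeckeHK10
import Fermat.Agent.S37.NormConj73
import Fermat.Agent.S37.AtkinLehner47

/-!
# S35 lab, (2a) β-half (helper75): the analytic norm formula along `β`

For a prime `q ∤ N` the norm along `β : F(N) → F(N q)`, `f(τ) ↦ f(qτ)`, is a product of
translates on the analytic side:

`ev0_N (Nm_β y) = ∏ i, (r i * diag(q,1)) • ev0_{Nq} y`

for every family `r i ∈ Γ₀(N)`, `q + 1` in number, pairwise inequivalent modulo
`Γ₀(N) ∩ Γ⁰(q)` (i.e. `q ∣ ((r j)⁻¹ * r i) 0 1 → i = j`).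

* `nb75_stab` : an element `g ∈ SL(2,ℤ)` fixing `τ ↦ j(τ/q)` has `q ∣ g 0 1`.
* `nb75_beta_hnorm` : the norm formula (any family).
* `nb75_reps`, `nb75_reps_spec`, `nb75_reps_complete` : an explicit family
  (`T^b`, `b < q`, and one element with lower right entry `q`), pairwise inequivalent and
  complete.
-/

set_option autoImplicit false
set_option linter.unusedSectionVars false
set_option linter.unusedVariables false
set_option linter.style.longLine false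
set_option linter.style.haveILetI false
set_option synthInstance.maxHeartbeats 400000

open CongruenceSubgroup ModularCurve AlgebraicCurve UpperHalfPlane
open scoped MatrixGroups

namespace Fermat.Agent.S35

open Fermat.Agent.S16 Fermat.Agent.S24 Fermat.Agent.S42 Fermat.Agent.S37

local notation "Qb" => AlgebraicClosure ℚ

/-- `S • (q τ) = diag(q,1)⁻¹ • (S • τ)`. -/
theorem nb75_S_scale (q : ℕ) [NeZero q] (τ : ℍ) :
    ModularGroup.S • scaleH q τ = (ff79_diag q)⁻¹ • (ModularGroup.S • τ) := by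
  have h : ff79_diag q • (ModularGroup.S • scaleH q τ) = ModularGroup.S • τ := by
    rw [ff79_diag_smul]
    apply UpperHalfPlane.ext
    rw [coe_scaleH q (NeZero.ne q), UpperHalfPlane.modular_S_smul, UpperHalfPlane.modular_S_smul]
    show (q : ℂ) * (-((scaleH q τ : ℍ) : ℂ))⁻¹ = (-(τ : ℂ))⁻¹
    rw [coe_scaleH q (NeZero.ne q)]
    have hq : (q : ℂ) ≠ 0 := by exact_mod_cast NeZero.ne q
    have hτ : (τ : ℂ) ≠ 0 := UpperHalfPlane.ne_zero τ
    field_simp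
  rw [← h, inv_smul_smul]

/-- **Stabiliser of `τ ↦ j(τ/q)`**: an element of `SL(2,ℤ)` fixing it has upper right entry
divisible by `q`. -/
theorem nb75_stab (q : ℕ) [NeZero q] (g : SL(2, ℤ))
    (h : ∀ τ : ℍ, kleinJ ((ff79_diag q)⁻¹ • (g⁻¹ • τ)) = kleinJ ((ff79_diag q)⁻¹ • τ)) :
    (q : ℤ) ∣ g 0 1 := by
  have hg' : ModularGroup.S⁻¹ * g * ModularGroup.S ∈ Gamma0 q := by
    apply wpA4_stab q
    funext τ
    rw [actFn_apply, genFn_apply, genFn_apply, inv_one, one_smul, one_smul]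
    rw [← wpA1_kleinJ_smul ModularGroup.S (scaleH q _), nb75_S_scale,
      ← wpA1_kleinJ_smul ModularGroup.S (scaleH q τ), nb75_S_scale]
    have h1 : ModularGroup.S • ((ModularGroup.S⁻¹ * g * ModularGroup.S)⁻¹ • τ)
        = g⁻¹ • (ModularGroup.S • τ) := by
      rw [← mul_smul, ← mul_smul]
      congr 1
      group
    rw [h1]
    exact h _
  rw [Gamma0_mem] at hg'
  have h2 : ((q : ℕ) : ℤ) ∣ (ModularGroup.S⁻¹ * g * ModularGroup.S) 1 0 :=
    (ZMod.intCast_zmod_eq_zero_iff_dvd _ _).1 hg'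
  have h3 : (ModularGroup.S⁻¹ * g * ModularGroup.S) 1 0 = -(g 0 1) := by
    simp [Matrix.SpecialLinearGroup.coe_mul, Matrix.SpecialLinearGroup.coe_inv, ModularGroup.coe_S,
      Matrix.mul_apply, Fin.sum_univ_two, Matrix.adjugate_fin_two, Matrix.vecMul, dotProduct]
  rw [h3] at h2
  exact (Int.dvd_neg).mp h2

section Norm

variable (φ : Qb →+* ℂ) (N q : ℕ) [NeZero N] [NeZero q]

/-- The twisted embedding `y ↦ diag(q,1) • ev0_{Nq} y` of `F(Nq)`. -/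
noncomputable def nb75_e' : ↥(modularFunctionFieldBar (N * q)) →+* mer95_MER :=
  (MulSemiringAction.toRingHom GL(2, ℝ)⁺ mer95_MER (ff79_diag q)).comp (ff79_ev0 φ (N * q))

theorem nb75_e'_apply (y : ↥(modularFunctionFieldBar (N * q))) :
    nb75_e' φ N q y = ff79_diag q • ff79_ev0 φ (N * q) y := rfl

/-- `diag(q,1) • ev0_{Nq} (β x) = ev0_N x`. -/
theorem nb75_e'_beta (x : ↥(modularFunctionFieldBar N)) :
    nb75_e' φ N q (heckeBetaBar Qb N q x) = ff79_ev0 φ N x := by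
  rw [nb75_e'_apply, ff79_ev0_beta, smul_inv_smul]

/-- The value of the twisted embedding on `j`: the function `τ ↦ j(τ/q)`. -/
theorem nb75_e'_J (g : SL(2, ℤ)) (τ : ℍ) :
    ∃ F : mer95_O,
      g • nb75_e' φ N q ⟨ff79_JJ Qb 1, ff79_JJ_mem Qb (N * q) 1 (one_dvd _)⟩
        = algebraMap mer95_O mer95_MER F ∧
      ∀ τ : ℍ, F.1 τ = kleinJ ((ff79_diag q)⁻¹ • (g⁻¹ • τ)) := by
  refine ⟨g • (ff79_diag q • ff79_jO 1), ?_, fun τ => ?_⟩
  · rw [nb75_e'_apply, ff79_ev0_gen φ (N * q) 1 (one_dvd _), mer95_smul_algebraMap,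
      mer95_smul_algebraMap_SL]
  · rw [mer95_smul_apply_SL, mer95_smul_apply, ff79_jO_apply]
    congr 1
    apply UpperHalfPlane.ext
    rw [coe_scaleH 1 one_ne_zero]
    simp

/-- **The analytic norm formula along `β`** (`q` prime, `q ∤ N`): for `q + 1` elements of
`Γ₀(N)`, pairwise inequivalent modulo `Γ₀(N) ∩ Γ⁰(q)`,
`ev0_N (Nm_β y) = ∏ i, r i • (diag(q,1) • ev0_{Nq} y)`. -/
theorem nb75_beta_hnorm (hq : q.Prime) (hqN : ¬ q ∣ N) {κ : Type*} [Fintype κ]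
    (r : κ → ↥(Gamma0 N))
    (hr : ∀ i j, (q : ℤ) ∣ (((r j)⁻¹ * r i : ↥(Gamma0 N)) : SL(2, ℤ)) 0 1 → i = j)
    (hκ : Fintype.card κ = q + 1) (y : ↥(modularFunctionFieldBar (N * q))) :
    ff79_ev0 φ N (ht45_normAlong (heckeBetaBar Qb N q) y)
      = ∏ i, ((r i : ↥(Gamma0 N)) : SL(2, ℤ)) • (ff79_diag q • ff79_ev0 φ (N * q) y) := by
  have hcop : Nat.Coprime q N := (Nat.Prime.coprime_iff_not_dvd hq).mpr hqN
  obtain ⟨w, hwα, -, -⟩ := al47_exists N q hcop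
  letI := algebraAlong (heckeBetaBar Qb N q)
  have hfr : Module.finrank ↥(modularFunctionFieldBar N) ↥(modularFunctionFieldBar (N * q))
      = q + 1 := nc73_finrank_beta N q hq hqN w hwα
  haveI : FiniteDimensional ↥(modularFunctionFieldBar N) ↥(modularFunctionFieldBar (N * q)) :=
    Module.finite_of_finrank_pos (by rw [hfr]; exact Nat.succ_pos q)
  haveI : CharZero ↥(modularFunctionFieldBar N) :=
    charZero_of_injective_algebraMap (algebraMap Qb ↥(modularFunctionFieldBar N)).injective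
  have key := nm49_norm_eq_prod (G := SL(2, ℤ)) (ff79_ev0 φ N) (nb75_e' φ N q)
    (fun x => nb75_e'_beta φ N q x) (fun i => ((r i : ↥(Gamma0 N)) : SL(2, ℤ)))
    (fun i x => ff79_ev0_fix φ N (r i) x) ?_ (by rw [hκ, hfr]) y
  · exact key
  · intro i j hij
    apply hr i j
    apply nb75_stab q
    intro τ
    obtain ⟨Fi, hFi, hFi'⟩ := nb75_e'_J φ N q ((r i : ↥(Gamma0 N)) : SL(2, ℤ)) τ
    obtain ⟨Fj, hFj, hFj'⟩ := nb75_e'_J φ N q ((r j : ↥(Gamma0 N)) : SL(2, ℤ)) τ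
    have hF : Fi = Fj := by
      apply mer95_algebraMap_injective
      rw [← hFi, ← hFj]
      exact hij _
    have h1 := hFi' (((r j : ↥(Gamma0 N)) : SL(2, ℤ)) • τ)
    have h2 := hFj' (((r j : ↥(Gamma0 N)) : SL(2, ℤ)) • τ)
    rw [hF] at h1
    rw [h1, inv_smul_smul] at h2
    rw [← h2]
    congr 2
    rw [← mul_smul]
    congr 1
    simp [mul_inv_rev]

end Norm

/-! ### An explicit complete family of representatives of `Γ₀(N) ⧸ (Γ₀(N) ∩ Γ⁰(q))` -/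

section Reps

/-- `(g⁻¹ * h) 0 1 = g 1 1 * h 0 1 - g 0 1 * h 1 1`. -/
theorem nb75_inv_mul_01 (g h : SL(2, ℤ)) :
    (g⁻¹ * h) 0 1 = g 1 1 * h 0 1 - g 0 1 * h 1 1 := by
  simp [Matrix.SpecialLinearGroup.coe_mul, Matrix.SpecialLinearGroup.coe_inv, Matrix.mul_apply,
    Fin.sum_univ_two, Matrix.adjugate_fin_two]
  ring

variable (N q : ℕ)

/-- The representatives: `T^b` (`b < q`) and `[[a, b₀], [N, q]]` (`a q - b₀ N = 1`). -/
def nb75_reps (a b₀ : ℤ) (h : a * q - b₀ * N = 1) : Option (Fin q) → ↥(Gamma0 N)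
  | none => lbMk N a b₀ N q h dvd_rfl
  | some b => lbMk N 1 ((b : ℕ) : ℤ) 0 1 (by ring) (dvd_zero _)

theorem nb75_exists_bezout {N q : ℕ} (hq : q.Prime) (hqN : ¬ q ∣ N) :
    ∃ a b₀ : ℤ, a * q - b₀ * N = 1 := by
  have hcop : IsCoprime (q : ℤ) (N : ℤ) :=
    Nat.isCoprime_iff_coprime.mpr ((Nat.Prime.coprime_iff_not_dvd hq).mpr hqN)
  obtain ⟨a, b, hab⟩ := hcop
  exact ⟨a, -b, by linear_combination hab⟩

variable {N q}

theorem nb75_reps_none_01 (a b₀ : ℤ) (h : a * q - b₀ * N = 1) :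
    ((nb75_reps N q a b₀ h none : ↥(Gamma0 N)) : SL(2, ℤ)) 0 1 = b₀ := rfl

theorem nb75_reps_none_11 (a b₀ : ℤ) (h : a * q - b₀ * N = 1) :
    ((nb75_reps N q a b₀ h none : ↥(Gamma0 N)) : SL(2, ℤ)) 1 1 = q := rfl

theorem nb75_reps_some_01 (a b₀ : ℤ) (h : a * q - b₀ * N = 1) (b : Fin q) :
    ((nb75_reps N q a b₀ h (some b) : ↥(Gamma0 N)) : SL(2, ℤ)) 0 1 = ((b : ℕ) : ℤ) := rfl

theorem nb75_reps_some_11 (a b₀ : ℤ) (h : a * q - b₀ * N = 1) (b : Fin q) :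
    ((nb75_reps N q a b₀ h (some b) : ↥(Gamma0 N)) : SL(2, ℤ)) 1 1 = 1 := rfl

theorem nb75_not_dvd_b0 (hq : q.Prime) (a b₀ : ℤ) (h : a * q - b₀ * N = 1) :
    ¬ (q : ℤ) ∣ b₀ := by
  intro hd
  have h1 : (q : ℤ) ∣ 1 := by
    rw [← h]
    exact dvd_sub (dvd_mul_left _ _) (Dvd.dvd.mul_right hd _)
  have h2 : (q : ℤ) = 1 := by
    have := Int.eq_one_of_dvd_one (by positivity) h1
    exact this
  have h3 : q = 1 := by exact_mod_cast h2
  exact hq.one_lt.ne' h3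

/-- The representatives are pairwise inequivalent modulo `Γ₀(N) ∩ Γ⁰(q)`. -/
theorem nb75_reps_spec (hq : q.Prime) (a b₀ : ℤ) (h : a * q - b₀ * N = 1)
    (i j : Option (Fin q))
    (hd : (q : ℤ) ∣ (((nb75_reps N q a b₀ h j)⁻¹ * nb75_reps N q a b₀ h i : ↥(Gamma0 N)) :
      SL(2, ℤ)) 0 1) : i = j := by
  have hd' : (q : ℤ) ∣ ((nb75_reps N q a b₀ h j : ↥(Gamma0 N)) : SL(2, ℤ)) 1 1
        * ((nb75_reps N q a b₀ h i : ↥(Gamma0 N)) : SL(2, ℤ)) 0 1
      - ((nb75_reps N q a b₀ h j : ↥(Gamma0 N)) : SL(2, ℤ)) 0 1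
        * ((nb75_reps N q a b₀ h i : ↥(Gamma0 N)) : SL(2, ℤ)) 1 1 := by
    rw [← nb75_inv_mul_01]
    exact hd
  have hb0 := nb75_not_dvd_b0 hq a b₀ h
  rcases i with _ | b <;> rcases j with _ | b'
  · rfl
  · exfalso
    rw [nb75_reps_some_11, nb75_reps_none_01, nb75_reps_some_01, nb75_reps_none_11] at hd'
    apply hb0
    have h2 : (q : ℤ) ∣ 1 * b₀ - ((b' : ℕ) : ℤ) * q + ((b' : ℕ) : ℤ) * q :=
      dvd_add hd' (dvd_mul_left _ _)
    rwa [sub_add_cancel, one_mul] at h2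
  · exfalso
    rw [nb75_reps_none_11, nb75_reps_some_01, nb75_reps_none_01, nb75_reps_some_11] at hd'
    apply hb0
    have h2 : (q : ℤ) ∣ (q : ℤ) * ((b : ℕ) : ℤ) - ((q : ℤ) * ((b : ℕ) : ℤ) - b₀ * 1) :=
      dvd_sub (dvd_mul_right _ _) hd'
    rwa [sub_sub_cancel, mul_one] at h2
  · rw [nb75_reps_some_11, nb75_reps_some_01, nb75_reps_some_01, nb75_reps_some_11] at hd'
    have h0 : (1 : ℤ) * ((b : ℕ) : ℤ) - ((b' : ℕ) : ℤ) * 1 = 0 := by
      apply Int.eq_zero_of_abs_lt_dvd hd'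
      have hb : ((b : ℕ) : ℤ) < q := by exact_mod_cast b.2
      have hb' : ((b' : ℕ) : ℤ) < q := by exact_mod_cast b'.2
      have hb0' : (0 : ℤ) ≤ ((b : ℕ) : ℤ) := Int.natCast_nonneg _
      have hb'0 : (0 : ℤ) ≤ ((b' : ℕ) : ℤ) := Int.natCast_nonneg _
      rw [abs_lt]
      constructor <;> linarith
    have h1 : ((b : ℕ) : ℤ) = ((b' : ℕ) : ℤ) := by linarith
    have h2 : (b : ℕ) = (b' : ℕ) := by exact_mod_cast h1
    exact congrArg some (Fin.ext h2)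

/-- The representatives are complete: every `γ ∈ Γ₀(N)` is equivalent to one of them. -/
theorem nb75_reps_complete (hq : q.Prime) (a b₀ : ℤ) (h : a * q - b₀ * N = 1)
    (γ : ↥(Gamma0 N)) :
    ∃ i : Option (Fin q),
      (q : ℤ) ∣ (((nb75_reps N q a b₀ h i)⁻¹ * γ : ↥(Gamma0 N)) : SL(2, ℤ)) 0 1 := by
  have key : ∀ i : Option (Fin q),
      (((nb75_reps N q a b₀ h i)⁻¹ * γ : ↥(Gamma0 N)) : SL(2, ℤ)) 0 1
        = ((nb75_reps N q a b₀ h i : ↥(Gamma0 N)) : SL(2, ℤ)) 1 1 * (γ : SL(2, ℤ)) 0 1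
          - ((nb75_reps N q a b₀ h i : ↥(Gamma0 N)) : SL(2, ℤ)) 0 1 * (γ : SL(2, ℤ)) 1 1 :=
    fun i => nb75_inv_mul_01 _ _
  by_cases hd : (q : ℤ) ∣ (γ : SL(2, ℤ)) 1 1
  · refine ⟨none, ?_⟩
    rw [key, nb75_reps_none_11, nb75_reps_none_01]
    exact dvd_sub (dvd_mul_right _ _) (Dvd.dvd.mul_left hd _)
  · obtain ⟨j, hj⟩ := lb_exists_fin hq ((γ : SL(2, ℤ)) 1 1) ((γ : SL(2, ℤ)) 0 1) hd
    refine ⟨some j, ?_⟩
    rw [key, nb75_reps_some_11, nb75_reps_some_01, one_mul]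
    exact hj

/-- **The norm formula along `β` for the explicit family.** -/
theorem nb75_beta_hnorm_reps (φ : Qb →+* ℂ) [NeZero N] [NeZero q] (hq : q.Prime)
    (hqN : ¬ q ∣ N) (a b₀ : ℤ) (h : a * q - b₀ * N = 1)
    (y : ↥(modularFunctionFieldBar (N * q))) :
    ff79_ev0 φ N (ht45_normAlong (heckeBetaBar Qb N q) y)
      = ∏ i : Option (Fin q), ((nb75_reps N q a b₀ h i : ↥(Gamma0 N)) : SL(2, ℤ)) •
          (ff79_diag q • ff79_ev0 φ (N * q) y) :=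
  nb75_beta_hnorm φ N q hq hqN (nb75_reps N q a b₀ h) (nb75_reps_spec hq a b₀ h)
    (by rw [Fintype.card_option, Fintype.card_fin]) y

end Reps

end Fermat.Agent.S35
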