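import Fermat.Agent.S35.ThetaEval22
import Fermat.Agent.S35.NormBeta75
import Fermat.Agent.S42.HeckePar88
import Fermat.Agent.S41.NuHecke53

/-!
# S35 lab, package (2a), part beta (helper87, twin of row 537): the Kummer root of a class
pushed forward along `β`, and parabolicity of the transfers

Levels `N q → N` (`q` prime, `q ∤ N`), `β = heckeBetaBar` the map `f(τ) ↦ f(qτ)`, `δ = diag(q,1)`.

* `tb87_K N q` : the subgroup `δ Γ₀(N q) δ⁻¹ = Γ₀(N) ∩ Γ⁰(q)` of `SL(2,ℤ)` (the range of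
  `nh53_conj`), with `tb87_back : K ≃* Γ₀(N q)` (`k ↦ δ⁻¹ k δ`), `tb87_mem_K_iff`;
* `tb87_corB N q A` : the `β`-corestriction `Hom(Γ₀(N q), A) → Hom(Γ₀(N), A)`, the transfer
  `cor22` along `K ≤ Γ₀(N)` of `χ ∘ conj_δ⁻¹`;
* `tb87_push_beta` : if `h ^ m = ev_{N q} f` and `h` has character `ζ_m ^ χ` under `Γ₀(N q)`, then
  `H := ∏ c, c.out • δ • h` is nonzero, has character `ζ_m ^ (corB χ)` under `Γ₀(N)` and
  `H ^ m = ev_N (Nm_β f)`;
* `tb87_norm_beta_pow`, `tb87_adm_beta`, `tb87_kummer_beta` : the `β`-copies of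
  `pa22_norm_alpha_pow`, `te22_adm_alpha`, `te22_kummer_alpha`;
* `tb87_cor22_par` : the transfer `cor22 Γ K` maps parabolic homomorphisms to parabolic
  homomorphisms (any subgroups `K`, `Γ` of `SL(2,ℤ)`); `tb87_corA_par`, `tb87_corB_par` and the
  bundled maps `tb87_corApar`, `tb87_corBpar` on `parabolicHoms`.
-/

set_option autoImplicit false
set_option linter.unusedSectionVars false
set_option linter.unusedVariables false
set_option linter.style.longLine false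
set_option linter.style.haveILetI false

open CongruenceSubgroup ModularCurve ModularCurve.Period AlgebraicCurve UpperHalfPlane
open scoped MatrixGroups

namespace Fermat.Agent.S35

open Fermat.Agent.S16 Fermat.Agent.S24 Fermat.Agent.S42 Fermat.Agent.S41 Fermat.Agent.S37

local notation "Qb" => AlgebraicClosure ℚ

section tb87_group

variable (N q : ℕ) [NeZero q]

/-- `Γ₀(N q) → SL(2,ℤ)`, `x ↦ δ x δ⁻¹`. -/
noncomputable def tb87_j : ↥(Gamma0 (N * q)) →* SL(2, ℤ) :=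
  (Gamma0 N).subtype.comp (nh53_conj N q)

theorem tb87_j_apply (x : ↥(Gamma0 (N * q))) :
    tb87_j N q x = ((nh53_conj N q x : ↥(Gamma0 N)) : SL(2, ℤ)) := rfl

theorem tb87_j_injective : Function.Injective (tb87_j N q) := by
  intro x y hxy
  have hq : (q : ℤ) ≠ 0 := by exact_mod_cast NeZero.ne q
  obtain ⟨x00, x01, x10, x11⟩ := nh53_conj_entries N q x
  obtain ⟨y00, y01, y10, y11⟩ := nh53_conj_entries N q y
  rw [tb87_j_apply, tb87_j_apply] at hxy
  rw [hxy] at x00 x01 x10 x11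
  apply Subtype.ext
  apply Matrix.SpecialLinearGroup.ext
  intro i j
  fin_cases i <;> fin_cases j
  · exact x00.symm.trans y00
  · exact mul_left_cancel₀ hq (x01.symm.trans y01)
  · exact x10.symm.trans y10
  · exact x11.symm.trans y11

/-- The subgroup `δ Γ₀(N q) δ⁻¹ = Γ₀(N) ∩ Γ⁰(q)` of `SL(2,ℤ)`. -/
noncomputable def tb87_K : Subgroup SL(2, ℤ) := (tb87_j N q).range

/-- `k ↦ δ⁻¹ k δ`, the inverse of conjugation by `δ`. -/
noncomputable def tb87_back : ↥(tb87_K N q) ≃* ↥(Gamma0 (N * q)) :=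
  (MonoidHom.ofInjective (tb87_j_injective N q)).symm

theorem tb87_back_spec (k : ↥(tb87_K N q)) :
    ((nh53_conj N q (tb87_back N q k) : ↥(Gamma0 N)) : SL(2, ℤ)) = (k : SL(2, ℤ)) := by
  have h := (MonoidHom.ofInjective (tb87_j_injective N q)).apply_symm_apply k
  exact congrArg Subtype.val h

theorem tb87_K_le : tb87_K N q ≤ Gamma0 N := by
  rintro g ⟨x, rfl⟩
  exact (nh53_conj N q x).2

theorem tb87_dvd_of_mem_K {g : SL(2, ℤ)} (hg : g ∈ tb87_K N q) : (q : ℤ) ∣ g 0 1 := by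
  obtain ⟨x, rfl⟩ := hg
  rw [tb87_j_apply, (nh53_conj_entries N q x).2.1]
  exact dvd_mul_right _ _

theorem tb87_mem_K_of_dvd (g : ↥(Gamma0 N)) (h : (q : ℤ) ∣ (g : SL(2, ℤ)) 0 1) :
    (g : SL(2, ℤ)) ∈ tb87_K N q := by
  obtain ⟨b, hb⟩ := h
  obtain ⟨k, hk⟩ := lb_Gamma0_dvd g
  have hdet := lb_sl_det (g : SL(2, ℤ))
  have hdet' : (g : SL(2, ℤ)) 0 0 * (g : SL(2, ℤ)) 1 1 - b * ((q : ℤ) * (g : SL(2, ℤ)) 1 0) = 1 := by
    rw [hb] at hdet
    linear_combination hdet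
  have hdvd : ((N * q : ℕ) : ℤ) ∣ (q : ℤ) * (g : SL(2, ℤ)) 1 0 := by
    rw [hk]
    push_cast
    exact ⟨k, by ring⟩
  refine ⟨lbMk (N * q) ((g : SL(2, ℤ)) 0 0) b ((q : ℤ) * (g : SL(2, ℤ)) 1 0)
    ((g : SL(2, ℤ)) 1 1) hdet' hdvd, ?_⟩
  rw [tb87_j_apply]
  congr 1
  have hq : (lbMat q none).det ≠ 0 := tr43_lbMat_det_ne (NeZero.ne q) none
  refine nh53_conj_unique hq (nh53_conj_spec N q _) ?_
  rw [lbMk_coe, lbMat_none]
  ext i j
  fin_cases i <;> fin_cases j <;>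
    simp [Matrix.mul_apply, Fin.sum_univ_two, hb, mul_comm]

theorem tb87_mem_K_iff (g : ↥(Gamma0 N)) :
    (g : SL(2, ℤ)) ∈ tb87_K N q ↔ (q : ℤ) ∣ (g : SL(2, ℤ)) 0 1 :=
  ⟨fun h => tb87_dvd_of_mem_K N q h, fun h => tb87_mem_K_of_dvd N q g h⟩

end tb87_group

section tb87_quot

variable (N q : ℕ) [NeZero N] [NeZero q]

instance tb87_K_finiteIndex : (tb87_K N q).FiniteIndex := by
  have hle : Gamma (N * q) ≤ tb87_K N q := by
    intro g hg
    rw [Gamma_mem] at hg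
    obtain ⟨-, h01, h10, -⟩ := hg
    have h01' : ((N * q : ℕ) : ℤ) ∣ g 0 1 := (ZMod.intCast_zmod_eq_zero_iff_dvd _ _).1 h01
    have h10' : ((N * q : ℕ) : ℤ) ∣ g 1 0 := (ZMod.intCast_zmod_eq_zero_iff_dvd _ _).1 h10
    have hg0 : g ∈ Gamma0 N := by
      rw [Gamma0_mem]
      apply (ZMod.intCast_zmod_eq_zero_iff_dvd _ _).2
      exact dvd_trans (by exact_mod_cast dvd_mul_right N q) h10'
    exact tb87_mem_K_of_dvd N q ⟨g, hg0⟩
      (dvd_trans (by exact_mod_cast dvd_mul_left q N) h01')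
  exact Subgroup.finiteIndex_of_le hle

/-- The section `Quotient.out` of `Γ₀(N) ⧸ K` is a family of pairwise inequivalent elements in
the sense of `nb75_beta_hnorm`. -/
theorem tb87_out_inj (c c' : ↥(Gamma0 N) ⧸ (tb87_K N q).subgroupOf (Gamma0 N))
    (h : (q : ℤ) ∣ (((c'.out)⁻¹ * c.out : ↥(Gamma0 N)) : SL(2, ℤ)) 0 1) : c = c' := by
  have h1 : (c'.out)⁻¹ * c.out ∈ (tb87_K N q).subgroupOf (Gamma0 N) :=
    Subgroup.mem_subgroupOf.mpr (tb87_mem_K_of_dvd N q _ h)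
  have h2 : ((c'.out : ↥(Gamma0 N)) : ↥(Gamma0 N) ⧸ (tb87_K N q).subgroupOf (Gamma0 N))
      = ((c.out : ↥(Gamma0 N)) : ↥(Gamma0 N) ⧸ (tb87_K N q).subgroupOf (Gamma0 N)) :=
    QuotientGroup.eq.mpr h1
  rw [QuotientGroup.out_eq', QuotientGroup.out_eq'] at h2
  exact h2.symm

/-- `[Γ₀(N) : Γ₀(N) ∩ Γ⁰(q)] = q + 1`. -/
theorem tb87_card (hq : q.Prime) (hqN : ¬ q ∣ N) :
    Nat.card (↥(Gamma0 N) ⧸ (tb87_K N q).subgroupOf (Gamma0 N)) = q + 1 := by
  obtain ⟨a, b₀, hab⟩ := nb75_exists_bezout hq hqN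
  let f : Option (Fin q) → ↥(Gamma0 N) ⧸ (tb87_K N q).subgroupOf (Gamma0 N) :=
    fun i => ((nb75_reps N q a b₀ hab i : ↥(Gamma0 N)) :
      ↥(Gamma0 N) ⧸ (tb87_K N q).subgroupOf (Gamma0 N))
  have hf : Function.Bijective f := by
    constructor
    · intro i j hij
      have h1 : (nb75_reps N q a b₀ hab i)⁻¹ * nb75_reps N q a b₀ hab j
          ∈ (tb87_K N q).subgroupOf (Gamma0 N) := QuotientGroup.eq.mp hij
      exact (nb75_reps_spec hq a b₀ hab j i
        (tb87_dvd_of_mem_K N q (Subgroup.mem_subgroupOf.mp h1))).symm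
    · intro c
      obtain ⟨i, hi⟩ := nb75_reps_complete hq a b₀ hab c.out
      refine ⟨i, ?_⟩
      have h1 : (nb75_reps N q a b₀ hab i)⁻¹ * c.out ∈ (tb87_K N q).subgroupOf (Gamma0 N) :=
        Subgroup.mem_subgroupOf.mpr (tb87_mem_K_of_dvd N q _ hi)
      have h2 : ((nb75_reps N q a b₀ hab i : ↥(Gamma0 N)) :
          ↥(Gamma0 N) ⧸ (tb87_K N q).subgroupOf (Gamma0 N))
          = ((c.out : ↥(Gamma0 N)) : ↥(Gamma0 N) ⧸ (tb87_K N q).subgroupOf (Gamma0 N)) :=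
        QuotientGroup.eq.mpr h1
      rw [QuotientGroup.out_eq'] at h2
      exact h2
  rw [← Nat.card_congr (Equiv.ofBijective f hf), Nat.card_eq_fintype_card, Fintype.card_option,
    Fintype.card_fin]

/-- **The `β`-corestriction** `Hom(Γ₀(N q), A) → Hom(Γ₀(N), A)`: the transfer along
`δ Γ₀(N q) δ⁻¹ ≤ Γ₀(N)` of `χ ∘ conj_δ⁻¹`. -/
noncomputable def tb87_corB (A : Type*) [AddCommGroup A] :
    (Additive ↥(Gamma0 (N * q)) →+ A) →+ (Additive ↥(Gamma0 N) →+ A) :=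
  (cor22 (Gamma0 N) (tb87_K N q)).comp
    (AddMonoidHom.compHom' (MonoidHom.toAdditive (tb87_back N q).toMonoidHom))

theorem tb87_corB_apply (A : Type*) [AddCommGroup A] (χ : Additive ↥(Gamma0 (N * q)) →+ A)
    (g : ↥(Gamma0 N)) :
    tb87_corB N q A χ (Additive.ofMul g)
      = cor22_fun (Gamma0 N) (tb87_K N q)
          (χ.comp (MonoidHom.toAdditive (tb87_back N q).toMonoidHom)) g := rfl

/-- `δ x = (δ x δ⁻¹) δ` in `GL(2, ℝ)⁺`. -/
theorem tb87_diag_mul (x : ↥(Gamma0 (N * q))) :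
    ff79_diag q * mer95_slToGL (x : SL(2, ℤ))
      = mer95_slToGL ((nh53_conj N q x : ↥(Gamma0 N)) : SL(2, ℤ)) * ff79_diag q := by
  rw [hc45_slToGL_eq, hc45_slToGL_eq]
  unfold ff79_diag
  exact hc45_gl_mul_eq (nh53_conj_spec N q x) _ _ _ _

theorem tb87_zeta_zpow_fix (m : ℕ) (n : ℤ) (g : GL(2, ℝ)⁺) :
    g • (th70_zeta m ^ n) = th70_zeta m ^ n := by
  have h1 := map_zpow₀ (MulSemiringAction.toRingHom GL(2, ℝ)⁺ mer95_MER g) (th70_zeta m) n
  rw [MulSemiringAction.toRingHom_apply, MulSemiringAction.toRingHom_apply] at h1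
  rw [h1]
  congr 1
  unfold th70_zeta
  exact mer95_smul_C g _

/-- The character of `δ • h` under `K = δ Γ₀(N q) δ⁻¹`. -/
theorem tb87_char_diag (m : ℕ) (χ : Additive ↥(Gamma0 (N * q)) →+ ℤ) (h : mer95_MER)
    (hchar : thz31_IsCharZ (th70_zeta m) χ h) (k : ↥(tb87_K N q)) :
    (k : SL(2, ℤ)) • (ff79_diag q • h)
      = th70_zeta m ^ (χ (Additive.ofMul (tb87_back N q k))) * (ff79_diag q • h) := by
  have h1 : ((tb87_back N q k : ↥(Gamma0 (N * q))) : SL(2, ℤ)) • h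
      = th70_zeta m ^ (χ (Additive.ofMul (tb87_back N q k))) * h := hchar (tb87_back N q k)
  rw [mer95_SL_smul_eq, ← mul_smul, ← tb87_back_spec N q k, ← tb87_diag_mul, mul_smul,
    ← mer95_SL_smul_eq, h1, smul_mul', tb87_zeta_zpow_fix]

end tb87_quot

section tb87_push

variable (φ : Qb →+* ℂ) (N q : ℕ) [NeZero N] [NeZero q]

/-- **The root of the norm along `β` and its character.** -/
theorem tb87_push_beta (hq : q.Prime) (hqN : ¬ q ∣ N) (m : ℕ)
    (χ : Additive ↥(Gamma0 (N * q)) →+ ℤ) (h : mer95_MER)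
    (f : ↥(modularFunctionFieldBar (N * q)))
    (h0 : h ≠ 0) (hchar : thz31_IsCharZ (th70_zeta m) χ h)
    (hpow : h ^ m = ff79_ev0 φ (N * q) f) :
    ∃ H : mer95_MER, H ≠ 0 ∧
      thz31_IsCharZ (th70_zeta m) (tb87_corB N q ℤ χ) H ∧
      H ^ m = ff79_ev0 φ N (ht45_normAlong (heckeBetaBar Qb N q) f) := by
  classical
  letI : Fintype (↥(Gamma0 N) ⧸ (tb87_K N q).subgroupOf (Gamma0 N)) := Fintype.ofFinite _
  have hκ : Fintype.card (↥(Gamma0 N) ⧸ (tb87_K N q).subgroupOf (Gamma0 N)) = q + 1 := by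
    rw [← Nat.card_eq_fintype_card]
    exact tb87_card N q hq hqN
  have hnorm := nb75_beta_hnorm φ N q hq hqN
    (fun c : ↥(Gamma0 N) ⧸ (tb87_K N q).subgroupOf (Gamma0 N) => c.out)
    (fun c c' hcc => tb87_out_inj N q c c' hcc) hκ f
  have hd0 : ff79_diag q • h ≠ 0 := by
    intro hz
    apply h0
    have := congrArg (fun x => (ff79_diag q)⁻¹ • x) hz
    simpa using this
  refine ⟨∏ c : ↥(Gamma0 N) ⧸ (tb87_K N q).subgroupOf (Gamma0 N),
    ((c.out : ↥(Gamma0 N)) : SL(2, ℤ)) • (ff79_diag q • h), ht45_prod_ne_zero _ hd0, ?_, ?_⟩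
  · intro γ
    exact cor22_char (Gamma0 N) (tb87_K N q) (th70_zeta m) (pa22_zeta_ne_zero m)
      (fun g => mer95_smul_C_SL g _)
      (χ.comp (MonoidHom.toAdditive (tb87_back N q).toMonoidHom)) (ff79_diag q • h)
      (fun k => tb87_char_diag N q m χ h hchar k) γ
  · rw [hnorm, ← Finset.prod_pow]
    refine Finset.prod_congr rfl fun c _ => ?_
    rw [← smul_pow', ← smul_pow', hpow]

/-- If the `β`-corestriction of `χ` vanishes, the norm along `β` of a Kummer function of `χ` is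
a constant times an `m`-th power. -/
theorem tb87_norm_beta_pow (hq : q.Prime) (hqN : ¬ q ∣ N) (m : ℕ) (hm : 0 < m)
    (χ : Additive ↥(Gamma0 (N * q)) →+ ℤ) (h : mer95_MER)
    (f : ↥(modularFunctionFieldBar (N * q)))
    (h0 : h ≠ 0) (hchar : thz31_IsCharZ (th70_zeta m) χ h)
    (hpow : h ^ m = ff79_ev0 φ (N * q) f)
    (hcor : tb87_corB N q ℤ χ = 0) :
    ∃ (g : ↥(modularFunctionFieldBar N)) (a : Qb),
      ht45_normAlong (heckeBetaBar Qb N q) f
        = algebraMap Qb ↥(modularFunctionFieldBar N) a * g ^ m := by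
  obtain ⟨H, H0, Hchar, Hpow⟩ := tb87_push_beta φ N q hq hqN m χ h f h0 hchar hpow
  refine gi41_hK2 φ N hm H H0 (fun γ => ?_) _ Hpow
  have h1 := Hchar γ
  rw [hcor] at h1
  simpa using h1

end tb87_push

/-! ### Admissible pairs and Kummer presentations along `β` -/

section tb87_adm

variable (N q : ℕ) [NeZero N] [NeZero q]

/-- **Pushforward of an admissible pair along `β`.**  If `(h, f)` is admissible for `χ` at level
`N q`, modulus `m`, then `(H, Nm_β f)` is admissible for the `β`-corestriction of `χ` at level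
`N`, for a suitable `H`; and `m • β_* D = div (Nm_β f)` whenever `m • D = div f`. -/
theorem tb87_adm_beta (hq : q.Prime) (hqN : ¬ q ∣ N) (m : ℕ) (hm : m ≠ 0)
    (χ : Additive ↥(Gamma0 (N * q)) →+ ℤ) (h : mer95_MER)
    (f : ↥(modularFunctionFieldBar (N * q)))
    (H : thz31_AdmZ Qb (ff79_ev0 phi (N * q)) m (th70_zeta m) χ h f) :
    (∃ H' : mer95_MER, thz31_AdmZ Qb (ff79_ev0 phi N) m (th70_zeta m)
      (tb87_corB N q ℤ χ) H' (ht45_normAlong (heckeBetaBar Qb N q) f)) ∧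
    ∀ D : Divisor Qb ↥(modularFunctionFieldBar (N * q)), th70_IsDivOf m f D →
      th70_IsDivOf m (ht45_normAlong (heckeBetaBar Qb N q) f)
        (Divisor.pushforwardAlong (heckeBetaBar Qb N q) (hx63_heckeBetaBarIntegral N q) D) := by
  obtain ⟨h0, f0, hchar, hpow, hdvd⟩ := H
  haveI := hi63_hasPrincipalDivisors_bar (N * q)
  have hβ := hx63_heckeBetaBarIntegral N q
  obtain ⟨-, hfin, hNF⟩ := hx63_inputs_gen (φ := heckeBetaBar Qb N q) hβ
  have hdiv : ∀ D : Divisor Qb ↥(modularFunctionFieldBar (N * q)), th70_IsDivOf m f D →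
      th70_IsDivOf m (ht45_normAlong (heckeBetaBar Qb N q) f)
        (Divisor.pushforwardAlong (heckeBetaBar Qb N q) hβ D) := fun D hD v =>
    hd63_pushforwardAlong_div (heckeBetaBar Qb N q) hβ hfin hNF D (m : ℤ) f f0 hD v
  refine ⟨?_, hdiv⟩
  obtain ⟨H', H'0, H'char, H'pow⟩ := tb87_push_beta phi N q hq hqN m χ h f h0 hchar hpow
  obtain ⟨D, hD, -⟩ := th70_exists_div (K := Qb) hm f0 hdvd
  exact ⟨H', H'0, ht45_normAlong_ne_zero _ hfin f0, H'char, H'pow,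
    fun v => ⟨_, (hdiv D hD v).symm⟩⟩

/-- **Kummer presentations along `β`.**  For any family `Θ` at level `N q` with the existence
and evaluation clauses (`te22_family`): every `Θ n χ` has a Kummer presentation `Θ n χ = [D]`,
`p ^ n • D = div f`, such that `Nm_β f` is a constant times a `p ^ n`-th power as soon as the
`β`-corestriction of `χ` to `Γ₀(N)` vanishes. -/
theorem tb87_kummer_beta (hq : q.Prime) (hqN : ¬ q ∣ N) (p : ℕ) (hp : p ≠ 0)
    (Θ : ℕ → (↥(parabolicHoms ℤ (Gamma0 (N * q)) ℤ) →+ JZero (N * q)))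
    (hex : ∀ (n : ℕ) (χ : ↥(parabolicHoms ℤ (Gamma0 (N * q)) ℤ)),
      ∃ (h : mer95_MER) (f : ↥(modularFunctionFieldBar (N * q))),
        thz31_AdmZ Qb (ff79_ev0 phi (N * q)) (p ^ n) (th70_zeta (p ^ n))
          (χ : Additive (Gamma0 (N * q)) →+ ℤ) h f)
    (heval : ∀ (n : ℕ) (χ : ↥(parabolicHoms ℤ (Gamma0 (N * q)) ℤ)) (h : mer95_MER)
      (f : ↥(modularFunctionFieldBar (N * q))),
      thz31_AdmZ Qb (ff79_ev0 phi (N * q)) (p ^ n) (th70_zeta (p ^ n))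
        (χ : Additive (Gamma0 (N * q)) →+ ℤ) h f →
      ∀ D : Divisor.degZero (K := Qb) (F := ↥(modularFunctionFieldBar (N * q))),
        th70_IsDivOf (p ^ n) f (D : Divisor Qb ↥(modularFunctionFieldBar (N * q))) →
          Θ n χ = Pic0.mk D)
    (n : ℕ) (χ : ↥(parabolicHoms ℤ (Gamma0 (N * q)) ℤ)) :
    ∃ (D : Divisor.degZero (K := Qb) (F := ↥(modularFunctionFieldBar (N * q))))
      (f : ↥(modularFunctionFieldBar (N * q))), f ≠ 0 ∧ Θ n χ = Pic0.mk D ∧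
      (∀ v, ((p ^ n : ℕ) : ℤ) * (D : Divisor Qb ↥(modularFunctionFieldBar (N * q))) v
        = v.ord f) ∧
      (tb87_corB N q ℤ (χ : Additive (Gamma0 (N * q)) →+ ℤ) = 0 →
        ∃ (g : ↥(modularFunctionFieldBar N)) (a : Qb),
          ht45_normAlong (heckeBetaBar Qb N q) f
            = algebraMap Qb ↥(modularFunctionFieldBar N) a * g ^ (p ^ n)) := by
  haveI := hi63_hasPrincipalDivisors_bar (N * q)
  have hm : p ^ n ≠ 0 := pow_ne_zero n hp
  obtain ⟨h, f, H⟩ := hex n χ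
  obtain ⟨h0, f0, hchar, hpow, hdvd⟩ := id H
  obtain ⟨D, hD, hdeg⟩ := th70_exists_div (K := Qb) hm f0 hdvd
  refine ⟨⟨D, Divisor.mem_degZero.mpr hdeg⟩, f, f0, heval n χ h f H _ hD, hD, fun hcor => ?_⟩
  exact tb87_norm_beta_pow phi N q hq hqN (p ^ n) (Nat.pos_of_ne_zero hm)
    (χ : Additive (Gamma0 (N * q)) →+ ℤ) h f h0 hchar hpow hcor

end tb87_adm

/-! ### The transfer preserves parabolic homomorphisms -/

section tb87_par

variable (Γ K : Subgroup SL(2, ℤ)) {A : Type*} [AddCommGroup A]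

theorem tb87_elt_one (c : ↥Γ ⧸ K.subgroupOf Γ) : cor22_elt Γ K 1 c = 1 := by
  apply Subtype.ext
  rw [cor22_elt_coe]
  simp [ct77_h]

/-- The cocycle along the powers of `γ`. -/
theorem tb87_elt_pow (χ : Additive ↥K →+ A) (γ : ↥Γ) (m : ℕ) (c : ↥Γ ⧸ K.subgroupOf Γ) :
    χ (Additive.ofMul (cor22_elt Γ K (γ ^ m) c))
      = ∑ k ∈ Finset.range m, χ (Additive.ofMul (cor22_elt Γ K γ (γ ^ k • c))) := by
  induction m with
  | zero => rw [pow_zero, tb87_elt_one, ofMul_one, map_zero, Finset.sum_range_zero]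
  | succ m ih =>
    rw [pow_succ', cor22_elt_mul, ofMul_mul, map_add, ih, Finset.sum_range_succ, add_comm]

/-- **The transfer `cor22 Γ K` maps parabolic homomorphisms of `K` to parabolic homomorphisms of
`Γ`** (subgroups of `SL(2, ℤ)`, `Γ ⧸ (K ∩ Γ)` finite, any coefficient group). -/
theorem tb87_cor22_par [Finite (↥Γ ⧸ K.subgroupOf Γ)] (χ : Additive ↥K →+ A)
    (hχ : IsParabolicHom K χ) : IsParabolicHom Γ (cor22 Γ K χ) := by
  classical
  letI : Fintype (↥Γ ⧸ K.subgroupOf Γ) := Fintype.ofFinite _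
  intro γ hγ
  rw [cor22_apply, cor22_fun_eq_sum]
  have hinj : Function.Injective (fun c : ↥Γ ⧸ K.subgroupOf Γ => γ • c) :=
    MulAction.injective γ
  have hit : ∀ (k : ℕ) (c : ↥Γ ⧸ K.subgroupOf Γ),
      (fun c : ↥Γ ⧸ K.subgroupOf Γ => γ • c)^[k] c = γ ^ k • c := by
    intro k c
    rw [smul_iterate]
  have hper : ∀ c : ↥Γ ⧸ K.subgroupOf Γ,
      0 < Function.minimalPeriod (fun c : ↥Γ ⧸ K.subgroupOf Γ => γ • c) c := by
    intro c
    have hn : 0 < orderOf (MulAction.toPerm γ : Equiv.Perm (↥Γ ⧸ K.subgroupOf Γ)) :=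
      orderOf_pos _
    refine Function.IsPeriodicPt.minimalPeriod_pos hn ?_
    have h1 : ((MulAction.toPerm γ : Equiv.Perm (↥Γ ⧸ K.subgroupOf Γ))
        ^ orderOf (MulAction.toPerm γ : Equiv.Perm (↥Γ ⧸ K.subgroupOf Γ))) c = c := by
      rw [pow_orderOf_eq_one]
      rfl
    have h2 : ∀ (n : ℕ) (j : ↥Γ ⧸ K.subgroupOf Γ),
        ((MulAction.toPerm γ : Equiv.Perm (↥Γ ⧸ K.subgroupOf Γ)) ^ n) j
          = (fun c : ↥Γ ⧸ K.subgroupOf Γ => γ • c)^[n] j := by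
      intro n
      induction n with
      | zero => intro j; rfl
      | succ n ihn =>
        intro j
        rw [pow_succ, Equiv.Perm.mul_apply, ihn, Function.iterate_succ_apply]
        rfl
    rw [h2] at h1
    exact h1
  refine hpg88_sum_stable (fun c : ↥Γ ⧸ K.subgroupOf Γ => γ • c) hinj hper
    (fun c => χ (Additive.ofMul (cor22_elt Γ K γ c))) ?_ _ Finset.univ rfl
    (fun c _ => Finset.mem_univ _)
  intro c
  have hsum : ∑ k ∈ Finset.range
        (Function.minimalPeriod (fun c : ↥Γ ⧸ K.subgroupOf Γ => γ • c) c),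
        χ (Additive.ofMul (cor22_elt Γ K γ
          ((fun c : ↥Γ ⧸ K.subgroupOf Γ => γ • c)^[k] c)))
      = χ (Additive.ofMul (cor22_elt Γ K
          (γ ^ Function.minimalPeriod (fun c : ↥Γ ⧸ K.subgroupOf Γ => γ • c) c) c)) := by
    rw [tb87_elt_pow]
    exact Finset.sum_congr rfl fun k _ => by rw [hit]
  rw [hsum]
  apply hχ
  set mp := Function.minimalPeriod (fun c : ↥Γ ⧸ K.subgroupOf Γ => γ • c) c with hmp
  have hfix : γ ^ mp • c = c := by
    rw [← hit, hmp]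
    exact Function.iterate_minimalPeriod
  have hspec := cor22_elt_spec Γ K (γ ^ mp) c
  rw [hfix] at hspec
  have hmm : (((c.out : ↥Γ) : SL(2, ℤ)) : Matrix (Fin 2) (Fin 2) ℤ)
        * (((cor22_elt Γ K (γ ^ mp) c : ↥K) : SL(2, ℤ)) : Matrix (Fin 2) (Fin 2) ℤ)
      = ((((γ ^ mp : ↥Γ) : SL(2, ℤ))) : Matrix (Fin 2) (Fin 2) ℤ)
        * (((c.out : ↥Γ) : SL(2, ℤ)) : Matrix (Fin 2) (Fin 2) ℤ) := by
    rw [← Matrix.SpecialLinearGroup.coe_mul, ← Matrix.SpecialLinearGroup.coe_mul, hspec]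
  have hdet : (((c.out : ↥Γ) : SL(2, ℤ)) : Matrix (Fin 2) (Fin 2) ℤ).det ≠ 0 := by
    rw [Matrix.SpecialLinearGroup.det_coe]
    exact one_ne_zero
  rw [← hpg88_trace_eq_of_mul_eq hdet hmm, Subgroup.coe_pow]
  exact hpg88_trace_pow _ hγ _

end tb87_par

section tb87_parN

variable (N q : ℕ) [NeZero N] [NeZero q] {A : Type*} [AddCommGroup A]

/-- The `α`-transfer `cor22 Γ₀(N) Γ₀(N q)` preserves parabolic homomorphisms. -/
theorem tb87_corA_par (χ : Additive ↥(Gamma0 (N * q)) →+ A)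
    (hχ : IsParabolicHom (Gamma0 (N * q)) χ) :
    IsParabolicHom (Gamma0 N) (cor22 (Gamma0 N) (Gamma0 (N * q)) χ) :=
  tb87_cor22_par (Gamma0 N) (Gamma0 (N * q)) χ hχ

theorem tb87_back_trace (k : ↥(tb87_K N q)) :
    (((tb87_back N q k : ↥(Gamma0 (N * q))) : SL(2, ℤ)) : Matrix (Fin 2) (Fin 2) ℤ).trace
      = ((k : SL(2, ℤ)) : Matrix (Fin 2) (Fin 2) ℤ).trace := by
  obtain ⟨h00, -, -, h11⟩ := nh53_conj_entries N q (tb87_back N q k)
  rw [tb87_back_spec N q k] at h00 h11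
  rw [Matrix.trace_fin_two, Matrix.trace_fin_two]
  show ((tb87_back N q k : ↥(Gamma0 (N * q))) : SL(2, ℤ)) 0 0
      + ((tb87_back N q k : ↥(Gamma0 (N * q))) : SL(2, ℤ)) 1 1
    = (k : SL(2, ℤ)) 0 0 + (k : SL(2, ℤ)) 1 1
  rw [h00, h11]

/-- The `β`-corestriction preserves parabolic homomorphisms. -/
theorem tb87_corB_par (χ : Additive ↥(Gamma0 (N * q)) →+ A)
    (hχ : IsParabolicHom (Gamma0 (N * q)) χ) :
    IsParabolicHom (Gamma0 N) (tb87_corB N q A χ) := by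
  refine tb87_cor22_par (Gamma0 N) (tb87_K N q)
    (χ.comp (MonoidHom.toAdditive (tb87_back N q).toMonoidHom)) ?_
  intro k hk
  show χ (Additive.ofMul (tb87_back N q k)) = 0
  apply hχ
  rw [tb87_back_trace]
  exact hk

/-- The `α`-transfer on the parabolic lattices. -/
noncomputable def tb87_corApar :
    ↥(parabolicHoms ℤ (Gamma0 (N * q)) ℤ) →+ ↥(parabolicHoms ℤ (Gamma0 N) ℤ) where
  toFun χ := ⟨cor22 (Gamma0 N) (Gamma0 (N * q)) (χ : Additive ↥(Gamma0 (N * q)) →+ ℤ),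
    tb87_corA_par N q _ χ.2⟩
  map_zero' := Subtype.ext (map_zero _)
  map_add' χ χ' := Subtype.ext (map_add _ _ _)

/-- The `β`-corestriction on the parabolic lattices. -/
noncomputable def tb87_corBpar :
    ↥(parabolicHoms ℤ (Gamma0 (N * q)) ℤ) →+ ↥(parabolicHoms ℤ (Gamma0 N) ℤ) where
  toFun χ := ⟨tb87_corB N q ℤ (χ : Additive ↥(Gamma0 (N * q)) →+ ℤ),
    tb87_corB_par N q _ χ.2⟩
  map_zero' := Subtype.ext (map_zero _)
  map_add' χ χ' := Subtype.ext (map_add _ _ _)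

theorem tb87_corApar_coe (χ : ↥(parabolicHoms ℤ (Gamma0 (N * q)) ℤ)) :
    ((tb87_corApar N q χ : ↥(parabolicHoms ℤ (Gamma0 N) ℤ)) : Additive ↥(Gamma0 N) →+ ℤ)
      = cor22 (Gamma0 N) (Gamma0 (N * q)) (χ : Additive ↥(Gamma0 (N * q)) →+ ℤ) := rfl

theorem tb87_corBpar_coe (χ : ↥(parabolicHoms ℤ (Gamma0 (N * q)) ℤ)) :
    ((tb87_corBpar N q χ : ↥(parabolicHoms ℤ (Gamma0 N) ℤ)) : Additive ↥(Gamma0 N) →+ ℤ)
      = tb87_corB N q ℤ (χ : Additive ↥(Gamma0 (N * q)) →+ ℤ) := rfl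

end tb87_parN

end Fermat.Agent.S35
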