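import Fermat.Agent.S35.CorHeckeAlpha22
import Fermat.Agent.S35.PushBeta87
import Fermat.Agent.S35.PushJacB40
import Fermat.Agent.S35.Iface62

/-!
# S35 lab, row N2a-beta + N3 + N2b for `β` (helper45): the transfer along `β` on the Jacobian side

Levels `N q → N` (`q` prime, `q ∤ N`); `β = heckeBetaBar`; `tb87_corBpar N q` = helper87's
`β`-corestriction on the lattices of integral parabolic homomorphisms; `pj40_betaPush N q` =
helper40's `β_* : JZero (N q) →+ JZero N`.  These are the `β`-twins of helper22's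
`ThetaAlphaFull22` / `ThetaAlphaPush22` / `CorHeckeAlpha22`, plus the newness statement.

* `chb45_compat_beta` : every `Θ n χ` is the class of a degree-zero `D` with
  `Θ' n (tb87_corBpar χ) = [β_* D]` (divisor form);
* `chb45_compat_both` : ONE `D` serving `α` and `β`;
* `chb45_compat_beta_push` : `π (Θ n c) = Θ' n (tb87_corBpar N q c)` for every additive `π`
  inducing the pushforward along `β` on classes (the literal `h2a` of helper69's `ht69_*`);
* `chb45_betaPush_theta` : the same for `π = pj40_betaPush N q` (no hypothesis on `π`), and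
  `chb45_alphaPush_theta` for `pj40_alphaPush N q`;
* `chb45_corBpar_hecke` : `tb87_corBpar` commutes with `T_ℓ` for EVERY prime `ℓ ∤ N q`;
* `chb45_corBpar_eigen`, `chb45_corBpar_newvec` : (2b) for `β` — an eigenvector with the
  eigensystem of a newform of level `N q` is killed by the `β`-corestriction;
  `chb45_corApar_newvec` : the same for `α` with `π = pj40_alphaPush` plugged in;
* `chb45_isNew` : if both transfers of `c` vanish, `Θ n c` is `q`-new (`s35i62_IsNew N q`).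
-/

set_option autoImplicit false
set_option linter.unusedSectionVars false
set_option linter.unusedVariables false
set_option linter.style.longLine false
set_option linter.style.haveILetI false

open CongruenceSubgroup ModularCurve ModularCurve.Period AlgebraicCurve UpperHalfPlane
open scoped MatrixGroups TensorProduct

namespace Fermat.Agent.S35

open Fermat.Agent.S16 Fermat.Agent.S24 Fermat.Agent.S42 Fermat.Agent.S41 Fermat.Agent.S37
open Fermat.Agent.S31 Fermat.Agent.S30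

local notation "Qb" => AlgebraicClosure ℚ
local notation "GQ" => AlgebraicClosure ℚ ≃ₐ[ℚ] AlgebraicClosure ℚ

section chb45

variable (N q : ℕ) [NeZero N] [NeZero q]

/-- **`β_* ∘ Θ_n = Θ'_n ∘ cor_β`, divisor form.** -/
theorem chb45_compat_beta (hq : q.Prime) (hqN : ¬ q ∣ N) (p : ℕ) (hp : p ≠ 0)
    (Θ : ℕ → (↥(parabolicHoms ℤ (Gamma0 (N * q)) ℤ) →+ JZero (N * q)))
    (hex : ∀ (n : ℕ) (χ : ↥(parabolicHoms ℤ (Gamma0 (N * q)) ℤ)),
      ∃ (h : mer95_MER) (f : ↥(modularFunctionFieldBar (N * q))),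
        thz31_AdmZ Qb (ff79_ev0 phi (N * q)) (p ^ n) (th70_zeta (p ^ n))
          (χ : Additive (Gamma0 (N * q)) →+ ℤ) h f)
    (heval : ∀ (n : ℕ) (χ : ↥(parabolicHoms ℤ (Gamma0 (N * q)) ℤ)) (h : mer95_MER)
      (f : ↥(modularFunctionFieldBar (N * q))),
      thz31_AdmZ Qb (ff79_ev0 phi (N * q)) (p ^ n) (th70_zeta (p ^ n))
        (χ : Additive (Gamma0 (N * q)) →+ ℤ) h f →
      ∀ D : Divisor.degZero (K := Qb) (F := ↥(modularFunctionFieldBar (N * q))),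
        th70_IsDivOf (p ^ n) f (D : Divisor Qb ↥(modularFunctionFieldBar (N * q))) →
          Θ n χ = Pic0.mk D)
    (Θ' : ℕ → (↥(parabolicHoms ℤ (Gamma0 N) ℤ) →+ JZero N))
    (heval' : ∀ (n : ℕ) (χ : ↥(parabolicHoms ℤ (Gamma0 N) ℤ)) (h : mer95_MER)
      (f : ↥(modularFunctionFieldBar N)),
      thz31_AdmZ Qb (ff79_ev0 phi N) (p ^ n) (th70_zeta (p ^ n))
        (χ : Additive (Gamma0 N) →+ ℤ) h f →
      ∀ D : Divisor.degZero (K := Qb) (F := ↥(modularFunctionFieldBar N)),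
        th70_IsDivOf (p ^ n) f (D : Divisor Qb ↥(modularFunctionFieldBar N)) →
          Θ' n χ = Pic0.mk D)
    (n : ℕ) (χ : ↥(parabolicHoms ℤ (Gamma0 (N * q)) ℤ)) :
    ∃ D : Divisor.degZero (K := Qb) (F := ↥(modularFunctionFieldBar (N * q))),
      Θ n χ = Pic0.mk D ∧
      Θ' n (tb87_corBpar N q χ)
        = Pic0.mk ⟨Divisor.pushforwardAlong (heckeBetaBar Qb N q)
            (hx63_heckeBetaBarIntegral N q)
            (D : Divisor Qb ↥(modularFunctionFieldBar (N * q))),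
          Divisor.pushforwardAlong_mem_degZero _ _ D.2⟩ := by
  haveI := hi63_hasPrincipalDivisors_bar (N * q)
  have hm : p ^ n ≠ 0 := pow_ne_zero n hp
  obtain ⟨h, f, H⟩ := hex n χ
  obtain ⟨h0, f0, hchar, hpow, hdvd⟩ := id H
  obtain ⟨D, hD, hdeg⟩ := th70_exists_div (K := Qb) hm f0 hdvd
  obtain ⟨⟨H', hadm⟩, hdiv⟩ := tb87_adm_beta N q hq hqN (p ^ n) hm
    (χ : Additive (Gamma0 (N * q)) →+ ℤ) h f H
  refine ⟨⟨D, Divisor.mem_degZero.mpr hdeg⟩, heval n χ h f H _ hD, ?_⟩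
  exact heval' n (tb87_corBpar N q χ) H' _ hadm
    ⟨_, Divisor.pushforwardAlong_mem_degZero _ _ (Divisor.mem_degZero.mpr hdeg)⟩ (hdiv D hD)

/-- **ONE divisor serving `α` and `β`**: `Θ n χ = [D]`, `Θ' n (cor_α χ) = [α_* D]`,
`Θ' n (cor_β χ) = [β_* D]`. -/
theorem chb45_compat_both (hq : q.Prime) (hqN : ¬ q ∣ N) (p : ℕ) (hp : p ≠ 0)
    (Θ : ℕ → (↥(parabolicHoms ℤ (Gamma0 (N * q)) ℤ) →+ JZero (N * q)))
    (hex : ∀ (n : ℕ) (χ : ↥(parabolicHoms ℤ (Gamma0 (N * q)) ℤ)),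
      ∃ (h : mer95_MER) (f : ↥(modularFunctionFieldBar (N * q))),
        thz31_AdmZ Qb (ff79_ev0 phi (N * q)) (p ^ n) (th70_zeta (p ^ n))
          (χ : Additive (Gamma0 (N * q)) →+ ℤ) h f)
    (heval : ∀ (n : ℕ) (χ : ↥(parabolicHoms ℤ (Gamma0 (N * q)) ℤ)) (h : mer95_MER)
      (f : ↥(modularFunctionFieldBar (N * q))),
      thz31_AdmZ Qb (ff79_ev0 phi (N * q)) (p ^ n) (th70_zeta (p ^ n))
        (χ : Additive (Gamma0 (N * q)) →+ ℤ) h f →
      ∀ D : Divisor.degZero (K := Qb) (F := ↥(modularFunctionFieldBar (N * q))),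
        th70_IsDivOf (p ^ n) f (D : Divisor Qb ↥(modularFunctionFieldBar (N * q))) →
          Θ n χ = Pic0.mk D)
    (Θ' : ℕ → (↥(parabolicHoms ℤ (Gamma0 N) ℤ) →+ JZero N))
    (heval' : ∀ (n : ℕ) (χ : ↥(parabolicHoms ℤ (Gamma0 N) ℤ)) (h : mer95_MER)
      (f : ↥(modularFunctionFieldBar N)),
      thz31_AdmZ Qb (ff79_ev0 phi N) (p ^ n) (th70_zeta (p ^ n))
        (χ : Additive (Gamma0 N) →+ ℤ) h f →
      ∀ D : Divisor.degZero (K := Qb) (F := ↥(modularFunctionFieldBar N)),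
        th70_IsDivOf (p ^ n) f (D : Divisor Qb ↥(modularFunctionFieldBar N)) →
          Θ' n χ = Pic0.mk D)
    (n : ℕ) (χ : ↥(parabolicHoms ℤ (Gamma0 (N * q)) ℤ)) :
    ∃ D : Divisor.degZero (K := Qb) (F := ↥(modularFunctionFieldBar (N * q))),
      Θ n χ = Pic0.mk D ∧
      Θ' n (taf22_corPar N q χ)
        = Pic0.mk ⟨Divisor.pushforwardAlong (heckeAlphaBar Qb N q)
            (hx63_heckeAlphaBarIntegral N q)
            (D : Divisor Qb ↥(modularFunctionFieldBar (N * q))),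
          Divisor.pushforwardAlong_mem_degZero _ _ D.2⟩ ∧
      Θ' n (tb87_corBpar N q χ)
        = Pic0.mk ⟨Divisor.pushforwardAlong (heckeBetaBar Qb N q)
            (hx63_heckeBetaBarIntegral N q)
            (D : Divisor Qb ↥(modularFunctionFieldBar (N * q))),
          Divisor.pushforwardAlong_mem_degZero _ _ D.2⟩ := by
  haveI := hi63_hasPrincipalDivisors_bar (N * q)
  have hm : p ^ n ≠ 0 := pow_ne_zero n hp
  obtain ⟨h, f, H⟩ := hex n χ
  obtain ⟨h0, f0, hchar, hpow, hdvd⟩ := id H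
  obtain ⟨D, hD, hdeg⟩ := th70_exists_div (K := Qb) hm f0 hdvd
  obtain ⟨⟨HA, hadmA⟩, hdivA⟩ := te22_adm_alpha N q hq hqN (p ^ n) hm
    (χ : Additive (Gamma0 (N * q)) →+ ℤ) h f H
  obtain ⟨⟨HB, hadmB⟩, hdivB⟩ := tb87_adm_beta N q hq hqN (p ^ n) hm
    (χ : Additive (Gamma0 (N * q)) →+ ℤ) h f H
  refine ⟨⟨D, Divisor.mem_degZero.mpr hdeg⟩, heval n χ h f H _ hD, ?_, ?_⟩
  · exact heval' n (taf22_corPar N q χ) HA _ hadmA
      ⟨_, Divisor.pushforwardAlong_mem_degZero _ _ (Divisor.mem_degZero.mpr hdeg)⟩ (hdivA D hD)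
  · exact heval' n (tb87_corBpar N q χ) HB _ hadmB
      ⟨_, Divisor.pushforwardAlong_mem_degZero _ _ (Divisor.mem_degZero.mpr hdeg)⟩ (hdivB D hD)

/-- **`π ∘ Θ_n = Θ'_n ∘ cor_β`** for every additive `π` inducing the pushforward along `β` on
classes of degree-zero divisors. -/
theorem chb45_compat_beta_push (hq : q.Prime) (hqN : ¬ q ∣ N) (p : ℕ) (hp : p ≠ 0)
    (Θ : ℕ → (↥(parabolicHoms ℤ (Gamma0 (N * q)) ℤ) →+ JZero (N * q)))
    (hex : ∀ (n : ℕ) (χ : ↥(parabolicHoms ℤ (Gamma0 (N * q)) ℤ)),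
      ∃ (h : mer95_MER) (f : ↥(modularFunctionFieldBar (N * q))),
        thz31_AdmZ Qb (ff79_ev0 phi (N * q)) (p ^ n) (th70_zeta (p ^ n))
          (χ : Additive (Gamma0 (N * q)) →+ ℤ) h f)
    (heval : ∀ (n : ℕ) (χ : ↥(parabolicHoms ℤ (Gamma0 (N * q)) ℤ)) (h : mer95_MER)
      (f : ↥(modularFunctionFieldBar (N * q))),
      thz31_AdmZ Qb (ff79_ev0 phi (N * q)) (p ^ n) (th70_zeta (p ^ n))
        (χ : Additive (Gamma0 (N * q)) →+ ℤ) h f →
      ∀ D : Divisor.degZero (K := Qb) (F := ↥(modularFunctionFieldBar (N * q))),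
        th70_IsDivOf (p ^ n) f (D : Divisor Qb ↥(modularFunctionFieldBar (N * q))) →
          Θ n χ = Pic0.mk D)
    (Θ' : ℕ → (↥(parabolicHoms ℤ (Gamma0 N) ℤ) →+ JZero N))
    (heval' : ∀ (n : ℕ) (χ : ↥(parabolicHoms ℤ (Gamma0 N) ℤ)) (h : mer95_MER)
      (f : ↥(modularFunctionFieldBar N)),
      thz31_AdmZ Qb (ff79_ev0 phi N) (p ^ n) (th70_zeta (p ^ n))
        (χ : Additive (Gamma0 N) →+ ℤ) h f →
      ∀ D : Divisor.degZero (K := Qb) (F := ↥(modularFunctionFieldBar N)),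
        th70_IsDivOf (p ^ n) f (D : Divisor Qb ↥(modularFunctionFieldBar N)) →
          Θ' n χ = Pic0.mk D)
    (π : JZero (N * q) →+ JZero N)
    (hπ : ∀ D : Divisor.degZero (K := Qb) (F := ↥(modularFunctionFieldBar (N * q))),
      π (Pic0.mk D) = Pic0.mk ⟨Divisor.pushforwardAlong (heckeBetaBar Qb N q)
        (hx63_heckeBetaBarIntegral N q) (D : Divisor Qb ↥(modularFunctionFieldBar (N * q))),
        Divisor.pushforwardAlong_mem_degZero _ _ D.2⟩)
    (n : ℕ) (c : ↥(parabolicHoms ℤ (Gamma0 (N * q)) ℤ)) :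
    π (Θ n c) = Θ' n (tb87_corBpar N q c) := by
  obtain ⟨D, hD, hD'⟩ := chb45_compat_beta N q hq hqN p hp Θ hex heval Θ' heval' n c
  rw [hD, hπ D]
  exact hD'.symm

/-- `pj40_betaPush` is the pushforward along `β` on classes. -/
theorem chb45_betaPush_mk (D : Divisor.degZero (K := Qb) (F := ↥(modularFunctionFieldBar (N * q)))) :
    pj40_betaPush N q (Pic0.mk D) = Pic0.mk ⟨Divisor.pushforwardAlong (heckeBetaBar Qb N q)
      (hx63_heckeBetaBarIntegral N q) (D : Divisor Qb ↥(modularFunctionFieldBar (N * q))),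
      Divisor.pushforwardAlong_mem_degZero _ _ D.2⟩ :=
  pj40_betaPush_mk N q (hx63_heckeBetaBarIntegral N q) D _

/-- `pj40_alphaPush` is the pushforward along `α` on classes. -/
theorem chb45_alphaPush_mk (D : Divisor.degZero (K := Qb) (F := ↥(modularFunctionFieldBar (N * q)))) :
    pj40_alphaPush N q (Pic0.mk D) = Pic0.mk ⟨Divisor.pushforwardAlong (heckeAlphaBar Qb N q)
      (hx63_heckeAlphaBarIntegral N q) (D : Divisor Qb ↥(modularFunctionFieldBar (N * q))),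
      Divisor.pushforwardAlong_mem_degZero _ _ D.2⟩ :=
  pj40_alphaPush_mk N q (hx63_heckeAlphaBarIntegral N q) D _

/-- **The transfer along `β` commutes with `T_ℓ` for every prime `ℓ ∤ N q`** (no hypothesis). -/
theorem chb45_corBpar_hecke (hq : q.Prime) (hqN : ¬ q ∣ N)
    (ℓ : ℕ) (hℓ : ℓ.Prime) (hℓNq : ¬ ℓ ∣ N * q)
    (c : ↥(parabolicHoms ℤ (Gamma0 (N * q)) ℤ)) :
    tb87_corBpar N q (hl42_TL (N * q) ℓ c) = hl42_TL N ℓ (tb87_corBpar N q c) := by
  have hℓN : ¬ ℓ ∣ N := fun h => hℓNq (Dvd.dvd.mul_right h q)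
  obtain ⟨Θ₁, a1, a2, a3, a4, hex1, hev1⟩ := te22_family (N * q) 2 two_ne_zero
  obtain ⟨Θ₁', b1, b2, b3, b4, -, hev1'⟩ := te22_family N 2 two_ne_zero
  obtain ⟨Θ₂, c1, c2, c3, c4, hex2, hev2⟩ := te22_family (N * q) 3 three_ne_zero
  obtain ⟨Θ₂', d1, d2, d3, d4, -, hev2'⟩ := te22_family N 3 three_ne_zero
  exact ht69_cores_hecke_two (N * q) N 2 3 Nat.prime_two Nat.prime_three (by decide)
    Θ₁ Θ₂ Θ₁' Θ₂' ⟨a1, a2, a3, a4⟩ ⟨b1, b2, b3, b4⟩ ⟨c1, c2, c3, c4⟩ ⟨d1, d2, d3, d4⟩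
    (pj40_betaPush N q) (fun g x => pj40_betaPush_smul N q g x) (tb87_corBpar N q)
    (chb45_compat_beta_push N q hq hqN 2 two_ne_zero Θ₁ hex1 hev1 Θ₁' hev1'
      (pj40_betaPush N q) (chb45_betaPush_mk N q))
    (chb45_compat_beta_push N q hq hqN 3 three_ne_zero Θ₂ hex2 hev2 Θ₂' hev2'
      (pj40_betaPush N q) (chb45_betaPush_mk N q))
    ℓ hℓ hℓNq hℓN c

/-- **Transport of eigenvectors along the `β`-transfer**, over any commutative ring `O`. -/
theorem chb45_corBpar_eigen (hq : q.Prime) (hqN : ¬ q ∣ N)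
    (O : Type*) [CommRing O] (ℓ : ℕ) (hℓ : ℓ.Prime) (hℓNq : ¬ ℓ ∣ N * q)
    (x : O ⊗[ℤ] ↥(parabolicHoms ℤ (Gamma0 (N * q)) ℤ)) (a : O)
    (hx : (hl42_TL (N * q) ℓ).baseChange O x = a • x) :
    (hl42_TL N ℓ).baseChange O ((tb87_corBpar N q).toIntLinearMap.baseChange O x)
      = a • (tb87_corBpar N q).toIntLinearMap.baseChange O x :=
  ht69_cores_eigen O ℓ (tb87_corBpar N q).toIntLinearMap
    (fun c => chb45_corBpar_hecke N q hq hqN ℓ hℓ hℓNq c) x a hx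

/-- **(2b) for `β`**: an eigenvector with the eigensystem of a newform of level `N q` is killed
by the `β`-transfer to level `N`. -/
theorem chb45_corBpar_newvec (hq : q.Prime) (hqN : ¬ q ∣ N)
    {g : CuspForm (Gamma0 (N * q)) 2} (hg : g.IsNewform)
    {O : Type*} [CommRing O] [IsDomain O] {R : Type*} [CommRing R] (j : R →+* ℂ) (ι : R →+* O)
    (hker : ∀ r, ι r = 0 → j r = 0) (c : ℕ → R)
    (hc : ∀ ℓ : ℕ, ℓ.Prime → ¬ ℓ ∣ N * q → j (c ℓ) = ModularFormClass.qCoeff g ℓ)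
    (x : O ⊗[ℤ] ↥(parabolicHoms ℤ (Gamma0 (N * q)) ℤ))
    (hx : ∀ ℓ : ℕ, ℓ.Prime → ¬ ℓ ∣ N * q → (hl42_TL (N * q) ℓ).baseChange O x = ι (c ℓ) • x) :
    (tb87_corBpar N q).toIntLinearMap.baseChange O x = 0 := by
  have hne : N ≠ N * q := by
    intro h
    have h1 : N * 1 = N * q := by rw [mul_one]; exact h
    exact hq.one_lt.ne (Nat.eq_of_mul_eq_mul_left (Nat.pos_of_ne_zero (NeZero.ne N)) h1)
  exact nv28_newvec hg N (Dvd.intro q rfl) hne j ι hker c hc _ fun ℓ hℓ hℓM =>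
    chb45_corBpar_eigen N q hq hqN O ℓ hℓ hℓM x (ι (c ℓ)) (hx ℓ hℓ hℓM)

/-- **(2b) for `α`**, with `π = pj40_alphaPush` plugged into helper22's `tah22_corPar_newvec`. -/
theorem chb45_corApar_newvec (hq : q.Prime) (hqN : ¬ q ∣ N)
    {g : CuspForm (Gamma0 (N * q)) 2} (hg : g.IsNewform)
    {O : Type*} [CommRing O] [IsDomain O] {R : Type*} [CommRing R] (j : R →+* ℂ) (ι : R →+* O)
    (hker : ∀ r, ι r = 0 → j r = 0) (c : ℕ → R)
    (hc : ∀ ℓ : ℕ, ℓ.Prime → ¬ ℓ ∣ N * q → j (c ℓ) = ModularFormClass.qCoeff g ℓ)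
    (x : O ⊗[ℤ] ↥(parabolicHoms ℤ (Gamma0 (N * q)) ℤ))
    (hx : ∀ ℓ : ℕ, ℓ.Prime → ¬ ℓ ∣ N * q → (hl42_TL (N * q) ℓ).baseChange O x = ι (c ℓ) • x) :
    (taf22_corPar N q).toIntLinearMap.baseChange O x = 0 :=
  tah22_corPar_newvec N q hq hqN (pj40_alphaPush N q) (chb45_alphaPush_mk N q)
    (fun g x => pj40_alphaPush_smul N q g x) hg j ι hker c hc x hx

/-- **Newness of the Kummer classes**: if both transfers of `c` vanish, `Θ n c` is `q`-new. -/
theorem chb45_isNew (hq : q.Prime) (hqN : ¬ q ∣ N) (p : ℕ) (hp : p ≠ 0)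
    (Θ : ℕ → (↥(parabolicHoms ℤ (Gamma0 (N * q)) ℤ) →+ JZero (N * q)))
    (hex : ∀ (n : ℕ) (χ : ↥(parabolicHoms ℤ (Gamma0 (N * q)) ℤ)),
      ∃ (h : mer95_MER) (f : ↥(modularFunctionFieldBar (N * q))),
        thz31_AdmZ Qb (ff79_ev0 phi (N * q)) (p ^ n) (th70_zeta (p ^ n))
          (χ : Additive (Gamma0 (N * q)) →+ ℤ) h f)
    (heval : ∀ (n : ℕ) (χ : ↥(parabolicHoms ℤ (Gamma0 (N * q)) ℤ)) (h : mer95_MER)
      (f : ↥(modularFunctionFieldBar (N * q))),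
      thz31_AdmZ Qb (ff79_ev0 phi (N * q)) (p ^ n) (th70_zeta (p ^ n))
        (χ : Additive (Gamma0 (N * q)) →+ ℤ) h f →
      ∀ D : Divisor.degZero (K := Qb) (F := ↥(modularFunctionFieldBar (N * q))),
        th70_IsDivOf (p ^ n) f (D : Divisor Qb ↥(modularFunctionFieldBar (N * q))) →
          Θ n χ = Pic0.mk D)
    (n : ℕ) (c : ↥(parabolicHoms ℤ (Gamma0 (N * q)) ℤ))
    (hA : cor22 (Gamma0 N) (Gamma0 (N * q)) (c : Additive (Gamma0 (N * q)) →+ ℤ) = 0)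
    (hB : tb87_corB N q ℤ (c : Additive (Gamma0 (N * q)) →+ ℤ) = 0) :
    s35i62_IsNew N q (Θ n c) := by
  obtain ⟨Θ', -, -, -, -, -, heval'⟩ := te22_family N p hp
  obtain ⟨D, hD, hDA, hDB⟩ := chb45_compat_both N q hq hqN p hp Θ hex heval Θ' heval' n c
  have eA : taf22_corPar N q c = 0 := Subtype.ext hA
  have eB : tb87_corBpar N q c = 0 := Subtype.ext hB
  rw [eA, map_zero] at hDA
  rw [eB, map_zero] at hDB
  refine ⟨hx63_heckeAlphaBarIntegral N q, hx63_heckeBetaBarIntegral N q, D, hD, ?_, ?_⟩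
  · exact (pj40_mk_eq_zero_iff _).mp hDA.symm
  · exact (pj40_mk_eq_zero_iff _).mp hDB.symm

end chb45

end Fermat.Agent.S35
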