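import Fermat.Agent.S35.PushAlpha22
import Fermat.Agent.S42.HeckePar88

/-!
# S35 lab, package (2a) / N-cores (helper22): the transfer `cor22` preserves parabolic homs

For subgroups `K`, `Γ` of `SL(2, ℤ)` with `Γ ⧸ (K ∩ Γ)` finite and every abelian group `A`:
`cor22_isParabolicHom`, `cor22_mem_parabolicHoms`.  Proof: the cycle computation of helper88
(`hpg88_sum_stable`): along a cycle of length `m` of `c ↦ γ • c` the cocycle elements multiply to
`cor22_elt (γ ^ m) c = c.out⁻¹ * γ ^ m * c.out`, a conjugate of `γ ^ m`.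
-/

set_option autoImplicit false
set_option linter.unusedSectionVars false
set_option linter.unusedVariables false
set_option linter.style.longLine false
set_option linter.style.haveILetI false

open CongruenceSubgroup ModularCurve ModularCurve.Period
open scoped MatrixGroups

namespace Fermat.Agent.S35

open Fermat.Agent.S16 Fermat.Agent.S42 Fermat.Agent.S41

section cor22_pow

variable {S : Type*} [Group S] (Γ K : Subgroup S) {A : Type*} [AddCommGroup A]

theorem cor22_iterate_smul (γ : Γ) (m : ℕ) (c : Γ ⧸ K.subgroupOf Γ) :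
    (fun c : Γ ⧸ K.subgroupOf Γ => γ • c)^[m] c = γ ^ m • c := by
  induction m with
  | zero => rw [Function.iterate_zero, id, pow_zero, one_smul]
  | succ m ih => rw [Function.iterate_succ_apply', ih, pow_succ', mul_smul]

/-- Along the orbit of `c` the cocycle elements add up to the value at `cor22_elt (γ ^ m) c`. -/
theorem cor22_elt_pow (χ : Additive K →+ A) (γ : Γ) (m : ℕ) (c : Γ ⧸ K.subgroupOf Γ) :
    χ (Additive.ofMul (cor22_elt Γ K (γ ^ m) c)) =
      ∑ k ∈ Finset.range m,
        χ (Additive.ofMul (cor22_elt Γ K γ ((fun c : Γ ⧸ K.subgroupOf Γ => γ • c)^[k] c))) := by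
  induction m with
  | zero =>
    rw [pow_zero, Finset.sum_range_zero]
    have h1 : cor22_elt Γ K 1 c = 1 := by
      apply Subtype.ext
      rw [cor22_elt_coe, ct77_h_one]
      rfl
    rw [h1, ofMul_one, map_zero]
  | succ m ih =>
    rw [pow_succ', cor22_elt_mul, ofMul_mul, map_add, ih, Finset.sum_range_succ, add_comm,
      cor22_iterate_smul]

end cor22_pow

/-- **The transfer preserves parabolic homomorphisms.** -/
theorem cor22_isParabolicHom (Γ K : Subgroup SL(2, ℤ)) [Finite (Γ ⧸ K.subgroupOf Γ)]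
    {A : Type*} [AddCommGroup A] (χ : Additive K →+ A) (hχ : IsParabolicHom K χ) :
    IsParabolicHom Γ (cor22 Γ K χ) := by
  classical
  letI : Fintype (Γ ⧸ K.subgroupOf Γ) := Fintype.ofFinite _
  intro γ hγ
  rw [cor22_apply, cor22_fun_eq_sum]
  have hinj : Function.Injective (fun c : Γ ⧸ K.subgroupOf Γ => γ • c) :=
    MulAction.injective γ
  have hper : ∀ c : Γ ⧸ K.subgroupOf Γ,
      0 < Function.minimalPeriod (fun c : Γ ⧸ K.subgroupOf Γ => γ • c) c := by
    intro c
    exact Function.minimalPeriod_pos_of_mem_periodicPts (hinj.mem_periodicPts c)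
  refine hpg88_sum_stable (fun c : Γ ⧸ K.subgroupOf Γ => γ • c) hinj hper
    (fun c => χ (Additive.ofMul (cor22_elt Γ K γ c))) ?_ _ Finset.univ rfl
    (fun i _ => Finset.mem_univ _)
  intro c
  set m := Function.minimalPeriod (fun c : Γ ⧸ K.subgroupOf Γ => γ • c) c with hm
  rw [← cor22_elt_pow Γ K χ γ m c]
  apply hχ
  have hfix : γ ^ m • c = c := by
    rw [← cor22_iterate_smul]
    exact Function.iterate_minimalPeriod
  have hspec := cor22_elt_spec Γ K (γ ^ m) c
  rw [hfix] at hspec
  have hmat : (((c.out : Γ) : SL(2, ℤ)) : Matrix (Fin 2) (Fin 2) ℤ)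
      * (((cor22_elt Γ K (γ ^ m) c : K) : SL(2, ℤ)) : Matrix (Fin 2) (Fin 2) ℤ)
      = ((((γ ^ m : Γ) : SL(2, ℤ))) : Matrix (Fin 2) (Fin 2) ℤ)
        * (((c.out : Γ) : SL(2, ℤ)) : Matrix (Fin 2) (Fin 2) ℤ) := by
    rw [← Matrix.SpecialLinearGroup.coe_mul, ← Matrix.SpecialLinearGroup.coe_mul, hspec]
  have hdet : (((c.out : Γ) : SL(2, ℤ)) : Matrix (Fin 2) (Fin 2) ℤ).det ≠ 0 := by
    rw [((c.out : Γ) : SL(2, ℤ)).2]
    exact one_ne_zero
  rw [← hpg88_trace_eq_of_mul_eq hdet hmat, Subgroup.coe_pow]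
  exact hpg88_trace_pow _ hγ _

/-- The transfer maps `parabolicHoms` to `parabolicHoms`. -/
theorem cor22_mem_parabolicHoms (R : Type*) [Semiring R] (Γ K : Subgroup SL(2, ℤ))
    [Finite (Γ ⧸ K.subgroupOf Γ)] {A : Type*} [AddCommGroup A] [Module R A]
    {χ : Additive K →+ A} (hχ : χ ∈ parabolicHoms R K A) :
    cor22 Γ K χ ∈ parabolicHoms R Γ A :=
  mem_parabolicHoms_iff.mpr (cor22_isParabolicHom Γ K χ (mem_parabolicHoms_iff.mp hχ))

end Fermat.Agent.S35
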