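import Fermat.Agent.S35.PushAlpha22
import Fermat.Agent.S42.HeckePar88

/-!
# S35 lab, row 536 (2a, alpha), twin part (helper68): the transfer `cor22` preserves parabolic homs

`cor22 Γ K : Hom(K, A) → Hom(Γ, A)` (helper22, `PushAlpha22`) is the transfer written with the
cocycle of `Quotient.out`.  For subgroups `Γ, K ≤ SL(2, ℤ)` with `Γ ⧸ (K ∩ Γ)` finite it maps
parabolic homomorphisms of `K` to parabolic homomorphisms of `Γ` (any coefficient group `A`):
along a cycle of length `m` of `γ` on `Γ ⧸ K` starting at `c` the cocycle elements multiply to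
`c.out⁻¹ * γ ^ m * c.out`, which has the trace of `γ ^ m`, whose square is `4`.

* `cp68_elt_pow`            : the cocycle of `γ ^ m` is the sum over the first `m` orbit points;
* `cp68_cor22_isParabolicHom` : `IsParabolicHom K χ → IsParabolicHom Γ (cor22 Γ K χ)`;
* `cp68_cor22_mem`          : the same for `parabolicHoms R · A`;
* `cp68_finite_alpha`       : `Γ₀(N) ⧸ (Γ₀(N q) ∩ Γ₀(N))` is finite (`q` prime, `q ∤ N`);
* `cp68_corAlpha`           : the transfer `L(N q) →ₗ[ℤ] L(N)` on the lattices of integral parabolic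
  homomorphisms, with `cp68_corAlpha_coe` (its underlying hom is `cor22 (Γ₀ N) (Γ₀ (N q)) χ`)
  and `cp68_corAlpha_eq_zero_iff`.
-/

set_option autoImplicit false
set_option linter.unusedSectionVars false
set_option linter.unusedVariables false
set_option linter.style.longLine false
set_option linter.style.haveILetI false

open CongruenceSubgroup ModularCurve ModularCurve.Period
open scoped MatrixGroups

namespace Fermat.Agent.S35

open Fermat.Agent.S16 Fermat.Agent.S42 Fermat.Agent.S41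

section cp68_abstract

variable (Γ K : Subgroup SL(2, ℤ)) {A : Type*} [AddCommGroup A]

/-- The cocycle of `γ ^ m` at `c` is the sum of the cocycles of `γ` along the first `m` points of
the orbit of `c`. -/
theorem cp68_elt_pow (χ : Additive K →+ A) (γ : Γ) (m : ℕ) (c : Γ ⧸ K.subgroupOf Γ) :
    χ (Additive.ofMul (cor22_elt Γ K (γ ^ m) c)) =
      ∑ k ∈ Finset.range m, χ (Additive.ofMul (cor22_elt Γ K γ ((fun d => γ • d)^[k] c))) := by
  induction m generalizing c with
  | zero =>
    rw [pow_zero, Finset.sum_range_zero]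
    have h1 : cor22_elt Γ K (1 : Γ) c = 1 := by
      apply Subtype.ext
      rw [cor22_elt_coe, ct77_h_one]
      rfl
    rw [h1, ofMul_one, map_zero]
  | succ m ih =>
    rw [pow_succ, cor22_elt_mul, ofMul_mul, map_add, ih, Finset.sum_range_succ']
    rfl

theorem cp68_smul_pow (γ : Γ) (m : ℕ) (c : Γ ⧸ K.subgroupOf Γ) :
    (γ ^ m) • c = (fun d : Γ ⧸ K.subgroupOf Γ => γ • d)^[m] c := by
  induction m generalizing c with
  | zero => rw [pow_zero, one_smul, Function.iterate_zero, id]
  | succ m ih => rw [pow_succ, mul_smul, ih, Function.iterate_succ_apply]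

/-- **The transfer preserves parabolic homomorphisms.** -/
theorem cp68_cor22_isParabolicHom [Finite (Γ ⧸ K.subgroupOf Γ)] (χ : Additive K →+ A)
    (hχ : IsParabolicHom K χ) : IsParabolicHom Γ (cor22 Γ K χ) := by
  classical
  letI : Fintype (Γ ⧸ K.subgroupOf Γ) := Fintype.ofFinite _
  intro γ hγ
  rw [cor22_apply, cor22_fun_eq_sum]
  set g : (Γ ⧸ K.subgroupOf Γ) → (Γ ⧸ K.subgroupOf Γ) := fun d => γ • d with hg
  have hinj : Function.Injective g := MulAction.injective γ
  have hper : ∀ c, 0 < Function.minimalPeriod g c := by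
    intro c
    have hn : 0 < orderOf (MulAction.toPerm γ : Equiv.Perm (Γ ⧸ K.subgroupOf Γ)) := orderOf_pos _
    refine Function.IsPeriodicPt.minimalPeriod_pos hn ?_
    have h1 : ((MulAction.toPerm γ : Equiv.Perm (Γ ⧸ K.subgroupOf Γ)) ^
        orderOf (MulAction.toPerm γ : Equiv.Perm (Γ ⧸ K.subgroupOf Γ))) c = c := by
      rw [pow_orderOf_eq_one]
      rfl
    have h2 : ∀ (n : ℕ) (d : Γ ⧸ K.subgroupOf Γ),
        ((MulAction.toPerm γ : Equiv.Perm (Γ ⧸ K.subgroupOf Γ)) ^ n) d = g^[n] d := by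
      intro n
      induction n with
      | zero => intro d; rfl
      | succ n ihn =>
        intro d
        rw [pow_succ, Equiv.Perm.mul_apply, ihn, Function.iterate_succ_apply]
        rfl
    rw [h2] at h1
    exact h1
  refine hpg88_sum_stable g hinj hper
    (fun c => χ (Additive.ofMul (cor22_elt Γ K γ c))) ?_ _ Finset.univ rfl
    (fun c _ => Finset.mem_univ _)
  intro c
  rw [← cp68_elt_pow Γ K χ γ (Function.minimalPeriod g c) c]
  apply hχ
  have hfix : (γ ^ Function.minimalPeriod g c) • c = c := by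
    rw [cp68_smul_pow]
    exact Function.iterate_minimalPeriod
  have hspec := cor22_elt_spec Γ K (γ ^ Function.minimalPeriod g c) c
  rw [hfix] at hspec
  -- `γ ^ m * s = s * elt`, `s = c.out`: the two have the same trace
  have hmat : ((((c.out : Γ) : SL(2, ℤ))) : Matrix (Fin 2) (Fin 2) ℤ) *
      (((cor22_elt Γ K (γ ^ Function.minimalPeriod g c) c : K) : SL(2, ℤ)) :
        Matrix (Fin 2) (Fin 2) ℤ) =
      ((((γ ^ Function.minimalPeriod g c : Γ) : SL(2, ℤ))) : Matrix (Fin 2) (Fin 2) ℤ) *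
        ((((c.out : Γ) : SL(2, ℤ))) : Matrix (Fin 2) (Fin 2) ℤ) := by
    rw [← Matrix.SpecialLinearGroup.coe_mul, ← Matrix.SpecialLinearGroup.coe_mul, hspec]
  have hdet : ((((c.out : Γ) : SL(2, ℤ))) : Matrix (Fin 2) (Fin 2) ℤ).det ≠ 0 := by
    rw [Matrix.SpecialLinearGroup.det_coe]
    exact one_ne_zero
  have htr := hpg88_trace_eq_of_mul_eq hdet hmat
  rw [← htr, Subgroup.coe_pow]
  exact hpg88_trace_pow _ hγ _

/-- The transfer maps `parabolicHoms R K A` into `parabolicHoms R Γ A`. -/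
theorem cp68_cor22_mem [Finite (Γ ⧸ K.subgroupOf Γ)] (R : Type*) [Semiring R] [Module R A]
    {χ : Additive K →+ A} (hχ : χ ∈ parabolicHoms R K A) :
    cor22 Γ K χ ∈ parabolicHoms R Γ A :=
  cp68_cor22_isParabolicHom Γ K χ hχ

end cp68_abstract

section cp68_modular

variable (N q : ℕ) [NeZero N] [NeZero q]

/-- `Γ₀(N) ⧸ (Γ₀(N q) ∩ Γ₀(N))` is finite for a prime `q ∤ N`. -/
theorem cp68_finite_alpha (hq : q.Prime) (hqN : ¬ q ∣ N) :
    Finite (↥(Gamma0 N) ⧸ (Gamma0 (N * q)).subgroupOf (Gamma0 N)) := by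
  haveI : ((Gamma0 (N * q)).subgroupOf (Gamma0 N)).FiniteIndex := ⟨by
    have h1 := gi41_relindex N q hq hqN
    rw [Subgroup.relIndex] at h1
    rw [h1]
    exact Nat.succ_ne_zero q⟩
  exact Subgroup.finite_quotient_of_finiteIndex

/-- **The transfer on the lattices of integral parabolic homomorphisms**, levels `N q → N`. -/
noncomputable def cp68_corAlpha (hq : q.Prime) (hqN : ¬ q ∣ N) :
    ↥(parabolicHoms ℤ (Gamma0 (N * q)) ℤ) →ₗ[ℤ] ↥(parabolicHoms ℤ (Gamma0 N) ℤ) :=
  haveI := cp68_finite_alpha N q hq hqN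
  AddMonoidHom.toIntLinearMap
    { toFun := fun χ => ⟨cor22 (Gamma0 N) (Gamma0 (N * q)) (χ : Additive (Gamma0 (N * q)) →+ ℤ),
        cp68_cor22_mem (Gamma0 N) (Gamma0 (N * q)) ℤ χ.2⟩
      map_zero' := by
        apply Subtype.ext
        show cor22 (Gamma0 N) (Gamma0 (N * q)) (0 : Additive (Gamma0 (N * q)) →+ ℤ) = 0
        exact map_zero _
      map_add' := fun χ χ' => by
        apply Subtype.ext
        show cor22 (Gamma0 N) (Gamma0 (N * q))
            ((χ : Additive (Gamma0 (N * q)) →+ ℤ) + (χ' : Additive (Gamma0 (N * q)) →+ ℤ)) = _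
        exact map_add _ _ _ }

theorem cp68_corAlpha_coe (hq : q.Prime) (hqN : ¬ q ∣ N)
    (χ : ↥(parabolicHoms ℤ (Gamma0 (N * q)) ℤ)) :
    haveI := cp68_finite_alpha N q hq hqN
    ((cp68_corAlpha N q hq hqN χ : ↥(parabolicHoms ℤ (Gamma0 N) ℤ)) : Additive (Gamma0 N) →+ ℤ) =
      cor22 (Gamma0 N) (Gamma0 (N * q)) (χ : Additive (Gamma0 (N * q)) →+ ℤ) := rfl

theorem cp68_corAlpha_eq_zero_iff (hq : q.Prime) (hqN : ¬ q ∣ N)
    (χ : ↥(parabolicHoms ℤ (Gamma0 (N * q)) ℤ)) :
    haveI := cp68_finite_alpha N q hq hqN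
    cp68_corAlpha N q hq hqN χ = 0 ↔
      cor22 (Gamma0 N) (Gamma0 (N * q)) (χ : Additive (Gamma0 (N * q)) →+ ℤ) = 0 := by
  haveI := cp68_finite_alpha N q hq hqN
  constructor
  · intro h
    have := congrArg (fun x : ↥(parabolicHoms ℤ (Gamma0 N) ℤ) => (x : Additive (Gamma0 N) →+ ℤ)) h
    simpa [cp68_corAlpha_coe] using this
  · intro h
    apply Subtype.ext
    rw [cp68_corAlpha_coe]
    exact h

end cp68_modular

end Fermat.Agent.S35
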