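import Mathlib
import Fermat.Agent.S35.Iface62
import Fermat.Agent.S35.ToricLemma39
import Fermat.Agent.S35.LPTransport3
import Fermat.Agent.S35.SmoothDatumInst89
import Fermat.Agent.S35.FrobFrame50
import Fermat.Agent.S35.FrobNodeK93
import Fermat.Agent.S34.CoreAsm57
import Fermat.Agent.S34.UniqueZero37
import Fermat.Agent.S34.LocPrin9
import Fermat.Agent.S34.FrameLSAsm71
import Fermat.Agent.S34.FinSupp29
import Fermat.Agent.S34.FrameSat85

/-!
# S35 lab, row 568 (PKG-Core-A, second twin; helper57): the assembly of `s35i62_Pkg_Core`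

`caa57_core : caa57_Toric → caa57_NodeDatum → s35i62_Pkg_Core` — the LITERAL package P-CORE of
`Iface62` (chain A) from the S34 packages on main and TWO closed hypothesis `Prop`s:

* `caa57_Toric` (**(T)**, output of row 544 = (1c) on the canonical frame): for `f` with
  `N_α f = ca · a ^ m`, `N_β f = cb · b ^ m` there is a unit `G` of `W` such that
  `f₃ := f₁ / τ f₁ / G ^ m` (`f₁ = f / τ f`, `τ = ŝ²`; literally `lpt3_f3 τ m f G`) is congruent
  to a unit constant of `R` modulo `π V_∞` and to a unit constant of `R` modulo `π V_0`;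
* `caa57_NodeDatum` (**(N)**, output of row 547 on the canonical frame): at a closed point `n`
  of either chart lying on both branches, every `x = ε c ^ m` (`c` a unit of `W`, `ε` a unit of
  `B_n`) with unit constant reductions on the two branches has a local datum for
  `ŝ² x / x ^ (q²)`.

Everything else is on main: `fs85_frameSat` (W, charts), `fl71_pkg_frameLS` + `uz37_Pkg_UZ` +
`lp9_Pkg_LP` + `fs29_Pkg_Fin` ((LP) for `f`), `lpt3_locPrin_u` ((LP) for `u`),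
`lpt3_node_shape` + `fn93_nodeK` (root shape at the `ŝ²`-fixed nodes), `sd89c_localDatum`
(one-branch points), `s34i47b_main` (nodal two-chart lemma), `ff50_*` (Frobenius-lift frame).

Abstract helpers: `caa57_one_add_inv`, `caa57_symm_mem`, `caa57_cong` (`x ≡ c` a unit constant
mod `π V` ⟹ `τ x / x ^ Q ≡ 1` mod `π V`), `caa57_op_eq` (`op(f) = u · (τ G / G ^ (q²)) ^ m`).

All names are prefixed `caa57_`.
-/

set_option autoImplicit false
set_option linter.unusedVariables false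
set_option linter.unusedSectionVars false
set_option linter.style.longLine false
set_option linter.style.haveILetI false

open ModularCurve AlgebraicCurve

namespace Fermat.Agent.S35

open Fermat.Agent.S18 Fermat.Agent.S34

local notation "Q̄" => AlgebraicClosure ℚ

/-! ## 1. Abstract helpers -/

section caa57_abs

variable {F : Type*} [Field F]

/-- `1 + p x` is a unit of the valuation ring `V` when `p⁻¹ ∉ V` and `x ∈ V`. -/
theorem caa57_one_add_inv (V : ValuationSubring F) (p : F) (hp : p⁻¹ ∉ V) (x : F) (hx : x ∈ V) :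
    (1 + p * x)⁻¹ ∈ V := by
  by_contra hne
  have hp0 : p ≠ 0 := by
    rintro rfl
    exact hp (by rw [inv_zero]; exact V.zero_mem)
  have hy0 : (1 + p * x) ≠ 0 := by
    intro h0
    exact hne (by rw [h0, inv_zero]; exact V.zero_mem)
  rcases V.mem_or_inv_mem (p * (1 + p * x)⁻¹) with h | h
  · apply hne
    have e : (1 + p * x)⁻¹ = 1 - x * (p * (1 + p * x)⁻¹) := by
      field_simp
      ring
    rw [e]
    exact V.sub_mem V.one_mem (V.mul_mem _ _ hx h)
  · apply hp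
    have e : p⁻¹ = (p * (1 + p * x)⁻¹)⁻¹ - x := by
      field_simp
      ring
    rw [e]
    exact V.sub_mem h hx

/-- A set stable under a ring automorphism of finite order is stable under its inverse. -/
theorem caa57_symm_mem (e : F ≃+* F) (k : ℕ) (hk : 0 < k) (hek : e ^ k = 1) (S : Set F)
    (hS : ∀ x ∈ S, e x ∈ S) : ∀ x ∈ S, e.symm x ∈ S := by
  have hpow : ∀ (j : ℕ) (x : F), x ∈ S → (e ^ j) x ∈ S := by
    intro j
    induction j with
    | zero => intro x hx; simpa using hx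
    | succ j ih =>
      intro x hx
      rw [pow_succ]
      exact ih _ (hS x hx)
  intro x hx
  have h1 : e.symm x = (e ^ (k - 1)) x := by
    apply e.injective
    rw [e.apply_symm_apply]
    have h2 : e ((e ^ (k - 1)) x) = (e ^ (k - 1 + 1)) x := by
      rw [pow_succ']
      rfl
    rw [h2, Nat.sub_add_cancel hk, hek]
    rfl
  rw [h1]
  exact hpow _ x hx

/-- `op(f) = u · (τ G / G ^ (q²)) ^ m` with `u = τ f₃ / f₃ ^ (q²)`, `f₃ = f₁ / τ f₁ / G ^ m`,
`f₁ = f / τ f`, `τ = s²`. -/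
theorem caa57_op_eq (q m : ℕ) (s : F ≃+* F) (f G : F) (hf : f ≠ 0) (hG : G ≠ 0) :
    s35i62_op q s f =
      lpt3_u (s.trans s) m (q ^ 2) f G * (s (s G) / G ^ (q ^ 2)) ^ m := by
  have h1 : s f ≠ 0 := (map_ne_zero s).mpr hf
  have h2 : s (s f) ≠ 0 := (map_ne_zero s).mpr h1
  have h3 : s (s (s f)) ≠ 0 := (map_ne_zero s).mpr h2
  have h4 : s (s (s (s f))) ≠ 0 := (map_ne_zero s).mpr h3
  have h5 : s (s (s (s (s f)))) ≠ 0 := (map_ne_zero s).mpr h4
  have h6 : s (s (s (s (s (s f))))) ≠ 0 := (map_ne_zero s).mpr h5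
  have hG1 : s G ≠ 0 := (map_ne_zero s).mpr hG
  have hG2 : s (s G) ≠ 0 := (map_ne_zero s).mpr hG1
  unfold s35i62_op lpt3_u lpt3_f3
  simp only [RingEquiv.trans_apply, map_div₀, map_pow]
  generalize s (s (s (s (s (s f))))) = D
  generalize s (s (s (s f))) = C at *
  generalize s (s f) = B at *
  generalize s (s G) = G2 at *
  generalize hQ : q ^ 2 = Q
  have e1 : 2 * Q + 1 = Q + Q + 1 := by ring
  have e2 : Q + 2 = Q + 1 + 1 := by ring
  rw [e1, e2]
  simp only [div_pow, pow_succ, pow_add, ← pow_mul]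
  have hBQ : B ^ Q ≠ 0 := pow_ne_zero _ h2
  have hCQ : C ^ Q ≠ 0 := pow_ne_zero _ h4
  have hfQ : f ^ Q ≠ 0 := pow_ne_zero _ hf
  have hGm : G ^ m ≠ 0 := pow_ne_zero _ hG
  have hG2m : G2 ^ m ≠ 0 := pow_ne_zero _ hG2
  have hGmQ : G ^ (m * Q) ≠ 0 := pow_ne_zero _ hG
  have hGQm : G ^ (Q * m) ≠ 0 := pow_ne_zero _ hG
  have e3 : G ^ (m * Q) = G ^ (Q * m) := by rw [mul_comm]
  rw [e3]
  field_simp

end caa57_abs

section caa57_cong

variable {R F : Type*} [CommRing R] [Field F] [Algebra R F]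

/-- If `x ≡ c` modulo `π V` for a unit constant `c` of `R` and `τ c ≡ c ^ Q` modulo `π V`, then
`τ x / x ^ Q ≡ 1` modulo `π V`. -/
theorem caa57_cong (V : ValuationSubring F) (π : R) (hRV : ∀ r : R, algebraMap R F r ∈ V)
    (hπV : (algebraMap R F π)⁻¹ ∉ V) (τ : F ≃+* F) (hτV : ∀ x ∈ V, τ x ∈ V)
    (hτπ : (algebraMap R F π)⁻¹ * τ (algebraMap R F π) ∈ V) (Q : ℕ) (c : R) (hc : IsUnit c)
    (hΛ : (algebraMap R F π)⁻¹ * (τ (algebraMap R F c) - algebraMap R F c ^ Q) ∈ V)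
    (x : F) (hx : (algebraMap R F π)⁻¹ * (x - algebraMap R F c) ∈ V) :
    (algebraMap R F π)⁻¹ * (τ x / x ^ Q - 1) ∈ V := by
  have hπ0 : algebraMap R F π ≠ 0 := by
    intro h0
    exact hπV (by rw [h0, inv_zero]; exact V.zero_mem)
  have h1 : (algebraMap R F π)⁻¹ * (x ^ Q / τ x - 1) ∈ V.toSubring :=
    tl39_cong π hπ0 V.toSubring hRV (fun y hy => caa57_one_add_inv V _ hπV y hy) τ hτV hτπ Q c c hc
      hΛ x x hx hx
  set p : F := algebraMap R F π with hp
  set t : F := p⁻¹ * (x ^ Q / τ x - 1) with ht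
  have ht' : x ^ Q / τ x = 1 + p * t := by
    rw [ht]
    field_simp
    ring
  have hne : (1 + p * t) ≠ 0 := by
    intro h0
    apply hπV
    have e : p⁻¹ = -t := by
      field_simp
      linear_combination h0
    rw [e]
    exact V.neg_mem _ h1
  have e : p⁻¹ * (τ x / x ^ Q - 1) = -t * (1 + p * t)⁻¹ := by
    rw [← inv_div, ht']
    field_simp
    ring
  rw [e]
  exact V.mul_mem _ _ (V.neg_mem _ h1) (caa57_one_add_inv V p hπV t h1)

end caa57_cong

/-! ## 2. The two hypothesis `Prop`s -/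

/-- **(T)** The toric input ((1c) of #2519 on the canonical frame; row 544): a unit `G` of `W`
such that `f₃ = lpt3_f3 τ m f G` (`τ = ŝ²`) has unit constant reductions on both branches. -/
def caa57_Toric : Prop :=
  ∀ (M' q m : ℕ) [NeZero M'] [NeZero q] (hq : q.Prime) (hM' : ¬ q ∣ M'), 0 < m →
    Nat.Coprime m q →
  ∀ (R K : Type) [CommRing R] [IsDomain R] [IsDiscreteValuationRing R] [Field K] [NumberField K]
    [Algebra K Q̄] [Algebra R K] [IsFractionRing R K]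
    [Algebra R ↥(modularFunctionFieldFullC K (M' * q))]
    [IsScalarTower R K ↥(modularFunctionFieldFullC K (M' * q))] (π : R) (hπ : Irreducible π),
    (∀ n : ℕ, Nat.Coprime n q → IsUnit (n : R)) → ¬ IsUnit (q : R) →
    (∃ ζ : K, IsPrimitiveRoot ζ q) →
    ∀ σ : K ≃+* K, s35i62_Frobenial R q σ →
    ∀ (f : ↥(modularFunctionFieldFullC K (M' * q))) (a b : ↥(modularFunctionFieldFullC K M'))
      (ca cb : K), f ≠ 0 → a ≠ 0 → b ≠ 0 → ca ≠ 0 → cb ≠ 0 →
      s35i62_normA K M' q f = algebraMap K ↥(modularFunctionFieldFullC K M') ca * a ^ m →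
      s35i62_normB K M' q f = algebraMap K ↥(modularFunctionFieldFullC K M') cb * b ^ m →
      ∃ (G : ↥(modularFunctionFieldFullC K (M' * q))) (cinf c0 : R),
        G ≠ 0 ∧ G ∈ s34i47c_W (K := K) M' q hq hM' hπ ∧
        G⁻¹ ∈ s34i47c_W (K := K) M' q hq hM' hπ ∧ IsUnit cinf ∧ IsUnit c0 ∧
        (algebraMap R ↥(modularFunctionFieldFullC K (M' * q)) π)⁻¹ *
            (lpt3_f3 ((s34i47_coeffEquiv σ (M' * q)).trans (s34i47_coeffEquiv σ (M' * q))) m f G -
              algebraMap R ↥(modularFunctionFieldFullC K (M' * q)) cinf) ∈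
          cm85_Vinf (K := K) (M' * q) hπ ∧
        (algebraMap R ↥(modularFunctionFieldFullC K (M' * q)) π)⁻¹ *
            (lpt3_f3 ((s34i47_coeffEquiv σ (M' * q)).trans (s34i47_coeffEquiv σ (M' * q))) m f G -
              algebraMap R ↥(modularFunctionFieldFullC K (M' * q)) c0) ∈
          s34i47c_V0 (K := K) M' q hq hM' hπ

/-- **(N)** The node datum on the canonical frame ((1d)-node + (1f) of #2519; row 547): at a
closed point `n` of either chart lying on both branches, for `x = ε c ^ m` with `c` a unit of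
`W`, `ε` a unit of `B_n` and unit constant reductions of `x` on the two branches, there is a
local datum for `ŝ² x / x ^ (q²)` at `n`. -/
def caa57_NodeDatum : Prop :=
  ∀ (M' q : ℕ) [NeZero M'] [NeZero q] (hq : q.Prime) (hM' : ¬ q ∣ M')
    (R K : Type) [CommRing R] [IsDomain R] [IsDiscreteValuationRing R] [Field K] [NumberField K]
    [Algebra K Q̄] [Algebra R K] [IsFractionRing R K]
    [Algebra R ↥(modularFunctionFieldFullC K (M' * q))]
    [IsScalarTower R K ↥(modularFunctionFieldFullC K (M' * q))] (π : R) (hπ : Irreducible π),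
    (∀ n : ℕ, Nat.Coprime n q → IsUnit (n : R)) → ¬ IsUnit (q : R) →
    ∀ σ : K ≃+* K, s35i62_Frobenial R q σ →
    ∀ h : ↥(modularFunctionFieldFullC K (M' * q)), s34i47c_IsHaupt K (M' * q) q h →
    ∀ B : Subalgebra R ↥(modularFunctionFieldFullC K (M' * q)),
      (B = pk15_chart R ({h} : Set ↥(modularFunctionFieldFullC K (M' * q))) ∨
        B = pk15_chart R ({h⁻¹} : Set ↥(modularFunctionFieldFullC K (M' * q)))) →
    ∀ n : Ideal B, n.IsMaximal → algebraMap R B π ∈ n →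
      sf79_OnBr π B (cm85_Vinf (K := K) (M' * q) hπ).toSubring n →
      sf79_OnBr π B (s34i47c_V0 (K := K) M' q hq hM' hπ).toSubring n →
    ∀ m : ℕ, 0 < m → Nat.Coprime m q →
    ∀ (x c ε : ↥(modularFunctionFieldFullC K (M' * q))) (cinf c0 : R), IsUnit cinf → IsUnit c0 →
      (algebraMap R ↥(modularFunctionFieldFullC K (M' * q)) π)⁻¹ *
          (x - algebraMap R ↥(modularFunctionFieldFullC K (M' * q)) cinf) ∈
        cm85_Vinf (K := K) (M' * q) hπ →
      (algebraMap R ↥(modularFunctionFieldFullC K (M' * q)) π)⁻¹ *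
          (x - algebraMap R ↥(modularFunctionFieldFullC K (M' * q)) c0) ∈
        s34i47c_V0 (K := K) M' q hq hM' hπ →
      x = ε * c ^ m →
      c ∈ s34i47c_W (K := K) M' q hq hM' hπ → c⁻¹ ∈ s34i47c_W (K := K) M' q hq hM' hπ →
      (∃ s : B, s ∉ n ∧ (s : ↥(modularFunctionFieldFullC K (M' * q))) * ε ∈ B) →
      (∃ s : B, s ∉ n ∧ (s : ↥(modularFunctionFieldFullC K (M' * q))) * ε⁻¹ ∈ B) →
      ∃ φ : ↥(modularFunctionFieldFullC K (M' * q)),
        (algebraMap R ↥(modularFunctionFieldFullC K (M' * q)) π)⁻¹ * (φ - 1) ∈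
          s34i47c_W (K := K) M' q hq hM' hπ ∧
        ∃ s : B, s ∉ n ∧ (s : ↥(modularFunctionFieldFullC K (M' * q))) *
          (φ ^ m * (s34i47_coeffEquiv σ (M' * q) (s34i47_coeffEquiv σ (M' * q) x) /
            x ^ (q ^ 2))) ∈ B

/-! ## 3. The assembly -/

/-- **P-CORE, chain A**: the literal `s35i62_Pkg_Core` from (T) and (N). -/
theorem caa57_core (hT : caa57_Toric) (hN : caa57_NodeDatum) : s35i62_Pkg_Core := by
  intro M' q m p₀ instM' instq hq hM' hp₀ hp₀q hp₀M hm hmq R K instR instD instDVR instK instNF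
    instQ instRK instFR instRF instST π hπ hunit hqR hζ σ hσ f a b ca cb hf ha hb hca hcb hord hNa
    hNb hrat
  have hσ' : ff50_Frob R q σ := hσ
  haveI : Algebra.IsAlgebraic K Q̄ := fs85_isAlgebraic K
  letI : Algebra R ↥(modularFunctionFieldFullC K M') :=
    ((algebraMap K ↥(modularFunctionFieldFullC K M')).comp (algebraMap R K)).toAlgebra
  haveI : IsScalarTower R K ↥(modularFunctionFieldFullC K M') :=
    IsScalarTower.of_algebraMap_eq (fun _ => rfl)
  -- the Hauptmodul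
  have hp₀Mq : p₀ ∣ M' * q := Dvd.dvd.mul_right hp₀M q
  obtain ⟨h, hh⟩ : ∃ h : ↥(modularFunctionFieldFullC K (M' * q)),
      s34i47c_IsHaupt K (M' * q) q h := by
    rcases hp₀ with rfl | rfl
    · exact ⟨pk85_h2 K (M' * q) hp₀Mq, Or.inl ⟨Ne.symm hp₀q, hp₀Mq, rfl⟩⟩
    · exact ⟨pk85_h3 K (M' * q) hp₀Mq, Or.inr ⟨Ne.symm hp₀q, hp₀Mq, rfl⟩⟩
  -- the frame
  obtain ⟨hW, hCall⟩ := fs85_frameSat M' q hq hM' R K π hπ hunit hqR
  have hC := hCall h hh
  obtain ⟨htr, h12W, hsat₁, hsat₂, -, hN₁, hN₂, hfin, hfrac⟩ := hCall h hh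
  obtain ⟨hLS₁, hLS₂⟩ := fl71_pkg_frameLS M' q hq hM' R K π hπ hunit hqR h hh
  have hh0 : h ≠ 0 := by
    rintro rfl
    exact htr isAlgebraic_zero
  have hfrac₂ := ca57_frac_inv (R := R) h hh0 hfrac
  have hπ0 : algebraMap R ↥(modularFunctionFieldFullC K (M' * q)) π ≠ 0 := by
    intro h0
    apply fl7_pi_inv_not_mem_Vinf (K := K) M' q hπ
    rw [h0, inv_zero]
    exact Subring.zero_mem _
  -- (LP) for `f` on both charts
  have hOrd : s34i47_Ord π m f := ca57_ord (K := K) hπ m f hf hord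
  have hRat : s34i47_Rat K π f := ca57_rat (K := K) hπ f (hrat f (Or.inl rfl))
  have hFinS : s34i47_Fin π f := ca57_fin (K := K) hπ f
    (fs29_Pkg_Fin (M' * q) ⟨Nat.mul_ne_zero (NeZero.ne M') (NeZero.ne q)⟩ K f hf)
  have hUZ₁ := uz37_Pkg_UZ R K ↥(modularFunctionFieldFullC K (M' * q)) π hπ _ hN₁ hfrac hLS₁
  have hUZ₂ := uz37_Pkg_UZ R K ↥(modularFunctionFieldFullC K (M' * q)) π hπ _ hN₂ hfrac₂ hLS₂
  have hLP₁ := lp9_Pkg_LP R K ↥(modularFunctionFieldFullC K (M' * q)) π hπ _ m hm f hf hUZ₁ hOrd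
    hRat hFinS
  have hLP₂ := lp9_Pkg_LP R K ↥(modularFunctionFieldFullC K (M' * q)) π hπ _ m hm f hf hUZ₂ hOrd
    hRat hFinS
  -- the Frobenius lift on `R`
  have hσR : ∀ r : R, algebraMap R K (ff50_sigmaR σ hσ' r) = σ (algebraMap R K r) :=
    fun r => ff50_sigmaR_spec σ hσ' r
  have hfr : ∀ r : R, π ∣ ff50_sigmaR σ hσ' r - r ^ q := by
    intro r
    have h1 : IsLocalRing.residue R (ff50_sigmaR σ hσ' r - r ^ q) = 0 := by
      rw [map_sub, map_pow, ff50_sigmaR_res, sub_self]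
    have h2 : ff50_sigmaR σ hσ' r - r ^ q ∈ IsLocalRing.maximalIdeal R :=
      (IsLocalRing.residue_eq_zero_iff _).mp h1
    rw [hπ.maximalIdeal_eq] at h2
    exact Ideal.mem_span_singleton.mp h2
  have hŝalg : ∀ r : R, s34i47_coeffEquiv σ (M' * q)
      (algebraMap R ↥(modularFunctionFieldFullC K (M' * q)) r) =
        algebraMap R ↥(modularFunctionFieldFullC K (M' * q)) (ff50_sigmaR σ hσ' r) :=
    fun r => fn93_coeff_alg (K := K) (M' * q) σ (ff50_sigmaR σ hσ') hσR r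
  -- `τ = ŝ²`
  obtain ⟨τ, hτdef⟩ : ∃ τ : ↥(modularFunctionFieldFullC K (M' * q)) ≃+*
      ↥(modularFunctionFieldFullC K (M' * q)),
      τ = (s34i47_coeffEquiv σ (M' * q)).trans (s34i47_coeffEquiv σ (M' * q)) := ⟨_, rfl⟩
  have hτapp : ∀ x, τ x = s34i47_coeffEquiv σ (M' * q) (s34i47_coeffEquiv σ (M' * q) x) := by
    intro x
    rw [hτdef]
    rfl
  have hτsymm : ∀ x, τ.symm x =
      (s34i47_coeffEquiv σ (M' * q)).symm ((s34i47_coeffEquiv σ (M' * q)).symm x) := by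
    intro x
    rw [hτdef]
    rfl
  have hτR : ∀ r : R, ∃ r' : R, τ (algebraMap R ↥(modularFunctionFieldFullC K (M' * q)) r) =
      algebraMap R ↥(modularFunctionFieldFullC K (M' * q)) r' :=
    fun r => ⟨ff50_sigmaR σ hσ' (ff50_sigmaR σ hσ' r), by rw [hτapp, hŝalg, hŝalg]⟩
  obtain ⟨hŝB₁, hŝB₂, -⟩ := ff50_chart M' q σ hσ' h hh
  obtain ⟨k, hk0, hk⟩ := in87i_finOrder σ
  have hŝk : s34i47_coeffEquiv σ (M' * q) ^ k = 1 := by
    rw [in87i_coeffEquiv_eq]
    exact in87_aut_pow_eq_one (M' * q) σ k hk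
  have hŝB₁' := caa57_symm_mem (s34i47_coeffEquiv σ (M' * q)) k hk0 hŝk
    (pk15_chart R ({h} : Set ↥(modularFunctionFieldFullC K (M' * q))) :
      Set ↥(modularFunctionFieldFullC K (M' * q))) hŝB₁
  have hŝB₂' := caa57_symm_mem (s34i47_coeffEquiv σ (M' * q)) k hk0 hŝk
    (pk15_chart R ({h⁻¹} : Set ↥(modularFunctionFieldFullC K (M' * q))) :
      Set ↥(modularFunctionFieldFullC K (M' * q))) hŝB₂
  have hτB₁ : ∀ x ∈ pk15_chart R ({h} : Set ↥(modularFunctionFieldFullC K (M' * q))),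
      τ x ∈ pk15_chart R ({h} : Set ↥(modularFunctionFieldFullC K (M' * q))) :=
    fun x hx => by rw [hτapp]; exact hŝB₁ _ (hŝB₁ x hx)
  have hτB₂ : ∀ x ∈ pk15_chart R ({h⁻¹} : Set ↥(modularFunctionFieldFullC K (M' * q))),
      τ x ∈ pk15_chart R ({h⁻¹} : Set ↥(modularFunctionFieldFullC K (M' * q))) :=
    fun x hx => by rw [hτapp]; exact hŝB₂ _ (hŝB₂ x hx)
  have hτB₁' : ∀ x ∈ pk15_chart R ({h} : Set ↥(modularFunctionFieldFullC K (M' * q))),
      τ.symm x ∈ pk15_chart R ({h} : Set ↥(modularFunctionFieldFullC K (M' * q))) :=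
    fun x hx => by rw [hτsymm]; exact hŝB₁' _ (hŝB₁' x hx)
  have hτB₂' : ∀ x ∈ pk15_chart R ({h⁻¹} : Set ↥(modularFunctionFieldFullC K (M' * q))),
      τ.symm x ∈ pk15_chart R ({h⁻¹} : Set ↥(modularFunctionFieldFullC K (M' * q))) :=
    fun x hx => by rw [hτsymm]; exact hŝB₂' _ (hŝB₂' x hx)
  have hG1 : ∀ x : ↥(modularFunctionFieldFullC K (M' * q)), x ≠ 0 →
      τ x / x ∈ s34i47c_W (K := K) M' q hq hM' hπ := by
    intro x hx
    have hx' : s34i47_coeffEquiv σ (M' * q) x ≠ 0 :=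
      (map_ne_zero (s34i47_coeffEquiv σ (M' * q))).mpr hx
    have h1 := ff50_div_mem_W M' q hq hM' hπ σ hσ' x hx
    have h2 := ff50_div_mem_W M' q hq hM' hπ σ hσ' _ hx'
    have e : τ x / x = s34i47_coeffEquiv σ (M' * q) (s34i47_coeffEquiv σ (M' * q) x) /
        s34i47_coeffEquiv σ (M' * q) x * (s34i47_coeffEquiv σ (M' * q) x / x) := by
      rw [hτapp, div_mul_div_cancel₀ hx']
    rw [e]
    exact Subring.mul_mem _ h2 h1
  -- the toric input
  obtain ⟨G, cinf, c0, hG0, hGW, hGW', hcinf, hc0, hfinf, hfzero⟩ :=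
    hT M' q m hq hM' hm hmq R K π hπ hunit hqR hζ σ hσ f a b ca cb hf ha hb hca hcb hNa hNb
  rw [← hτdef] at hfinf hfzero
  -- `u ≡ 1` modulo `π W`
  have hRinf : ∀ r : R, algebraMap R ↥(modularFunctionFieldFullC K (M' * q)) r ∈
      cm85_Vinf (K := K) (M' * q) hπ :=
    fun r => ((s34i47c_mem_W M' q hq hM' hπ _).mp (hW.1 r)).1
  have hRzero : ∀ r : R, algebraMap R ↥(modularFunctionFieldFullC K (M' * q)) r ∈
      s34i47c_V0 (K := K) M' q hq hM' hπ :=
    fun r => ((s34i47c_mem_W M' q hq hM' hπ _).mp (hW.1 r)).2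
  have hτπW : (algebraMap R ↥(modularFunctionFieldFullC K (M' * q)) π)⁻¹ *
      τ (algebraMap R ↥(modularFunctionFieldFullC K (M' * q)) π) ∈
        s34i47c_W (K := K) M' q hq hM' hπ := by
    have h1 := hG1 _ hπ0
    have e : (algebraMap R ↥(modularFunctionFieldFullC K (M' * q)) π)⁻¹ *
        τ (algebraMap R ↥(modularFunctionFieldFullC K (M' * q)) π) =
        τ (algebraMap R ↥(modularFunctionFieldFullC K (M' * q)) π) /
          algebraMap R ↥(modularFunctionFieldFullC K (M' * q)) π := by ring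
    rw [e]
    exact h1
  have hΛ : ∀ c : R, ∃ t : R, (algebraMap R ↥(modularFunctionFieldFullC K (M' * q)) π)⁻¹ *
      (τ (algebraMap R ↥(modularFunctionFieldFullC K (M' * q)) c) -
        algebraMap R ↥(modularFunctionFieldFullC K (M' * q)) c ^ (q ^ 2)) =
      algebraMap R ↥(modularFunctionFieldFullC K (M' * q)) t := by
    intro c
    obtain ⟨t₁, ht₁⟩ := hfr c
    obtain ⟨t₂, ht₂⟩ := hfr (ff50_sigmaR σ hσ' c)
    obtain ⟨t₃, ht₃⟩ : π ∣ ff50_sigmaR σ hσ' c ^ q - (c ^ q) ^ q :=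
      Dvd.dvd.trans ⟨t₁, ht₁⟩ (sub_dvd_pow_sub_pow _ _ q)
    refine ⟨t₂ + t₃, ?_⟩
    have e : ff50_sigmaR σ hσ' (ff50_sigmaR σ hσ' c) - c ^ (q ^ 2) = π * (t₂ + t₃) := by
      have e1 : c ^ (q ^ 2) = (c ^ q) ^ q := by rw [← pow_mul, pow_two]
      rw [e1, mul_add, ← ht₂, ← ht₃]
      ring
    rw [hτapp, hŝalg, hŝalg, ← map_pow, ← map_sub, e, map_mul, inv_mul_cancel_left₀ hπ0]
  have hu : (algebraMap R ↥(modularFunctionFieldFullC K (M' * q)) π)⁻¹ *
      (lpt3_u τ m (q ^ 2) f G - 1) ∈ s34i47c_W (K := K) M' q hq hM' hπ := by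
    rw [s34i47c_mem_W]
    refine ⟨?_, ?_⟩
    · obtain ⟨t, ht⟩ := hΛ cinf
      exact caa57_cong (cm85_Vinf (K := K) (M' * q) hπ) π hRinf
        (fl7_pi_inv_not_mem_Vinf (K := K) M' q hπ) τ
        (fun x hx => by
          rw [hτapp]
          exact ff50_mem_Vinf (M' * q) hq.ne_zero hπ σ hσ' _
            (ff50_mem_Vinf (M' * q) hq.ne_zero hπ σ hσ' x hx))
        ((s34i47c_mem_W M' q hq hM' hπ _).mp hτπW).1 (q ^ 2) cinf hcinf
        (by rw [ht]; exact hRinf t) _ hfinf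
    · rw [← s34i47c_mem_V0]
      obtain ⟨t, ht⟩ := hΛ c0
      exact caa57_cong (s34i47c_V0 (K := K) M' q hq hM' hπ) π hRzero
        (fl7_pi_inv_not_mem_V0 (K := K) M' q hq hM' hπ) τ
        (fun x hx => by
          rw [hτapp]
          exact ff50_mem_V0 M' q hq hM' hπ σ hσ' _ (ff50_mem_V0 M' q hq hM' hπ σ hσ' x hx))
        ((s34i47c_mem_V0 M' q hq hM' hπ _).mpr ((s34i47c_mem_W M' q hq hM' hπ _).mp hτπW).2)
        (q ^ 2) c0 hc0 (by rw [ht]; exact hRzero t) _ hfzero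
  -- (LP) for `u` on both charts
  have hLPu₁ := lpt3_locPrin_u (K := K) π hπ m (q ^ 2) _ τ hτR hτB₁ hτB₁' hLP₁ hG0
  have hLPu₂ := lpt3_locPrin_u (K := K) π hπ m (q ^ 2) _ τ hτR hτB₂ hτB₂' hLP₂ hG0
  -- the node clause on a chart
  have hnode : ∀ (B : Subalgebra R ↥(modularFunctionFieldFullC K (M' * q)))
      (hB : B = pk15_chart R ({h} : Set ↥(modularFunctionFieldFullC K (M' * q))) ∨
        B = pk15_chart R ({h⁻¹} : Set ↥(modularFunctionFieldFullC K (M' * q))))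
      (hτB : ∀ x ∈ B, τ x ∈ B)
      (hNK : fn93_NodeK π B (cm85_Vinf (K := K) (M' * q) hπ).toSubring
        (s34i47c_V0 (K := K) M' q hq hM' hπ).toSubring
        (s34i47_coeffEquiv σ (M' * q)) (al97L_w (algebraMap K Q̄) M' q hq hM') q)
      (hLPf : s34i47_LocPrin π m B f),
      ∀ n : Ideal B, n.IsMaximal → algebraMap R B π ∈ n →
        sf79_OnBr π B (cm85_Vinf (K := K) (M' * q) hπ).toSubring n →
        sf79_OnBr π B (s34i47c_V0 (K := K) M' q hq hM' hπ).toSubring n →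
        ∃ φ : ↥(modularFunctionFieldFullC K (M' * q)),
          (algebraMap R ↥(modularFunctionFieldFullC K (M' * q)) π)⁻¹ * (φ - 1) ∈
            s34i47c_W (K := K) M' q hq hM' hπ ∧
          ∃ s : B, s ∉ n ∧ (s : ↥(modularFunctionFieldFullC K (M' * q))) *
            (φ ^ m * lpt3_u τ m (q ^ 2) f G) ∈ B := by
    intro B hB hτB hNK hLPf n hn hπn hn₁ hn₂
    obtain ⟨hNoeth, hBW, hsat, hFrac, hKr, -, -⟩ :=
      sd89c_chart_facts M' q hq hM' hπ hunit hqR h hh B hB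
    obtain ⟨-, -, hS2⟩ := hNK n hn.isPrime hn₁ hn₂
    have hτn : ∀ d : B, d ∉ n → (⟨τ d, hτB d d.2⟩ : B) ∉ n := by
      intro d hd hmem
      exact hd ((hS2 d ⟨τ d, hτB d d.2⟩ (hτapp _)).mp hmem)
    obtain ⟨c, hc⟩ := hLPf n hn hπn
    obtain ⟨hc3, hc3W, hc3W', -, -, hε, hε', hshape⟩ :=
      lpt3_node_shape (K := K) π hπ m (s34i47c_W (K := K) M' q hq hM' hπ) B hBW hsat τ hτR hτB
        hG1 n hτn (hKr n hn hπn) f c G hf hc hG0 hGW hGW'
    obtain ⟨φ, hφ, s, hs, hsφ⟩ := hN M' q hq hM' R K π hπ hunit hqR σ hσ h hh B hB n hn hπn hn₁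
      hn₂ m hm hmq (lpt3_f3 τ m f G) (lpt3_c3 τ c G) (lpt3_f3 τ m f G / lpt3_c3 τ c G ^ m) cinf c0
      hcinf hc0 hfinf hfzero hshape hc3W hc3W' hε hε'
    refine ⟨φ, hφ, s, hs, ?_⟩
    have e : lpt3_u τ m (q ^ 2) f G =
        s34i47_coeffEquiv σ (M' * q) (s34i47_coeffEquiv σ (M' * q) (lpt3_f3 τ m f G)) /
          lpt3_f3 τ m f G ^ (q ^ 2) := by
      unfold lpt3_u
      rw [hτapp]
    rw [e]
    exact hsφ
  obtain ⟨hNK₁, hNK₂⟩ := fn93_nodeK M' q hq hM' hπ hunit hqR σ (ff50_sigmaR σ hσ') hσR hfr h hh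
  -- the local datum on both charts
  have hLD₁ := sd89c_localDatum M' q hq hM' hπ hunit hqR h hh _ (Or.inl rfl) m hm _ hu hLPu₁
    (hnode _ (Or.inl rfl) hτB₁ hNK₁ hLP₁)
  have hLD₂ := sd89c_localDatum M' q hq hM' hπ hunit hqR h hh _ (Or.inr rfl) m hm _ hu hLPu₂
    (hnode _ (Or.inr rfl) hτB₂ hNK₂ hLP₂)
  -- the nodal two-chart lemma
  obtain ⟨f₀, c, hf₀, hfc⟩ := s34i47b_main R K ↥(modularFunctionFieldFullC K (M' * q)) π hπ m hm
    (hunit m hmq) (cap87_algClosed_in (modularFunctionFieldFullC K (M' * q)))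
    (s34i47c_W (K := K) M' q hq hM' hπ) h hW hC _ hu hLD₁ hLD₂
  -- back to `op(f)`
  have hτG0 : τ G ≠ 0 := (map_ne_zero τ).mpr hG0
  have hGQ0 : G ^ (q ^ 2) ≠ 0 := pow_ne_zero _ hG0
  have hop : s35i62_op q (s34i47_coeffEquiv σ (M' * q)) f =
      lpt3_u τ m (q ^ 2) f G * (τ G / G ^ (q ^ 2)) ^ m := by
    rw [hτapp, hτdef]
    exact caa57_op_eq q m (s34i47_coeffEquiv σ (M' * q)) f G hf hG0
  have hprod : (f₀ * (G ^ (q ^ 2) / τ G)) ^ m * s35i62_op q (s34i47_coeffEquiv σ (M' * q)) f =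
      algebraMap R ↥(modularFunctionFieldFullC K (M' * q)) c := by
    rw [hop, ← hfc, mul_pow, div_pow, div_pow]
    have h1 : τ G ^ m ≠ 0 := pow_ne_zero _ hτG0
    have h2 : (G ^ (q ^ 2)) ^ m ≠ 0 := pow_ne_zero _ hGQ0
    field_simp
  have hf₀' : f₀ * (G ^ (q ^ 2) / τ G) ≠ 0 := mul_ne_zero hf₀ (div_ne_zero hGQ0 hτG0)
  have hop0 : s35i62_op q (s34i47_coeffEquiv σ (M' * q)) f ≠ 0 := by
    intro h0
    have hu0 : lpt3_u τ m (q ^ 2) f G * (τ G / G ^ (q ^ 2)) ^ m = 0 := by rw [← hop, h0]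
    rcases mul_eq_zero.mp hu0 with h1 | h1
    · have h2 : f₀ ^ m * lpt3_u τ m (q ^ 2) f G = 0 := by rw [h1, mul_zero]
      rw [hfc] at h2
      have h3 : (algebraMap R ↥(modularFunctionFieldFullC K (M' * q)) π)⁻¹ *
          (lpt3_u τ m (q ^ 2) f G - 1) = -(algebraMap R ↥(modularFunctionFieldFullC K (M' * q)) π)⁻¹ := by
        rw [h1, zero_sub, mul_neg, mul_one]
      rw [h3] at hu
      exact hW.2.1 (by simpa using Subring.neg_mem _ hu)
    · exact pow_ne_zero m (div_ne_zero hτG0 hGQ0) h1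
  refine ⟨f₀ * (G ^ (q ^ 2) / τ G), algebraMap R K c, hf₀', ?_, ?_⟩
  · intro h0
    have h1 : (f₀ * (G ^ (q ^ 2) / τ G)) ^ m *
        s35i62_op q (s34i47_coeffEquiv σ (M' * q)) f = 0 := by
      rw [hprod, IsScalarTower.algebraMap_apply R K ↥(modularFunctionFieldFullC K (M' * q)), h0,
        map_zero]
    rcases mul_eq_zero.mp h1 with h2 | h2
    · exact pow_ne_zero m hf₀' h2
    · exact hop0 h2
  · rw [hprod, IsScalarTower.algebraMap_apply R K ↥(modularFunctionFieldFullC K (M' * q))]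

end Fermat.Agent.S35
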