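import Mathlib
import Fermat.Agent.S35.Iface62

/-!
# S35 lab, chain B, rows B5/B6 (helper84, twin): from `CORE_TH` to `CORE35`

## B6 (pure algebra)

`F` a field, `K` a field of constants, `ŝ w : F ≃+* F` commuting, `w² = 1`, both preserving the
constants.  `cth84_H m x` : `x ∈ Kˣ · (Fˣ)^m`.  If
`P(f) := ŝ² f · (w ŝ f)^(q+1) · f^q ∈ Kˣ · (Fˣ)^m` then
`s35i62_op q ŝ f = ŝ⁶f · (ŝ²f)^(2q²+1) / ((ŝ⁴f)^(q²+2) · f^(q²)) ∈ Kˣ · (Fˣ)^m`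
(`cth84_op_of_P`), because `Q := ŝ²(P) · P^q / (w ŝ P)^(q+1) = ŝ⁴f · f^(q²) / (ŝ²f)^(q²+1)` and
`op(f) = ŝ²(Q) / Q`.
-/

set_option autoImplicit false

namespace Fermat.Agent.S35

section B6

variable {K F : Type*} [Field K] [Field F] [Algebra K F]

/-- `x ∈ Kˣ · (Fˣ)^m`. -/
def cth84_H (K : Type*) {F : Type*} [Field K] [Field F] [Algebra K F] (m : ℕ) (x : F) : Prop :=
  ∃ (c : K) (g : F), c ≠ 0 ∧ g ≠ 0 ∧ x = algebraMap K F c * g ^ m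

theorem cth84_H_ne_zero {m : ℕ} {x : F} (h : cth84_H K m x) : x ≠ 0 := by
  obtain ⟨c, g, hc, hg, rfl⟩ := h
  exact mul_ne_zero ((map_ne_zero (algebraMap K F)).mpr hc) (pow_ne_zero m hg)

theorem cth84_H_mul {m : ℕ} {x y : F} (hx : cth84_H K m x) (hy : cth84_H K m y) :
    cth84_H K m (x * y) := by
  obtain ⟨c, g, hc, hg, rfl⟩ := hx
  obtain ⟨c', g', hc', hg', rfl⟩ := hy
  exact ⟨c * c', g * g', mul_ne_zero hc hc', mul_ne_zero hg hg', by rw [map_mul, mul_pow]; ring⟩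

theorem cth84_H_inv {m : ℕ} {x : F} (hx : cth84_H K m x) : cth84_H K m x⁻¹ := by
  obtain ⟨c, g, hc, hg, rfl⟩ := hx
  exact ⟨c⁻¹, g⁻¹, inv_ne_zero hc, inv_ne_zero hg, by rw [map_inv₀, inv_pow, mul_inv]⟩

theorem cth84_H_div {m : ℕ} {x y : F} (hx : cth84_H K m x) (hy : cth84_H K m y) :
    cth84_H K m (x / y) := by
  rw [div_eq_mul_inv]
  exact cth84_H_mul hx (cth84_H_inv hy)

theorem cth84_H_pow {m : ℕ} {x : F} (hx : cth84_H K m x) (k : ℕ) : cth84_H K m (x ^ k) := by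
  obtain ⟨c, g, hc, hg, rfl⟩ := hx
  exact ⟨c ^ k, g ^ k, pow_ne_zero k hc, pow_ne_zero k hg, by
    rw [map_pow, mul_pow, ← pow_mul, ← pow_mul, mul_comm m k]⟩

theorem cth84_H_map {m : ℕ} (τ : F ≃+* F)
    (hτ : ∀ c : K, ∃ c' : K, τ (algebraMap K F c) = algebraMap K F c') {x : F}
    (hx : cth84_H K m x) : cth84_H K m (τ x) := by
  obtain ⟨c, g, hc, hg, rfl⟩ := hx
  obtain ⟨c', hc'⟩ := hτ c
  refine ⟨c', τ g, ?_, (map_ne_zero τ).mpr hg, by rw [map_mul, map_pow, hc']⟩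
  rintro rfl
  rw [map_zero] at hc'
  exact hc ((map_eq_zero (algebraMap K F)).mp ((map_eq_zero τ).mp hc'))

theorem cth84_H_of_pow {m : ℕ} {g : F} (hg : g ≠ 0) : cth84_H K m (g ^ m) :=
  ⟨1, g, one_ne_zero, hg, by rw [map_one, one_mul]⟩

theorem cth84_H_const {m : ℕ} {c : K} (hc : c ≠ 0) : cth84_H K m (algebraMap K F c) :=
  ⟨c, 1, hc, one_ne_zero, by rw [one_pow, mul_one]⟩

/-- The identity `ŝ²(P) · P^q · (ŝ²f)^(q²+1) = ŝ⁴f · f^(q²) · (w ŝ P)^(q+1)` for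
`P = ŝ²f · (w ŝ f)^(q+1) · f^q`. -/
theorem cth84_Q_identity (q : ℕ) (s w : F ≃+* F) (hsw : ∀ x : F, s (w x) = w (s x))
    (hww : ∀ x : F, w (w x) = x) (f : F) :
    s (s (s (s f) * (w (s f)) ^ (q + 1) * f ^ q)) *
        (s (s f) * (w (s f)) ^ (q + 1) * f ^ q) ^ q * (s (s f)) ^ (q ^ 2 + 1) =
      s (s (s (s f))) * f ^ (q ^ 2) *
        (w (s (s (s f) * (w (s f)) ^ (q + 1) * f ^ q))) ^ (q + 1) := by
  have e1 : s (s (w (s f))) = w (s (s (s f))) := by rw [hsw, hsw]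
  have e2 : w (s (w (s f))) = s (s f) := by rw [hsw, hww]
  simp only [map_mul, map_pow, e1, e2]
  ring

/-- **B6**: `P(f) ∈ Kˣ (Fˣ)^m` implies `op(f) ∈ Kˣ (Fˣ)^m`. -/
theorem cth84_op_of_P (q m : ℕ) (s w : F ≃+* F) (hsw : ∀ x : F, s (w x) = w (s x))
    (hww : ∀ x : F, w (w x) = x)
    (hsK : ∀ c : K, ∃ c' : K, s (algebraMap K F c) = algebraMap K F c')
    (hwK : ∀ c : K, ∃ c' : K, w (algebraMap K F c) = algebraMap K F c')
    (f : F) (hf : f ≠ 0)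
    (hP : cth84_H K m (s (s f) * (w (s f)) ^ (q + 1) * f ^ q)) :
    cth84_H K m (s35i62_op q s f) := by
  set P : F := s (s f) * (w (s f)) ^ (q + 1) * f ^ q with hPdef
  have hs2f : s (s f) ≠ 0 := (map_ne_zero s).mpr ((map_ne_zero s).mpr hf)
  have hs4f : s (s (s (s f))) ≠ 0 := (map_ne_zero s).mpr ((map_ne_zero s).mpr hs2f)
  -- `Q := ŝ⁴f · f^(q²) / (ŝ²f)^(q²+1) ∈ H`
  have hwsP : w (s P) ≠ 0 := (map_ne_zero w).mpr ((map_ne_zero s).mpr (cth84_H_ne_zero hP))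
  have hQ : cth84_H K m (s (s (s (s f))) * f ^ (q ^ 2) / (s (s f)) ^ (q ^ 2 + 1)) := by
    have e : s (s (s (s f))) * f ^ (q ^ 2) / (s (s f)) ^ (q ^ 2 + 1) =
        s (s P) * P ^ q / (w (s P)) ^ (q + 1) := by
      rw [div_eq_div_iff (pow_ne_zero _ hs2f) (pow_ne_zero _ hwsP)]
      have h := cth84_Q_identity q s w hsw hww f
      rw [← hPdef] at h
      rw [← h]
    rw [e]
    exact cth84_H_div (cth84_H_mul (cth84_H_map s hsK (cth84_H_map s hsK hP)) (cth84_H_pow hP q))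
      (cth84_H_pow (cth84_H_map w hwK (cth84_H_map s hsK hP)) (q + 1))
  -- `op(f) = ŝ²(Q) / Q`
  have e2 : s35i62_op q s f =
      s (s (s (s (s (s f))) * f ^ (q ^ 2) / (s (s f)) ^ (q ^ 2 + 1))) /
        (s (s (s (s f))) * f ^ (q ^ 2) / (s (s f)) ^ (q ^ 2 + 1)) := by
    rw [s35i62_op]
    simp only [map_div₀, map_mul, map_pow]
    have hfq : f ^ (q ^ 2) ≠ 0 := pow_ne_zero _ hf
    field_simp
    ring
  rw [e2]
  exact cth84_H_div (cth84_H_map s hsK (cth84_H_map s hsK hQ)) hQ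

/-- `x ∈ Kˣ (Fˣ)^m` in the shape of the conclusion of `s35i62_Core`. -/
theorem cth84_H_out {m : ℕ} {x : F} (hx : cth84_H K m x) :
    ∃ (f₀ : F) (c : K), f₀ ≠ 0 ∧ c ≠ 0 ∧ f₀ ^ m * x = algebraMap K F c := by
  obtain ⟨c, g, hc, hg, rfl⟩ := hx
  refine ⟨g⁻¹, c, inv_ne_zero hg, hc, ?_⟩
  rw [inv_pow]
  field_simp

end B6

end Fermat.Agent.S35
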