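import Fermat.Agent.S35.Iface62
import Fermat.Agent.S35.FrobFrame50

/-!
# S35 lab, package P-FROB (helper68): the LITERAL `s35i62_Pkg_FrameFrob` of `Iface62`

Pure binding of helper50's `FrobFrame50` (`ff50_*`) to the interface Prop: for a Frobenial
automorphism `σ` of the number field `K` (residue characteristic `q`), the coefficientwise action
`ŝ = s34i47_coeffEquiv σ`

* (F0) preserves the Gauss rings `V_∞` (level `M' q`) and `V'` (level `M'`), in the `↔` form;
* (F1) commutes with the Atkin–Lehner involution `w`;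
* (F2) commutes with the degeneracy maps `α`, `β`;
* (F3) satisfies Kronecker's congruence with the explicit twist
  `β (ŝ y) ≡ (α y) ^ q mod π V_∞` for `y ∈ V'`;
* (F4) fixes the admissible Hauptmoduln.

* `pff68_frobenial_iff` : `s35i62_Frobenial R q σ ↔ ff50_Frob R q σ` (definitional);
* `pff68_mem_iff`       : `x ∈ V_∞ ↔ ŝ x ∈ V_∞` at any level;
* `pff68_frameFrob`, `pff68_pkg_frameFrob : s35i62_Pkg_FrameFrob`.
-/

set_option autoImplicit false
set_option linter.unusedSectionVars false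
set_option linter.unusedVariables false
set_option linter.style.longLine false

open ModularCurve AlgebraicCurve

namespace Fermat.Agent.S35

open Fermat.Agent.S18 Fermat.Agent.S34 Fermat.Agent.S30 Fermat.Agent.S16

local notation "Q̄" => AlgebraicClosure ℚ

/-- The interface's `Frobenial` is helper50's `ff50_Frob`. -/
theorem pff68_frobenial_iff (R : Type*) {K : Type*} [CommRing R] [IsLocalRing R] [Field K]
    [Algebra R K] (q : ℕ) (σ : K ≃+* K) : s35i62_Frobenial R q σ ↔ ff50_Frob R q σ :=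
  Iff.rfl

section pff68_level

variable {R K : Type} [CommRing R] [IsDomain R] [IsDiscreteValuationRing R] [Field K]
  [NumberField K] [Algebra R K] [IsFractionRing R K]

/-- **(F0)** at any level: `x ∈ V_∞ ↔ ŝ x ∈ V_∞`. -/
theorem pff68_mem_iff (M : ℕ) [NeZero M] {q : ℕ} (hq0 : q ≠ 0) {π : R} (hπ : Irreducible π)
    (σ : K ≃+* K) (hσ : s35i62_Frobenial R q σ) (x : ↥(modularFunctionFieldFullC K M)) :
    x ∈ cm85_Vinf (K := K) M hπ ↔ s34i47_coeffEquiv σ M x ∈ cm85_Vinf (K := K) M hπ := by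
  have hσ' : ff50_Frob R q σ := hσ
  refine ⟨fun hx => ff50_mem_Vinf M hq0 hπ σ hσ' x hx, fun hx => ?_⟩
  by_cases hx0 : x = 0
  · rw [hx0]
    exact (cm85_Vinf (K := K) M hπ).zero_mem
  · have h1 := ff50_inv_div_mem_Vinf M hq0 hπ σ hσ' x hx0
    have hs0 : s34i47_coeffEquiv σ M x ≠ 0 := fun h =>
      hx0 ((map_eq_zero_iff _ (s34i47_coeffEquiv σ M).injective).mp h)
    have h2 : x = x / s34i47_coeffEquiv σ M x * s34i47_coeffEquiv σ M x := by
      rw [div_mul_cancel₀ _ hs0]
    rw [h2]
    exact (cm85_Vinf (K := K) M hπ).mul_mem _ _ h1 hx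

end pff68_level

/-- **FRAME-FROB** at level `M' q` (LITERAL `s35i62_FrameFrob`). -/
theorem pff68_frameFrob (M' q : ℕ) [NeZero M'] [NeZero q] (hq : q.Prime) (hM' : ¬ q ∣ M') :
    s35i62_FrameFrob M' q hq hM' := by
  intro R K _ _ _ _ _ _ _ _ _ _ π hπ hunit hqR σ hσ
  have hσ' : ff50_Frob R q σ := hσ
  have hchar : (q : IsLocalRing.ResidueField R) = 0 := by
    have h1 : IsLocalRing.residue R (q : R) = 0 :=
      (IsLocalRing.residue_eq_zero_iff _).mpr ((IsLocalRing.mem_maximalIdeal _).mpr hqR)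
    rw [map_natCast] at h1
    exact h1
  refine ⟨fun x => pff68_mem_iff (M' * q) hq.ne_zero hπ σ hσ x,
    fun y => pff68_mem_iff M' hq.ne_zero hπ σ hσ y,
    fun x => (in87g_w_comm M' q hq hM' σ x).symm,
    fun y => ff50_alpha_comm M' q σ y,
    fun y => ff50_beta_comm M' q σ y,
    fun y hy => ff50_frob_Vinf M' q hπ hq hchar σ hσ' y hy,
    fun h hh => ff50_haupt M' q σ h hh⟩

/-- **P-FROB** (LITERAL `s35i62_Pkg_FrameFrob` of `Iface62`). -/
theorem pff68_pkg_frameFrob : s35i62_Pkg_FrameFrob := by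
  intro M' q _ _ hq hM'
  exact pff68_frameFrob M' q hq hM'

end Fermat.Agent.S35
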