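import Mathlib
import Fermat.Agent.S35.Iface62
import Fermat.Agent.S35.CoreTH84
import Fermat.Agent.S35.SmoothDatumInst89
import Fermat.Agent.S35.LPTransport3
import Fermat.Agent.S35.LocPrinTau70
import Fermat.Agent.S35.PkgFrameFrob68
import Fermat.Agent.S34.UniqueZero37
import Fermat.Agent.S34.LocPrin9
import Fermat.Agent.S34.Krull65
import Fermat.Agent.S34.PkgMain85
import Fermat.Agent.S34.FrameSat85
import Fermat.Agent.S34.FrameLSAsm71
import Fermat.Agent.S34.FinSupp29
import Fermat.Agent.S34.CoreAsm57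
import Fermat.Agent.S34.BranchZeroInst13
import Fermat.Agent.S34.LocalDatum32

/-!
# S35 lab, chain B, row 565 (helper84, twin): the assembly `CORE_TH ⟹ s35i62_Pkg_Core`

Operator (helper22 / helper54, row 558) on `F = F_K(M' q)`, canonical frame of `Iface47c`:

  `TH(x) = ŝ² x · (w ŝ x)^(q+1) · x^q / ( α(N_α(w ŝ x)) · β(N_α(ŝ x)) )`   (`cth84_TH`).

Inputs which are NOT proved here (closed `Prop`s, to be discharged by rows 559/560 and 563):

* `cth84_TH1 M' q hq hM'` — (T2): `π⁻¹ (TH x − 1) ∈ W` for every `x ≠ 0`;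
* `cth84_NodeTr M' q hq hM'` — (T3) AT THE NODES ONLY: if `y` is a unit along every horizontal
  through a closed point `n` lying on both branches, then `TH y` is regular along every
  horizontal through `n`;
* `s35i62_NormProps M' q hq hM'` (the literal package P-NORM of `Iface62`; only (N1), (N2)).

Output: `cth84_core_of` — the literal `s35i62_Core M' q m` of `Iface62`, and
`cth84_pkg_core_of` — the literal `s35i62_Pkg_Core`.

Route (the hybrid of #2584): at the closed points which are not nodes the local datum of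
`u = TH f` comes from row 546 (`sd89c_localDatum`) applied to `u` itself, since (LP) for `u`
follows from (LP) for `f` alone (closure of `s34i47_LocPrin` under products, inverses, `ŝ`, `w`
and `m`-th powers; the two norm factors of `TH f` are constants times `m`-th powers by the
hypotheses `N_α f = ca · a^m`, `N_β f = cb · b^m`).  At the nodes: (LP) for `f` at `n`, then the
node transport, the Krull clause and saturation.  No semi-local (LP) is needed.
-/

set_option autoImplicit false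
set_option linter.style.longLine false
set_option linter.unusedVariables false
set_option linter.unusedSectionVars false

open ModularCurve AlgebraicCurve

namespace Fermat.Agent.S35

open Fermat.Agent.S18 Fermat.Agent.S34

local notation "Q̄" => AlgebraicClosure ℚ

/-! ## 1. Abstract: the local datum at one closed point -/

section cth84_abs

variable {R F : Type*} [CommRing R] [Field F] [Algebra R F]

/-- The local datum at ONE closed point `n` from the regularity of `θ = T (f / c ^ m)` along the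
horizontals through `n` (`u = T f`, `t = T c`, `θ · t^m = u`, `t ≡ 1`, `θ ≡ 1` modulo `π W`). -/
theorem cth84_datum_at (π : R) (hp0 : algebraMap R F π ≠ 0) (m : ℕ) (W : Subring F)
    (B : Subalgebra R F) (hRW : ∀ r : R, algebraMap R F r ∈ W) (hπW : (algebraMap R F π)⁻¹ ∉ W)
    (hWunit : ∀ x ∈ W, (1 + algebraMap R F π * x)⁻¹ ∈ W)
    (hBW : ∀ x ∈ B, x ∈ W)
    (hsat : ∀ x ∈ B, (algebraMap R F π)⁻¹ * x ∈ W → (algebraMap R F π)⁻¹ * x ∈ B)
    (hKr : s34i47_Krull π B) (n : Ideal B) (hn : n.IsMaximal) (hπn : algebraMap R B π ∈ n)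
    (u t θ : F) (hθu : θ * t ^ m = u)
    (ht : (algebraMap R F π)⁻¹ * (t - 1) ∈ W) (hθ : (algebraMap R F π)⁻¹ * (θ - 1) ∈ W)
    (hreg : ∀ O : ValuationSubring F, s34i47_IsHoriz π O → s34i47_Through B n O → θ ∈ O) :
    ∃ φ : F, (algebraMap R F π)⁻¹ * (φ - 1) ∈ W ∧
      ∃ s : B, s ∉ n ∧ (s : F) * (φ ^ m * u) ∈ B := by
  have hpW : algebraMap R F π ∈ W := hRW π
  have ht0 : t ≠ 0 := by
    rintro rfl
    apply hπW
    have h1 : (algebraMap R F π)⁻¹ = -((algebraMap R F π)⁻¹ * ((0 : F) - 1)) := by ring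
    rw [h1]
    exact W.neg_mem ht
  have htinv : t⁻¹ ∈ W := by
    have h1 := hWunit _ ht
    have h2 : 1 + algebraMap R F π * ((algebraMap R F π)⁻¹ * (t - 1)) = t := by
      field_simp
      ring
    rwa [h2] at h1
  refine ⟨t⁻¹, ?_, ?_⟩
  · have h1 : (algebraMap R F π)⁻¹ * (t⁻¹ - 1) = -((algebraMap R F π)⁻¹ * (t - 1) * t⁻¹) := by
      field_simp
      ring
    rw [h1]
    exact W.neg_mem (W.mul_mem ht htinv)
  · have hkey : t⁻¹ ^ m * u = θ := by
      rw [← hθu, inv_pow]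
      field_simp
    rw [hkey]
    have hθW : θ ∈ W := ld32_mem_of_cong W _ hp0 hpW hθ
    obtain ⟨s, hs, k, hk⟩ := hKr n hn hπn θ hreg
    exact ⟨s, hs, ld32_sat_pow W _ hp0 hpW B hsat k _ (W.mul_mem (hBW _ s.2) hθW) hk⟩

/-- Constants of `R`-fraction type are (LP): a function which is a unit along every horizontal
valuation ring is locally an `m`-th power (root `1`). -/
theorem cth84_locPrin_of_unit (π : R) (m : ℕ) (B : Subalgebra R F) (x : F)
    (hx : ∀ O : ValuationSubring F, s34i47_IsHoriz π O → x ∈ O ∧ x⁻¹ ∈ O) :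
    s34i47_LocPrin π m B x := by
  intro n _ _
  refine ⟨1, one_ne_zero, fun O hO _ => ?_⟩
  obtain ⟨h1, h2⟩ := hx O hO
  rw [one_pow, div_one, one_div]
  exact ⟨h1, h2⟩

end cth84_abs

/-! ## 2. The operator `TH` on the canonical data and the two input `Prop`s -/

section cth84_def

variable (K : Type) [Field K] [Algebra K Q̄] (M' q : ℕ) [NeZero M'] [NeZero q]
  (hq : q.Prime) (hM' : ¬ q ∣ M')

/-- helper22's operator
`TH(x) = ŝ² x · (w ŝ x)^(q+1) · x^q / ( α(N_α(w ŝ x)) · β(N_α(ŝ x)) )` on `F_K(M' q)`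
(`N_β = N_α ∘ w`). -/
noncomputable def cth84_TH (σ : K ≃+* K) (x : ↥(modularFunctionFieldFullC K (M' * q))) :
    ↥(modularFunctionFieldFullC K (M' * q)) :=
  s34i47_coeffEquiv σ (M' * q) (s34i47_coeffEquiv σ (M' * q) x) *
      (al97L_w (algebraMap K Q̄) M' q hq hM' (s34i47_coeffEquiv σ (M' * q) x)) ^ (q + 1) *
      x ^ q /
    (al97L_alpha K M' q (s35i62_normA K M' q
        (al97L_w (algebraMap K Q̄) M' q hq hM' (s34i47_coeffEquiv σ (M' * q) x))) *
      al97L_beta K M' q (s35i62_normA K M' q (s34i47_coeffEquiv σ (M' * q) x)))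

theorem cth84_TH_one (σ : K ≃+* K) : cth84_TH K M' q hq hM' σ 1 = 1 := by
  simp [cth84_TH]

theorem cth84_TH_mul (σ : K ≃+* K) (x y : ↥(modularFunctionFieldFullC K (M' * q))) :
    cth84_TH K M' q hq hM' σ (x * y) =
      cth84_TH K M' q hq hM' σ x * cth84_TH K M' q hq hM' σ y := by
  simp only [cth84_TH, map_mul, mul_pow]
  ring

theorem cth84_TH_pow (σ : K ≃+* K) (x : ↥(modularFunctionFieldFullC K (M' * q))) (k : ℕ) :
    cth84_TH K M' q hq hM' σ (x ^ k) = cth84_TH K M' q hq hM' σ x ^ k := by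
  induction k with
  | zero => rw [pow_zero, pow_zero, cth84_TH_one]
  | succ k ih => rw [pow_succ, pow_succ, cth84_TH_mul, ih]

end cth84_def

/-- **(T2)** on the canonical frame: `TH x ≡ 1` modulo `π W` for every `x ≠ 0`
(rows 559 + 560 of the registry). -/
def cth84_TH1 (M' q : ℕ) [NeZero M'] [NeZero q] (hq : q.Prime) (hM' : ¬ q ∣ M') : Prop :=
  ∀ (R K : Type) [CommRing R] [IsDomain R] [IsDiscreteValuationRing R] [Field K] [NumberField K]
    [Algebra K Q̄] [Algebra R K] [IsFractionRing R K]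
    [Algebra R ↥(modularFunctionFieldFullC K (M' * q))]
    [IsScalarTower R K ↥(modularFunctionFieldFullC K (M' * q))] (π : R) (hπ : Irreducible π),
    (∀ n : ℕ, Nat.Coprime n q → IsUnit (n : R)) → ¬ IsUnit (q : R) →
    (∃ ζ : K, IsPrimitiveRoot ζ q) →
    ∀ σ : K ≃+* K, s35i62_Frobenial R q σ →
    ∀ x : ↥(modularFunctionFieldFullC K (M' * q)), x ≠ 0 →
      (algebraMap R ↥(modularFunctionFieldFullC K (M' * q)) π)⁻¹ *
          (cth84_TH K M' q hq hM' σ x - 1) ∈ s34i47c_W (K := K) M' q hq hM' hπ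

/-- **(T3) at the nodes**: for both affine charts `B` of every admissible Hauptmodul and every
closed point `n ∋ π` of `B` on both branches: if `y ≠ 0` is a unit along every horizontal
valuation ring through `n`, then `TH y` is regular along every horizontal valuation ring
through `n` (row 563 of the registry at `Σ(n) = {n}`). -/
def cth84_NodeTr (M' q : ℕ) [NeZero M'] [NeZero q] (hq : q.Prime) (hM' : ¬ q ∣ M') : Prop :=
  ∀ (R K : Type) [CommRing R] [IsDomain R] [IsDiscreteValuationRing R] [Field K] [NumberField K]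
    [Algebra K Q̄] [Algebra R K] [IsFractionRing R K]
    [Algebra R ↥(modularFunctionFieldFullC K (M' * q))]
    [IsScalarTower R K ↥(modularFunctionFieldFullC K (M' * q))] (π : R) (hπ : Irreducible π),
    (∀ n : ℕ, Nat.Coprime n q → IsUnit (n : R)) → ¬ IsUnit (q : R) →
    (∃ ζ : K, IsPrimitiveRoot ζ q) →
    ∀ σ : K ≃+* K, s35i62_Frobenial R q σ →
    ∀ h : ↥(modularFunctionFieldFullC K (M' * q)), s34i47c_IsHaupt K (M' * q) q h →
    ∀ B : Subalgebra R ↥(modularFunctionFieldFullC K (M' * q)),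
      (B = pk15_chart R ({h} : Set ↥(modularFunctionFieldFullC K (M' * q))) ∨
        B = pk15_chart R ({h⁻¹} : Set ↥(modularFunctionFieldFullC K (M' * q)))) →
    ∀ n : Ideal B, n.IsMaximal → algebraMap R B π ∈ n →
      sf79_OnBr π B (cm85_Vinf (K := K) (M' * q) hπ).toSubring n →
      sf79_OnBr π B (s34i47c_V0 (K := K) M' q hq hM' hπ).toSubring n →
      ∀ y : ↥(modularFunctionFieldFullC K (M' * q)), y ≠ 0 →
        (∀ O : ValuationSubring ↥(modularFunctionFieldFullC K (M' * q)),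
          s34i47_IsHoriz π O → s34i47_Through B n O → y ∈ O ∧ y⁻¹ ∈ O) →
        ∀ O : ValuationSubring ↥(modularFunctionFieldFullC K (M' * q)),
          s34i47_IsHoriz π O → s34i47_Through B n O → cth84_TH K M' q hq hM' σ y ∈ O

/-! ## 3. (LP) for `TH f` on a chart stable under `ŝ` and `w` -/

section cth84_lp

variable {R K : Type} [CommRing R] [IsDomain R] [IsDiscreteValuationRing R] [Field K]
  [NumberField K] [Algebra K Q̄] [Algebra R K] [IsFractionRing R K]
  (M' q : ℕ) [NeZero M'] [NeZero q] (hq : q.Prime) (hM' : ¬ q ∣ M')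
  [Algebra R ↥(modularFunctionFieldFullC K (M' * q))]
  [IsScalarTower R K ↥(modularFunctionFieldFullC K (M' * q))]

/-- A constant of `K` is (LP). -/
theorem cth84_locPrin_const {π : R} (hπ : Irreducible π) (m : ℕ)
    (B : Subalgebra R ↥(modularFunctionFieldFullC K (M' * q))) (c : K) :
    s34i47_LocPrin π m B (algebraMap K ↥(modularFunctionFieldFullC K (M' * q)) c) := by
  refine cth84_locPrin_of_unit π m B _ (fun O hO => ⟨?_, ?_⟩)
  · exact ca57_algebraMap_mem hπ O hO.2.2.1 hO.2.2.2 c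
  · rw [← map_inv₀]
    exact ca57_algebraMap_mem hπ O hO.2.2.1 hO.2.2.2 c⁻¹

/-- **(LP) for `TH f` from (LP) for `f`**, on a chart stable under `ŝ` and `w`, when the two
norm factors are constants times `m`-th powers. -/
theorem cth84_locPrin_TH {π : R} (hπ : Irreducible π) (m : ℕ)
    (B : Subalgebra R ↥(modularFunctionFieldFullC K (M' * q)))
    (σ : K ≃+* K) (hσ : s35i62_Frobenial R q σ)
    (hsB : ∀ x ∈ B, s34i47_coeffEquiv σ (M' * q) x ∈ B)
    (hwB : ∀ x ∈ B, bz13_w M' q hq hM' x ∈ B)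
    (f : ↥(modularFunctionFieldFullC K (M' * q))) (hLP : s34i47_LocPrin π m B f)
    (c₁ c₂ : K) (g₁ g₂ : ↥(modularFunctionFieldFullC K (M' * q))) (hg₁ : g₁ ≠ 0) (hg₂ : g₂ ≠ 0)
    (h₁ : al97L_alpha K M' q (s35i62_normA K M' q
        (al97L_w (algebraMap K Q̄) M' q hq hM' (s34i47_coeffEquiv σ (M' * q) f))) =
      algebraMap K ↥(modularFunctionFieldFullC K (M' * q)) c₁ * g₁ ^ m)
    (h₂ : al97L_beta K M' q (s35i62_normA K M' q (s34i47_coeffEquiv σ (M' * q) f)) =
      algebraMap K ↥(modularFunctionFieldFullC K (M' * q)) c₂ * g₂ ^ m) :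
    s34i47_LocPrin π m B (cth84_TH K M' q hq hM' σ f) := by
  have hσ' : ff50_Frob R q σ := hσ
  -- `ŝ`
  have hsR : ∀ r : R, ∃ r' : R, s34i47_coeffEquiv σ (M' * q)
      (algebraMap R ↥(modularFunctionFieldFullC K (M' * q)) r) =
        algebraMap R ↥(modularFunctionFieldFullC K (M' * q)) r' :=
    fun r => ff50_g0' (M' * q) σ hσ' r
  obtain ⟨k, hk0, hk⟩ := in87i_finOrder σ
  have hk' : (s34i47_coeffEquiv σ (M' * q)) ^ k = 1 := by
    rw [in87i_coeffEquiv_eq]
    exact in87_aut_pow_eq_one (M' * q) σ k hk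
  have hsB' : ∀ x ∈ B, (s34i47_coeffEquiv σ (M' * q)).symm x ∈ B :=
    fun x hx => lpt70_symm_mem_of_pow B _ hsB k hk0 hk' x hx
  -- `w`
  have hwR : ∀ r : R, ∃ r' : R, bz13_w M' q hq hM'
      (algebraMap R ↥(modularFunctionFieldFullC K (M' * q)) r) =
        algebraMap R ↥(modularFunctionFieldFullC K (M' * q)) r' :=
    fun r => ⟨r, bz13_w_algebraMap M' q hq hM' r⟩
  have hwB' : ∀ x ∈ B, (bz13_w M' q hq hM').symm x ∈ B := fun x hx => hwB x hx
  have hs := lpt3_locPrin_map (K := K) π hπ m B _ hsR hsB hsB' hLP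
  have hss := lpt3_locPrin_map (K := K) π hπ m B _ hsR hsB hsB' hs
  have hws := lpt3_locPrin_map (K := K) π hπ m B _ hwR hwB hwB' hs
  have hd₁ := lpt3_locPrin_mul π m B (cth84_locPrin_const M' q hπ m B c₁)
    (lpt3_locPrin_self_pow π m B hg₁)
  have hd₂ := lpt3_locPrin_mul π m B (cth84_locPrin_const M' q hπ m B c₂)
    (lpt3_locPrin_self_pow π m B hg₂)
  have hfin := lpt3_locPrin_div π m B
    (lpt3_locPrin_mul π m B (lpt3_locPrin_mul π m B hss (lpt3_locPrin_pow π m B hws (q + 1)))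
      (lpt3_locPrin_pow π m B hLP q))
    (lpt3_locPrin_mul π m B hd₁ hd₂)
  rw [cth84_TH, h₁, h₂]
  exact hfin

end cth84_lp

/-! ## 4. The assembly -/

/-- **B5 + B6 (chain B)**: the literal `s35i62_Core M' q m` of `Iface62` from (T2), the node
transport and the norm properties (N1), (N2). -/
theorem cth84_core_of (M' q m p₀ : ℕ) [NeZero M'] [NeZero q] (hq : q.Prime) (hM' : ¬ q ∣ M')
    (hp₀ : p₀ = 2 ∨ p₀ = 3) (hp₀q : p₀ ≠ q) (hp₀M : p₀ ∣ M') (hm : 0 < m)
    (hmq : Nat.Coprime m q)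
    (hTH1 : cth84_TH1 M' q hq hM') (hTr : cth84_NodeTr M' q hq hM')
    (hNorm : s35i62_NormProps M' q hq hM') : s35i62_Core M' q m := by
  intro R K _ _ _ _ _ _ _ _ _ _ π hπ hunit hqR hζ σ hσ f a b ca cb hf ha hb hca hcb hord hNa hNb
    hrat
  -- the Hauptmodul
  obtain ⟨h, hh⟩ : ∃ h : ↥(modularFunctionFieldFullC K (M' * q)),
      s34i47c_IsHaupt K (M' * q) q h := by
    have hp₀M' : p₀ ∣ M' * q := Dvd.dvd.mul_right hp₀M q
    rcases hp₀ with rfl | rfl
    · exact ⟨pk85_h2 K (M' * q) hp₀M', Or.inl ⟨Ne.symm hp₀q, hp₀M', rfl⟩⟩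
    · exact ⟨pk85_h3 K (M' * q) hp₀M', Or.inr ⟨Ne.symm hp₀q, hp₀M', rfl⟩⟩
  -- the frame
  obtain ⟨hW, hCall⟩ := fs85_frameSat M' q hq hM' R K π hπ hunit hqR
  have hC := hCall h hh
  obtain ⟨hRW, hπW, hWroot, hWunit⟩ := hW
  obtain ⟨hLS₁, hLS₂⟩ := fl71_frameLS M' q hq hM' R K π hπ hunit hqR h hh
  obtain ⟨-, -, hF1, hF2a, hF2b, -, -⟩ := pff68_frameFrob M' q hq hM' R K π hπ hunit hqR σ hσ
  obtain ⟨hN1, hN2, -⟩ := hNorm R K π hπ hunit hqR hζ
  have hσ' : ff50_Frob R q σ := hσ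
  obtain ⟨hsB₁, hsB₂, -⟩ := ff50_chart M' q σ hσ' h hh
  obtain ⟨hwB₁, hwB₂, -⟩ := bz13_charts_stable (R := R) M' q hq hM' hunit h hh
  have hπ0 : algebraMap R ↥(modularFunctionFieldFullC K (M' * q)) π ≠ 0 := by
    intro h0
    apply hπW
    rw [h0, inv_zero]
    exact Subring.zero_mem _
  -- the two norm factors
  have e₁ : al97L_alpha K M' q (s35i62_normA K M' q
        (al97L_w (algebraMap K Q̄) M' q hq hM' (s34i47_coeffEquiv σ (M' * q) f))) =
      algebraMap K ↥(modularFunctionFieldFullC K (M' * q)) (σ cb) *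
        (al97L_alpha K M' q (s34i47_coeffEquiv σ M' b)) ^ m := by
    rw [← hF1 f, hN2 σ, ← hN1 f, hNb, map_mul, map_pow, al97V_coeffEquiv_algebraMap, map_mul,
      map_pow, AlgHom.commutes]
  have e₂ : al97L_beta K M' q (s35i62_normA K M' q (s34i47_coeffEquiv σ (M' * q) f)) =
      algebraMap K ↥(modularFunctionFieldFullC K (M' * q)) (σ ca) *
        (al97L_beta K M' q (s34i47_coeffEquiv σ M' a)) ^ m := by
    rw [hN2 σ, hNa, map_mul, map_pow, al97V_coeffEquiv_algebraMap, map_mul, map_pow,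
      AlgHom.commutes]
  have hg₁ : al97L_alpha K M' q (s34i47_coeffEquiv σ M' b) ≠ 0 :=
    (map_ne_zero _).mpr ((map_ne_zero _).mpr hb)
  have hg₂ : al97L_beta K M' q (s34i47_coeffEquiv σ M' a) ≠ 0 :=
    (map_ne_zero _).mpr ((map_ne_zero _).mpr ha)
  -- `u = TH f ≡ 1` modulo `π W`
  have hu := hTH1 R K π hπ hunit hqR hζ σ hσ f hf
  -- the hypotheses on `f` in valuation-subring form, (LP) for `f` on both charts
  have hOrd : s34i47_Ord π m f := ca57_ord (K := K) hπ m f hf hord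
  have hRat : s34i47_Rat K π f := ca57_rat (K := K) hπ f (hrat f (Or.inl rfl))
  have hFinS : s34i47_Fin π f :=
    ca57_fin (K := K) hπ f (fs29_Pkg_Fin (M' * q) inferInstance K f hf)
  -- the local datum on a chart
  have hLD : ∀ B : Subalgebra R ↥(modularFunctionFieldFullC K (M' * q)),
      (B = pk15_chart R ({h} : Set ↥(modularFunctionFieldFullC K (M' * q))) ∨
        B = pk15_chart R ({h⁻¹} : Set ↥(modularFunctionFieldFullC K (M' * q)))) →
      s34i47_LocStr π B →
      (∀ x ∈ B, s34i47_coeffEquiv σ (M' * q) x ∈ B) → (∀ x ∈ B, bz13_w M' q hq hM' x ∈ B) →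
      s34i47_LocalDatum π m (s34i47c_W (K := K) M' q hq hM' hπ) B
        (cth84_TH K M' q hq hM' σ f) := by
    intro B hB hLS hsB hwB
    obtain ⟨hN, hBW, hsatW, hFrac, hKr, -, -⟩ :=
      sd89c_chart_facts M' q hq hM' hπ hunit hqR h hh B hB
    have hUZ := uz37_Pkg_UZ R K ↥(modularFunctionFieldFullC K (M' * q)) π hπ B hN hFrac hLS
    have hLPf := lp9_Pkg_LP R K ↥(modularFunctionFieldFullC K (M' * q)) π hπ B m hm f hf hUZ
      hOrd hRat hFinS
    have hLPu := cth84_locPrin_TH M' q hq hM' hπ m B σ hσ hsB hwB f hLPf _ _ _ _ hg₁ hg₂ e₁ e₂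
    refine sd89c_localDatum M' q hq hM' hπ hunit hqR h hh B hB m hm _ hu hLPu ?_
    intro n hn hπn hbr₁ hbr₂
    obtain ⟨c, hc0, hc⟩ := hLPf n hn hπn
    have hy0 : f / c ^ m ≠ 0 := div_ne_zero hf (pow_ne_zero m hc0)
    have hreg := hTr R K π hπ hunit hqR hζ σ hσ h hh B hB n hn hπn hbr₁ hbr₂ (f / c ^ m) hy0
      (fun O hO hOn => by
        obtain ⟨h1, h2⟩ := hc O hO hOn
        exact ⟨h1, by rw [inv_div]; exact h2⟩)
    refine cth84_datum_at π hπ0 m _ B hRW hπW hWunit hBW hsatW hKr n hn hπn _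
      (cth84_TH K M' q hq hM' σ c) (cth84_TH K M' q hq hM' σ (f / c ^ m)) ?_
      (hTH1 R K π hπ hunit hqR hζ σ hσ c hc0) (hTH1 R K π hπ hunit hqR hζ σ hσ _ hy0) hreg
    rw [← cth84_TH_pow, ← cth84_TH_mul, div_mul_cancel₀ _ (pow_ne_zero m hc0)]
  have hLD₁ := hLD _ (Or.inl rfl) hLS₁ hsB₁ (fun x hx => (hwB₁ x).mpr hx)
  have hLD₂ := hLD _ (Or.inr rfl) hLS₂ hsB₂ (fun x hx => (hwB₂ x).mpr hx)
  -- the nodal two-chart lemma
  obtain ⟨f₀, c, hf₀, hfc⟩ := cm85_pkg_main R K ↥(modularFunctionFieldFullC K (M' * q)) π hπ m hm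
    (hunit m hmq) (cap87_algClosed_in (modularFunctionFieldFullC K (M' * q)))
    (s34i47c_W (K := K) M' q hq hM' hπ) h ⟨hRW, hπW, hWroot, hWunit⟩ hC _ hu hLD₁ hLD₂
  -- `TH f ≠ 0`, hence `TH f ∈ Kˣ · (Fˣ)^m`
  have hu0 : cth84_TH K M' q hq hM' σ f ≠ 0 := by
    intro h0
    apply hπW
    rw [h0] at hu
    have h1 : (algebraMap R ↥(modularFunctionFieldFullC K (M' * q)) π)⁻¹ =
        -((algebraMap R ↥(modularFunctionFieldFullC K (M' * q)) π)⁻¹ * (0 - 1)) := by ring
    rw [h1]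
    exact Subring.neg_mem _ hu
  have hHu : cth84_H K m (cth84_TH K M' q hq hM' σ f) := by
    refine ⟨algebraMap R K c, f₀⁻¹, ?_, inv_ne_zero hf₀, ?_⟩
    · intro h0
      have h1 : f₀ ^ m * cth84_TH K M' q hq hM' σ f = 0 := by
        rw [hfc, IsScalarTower.algebraMap_apply R K ↥(modularFunctionFieldFullC K (M' * q)), h0,
          map_zero]
      rcases mul_eq_zero.mp h1 with h2 | h2
      · exact hf₀ (pow_eq_zero_iff (Nat.pos_iff_ne_zero.mp hm) |>.mp h2)
      · exact hu0 h2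
    · rw [← IsScalarTower.algebraMap_apply R K ↥(modularFunctionFieldFullC K (M' * q)), ← hfc,
        inv_pow]
      field_simp
  -- `P(f) = TH f · (norm factors) ∈ Kˣ · (Fˣ)^m`
  have hσca : σ ca ≠ 0 := (map_ne_zero σ).mpr hca
  have hσcb : σ cb ≠ 0 := (map_ne_zero σ).mpr hcb
  have hD₁ : algebraMap K ↥(modularFunctionFieldFullC K (M' * q)) (σ cb) *
      (al97L_alpha K M' q (s34i47_coeffEquiv σ M' b)) ^ m ≠ 0 :=
    mul_ne_zero ((map_ne_zero _).mpr hσcb) (pow_ne_zero m hg₁)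
  have hD₂ : algebraMap K ↥(modularFunctionFieldFullC K (M' * q)) (σ ca) *
      (al97L_beta K M' q (s34i47_coeffEquiv σ M' a)) ^ m ≠ 0 :=
    mul_ne_zero ((map_ne_zero _).mpr hσca) (pow_ne_zero m hg₂)
  have hP : cth84_H K m
      (s34i47_coeffEquiv σ (M' * q) (s34i47_coeffEquiv σ (M' * q) f) *
        (bz13_w M' q hq hM' (s34i47_coeffEquiv σ (M' * q) f)) ^ (q + 1) * f ^ q) := by
    have e : s34i47_coeffEquiv σ (M' * q) (s34i47_coeffEquiv σ (M' * q) f) *
        (bz13_w M' q hq hM' (s34i47_coeffEquiv σ (M' * q) f)) ^ (q + 1) * f ^ q =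
        cth84_TH K M' q hq hM' σ f *
          ((algebraMap K ↥(modularFunctionFieldFullC K (M' * q)) (σ cb) *
              (al97L_alpha K M' q (s34i47_coeffEquiv σ M' b)) ^ m) *
            (algebraMap K ↥(modularFunctionFieldFullC K (M' * q)) (σ ca) *
              (al97L_beta K M' q (s34i47_coeffEquiv σ M' a)) ^ m)) := by
      rw [cth84_TH, e₁, e₂, bz13_w_apply, div_mul_cancel₀ _ (mul_ne_zero hD₁ hD₂)]
    rw [e]
    exact cth84_H_mul hHu (cth84_H_mul
      (cth84_H_mul (cth84_H_const hσcb) (cth84_H_of_pow hg₁))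
      (cth84_H_mul (cth84_H_const hσca) (cth84_H_of_pow hg₂)))
  -- B6
  have hop := cth84_op_of_P (K := K) q m (s34i47_coeffEquiv σ (M' * q)) (bz13_w M' q hq hM')
    (fun x => hF1 x) (fun x => al97L_w_w (algebraMap K Q̄) M' q hq hM' x)
    (fun c => ⟨σ c, al97V_coeffEquiv_algebraMap σ (M' * q) c⟩)
    (fun c => ⟨c, AlgEquiv.commutes _ c⟩) f hf hP
  exact cth84_H_out hop

/-- **P-CORE through chain B** (conditional form): the literal `s35i62_Pkg_Core` of `Iface62`
from (T2), the node transport and P-NORM. -/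
theorem cth84_pkg_core_of
    (hTH1 : ∀ (M' q : ℕ) [NeZero M'] [NeZero q] (hq : q.Prime) (hM' : ¬ q ∣ M'),
      cth84_TH1 M' q hq hM')
    (hTr : ∀ (M' q : ℕ) [NeZero M'] [NeZero q] (hq : q.Prime) (hM' : ¬ q ∣ M'),
      cth84_NodeTr M' q hq hM')
    (hNorm : s35i62_Pkg_Norm) : s35i62_Pkg_Core := by
  intro M' q m p₀ _ _ hq hM' hp₀ hp₀q hp₀M hm hmq
  exact cth84_core_of M' q m p₀ hq hM' hp₀ hp₀q hp₀M hm hmq (hTH1 M' q hq hM') (hTr M' q hq hM')
    (hNorm M' q hq hM')

end Fermat.Agent.S35
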