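import Fermat.Agent.S35.NormCong97
import Fermat.Agent.S35.Iface62

/-!
# S35 lab (helper97): the literal package P-NORM `s35i62_Pkg_Norm` of `Iface62` ((1b))

`ng97_pkg_norm : s35i62_Pkg_Norm` — the three clauses of `s35i62_NormProps` on the canonical
frame (`V_∞ = cm85_Vinf`, `w = al97L_w`, `α = al97L_alpha`, `ŝ = s34i47_coeffEquiv σ`):

* (N1) `N_β y = N_α (w y)`                                  (`ng97_norm_beta`, NormCong97);
* (N2) `N_α (τ̂ y) = τ̂ (N_α y)` for every `τ : K ≃+* K`     (`ng97_norm_coeffEquiv`);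
* (N3) the UNBALANCED norm congruence, general `k : ℤ`: if `π^(-k) · w y` is a unit of `V_∞`
  then `π⁻¹ · (α(N_α y) / (y · ŝ(w y)) · (σπ / π^q)^k - 1) ∈ V_∞`.

(N3) comes from `ng97_norm_unit_cong_nonunits` (for `w y = c · u`, `c ∈ Kˣ`, `u ∈ V_∞ˣ`:
`α(N_α y) / (y · ŝ(w y)) · (σ c / c^q) - 1 ∈ 𝔪_{V_∞}`, no condition on `y ≠ 0`), proved from the
exact product formula `ng97_norm_gen` (`(N_α y)(Q^q) = y(Q^q) · ∏_b (w y)(ζ^b Q)`) and the
reduction criterion `ng97_nonunits_of_red` modulo a prime of the integral closure of `R` in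
`ℚ̄` (`∏_b u(ζ^b Q) ≡ u(Q)^q ≡ (ŝ u)(Q^q)`).  The hypotheses `NumberField K`,
`∃ ζ : K, IsPrimitiveRoot ζ q`, `∀ n, Coprime n q → IsUnit (n : R)` of the package are not used.

All names are prefixed `ng97_`.
-/

set_option autoImplicit false
set_option linter.style.haveILetI false
set_option linter.style.longLine false
set_option linter.unusedSectionVars false

open ModularCurve AlgebraicCurve IntermediateField
open Fermat.Agent.S24 Fermat.Agent.S28 Fermat.Agent.S18 Fermat.Agent.S37 Fermat.Agent.S34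
open Fermat.Agent.S42

namespace Fermat.Agent.S35

section ng97_pkg

variable {R K : Type} [CommRing R] [IsDomain R] [IsDiscreteValuationRing R] [Field K]
  [Algebra R K] [IsFractionRing R K] [Algebra K Kbar]

/-- **Reduction criterion.**  Let `R → B ↪ ℚ̄`, `ρ : B → k` with `ker ρ ∩ R = 𝔪_R`.  If
`A · D^φ(Q^q) = B'` in `ℚ̄((Q))` with `A`, `B'` defined over `B`, `ρ A ≠ 0`, `ρ B' = 0`, then
`D` lies in the maximal ideal of the Gauss ring `V_∞`. -/
theorem ng97_nonunits_of_red {B k : Type} [CommRing B] [Field k] (j : B →+* Kbar)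
    (ι : R →+* B) (ρ : B →+* k) (hj : Function.Injective j)
    (hjι : ∀ r, j (ι r) = algebraMap K Kbar (algebraMap R K r))
    (hρι : ∀ r, ρ (ι r) = 0 ↔ r ∈ IsLocalRing.maximalIdeal R)
    (M q : ℕ) [NeZero M] [NeZero q] {π : R} (hπ : Irreducible π)
    (D : ↥(modularFunctionFieldFullC K M)) (AB BB : LaurentSeries B)
    (hA : coeffMap ρ AB ≠ 0) (hB : coeffMap ρ BB = 0)
    (hrel : coeffMap j AB * qExpand Kbar q (coeffMap (algebraMap K Kbar) (D : LaurentSeries K)) =
      coeffMap j BB) :
    D ∈ (cm85_Vinf (K := K) M hπ).nonunits := by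
  by_contra hcon
  have hD0 : D ≠ 0 := fun h0 => hcon (by
    rw [h0, ValuationSubring.mem_nonunits_iff, map_zero]
    exact zero_lt_one)
  have hDinv : D⁻¹ ∈ cm85_Vinf (K := K) M hπ := by
    rw [← ValuationSubring.valuation_le_one_iff, map_inv₀]
    have h1 : ¬ (cm85_Vinf (K := K) M hπ).valuation D < 1 := fun h =>
      hcon ((ValuationSubring.mem_nonunits_iff _).mpr h)
    exact inv_le_one_of_one_le₀ (not_lt.mp h1)
  obtain ⟨s, t, hs, hst⟩ := hDinv
  have hsD : coeffMap (algebraMap R K) s = coeffMap (algebraMap R K) t * (D : LaurentSeries K) := by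
    have h1 : ((D⁻¹ : ↥(modularFunctionFieldFullC K M)) : LaurentSeries K) *
        (D : LaurentSeries K) = 1 := by
      have h2 := congrArg (fun x : ↥(modularFunctionFieldFullC K M) =>
        (x : LaurentSeries K)) (inv_mul_cancel₀ hD0)
      exact h2
    rw [← hst, mul_assoc, h1, mul_one]
  have hcomp : j.comp ι = (algebraMap K Kbar).comp (algebraMap R K) := RingHom.ext hjι
  have hT : ∀ x : LaurentSeries R,
      qExpand Kbar q (coeffMap (algebraMap K Kbar) (coeffMap (algebraMap R K) x)) =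
      coeffMap j (qExpand B q (coeffMap ι x)) := by
    intro x
    rw [coeffMap_qExpand, coeffMap_coeffMap, coeffMap_coeffMap, hcomp]
  have e6 := congrArg (fun x => qExpand Kbar q (coeffMap (algebraMap K Kbar) x)) hsD
  simp only [map_mul] at e6
  have keyB : qExpand B q (coeffMap ι s) * AB = qExpand B q (coeffMap ι t) * BB := by
    apply kn97_coeffMap_injective j hj
    rw [map_mul, map_mul, ← hT, ← hT, e6, mul_assoc, ← hrel]
    ring
  have hred := congrArg (coeffMap ρ) keyB
  rw [map_mul, map_mul, hB, mul_zero, coeffMap_qExpand, coeffMap_coeffMap] at hred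
  have hne : coeffMap (ρ.comp ι) s ≠ 0 := by
    intro h0
    apply hs
    ext n
    have h1 := congrArg (fun z : LaurentSeries k => z.coeff n) h0
    simp only [coeffMap_coeff, HahnSeries.coeff_zero] at h1
    rw [coeffMap_coeff, HahnSeries.coeff_zero, IsLocalRing.residue_eq_zero_iff]
    exact (hρι _).mp h1
  have hqne : qExpand k q (coeffMap (ρ.comp ι) s) ≠ 0 := fun h0 =>
    hne (qExpand_injective q (by rw [h0, map_zero]))
  exact mul_ne_zero hqne hA hred


variable (M' q : ℕ) [NeZero M'] [NeZero q] (hq : q.Prime) (hM' : ¬ q ∣ M')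

set_option maxHeartbeats 1000000 in
/-- **The unbalanced norm congruence, unit form.**  If `w y = c · u` with `c ∈ Kˣ` and `u` a
unit of the Gauss ring `V_∞`, then
`α(N_α y) / (y · σ̂(w y)) · (σ c / c^q) - 1 ∈ 𝔪_{V_∞}` (no condition on `y ≠ 0` itself). -/
theorem ng97_norm_unit_cong_nonunits {π : R} (hπ : Irreducible π) (hqR : ¬ IsUnit (q : R))
    (σ : K ≃+* K)
    (hσ : ∀ r : R, ∃ r' : R, σ (algebraMap R K r) = algebraMap R K r' ∧
      r' - r ^ q ∈ IsLocalRing.maximalIdeal R)
    (y : ↥(modularFunctionFieldFullC K (M' * q))) (hy0 : y ≠ 0) (c : K) (hc : c ≠ 0)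
    (u : ↥(modularFunctionFieldFullC K (M' * q)))
    (hu : u ∈ cm85_Vinf (K := K) (M' * q) hπ) (hu' : u⁻¹ ∈ cm85_Vinf (K := K) (M' * q) hπ)
    (hwy : al97L_w (algebraMap K Kbar) M' q hq hM' y =
      algebraMap K ↥(modularFunctionFieldFullC K (M' * q)) c * u) :
    letI := algebraAlong (al97L_alpha K M' q)
    al97L_alpha K M' q (Algebra.norm ↥(modularFunctionFieldFullC K M') y) /
        (y * s34i47_coeffEquiv σ (M' * q) (al97L_w (algebraMap K Kbar) M' q hq hM' y)) *
      algebraMap K ↥(modularFunctionFieldFullC K (M' * q)) (σ c / c ^ q) - 1 ∈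
        (cm85_Vinf (K := K) (M' * q) hπ).nonunits := by
  letI := algebraAlong (al97L_alpha K M' q)
  haveI : CharZero K := RingHom.charZero (algebraMap K Kbar)
  have hL : ((M' * q : ℕ) : K) ≠ 0 := Nat.cast_ne_zero.mpr (NeZero.ne (M' * q))
  obtain ⟨B, _, j, ι, k, _, _, ρ, ζB, hj, hjι, hρι, hζ, hρζ⟩ :=
    ng97_exists_red (R := R) (K := K) q hq hqR
  haveI : ExpChar k q := ExpChar.prime hq
  have hnorm := ng97_norm_gen (algebraMap K Kbar) M' q hq hM' hL _ hζ y
  set φ : K →+* Kbar := algebraMap K Kbar with hφ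
  set ζ : Kbarˣ := Units.map (j : B →* Kbar) ζB with hζdef
  set wy : ↥(modularFunctionFieldFullC K (M' * q)) := al97L_w φ M' q hq hM' y with hwy_def
  set Ny : ↥(modularFunctionFieldFullC K M') :=
    Algebra.norm ↥(modularFunctionFieldFullC K M') y with hNy
  set E : ↥(modularFunctionFieldFullC K (M' * q)) :=
    al97L_alpha K M' q Ny / (y * s34i47_coeffEquiv σ (M' * q) wy) *
      algebraMap K ↥(modularFunctionFieldFullC K (M' * q)) (σ c / c ^ q) with hE
  -- nonvanishing
  have hwy0 : wy ≠ 0 := by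
    rw [hwy_def]
    exact (EmbeddingLike.map_ne_zero_iff).mpr hy0
  have hu0 : u ≠ 0 := by
    intro h0
    rw [hwy, h0, mul_zero] at hwy0
    exact hwy0 rfl
  have hswy0 : s34i47_coeffEquiv σ (M' * q) wy ≠ 0 := (EmbeddingLike.map_ne_zero_iff).mpr hwy0
  have hσc : σ c ≠ 0 := (EmbeddingLike.map_ne_zero_iff).mpr hc
  -- the defining relation of `E`, without division
  have hErel : E * (y * s34i47_coeffEquiv σ (M' * q) wy) *
      algebraMap K ↥(modularFunctionFieldFullC K (M' * q)) (c ^ q) =
      al97L_alpha K M' q Ny * algebraMap K ↥(modularFunctionFieldFullC K (M' * q)) (σ c) := by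
    have hcq : algebraMap K ↥(modularFunctionFieldFullC K (M' * q)) (c ^ q) ≠ 0 :=
      (map_ne_zero _).mpr (pow_ne_zero q hc)
    rw [hE, map_div₀]
    field_simp
  clear_value E Ny wy
  -- series data
  obtain ⟨s2, t2, hs2, hst2⟩ := hu
  obtain ⟨s3, t3, hs3, hst3⟩ := hu'
  obtain ⟨s2σ, hs2σ, hs2σ'⟩ := ng97_sigma_series q σ hσ s2
  obtain ⟨t2σ, ht2σ, ht2σ'⟩ := ng97_sigma_series q σ hσ t2
  have hinjK : Function.Injective (coeffMap (algebraMap R K)) :=
    kn97_coeffMap_injective _ (IsFractionRing.injective R K)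
  -- `res t2 ≠ 0`
  have ht2 : coeffMap (IsLocalRing.residue R) t2 ≠ 0 := by
    have h1 : ((u⁻¹ : ↥(modularFunctionFieldFullC K (M' * q))) : LaurentSeries K) *
        (u : LaurentSeries K) = 1 := by
      have h2 := congrArg (fun x : ↥(modularFunctionFieldFullC K (M' * q)) =>
        (x : LaurentSeries K)) (inv_mul_cancel₀ hu0)
      exact h2
    have h3 : coeffMap (algebraMap R K) s3 =
        coeffMap (algebraMap R K) t3 * (u : LaurentSeries K) := by
      rw [← hst3, mul_assoc, h1, mul_one]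
    have h4 : s2 * s3 = t2 * t3 := by
      apply hinjK
      rw [map_mul, map_mul, h3, ← hst2]
      ring
    intro h0
    have h5 := congrArg (coeffMap (IsLocalRing.residue R)) h4
    rw [map_mul, map_mul, h0, zero_mul] at h5
    exact mul_ne_zero hs2 hs3 h5
  -- the coordinates of `w y` and of `σ̂ (w y)`
  have hcoeC : ∀ x : K, ((algebraMap K ↥(modularFunctionFieldFullC K (M' * q)) x :
      ↥(modularFunctionFieldFullC K (M' * q))) : LaurentSeries K) = HahnSeries.C x := by
    intro x
    show algebraMap K (LaurentSeries K) x = _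
    rw [algebraMap_laurentSeries_eq_single]
    rfl
  have hwyc : (wy : LaurentSeries K) = HahnSeries.C c * (u : LaurentSeries K) := by
    have h1 : (wy : LaurentSeries K) =
        ((algebraMap K ↥(modularFunctionFieldFullC K (M' * q)) c :
          ↥(modularFunctionFieldFullC K (M' * q))) : LaurentSeries K) * (u : LaurentSeries K) :=
      congrArg (fun x : ↥(modularFunctionFieldFullC K (M' * q)) => (x : LaurentSeries K)) hwy
    rw [h1, hcoeC]
  have hst2' : coeffMap (algebraMap R K) s2 * (wy : LaurentSeries K) =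
      HahnSeries.C c * coeffMap (algebraMap R K) t2 := by
    rw [hwyc, ← hst2]
    ring
  have hCσ : ∀ x : K, coeffMap (σ : K →+* K) (HahnSeries.C x) = HahnSeries.C (σ x) :=
    fun x => coeffMap_single (σ : K →+* K) 0 x
  have hCφ : ∀ x : K, coeffMap φ (HahnSeries.C x) = HahnSeries.C (φ x) :=
    fun x => coeffMap_single φ 0 x
  have hst2σ : coeffMap (algebraMap R K) s2σ * coeffMap (σ : K →+* K) (wy : LaurentSeries K) =
      HahnSeries.C (σ c) * coeffMap (algebraMap R K) t2σ := by
    rw [hs2σ, ht2σ, ← map_mul, hst2', map_mul, hCσ]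
  -- transfer to `ℚ̄((Q))`
  obtain ⟨T, hTdef⟩ : ∃ T : LaurentSeries K →+* LaurentSeries Kbar,
      ∀ x, T x = qExpand Kbar q (coeffMap φ x) :=
    ⟨(qExpand Kbar q).comp (coeffMap φ), fun _ => rfl⟩
  have hTC : ∀ x : K, T (HahnSeries.C x) = HahnSeries.C (φ x) := by
    intro x
    rw [hTdef, hCφ, qExpand_C]
  have hcomp : j.comp ι = φ.comp (algebraMap R K) := RingHom.ext hjι
  have hT : ∀ x : LaurentSeries R, T (coeffMap (algebraMap R K) x) =
      coeffMap j (qExpand B q (coeffMap ι x)) := by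
    intro x
    rw [hTdef, coeffMap_qExpand, coeffMap_coeffMap, coeffMap_coeffMap, hcomp]
  have htw : ∀ (b : ℕ) (x : LaurentSeries R),
      twist (ζ ^ b) (coeffMap φ (coeffMap (algebraMap R K) x)) =
        coeffMap j (twist (ζB ^ b) (coeffMap ι x)) := by
    intro b x
    rw [coeffMap_twist, map_pow, coeffMap_coeffMap, coeffMap_coeffMap, hcomp]
  have e2 : (∏ b : Fin q, twist (ζ ^ (b : ℕ)) (coeffMap φ (coeffMap (algebraMap R K) s2))) *
      (∏ b : Fin q, twist (ζ ^ (b : ℕ)) (coeffMap φ (wy : LaurentSeries K))) =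
      HahnSeries.C (φ c) ^ q *
        ∏ b : Fin q, twist (ζ ^ (b : ℕ)) (coeffMap φ (coeffMap (algebraMap R K) t2)) := by
    rw [← Finset.prod_mul_distrib]
    have h1 : ∀ b ∈ (Finset.univ : Finset (Fin q)),
        twist (ζ ^ (b : ℕ)) (coeffMap φ (coeffMap (algebraMap R K) s2)) *
          twist (ζ ^ (b : ℕ)) (coeffMap φ (wy : LaurentSeries K)) =
        HahnSeries.C (φ c) *
          twist (ζ ^ (b : ℕ)) (coeffMap φ (coeffMap (algebraMap R K) t2)) := by
      intro b _
      rw [← map_mul, ← map_mul, hst2', map_mul, map_mul, hCφ, twist_C]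
    rw [Finset.prod_congr rfl h1, Finset.prod_mul_distrib, Finset.prod_const, Finset.card_univ,
      Fintype.card_fin]
  have e3 : T (coeffMap (algebraMap R K) s2σ) *
      T (coeffMap (σ : K →+* K) (wy : LaurentSeries K)) =
      HahnSeries.C (φ (σ c)) * T (coeffMap (algebraMap R K) t2σ) := by
    rw [← map_mul, hst2σ, map_mul, hTC]
  have e4 : T (Ny : LaurentSeries K) = T (y : LaurentSeries K) *
      ∏ b : Fin q, twist (ζ ^ (b : ℕ)) (coeffMap φ (wy : LaurentSeries K)) := by
    rw [hTdef, hTdef]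
    exact hnorm
  have e5 : T (E : LaurentSeries K) * (T (y : LaurentSeries K) *
      T (coeffMap (σ : K →+* K) (wy : LaurentSeries K))) * HahnSeries.C (φ c) ^ q =
      T (Ny : LaurentSeries K) * HahnSeries.C (φ (σ c)) := by
    have h1 := congrArg (fun x : ↥(modularFunctionFieldFullC K (M' * q)) =>
      T (x : LaurentSeries K)) hErel
    have h2 : ((E * (y * s34i47_coeffEquiv σ (M' * q) wy) *
        algebraMap K ↥(modularFunctionFieldFullC K (M' * q)) (c ^ q) :
        ↥(modularFunctionFieldFullC K (M' * q))) : LaurentSeries K) =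
        (E : LaurentSeries K) * ((y : LaurentSeries K) *
          coeffMap (σ : K →+* K) (wy : LaurentSeries K)) * HahnSeries.C (c ^ q) := by
      rw [← hcoeC]
      rfl
    have h3 : ((al97L_alpha K M' q Ny *
        algebraMap K ↥(modularFunctionFieldFullC K (M' * q)) (σ c) :
        ↥(modularFunctionFieldFullC K (M' * q))) : LaurentSeries K) =
        (Ny : LaurentSeries K) * HahnSeries.C (σ c) := by
      rw [← al97L_alpha_coe K M' q Ny, ← hcoeC]
      rfl
    simp only [h2, h3] at h1
    rw [map_mul, map_mul, map_mul, map_mul, hTC, hTC, map_pow, map_pow] at h1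
    exact h1
  -- the key relation `T E * (P * Y) = Q * X`
  have hTy0 : T (y : LaurentSeries K) ≠ 0 := by
    intro h0
    apply hy0
    rw [hTdef] at h0
    have h1 : coeffMap φ (y : LaurentSeries K) = 0 := qExpand_injective q (by
      rw [map_zero]; exact h0)
    have h2 : (y : LaurentSeries K) = 0 :=
      kn97_coeffMap_injective φ φ.injective (by rw [h1, map_zero])
    exact Subtype.ext h2
  have hC1 : (HahnSeries.C (φ (σ c)) : LaurentSeries Kbar) ≠ 0 := by
    intro h0
    have h1 := congrArg (fun z : LaurentSeries Kbar => z.coeff 0) h0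
    simp only [HahnSeries.C_apply, HahnSeries.coeff_single_same, HahnSeries.coeff_zero] at h1
    exact (map_ne_zero φ).mpr hσc h1
  have hC2 : (HahnSeries.C (φ c) : LaurentSeries Kbar) ^ q ≠ 0 := by
    apply pow_ne_zero
    intro h0
    have h1 := congrArg (fun z : LaurentSeries Kbar => z.coeff 0) h0
    simp only [HahnSeries.C_apply, HahnSeries.coeff_single_same, HahnSeries.coeff_zero] at h1
    exact (map_ne_zero φ).mpr hc h1
  have key : T (E : LaurentSeries K) *
      ((∏ b : Fin q, twist (ζ ^ (b : ℕ)) (coeffMap φ (coeffMap (algebraMap R K) s2))) *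
        T (coeffMap (algebraMap R K) t2σ)) =
      (∏ b : Fin q, twist (ζ ^ (b : ℕ)) (coeffMap φ (coeffMap (algebraMap R K) t2))) *
        T (coeffMap (algebraMap R K) s2σ) := by
    have hκ : T (y : LaurentSeries K) * HahnSeries.C (φ (σ c)) * HahnSeries.C (φ c) ^ q ≠ 0 :=
      mul_ne_zero (mul_ne_zero hTy0 hC1) hC2
    apply mul_right_cancel₀ hκ
    rw [e4] at e5
    linear_combination
      ((∏ b : Fin q, twist (ζ ^ (b : ℕ)) (coeffMap φ (coeffMap (algebraMap R K) s2))) *
        T (coeffMap (algebraMap R K) s2σ)) * e5 -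
      (T (E : LaurentSeries K) * T (y : LaurentSeries K) * HahnSeries.C (φ c) ^ q *
        (∏ b : Fin q, twist (ζ ^ (b : ℕ)) (coeffMap φ (coeffMap (algebraMap R K) s2)))) * e3 +
      (T (y : LaurentSeries K) * HahnSeries.C (φ (σ c)) *
        T (coeffMap (algebraMap R K) s2σ)) * e2
  -- conclude by the reduction criterion
  set r : R →+* k := ρ.comp ι with hr
  have hfrob : ∀ (x x' : LaurentSeries R),
      (∀ n, x'.coeff n - x.coeff n ^ q ∈ IsLocalRing.maximalIdeal R) →
      qExpand k q (coeffMap r x') = coeffMap r x ^ q := by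
    intro x x' hx
    rw [kn97_frobenius]
    congr 1
    ext n
    rw [coeffMap_coeff, coeffMap_coeff, coeffMap_coeff, frobenius_def]
    have h1 := (hρι _).mpr (hx n)
    have h2 : r (x'.coeff n - x.coeff n ^ q) = 0 := h1
    rw [map_sub, map_pow] at h2
    exact sub_eq_zero.mp h2
  have hprod : ∀ x : LaurentSeries R,
      coeffMap ρ (∏ b : Fin q, twist (ζB ^ (b : ℕ)) (coeffMap ι x)) = coeffMap r x ^ q := by
    intro x
    rw [map_prod]
    have h4 : ∀ b ∈ (Finset.univ : Finset (Fin q)),
        coeffMap ρ (twist (ζB ^ (b : ℕ)) (coeffMap ι x)) = coeffMap r x := by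
      intro b _
      rw [coeffMap_twist, map_pow, hρζ, one_pow, twist_one, coeffMap_coeffMap]
    rw [Finset.prod_congr rfl h4, Finset.prod_const, Finset.card_univ, Fintype.card_fin]
  have hqe : ∀ x : LaurentSeries R,
      coeffMap ρ (qExpand B q (coeffMap ι x)) = qExpand k q (coeffMap r x) := by
    intro x
    rw [coeffMap_qExpand, coeffMap_coeffMap]
  have hne : ∀ x : LaurentSeries R, coeffMap (IsLocalRing.residue R) x ≠ 0 →
      coeffMap r x ≠ 0 := by
    intro x hx h0
    apply hx
    ext n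
    have h1 := congrArg (fun z : LaurentSeries k => z.coeff n) h0
    simp only [coeffMap_coeff, HahnSeries.coeff_zero] at h1
    rw [coeffMap_coeff, HahnSeries.coeff_zero, IsLocalRing.residue_eq_zero_iff]
    exact (hρι _).mp h1
  refine ng97_nonunits_of_red j ι ρ hj hjι hρι (M' * q) q hπ (E - 1)
    ((∏ b : Fin q, twist (ζB ^ (b : ℕ)) (coeffMap ι s2)) * qExpand B q (coeffMap ι t2σ))
    ((∏ b : Fin q, twist (ζB ^ (b : ℕ)) (coeffMap ι t2)) * qExpand B q (coeffMap ι s2σ) -
      (∏ b : Fin q, twist (ζB ^ (b : ℕ)) (coeffMap ι s2)) * qExpand B q (coeffMap ι t2σ))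
    ?_ ?_ ?_
  · rw [map_mul, hprod, hqe, hfrob t2 t2σ ht2σ']
    exact mul_ne_zero (pow_ne_zero q (hne s2 hs2)) (pow_ne_zero q (hne t2 ht2))
  · rw [map_sub, map_mul, map_mul, hprod, hprod, hqe, hqe, hfrob t2 t2σ ht2σ',
      hfrob s2 s2σ hs2σ', mul_comm, sub_self]
  · have hE1 : (((E - 1 : ↥(modularFunctionFieldFullC K (M' * q))) : LaurentSeries K)) =
        (E : LaurentSeries K) - 1 := rfl
    have hPB : ∀ x : LaurentSeries R,
        coeffMap j (∏ b : Fin q, twist (ζB ^ (b : ℕ)) (coeffMap ι x)) =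
        ∏ b : Fin q, twist (ζ ^ (b : ℕ)) (coeffMap φ (coeffMap (algebraMap R K) x)) := by
      intro x
      rw [map_prod]
      exact Finset.prod_congr rfl (fun b _ => (htw b x).symm)
    have h1 : coeffMap j ((∏ b : Fin q, twist (ζB ^ (b : ℕ)) (coeffMap ι s2)) *
          qExpand B q (coeffMap ι t2σ)) =
        (∏ b : Fin q, twist (ζ ^ (b : ℕ)) (coeffMap φ (coeffMap (algebraMap R K) s2))) *
          T (coeffMap (algebraMap R K) t2σ) :=
      (map_mul (coeffMap j) _ _).trans (congrArg₂ (· * ·) (hPB s2) (hT t2σ).symm)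
    have h2 : coeffMap j ((∏ b : Fin q, twist (ζB ^ (b : ℕ)) (coeffMap ι t2)) *
          qExpand B q (coeffMap ι s2σ)) =
        (∏ b : Fin q, twist (ζ ^ (b : ℕ)) (coeffMap φ (coeffMap (algebraMap R K) t2))) *
          T (coeffMap (algebraMap R K) s2σ) :=
      (map_mul (coeffMap j) _ _).trans (congrArg₂ (· * ·) (hPB t2) (hT s2σ).symm)
    have hT1 : qExpand Kbar q (coeffMap (algebraMap K Kbar)
        ((E - 1 : ↥(modularFunctionFieldFullC K (M' * q))) : LaurentSeries K)) =
        T (E : LaurentSeries K) - 1 := by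
      rw [hE1, ← hTdef]
      exact (map_sub T _ _).trans (congrArg (fun z => T (E : LaurentSeries K) - z) (map_one T))
    calc _ = ((∏ b : Fin q, twist (ζ ^ (b : ℕ)) (coeffMap φ (coeffMap (algebraMap R K) s2))) *
          T (coeffMap (algebraMap R K) t2σ)) * (T (E : LaurentSeries K) - 1) :=
          congrArg₂ (· * ·) h1 hT1
      _ = (∏ b : Fin q, twist (ζ ^ (b : ℕ)) (coeffMap φ (coeffMap (algebraMap R K) t2))) *
            T (coeffMap (algebraMap R K) s2σ) -
          (∏ b : Fin q, twist (ζ ^ (b : ℕ)) (coeffMap φ (coeffMap (algebraMap R K) s2))) *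
            T (coeffMap (algebraMap R K) t2σ) := by
          linear_combination key
      _ = _ := ((map_sub (coeffMap j) _ _).trans (congrArg₂ (· - ·) h2 h1)).symm


omit [IsDomain R] [IsDiscreteValuationRing R] [Algebra R K] [IsFractionRing R K]
  [Algebra K Kbar] in
/-- **(N2)** The norm `N_α` commutes with the coefficientwise action of every automorphism of
`K`. -/
theorem ng97_norm_coeffEquiv (τ : K ≃+* K) (y : ↥(modularFunctionFieldFullC K (M' * q))) :
    letI := algebraAlong (al97L_alpha K M' q)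
    Algebra.norm ↥(modularFunctionFieldFullC K M') (s34i47_coeffEquiv τ (M' * q) y) =
      s34i47_coeffEquiv τ M' (Algebra.norm ↥(modularFunctionFieldFullC K M') y) := by
  letI := algebraAlong (al97L_alpha K M' q)
  have he : (algebraMap ↥(modularFunctionFieldFullC K M')
      ↥(modularFunctionFieldFullC K (M' * q))).comp
        ((s34i47_coeffEquiv τ M' :
          ↥(modularFunctionFieldFullC K M') ≃+* ↥(modularFunctionFieldFullC K M')) :
          ↥(modularFunctionFieldFullC K M') →+* ↥(modularFunctionFieldFullC K M')) =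
      ((s34i47_coeffEquiv τ (M' * q) :
        ↥(modularFunctionFieldFullC K (M' * q)) ≃+* ↥(modularFunctionFieldFullC K (M' * q))) :
        ↥(modularFunctionFieldFullC K (M' * q)) →+* ↥(modularFunctionFieldFullC K (M' * q))).comp
      (algebraMap ↥(modularFunctionFieldFullC K M') ↥(modularFunctionFieldFullC K (M' * q))) := by
    ext1 a
    exact Subtype.ext rfl
  have h := Algebra.norm_eq_of_equiv_equiv (s34i47_coeffEquiv τ M')
    (s34i47_coeffEquiv τ (M' * q)) he y
  rw [h, RingEquiv.apply_symm_apply]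

/-- **P-NORM**: the literal package `s35i62_Pkg_Norm` of `Iface62` ((1b), all three clauses,
general `k ∈ ℤ`). -/
theorem ng97_pkg_norm : s35i62_Pkg_Norm := by
  intro M' q _ _ hq hM' R K _ _ _ _ _ _ _ _ _ _ π hπ _ hqR _
  refine ⟨fun y => ng97_norm_beta M' q hq hM' y, fun τ y => ng97_norm_coeffEquiv M' q τ y, ?_⟩
  intro σ hσ y k hy0 hu hu'
  have hπK : algebraMap R K π ≠ 0 := by
    intro h0
    exact hπ.ne_zero ((IsFractionRing.injective R K) (by rw [h0, map_zero]))
  have hp0 : algebraMap K ↥(modularFunctionFieldFullC K (M' * q)) (algebraMap R K π) ≠ 0 :=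
    (map_ne_zero _).mpr hπK
  have hc : (algebraMap R K π) ^ k ≠ 0 := zpow_ne_zero k hπK
  have hwy : al97L_w (algebraMap K Kbar) M' q hq hM' y =
      algebraMap K ↥(modularFunctionFieldFullC K (M' * q)) ((algebraMap R K π) ^ k) *
        ((algebraMap K ↥(modularFunctionFieldFullC K (M' * q)) (algebraMap R K π)) ^ (-k) *
          al97L_w (algebraMap K Kbar) M' q hq hM' y) := by
    rw [map_zpow₀, ← mul_assoc, ← zpow_add₀ hp0, add_neg_cancel, zpow_zero, one_mul]
  have hcore := ng97_norm_unit_cong_nonunits M' q hq hM' hπ hqR σ hσ y hy0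
    ((algebraMap R K π) ^ k) hc _ hu hu' hwy
  have hconst : algebraMap K ↥(modularFunctionFieldFullC K (M' * q))
      (σ ((algebraMap R K π) ^ k) / ((algebraMap R K π) ^ k) ^ q) =
      (algebraMap K ↥(modularFunctionFieldFullC K (M' * q))
        (σ (algebraMap R K π) / algebraMap R K π ^ q)) ^ k := by
    have hk : σ ((algebraMap R K π) ^ k) / ((algebraMap R K π) ^ k) ^ q =
        (σ (algebraMap R K π) / algebraMap R K π ^ q) ^ k := by
      rw [div_zpow, map_zpow₀ σ (algebraMap R K π) k, ← zpow_natCast ((algebraMap R K π) ^ k) q,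
        ← zpow_mul, mul_comm, zpow_mul, zpow_natCast]
    rw [hk, map_zpow₀]
  rw [hconst] at hcore
  exact fi66_pi_inv_mul_mem (IsLocalRing.residue R) π (pk85_res_iff hπ) hπ.ne_zero _
    (pk85_HF K (M' * q) hπ) _ hcore

end ng97_pkg


end Fermat.Agent.S35
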