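import Mathlib

/-!
# S35 lab, chain B, row B2 (twin, helper49): `TH(x) ≡ 1 mod ϖ W` for every `x ≠ 0` — abstract form

Mathlib only.  Data: fields `F'`, `F` (function fields of the levels `M'`, `M' q`), subrings
`V' ⊆ F'`, `V ⊆ F` (the Gauss rings; `V = V_∞`), an element `ϖ` of `F` (the image of the
uniformiser) with `ϖ = α ϖ' = β ϖ'`, the degeneracy maps `α β : F' →+* F`, the Atkin–Lehner
involution `w`, the coefficientwise Frobenius lift `s` on `F` and `s'` on `F'`, and a function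
`N : F → F'` (the norm along `α`).  `ε = s ϖ / ϖ`.

helper22's operator (row 558): `TH x = s² x · (w s x)^(q+1) · x^q / (α N(w s x) · β N(s x))`.

Hypotheses = the literal shapes of the landed frame facts (`ff50_mem_Vinf`, `ff50_frob_Vinf`,
`al97L_w_*`) and of the unbalanced norm congruence B1 (row 559) with constants `c = ϖ^a`,
`c' = ϖ^b`:

`hB1 : x ≠ 0 → x/ϖ^a, w x/ϖ^b units of V →
   N x/(ϖ'^a ϖ'^(b q)) unit of V' ∧ ϖ⁻¹ (α (N x)/(ϖ^a ϖ^(b q)) − (x/ϖ^a) · s (w x/ϖ^b)) ∈ V`.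

Results:

* `tho49_TH_Vinf` : `TH x` is a unit of `V` with `ϖ⁻¹ (TH x − 1) ∈ V`, for every `x ≠ 0` with
  `x/ϖ^a`, `w x/ϖ^b` units of `V`;
* `tho49_TH_w` : `w (TH x) = TH (w x)`;
* `tho49_TH_one` : with discreteness (`∀ x ≠ 0, ∃ a, x/ϖ^a` unit of `V`):
  `ϖ⁻¹ (TH x − 1) ∈ V` and `ϖ⁻¹ (w (TH x) − 1) ∈ V` (i.e. `TH x ≡ 1` mod `ϖ V_∞` and mod
  `ϖ V_0`, `V_0 = w⁻¹ V_∞`), together with the unit clauses.
-/

set_option autoImplicit false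

namespace Fermat.Agent.S35

variable {F F' : Type*} [Field F] [Field F']

/-- `a` is a unit of the subring `V` (as an element of the field). -/
def tho49_IsU (V : Subring F) (a : F) : Prop := a ∈ V ∧ a⁻¹ ∈ V

/-- `a` is a principal unit of `V`: a unit with `a ≡ 1` modulo `ϖ V`. -/
def tho49_IsU1 (V : Subring F) (ϖ : F) (a : F) : Prop :=
  tho49_IsU V a ∧ ϖ⁻¹ * (a - 1) ∈ V

theorem tho49_IsU_one (V : Subring F) : tho49_IsU V 1 :=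
  ⟨V.one_mem, by rw [inv_one]; exact V.one_mem⟩

theorem tho49_IsU_mul {V : Subring F} {a b : F} (ha : tho49_IsU V a) (hb : tho49_IsU V b) :
    tho49_IsU V (a * b) :=
  ⟨V.mul_mem ha.1 hb.1, by rw [mul_inv]; exact V.mul_mem ha.2 hb.2⟩

theorem tho49_IsU_inv {V : Subring F} {a : F} (ha : tho49_IsU V a) : tho49_IsU V a⁻¹ :=
  ⟨ha.2, by rw [inv_inv]; exact ha.1⟩

theorem tho49_IsU_div {V : Subring F} {a b : F} (ha : tho49_IsU V a) (hb : tho49_IsU V b) :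
    tho49_IsU V (a / b) := by
  rw [div_eq_mul_inv]; exact tho49_IsU_mul ha (tho49_IsU_inv hb)

theorem tho49_IsU_pow {V : Subring F} {a : F} (ha : tho49_IsU V a) (n : ℕ) :
    tho49_IsU V (a ^ n) :=
  ⟨V.pow_mem ha.1 n, by rw [← inv_pow]; exact V.pow_mem ha.2 n⟩

theorem tho49_IsU_zpow {V : Subring F} {a : F} (ha : tho49_IsU V a) (n : ℤ) :
    tho49_IsU V (a ^ n) := by
  cases n with
  | ofNat n => rw [Int.ofNat_eq_natCast, zpow_natCast]; exact tho49_IsU_pow ha n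
  | negSucc n => rw [zpow_negSucc]; exact tho49_IsU_inv (tho49_IsU_pow ha _)

theorem tho49_IsU_map {G : Type*} [Field G] {V : Subring F} {W : Subring G} (φ : F →+* G)
    (h : ∀ y ∈ V, φ y ∈ W) {a : F} (ha : tho49_IsU V a) : tho49_IsU W (φ a) :=
  ⟨h _ ha.1, by rw [← map_inv₀]; exact h _ ha.2⟩

theorem tho49_IsU1_one (V : Subring F) (ϖ : F) : tho49_IsU1 V ϖ 1 :=
  ⟨tho49_IsU_one V, by rw [sub_self, mul_zero]; exact V.zero_mem⟩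

theorem tho49_IsU1_mul {V : Subring F} {ϖ a b : F} (ha : tho49_IsU1 V ϖ a)
    (hb : tho49_IsU1 V ϖ b) : tho49_IsU1 V ϖ (a * b) := by
  refine ⟨tho49_IsU_mul ha.1 hb.1, ?_⟩
  have h : ϖ⁻¹ * (a * b - 1) = ϖ⁻¹ * (a - 1) * b + ϖ⁻¹ * (b - 1) := by ring
  rw [h]
  exact V.add_mem (V.mul_mem ha.2 hb.1.1) hb.2

theorem tho49_IsU1_inv {V : Subring F} {ϖ a : F} (ha : tho49_IsU1 V ϖ a) :
    tho49_IsU1 V ϖ a⁻¹ := by
  rcases eq_or_ne a 0 with rfl | ha0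
  · simpa using ha
  refine ⟨tho49_IsU_inv ha.1, ?_⟩
  have h : ϖ⁻¹ * (a⁻¹ - 1) = -(ϖ⁻¹ * (a - 1) * a⁻¹) := by
    field_simp
    ring
  rw [h]
  exact V.neg_mem (V.mul_mem ha.2 ha.1.2)

theorem tho49_IsU1_pow {V : Subring F} {ϖ a : F} (ha : tho49_IsU1 V ϖ a) (n : ℕ) :
    tho49_IsU1 V ϖ (a ^ n) := by
  induction n with
  | zero => rw [pow_zero]; exact tho49_IsU1_one V ϖ
  | succ n ih => rw [pow_succ]; exact tho49_IsU1_mul ih ha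

theorem tho49_IsU1_zpow {V : Subring F} {ϖ a : F} (ha : tho49_IsU1 V ϖ a) (n : ℤ) :
    tho49_IsU1 V ϖ (a ^ n) := by
  cases n with
  | ofNat n => rw [Int.ofNat_eq_natCast, zpow_natCast]; exact tho49_IsU1_pow ha n
  | negSucc n => rw [zpow_negSucc]; exact tho49_IsU1_inv (tho49_IsU1_pow ha _)

/-- A quotient of two congruent units is a principal unit. -/
theorem tho49_IsU1_of_cg {V : Subring F} {ϖ u v : F} (hu : tho49_IsU V u) (hv : tho49_IsU V v)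
    (hv0 : v ≠ 0) (h : ϖ⁻¹ * (u - v) ∈ V) : tho49_IsU1 V ϖ (u / v) := by
  refine ⟨tho49_IsU_div hu hv, ?_⟩
  have e : ϖ⁻¹ * (u / v - 1) = ϖ⁻¹ * (u - v) * v⁻¹ := by
    field_simp
  rw [e]
  exact V.mul_mem h hv.2

/-- Transport of principal units along a ring automorphism preserving `V` and `ϖ V`. -/
theorem tho49_IsU1_map {V : Subring F} {ϖ : F} (hϖ0 : ϖ ≠ 0) (ψ : F ≃+* F)
    (hψV : ∀ y ∈ V, ψ y ∈ V) (hψϖ : ϖ⁻¹ * ψ ϖ ∈ V) {a : F} (ha : tho49_IsU1 V ϖ a) :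
    tho49_IsU1 V ϖ (ψ a) := by
  refine ⟨tho49_IsU_map (ψ : F →+* F) hψV ha.1, ?_⟩
  have e : ϖ⁻¹ * (ψ a - 1) = ϖ⁻¹ * ψ ϖ * ψ (ϖ⁻¹ * (a - 1)) := by
    rw [map_mul, map_inv₀, map_sub, map_one]
    have h1 : ψ ϖ ≠ 0 := (map_ne_zero ψ).mpr hϖ0
    field_simp
  rw [e]
  exact V.mul_mem hψϖ (hψV _ ha.2)

/-- helper22's operator `TH` (row 558), with `N_β = N ∘ w`. -/
def tho49_TH (α β : F' →+* F) (w s : F ≃+* F) (N : F → F') (q : ℕ) (x : F) : F :=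
  s (s x) * (w (s x)) ^ (q + 1) * x ^ q / (α (N (w (s x))) * β (N (s x)))

/-- `w (TH x) = TH (w x)`. -/
theorem tho49_TH_w (α β : F' →+* F) (w s : F ≃+* F) (N : F → F') (q : ℕ)
    (hsw : ∀ y, s (w y) = w (s y)) (hww : ∀ y, w (w y) = y)
    (hwα : ∀ y, w (α y) = β y) (hwβ : ∀ y, w (β y) = α y) (x : F) :
    w (tho49_TH α β w s N q x) = tho49_TH α β w s N q (w x) := by
  unfold tho49_TH
  rw [map_div₀, map_mul, map_mul, map_mul, map_pow, map_pow, hwα, hwβ, hww, hsw x, hww,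
    ← hsw (s x), ← hsw x, mul_comm (β _) (α _)]

section Main

variable (V : Subring F) (V' : Subring F') (ϖ : F) (ϖ' : F') (ε : F)
  (α β : F' →+* F) (w s : F ≃+* F) (s' : F' ≃+* F') (N : F → F') (q : ℕ)

/-- The cancellation identity behind `tho49_TH_Vinf` (all letters are non-zero field elements). -/
theorem tho49_cancel (q : ℕ) {A B Ea Sa Z z2 x1 e2 e3 E1 : F} (hA : A ≠ 0) (hB : B ≠ 0)
    (hSa : Sa ≠ 0) (hZ : Z ≠ 0) (hz2 : z2 ≠ 0) (hx1 : x1 ≠ 0) (he2 : e2 ≠ 0)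
    (he3 : e3 ≠ 0) (hE1 : E1 ≠ 0) :
    A * Ea * Z * (B * z2) ^ (q + 1) * (A * x1) ^ q /
        (B * A ^ q * (e2 * (z2 * Z)) * (A * B ^ q * (e3 * (E1 * (Sa * x1 * z2)) ^ q))) =
      Ea / Sa ^ q * (e2 * e3 * E1 ^ q)⁻¹ := by
  have h1 : A ^ q ≠ 0 := pow_ne_zero _ hA
  have h2 : B ^ q ≠ 0 := pow_ne_zero _ hB
  have h3 : Sa ^ q ≠ 0 := pow_ne_zero _ hSa
  have h4 : E1 ^ q ≠ 0 := pow_ne_zero _ hE1
  have h5 : x1 ^ q ≠ 0 := pow_ne_zero _ hx1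
  have h6 : z2 ^ q ≠ 0 := pow_ne_zero _ hz2
  rw [mul_pow, mul_pow, mul_pow, mul_pow, mul_pow, pow_succ, pow_succ]
  field_simp

/-- **`TH x ≡ 1` modulo `ϖ V`** (`V = V_∞`), from the unbalanced norm congruence `hB1`, the
Frobenius congruence `hK` and `ε ≡ (s⁻¹ ε)^q`. -/
theorem tho49_TH_Vinf (hϖ0 : ϖ ≠ 0) (hαϖ : α ϖ' = ϖ) (hβϖ : β ϖ' = ϖ)
    (hsϖ : s ϖ = ϖ * ε) (hε : tho49_IsU V ε)
    (hεq : ϖ⁻¹ * (ε - (s.symm ε) ^ q) ∈ V)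
    (hsV : ∀ y, s y ∈ V ↔ y ∈ V) (hs'V : ∀ y, s' y ∈ V' ↔ y ∈ V')
    (hαV : ∀ y ∈ V', α y ∈ V) (hβV : ∀ y ∈ V', β y ∈ V)
    (hsα : ∀ y, s (α y) = α (s' y))
    (hsw : ∀ y, s (w y) = w (s y)) (hww : ∀ y, w (w y) = y)
    (hK : ∀ y ∈ V', ϖ⁻¹ * (β (s' y) - (α y) ^ q) ∈ V)
    (hN0 : ∀ x : F, x ≠ 0 → N x ≠ 0)
    (hB1 : ∀ x : F, x ≠ 0 → ∀ a b : ℤ, tho49_IsU V (x / ϖ ^ a) → tho49_IsU V (w x / ϖ ^ b) →
      tho49_IsU V' (N x / (ϖ' ^ a * ϖ' ^ (b * (q : ℤ)))) ∧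
      ϖ⁻¹ * (α (N x) / (ϖ ^ a * ϖ ^ (b * (q : ℤ))) - x / ϖ ^ a * s (w x / ϖ ^ b)) ∈ V)
    (x : F) (hx : x ≠ 0) (a b : ℤ) (hxa : tho49_IsU V (x / ϖ ^ a))
    (hxb : tho49_IsU V (w x / ϖ ^ b)) :
    tho49_IsU1 V ϖ (tho49_TH α β w s N q x) := by
  -- basic non-vanishing
  have hϖ'0 : ϖ' ≠ 0 := fun h => hϖ0 (by rw [← hαϖ, h, map_zero])
  have hε0 : ε ≠ 0 := by
    intro h
    have : s ϖ = 0 := by rw [hsϖ, h, mul_zero]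
    exact hϖ0 ((map_eq_zero s).mp this)
  have hA0 : ϖ ^ a ≠ 0 := zpow_ne_zero _ hϖ0
  have hB0 : ϖ ^ b ≠ 0 := zpow_ne_zero _ hϖ0
  -- transport of units
  have hsU : ∀ y, tho49_IsU V y → tho49_IsU V (s y) := fun y hy =>
    tho49_IsU_map (s : F →+* F) (fun t ht => (hsV t).mpr ht) hy
  have hsymV : ∀ y ∈ V, s.symm y ∈ V := fun y hy => by
    have := (hsV (s.symm y)); rw [RingEquiv.apply_symm_apply] at this; exact this.mp hy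
  have hsymU : ∀ y, tho49_IsU V y → tho49_IsU V (s.symm y) := fun y hy =>
    tho49_IsU_map (s.symm : F →+* F) hsymV hy
  have hs'symV : ∀ y ∈ V', s'.symm y ∈ V' := fun y hy => by
    have := (hs'V (s'.symm y)); rw [RingEquiv.apply_symm_apply] at this; exact this.mp hy
  have hαU : ∀ y, tho49_IsU V' y → tho49_IsU V (α y) := fun y hy => tho49_IsU_map α hαV hy
  have hβU : ∀ y, tho49_IsU V' y → tho49_IsU V (β y) := fun y hy => tho49_IsU_map β hβV hy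
  -- the unit parts of `x`, `w x`
  obtain ⟨x1, hx1⟩ : ∃ x1 : F, x1 = x / ϖ ^ a := ⟨_, rfl⟩
  obtain ⟨x2, hx2⟩ : ∃ x2 : F, x2 = w x / ϖ ^ b := ⟨_, rfl⟩
  rw [← hx1] at hxa
  rw [← hx2] at hxb
  have hx10 : x1 ≠ 0 := by rw [hx1]; exact div_ne_zero hx hA0
  have hwx0 : w x ≠ 0 := (map_ne_zero w).mpr hx
  have hx20 : x2 ≠ 0 := by rw [hx2]; exact div_ne_zero hwx0 hB0
  have hxe : x = ϖ ^ a * x1 := by rw [hx1]; field_simp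
  have hwxe : w x = ϖ ^ b * x2 := by rw [hx2]; field_simp
  -- the unit parts of `z = s x`, `w z`
  obtain ⟨z, hz⟩ : ∃ z : F, z = s x := ⟨_, rfl⟩
  have hz0 : z ≠ 0 := by rw [hz]; exact (map_ne_zero s).mpr hx
  have hwz0 : w z ≠ 0 := (map_ne_zero w).mpr hz0
  obtain ⟨z1, hz1⟩ : ∃ z1 : F, z1 = ε ^ a * s x1 := ⟨_, rfl⟩
  obtain ⟨z2, hz2⟩ : ∃ z2 : F, z2 = ε ^ b * s x2 := ⟨_, rfl⟩
  have hz1U : tho49_IsU V z1 := by
    rw [hz1]; exact tho49_IsU_mul (tho49_IsU_zpow hε a) (hsU _ hxa)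
  have hz2U : tho49_IsU V z2 := by
    rw [hz2]; exact tho49_IsU_mul (tho49_IsU_zpow hε b) (hsU _ hxb)
  have hz10 : z1 ≠ 0 := by
    rw [hz1]; exact mul_ne_zero (zpow_ne_zero _ hε0) ((map_ne_zero s).mpr hx10)
  have hz20 : z2 ≠ 0 := by
    rw [hz2]; exact mul_ne_zero (zpow_ne_zero _ hε0) ((map_ne_zero s).mpr hx20)
  have hze : z = ϖ ^ a * z1 := by
    rw [hz, hxe, map_mul, map_zpow₀, hsϖ, mul_zpow, hz1]; ring
  have hwze : w z = ϖ ^ b * z2 := by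
    rw [hz, ← hsw, hwxe, map_mul, map_zpow₀, hsϖ, mul_zpow, hz2]; ring
  have hz1e : z / ϖ ^ a = z1 := by rw [hze, mul_div_cancel_left₀ _ hA0]
  have hz2e : w z / ϖ ^ b = z2 := by rw [hwze, mul_div_cancel_left₀ _ hB0]
  -- B1 for `z` and for `w z`
  obtain ⟨hg1U, hc1⟩ := hB1 z hz0 a b (by rw [hz1e]; exact hz1U) (by rw [hz2e]; exact hz2U)
  obtain ⟨hg2U, hc2⟩ := hB1 (w z) hwz0 b a (by rw [hz2e]; exact hz2U)
    (by rw [hww, hz1e]; exact hz1U)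
  rw [hz1e, hz2e] at hc1
  rw [hz2e, hww, hz1e] at hc2
  have hA'0 : ϖ' ^ a * ϖ' ^ (b * (q : ℤ)) ≠ 0 :=
    mul_ne_zero (zpow_ne_zero _ hϖ'0) (zpow_ne_zero _ hϖ'0)
  have hB'0 : ϖ' ^ b * ϖ' ^ (a * (q : ℤ)) ≠ 0 :=
    mul_ne_zero (zpow_ne_zero _ hϖ'0) (zpow_ne_zero _ hϖ'0)
  obtain ⟨g1, hg1⟩ : ∃ g1 : F', g1 = N z / (ϖ' ^ a * ϖ' ^ (b * (q : ℤ))) := ⟨_, rfl⟩
  obtain ⟨g2, hg2⟩ : ∃ g2 : F', g2 = N (w z) / (ϖ' ^ b * ϖ' ^ (a * (q : ℤ))) := ⟨_, rfl⟩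
  rw [← hg1] at hg1U
  rw [← hg2] at hg2U
  have hg10 : g1 ≠ 0 := by rw [hg1]; exact div_ne_zero (hN0 z hz0) hA'0
  have hg20 : g2 ≠ 0 := by rw [hg2]; exact div_ne_zero (hN0 _ hwz0) hB'0
  have hNz : N z = ϖ' ^ a * ϖ' ^ (b * (q : ℤ)) * g1 := by rw [hg1]; field_simp
  have hNwz : N (w z) = ϖ' ^ b * ϖ' ^ (a * (q : ℤ)) * g2 := by rw [hg2]; field_simp
  have hαg1 : α (N z) / (ϖ ^ a * ϖ ^ (b * (q : ℤ))) = α g1 := by
    rw [hg1, map_div₀, map_mul, map_zpow₀, map_zpow₀, hαϖ]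
  have hαg2 : α (N (w z)) / (ϖ ^ b * ϖ ^ (a * (q : ℤ))) = α g2 := by
    rw [hg2, map_div₀, map_mul, map_zpow₀, map_zpow₀, hαϖ]
  rw [hαg1] at hc1
  rw [hαg2] at hc2
  -- the four principal units
  have hv1U : tho49_IsU V (z1 * s z2) := tho49_IsU_mul hz1U (hsU _ hz2U)
  have hsz20 : s z2 ≠ 0 := (map_ne_zero s).mpr hz20
  have hsz10 : s z1 ≠ 0 := (map_ne_zero s).mpr hz10
  have hv10 : z1 * s z2 ≠ 0 := mul_ne_zero hz10 hsz20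
  have hv2U : tho49_IsU V (z2 * s z1) := tho49_IsU_mul hz2U (hsU _ hz1U)
  have hv20 : z2 * s z1 ≠ 0 := mul_ne_zero hz20 hsz10
  obtain ⟨e1, he1d⟩ : ∃ e1 : F, e1 = α g1 / (z1 * s z2) := ⟨_, rfl⟩
  obtain ⟨e2, he2d⟩ : ∃ e2 : F, e2 = α g2 / (z2 * s z1) := ⟨_, rfl⟩
  have he1 : tho49_IsU1 V ϖ e1 := by
    rw [he1d]; exact tho49_IsU1_of_cg (hαU _ hg1U) hv1U hv10 hc1
  have he2 : tho49_IsU1 V ϖ e2 := by
    rw [he2d]; exact tho49_IsU1_of_cg (hαU _ hg2U) hv2U hv20 hc2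
  have hαg10 : α g1 ≠ 0 := (map_ne_zero α).mpr hg10
  have hαg20 : α g2 ≠ 0 := (map_ne_zero α).mpr hg20
  have he10 : e1 ≠ 0 := by rw [he1d]; exact div_ne_zero hαg10 hv10
  have he20 : e2 ≠ 0 := by rw [he2d]; exact div_ne_zero hαg20 hv20
  have hαg1e : α g1 = e1 * (z1 * s z2) := by rw [he1d]; field_simp
  have hαg2e : α g2 = e2 * (z2 * s z1) := by rw [he2d]; field_simp
  -- `e3`
  have hg1symU : tho49_IsU V' (s'.symm g1) :=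
    tho49_IsU_map (s'.symm : F' →+* F') hs'symV hg1U
  have hαsym : α (s'.symm g1) = s.symm (α g1) := by
    apply s.injective
    rw [hsα, RingEquiv.apply_symm_apply, RingEquiv.apply_symm_apply]
  have hv3U : tho49_IsU V ((α (s'.symm g1)) ^ q) := tho49_IsU_pow (hαU _ hg1symU) q
  have hv30 : (α (s'.symm g1)) ^ q ≠ 0 := by
    rw [hαsym]; exact pow_ne_zero _ ((map_ne_zero _).mpr hαg10)
  have hc3 : ϖ⁻¹ * (β g1 - (α (s'.symm g1)) ^ q) ∈ V := by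
    have := hK (s'.symm g1) hg1symU.1
    rwa [RingEquiv.apply_symm_apply] at this
  obtain ⟨e3, he3d⟩ : ∃ e3 : F, e3 = β g1 / (α (s'.symm g1)) ^ q := ⟨_, rfl⟩
  have he3 : tho49_IsU1 V ϖ e3 := by
    rw [he3d]; exact tho49_IsU1_of_cg (hβU _ hg1U) hv3U hv30 hc3
  have hβg10 : β g1 ≠ 0 := (map_ne_zero β).mpr hg10
  have he30 : e3 ≠ 0 := by rw [he3d]; exact div_ne_zero hβg10 hv30
  have hβg1e : β g1 = e3 * (α (s'.symm g1)) ^ q := by rw [he3d]; field_simp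
  -- `e4`
  have hsε0 : s.symm ε ≠ 0 := (map_ne_zero _).mpr hε0
  have hv4U : tho49_IsU V ((s.symm ε) ^ q) := tho49_IsU_pow (hsymU _ hε) q
  have he4 : tho49_IsU1 V ϖ (ε / (s.symm ε) ^ q) :=
    tho49_IsU1_of_cg hε hv4U (pow_ne_zero _ hsε0) hεq
  -- `s⁻¹ e1`
  have hsymϖ : s.symm ϖ = ϖ / s.symm ε := by
    have h1 : s.symm (s ϖ) = s.symm ϖ * s.symm ε := by rw [hsϖ, map_mul]
    rw [RingEquiv.symm_apply_apply] at h1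
    rw [eq_div_iff hsε0]; exact h1.symm
  have hψϖ : ϖ⁻¹ * s.symm ϖ ∈ V := by
    have h1 : ϖ⁻¹ * s.symm ϖ = (s.symm ε)⁻¹ := by rw [hsymϖ]; field_simp
    rw [h1]; exact (hsymU _ hε).2
  have hE1 : tho49_IsU1 V ϖ (s.symm e1) := tho49_IsU1_map hϖ0 s.symm hsymV hψϖ he1
  have hE10 : s.symm e1 ≠ 0 := (map_ne_zero _).mpr he10
  -- the identity
  have hsz : s z = ϖ ^ a * ε ^ a * s z1 := by
    rw [hze, map_mul, map_zpow₀, hsϖ, mul_zpow]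
  have hsymz1 : s.symm z1 = (s.symm ε) ^ a * x1 := by
    rw [hz1, map_mul, map_zpow₀, RingEquiv.symm_apply_apply]
  have hαN2 : α (N (w z)) = ϖ ^ b * (ϖ ^ a) ^ q * (e2 * (z2 * s z1)) := by
    rw [hNwz, map_mul, map_mul, map_zpow₀, map_zpow₀, hαϖ, hαg2e, zpow_mul, zpow_natCast]
  have hβN1 : β (N z) =
      ϖ ^ a * (ϖ ^ b) ^ q * (e3 * (s.symm e1 * ((s.symm ε) ^ a * x1 * z2)) ^ q) := by
    rw [hNz, map_mul, map_mul, map_zpow₀, map_zpow₀, hβϖ, hβg1e, hαsym, hαg1e, map_mul,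
      map_mul, RingEquiv.symm_apply_apply, hsymz1, zpow_mul, zpow_natCast]
  have hTH : tho49_TH α β w s N q x =
      (ε / (s.symm ε) ^ q) ^ a * (e2 * e3 * (s.symm e1) ^ q)⁻¹ := by
    unfold tho49_TH
    rw [← hz, hαN2, hβN1, hsz, hwze]
    conv_lhs => rw [hxe]
    rw [tho49_cancel q hA0 hB0 (zpow_ne_zero a hsε0) hsz10 hz20 hx10 he20 he30 hE10, div_zpow,
      ← zpow_natCast ((s.symm ε) ^ a) q, ← zpow_mul, mul_comm a (q : ℤ), zpow_mul, zpow_natCast]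
  rw [hTH]
  exact tho49_IsU1_mul (tho49_IsU1_zpow he4 a)
    (tho49_IsU1_inv (tho49_IsU1_mul (tho49_IsU1_mul he2 he3) (tho49_IsU1_pow hE1 q)))

/-- **B2, abstract form: `TH x ≡ 1` modulo `ϖ V_∞` and modulo `ϖ V_0`** (`V_0 = w⁻¹ V_∞`), for
every `x ≠ 0`. -/
theorem tho49_TH_one (hϖ0 : ϖ ≠ 0) (hαϖ : α ϖ' = ϖ) (hβϖ : β ϖ' = ϖ)
    (hsϖ : s ϖ = ϖ * ε) (hε : tho49_IsU V ε)
    (hεq : ϖ⁻¹ * (ε - (s.symm ε) ^ q) ∈ V)
    (hsV : ∀ y, s y ∈ V ↔ y ∈ V) (hs'V : ∀ y, s' y ∈ V' ↔ y ∈ V')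
    (hαV : ∀ y ∈ V', α y ∈ V) (hβV : ∀ y ∈ V', β y ∈ V)
    (hsα : ∀ y, s (α y) = α (s' y))
    (hsw : ∀ y, s (w y) = w (s y)) (hww : ∀ y, w (w y) = y)
    (hwα : ∀ y, w (α y) = β y) (hwβ : ∀ y, w (β y) = α y)
    (hK : ∀ y ∈ V', ϖ⁻¹ * (β (s' y) - (α y) ^ q) ∈ V)
    (hN0 : ∀ x : F, x ≠ 0 → N x ≠ 0)
    (hval : ∀ x : F, x ≠ 0 → ∃ a : ℤ, tho49_IsU V (x / ϖ ^ a))
    (hB1 : ∀ x : F, x ≠ 0 → ∀ a b : ℤ, tho49_IsU V (x / ϖ ^ a) → tho49_IsU V (w x / ϖ ^ b) →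
      tho49_IsU V' (N x / (ϖ' ^ a * ϖ' ^ (b * (q : ℤ)))) ∧
      ϖ⁻¹ * (α (N x) / (ϖ ^ a * ϖ ^ (b * (q : ℤ))) - x / ϖ ^ a * s (w x / ϖ ^ b)) ∈ V)
    (x : F) (hx : x ≠ 0) :
    tho49_IsU1 V ϖ (tho49_TH α β w s N q x) ∧
      tho49_IsU1 V ϖ (w (tho49_TH α β w s N q x)) := by
  have hwx : w x ≠ 0 := (map_ne_zero w).mpr hx
  obtain ⟨a, ha⟩ := hval x hx
  obtain ⟨b, hb⟩ := hval (w x) hwx
  refine ⟨tho49_TH_Vinf V V' ϖ ϖ' ε α β w s s' N q hϖ0 hαϖ hβϖ hsϖ hε hεq hsV hs'V hαV hβV hsα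
    hsw hww hK hN0 hB1 x hx a b ha hb, ?_⟩
  rw [tho49_TH_w α β w s N q hsw hww hwα hwβ]
  exact tho49_TH_Vinf V V' ϖ ϖ' ε α β w s s' N q hϖ0 hαϖ hβϖ hsϖ hε hεq hsV hs'V hαV hβV hsα
    hsw hww hK hN0 hB1 (w x) hwx b a hb (by rw [hww]; exact ha)

end Main

end Fermat.Agent.S35
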