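import Fermat.Agent.S35.Iface62
import Fermat.Agent.S35.PkgFrameFrob68
import Fermat.Agent.S35.THOneAbs49
import Fermat.Agent.S34.AtkinLehnerVal97
import Fermat.Agent.S18.GaussPack55

/-!
# S35 lab, chain B, row B2 (twin, helper49): `TH(x) ≡ 1 mod π W` on the canonical frame

Binding of the abstract `tho49_TH_one` (`THOneAbs49`) to the canonical frame of `Iface47c` /
`Iface62`: `V_∞ = cm85_Vinf (M' q)`, `V' = cm85_Vinf M'`, `w = al97L_w`, `α = al97L_alpha`,
`β = al97L_beta`, `ŝ = s34i47_coeffEquiv σ`, `N = s35i62_normA` (norm along `α`).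

* `tho49_THK M' q hq hM' σ : F_K(M' q) →*₀ F_K(M' q)` — helper22's operator
  `TH x = ŝ² x · (w ŝ x)^(q+1) · x^q / (α N(w ŝ x) · β N(ŝ x))` as a monoid-with-zero hom;
* `tho49_THOne M' q hq hM' : Prop` — for every frame, every Frobenial `σ` and every `x ≠ 0`:
  `π⁻¹ (TH x − 1) ∈ W = s34i47c_W`;
* `tho49_THOne_of` : `s35i62_FrameFrob M' q hq hM' → s35i62_NormProps M' q hq hM' → tho49_THOne`;
* `tho49_pkg_THOne` : `s35i62_Pkg_Norm → ∀ M' q hq hM', tho49_THOne M' q hq hM'`
  (FRAME-FROB is on main: `pff68_pkg_frameFrob`).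
-/

set_option autoImplicit false
set_option linter.style.longLine false
set_option linter.unusedVariables false
set_option linter.unusedSectionVars false

open ModularCurve AlgebraicCurve

namespace Fermat.Agent.S35

open Fermat.Agent.S18 Fermat.Agent.S34

local notation "Q̄" => AlgebraicClosure ℚ

/-! ### `TH` as a monoid-with-zero hom (abstract) -/

/-- `TH` as a monoid-with-zero hom, for a multiplicative `N`. -/
noncomputable def tho49_THhom {F F' : Type*} [Field F] [Field F'] (α β : F' →+* F)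
    (w s : F ≃+* F) (N : F →* F') (q : ℕ) : F →*₀ F where
  toFun := tho49_TH α β w s N q
  map_zero' := by
    unfold tho49_TH
    rw [map_zero, map_zero, zero_mul, zero_mul, zero_div]
  map_one' := by
    unfold tho49_TH
    simp only [map_one, one_pow, mul_one, div_one]
  map_mul' x y := by
    unfold tho49_TH
    simp only [map_mul, mul_pow]
    rw [div_mul_div_comm]
    congr 1 <;> ring

theorem tho49_THhom_apply {F F' : Type*} [Field F] [Field F'] (α β : F' →+* F)
    (w s : F ≃+* F) (N : F →* F') (q : ℕ) (x : F) :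
    tho49_THhom α β w s N q x = tho49_TH α β w s N q x := rfl

/-! ### The canonical frame -/

section Frame

variable {R K : Type} [CommRing R] [IsDomain R] [IsDiscreteValuationRing R] [Field K]
  [Algebra R K] [IsFractionRing R K]

/-- Constants of `K` lying in the Gauss ring come from `R`. -/
theorem tho49_const_mem (M : ℕ) [NeZero M] [Algebra R ↥(modularFunctionFieldFullC K M)]
    [IsScalarTower R K ↥(modularFunctionFieldFullC K M)] {π : R} (hπ : Irreducible π) (c : K)
    (hc : algebraMap K ↥(modularFunctionFieldFullC K M) c ∈ cm85_Vinf (K := K) M hπ) :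
    ∃ r : R, algebraMap R K r = c := by
  by_cases hc0 : c = 0
  · exact ⟨0, by rw [map_zero, hc0]⟩
  rcases ValuationRing.isInteger_or_isInteger R c with ⟨r, hr⟩ | ⟨r, hr⟩
  · exact ⟨r, hr⟩
  · by_cases hru : IsUnit r
    · obtain ⟨u, rfl⟩ := hru
      refine ⟨((u⁻¹ : Rˣ) : R), ?_⟩
      have h1 : algebraMap R K (u : R) * algebraMap R K ((u⁻¹ : Rˣ) : R) = 1 := by
        rw [← map_mul, Units.mul_inv, map_one]
      have h2 : c = (algebraMap R K (u : R))⁻¹ := by
        have h3 : algebraMap R K (u : R) = c⁻¹ := hr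
        rw [h3, inv_inv]
      rw [h2]
      exact (eq_inv_of_mul_eq_one_right h1)
    · exfalso
      have hrm : r ∈ IsLocalRing.maximalIdeal R := (IsLocalRing.mem_maximalIdeal r).mpr hru
      rw [hπ.maximalIdeal_eq, Ideal.mem_span_singleton] at hrm
      obtain ⟨t, rfl⟩ := hrm
      have hr' : algebraMap R K (π * t) = c⁻¹ := hr
      apply c1g55_pi_inv_not_mem (R := R) (K := K) (M := M) hπ
      have h4 : (algebraMap R ↥(modularFunctionFieldFullC K M) π)⁻¹ =
          algebraMap K ↥(modularFunctionFieldFullC K M) c *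
            algebraMap R ↥(modularFunctionFieldFullC K M) t := by
        apply inv_eq_of_mul_eq_one_right
        rw [IsScalarTower.algebraMap_apply R K ↥(modularFunctionFieldFullC K M) t,
          IsScalarTower.algebraMap_apply R K ↥(modularFunctionFieldFullC K M) π, ← map_mul,
          ← map_mul, mul_left_comm, ← map_mul, hr', mul_inv_cancel₀ hc0, map_one]
      rw [h4]
      exact (cm85_Vinf (K := K) M hπ).mul_mem _ _ hc (c1g55_algebraMap_mem hπ t)

/-- Units of `R` are units of the Gauss ring. -/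
theorem tho49_unit_const (M : ℕ) [NeZero M] [Algebra R ↥(modularFunctionFieldFullC K M)]
    [IsScalarTower R K ↥(modularFunctionFieldFullC K M)] {π : R} (hπ : Irreducible π) (u : Rˣ) :
    tho49_IsU (cm85_Vinf (K := K) M hπ).toSubring
      (algebraMap K ↥(modularFunctionFieldFullC K M) (algebraMap R K (u : R))) := by
  have h1 : algebraMap K ↥(modularFunctionFieldFullC K M) (algebraMap R K (u : R)) *
      algebraMap K ↥(modularFunctionFieldFullC K M) (algebraMap R K ((u⁻¹ : Rˣ) : R)) = 1 := by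
    rw [← map_mul, ← map_mul, Units.mul_inv, map_one, map_one]
  refine ⟨?_, ?_⟩
  · rw [← IsScalarTower.algebraMap_apply R K ↥(modularFunctionFieldFullC K M)]
    exact c1g55_algebraMap_mem hπ _
  · rw [inv_eq_of_mul_eq_one_right h1,
      ← IsScalarTower.algebraMap_apply R K ↥(modularFunctionFieldFullC K M)]
    exact c1g55_algebraMap_mem hπ _

/-- **Discreteness of the Gauss valuation**: every nonzero `x` is `π^a` times a unit of `V_∞`. -/
theorem tho49_hval (M : ℕ) [NeZero M] [Algebra R ↥(modularFunctionFieldFullC K M)]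
    [IsScalarTower R K ↥(modularFunctionFieldFullC K M)] {π : R} (hπ : Irreducible π)
    (x : ↥(modularFunctionFieldFullC K M)) (hx : x ≠ 0) :
    ∃ a : ℤ, tho49_IsU (cm85_Vinf (K := K) M hπ).toSubring
      (x / (algebraMap K ↥(modularFunctionFieldFullC K M) (algebraMap R K π)) ^ a) := by
  obtain ⟨a, b, c, hc0, ha, hb, hab⟩ := c1g55_HF R K M hπ x hx
  have hxL : (x : LaurentSeries K) ≠ 0 := fun h => hx (Subtype.ext h)
  have hCc : (HahnSeries.C c : LaurentSeries K) ≠ 0 := HahnSeries.C_ne_zero hc0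
  -- `y = x / c` is a unit of `V`
  have hy : tho49_IsU (cm85_Vinf (K := K) M hπ).toSubring
      (x / algebraMap K ↥(modularFunctionFieldFullC K M) c) := by
    have hcoe : (((x / algebraMap K ↥(modularFunctionFieldFullC K M) c :
        ↥(modularFunctionFieldFullC K M)) : ↥(modularFunctionFieldFullC K M)) : LaurentSeries K) =
        (x : LaurentSeries K) / HahnSeries.C c := by
      rw [IntermediateField.coe_div, gv85_coe_algebraMap]
    refine ⟨?_, ?_⟩
    · refine (gv85_mem_V _ _ _ _).mpr ⟨b, a, hb, ?_⟩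
      rw [hcoe, mul_div_assoc', mul_comm, hab]
      field_simp
    · refine (gv85_mem_V _ _ _ _).mpr ⟨a, b, ha, ?_⟩
      rw [IntermediateField.coe_inv, hcoe, inv_div, mul_div_assoc', mul_comm, ← hab]
      field_simp
  -- `c = unit * π ^ k`
  obtain ⟨x0, y0, hy0, hxy⟩ := IsFractionRing.div_surjective (A := R) c
  have hy00 : y0 ≠ 0 := nonZeroDivisors.ne_zero hy0
  have hx00 : x0 ≠ 0 := by
    rintro rfl
    rw [map_zero, zero_div] at hxy
    exact hc0 hxy.symm
  obtain ⟨m, u, hu⟩ := IsDiscreteValuationRing.eq_unit_mul_pow_irreducible hx00 hπ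
  obtain ⟨n, v, hv⟩ := IsDiscreteValuationRing.eq_unit_mul_pow_irreducible hy00 hπ
  have hπK : algebraMap R K π ≠ 0 := fun h =>
    hπ.ne_zero (IsFractionRing.injective R K (by rw [h, map_zero]))
  have hvK : algebraMap R K (v : R) ≠ 0 := fun h =>
    v.ne_zero (IsFractionRing.injective R K (by rw [h, map_zero]))
  have hc : c = algebraMap R K ((u * v⁻¹ : Rˣ) : R) * (algebraMap R K π) ^ ((m : ℤ) - n) := by
    have hvv : algebraMap R K ((v⁻¹ : Rˣ) : R) = (algebraMap R K (v : R))⁻¹ := by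
      apply eq_inv_of_mul_eq_one_left
      rw [← map_mul, Units.inv_mul, map_one]
    rw [← hxy, hu, hv, map_mul, map_mul, map_pow, map_pow, Units.val_mul, map_mul, hvv,
      zpow_sub₀ hπK, zpow_natCast, zpow_natCast]
    field_simp
  refine ⟨(m : ℤ) - n, ?_⟩
  have hkey : x / (algebraMap K ↥(modularFunctionFieldFullC K M) (algebraMap R K π)) ^
        ((m : ℤ) - n) =
      x / algebraMap K ↥(modularFunctionFieldFullC K M) c *
        algebraMap K ↥(modularFunctionFieldFullC K M)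
          (algebraMap R K ((u * v⁻¹ : Rˣ) : R)) := by
    have hcF : algebraMap K ↥(modularFunctionFieldFullC K M) c ≠ 0 :=
      (map_ne_zero _).mpr hc0
    have hπF : algebraMap K ↥(modularFunctionFieldFullC K M) (algebraMap R K π) ≠ 0 :=
      (map_ne_zero _).mpr hπK
    have huF : algebraMap K ↥(modularFunctionFieldFullC K M)
        (algebraMap R K ((u * v⁻¹ : Rˣ) : R)) ≠ 0 := by
      apply (map_ne_zero _).mpr
      intro h
      exact (u * v⁻¹).ne_zero (IsFractionRing.injective R K (by rw [h, map_zero]))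
    have hcF' : algebraMap K ↥(modularFunctionFieldFullC K M) c =
        algebraMap K ↥(modularFunctionFieldFullC K M) (algebraMap R K ((u * v⁻¹ : Rˣ) : R)) *
          (algebraMap K ↥(modularFunctionFieldFullC K M) (algebraMap R K π)) ^ ((m : ℤ) - n) := by
      conv_lhs => rw [hc]
      rw [map_mul, map_zpow₀]
    rw [hcF']
    have hz : (algebraMap K ↥(modularFunctionFieldFullC K M) (algebraMap R K π)) ^
        ((m : ℤ) - n) ≠ 0 := zpow_ne_zero _ hπF
    field_simp
  rw [hkey]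
  exact tho49_IsU_mul hy (tho49_unit_const M hπ _)

end Frame

/-! ### The operator on the canonical frame and B2 -/

/-- helper22's operator `TH` on the canonical frame, as a monoid-with-zero hom:
`TH x = ŝ² x · (w ŝ x)^(q+1) · x^q / (α N_α(w ŝ x) · β N_α(ŝ x))`. -/
noncomputable def tho49_THK (K : Type) [Field K] [Algebra K Q̄] (M' q : ℕ) [NeZero M'] [NeZero q]
    (hq : q.Prime) (hM' : ¬ q ∣ M') (σ : K ≃+* K) :
    ↥(modularFunctionFieldFullC K (M' * q)) →*₀ ↥(modularFunctionFieldFullC K (M' * q)) :=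
  tho49_THhom
    ((al97L_alpha K M' q : ↥(modularFunctionFieldFullC K M') →ₐ[K]
      ↥(modularFunctionFieldFullC K (M' * q))) :
      ↥(modularFunctionFieldFullC K M') →+* ↥(modularFunctionFieldFullC K (M' * q)))
    ((al97L_beta K M' q : ↥(modularFunctionFieldFullC K M') →ₐ[K]
      ↥(modularFunctionFieldFullC K (M' * q))) :
      ↥(modularFunctionFieldFullC K M') →+* ↥(modularFunctionFieldFullC K (M' * q)))
    (al97L_w (algebraMap K Q̄) M' q hq hM').toRingEquiv
    (s34i47_coeffEquiv σ (M' * q)) (s35i62_normA K M' q) q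

theorem tho49_THK_apply (K : Type) [Field K] [Algebra K Q̄] (M' q : ℕ) [NeZero M'] [NeZero q]
    (hq : q.Prime) (hM' : ¬ q ∣ M') (σ : K ≃+* K) (x : ↥(modularFunctionFieldFullC K (M' * q))) :
    tho49_THK K M' q hq hM' σ x =
      s34i47_coeffEquiv σ (M' * q) (s34i47_coeffEquiv σ (M' * q) x) *
          (al97L_w (algebraMap K Q̄) M' q hq hM' (s34i47_coeffEquiv σ (M' * q) x)) ^ (q + 1) *
          x ^ q /
        (al97L_alpha K M' q (s35i62_normA K M' q
            (al97L_w (algebraMap K Q̄) M' q hq hM' (s34i47_coeffEquiv σ (M' * q) x))) *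
          al97L_beta K M' q (s35i62_normA K M' q (s34i47_coeffEquiv σ (M' * q) x))) :=
  rfl

/-- **B2 (chain B)**: `TH x ≡ 1` modulo `π W` for every `x ≠ 0`, on every frame. -/
def tho49_THOne (M' q : ℕ) [NeZero M'] [NeZero q] (hq : q.Prime) (hM' : ¬ q ∣ M') : Prop :=
  ∀ (R K : Type) [CommRing R] [IsDomain R] [IsDiscreteValuationRing R] [Field K] [NumberField K]
    [Algebra K Q̄] [Algebra R K] [IsFractionRing R K]
    [Algebra R ↥(modularFunctionFieldFullC K (M' * q))]
    [IsScalarTower R K ↥(modularFunctionFieldFullC K (M' * q))] (π : R) (hπ : Irreducible π),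
    (∀ n : ℕ, Nat.Coprime n q → IsUnit (n : R)) → ¬ IsUnit (q : R) →
    (∃ ζ : K, IsPrimitiveRoot ζ q) →
    ∀ σ : K ≃+* K, s35i62_Frobenial R q σ →
      ∀ x : ↥(modularFunctionFieldFullC K (M' * q)), x ≠ 0 →
        (algebraMap R ↥(modularFunctionFieldFullC K (M' * q)) π)⁻¹ *
            (tho49_THK K M' q hq hM' σ x - 1) ∈ s34i47c_W (K := K) M' q hq hM' hπ

/-- **B2 from FRAME-FROB and NORM** (literal `Iface62` Props). -/
theorem tho49_THOne_of (M' q : ℕ) [NeZero M'] [NeZero q] (hq : q.Prime) (hM' : ¬ q ∣ M')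
    (hFrob : s35i62_FrameFrob M' q hq hM') (hNorm : s35i62_NormProps M' q hq hM') :
    tho49_THOne M' q hq hM' := by
  intro R K _ _ _ _ _ _ _ _ _ _ π hπ hunit hqR hζ σ hσ x hx
  obtain ⟨hF0, hF0', hF1, hF2a, hF2b, hF3, -⟩ := hFrob R K π hπ hunit hqR σ hσ
  obtain ⟨-, -, hN3⟩ := hNorm R K π hπ hunit hqR hζ
  have hN3σ := hN3 σ hσ
  have hσ' : ff50_Frob R q σ := hσ
  -- notation
  have hπK : algebraMap R K π ≠ 0 := fun h =>
    hπ.ne_zero (IsFractionRing.injective R K (by rw [h, map_zero]))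
  obtain ⟨ϖ, hϖ⟩ : ∃ ϖ : ↥(modularFunctionFieldFullC K (M' * q)),
      ϖ = algebraMap K ↥(modularFunctionFieldFullC K (M' * q)) (algebraMap R K π) := ⟨_, rfl⟩
  obtain ⟨u, hu⟩ : ∃ u : K, u = σ (algebraMap R K π) / algebraMap R K π := ⟨_, rfl⟩
  have hσπ : σ (algebraMap R K π) = algebraMap R K π * u := by
    rw [hu, mul_div_cancel₀ _ hπK]
  have hϖ0 : ϖ ≠ 0 := by rw [hϖ]; exact (map_ne_zero _).mpr hπK
  have hsϖ : s34i47_coeffEquiv σ (M' * q) ϖ =
      ϖ * algebraMap K ↥(modularFunctionFieldFullC K (M' * q)) u := by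
    rw [hϖ, al97V_coeffEquiv_algebraMap, hσπ, map_mul]
  have hsϖ0 : s34i47_coeffEquiv σ (M' * q) ϖ ≠ 0 := (map_ne_zero _).mpr hϖ0
  have hϖR : ϖ = algebraMap R ↥(modularFunctionFieldFullC K (M' * q)) π := by
    rw [hϖ, ← IsScalarTower.algebraMap_apply R K ↥(modularFunctionFieldFullC K (M' * q))]
  have hϖV : ϖ ∈ cm85_Vinf (K := K) (M' * q) hπ := by
    rw [hϖR]; exact c1g55_algebraMap_mem hπ π
  have hϖinv : ϖ⁻¹ ∉ cm85_Vinf (K := K) (M' * q) hπ := by
    rw [hϖR]; exact c1g55_pi_inv_not_mem hπ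
  -- `ε` is a unit of `V`
  have hεeq : algebraMap K ↥(modularFunctionFieldFullC K (M' * q)) u =
      s34i47_coeffEquiv σ (M' * q) ϖ / ϖ := by
    rw [hsϖ, mul_div_cancel_left₀ _ hϖ0]
  have hε : tho49_IsU (cm85_Vinf (K := K) (M' * q) hπ).toSubring
      (algebraMap K ↥(modularFunctionFieldFullC K (M' * q)) u) := by
    refine ⟨?_, ?_⟩
    · rw [hεeq]
      exact ff50_div_mem_Vinf (M' * q) hq.ne_zero hπ σ hσ' ϖ hϖ0
    · rw [hεeq, inv_div]
      exact ff50_inv_div_mem_Vinf (M' * q) hq.ne_zero hπ σ hσ' ϖ hϖ0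
  -- `ε ≡ (ŝ⁻¹ ε)^q`
  have hsymε : (s34i47_coeffEquiv σ (M' * q)).symm
      (algebraMap K ↥(modularFunctionFieldFullC K (M' * q)) u) =
      algebraMap K ↥(modularFunctionFieldFullC K (M' * q)) (σ.symm u) := by
    rw [RingEquiv.symm_apply_eq, al97V_coeffEquiv_algebraMap, RingEquiv.apply_symm_apply]
  have hεq : ϖ⁻¹ * (algebraMap K ↥(modularFunctionFieldFullC K (M' * q)) u -
      ((s34i47_coeffEquiv σ (M' * q)).symm
        (algebraMap K ↥(modularFunctionFieldFullC K (M' * q)) u)) ^ q) ∈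
      (cm85_Vinf (K := K) (M' * q) hπ).toSubring := by
    have hmem : algebraMap K ↥(modularFunctionFieldFullC K (M' * q)) (σ.symm u) ∈
        cm85_Vinf (K := K) (M' * q) hπ := by
      rw [hF0, al97V_coeffEquiv_algebraMap, RingEquiv.apply_symm_apply]
      exact hε.1
    obtain ⟨r1, hr1⟩ := tho49_const_mem (M' * q) hπ (σ.symm u) hmem
    obtain ⟨r', hr'1, hr'2⟩ := hσ r1
    rw [hr1, RingEquiv.apply_symm_apply] at hr'1
    rw [hπ.maximalIdeal_eq, Ideal.mem_span_singleton] at hr'2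
    obtain ⟨t, ht⟩ := hr'2
    have hkey : ϖ⁻¹ * (algebraMap K ↥(modularFunctionFieldFullC K (M' * q)) u -
        ((s34i47_coeffEquiv σ (M' * q)).symm
          (algebraMap K ↥(modularFunctionFieldFullC K (M' * q)) u)) ^ q) =
        algebraMap R ↥(modularFunctionFieldFullC K (M' * q)) t := by
      rw [hsymε, ← hr1, hr'1, ← map_pow, ← map_pow, ← map_sub, ← map_sub, ht, map_mul, map_mul,
        ← hϖ, ← mul_assoc, inv_mul_cancel₀ hϖ0, one_mul,
        ← IsScalarTower.algebraMap_apply R K ↥(modularFunctionFieldFullC K (M' * q))]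
    rw [hkey]
    exact c1g55_algebraMap_mem hπ t
  -- `1 + ϖ V ⊆ Vˣ`
  have hprinc : ∀ T : ↥(modularFunctionFieldFullC K (M' * q)),
      ϖ⁻¹ * (T - 1) ∈ cm85_Vinf (K := K) (M' * q) hπ →
      tho49_IsU (cm85_Vinf (K := K) (M' * q) hπ).toSubring T := by
    intro T hT
    have hTV : T ∈ cm85_Vinf (K := K) (M' * q) hπ := by
      have h1 : T = 1 + ϖ * (ϖ⁻¹ * (T - 1)) := by
        rw [← mul_assoc, mul_inv_cancel₀ hϖ0, one_mul]; ring
      rw [h1]
      exact (cm85_Vinf (K := K) (M' * q) hπ).add_mem _ _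
        (cm85_Vinf (K := K) (M' * q) hπ).one_mem
        ((cm85_Vinf (K := K) (M' * q) hπ).mul_mem _ _ hϖV hT)
    refine ⟨hTV, ?_⟩
    by_contra hTinv
    have h2 : ϖ⁻¹ * T ∈ cm85_Vinf (K := K) (M' * q) hπ := by
      rw [hϖR]; exact c1g55_hmax hπ T hTV hTinv
    apply hϖinv
    have h3 : ϖ⁻¹ = ϖ⁻¹ * T - ϖ⁻¹ * (T - 1) := by ring
    rw [h3]
    exact (cm85_Vinf (K := K) (M' * q) hπ).sub_mem h2 hT
  -- the constant of (N3)
  have hc0 : algebraMap K ↥(modularFunctionFieldFullC K (M' * q))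
      (σ (algebraMap R K π) / algebraMap R K π ^ q) =
      s34i47_coeffEquiv σ (M' * q) ϖ / ϖ ^ q := by
    rw [hϖ, al97V_coeffEquiv_algebraMap, map_div₀, map_pow]
  -- (N3) in the shape of `tho49_TH_one`
  have hB1 : ∀ y : ↥(modularFunctionFieldFullC K (M' * q)), y ≠ 0 → ∀ a b : ℤ,
      tho49_IsU (cm85_Vinf (K := K) (M' * q) hπ).toSubring (y / ϖ ^ a) →
      tho49_IsU (cm85_Vinf (K := K) (M' * q) hπ).toSubring
        (al97L_w (algebraMap K Q̄) M' q hq hM' y / ϖ ^ b) →
      tho49_IsU (cm85_Vinf (K := K) M' hπ).toSubring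
        (s35i62_normA K M' q y /
          ((algebraMap K ↥(modularFunctionFieldFullC K M') (algebraMap R K π)) ^ a *
            (algebraMap K ↥(modularFunctionFieldFullC K M') (algebraMap R K π)) ^
              (b * (q : ℤ)))) ∧
      ϖ⁻¹ * (al97L_alpha K M' q (s35i62_normA K M' q y) / (ϖ ^ a * ϖ ^ (b * (q : ℤ))) -
        y / ϖ ^ a * s34i47_coeffEquiv σ (M' * q)
          (al97L_w (algebraMap K Q̄) M' q hq hM' y / ϖ ^ b)) ∈
        (cm85_Vinf (K := K) (M' * q) hπ).toSubring := by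
    intro y hy a b hya hyb
    have hwy0 : al97L_w (algebraMap K Q̄) M' q hq hM' y ≠ 0 := (map_ne_zero _).mpr hy
    have hswy0 : s34i47_coeffEquiv σ (M' * q) (al97L_w (algebraMap K Q̄) M' q hq hM' y) ≠ 0 :=
      (map_ne_zero _).mpr hwy0
    have hT := hN3σ y b hy (by rw [← hϖ, zpow_neg, inv_mul_eq_div]; exact hyb.1)
      (by rw [← hϖ, zpow_neg, inv_mul_eq_div]; exact hyb.2)
    rw [hc0, ← hϖ] at hT
    obtain ⟨T, hTd⟩ : ∃ T : ↥(modularFunctionFieldFullC K (M' * q)),
        T = al97L_alpha K M' q (s35i62_normA K M' q y) /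
          (y * s34i47_coeffEquiv σ (M' * q) (al97L_w (algebraMap K Q̄) M' q hq hM' y)) *
          (s34i47_coeffEquiv σ (M' * q) ϖ / ϖ ^ q) ^ b := ⟨_, rfl⟩
    rw [← hTd] at hT
    have hTU := hprinc T hT
    obtain ⟨v, hvd⟩ : ∃ v : ↥(modularFunctionFieldFullC K (M' * q)),
        v = y / ϖ ^ a * s34i47_coeffEquiv σ (M' * q)
          (al97L_w (algebraMap K Q̄) M' q hq hM' y / ϖ ^ b) := ⟨_, rfl⟩
    have hvU : tho49_IsU (cm85_Vinf (K := K) (M' * q) hπ).toSubring v := by
      rw [hvd]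
      refine tho49_IsU_mul hya ⟨(hF0 _).mp hyb.1, ?_⟩
      rw [← map_inv₀]
      exact (hF0 _).mp hyb.2
    have hkey : al97L_alpha K M' q (s35i62_normA K M' q y) / (ϖ ^ a * ϖ ^ (b * (q : ℤ))) =
        T * v := by
      have hcomm : (ϖ ^ b) ^ q = (ϖ ^ q) ^ b := by
        rw [← zpow_natCast (ϖ ^ b) q, ← zpow_mul, mul_comm b (q : ℤ), zpow_mul, zpow_natCast]
      rw [hTd, hvd, map_div₀, map_zpow₀, div_zpow, zpow_mul, zpow_natCast, hcomm]
      have h1 : ϖ ^ a ≠ 0 := zpow_ne_zero _ hϖ0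
      have h2 : (ϖ ^ q) ^ b ≠ 0 := zpow_ne_zero _ (pow_ne_zero _ hϖ0)
      have h3 : (s34i47_coeffEquiv σ (M' * q) ϖ) ^ b ≠ 0 := zpow_ne_zero _ hsϖ0
      field_simp
    refine ⟨?_, ?_⟩
    · -- the unit clause, through `α`
      have hαg : al97L_alpha K M' q (s35i62_normA K M' q y /
          ((algebraMap K ↥(modularFunctionFieldFullC K M') (algebraMap R K π)) ^ a *
            (algebraMap K ↥(modularFunctionFieldFullC K M') (algebraMap R K π)) ^
              (b * (q : ℤ)))) = T * v := by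
        rw [map_div₀, map_mul, map_zpow₀, map_zpow₀, AlgHom.commutes, ← hϖ, hkey]
      have hTv := tho49_IsU_mul hTU hvU
      rw [← hαg] at hTv
      refine ⟨(al97V_alpha_mem_Vinf M' q hπ _).mp hTv.1, ?_⟩
      have h5 := hTv.2
      rw [← map_inv₀] at h5
      exact (al97V_alpha_mem_Vinf M' q hπ _).mp h5
    · rw [hkey, ← hvd]
      have h6 : ϖ⁻¹ * (T * v - v) = ϖ⁻¹ * (T - 1) * v := by ring
      rw [h6]
      exact (cm85_Vinf (K := K) (M' * q) hπ).mul_mem _ _ hT hvU.1
  -- the norm does not vanish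
  have hN0 : ∀ y : ↥(modularFunctionFieldFullC K (M' * q)), y ≠ 0 →
      s35i62_normA K M' q y ≠ 0 := by
    intro y hy hN
    have hwy0 : al97L_w (algebraMap K Q̄) M' q hq hM' y ≠ 0 := (map_ne_zero _).mpr hy
    obtain ⟨b, hb⟩ := tho49_hval (M' * q) hπ _ hwy0
    rw [← hϖ] at hb
    have hT := hN3σ y b hy (by rw [← hϖ, zpow_neg, inv_mul_eq_div]; exact hb.1)
      (by rw [← hϖ, zpow_neg, inv_mul_eq_div]; exact hb.2)
    rw [hN, map_zero, zero_div, zero_mul, zero_sub, mul_neg, mul_one, ← hϖ] at hT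
    exact hϖinv (by simpa using (cm85_Vinf (K := K) (M' * q) hπ).neg_mem _ hT)
  -- apply the abstract theorem
  obtain ⟨h1, h2⟩ := tho49_TH_one (cm85_Vinf (K := K) (M' * q) hπ).toSubring
    (cm85_Vinf (K := K) M' hπ).toSubring ϖ
    (algebraMap K ↥(modularFunctionFieldFullC K M') (algebraMap R K π))
    (algebraMap K ↥(modularFunctionFieldFullC K (M' * q)) u)
    ((al97L_alpha K M' q : ↥(modularFunctionFieldFullC K M') →ₐ[K]
      ↥(modularFunctionFieldFullC K (M' * q))) :
      ↥(modularFunctionFieldFullC K M') →+* ↥(modularFunctionFieldFullC K (M' * q)))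
    ((al97L_beta K M' q : ↥(modularFunctionFieldFullC K M') →ₐ[K]
      ↥(modularFunctionFieldFullC K (M' * q))) :
      ↥(modularFunctionFieldFullC K M') →+* ↥(modularFunctionFieldFullC K (M' * q)))
    (al97L_w (algebraMap K Q̄) M' q hq hM').toRingEquiv
    (s34i47_coeffEquiv σ (M' * q)) (s34i47_coeffEquiv σ M') (s35i62_normA K M' q) q
    hϖ0
    (by rw [hϖ]; exact AlgHom.commutes (al97L_alpha K M' q) _)
    (by rw [hϖ]; exact AlgHom.commutes (al97L_beta K M' q) _)
    hsϖ hε hεq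
    (fun y => (hF0 y).symm) (fun y => (hF0' y).symm)
    (fun y hy => (al97V_alpha_mem_Vinf M' q hπ y).mpr hy)
    (fun y hy => (al97V_beta_mem_Vinf M' q hπ y).mpr hy)
    hF2a hF1 (al97L_w_w (algebraMap K Q̄) M' q hq hM')
    (al97L_w_alpha_apply (algebraMap K Q̄) M' q hq hM')
    (al97L_w_beta_apply (algebraMap K Q̄) M' q hq hM')
    (fun y hy => by rw [hϖ]; exact hF3 y hy)
    hN0 (fun y hy => by rw [hϖ]; exact tho49_hval (M' * q) hπ y hy) hB1 x hx
  rw [s34i47c_mem_W, ← hϖR]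
  refine ⟨h1.2, ?_⟩
  have h3 : al97L_w (algebraMap K Q̄) M' q hq hM' (ϖ⁻¹ * (tho49_THK K M' q hq hM' σ x - 1)) =
      ϖ⁻¹ * (al97L_w (algebraMap K Q̄) M' q hq hM' (tho49_THK K M' q hq hM' σ x) - 1) := by
    rw [map_mul, map_inv₀, map_sub, map_one, hϖ, AlgEquiv.commutes]
  rw [h3]
  exact h2.2

/-- **B2 for every level from P-NORM alone** (FRAME-FROB is `pff68_pkg_frameFrob`). -/
theorem tho49_pkg_THOne (hNorm : s35i62_Pkg_Norm) (M' q : ℕ) [NeZero M'] [NeZero q]
    (hq : q.Prime) (hM' : ¬ q ∣ M') : tho49_THOne M' q hq hM' :=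
  tho49_THOne_of M' q hq hM' (pff68_pkg_frameFrob M' q hq hM') (hNorm M' q hq hM')

end Fermat.Agent.S35
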