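import Fermat.Agent.S35.CoreTHAsm84
import Fermat.Agent.S35.THOneFrame49
import Fermat.Agent.S35.PkgNorm97

/-!
# S35 lab, chain B, row 565 (helper84, twin): binding of (T2) and P-NORM into the assembly

`CoreTHAsm84` proves `cth84_pkg_core_of : (T2) → node transport → P-NORM → s35i62_Pkg_Core`.
Here the first and the third input are discharged from main:

* `cth84_TH_eq` : `cth84_TH` is helper49's `tho49_THK` (definitional);
* `cth84_TH1_all` : (T2) = `cth84_TH1 M' q hq hM'` for all `M'`, `q` (from `tho49_pkg_THOne`,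
  `THOneFrame49`, and `ng97_pkg_norm`, `PkgNorm97`);
* `cth84_pkg_core_of_nodeTr` : **the literal `s35i62_Pkg_Core` of `Iface62` from the node
  transport `cth84_NodeTr` alone** (row 563 at the nodes).
-/

set_option autoImplicit false
set_option linter.style.longLine false
set_option linter.unusedVariables false

open ModularCurve AlgebraicCurve

namespace Fermat.Agent.S35

open Fermat.Agent.S18 Fermat.Agent.S34

local notation "Q̄" => AlgebraicClosure ℚ

/-- `cth84_TH` is helper49's `tho49_THK`. -/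
theorem cth84_TH_eq (K : Type) [Field K] [Algebra K Q̄] (M' q : ℕ) [NeZero M'] [NeZero q]
    (hq : q.Prime) (hM' : ¬ q ∣ M') (σ : K ≃+* K)
    (x : ↥(modularFunctionFieldFullC K (M' * q))) :
    cth84_TH K M' q hq hM' σ x = tho49_THK K M' q hq hM' σ x := rfl

/-- **(T2)** on the canonical frame, from P-NORM. -/
theorem cth84_TH1_of_norm (hNorm : s35i62_Pkg_Norm) (M' q : ℕ) [NeZero M'] [NeZero q]
    (hq : q.Prime) (hM' : ¬ q ∣ M') : cth84_TH1 M' q hq hM' := by
  intro R K _ _ _ _ _ _ _ _ _ _ π hπ hunit hqR hζ σ hσ x hx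
  exact tho49_pkg_THOne hNorm M' q hq hM' R K π hπ hunit hqR hζ σ hσ x hx

/-- **(T2)** on the canonical frame (no hypothesis). -/
theorem cth84_TH1_all (M' q : ℕ) [NeZero M'] [NeZero q] (hq : q.Prime) (hM' : ¬ q ∣ M') :
    cth84_TH1 M' q hq hM' :=
  cth84_TH1_of_norm ng97_pkg_norm M' q hq hM'

/-- **P-CORE through chain B from the node transport alone.** -/
theorem cth84_pkg_core_of_nodeTr
    (hTr : ∀ (M' q : ℕ) [NeZero M'] [NeZero q] (hq : q.Prime) (hM' : ¬ q ∣ M'),
      cth84_NodeTr M' q hq hM') : s35i62_Pkg_Core :=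
  cth84_pkg_core_of (fun M' q _ _ hq hM' => cth84_TH1_all M' q hq hM') hTr ng97_pkg_norm

end Fermat.Agent.S35
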