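import Mathlib

/-!
# S35 lab, row N-cores (helper58): corestriction (transfer) on `Hom(·, A)`, abstract part

Mathlib only.  Two-group version of the "transfer-type" operators of `S16/HeckeAbs`:

* `cor58_Reps H Γ G ι` : a finite system `α i ∈ G` of representatives such that the union of
  the cosets `H α i` is stable under right multiplication by `Γ` (`H`, `Γ` mapped to `G` by
  `inclH`, `inclΓ`); cocycle `κ i γ ∈ H`, permutation `σ γ` with
  `α i * γ = κ i γ * α (σ γ i)`.
* `cor58_Reps.op A : (Additive H →+ A) →+ (Additive Γ →+ A)`, `φ ↦ (γ ↦ ∑ i, φ (κ i γ))`.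
* `op_comp` (functoriality in `A`), `op_period` / `op_char` (the period / character of
  `∑ i, F (α i • z)` / `∏ i, F (α i • z)`), `op_eq_sum` (the value can be computed with ANY
  solution `(σ', κ')` of the coset equations), `op_congr` (independence of the representatives),
  `op_eq_zero_of_fix` (vanishing criterion used for parabolic homomorphisms).
* `cor58_ofHom f hf` : the system of right coset representatives of `f.range` in `Γ` for an
  injective `f : H →* Γ` with range of finite index; `cor58_cores f hf A` the corestriction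
  (= transfer) `Hom(H, A) → Hom(Γ, A)`; `cor58_cores_eq_sum` : its value through ANY complete
  system of right coset representatives.
-/

set_option autoImplicit false
set_option linter.style.haveILetI false
set_option linter.unusedSectionVars false

namespace Fermat.Agent.S35

/-- `∏ ζ ^ e i = ζ ^ ∑ e i` for integer exponents. -/
theorem cor58_prod_zpow {G : Type*} [CommGroup G] {ι : Type*} (s : Finset ι) (ζ : G)
    (e : ι → ℤ) : ∏ i ∈ s, ζ ^ e i = ζ ^ ∑ i ∈ s, e i := by
  classical
  induction s using Finset.induction_on with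
  | empty => simp
  | insert a s ha ih => rw [Finset.prod_insert ha, Finset.sum_insert ha, zpow_add, ih]

/-- A finite system of representatives `α i ∈ G` (pairwise distinct `H`-cosets `H α i`) whose
union of cosets is stable under right multiplication by `Γ`. -/
structure cor58_Reps (H Γ G ι : Type) [Group H] [Group Γ] [Group G] where
  inclH : H →* G
  inclH_inj : Function.Injective inclH
  inclΓ : Γ →* G
  α : ι → G
  ex : ∀ (i : ι) (γ : Γ), ∃ (j : ι) (k : H), α i * inclΓ γ = inclH k * α j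
  uniq : ∀ (i j : ι) (k : H), α i = inclH k * α j → i = j

namespace cor58_Reps

variable {H Γ G ι : Type} [Group H] [Group Γ] [Group G] (R : cor58_Reps H Γ G ι)

/-- The permutation of the index set induced by `γ`. -/
noncomputable def σ (γ : Γ) (i : ι) : ι := (R.ex i γ).choose

/-- The cocycle: `α i * γ = κ i γ * α (σ γ i)`. -/
noncomputable def κ (i : ι) (γ : Γ) : H := (R.ex i γ).choose_spec.choose

theorem spec (i : ι) (γ : Γ) : R.α i * R.inclΓ γ = R.inclH (R.κ i γ) * R.α (R.σ γ i) :=
  (R.ex i γ).choose_spec.choose_spec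

theorem unique {i j : ι} {γ : Γ} {k : H} (h : R.α i * R.inclΓ γ = R.inclH k * R.α j) :
    R.σ γ i = j ∧ R.κ i γ = k := by
  have h1 := R.spec i γ
  rw [h] at h1
  have h2 : R.α j = R.inclH (k⁻¹ * R.κ i γ) * R.α (R.σ γ i) := by
    rw [map_mul, map_inv, mul_assoc, ← h1, inv_mul_cancel_left]
  have hj : j = R.σ γ i := R.uniq _ _ _ h2
  subst hj
  refine ⟨rfl, ?_⟩
  have h3 : R.inclH k = R.inclH (R.κ i γ) := mul_right_cancel h1
  exact (R.inclH_inj h3).symm

theorem σ_one (i : ι) : R.σ 1 i = i :=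
  (R.unique (i := i) (j := i) (γ := 1) (k := 1) (by simp)).1

theorem κ_one (i : ι) : R.κ i 1 = 1 :=
  (R.unique (i := i) (j := i) (γ := 1) (k := 1) (by simp)).2

theorem σκ_mul (γ δ : Γ) (i : ι) :
    R.σ (γ * δ) i = R.σ δ (R.σ γ i) ∧ R.κ i (γ * δ) = R.κ i γ * R.κ (R.σ γ i) δ := by
  apply R.unique
  rw [map_mul, ← mul_assoc, R.spec i γ, mul_assoc, R.spec (R.σ γ i) δ, map_mul, mul_assoc]

theorem σ_mul (γ δ : Γ) (i : ι) : R.σ (γ * δ) i = R.σ δ (R.σ γ i) := (R.σκ_mul γ δ i).1

theorem κ_mul (γ δ : Γ) (i : ι) : R.κ i (γ * δ) = R.κ i γ * R.κ (R.σ γ i) δ :=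
  (R.σκ_mul γ δ i).2

/-- `σ γ` as a permutation. -/
noncomputable def σEquiv (γ : Γ) : ι ≃ ι where
  toFun := R.σ γ
  invFun := R.σ γ⁻¹
  left_inv i := by rw [← R.σ_mul, mul_inv_cancel, R.σ_one]
  right_inv i := by rw [← R.σ_mul, inv_mul_cancel, R.σ_one]

@[simp] theorem σEquiv_apply (γ : Γ) (i : ι) : R.σEquiv γ i = R.σ γ i := rfl

theorem σEquiv_pow (γ : Γ) (n : ℕ) : R.σEquiv (γ ^ n) = (R.σEquiv γ) ^ n := by
  induction n with
  | zero =>
      ext i
      simp [R.σ_one]
  | succ n ih =>
      ext i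
      rw [pow_succ, σEquiv_apply, R.σ_mul, pow_succ', Equiv.Perm.mul_apply, ← ih]
      rfl

variable [Fintype ι]

/-- The corestriction-type operator `Hom(H, A) → Hom(Γ, A)` attached to the system of
representatives. -/
noncomputable def op (A : Type*) [AddCommGroup A] :
    (Additive H →+ A) →+ (Additive Γ →+ A) where
  toFun φ :=
    { toFun := fun γ => ∑ i, φ (Additive.ofMul (R.κ i (Additive.toMul γ)))
      map_zero' := by
        simp only [toMul_zero, R.κ_one, ofMul_one, map_zero, Finset.sum_const_zero]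
      map_add' := fun γ δ => by
        simp only [toMul_add, R.κ_mul, ofMul_mul, map_add, Finset.sum_add_distrib]
        congr 1
        exact Equiv.sum_comp (R.σEquiv (Additive.toMul γ))
          (fun j => φ (Additive.ofMul (R.κ j (Additive.toMul δ)))) }
  map_zero' := by
    refine AddMonoidHom.ext fun γ => ?_
    simp
  map_add' φ ψ := by
    refine AddMonoidHom.ext fun γ => ?_
    simp [Finset.sum_add_distrib]

theorem op_apply {A : Type*} [AddCommGroup A] (φ : Additive H →+ A) (γ : Γ) :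
    R.op A φ (Additive.ofMul γ) = ∑ i, φ (Additive.ofMul (R.κ i γ)) := rfl

/-- Functoriality in the coefficient group. -/
theorem op_comp {A B : Type*} [AddCommGroup A] [AddCommGroup B] (g : A →+ B)
    (φ : Additive H →+ A) : R.op B (g.comp φ) = g.comp (R.op A φ) := by
  refine AddMonoidHom.ext fun γ => ?_
  obtain ⟨γ, rfl⟩ := Additive.ofMul.surjective γ
  rw [AddMonoidHom.comp_apply, op_apply, op_apply, map_sum]
  rfl

/-- The value of `op φ` at `γ` through ANY solution `(σ', κ')` of the coset equations. -/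
theorem op_eq_sum {A : Type*} [AddCommGroup A] (φ : Additive H →+ A) (γ : Γ)
    (σ' : ι → ι) (κ' : ι → H) (h : ∀ i, R.α i * R.inclΓ γ = R.inclH (κ' i) * R.α (σ' i)) :
    R.op A φ (Additive.ofMul γ) = ∑ i, φ (Additive.ofMul (κ' i)) := by
  rw [op_apply]
  exact Finset.sum_congr rfl (fun i _ => by rw [(R.unique (h i)).2])

/-- The period computation: if `F` is a "primitive" with periods `φ` on `H`, then
`∑ i, F (α i • ·)` is a primitive with periods `op φ` on `Γ`. -/
theorem op_period {A : Type*} [AddCommGroup A] {Z : Type*} [MulAction G Z] (F : Z → A)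
    (φ : Additive H →+ A)
    (hF : ∀ (k : H) (z : Z), F (R.inclH k • z) - F z = φ (Additive.ofMul k))
    (γ : Γ) (z : Z) :
    (∑ i, F (R.α i • R.inclΓ γ • z)) - ∑ i, F (R.α i • z) = R.op A φ (Additive.ofMul γ) := by
  rw [op_apply]
  have h1 : ∀ i, F (R.α i • R.inclΓ γ • z) =
      φ (Additive.ofMul (R.κ i γ)) + F (R.α (R.σ γ i) • z) := by
    intro i
    rw [← mul_smul, R.spec i γ, mul_smul, ← hF (R.κ i γ) (R.α (R.σ γ i) • z)]
    abel
  rw [Finset.sum_congr rfl (fun i _ => h1 i), Finset.sum_add_distrib]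
  have h2 : ∑ i, F (R.α (R.σ γ i) • z) = ∑ i, F (R.α i • z) :=
    Equiv.sum_comp (R.σEquiv γ) (fun j => F (R.α j • z))
  rw [h2]
  abel

/-- The character computation (multiplicative form of `op_period`): if `F` transforms under `H`
by the factor `χ`, then `∏ i, F (α i • ·)` transforms under `Γ` by `∏ i, χ (κ i γ)`. -/
theorem op_char {M : Type*} [CommMonoid M] {Z : Type*} [MulAction G Z] (F : Z → M)
    (χ : H → M) (hF : ∀ (k : H) (z : Z), F (R.inclH k • z) = χ k * F z)
    (γ : Γ) (z : Z) :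
    ∏ i, F (R.α i • R.inclΓ γ • z) = (∏ i, χ (R.κ i γ)) * ∏ i, F (R.α i • z) := by
  have h1 : ∀ i, F (R.α i • R.inclΓ γ • z) = χ (R.κ i γ) * F (R.α (R.σ γ i) • z) := by
    intro i
    rw [← mul_smul, R.spec i γ, mul_smul, hF]
  rw [Finset.prod_congr rfl (fun i _ => h1 i), Finset.prod_mul_distrib]
  congr 1
  exact Equiv.prod_comp (R.σEquiv γ) (fun j => F (R.α j • z))

/-- Exponential form of `op_char`: if `F (k • z) = ζ ^ c k * F z` for an integer-valued
homomorphism `c` of `H` and a unit `ζ`, then `∏ i, F (α i • ·)` has the character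
`ζ ^ (op c)`. -/
theorem op_char_zpow {M : Type*} [CommMonoid M] {Z : Type*} [MulAction G Z] (F : Z → M)
    (ζ : Mˣ) (c : Additive H →+ ℤ)
    (hF : ∀ (k : H) (z : Z), F (R.inclH k • z) = ((ζ ^ c (Additive.ofMul k) : Mˣ) : M) * F z)
    (γ : Γ) (z : Z) :
    ∏ i, F (R.α i • R.inclΓ γ • z) =
      ((ζ ^ (R.op ℤ c (Additive.ofMul γ)) : Mˣ) : M) * ∏ i, F (R.α i • z) := by
  rw [R.op_char F (fun k => ((ζ ^ c (Additive.ofMul k) : Mˣ) : M)) hF γ z, op_apply]
  congr 1
  rw [← Units.coe_prod, cor58_prod_zpow]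

/-- **Independence of the representatives.**  Two systems of representatives (same `inclH`,
`inclΓ`) whose cosets correspond bijectively give the same operator. -/
theorem op_congr {ι' : Type} [Fintype ι'] (R' : cor58_Reps H Γ G ι')
    (hH : R'.inclH = R.inclH) (hΓ : R'.inclΓ = R.inclΓ)
    (π : ι → ι') (hπ : Function.Bijective π) (g : ι → H)
    (hα : ∀ i : ι, R.α i = R.inclH (g i) * R'.α (π i))
    {A : Type*} [AddCommGroup A] (φ : Additive H →+ A) : R.op A φ = R'.op A φ := by
  classical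
  let πe : ι ≃ ι' := Equiv.ofBijective π hπ
  have key : ∀ (i : ι) (γ : Γ), R'.σ γ (π i) = π (R.σ γ i) ∧
      R'.κ (π i) γ = (g i)⁻¹ * R.κ i γ * g (R.σ γ i) := by
    intro i γ
    apply R'.unique
    have h1 := R.spec i γ
    rw [hα i, hα (R.σ γ i)] at h1
    rw [hH, hΓ, map_mul, map_mul, map_inv]
    have h2 : R'.α (π i) * R.inclΓ γ =
        (R.inclH (g i))⁻¹ * (R.inclH (g i) * R'.α (π i) * R.inclΓ γ) := by group
    rw [h2, h1]
    group
  refine AddMonoidHom.ext fun γ => ?_
  obtain ⟨γ, rfl⟩ := Additive.ofMul.surjective γ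
  rw [op_apply, op_apply]
  have e1 : ∑ j, φ (Additive.ofMul (R'.κ j γ)) = ∑ i, φ (Additive.ofMul (R'.κ (π i) γ)) :=
    (Equiv.sum_comp πe (fun j => φ (Additive.ofMul (R'.κ j γ)))).symm
  rw [e1]
  have e2 : ∀ i, φ (Additive.ofMul (R'.κ (π i) γ)) =
      φ (Additive.ofMul (R.κ i γ)) + (φ (Additive.ofMul (g (R.σ γ i)))
        - φ (Additive.ofMul (g i))) := by
    intro i
    rw [(key i γ).2, ofMul_mul, ofMul_mul, ofMul_inv, map_add, map_add, map_neg]
    abel
  rw [Finset.sum_congr rfl (fun i _ => e2 i), Finset.sum_add_distrib, Finset.sum_sub_distrib]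
  have e3 : ∑ i, φ (Additive.ofMul (g (R.σ γ i))) = ∑ i, φ (Additive.ofMul (g i)) :=
    Equiv.sum_comp (R.σEquiv γ) (fun j => φ (Additive.ofMul (g j)))
  rw [e3, sub_self, add_zero]

/-- **Vanishing criterion** (used for parabolic homomorphisms).  Let `PΓ` be a property of
elements of `Γ` stable under powers and `PH` a property of elements of `H` such that `k` has
`PH` whenever `α i * γ = k * α i` with `PΓ γ`.  If `φ` vanishes on `PH` and `A` is
torsion-free, then `op φ` vanishes on `PΓ`. -/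
theorem op_eq_zero_of_fix {A : Type*} [AddCommGroup A] [IsAddTorsionFree A]
    (PH : H → Prop) (PΓ : Γ → Prop) (hpow : ∀ (γ : Γ) (n : ℕ), PΓ γ → PΓ (γ ^ n))
    (hconj : ∀ (γ : Γ) (i : ι) (k : H), PΓ γ → R.α i * R.inclΓ γ = R.inclH k * R.α i → PH k)
    (φ : Additive H →+ A) (hφ : ∀ k : H, PH k → φ (Additive.ofMul k) = 0)
    (γ : Γ) (hγ : PΓ γ) : R.op A φ (Additive.ofMul γ) = 0 := by
  classical
  set n := orderOf (R.σEquiv γ) with hn
  have hnpos : 0 < n := orderOf_pos (R.σEquiv γ)
  have hσ : ∀ i, R.σ (γ ^ n) i = i := by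
    intro i
    have h1 : R.σEquiv (γ ^ n) = 1 := by rw [R.σEquiv_pow, hn, pow_orderOf_eq_one]
    have h2 := congrArg (fun e : ι ≃ ι => e i) h1
    simpa using h2
  have h0 : R.op A φ (Additive.ofMul (γ ^ n)) = 0 := by
    rw [op_apply]
    refine Finset.sum_eq_zero fun i _ => hφ _ ?_
    refine hconj (γ ^ n) i _ (hpow γ n hγ) ?_
    have h1 := R.spec i (γ ^ n)
    rw [hσ i] at h1
    exact h1
  have h1 : R.op A φ (Additive.ofMul (γ ^ n)) = n • R.op A φ (Additive.ofMul γ) := by
    rw [ofMul_pow, map_nsmul]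
  rw [h1] at h0
  exact (nsmul_eq_zero_iff_right hnpos.ne').mp h0

end cor58_Reps

/-! ### The transfer along an injective homomorphism with range of finite index -/

section Transfer

variable {H Γ : Type} [Group H] [Group Γ]

/-- The system of right coset representatives of `f.range` in `Γ` (inverses of representatives
of the left cosets), for `f : H →* Γ` injective with range of finite index. -/
noncomputable def cor58_ofHom (f : H →* Γ) (hf : Function.Injective f) :
    cor58_Reps H Γ Γ (Γ ⧸ f.range) where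
  inclH := f
  inclH_inj := hf
  inclΓ := MonoidHom.id Γ
  α := fun c => (Quotient.out c)⁻¹
  ex := by
    intro i γ
    -- `j` is the left coset of `γ⁻¹ * out i`
    set j : Γ ⧸ f.range := QuotientGroup.mk (γ⁻¹ * Quotient.out i) with hj
    have h1 : (QuotientGroup.mk (Quotient.out j) : Γ ⧸ f.range) = QuotientGroup.mk (γ⁻¹ * Quotient.out i) := by
      rw [← hj]
      exact Quotient.out_eq j
    have h2 : (γ⁻¹ * Quotient.out i)⁻¹ * Quotient.out j ∈ f.range :=
      QuotientGroup.eq.mp h1.symm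
    obtain ⟨k, hk⟩ := h2
    refine ⟨j, k, ?_⟩
    rw [hk, MonoidHom.id_apply]
    group
  uniq := by
    intro i j k h
    have h1 : (Quotient.out j)⁻¹ * Quotient.out i ∈ f.range := by
      refine ⟨k⁻¹, ?_⟩
      have h2 : Quotient.out i = Quotient.out j * (f k)⁻¹ := by
        have := congrArg (fun x => x⁻¹) h
        simp only [inv_inv, mul_inv_rev] at this
        exact this
      rw [map_inv, h2]
      group
    have h3 : (QuotientGroup.mk (Quotient.out j) : Γ ⧸ f.range) = QuotientGroup.mk (Quotient.out i) :=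
      QuotientGroup.eq.mpr h1
    have hi : (QuotientGroup.mk (Quotient.out i) : Γ ⧸ f.range) = i := Quotient.out_eq i
    have hj : (QuotientGroup.mk (Quotient.out j) : Γ ⧸ f.range) = j := Quotient.out_eq j
    rw [hi, hj] at h3
    exact h3.symm

variable (f : H →* Γ) (hf : Function.Injective f) [f.range.FiniteIndex]

/-- **Corestriction (transfer)** `Hom(H, A) → Hom(Γ, A)` along an injective `f : H →* Γ` with
range of finite index. -/
noncomputable def cor58_cores (A : Type*) [AddCommGroup A] :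
    (Additive H →+ A) →+ (Additive Γ →+ A) :=
  letI : Fintype (Γ ⧸ f.range) := Subgroup.fintypeQuotientOfFiniteIndex
  (cor58_ofHom f hf).op A

/-- Functoriality of the corestriction in the coefficient group. -/
theorem cor58_cores_comp {A B : Type*} [AddCommGroup A] [AddCommGroup B] (g : A →+ B)
    (φ : Additive H →+ A) : cor58_cores f hf B (g.comp φ) = g.comp (cor58_cores f hf A φ) := by
  letI : Fintype (Γ ⧸ f.range) := Subgroup.fintypeQuotientOfFiniteIndex
  exact (cor58_ofHom f hf).op_comp g φ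

/-- Every element of `Γ` lies in a coset `f.range * α c` of the canonical system. -/
theorem cor58_ofHom_complete (γ : Γ) :
    ∃ (c : Γ ⧸ f.range) (k : H), γ = f k * (cor58_ofHom f hf).α c := by
  set c : Γ ⧸ f.range := QuotientGroup.mk γ⁻¹ with hc
  have h1 : (QuotientGroup.mk (Quotient.out c) : Γ ⧸ f.range) = QuotientGroup.mk γ⁻¹ := by
    rw [← hc]
    exact Quotient.out_eq c
  have h2 : (γ⁻¹)⁻¹ * Quotient.out c ∈ f.range := QuotientGroup.eq.mp h1.symm
  obtain ⟨k, hk⟩ := h2
  refine ⟨c, k, ?_⟩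
  show γ = f k * (Quotient.out c)⁻¹
  rw [hk]
  group

/-- The system of representatives attached to ANY finite complete system `ρ : ι → Γ` of
representatives of the right cosets of `f.range`. -/
def cor58_repsOf {ι : Type} (ρ : ι → Γ)
    (hex : ∀ γ : Γ, ∃ (i : ι) (k : H), γ = f k * ρ i)
    (huniq : ∀ (i j : ι) (k : H), ρ i = f k * ρ j → i = j) : cor58_Reps H Γ Γ ι where
  inclH := f
  inclH_inj := hf
  inclΓ := MonoidHom.id Γ
  α := ρ
  ex := by
    intro i γ
    obtain ⟨j, k, hk⟩ := hex (ρ i * γ)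
    exact ⟨j, k, hk⟩
  uniq := huniq

/-- **The corestriction is the operator of ANY complete system of right coset
representatives** (so `op_apply`, `op_eq_sum`, `op_period`, `op_char`, `op_char_zpow` are
available for the user's own representatives). -/
theorem cor58_cores_eq_op {ι : Type} [Fintype ι] (ρ : ι → Γ)
    (hex : ∀ γ : Γ, ∃ (i : ι) (k : H), γ = f k * ρ i)
    (huniq : ∀ (i j : ι) (k : H), ρ i = f k * ρ j → i = j)
    {A : Type*} [AddCommGroup A] (φ : Additive H →+ A) :
    cor58_cores f hf A φ = (cor58_repsOf f hf ρ hex huniq).op A φ := by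
  classical
  letI : Fintype (Γ ⧸ f.range) := Subgroup.fintypeQuotientOfFiniteIndex
  have hchoice : ∀ c : Γ ⧸ f.range, ∃ (i : ι) (k : H), (cor58_ofHom f hf).α c = f k * ρ i :=
    fun c => hex _
  choose π g hπ using hchoice
  have hinj : Function.Injective π := by
    intro c c' hcc
    have h1 := hπ c
    have h2 := hπ c'
    rw [hcc] at h1
    have h3 : ρ (π c') = f (g c')⁻¹ * (cor58_ofHom f hf).α c' := by
      rw [h2, map_inv, inv_mul_cancel_left]
    have h4 : (cor58_ofHom f hf).α c = f (g c * (g c')⁻¹) * (cor58_ofHom f hf).α c' := by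
      rw [h1, h3, map_mul, mul_assoc]
    exact (cor58_ofHom f hf).uniq _ _ _ h4
  have hsurj : Function.Surjective π := by
    intro i
    obtain ⟨c, k, hk⟩ := cor58_ofHom_complete f hf (ρ i)
    refine ⟨c, ?_⟩
    have h1 := hπ c
    rw [h1] at hk
    have h2 : ρ i = f (k * g c) * ρ (π c) := by rw [hk, map_mul, mul_assoc]
    exact (huniq _ _ _ h2).symm
  exact (cor58_ofHom f hf).op_congr (cor58_repsOf f hf ρ hex huniq) rfl rfl π ⟨hinj, hsurj⟩ g hπ φ

/-- **The corestriction through ANY complete system of right coset representatives.**  Let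
`ρ : ι → Γ` be a finite complete system of representatives of the right cosets of `f.range`
(`hex`, `huniq`), and for a given `γ` let `σ'`, `κ'` solve `ρ i * γ = f (κ' i) * ρ (σ' i)`.
Then `cores φ γ = ∑ i, φ (κ' i)`. -/
theorem cor58_cores_eq_sum {ι : Type} [Fintype ι] (ρ : ι → Γ)
    (hex : ∀ γ : Γ, ∃ (i : ι) (k : H), γ = f k * ρ i)
    (huniq : ∀ (i j : ι) (k : H), ρ i = f k * ρ j → i = j)
    {A : Type*} [AddCommGroup A] (φ : Additive H →+ A) (γ : Γ)
    (σ' : ι → ι) (κ' : ι → H) (h : ∀ i, ρ i * γ = f (κ' i) * ρ (σ' i)) :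
    cor58_cores f hf A φ (Additive.ofMul γ) = ∑ i, φ (Additive.ofMul (κ' i)) := by
  rw [cor58_cores_eq_op f hf ρ hex huniq φ]
  exact (cor58_repsOf f hf ρ hex huniq).op_eq_sum φ γ σ' κ' h

/-- **Character of a product over coset representatives.**  If `F (f k • z) = ζ ^ c k * F z`
for `k : H`, then `z ↦ ∏ i, F (ρ i • z)` transforms under `γ : Γ` by `ζ ^ (cores c) γ`, for
ANY complete system `ρ` of right coset representatives of `f.range`. -/
theorem cor58_cores_char {ι : Type} [Fintype ι] (ρ : ι → Γ)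
    (hex : ∀ γ : Γ, ∃ (i : ι) (k : H), γ = f k * ρ i)
    (huniq : ∀ (i j : ι) (k : H), ρ i = f k * ρ j → i = j)
    {M : Type*} [CommMonoid M] {Z : Type*} [MulAction Γ Z] (F : Z → M) (ζ : Mˣ)
    (c : Additive H →+ ℤ)
    (hF : ∀ (k : H) (z : Z), F (f k • z) = ((ζ ^ c (Additive.ofMul k) : Mˣ) : M) * F z)
    (γ : Γ) (z : Z) :
    ∏ i, F (ρ i • γ • z) =
      ((ζ ^ (cor58_cores f hf ℤ c (Additive.ofMul γ)) : Mˣ) : M) * ∏ i, F (ρ i • z) := by
  rw [cor58_cores_eq_op f hf ρ hex huniq c]
  exact (cor58_repsOf f hf ρ hex huniq).op_char_zpow F ζ c hF γ z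

/-- **Period of a sum over coset representatives** (additive form). -/
theorem cor58_cores_period {ι : Type} [Fintype ι] (ρ : ι → Γ)
    (hex : ∀ γ : Γ, ∃ (i : ι) (k : H), γ = f k * ρ i)
    (huniq : ∀ (i j : ι) (k : H), ρ i = f k * ρ j → i = j)
    {A : Type*} [AddCommGroup A] {Z : Type*} [MulAction Γ Z] (F : Z → A)
    (φ : Additive H →+ A)
    (hF : ∀ (k : H) (z : Z), F (f k • z) - F z = φ (Additive.ofMul k))
    (γ : Γ) (z : Z) :
    (∑ i, F (ρ i • γ • z)) - ∑ i, F (ρ i • z) = cor58_cores f hf A φ (Additive.ofMul γ) := by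
  rw [cor58_cores_eq_op f hf ρ hex huniq φ]
  exact (cor58_repsOf f hf ρ hex huniq).op_period F φ hF γ z

/-- **Vanishing criterion for the corestriction** (parabolic homomorphisms). -/
theorem cor58_cores_eq_zero {A : Type*} [AddCommGroup A] [IsAddTorsionFree A]
    (PH : H → Prop) (PΓ : Γ → Prop) (hpow : ∀ (γ : Γ) (n : ℕ), PΓ γ → PΓ (γ ^ n))
    (hconj : ∀ (γ a : Γ) (k : H), PΓ γ → a * γ = f k * a → PH k)
    (φ : Additive H →+ A) (hφ : ∀ k : H, PH k → φ (Additive.ofMul k) = 0)
    (γ : Γ) (hγ : PΓ γ) : cor58_cores f hf A φ (Additive.ofMul γ) = 0 := by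
  letI : Fintype (Γ ⧸ f.range) := Subgroup.fintypeQuotientOfFiniteIndex
  exact (cor58_ofHom f hf).op_eq_zero_of_fix PH PΓ hpow
    (fun γ i k hγ h => hconj γ _ k hγ h) φ hφ γ hγ

end Transfer

end Fermat.Agent.S35
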