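import Mathlib
import Fermat.Prelude.Def_ModularCurve_PeriodMap
import Fermat.Agent.S41.NuHecke53
import Fermat.Agent.S35.CoresAbs58

/-!
# S35 lab, row N-cores (helper58): the two corestrictions `L(M' q) → L(M')`

Level `M = M' * q`.  With `res = nh53_res : Γ₀(M' q) → Γ₀(M')` (the inclusion) and
`conj = nh53_conj M' q : Γ₀(M' q) → Γ₀(M')`, `γ ↦ δ γ δ⁻¹`, `δ = diag(q, 1)` (S41):

* `cor58_coresAlpha M' q A : Hom(Γ₀(M' q), A) →+ Hom(Γ₀(M'), A)` — the transfer along `res`;
* `cor58_coresBeta M' q A  : Hom(Γ₀(M' q), A) →+ Hom(Γ₀(M'), A)` — the transfer along `conj`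
  (i.e. along `δ Γ₀(M' q) δ⁻¹ ⊆ Γ₀(M')`, of `φ ∘ conj⁻¹`);
* both map `parabolicHoms` to `parabolicHoms` (`A` torsion-free) and are functorial in `A`;
* `cor58_coresAlphaL`, `cor58_coresBetaL` : the induced `R`-linear maps
  `parabolicHoms R (Γ₀(M' q)) A →ₗ[R] parabolicHoms R (Γ₀(M')) A`;
* the values through ANY complete system of right coset representatives, the character of
  `∏ i, F (ρ i • z)` and the period of `∑ i, F (ρ i • z)`: `cor58_cores_eq_sum`,
  `cor58_cores_char`, `cor58_cores_period` of `CoresAbs58` with `f := nh53_res _` resp.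
  `f := nh53_conj M' q` (injectivity: `cor58_res_injective`, `cor58_conj_injective`).
-/

set_option autoImplicit false
set_option linter.style.haveILetI false

open CongruenceSubgroup Matrix.SpecialLinearGroup ModularCurve.Period
open scoped MatrixGroups

namespace Fermat.Agent.S35

open Fermat.Agent.S41

/-! ### Traces of powers of parabolic elements -/

/-- Cayley–Hamilton for a `2 × 2` matrix of determinant one. -/
theorem cor58_sq_eq (B : Matrix (Fin 2) (Fin 2) ℤ) (hdet : B.det = 1) :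
    B * B = B.trace • B - 1 := by
  rw [Matrix.det_fin_two] at hdet
  ext i j
  fin_cases i <;> fin_cases j <;>
    simp [Matrix.mul_apply, Fin.sum_univ_two, Matrix.trace_fin_two, Matrix.smul_apply,
      Matrix.sub_apply, -zsmul_eq_mul] <;>
    first | ring1 | linear_combination (-1 : ℤ) * hdet

/-- Powers of a unipotent `2 × 2` matrix (`det = 1`, `trace = 2`). -/
theorem cor58_pow_of_trace_two (B : Matrix (Fin 2) (Fin 2) ℤ) (hdet : B.det = 1)
    (htr : B.trace = 2) (n : ℕ) : B ^ n = (n : ℤ) • B - ((n : ℤ) - 1) • (1 : Matrix (Fin 2) (Fin 2) ℤ) := by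
  induction n with
  | zero => simp
  | succ n ih =>
      have hsq := cor58_sq_eq B hdet
      rw [htr] at hsq
      rw [pow_succ, ih, sub_mul, smul_mul_assoc, smul_mul_assoc, one_mul, hsq]
      push_cast
      module

theorem cor58_trace_pow_of_trace_two (B : Matrix (Fin 2) (Fin 2) ℤ) (hdet : B.det = 1)
    (htr : B.trace = 2) (n : ℕ) : (B ^ n).trace = 2 := by
  rw [cor58_pow_of_trace_two B hdet htr n, Matrix.trace_sub, Matrix.trace_smul, Matrix.trace_smul,
    htr, Matrix.trace_one]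
  simp
  ring

/-- The square of the trace of a power of a parabolic element of `SL(2, ℤ)` is `4`. -/
theorem cor58_trace_pow (g : SL(2, ℤ)) (h : (g : Matrix (Fin 2) (Fin 2) ℤ).trace ^ 2 = 4)
    (n : ℕ) : ((g ^ n : SL(2, ℤ)) : Matrix (Fin 2) (Fin 2) ℤ).trace ^ 2 = 4 := by
  rw [Matrix.SpecialLinearGroup.coe_pow]
  set B : Matrix (Fin 2) (Fin 2) ℤ := (g : Matrix (Fin 2) (Fin 2) ℤ) with hB
  have hdet : B.det = 1 := g.det_coe
  have h2 : (B.trace - 2) * (B.trace + 2) = 0 := by linear_combination h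
  rcases mul_eq_zero.mp h2 with h3 | h3
  · have htr : B.trace = 2 := by linarith
    rw [cor58_trace_pow_of_trace_two B hdet htr n]
    norm_num
  · have htr : (-B).trace = 2 := by rw [Matrix.trace_neg]; linarith
    have hdet' : (-B).det = 1 := by
      rw [Matrix.det_neg, hdet]
      simp
    have h4 := cor58_trace_pow_of_trace_two (-B) hdet' htr n
    rcases Nat.even_or_odd n with hn | hn
    · rw [hn.neg_pow] at h4
      rw [h4]
      norm_num
    · rw [hn.neg_pow, Matrix.trace_neg] at h4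
      have h5 : (B ^ n).trace = -2 := by linarith
      rw [h5]
      norm_num

/-! ### Injectivity and finite index -/

theorem cor58_res_injective {N N' : ℕ} (h : N ∣ N') : Function.Injective (nh53_res h) :=
  Subgroup.inclusion_injective _

theorem cor58_conj_injective (N q : ℕ) [NeZero q] : Function.Injective (nh53_conj N q) := by
  intro γ γ' h
  have hq : (q : ℤ) ≠ 0 := by exact_mod_cast NeZero.ne q
  obtain ⟨a1, a2, a3, a4⟩ := nh53_conj_entries N q γ
  obtain ⟨b1, b2, b3, b4⟩ := nh53_conj_entries N q γ'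
  rw [h] at a1 a2 a3 a4
  apply Subtype.ext
  apply Subtype.ext
  ext i j
  fin_cases i <;> fin_cases j
  · exact a1.symm.trans b1
  · exact mul_left_cancel₀ hq (a2.symm.trans b2)
  · exact a3.symm.trans b3
  · exact a4.symm.trans b4

instance cor58_res_finiteIndex (M' q : ℕ) [NeZero M'] [NeZero q] :
    (nh53_res (dvd_mul_right M' q)).range.FiniteIndex := by
  have : (nh53_res (dvd_mul_right M' q)).range = (Gamma0 (M' * q)).subgroupOf (Gamma0 M') :=
    Subgroup.inclusion_range _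
  rw [this]
  infer_instance

instance cor58_conj_finiteIndex (M' q : ℕ) [NeZero M'] [NeZero q] :
    (nh53_conj M' q).range.FiniteIndex := by
  have hq : (q : ℤ) ≠ 0 := by exact_mod_cast NeZero.ne q
  have hle : (Gamma (M' * q)).subgroupOf (Gamma0 M') ≤ (nh53_conj M' q).range := by
    intro x hx
    rw [Subgroup.mem_subgroupOf, Gamma_mem] at hx
    obtain ⟨-, h01, h10, -⟩ := hx
    rw [ZMod.intCast_zmod_eq_zero_iff_dvd] at h01 h10
    -- `q ∣ b`
    have hqb : (q : ℤ) ∣ (x : SL(2, ℤ)) 0 1 :=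
      (Dvd.intro_left (M' : ℤ) (by push_cast; ring)).trans h01
    obtain ⟨b', hb'⟩ := hqb
    -- the preimage `!![a, b / q; c * q, d]`
    have hdet : (!![(x : SL(2, ℤ)) 0 0, b'; (x : SL(2, ℤ)) 1 0 * q, (x : SL(2, ℤ)) 1 1] :
        Matrix (Fin 2) (Fin 2) ℤ).det = 1 := by
      have h1 := (x : SL(2, ℤ)).det_coe
      rw [Matrix.det_fin_two] at h1
      rw [Matrix.det_fin_two_of]
      rw [hb'] at h1
      linear_combination h1
    let γ₀ : SL(2, ℤ) :=
      ⟨!![(x : SL(2, ℤ)) 0 0, b'; (x : SL(2, ℤ)) 1 0 * q, (x : SL(2, ℤ)) 1 1], hdet⟩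
    have hγ₀ : γ₀ ∈ Gamma0 (M' * q) := by
      rw [Gamma0_mem, ZMod.intCast_zmod_eq_zero_iff_dvd]
      show ((M' * q : ℕ) : ℤ) ∣ (x : SL(2, ℤ)) 1 0 * q
      have h2 : ((M' : ℕ) : ℤ) ∣ (x : SL(2, ℤ)) 1 0 :=
        (Dvd.intro (q : ℤ) (by push_cast; ring)).trans h10
      obtain ⟨c', hc'⟩ := h2
      exact ⟨c', by rw [hc']; push_cast; ring⟩
    refine ⟨⟨γ₀, hγ₀⟩, ?_⟩
    obtain ⟨a1, a2, a3, a4⟩ := nh53_conj_entries M' q ⟨γ₀, hγ₀⟩
    apply Subtype.ext
    apply Subtype.ext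
    ext i j
    fin_cases i <;> fin_cases j
    · exact a1
    · show (nh53_conj M' q ⟨γ₀, hγ₀⟩ : SL(2, ℤ)) 0 1 = (x : SL(2, ℤ)) 0 1
      rw [a2, hb']
      rfl
    · show (nh53_conj M' q ⟨γ₀, hγ₀⟩ : SL(2, ℤ)) 1 0 = (x : SL(2, ℤ)) 1 0
      have h3 : (nh53_conj M' q ⟨γ₀, hγ₀⟩ : SL(2, ℤ)) 1 0 * (q : ℤ) = (x : SL(2, ℤ)) 1 0 * q := a3
      exact mul_right_cancel₀ hq h3
    · exact a4
  haveI : NeZero (M' * q) := ⟨Nat.mul_ne_zero (NeZero.ne M') (NeZero.ne q)⟩
  exact Subgroup.finiteIndex_of_le hle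

/-! ### The two corestrictions -/

section Cores

variable (M' q : ℕ) [NeZero M'] [NeZero q]

/-- **Corestriction along `α`**: the transfer along the inclusion `Γ₀(M' q) ⊆ Γ₀(M')`. -/
noncomputable def cor58_coresAlpha (A : Type*) [AddCommGroup A] :
    (Additive (Gamma0 (M' * q)) →+ A) →+ (Additive (Gamma0 M') →+ A) :=
  cor58_cores (nh53_res (dvd_mul_right M' q)) (cor58_res_injective _) A

/-- **Corestriction along `β`**: the transfer along `γ ↦ δ γ δ⁻¹`, `δ = diag(q, 1)`. -/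
noncomputable def cor58_coresBeta (A : Type*) [AddCommGroup A] :
    (Additive (Gamma0 (M' * q)) →+ A) →+ (Additive (Gamma0 M') →+ A) :=
  cor58_cores (nh53_conj M' q) (cor58_conj_injective M' q) A

theorem cor58_coresAlpha_comp {A B : Type*} [AddCommGroup A] [AddCommGroup B] (g : A →+ B)
    (φ : Additive (Gamma0 (M' * q)) →+ A) :
    cor58_coresAlpha M' q B (g.comp φ) = g.comp (cor58_coresAlpha M' q A φ) :=
  cor58_cores_comp _ _ g φ

theorem cor58_coresBeta_comp {A B : Type*} [AddCommGroup A] [AddCommGroup B] (g : A →+ B)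
    (φ : Additive (Gamma0 (M' * q)) →+ A) :
    cor58_coresBeta M' q B (g.comp φ) = g.comp (cor58_coresBeta M' q A φ) :=
  cor58_cores_comp _ _ g φ

/-- conjugate elements of `SL(2, ℤ)` have the same trace -/
theorem cor58_trace_conj (a γ k : SL(2, ℤ)) (h : a * γ = k * a) :
    (k : Matrix (Fin 2) (Fin 2) ℤ).trace = (γ : Matrix (Fin 2) (Fin 2) ℤ).trace := by
  have h1 : k = a * γ * a⁻¹ := by rw [h]; group
  rw [h1, Matrix.SpecialLinearGroup.coe_mul, Matrix.trace_mul_comm,
    ← Matrix.SpecialLinearGroup.coe_mul, ← mul_assoc, inv_mul_cancel, one_mul]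

/-- The corestriction along `α` preserves parabolic homomorphisms. -/
theorem cor58_coresAlpha_parabolic {A : Type*} [AddCommGroup A] [IsAddTorsionFree A]
    (φ : Additive (Gamma0 (M' * q)) →+ A) (hφ : IsParabolicHom (Gamma0 (M' * q)) φ) :
    IsParabolicHom (Gamma0 M') (cor58_coresAlpha M' q A φ) := by
  intro γ hγ
  refine cor58_cores_eq_zero (nh53_res (dvd_mul_right M' q)) (cor58_res_injective _)
    (fun k => ((k : SL(2, ℤ)) : Matrix (Fin 2) (Fin 2) ℤ).trace ^ 2 = 4)
    (fun γ => ((γ : SL(2, ℤ)) : Matrix (Fin 2) (Fin 2) ℤ).trace ^ 2 = 4) ?_ ?_ φ hφ γ hγ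
  · intro γ n h
    rw [Subgroup.coe_pow]
    exact cor58_trace_pow _ h n
  · intro γ a k h hk
    have h1 : (a : SL(2, ℤ)) * (γ : SL(2, ℤ)) = ((nh53_res (dvd_mul_right M' q) k : Gamma0 M') : SL(2, ℤ)) * (a : SL(2, ℤ)) := by
      have := congrArg (fun x : Gamma0 M' => (x : SL(2, ℤ))) hk
      simpa using this
    rw [nh53_res_coe] at h1
    show ((k : SL(2, ℤ)) : Matrix (Fin 2) (Fin 2) ℤ).trace ^ 2 = 4
    rw [cor58_trace_conj _ _ _ h1]
    exact h

/-- The corestriction along `β` preserves parabolic homomorphisms. -/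
theorem cor58_coresBeta_parabolic {A : Type*} [AddCommGroup A] [IsAddTorsionFree A]
    (φ : Additive (Gamma0 (M' * q)) →+ A) (hφ : IsParabolicHom (Gamma0 (M' * q)) φ) :
    IsParabolicHom (Gamma0 M') (cor58_coresBeta M' q A φ) := by
  intro γ hγ
  refine cor58_cores_eq_zero (nh53_conj M' q) (cor58_conj_injective M' q)
    (fun k => ((k : SL(2, ℤ)) : Matrix (Fin 2) (Fin 2) ℤ).trace ^ 2 = 4)
    (fun γ => ((γ : SL(2, ℤ)) : Matrix (Fin 2) (Fin 2) ℤ).trace ^ 2 = 4) ?_ ?_ φ hφ γ hγ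
  · intro γ n h
    rw [Subgroup.coe_pow]
    exact cor58_trace_pow _ h n
  · intro γ a k h hk
    have h1 : (a : SL(2, ℤ)) * (γ : SL(2, ℤ)) = ((nh53_conj M' q k : Gamma0 M') : SL(2, ℤ)) * (a : SL(2, ℤ)) := by
      have := congrArg (fun x : Gamma0 M' => (x : SL(2, ℤ))) hk
      simpa using this
    have h2 := cor58_trace_conj _ _ _ h1
    obtain ⟨a1, -, -, a4⟩ := nh53_conj_entries M' q k
    show ((k : SL(2, ℤ)) : Matrix (Fin 2) (Fin 2) ℤ).trace ^ 2 = 4
    have h3 : ((k : SL(2, ℤ)) : Matrix (Fin 2) (Fin 2) ℤ).trace =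
        (((nh53_conj M' q k : Gamma0 M') : SL(2, ℤ)) : Matrix (Fin 2) (Fin 2) ℤ).trace := by
      rw [Matrix.trace_fin_two, Matrix.trace_fin_two]
      show (k : SL(2, ℤ)) 0 0 + (k : SL(2, ℤ)) 1 1 = (nh53_conj M' q k : SL(2, ℤ)) 0 0 + (nh53_conj M' q k : SL(2, ℤ)) 1 1
      rw [a1, a4]
    rw [h3, h2]
    exact h

/-- `cores_α` as an `R`-linear map on parabolic homomorphisms. -/
noncomputable def cor58_coresAlphaL (R : Type*) [Semiring R] (A : Type*) [AddCommGroup A]
    [Module R A] [IsAddTorsionFree A] :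
    parabolicHoms R (Gamma0 (M' * q)) A →ₗ[R] parabolicHoms R (Gamma0 M') A where
  toFun φ := ⟨cor58_coresAlpha M' q A φ.1, cor58_coresAlpha_parabolic M' q φ.1 φ.2⟩
  map_add' φ ψ := Subtype.ext (map_add (cor58_coresAlpha M' q A) φ.1 ψ.1)
  map_smul' r φ := by
    apply Subtype.ext
    show cor58_coresAlpha M' q A (r • φ.1) = r • cor58_coresAlpha M' q A φ.1
    have h1 : r • φ.1 = (DistribSMul.toAddMonoidHom A r).comp φ.1 := rfl
    rw [h1, cor58_coresAlpha_comp]
    rfl

/-- `cores_β` as an `R`-linear map on parabolic homomorphisms. -/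
noncomputable def cor58_coresBetaL (R : Type*) [Semiring R] (A : Type*) [AddCommGroup A]
    [Module R A] [IsAddTorsionFree A] :
    parabolicHoms R (Gamma0 (M' * q)) A →ₗ[R] parabolicHoms R (Gamma0 M') A where
  toFun φ := ⟨cor58_coresBeta M' q A φ.1, cor58_coresBeta_parabolic M' q φ.1 φ.2⟩
  map_add' φ ψ := Subtype.ext (map_add (cor58_coresBeta M' q A) φ.1 ψ.1)
  map_smul' r φ := by
    apply Subtype.ext
    show cor58_coresBeta M' q A (r • φ.1) = r • cor58_coresBeta M' q A φ.1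
    have h1 : r • φ.1 = (DistribSMul.toAddMonoidHom A r).comp φ.1 := rfl
    rw [h1, cor58_coresBeta_comp]
    rfl

@[simp]
theorem cor58_coresAlphaL_coe (R : Type*) [Semiring R] (A : Type*) [AddCommGroup A]
    [Module R A] [IsAddTorsionFree A] (φ : parabolicHoms R (Gamma0 (M' * q)) A) :
    ((cor58_coresAlphaL M' q R A φ : parabolicHoms R (Gamma0 M') A) : Additive (Gamma0 M') →+ A) =
      cor58_coresAlpha M' q A φ.1 := rfl

@[simp]
theorem cor58_coresBetaL_coe (R : Type*) [Semiring R] (A : Type*) [AddCommGroup A]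
    [Module R A] [IsAddTorsionFree A] (φ : parabolicHoms R (Gamma0 (M' * q)) A) :
    ((cor58_coresBetaL M' q R A φ : parabolicHoms R (Gamma0 M') A) : Additive (Gamma0 M') →+ A) =
      cor58_coresBeta M' q A φ.1 := rfl

end Cores

end Fermat.Agent.S35
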