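import Mathlib
import Fermat.Prelude.Def_ModularCurve_PeriodMap

/-!
# S35 lab, row N-cores (twin, helper81): the abstract corestriction (transfer)

Mathlib + the Prelude definition of parabolic homomorphisms only.  For a subgroup `H` of finite
index of a group `G`:

* `cor81_transfer_eq` : Mathlib's `MonoidHom.transfer ϕ g` computed on an ARBITRARY section `f`
  of `G → G ⧸ H`: it is `∏ q, ϕ (η q)` with `η q = (f (g • q))⁻¹ * g * f q ∈ H`.
* `cor81_transferAdd H χ : Additive G →+ A` : the additive form of the transfer of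
  `χ : Additive H →+ A` (the corestriction of characters), `cor81_transferAdd_eq` (explicit
  formula), `cor81_transferAddHom` (additive in `χ`), `cor81_transferAdd_comp` (natural in `A`).
* `cor81_isCharZ_prod` : **the consumer lemma of (2a)**.  If `h` has character `χ` under `H`
  (`η • h = ζ ^ χ η * h`, the literal shape of `thz31_IsCharZ`), then the product of the
  translates `∏ q, f q • h` over a section `f` has character `cor81_transferAdd H χ` under `G`.
  `cor81_isCharZ_prod_of_bij` : the same for any finite family of coset representatives.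
* `cor81_parabolic` : for `Γ ≤ SL(2, ℤ)` and `H ≤ Γ` of finite index, the transfer of a character
  of `H` killing the elements of trace `± 2` is a parabolic homomorphism of `Γ`
  (`ModularCurve.Period.IsParabolicHom`).

* `cor81_coresHom ι hι A : (Additive K →+ A) →+ (Additive G →+ A)` : corestriction along an
  injective `ι : K →* G` with range of finite index (`cores_α`: `ι` = inclusion; `cores_β`:
  `ι` = conjugation by `diag(q, 1)`), with `cor81_coresHom_eq` (explicit formula),
  `cor81_coresHom_comp` (base change), `cor81_isCharZ_prod_hom` (consumer lemma),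
  `cor81_coresHom_parabolic`, `cor81_coresHom_mem_parabolicHoms` (lands in `parabolicHoms`).

All names are prefixed `cor81_`.
-/

set_option autoImplicit false

open scoped MatrixGroups

namespace Fermat.Agent.S35

section transfer

variable {G : Type*} [Group G] (H : Subgroup G) [H.FiniteIndex]

omit [H.FiniteIndex] in
/-- The element `(f (g • q))⁻¹ * g * f q` lies in `H` for every section `f` of `G → G ⧸ H`. -/
theorem cor81_mem (f : G ⧸ H → G) (hf : ∀ q, (f q : G ⧸ H) = q) (g : G) (q : G ⧸ H) :
    (f (g • q))⁻¹ * g * f q ∈ H := by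
  have h1 : ((f (g • q) : G) : G ⧸ H) = ((g * f q : G) : G ⧸ H) := by
    rw [hf]
    conv_lhs => rw [← hf q]
    rfl
  rw [mul_assoc]
  exact QuotientGroup.eq.mp h1

/-- Mathlib's transfer, computed on an arbitrary section `f` of `G → G ⧸ H`. -/
theorem cor81_transfer_eq {A : Type*} [CommGroup A] [Fintype (G ⧸ H)] (ϕ : H →* A)
    (f : G ⧸ H → G) (hf : ∀ q, (f q : G ⧸ H) = q) (g : G) (η : G ⧸ H → H)
    (hη : ∀ q, (η q : G) = (f (g • q))⁻¹ * g * f q) :
    MonoidHom.transfer ϕ g = ∏ q, ϕ (η q) := by
  classical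
  let T : H.LeftTransversal := ⟨Set.range f, Subgroup.isComplement_range_left hf⟩
  rw [MonoidHom.transfer_def ϕ T g]
  refine @Fintype.prod_equiv (G ⧸ H) (G ⧸ H) A H.fintypeQuotientOfFiniteIndex _ _
    (MulAction.toPerm g).symm _ _ (fun q => ?_)
  refine congrArg ϕ (Subtype.ext ?_)
  rw [hη]
  show ((T.2.leftQuotientEquiv q : Set.range f) : G)⁻¹ *
      (((g • T).2.leftQuotientEquiv q : ((g • T : H.LeftTransversal) : Set G)) : G) = _
  rw [Subgroup.smul_apply_eq_smul_apply_inv_smul]
  have h1 : ∀ q' : G ⧸ H, ((T.2.leftQuotientEquiv q' : Set.range f) : G) = f q' :=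
    fun q' => Subgroup.IsComplement.leftQuotientEquiv_apply hf q'
  rw [h1, h1, MulAction.toPerm_symm_apply, smul_inv_smul, smul_eq_mul, mul_assoc]

/-- The additive form of the transfer (corestriction of additive characters). -/
noncomputable def cor81_transferAdd {A : Type*} [AddCommGroup A] (χ : Additive H →+ A) :
    Additive G →+ A :=
  MonoidHom.toAdditiveLeft (MonoidHom.transfer (AddMonoidHom.toMultiplicativeRight χ))

/-- Explicit formula for the additive transfer on an arbitrary section. -/
theorem cor81_transferAdd_eq {A : Type*} [AddCommGroup A] [Fintype (G ⧸ H)]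
    (χ : Additive H →+ A) (f : G ⧸ H → G) (hf : ∀ q, (f q : G ⧸ H) = q) (g : G)
    (η : G ⧸ H → H) (hη : ∀ q, (η q : G) = (f (g • q))⁻¹ * g * f q) :
    cor81_transferAdd H χ (Additive.ofMul g) = ∑ q, χ (Additive.ofMul (η q)) := by
  show Multiplicative.toAdd (MonoidHom.transfer (AddMonoidHom.toMultiplicativeRight χ) g) = _
  rw [cor81_transfer_eq H _ f hf g η hη, toAdd_prod]
  rfl

/-- The additive transfer is additive in the character. -/
theorem cor81_transferAdd_add {A : Type*} [AddCommGroup A] (χ₁ χ₂ : Additive H →+ A) :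
    cor81_transferAdd H (χ₁ + χ₂) = cor81_transferAdd H χ₁ + cor81_transferAdd H χ₂ := by
  classical
  let _ : Fintype (G ⧸ H) := H.fintypeQuotientOfFiniteIndex
  ext g
  have hf : ∀ q : G ⧸ H, ((Quotient.out q : G) : G ⧸ H) = q := fun q => QuotientGroup.out_eq' q
  let η : G ⧸ H → H := fun q => ⟨_, cor81_mem H _ hf (Additive.toMul g) q⟩
  have e := fun χ : Additive H →+ A =>
    cor81_transferAdd_eq H χ _ hf (Additive.toMul g) η (fun _ => rfl)
  show cor81_transferAdd H (χ₁ + χ₂) (Additive.ofMul (Additive.toMul g)) =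
    cor81_transferAdd H χ₁ (Additive.ofMul (Additive.toMul g)) +
      cor81_transferAdd H χ₂ (Additive.ofMul (Additive.toMul g))
  rw [e, e, e, ← Finset.sum_add_distrib]
  rfl

/-- The additive transfer as an additive map of characters. -/
noncomputable def cor81_transferAddHom (A : Type*) [AddCommGroup A] :
    (Additive H →+ A) →+ (Additive G →+ A) :=
  AddMonoidHom.mk' (cor81_transferAdd H) (cor81_transferAdd_add H)

@[simp]
theorem cor81_transferAddHom_apply {A : Type*} [AddCommGroup A] (χ : Additive H →+ A) :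
    cor81_transferAddHom H A χ = cor81_transferAdd H χ := rfl

/-- The additive transfer is natural in the coefficient group. -/
theorem cor81_transferAdd_comp {A B : Type*} [AddCommGroup A] [AddCommGroup B] (ψ : A →+ B)
    (χ : Additive H →+ A) :
    cor81_transferAdd H (ψ.comp χ) = ψ.comp (cor81_transferAdd H χ) := by
  classical
  let _ : Fintype (G ⧸ H) := H.fintypeQuotientOfFiniteIndex
  ext g
  have hf : ∀ q : G ⧸ H, ((Quotient.out q : G) : G ⧸ H) = q := fun q => QuotientGroup.out_eq' q
  let η : G ⧸ H → H := fun q => ⟨_, cor81_mem H _ hf (Additive.toMul g) q⟩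
  have eA := cor81_transferAdd_eq H χ _ hf (Additive.toMul g) η (fun _ => rfl)
  have eB := cor81_transferAdd_eq H (ψ.comp χ) _ hf (Additive.toMul g) η (fun _ => rfl)
  show cor81_transferAdd H (ψ.comp χ) (Additive.ofMul (Additive.toMul g)) =
    ψ (cor81_transferAdd H χ (Additive.ofMul (Additive.toMul g)))
  rw [eB, eA, map_sum]
  rfl

end transfer

section character

variable {G : Type*} [Group G] (H : Subgroup G) [H.FiniteIndex]
variable {M : Type*} [Field M] [MulSemiringAction G M]

/-- **Consumer lemma of (2a)**: if `h` has the character `χ` under `H` (literal shape of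
`thz31_IsCharZ`), then the product of its translates over a section `f` of `G → G ⧸ H` has the
character `cor81_transferAdd H χ` under `G`. -/
theorem cor81_isCharZ_prod [Fintype (G ⧸ H)] (ζ : M) (hζ0 : ζ ≠ 0) (hζ : ∀ g : G, g • ζ = ζ)
    (χ : Additive H →+ ℤ) (h : M)
    (hh : ∀ η : H, (η : G) • h = ζ ^ (χ (Additive.ofMul η)) * h)
    (f : G ⧸ H → G) (hf : ∀ q, (f q : G ⧸ H) = q) (g : G) :
    g • (∏ q, f q • h) =
      ζ ^ (cor81_transferAdd H χ (Additive.ofMul g)) * ∏ q, f q • h := by
  classical
  let η : G ⧸ H → H := fun q => ⟨_, cor81_mem H f hf g q⟩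
  have hzpow : ∀ (x : G) (n : ℤ), x • ζ ^ n = ζ ^ n := by
    intro x n
    have h1 := map_zpow₀ (MulSemiringAction.toRingHom G M x) ζ n
    simp only [MulSemiringAction.toRingHom_apply, hζ x] at h1
    exact h1
  have key : ∀ q, g • f q • h = ζ ^ (χ (Additive.ofMul (η q))) * f (g • q) • h := by
    intro q
    have h2 : g * f q = f (g • q) * (η q : G) := by
      show g * f q = f (g • q) * ((f (g • q))⁻¹ * g * f q)
      group
    rw [← mul_smul, h2, mul_smul, hh, smul_mul', hzpow]
  have hsum : ∀ (s : Finset (G ⧸ H)) (n : G ⧸ H → ℤ), ∏ q ∈ s, ζ ^ n q = ζ ^ ∑ q ∈ s, n q := by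
    intro s n
    induction s using Finset.induction_on with
    | empty => simp
    | insert a s ha ih => rw [Finset.prod_insert ha, Finset.sum_insert ha, ih, zpow_add₀ hζ0]
  rw [cor81_transferAdd_eq H χ f hf g η (fun _ => rfl), Finset.smul_prod',
    Finset.prod_congr rfl (fun q _ => key q), Finset.prod_mul_distrib, hsum]
  congr 1
  exact Equiv.prod_comp (MulAction.toPerm g) (fun q => f q • h)

/-- The same for an arbitrary finite family `t` of representatives of the left cosets of `H`. -/
theorem cor81_isCharZ_prod_of_bij {ι : Type*} [Fintype ι] (ζ : M) (hζ0 : ζ ≠ 0)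
    (hζ : ∀ g : G, g • ζ = ζ) (χ : Additive H →+ ℤ) (h : M)
    (hh : ∀ η : H, (η : G) • h = ζ ^ (χ (Additive.ofMul η)) * h)
    (t : ι → G) (ht : Function.Bijective fun i => (t i : G ⧸ H)) (g : G) :
    g • (∏ i, t i • h) = ζ ^ (cor81_transferAdd H χ (Additive.ofMul g)) * ∏ i, t i • h := by
  classical
  let _ : Fintype (G ⧸ H) := H.fintypeQuotientOfFiniteIndex
  let e : ι ≃ G ⧸ H := Equiv.ofBijective _ ht
  have hf : ∀ q : G ⧸ H, ((t (e.symm q) : G) : G ⧸ H) = q := fun q => e.apply_symm_apply q
  have hprod : ∏ i, t i • h = ∏ q : G ⧸ H, t (e.symm q) • h :=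
    (Equiv.prod_comp e.symm (fun i => t i • h)).symm
  rw [hprod]
  exact cor81_isCharZ_prod H ζ hζ0 hζ χ h hh (fun q => t (e.symm q)) hf g

end character

section parabolic

/-- For `g ∈ SL(2, ℤ)` of trace `± 2`, every conjugate of every power of `g` has trace `± 2`. -/
theorem cor81_trace_conj_pow (g x : SL(2, ℤ)) (k : ℕ)
    (hg : (g : Matrix (Fin 2) (Fin 2) ℤ).trace ^ 2 = 4) :
    ((x⁻¹ * g ^ k * x : SL(2, ℤ)) : Matrix (Fin 2) (Fin 2) ℤ).trace ^ 2 = 4 := by
  -- the trace of a conjugate
  have hconj : ((x⁻¹ * g ^ k * x : SL(2, ℤ)) : Matrix (Fin 2) (Fin 2) ℤ).trace =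
      ((g ^ k : SL(2, ℤ)) : Matrix (Fin 2) (Fin 2) ℤ).trace := by
    have h1 : ((x⁻¹ * g ^ k * x : SL(2, ℤ)) : Matrix (Fin 2) (Fin 2) ℤ) =
        ((x⁻¹ * g ^ k : SL(2, ℤ)) : Matrix (Fin 2) (Fin 2) ℤ) *
          (x : Matrix (Fin 2) (Fin 2) ℤ) := by
      rw [← Matrix.SpecialLinearGroup.coe_mul]
    rw [h1, Matrix.trace_mul_comm, ← Matrix.SpecialLinearGroup.coe_mul, mul_inv_cancel_left]
  rw [hconj]
  -- Cayley–Hamilton for `g`
  set A : Matrix (Fin 2) (Fin 2) ℤ := (g : Matrix (Fin 2) (Fin 2) ℤ) with hA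
  have hdet : A 0 0 * A 1 1 - A 0 1 * A 1 0 = 1 := by
    have := g.det_coe
    rw [Matrix.det_fin_two] at this
    exact this
  have htr : A.trace = A 0 0 + A 1 1 := Matrix.trace_fin_two A
  have hCH : A * A = A.trace • A - 1 := by
    have e00 : (A * A) 0 0 = (A.trace • A - 1) 0 0 := by
      simp only [Matrix.mul_apply, Fin.sum_univ_two, Matrix.sub_apply, Matrix.smul_apply,
        smul_eq_mul, Matrix.one_apply_eq, htr]
      linear_combination (-1 : ℤ) * hdet
    have e01 : (A * A) 0 1 = (A.trace • A - 1) 0 1 := by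
      simp only [Matrix.mul_apply, Fin.sum_univ_two, Matrix.sub_apply, Matrix.smul_apply,
        smul_eq_mul, htr, Matrix.one_apply_ne (show (0 : Fin 2) ≠ 1 by decide)]
      ring
    have e10 : (A * A) 1 0 = (A.trace • A - 1) 1 0 := by
      simp only [Matrix.mul_apply, Fin.sum_univ_two, Matrix.sub_apply, Matrix.smul_apply,
        smul_eq_mul, htr, Matrix.one_apply_ne (show (1 : Fin 2) ≠ 0 by decide)]
      ring
    have e11 : (A * A) 1 1 = (A.trace • A - 1) 1 1 := by
      simp only [Matrix.mul_apply, Fin.sum_univ_two, Matrix.sub_apply, Matrix.smul_apply,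
        smul_eq_mul, Matrix.one_apply_eq, htr]
      linear_combination (-1 : ℤ) * hdet
    ext i j
    fin_cases i <;> fin_cases j
    · exact e00
    · exact e01
    · exact e10
    · exact e11
  have hpow : ∀ n : ℕ, ((g ^ n : SL(2, ℤ)) : Matrix (Fin 2) (Fin 2) ℤ) = A ^ n := fun n =>
    Matrix.SpecialLinearGroup.coe_pow g n
  rw [hpow]
  -- the trace recursion
  have hrec : ∀ n : ℕ, (A ^ (n + 2)).trace = A.trace * (A ^ (n + 1)).trace - (A ^ n).trace := by
    intro n
    have h1 : A ^ (n + 2) = A.trace • A ^ (n + 1) - A ^ n := by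
      rw [pow_add, pow_two, hCH, mul_sub, mul_one, Matrix.mul_smul, ← pow_succ]
    rw [h1, Matrix.trace_sub, Matrix.trace_smul, smul_eq_mul]
  have ht : A.trace = 2 ∨ A.trace = -2 := by
    have h1 : (A.trace - 2) * (A.trace + 2) = 0 := by linear_combination hg
    rcases mul_eq_zero.mp h1 with h | h
    · left; linarith
    · right; linarith
  have h0 : (A ^ 0).trace = 2 := by
    rw [pow_zero, Matrix.trace_one]
    simp
  have hkey : ∀ n : ℕ, (A ^ n).trace ^ 2 = 4 ∧ (A ^ (n + 1)).trace ^ 2 = 4 ∧
      A.trace * (A ^ (n + 1)).trace = 2 * (A ^ n).trace := by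
    intro n
    induction n with
    | zero =>
      refine ⟨by rw [h0]; norm_num, by rw [zero_add, pow_one]; exact hg, ?_⟩
      rw [zero_add, pow_one, h0]
      linear_combination hg
    | succ n ih =>
      obtain ⟨h1, h2, h3⟩ := ih
      have h4 : (A ^ (n + 1 + 1)).trace = (A ^ n).trace := by
        rw [hrec n]
        linarith
      refine ⟨h2, by rw [h4]; exact h1, ?_⟩
      rw [h4]
      rcases ht with h | h
      · rw [h] at h3 ⊢
        linarith
      · rw [h] at h3 ⊢
        linarith
  exact (hkey k).1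

/-- The transfer of a character of `H` which kills the elements of trace `± 2` is a parabolic
homomorphism of `Γ`. -/
theorem cor81_parabolic (Γ : Subgroup SL(2, ℤ)) (H : Subgroup Γ) [H.FiniteIndex]
    {A : Type*} [AddCommGroup A] (χ : Additive H →+ A)
    (hχ : ∀ η : H, (((η : Γ) : SL(2, ℤ)) : Matrix (Fin 2) (Fin 2) ℤ).trace ^ 2 = 4 →
      χ (Additive.ofMul η) = 0) :
    ModularCurve.Period.IsParabolicHom Γ (cor81_transferAdd H χ) := by
  classical
  intro γ hγ
  have : Finite (Γ ⧸ H) := Subgroup.finite_quotient_of_finiteIndex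
  let _ : Fintype (Quotient (MulAction.orbitRel (Subgroup.zpowers γ) (Γ ⧸ H))) :=
    Fintype.ofFinite _
  show Multiplicative.toAdd (MonoidHom.transfer (AddMonoidHom.toMultiplicativeRight χ) γ) = 0
  rw [MonoidHom.transfer_eq_prod_quotient_orbitRel_zpowers_quot, toAdd_prod]
  refine Finset.sum_eq_zero fun q _ => ?_
  refine hχ _ ?_
  have h1 := cor81_trace_conj_pow (γ : SL(2, ℤ)) ((q.out.out : Γ) : SL(2, ℤ))
    (Function.minimalPeriod (γ • ·) q.out) hγ
  simpa using h1

end parabolic

/-! ## Corestriction along an injective homomorphism `ι : K →* G` with range of finite index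

Both `cores_α` (`ι` = the inclusion `Γ₀(M' q) → Γ₀(M')`) and `cores_β` (`ι` = conjugation by
`diag(q, 1)`) are instances. -/

section hom

variable {G K : Type*} [Group G] [Group K] (ι : K →* G) (hι : Function.Injective ι)
  [ι.range.FiniteIndex]

/-- Corestriction of additive characters along an injective homomorphism with range of finite
index: the transfer from `ι.range` of the character `χ ∘ ι⁻¹`. -/
noncomputable def cor81_coresHom (A : Type*) [AddCommGroup A] :
    (Additive K →+ A) →+ (Additive G →+ A) :=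
  (cor81_transferAddHom ι.range A).comp
    (AddMonoidHom.mk'
      (fun χ : Additive K →+ A =>
        χ.comp (MonoidHom.toAdditive
          ((MonoidHom.ofInjective hι).symm : ι.range →* K)))
      (fun _ _ => rfl))

theorem cor81_coresHom_apply {A : Type*} [AddCommGroup A] (χ : Additive K →+ A) :
    cor81_coresHom ι hι A χ =
      cor81_transferAdd ι.range (χ.comp (MonoidHom.toAdditive
        ((MonoidHom.ofInjective hι).symm : ι.range →* K))) := rfl

/-- Explicit formula: for a section `f` of `G → G ⧸ ι.range` and `k q ∈ K` with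
`ι (k q) = (f (g • q))⁻¹ * g * f q`, the corestriction of `χ` at `g` is `∑ q, χ (k q)`. -/
theorem cor81_coresHom_eq {A : Type*} [AddCommGroup A] [Fintype (G ⧸ ι.range)]
    (χ : Additive K →+ A) (f : G ⧸ ι.range → G) (hf : ∀ q, (f q : G ⧸ ι.range) = q) (g : G)
    (k : G ⧸ ι.range → K) (hk : ∀ q, ι (k q) = (f (g • q))⁻¹ * g * f q) :
    cor81_coresHom ι hι A χ (Additive.ofMul g) = ∑ q, χ (Additive.ofMul (k q)) := by
  rw [cor81_coresHom_apply,
    cor81_transferAdd_eq ι.range _ f hf g (fun q => ⟨ι (k q), k q, rfl⟩) (fun q => hk q)]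
  refine Finset.sum_congr rfl fun q _ => ?_
  show χ (Additive.ofMul ((MonoidHom.ofInjective hι).symm ⟨ι (k q), k q, rfl⟩)) = _
  have h1 : (MonoidHom.ofInjective hι).symm ⟨ι (k q), k q, rfl⟩ = k q := by
    apply hι
    have h2 := (MonoidHom.ofInjective hι).apply_symm_apply ⟨ι (k q), k q, rfl⟩
    exact congrArg Subtype.val h2
  rw [h1]

/-- The corestriction is natural in the coefficient group (base change). -/
theorem cor81_coresHom_comp {A B : Type*} [AddCommGroup A] [AddCommGroup B] (ψ : A →+ B)
    (χ : Additive K →+ A) :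
    cor81_coresHom ι hι B (ψ.comp χ) = ψ.comp (cor81_coresHom ι hι A χ) := by
  rw [cor81_coresHom_apply, cor81_coresHom_apply, ← cor81_transferAdd_comp]
  rfl

/-- **Consumer lemma of (2a), homomorphism form**: if `h₁` has the character `χ` under `K`
acting through `ι`, then the product of the translates of `h₁` over representatives of
`G ⧸ ι.range` has the character `cor81_coresHom ι hι ℤ χ` under `G` (literal shape of
`thz31_IsCharZ`). -/
theorem cor81_isCharZ_prod_hom {M : Type*} [Field M] [MulSemiringAction G M]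
    {κ : Type*} [Fintype κ] (ζ : M) (hζ0 : ζ ≠ 0) (hζ : ∀ g : G, g • ζ = ζ)
    (χ : Additive K →+ ℤ) (h₁ : M)
    (hh : ∀ k : K, ι k • h₁ = ζ ^ (χ (Additive.ofMul k)) * h₁)
    (t : κ → G) (ht : Function.Bijective fun i => (t i : G ⧸ ι.range)) (g : G) :
    g • (∏ i, t i • h₁) =
      ζ ^ (cor81_coresHom ι hι ℤ χ (Additive.ofMul g)) * ∏ i, t i • h₁ := by
  rw [cor81_coresHom_apply]
  refine cor81_isCharZ_prod_of_bij ι.range ζ hζ0 hζ _ h₁ ?_ t ht g
  intro η
  obtain ⟨k, hk⟩ := η.2
  have h1 : (MonoidHom.ofInjective hι).symm η = k := by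
    apply hι
    have h2 := (MonoidHom.ofInjective hι).apply_symm_apply η
    rw [hk]
    exact congrArg Subtype.val h2
  show (η : G) • h₁ = ζ ^ (χ (Additive.ofMul ((MonoidHom.ofInjective hι).symm η))) * h₁
  rw [h1, ← hk]
  exact hh k

end hom

section homParabolic

variable {K : Type*} [Group K] (Γ : Subgroup SL(2, ℤ)) (ι : K →* Γ)
  (hι : Function.Injective ι) [ι.range.FiniteIndex]

/-- The corestriction of a character of `K` which kills the elements of trace `± 2` (trace
taken through `ι`) is a parabolic homomorphism of `Γ`. -/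
theorem cor81_coresHom_parabolic {A : Type*} [AddCommGroup A] (χ : Additive K →+ A)
    (hχ : ∀ k : K, (((ι k : Γ) : SL(2, ℤ)) : Matrix (Fin 2) (Fin 2) ℤ).trace ^ 2 = 4 →
      χ (Additive.ofMul k) = 0) :
    ModularCurve.Period.IsParabolicHom Γ (cor81_coresHom ι hι A χ) := by
  rw [cor81_coresHom_apply]
  refine cor81_parabolic Γ ι.range _ ?_
  intro η hη
  obtain ⟨k, hk⟩ := η.2
  have h1 : (MonoidHom.ofInjective hι).symm η = k := by
    apply hι
    have h2 := (MonoidHom.ofInjective hι).apply_symm_apply η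
    rw [hk]
    exact congrArg Subtype.val h2
  show χ (Additive.ofMul ((MonoidHom.ofInjective hι).symm η)) = 0
  rw [h1]
  apply hχ
  rw [hk]
  exact hη

/-- The corestriction as a map of parabolic homomorphisms, for a character group `K = Γ'` which
is itself a subgroup of `SL(2, ℤ)`, when `ι` preserves the property "trace `± 2`". -/
theorem cor81_coresHom_mem_parabolicHoms (R : Type*) [Semiring R] {A : Type*} [AddCommGroup A]
    [Module R A] (Γ' : Subgroup SL(2, ℤ)) (j : Γ' →* Γ) (hj : Function.Injective j)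
    [j.range.FiniteIndex]
    (htr : ∀ k : Γ', (((j k : Γ) : SL(2, ℤ)) : Matrix (Fin 2) (Fin 2) ℤ).trace ^ 2 = 4 →
      ((k : SL(2, ℤ)) : Matrix (Fin 2) (Fin 2) ℤ).trace ^ 2 = 4)
    (φ : Additive Γ' →+ A) (hφ : φ ∈ ModularCurve.Period.parabolicHoms R Γ' A) :
    cor81_coresHom j hj A φ ∈ ModularCurve.Period.parabolicHoms R Γ A :=
  cor81_coresHom_parabolic Γ j hj φ fun k hk => hφ k (htr k hk)

end homParabolic

end Fermat.Agent.S35
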