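import Mathlib

/-!
# S35 lab (helper12): density of `B_n` for a valuation not centred at `n`  (abstract, Mathlib only)

`F` a field, `R → F`, `π : R`, `B` an `R`-subalgebra of `F`, `V` a subring of `F` containing `B`
(in the application: one of the two Gauss valuation rings `V_∞`, `V_0` of the S34 lab frame),
`n` a prime ideal of `B` which is NOT on the branch `V`: there is `t ∈ B`, `t ∉ n`, `π⁻¹ t ∈ V`.

* `dn12_dense_V` : every `x ∈ V` is approximated modulo `π ^ N V` by elements regular at `n`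
  (`∃ s ∉ n, s y ∈ B`), provided `V` is the localisation of `B` at its centre
  (`hfrac : ∀ x ∈ V, ∃ a b : B, b ≠ 0, b⁻¹ ∈ V, x b = a`) and `1 + π V ⊆ V^×`.
* `dn12_dense`   : the same for every `x : F` (archimedean hypothesis `∀ x, ∃ k, π ^ k x ∈ V`).
* `dn12_dense_frac` : the same from `F = Frac B` + discreteness of `V` on `B` only.
-/

namespace Fermat.Agent.S35

section

variable {R F : Type*} [CommRing R] [Field F] [Algebra R F]

/-- density of `B_n` in `V` for the `π`-adic topology of `V`, `n` not on the branch `V`. -/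
theorem dn12_dense_V (π : R) (hπ0 : algebraMap R F π ≠ 0) (B : Subalgebra R F) (V : Subring F)
    (hBV : ∀ x ∈ B, x ∈ V)
    (hVunit : ∀ x ∈ V, (1 + algebraMap R F π * x)⁻¹ ∈ V)
    (hfrac : ∀ x ∈ V, ∃ a b : B, (b : F) ≠ 0 ∧ (b : F)⁻¹ ∈ V ∧ x * (b : F) = (a : F))
    (n : Ideal B) (hn : n.IsPrime) (t : B) (htn : t ∉ n)
    (htV : (algebraMap R F π)⁻¹ * (t : F) ∈ V)
    (x : F) (hx : x ∈ V) (N : ℕ) :
    ∃ y : F, (∃ s : B, s ∉ n ∧ (s : F) * y ∈ B) ∧ ((algebraMap R F π)⁻¹) ^ N * (x - y) ∈ V := by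
  obtain ⟨a, b, hb0, hbinv, hxb⟩ := hfrac x hx
  have hxab : x = (a : F) * (b : F)⁻¹ := by
    rw [← hxb]; field_simp
  by_cases hbn : b ∈ n
  · -- perturb the denominator
    set b' : B := b + t ^ (N + 1) with hb'
    have hb'n : b' ∉ n := by
      intro h
      have h1 : t ^ (N + 1) ∈ n := by
        have h2 : b' - b ∈ n := n.sub_mem h hbn
        have h3 : b' - b = t ^ (N + 1) := by rw [hb']; ring
        rwa [h3] at h2
      exact htn (hn.mem_of_pow_mem _ h1)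
    have htF : (t : F) ∈ V := hBV _ t.2
    -- `b' = b * (1 + π * x0)` with `x0 ∈ V`
    set x0 : F := ((algebraMap R F π)⁻¹ * (t : F)) * (t : F) ^ N * (b : F)⁻¹ with hx0
    have hx0V : x0 ∈ V := V.mul_mem (V.mul_mem htV (V.pow_mem htF N)) hbinv
    have hb'F : ((b' : B) : F) = (b : F) * (1 + algebraMap R F π * x0) := by
      have h1 : ((b' : B) : F) = (b : F) + (t : F) ^ (N + 1) := rfl
      rw [h1, hx0]
      field_simp
      ring
    have hu := hVunit x0 hx0V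
    have h1ne : (1 + algebraMap R F π * x0) ≠ 0 := by
      intro h0
      have hb'0 : ((b' : B) : F) = 0 := by rw [hb'F, h0, mul_zero]
      apply hb'n
      have : b' = 0 := Subtype.ext (by simpa using hb'0)
      rw [this]; exact n.zero_mem
    have hb'0 : ((b' : B) : F) ≠ 0 := by rw [hb'F]; exact mul_ne_zero hb0 h1ne
    refine ⟨(a : F) * ((b' : B) : F)⁻¹, ⟨b', hb'n, ?_⟩, ?_⟩
    · have h2 : ((b' : B) : F) * ((a : F) * ((b' : B) : F)⁻¹) = (a : F) := by
        field_simp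
      rw [h2]; exact a.2
    · have h3 : ((algebraMap R F π)⁻¹) ^ N * (x - (a : F) * ((b' : B) : F)⁻¹)
          = (a : F) * (((algebraMap R F π)⁻¹ * (t : F)) ^ N * (t : F)) * ((b : F)⁻¹ * (b : F)⁻¹)
            * (1 + algebraMap R F π * x0)⁻¹ := by
        rw [hxab, hb'F]
        have h4 : (b : F) * (1 + algebraMap R F π * x0) - (b : F) = (t : F) ^ (N + 1) := by
          rw [← hb'F]
          show (b : F) + (t : F) ^ (N + 1) - (b : F) = _
          ring
        have h5 : (a : F) * (b : F)⁻¹ - (a : F) * ((b : F) * (1 + algebraMap R F π * x0))⁻¹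
            = (a : F) * ((b : F) * (1 + algebraMap R F π * x0) - (b : F)) * ((b : F)⁻¹ * (b : F)⁻¹)
              * (1 + algebraMap R F π * x0)⁻¹ := by
          field_simp
        rw [h5, h4, mul_pow, pow_succ]
        ring
      rw [h3]
      exact V.mul_mem (V.mul_mem (V.mul_mem (hBV _ a.2) (V.mul_mem (V.pow_mem htV N) htF))
        (V.mul_mem hbinv hbinv)) hu
  · refine ⟨x, ⟨b, hbn, ?_⟩, ?_⟩
    · rw [mul_comm, hxb]; exact a.2
    · rw [sub_self, mul_zero]; exact V.zero_mem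

/-- density of `B_n` in `F` for the `π`-adic topology of `V`. -/
theorem dn12_dense (π : R) (hπ0 : algebraMap R F π ≠ 0) (B : Subalgebra R F) (V : Subring F)
    (hBV : ∀ x ∈ B, x ∈ V)
    (hVunit : ∀ x ∈ V, (1 + algebraMap R F π * x)⁻¹ ∈ V)
    (hfrac : ∀ x ∈ V, ∃ a b : B, (b : F) ≠ 0 ∧ (b : F)⁻¹ ∈ V ∧ x * (b : F) = (a : F))
    (harch : ∀ x : F, ∃ k : ℕ, (algebraMap R F π) ^ k * x ∈ V)
    (n : Ideal B) (hn : n.IsPrime) (t : B) (htn : t ∉ n)
    (htV : (algebraMap R F π)⁻¹ * (t : F) ∈ V)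
    (x : F) (N : ℕ) :
    ∃ y : F, (∃ s : B, s ∉ n ∧ (s : F) * y ∈ B) ∧ ((algebraMap R F π)⁻¹) ^ N * (x - y) ∈ V := by
  have ht0 : (t : F) ≠ 0 := by
    intro h0
    apply htn
    have : t = 0 := Subtype.ext (by simpa using h0)
    rw [this]; exact n.zero_mem
  have htF : (t : F) ∈ V := hBV _ t.2
  obtain ⟨k, hk⟩ := harch x
  obtain ⟨e, he⟩ := harch (t : F)⁻¹
  -- `t ^ k * x ∈ V`
  have h1 : (t : F) ^ k * x ∈ V := by
    have h2 : (t : F) ^ k * x = ((algebraMap R F π)⁻¹ * (t : F)) ^ k * ((algebraMap R F π) ^ k * x) := by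
      rw [mul_pow, inv_pow]
      field_simp
    rw [h2]
    exact V.mul_mem (V.pow_mem htV k) hk
  obtain ⟨y0, ⟨s, hsn, hsy⟩, hy0⟩ :=
    dn12_dense_V π hπ0 B V hBV hVunit hfrac n hn t htn htV _ h1 (N + k * e)
  refine ⟨((t : F) ^ k)⁻¹ * y0, ⟨s * t ^ k, ?_, ?_⟩, ?_⟩
  · intro h
    rcases hn.mem_or_mem h with h' | h'
    · exact hsn h'
    · exact htn (hn.mem_of_pow_mem _ h')
  · have h3 : (((s * t ^ k : B) : B) : F) * (((t : F) ^ k)⁻¹ * y0) = (s : F) * y0 := by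
      have h4 : (((s * t ^ k : B) : B) : F) = (s : F) * (t : F) ^ k := rfl
      rw [h4]
      field_simp
    rw [h3]; exact hsy
  · have h5 : ((algebraMap R F π)⁻¹) ^ N * (x - ((t : F) ^ k)⁻¹ * y0)
        = (((algebraMap R F π)⁻¹) ^ (N + k * e) * ((t : F) ^ k * x - y0))
          * ((algebraMap R F π) ^ e * (t : F)⁻¹) ^ k := by
      have hπk : (algebraMap R F π) ^ (k * e) ≠ 0 := pow_ne_zero _ hπ0
      have htk : (t : F) ^ k ≠ 0 := pow_ne_zero _ ht0
      rw [pow_add, mul_pow, ← pow_mul, inv_pow, inv_pow, inv_pow, mul_comm e k]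
      field_simp
    rw [h5]
    exact V.mul_mem hy0 (V.pow_mem he k)

/-- density of `B_n` in `F` for the `π`-adic topology of `V`, from `F = Frac B` and the
discreteness of `V` on `B` only (no description of `V` as a localisation of `B`): for
`x = a / b` with `b ∈ n`, `b = π ^ k · unit`, take `y := a / (b + t ^ (N + 2 k + 1))`. -/
theorem dn12_dense_frac (π : R) (hπ0 : algebraMap R F π ≠ 0) (B : Subalgebra R F) (V : Subring F)
    (hBV : ∀ x ∈ B, x ∈ V)
    (hVunit : ∀ x ∈ V, (1 + algebraMap R F π * x)⁻¹ ∈ V)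
    (hval : ∀ b ∈ B, b ≠ 0 → ∃ k : ℕ, (algebraMap R F π ^ k)⁻¹ * b ∈ V ∧
      ((algebraMap R F π ^ k)⁻¹ * b)⁻¹ ∈ V)
    (hFrac : ∀ x : F, ∃ a ∈ B, ∃ b ∈ B, b ≠ 0 ∧ x * b = a)
    (n : Ideal B) (hn : n.IsPrime) (t : B) (htn : t ∉ n)
    (htV : (algebraMap R F π)⁻¹ * (t : F) ∈ V)
    (x : F) (N : ℕ) :
    ∃ y : F, (∃ s : B, s ∉ n ∧ (s : F) * y ∈ B) ∧ ((algebraMap R F π)⁻¹) ^ N * (x - y) ∈ V := by
  obtain ⟨a, ha, b, hb, hb0, hxb⟩ := hFrac x
  by_cases hbn : (⟨b, hb⟩ : B) ∈ n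
  · obtain ⟨k, hb1, hb1inv⟩ := hval b hb hb0
    set p : F := algebraMap R F π with hp
    set b1 : F := (p ^ k)⁻¹ * b with hb1def
    set τ : F := p⁻¹ * (t : F) with hτdef
    have hpk : p ^ k ≠ 0 := pow_ne_zero _ hπ0
    have hb_eq : b = p ^ k * b1 := by rw [hb1def]; field_simp
    have ht_eq : (t : F) = p * τ := by rw [hτdef]; field_simp
    have hb10 : b1 ≠ 0 := by
      intro h0; rw [h0, mul_zero] at hb_eq; exact hb0 hb_eq
    set x0 : F := τ ^ (k + 1) * (t : F) ^ (N + k) * b1⁻¹ with hx0def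
    have htF : (t : F) ∈ V := hBV _ t.2
    have hx0V : x0 ∈ V := V.mul_mem (V.mul_mem (V.pow_mem htV _) (V.pow_mem htF _)) hb1inv
    have hw := hVunit x0 hx0V
    set b' : B := ⟨b, hb⟩ + t ^ (N + 2 * k + 1) with hb'def
    have hb'n : b' ∉ n := by
      intro h
      have h2 : b' - ⟨b, hb⟩ ∈ n := n.sub_mem h hbn
      have h3 : b' - ⟨b, hb⟩ = t ^ (N + 2 * k + 1) := by rw [hb'def]; ring
      rw [h3] at h2
      exact htn (hn.mem_of_pow_mem _ h2)
    have hb'F : ((b' : B) : F) = b * (1 + p * x0) := by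
      have h1 : ((b' : B) : F) = b + (t : F) ^ (N + 2 * k + 1) := rfl
      rw [h1, hx0def, ht_eq, hb_eq]
      field_simp
      ring
    have h1ne : (1 + p * x0) ≠ 0 := by
      intro h0
      apply hb'n
      have hz : ((b' : B) : F) = 0 := by rw [hb'F, h0, mul_zero]
      have : b' = 0 := Subtype.ext (by simpa using hz)
      rw [this]; exact n.zero_mem
    have hb'0 : ((b' : B) : F) ≠ 0 := by rw [hb'F]; exact mul_ne_zero hb0 h1ne
    refine ⟨a * ((b' : B) : F)⁻¹, ⟨b', hb'n, ?_⟩, ?_⟩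
    · have h2 : ((b' : B) : F) * (a * ((b' : B) : F)⁻¹) = a := by field_simp
      rw [h2]; exact ha
    · have hxa : x = a * b⁻¹ := by rw [← hxb]; field_simp
      have hdiff : b * (1 + p * x0) - b = (p * τ) ^ (N + 2 * k + 1) := by
        rw [← hb'F, ← ht_eq]
        show b + (t : F) ^ (N + 2 * k + 1) - b = _
        ring
      have h3 : (p⁻¹) ^ N * (x - a * ((b' : B) : F)⁻¹)
          = a * (τ ^ (N + 2 * k + 1) * p) * (b1⁻¹ * b1⁻¹) * (1 + p * x0)⁻¹ := by
        have h4 : x - a * ((b' : B) : F)⁻¹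
            = a * (b * (1 + p * x0) - b) * (b⁻¹ * b⁻¹) * (1 + p * x0)⁻¹ := by
          rw [hxa, hb'F]; field_simp
        rw [h4, hdiff, hb_eq, mul_pow, mul_inv, inv_pow]
        field_simp
        ring
      rw [h3]
      have hpV : p ∈ V := hBV _ (B.algebraMap_mem π)
      exact V.mul_mem (V.mul_mem (V.mul_mem (hBV _ ha) (V.mul_mem (V.pow_mem htV _) hpV))
        (V.mul_mem hb1inv hb1inv)) hw
  · refine ⟨x, ⟨⟨b, hb⟩, hbn, ?_⟩, ?_⟩
    · show b * x ∈ B
      rw [mul_comm, hxb]; exact ha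
    · rw [sub_self, mul_zero]; exact V.zero_mem

end

end Fermat.Agent.S35
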