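import Mathlib
import Fermat.Agent.S34.PkgLP32
import Fermat.Agent.S34.LocPrinDD9

/-!
# S35 lab, chain B, row B3 input (helper90): extensions of a discrete valuation ring are discrete

`F / F'` a finite field extension, `O'` a valuation subring of `F'` which is a principal ideal ring
and `≠ ⊤` (a discrete valuation ring), `O` a valuation subring of `F` lying over `O'`
(`algebraMap c ∈ O ↔ c ∈ O'`).  Then `O` is a principal ideal ring (`ed90_isPrincipalIdealRing`)
and `O ≠ ⊤` (`ed90_ne_top`).

Hence the valuation subrings of `F` over a horizontal valuation ring of `F'` are again horizontal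
in the sense of `s34i47_IsHoriz` (`ed90_isHoriz`), which is what the unit transport through the
norm (B3) needs in order to use a hypothesis on horizontal valuation rings only.

Proof (`t` a uniformiser of `O'`, `n = [F : F']`, `v` the valuation of `O`):
* `ed90_pow_le` : `v z ^ n ≤ v t` for every non-unit `z` of `O` (otherwise `1, z, …, z ^ n`
  would be linearly independent over `F'`);
* `ed90_exists_pow_le` : every nonzero `y ∈ O` has `v t ^ k ≤ v y` for some `k` (`y` is algebraic);
* so `y ↦ min {r | v t ^ r < v y ^ n}` strictly increases along strict divisibility, `O` has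
  well-founded divisibility, and a Bézout domain with that property is a principal ideal ring.

All names are prefixed `ed90_`.
-/

set_option autoImplicit false

namespace Fermat.Agent.S35

open Fermat.Agent.S34

section ed90

variable {F' F : Type*} [Field F'] [Field F] [Algebra F' F]

theorem ed90_val_lt_one (O : ValuationSubring F) (z : F) (hz : z ∈ O) (hzinv : z⁻¹ ∉ O) :
    O.valuation z < 1 := by
  have h1 : O.valuation z ≤ 1 := (O.valuation_le_one_iff z).mpr hz
  rcases lt_or_eq_of_le h1 with h | h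
  · exact h
  · exfalso
    apply hzinv
    rw [← O.valuation_le_one_iff, map_inv₀, h, inv_one]

theorem ed90_val_unit (O : ValuationSubring F) (z : F) (hz0 : z ≠ 0) (hz : z ∈ O)
    (hzinv : z⁻¹ ∈ O) : O.valuation z = 1 := by
  by_contra hne
  have h1 : O.valuation z ≤ 1 := (O.valuation_le_one_iff z).mpr hz
  have h2 : O.valuation z⁻¹ ≤ 1 := (O.valuation_le_one_iff _).mpr hzinv
  have hlt : O.valuation z < 1 := lt_of_le_of_ne h1 hne
  have h3 : O.valuation z * O.valuation z⁻¹ = 1 := by
    rw [← map_mul, mul_inv_cancel₀ hz0, map_one]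
  have h4 : O.valuation z * O.valuation z⁻¹ < 1 := by
    calc O.valuation z * O.valuation z⁻¹ ≤ O.valuation z * 1 := mul_le_mul' le_rfl h2
      _ = O.valuation z := mul_one _
      _ < 1 := hlt
  exact absurd h3 (ne_of_lt h4)

/-- **Bounded ramification**: `z ^ n ∈ t O` for every non-unit `z` of `O`, `n = [F : F']`. -/
theorem ed90_pow_le [FiniteDimensional F' F] (O' : ValuationSubring F') (O : ValuationSubring F)
    (hO : ∀ c : F', algebraMap F' F c ∈ O ↔ c ∈ O')
    (t : F') (ht0 : t ≠ 0) (hgen : ∀ x ∈ O', x⁻¹ ∉ O' → x * t⁻¹ ∈ O')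
    (z : F) (hz : z ∈ O) (hzinv : z⁻¹ ∉ O) :
    O.valuation z ^ Module.finrank F' F ≤ O.valuation (algebraMap F' F t) := by
  classical
  set v := O.valuation with hv
  set n := Module.finrank F' F with hn
  set τ := algebraMap F' F t with hτ
  by_contra hlt
  rw [not_le] at hlt
  have hz0 : z ≠ 0 := by
    rintro rfl
    exact hzinv (by rw [inv_zero]; exact O.zero_mem)
  have hvz1 : v z < 1 := ed90_val_lt_one O z hz hzinv
  have hvz0 : 0 < v z := zero_lt_iff.mpr ((Valuation.ne_zero_iff v).mpr hz0)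
  have hτ0 : τ ≠ 0 := (map_ne_zero_iff _ (algebraMap F' F).injective).mpr ht0
  have hvτ0 : 0 < v τ := zero_lt_iff.mpr ((Valuation.ne_zero_iff v).mpr hτ0)
  -- linear dependence of `1, z, …, z ^ n`
  have hnli : ¬ LinearIndependent F' (fun i : Fin (n + 1) => z ^ (i : ℕ)) := by
    intro h
    have h1 := h.fintype_card_le_finrank
    rw [Fintype.card_fin] at h1
    omega
  obtain ⟨g, hsum, i1, hi1⟩ := Fintype.not_linearIndependent_iff.mp hnli
  obtain ⟨j, -, hj⟩ := Finset.exists_max_image Finset.univ (fun i => O'.valuation (g i))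
    ⟨i1, Finset.mem_univ i1⟩
  have hgj : g j ≠ 0 := by
    intro h0
    have h1 := hj i1 (Finset.mem_univ i1)
    rw [h0, map_zero] at h1
    exact hi1 ((map_eq_zero _).mp (le_antisymm h1 zero_le))
  -- normalised coefficients
  have hc : ∀ i, g i / g j ∈ O' := by
    intro i
    rw [← O'.valuation_le_one_iff, map_div₀]
    exact div_le_one_of_le₀ (hj i (Finset.mem_univ i)) zero_le
  have hsum' : ∑ i, algebraMap F' F (g i / g j) * z ^ (i : ℕ) = 0 := by
    have h1 : ∑ i, algebraMap F' F (g i / g j) * z ^ (i : ℕ) =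
        (algebraMap F' F (g j))⁻¹ * ∑ i, g i • z ^ (i : ℕ) := by
      rw [Finset.mul_sum]
      refine Finset.sum_congr rfl fun i _ => ?_
      rw [Algebra.smul_def, map_div₀]
      ring
    rw [h1, hsum, mul_zero]
  let P : Fin (n + 1) → Prop := fun i => g i / g j ≠ 0 ∧ (g i / g j)⁻¹ ∈ O'
  have hPj : P j := by
    refine ⟨?_, ?_⟩
    · rw [div_self hgj]; exact one_ne_zero
    · rw [div_self hgj, inv_one]; exact O'.one_mem
  have hne : (Finset.univ.filter P).Nonempty :=
    ⟨j, Finset.mem_filter.mpr ⟨Finset.mem_univ j, hPj⟩⟩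
  set i0 := (Finset.univ.filter P).min' hne with hi0
  have hPi0 : P i0 := (Finset.mem_filter.mp ((Finset.univ.filter P).min'_mem hne)).2
  have hmin : ∀ i, P i → i0 ≤ i := fun i hi =>
    (Finset.univ.filter P).min'_le i (Finset.mem_filter.mpr ⟨Finset.mem_univ i, hi⟩)
  -- valuations of the coefficients
  have hvP : ∀ i, P i → v (algebraMap F' F (g i / g j)) = 1 := by
    intro i hi
    refine ed90_val_unit O _ ?_ ((hO _).mpr (hc i)) ?_
    · exact (map_ne_zero_iff _ (algebraMap F' F).injective).mpr hi.1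
    · rw [← map_inv₀]
      exact (hO _).mpr hi.2
  have hvnP : ∀ i, ¬ P i → v (algebraMap F' F (g i / g j)) ≤ v τ := by
    intro i hi
    by_cases h0 : g i / g j = 0
    · rw [h0, map_zero, map_zero]; exact zero_le
    · have h1 : (g i / g j)⁻¹ ∉ O' := fun h => hi ⟨h0, h⟩
      have h2 := hgen _ (hc i) h1
      have h3 : algebraMap F' F (g i / g j) * τ⁻¹ ∈ O := by
        rw [hτ, ← map_inv₀, ← map_mul]; exact (hO _).mpr h2
      have h4 := (O.valuation_le_one_iff _).mpr h3
      rw [map_mul, map_inv₀] at h4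
      have h5 := (mul_inv_le_iff₀ hvτ0).mp h4
      rwa [one_mul] at h5
  have hterm : ∀ i ∈ Finset.univ.erase i0,
      v (algebraMap F' F (g i / g j) * z ^ (i : ℕ)) < v z ^ (i0 : ℕ) := by
    intro i hi
    have hne' : i ≠ i0 := Finset.ne_of_mem_erase hi
    rw [map_mul, map_pow]
    by_cases hPi : P i
    · rw [hvP i hPi, one_mul]
      have hlt' : (i0 : ℕ) < (i : ℕ) :=
        lt_of_le_of_ne (hmin i hPi) (fun h => hne' (Fin.ext h.symm))
      exact pow_lt_pow_right_of_lt_one₀ hvz0 hvz1 hlt'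
    · calc v (algebraMap F' F (g i / g j)) * v z ^ (i : ℕ) ≤ v τ * 1 :=
            mul_le_mul' (hvnP i hPi) (pow_le_one₀ zero_le hvz1.le)
        _ = v τ := mul_one _
        _ < v z ^ n := hlt
        _ ≤ v z ^ (i0 : ℕ) := pow_le_pow_of_le_one zero_le hvz1.le (Nat.lt_succ_iff.mp i0.2)
  have hi0term : algebraMap F' F (g i0 / g j) * z ^ (i0 : ℕ) =
      -∑ i ∈ Finset.univ.erase i0, algebraMap F' F (g i / g j) * z ^ (i : ℕ) := by
    rw [eq_neg_iff_add_eq_zero,
      Finset.add_sum_erase _ (fun i => algebraMap F' F (g i / g j) * z ^ (i : ℕ))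
        (Finset.mem_univ i0)]
    exact hsum'
  have h1 : v (algebraMap F' F (g i0 / g j) * z ^ (i0 : ℕ)) = v z ^ (i0 : ℕ) := by
    rw [map_mul, hvP i0 hPi0, one_mul, map_pow]
  have h2 : v (algebraMap F' F (g i0 / g j) * z ^ (i0 : ℕ)) < v z ^ (i0 : ℕ) := by
    rw [hi0term, Valuation.map_neg]
    exact Valuation.map_sum_lt v (pow_ne_zero _ hvz0.ne') hterm
  exact absurd h1 (ne_of_lt h2)

/-- **Every nonzero element of `O` divides a power of `t`.** -/
theorem ed90_exists_pow_le [FiniteDimensional F' F] (O' : ValuationSubring F')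
    (hPIR : IsPrincipalIdealRing O') (O : ValuationSubring F)
    (hO : ∀ c : F', algebraMap F' F c ∈ O ↔ c ∈ O')
    (t : F') (htO : t ∈ O') (htinv : t⁻¹ ∉ O')
    (hgen : ∀ x ∈ O', x⁻¹ ∉ O' → x * t⁻¹ ∈ O')
    (y : F) (hy : y ∈ O) (hy0 : y ≠ 0) :
    ∃ k : ℕ, O.valuation (algebraMap F' F t) ^ k ≤ O.valuation y := by
  classical
  set v := O.valuation with hv
  set τ := algebraMap F' F t with hτ
  have ht0 : t ≠ 0 := by
    rintro rfl
    exact htinv (by rw [inv_zero]; exact O'.zero_mem)
  have hτ0 : τ ≠ 0 := (map_ne_zero_iff _ (algebraMap F' F).injective).mpr ht0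
  have hvτ0 : 0 < v τ := zero_lt_iff.mpr ((Valuation.ne_zero_iff v).mpr hτ0)
  have hvy1 : v y ≤ 1 := (O.valuation_le_one_iff y).mpr hy
  have hint : IsIntegral F' y := Algebra.IsIntegral.isIntegral y
  set p := minpoly F' y with hp
  have hp0 : p.coeff 0 ≠ 0 := minpoly.coeff_zero_ne_zero hint hy0
  have hsum : ∑ i ∈ Finset.range (p.natDegree + 1), p.coeff i • y ^ i = 0 := by
    rw [← Polynomial.aeval_eq_sum_range]; exact minpoly.aeval F' y
  have h0mem : 0 ∈ Finset.range (p.natDegree + 1) := Finset.mem_range.mpr (Nat.succ_pos _)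
  obtain ⟨j, -, hj⟩ := Finset.exists_max_image (Finset.range (p.natDegree + 1))
    (fun i => O'.valuation (p.coeff i)) ⟨0, h0mem⟩
  have hgj : p.coeff j ≠ 0 := by
    intro h0
    have h1 := hj 0 h0mem
    rw [h0, map_zero] at h1
    exact hp0 ((map_eq_zero _).mp (le_antisymm h1 zero_le))
  have hc : ∀ i ∈ Finset.range (p.natDegree + 1), p.coeff i / p.coeff j ∈ O' := by
    intro i hi
    rw [← O'.valuation_le_one_iff, map_div₀]
    exact div_le_one_of_le₀ (hj i hi) zero_le
  have hsum' : ∑ i ∈ Finset.range (p.natDegree + 1),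
      algebraMap F' F (p.coeff i / p.coeff j) * y ^ i = 0 := by
    have h1 : ∑ i ∈ Finset.range (p.natDegree + 1),
        algebraMap F' F (p.coeff i / p.coeff j) * y ^ i =
        (algebraMap F' F (p.coeff j))⁻¹ *
          ∑ i ∈ Finset.range (p.natDegree + 1), p.coeff i • y ^ i := by
      rw [Finset.mul_sum]
      refine Finset.sum_congr rfl fun i _ => ?_
      rw [Algebra.smul_def, map_div₀]
      ring
    rw [h1, hsum, mul_zero]
  have hc00 : p.coeff 0 / p.coeff j ≠ 0 := div_ne_zero hp0 hgj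
  obtain ⟨k, hk1, hk2⟩ := plp32_exists_pow O' hPIR t htO htinv hgen _ hc00 (hc 0 h0mem)
  refine ⟨k, ?_⟩
  by_contra hlt
  rw [not_le] at hlt
  have hvC0 : v (algebraMap F' F (p.coeff 0 / p.coeff j)) = v τ ^ k := by
    have h1 : v (algebraMap F' F (p.coeff 0 / p.coeff j / t ^ k)) = 1 := by
      refine ed90_val_unit O _ ?_ ((hO _).mpr hk1) ?_
      · exact (map_ne_zero_iff _ (algebraMap F' F).injective).mpr
          (div_ne_zero hc00 (pow_ne_zero k ht0))
      · rw [← map_inv₀]
        exact (hO _).mpr hk2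
    have h2 : algebraMap F' F (p.coeff 0 / p.coeff j) =
        algebraMap F' F (p.coeff 0 / p.coeff j / t ^ k) * τ ^ k := by
      rw [hτ, ← map_pow, ← map_mul, div_mul_cancel₀ _ (pow_ne_zero k ht0)]
    rw [h2, map_mul, h1, one_mul, map_pow]
  have hterm : ∀ i ∈ (Finset.range (p.natDegree + 1)).erase 0,
      v (algebraMap F' F (p.coeff i / p.coeff j) * y ^ i) < v τ ^ k := by
    intro i hi
    have hi0 : i ≠ 0 := Finset.ne_of_mem_erase hi
    have hir := Finset.mem_of_mem_erase hi
    rw [map_mul, map_pow]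
    calc v (algebraMap F' F (p.coeff i / p.coeff j)) * v y ^ i ≤ 1 * v y ^ 1 :=
          mul_le_mul' ((O.valuation_le_one_iff _).mpr ((hO _).mpr (hc i hir)))
            (pow_le_pow_of_le_one zero_le hvy1 (Nat.one_le_iff_ne_zero.mpr hi0))
      _ = v y := by rw [one_mul, pow_one]
      _ < v τ ^ k := hlt
  have h0term : algebraMap F' F (p.coeff 0 / p.coeff j) * y ^ 0 =
      -∑ i ∈ (Finset.range (p.natDegree + 1)).erase 0,
        algebraMap F' F (p.coeff i / p.coeff j) * y ^ i := by
    rw [eq_neg_iff_add_eq_zero,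
      Finset.add_sum_erase _ (fun i => algebraMap F' F (p.coeff i / p.coeff j) * y ^ i) h0mem]
    exact hsum'
  have h2 : v (algebraMap F' F (p.coeff 0 / p.coeff j) * y ^ 0) < v τ ^ k := by
    rw [h0term, Valuation.map_neg]
    exact Valuation.map_sum_lt v (pow_ne_zero _ hvτ0.ne') hterm
  rw [pow_zero, mul_one, hvC0] at h2
  exact lt_irrefl _ h2

/-- **A valuation subring of a finite extension lying over a discrete valuation ring is a
principal ideal ring.** -/
theorem ed90_isPrincipalIdealRing [FiniteDimensional F' F] (O' : ValuationSubring F')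
    (hPIR : IsPrincipalIdealRing O') (hne : O' ≠ ⊤) (O : ValuationSubring F)
    (hO : ∀ c : F', algebraMap F' F c ∈ O ↔ c ∈ O') : IsPrincipalIdealRing O := by
  classical
  obtain ⟨t, ht0, htO, htinv, hgen⟩ := lpd9_exists_unif O' hne hPIR
  set v := O.valuation with hv
  set n := Module.finrank F' F with hn
  set τ := algebraMap F' F t with hτ
  have hτ0 : τ ≠ 0 := (map_ne_zero_iff _ (algebraMap F' F).injective).mpr ht0
  have hvτ0 : 0 < v τ := zero_lt_iff.mpr ((Valuation.ne_zero_iff v).mpr hτ0)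
  have hvτ1 : v τ < 1 := by
    refine ed90_val_lt_one O τ ((hO t).mpr htO) ?_
    rw [hτ, ← map_inv₀]
    exact fun h => htinv ((hO _).mp h)
  -- the measure
  have hex : ∀ y : O, y ≠ 0 → ∃ r : ℕ, v τ ^ r < v (y : F) ^ n := by
    intro y hy
    have hy0 : (y : F) ≠ 0 := fun h => hy (Subtype.ext h)
    obtain ⟨k, hk⟩ := ed90_exists_pow_le O' hPIR O hO t htO htinv hgen (y : F) y.2 hy0
    refine ⟨k * n + 1, ?_⟩
    calc v τ ^ (k * n + 1) < v τ ^ (k * n) :=
          pow_lt_pow_right_of_lt_one₀ hvτ0 hvτ1 (Nat.lt_succ_self _)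
      _ = (v τ ^ k) ^ n := pow_mul _ _ _
      _ ≤ v (y : F) ^ n := pow_le_pow_left₀ zero_le hk n
  let f : O → WithTop ℕ := fun y =>
    if h : y = 0 then ⊤ else ((Nat.find (hex y h) : ℕ) : WithTop ℕ)
  have hwf : WellFounded (DvdNotUnit : O → O → Prop) := by
    refine Subrelation.wf ?_ (InvImage.wf f wellFounded_lt)
    intro a b hab
    obtain ⟨ha0, x, hx, rfl⟩ := hab
    show f a < f (a * x)
    by_cases hx0 : x = 0
    · have h1 : f (a * x) = ⊤ := by
        show (if h : a * x = 0 then (⊤ : WithTop ℕ) else _) = ⊤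
        rw [dif_pos (by rw [hx0, mul_zero])]
      have h2 : f a = ((Nat.find (hex a ha0) : ℕ) : WithTop ℕ) := by
        show (if h : a = 0 then (⊤ : WithTop ℕ) else _) = _
        rw [dif_neg ha0]
      rw [h1, h2]
      exact WithTop.coe_lt_top _
    · have hb0 : a * x ≠ 0 := mul_ne_zero ha0 hx0
      have h1 : f (a * x) = ((Nat.find (hex (a * x) hb0) : ℕ) : WithTop ℕ) := by
        show (if h : a * x = 0 then (⊤ : WithTop ℕ) else _) = _
        rw [dif_neg hb0]
      have h2 : f a = ((Nat.find (hex a ha0) : ℕ) : WithTop ℕ) := by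
        show (if h : a = 0 then (⊤ : WithTop ℕ) else _) = _
        rw [dif_neg ha0]
      rw [h1, h2]
      refine WithTop.coe_lt_coe.mpr ?_
      have hr_spec : v τ ^ Nat.find (hex (a * x) hb0) < v ((a * x : O) : F) ^ n :=
        Nat.find_spec (hex (a * x) hb0)
      have hxF0 : (x : F) ≠ 0 := fun h => hx0 (Subtype.ext h)
      have hxinv : (x : F)⁻¹ ∉ O := by
        intro h
        apply hx
        refine isUnit_iff_exists_inv.mpr ⟨⟨(x : F)⁻¹, h⟩, ?_⟩
        apply Subtype.ext
        show (x : F) * (x : F)⁻¹ = 1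
        exact mul_inv_cancel₀ hxF0
      have h3 := ed90_pow_le O' O hO t ht0 hgen (x : F) x.2 hxinv
      have hax1 : v ((a * x : O) : F) ≤ 1 := (O.valuation_le_one_iff _).mpr (a * x).2
      rcases Nat.eq_zero_or_pos (Nat.find (hex (a * x) hb0)) with h0 | hpos
      · exfalso
        rw [h0, pow_zero] at hr_spec
        exact absurd (pow_le_one₀ zero_le hax1) (not_le.mpr hr_spec)
      · obtain ⟨r', hr'⟩ : ∃ r', Nat.find (hex (a * x) hb0) = r' + 1 :=
          ⟨Nat.find (hex (a * x) hb0) - 1, by omega⟩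
        have h4 : v τ ^ r' * v τ < v (a : F) ^ n * v τ := by
          calc v τ ^ r' * v τ = v τ ^ Nat.find (hex (a * x) hb0) := by rw [hr', pow_succ]
            _ < v ((a * x : O) : F) ^ n := hr_spec
            _ = v (a : F) ^ n * v (x : F) ^ n := by
                rw [show ((a * x : O) : F) = (a : F) * (x : F) from rfl, map_mul, mul_pow]
            _ ≤ v (a : F) ^ n * v τ := mul_le_mul' le_rfl h3
        have h5 : v τ ^ r' < v (a : F) ^ n := lt_of_mul_lt_mul_right h4 zero_le
        have h6 : Nat.find (hex a ha0) ≤ r' := Nat.find_min' _ h5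
        rw [hr']
        exact Nat.lt_succ_of_le h6
  have hW : WfDvdMonoid O := ⟨hwf⟩
  have hT := (IsBezout.TFAE (R := ↥O)).out 3 1
  exact hT.mp hW

theorem ed90_ne_top (O' : ValuationSubring F') (hne : O' ≠ ⊤) (O : ValuationSubring F)
    (hO : ∀ c : F', algebraMap F' F c ∈ O ↔ c ∈ O') : O ≠ ⊤ := by
  intro htop
  apply hne
  rw [eq_top_iff]
  intro c _
  rw [← hO, htop]
  trivial

end ed90

end Fermat.Agent.S35
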