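import Mathlib

/-!
# S35 lab, chain B, row B3b (helper76): closed points in the fibres of `α`, `β` — abstract form

Mathlib only.  Setting (the one of `NodeFrob99` / `NodeFrob11`, with ring automorphisms):
`B'` the chart of level `M'`, `B` the chart of level `M = M' q`, `α β : B' →+* B` the two
degeneracy maps, `w : B ≃+* B` the Atkin–Lehner involution, `s : B ≃+* B` and `s' : B' ≃+* B'`
the coefficientwise action of a Frobenius lift, `P₁` (the `∞`-branch) and `P₂` (the `0`-branch)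
the two vertical ideals of `B`.  Hypotheses (`fb76_Hyp`):

* `w ∘ α = β`, `w ∘ β = α`, `w ∘ w = id`, `s ∘ α = α ∘ s'`, `s ∘ w = w ∘ s`;
* `b ∈ P₂ ↔ w b ∈ P₁`, `b ∈ P₁ ↔ s b ∈ P₁`;
* (SURJ) `B = α(B') + P₁`;  (KRON) `β b' ≡ (α (s'⁻¹ b'))^q` modulo `P₁`, `q ≠ 0`.

Notation for an ideal `n` of `B`: `s⁻¹ n = n.comap s`, `s n = n.comap s.symm`, `w n = n.comap w`.

Results, for PRIME ideals `n`, `n''` of `B`:

* `fb76_F1a` … `fb76_F1d`: if `n''.comap β = n.comap α` then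
  `P₁ ≤ n''`, `P₁ ≤ n` ⟹ `n'' = s⁻¹ n`;   `P₂ ≤ n''`, `P₁ ≤ n` ⟹ `n'' = w n`;
  `P₁ ≤ n''`, `P₂ ≤ n` ⟹ `n'' = w n`;     `P₂ ≤ n''`, `P₂ ≤ n` ⟹ `n'' = s n`.
* `fb76_F2a` … `fb76_F2d`: if `n''.comap α = n.comap β` then
  `P₁ ≤ n''`, `P₁ ≤ n` ⟹ `n'' = s n`;     `P₂ ≤ n''`, `P₁ ≤ n` ⟹ `n'' = w n`;
  `P₁ ≤ n''`, `P₂ ≤ n` ⟹ `n'' = w n`;     `P₂ ≤ n''`, `P₂ ≤ n` ⟹ `n'' = s⁻¹ n`.
* `fb76_F1`, `fb76_F2`, `fb76_fibre_cases`: the disjunctive forms
  `n'' = s⁻¹ n ∨ n'' = w n ∨ n'' = s n`.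
* `fb76_fibre` (the corollary consumed by B3): in all cases
  `s⁻¹ n'' = n ∨ s⁻¹ n'' = s⁻¹ s⁻¹ n ∨ s⁻¹ n'' = s⁻¹ w n`.
* `fb76_node`, `fb76_node'`: at a node (`P₁ ≤ n`, `P₂ ≤ n`): `w n = s n`, `s (s n) = n`,
  `s⁻¹ n = w n`, `s⁻¹ s⁻¹ n = n`.
* tools: `fb76_ext` (an ideal above `P₁` is determined by its trace on `α(B')`),
  `fb76_beta_iff` (`β b' ∈ n ↔ α (s'⁻¹ b') ∈ n` for a prime `n ⊇ P₁`),
  `fb76_alpha_iff` (`α b' ∈ n ↔ β (s'⁻¹ b') ∈ n` for a prime `n ⊇ P₂`).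
-/

set_option autoImplicit false
set_option linter.unusedVariables false
set_option linter.unusedSectionVars false

namespace Fermat.Agent.S35

section fb76

variable {B' B : Type*} [CommRing B'] [CommRing B]

/-- The hypotheses of row B3b. -/
structure fb76_Hyp (α β : B' →+* B) (s w : B ≃+* B) (s' : B' ≃+* B') (P₁ P₂ : Ideal B)
    (q : ℕ) : Prop where
  hq : q ≠ 0
  hwα : ∀ b' : B', w (α b') = β b'
  hwβ : ∀ b' : B', w (β b') = α b'
  hww : ∀ b : B, w (w b) = b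
  hsα : ∀ b' : B', s (α b') = α (s' b')
  hsw : ∀ b : B, s (w b) = w (s b)
  hwP : ∀ b : B, b ∈ P₂ ↔ w b ∈ P₁
  hsP : ∀ b : B, b ∈ P₁ ↔ s b ∈ P₁
  hsurj : ∀ b : B, ∃ b' : B', b - α b' ∈ P₁
  hK : ∀ b' : B', β b' - (α (s'.symm b')) ^ q ∈ P₁

variable {α β : B' →+* B} {s w : B ≃+* B} {s' : B' ≃+* B'} {P₁ P₂ : Ideal B} {q : ℕ}

/-- If `x - y ∈ n` then `x ∈ n ↔ y ∈ n`. -/
theorem fb76_iff_of_sub (n : Ideal B) (x y : B) (h : x - y ∈ n) : x ∈ n ↔ y ∈ n := by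
  constructor
  · intro hx
    have e : y = x - (x - y) := by ring
    rw [e]; exact n.sub_mem hx h
  · intro hy
    have e : x = y + (x - y) := by ring
    rw [e]; exact n.add_mem hy h

namespace fb76_Hyp

variable (H : fb76_Hyp α β s w s' P₁ P₂ q)
include H

/-- `s ∘ β = β ∘ s'`. -/
theorem hsβ (b' : B') : s (β b') = β (s' b') := by
  rw [← H.hwα, H.hsw, H.hsα, H.hwα]

/-- `s⁻¹ ∘ α = α ∘ s'⁻¹`. -/
theorem symm_α (b' : B') : s.symm (α b') = α (s'.symm b') := by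
  rw [RingEquiv.symm_apply_eq, H.hsα, RingEquiv.apply_symm_apply]

/-- `s⁻¹ ∘ w = w ∘ s⁻¹`. -/
theorem symm_w (b : B) : s.symm (w b) = w (s.symm b) := by
  rw [RingEquiv.symm_apply_eq, H.hsw, RingEquiv.apply_symm_apply]

/-- `b ∈ P₁ ↔ w b ∈ P₂`. -/
theorem mem_P₁_iff (b : B) : b ∈ P₁ ↔ w b ∈ P₂ := by
  rw [H.hwP (w b), H.hww]

/-- `b ∈ P₁ ↔ s⁻¹ b ∈ P₁`. -/
theorem mem_P₁_iff_symm (b : B) : b ∈ P₁ ↔ s.symm b ∈ P₁ := by
  rw [H.hsP (s.symm b), RingEquiv.apply_symm_apply]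

theorem P₁_le_comap_w {n : Ideal B} (h₂ : P₂ ≤ n) : P₁ ≤ n.comap w := fun b hb =>
  Ideal.mem_comap.mpr (h₂ ((H.mem_P₁_iff b).mp hb))

theorem P₂_le_comap_w {n : Ideal B} (h₁ : P₁ ≤ n) : P₂ ≤ n.comap w := fun b hb =>
  Ideal.mem_comap.mpr (h₁ ((H.hwP b).mp hb))

theorem P₁_le_comap_s {n : Ideal B} (h₁ : P₁ ≤ n) : P₁ ≤ n.comap s := fun b hb =>
  Ideal.mem_comap.mpr (h₁ ((H.hsP b).mp hb))

theorem P₁_le_comap_s_symm {n : Ideal B} (h₁ : P₁ ≤ n) : P₁ ≤ n.comap s.symm := fun b hb =>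
  Ideal.mem_comap.mpr (h₁ ((H.mem_P₁_iff_symm b).mp hb))

/-- `w (w n) = n`. -/
theorem comap_w_comap_w (n : Ideal B) : (n.comap w).comap w = n := by
  ext b
  rw [Ideal.mem_comap, Ideal.mem_comap, H.hww]

end fb76_Hyp

/-- `s⁻¹ (s n) = n`. -/
theorem fb76_comap_s_comap_symm (s : B ≃+* B) (n : Ideal B) : (n.comap s.symm).comap s = n := by
  ext b
  rw [Ideal.mem_comap, Ideal.mem_comap, RingEquiv.symm_apply_apply]

/-- `s (s⁻¹ n) = n`. -/
theorem fb76_comap_symm_comap_s (s : B ≃+* B) (n : Ideal B) : (n.comap s).comap s.symm = n := by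
  ext b
  rw [Ideal.mem_comap, Ideal.mem_comap, RingEquiv.apply_symm_apply]

variable (H : fb76_Hyp α β s w s' P₁ P₂ q)
include H

/-- **An ideal above `P₁` is determined by its trace on `α(B')`.** -/
theorem fb76_ext (m₁ m₂ : Ideal B) (h₁ : P₁ ≤ m₁) (h₂ : P₁ ≤ m₂)
    (h : ∀ b' : B', α b' ∈ m₁ ↔ α b' ∈ m₂) : m₁ = m₂ := by
  ext b
  obtain ⟨b', hb⟩ := H.hsurj b
  rw [fb76_iff_of_sub m₁ b (α b') (h₁ hb), fb76_iff_of_sub m₂ b (α b') (h₂ hb)]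
  exact h b'

/-- **`β⁻¹(n) = s'(α⁻¹(n))` above `P₁`**: for a prime `n ⊇ P₁`,
`β b' ∈ n ↔ α (s'⁻¹ b') ∈ n`. -/
theorem fb76_beta_iff (n : Ideal B) [n.IsPrime] (h₁ : P₁ ≤ n) (b' : B') :
    β b' ∈ n ↔ α (s'.symm b') ∈ n := by
  rw [fb76_iff_of_sub n _ _ (h₁ (H.hK b'))]
  exact ⟨fun h => Ideal.IsPrime.mem_of_pow_mem inferInstance q h,
    fun h => Ideal.pow_mem_of_mem n h q (Nat.pos_of_ne_zero H.hq)⟩

/-- the same with `s'` on the other side: `β (s' b') ∈ n ↔ α b' ∈ n` for a prime `n ⊇ P₁`. -/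
theorem fb76_beta_iff' (n : Ideal B) [n.IsPrime] (h₁ : P₁ ≤ n) (b' : B') :
    β (s' b') ∈ n ↔ α b' ∈ n := by
  rw [fb76_beta_iff H n h₁, RingEquiv.symm_apply_apply]

/-- **`α⁻¹(n) = s'(β⁻¹(n))` above `P₂`**: for a prime `n ⊇ P₂`,
`α b' ∈ n ↔ β (s'⁻¹ b') ∈ n`. -/
theorem fb76_alpha_iff (n : Ideal B) [n.IsPrime] (h₂ : P₂ ≤ n) (b' : B') :
    α b' ∈ n ↔ β (s'.symm b') ∈ n := by
  have h := fb76_beta_iff H (n.comap w) (H.P₁_le_comap_w h₂) b'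
  rwa [Ideal.mem_comap, Ideal.mem_comap, H.hwβ, H.hwα] at h

/-! ### (F1): `n''.comap β = n.comap α` -/

/-- (F1), both points on the `∞`-branch: `n'' = s⁻¹ n`. -/
theorem fb76_F1a (n n'' : Ideal B) [n.IsPrime] [n''.IsPrime]
    (hf : n''.comap β = n.comap α) (h₁'' : P₁ ≤ n'') (h₁ : P₁ ≤ n) : n'' = n.comap s := by
  refine fb76_ext H n'' (n.comap s) h₁'' (H.P₁_le_comap_s h₁) fun b' => ?_
  have e : s' b' ∈ n''.comap β ↔ s' b' ∈ n.comap α := by rw [hf]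
  rw [Ideal.mem_comap, Ideal.mem_comap] at e
  rw [Ideal.mem_comap, H.hsα, ← e, fb76_beta_iff' H n'' h₁'']

/-- (F2), both points on the `∞`-branch: `n'' = s n`. -/
theorem fb76_F2a (n n'' : Ideal B) [n.IsPrime] [n''.IsPrime]
    (hf : n''.comap α = n.comap β) (h₁'' : P₁ ≤ n'') (h₁ : P₁ ≤ n) : n'' = n.comap s.symm := by
  refine fb76_ext H n'' (n.comap s.symm) h₁'' (H.P₁_le_comap_s_symm h₁) fun b' => ?_
  have e : b' ∈ n''.comap α ↔ b' ∈ n.comap β := by rw [hf]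
  rw [Ideal.mem_comap, Ideal.mem_comap] at e
  rw [Ideal.mem_comap, H.symm_α, e, fb76_beta_iff H n h₁]

/-- (F1), `n''` on the `0`-branch, `n` on the `∞`-branch: `n'' = w n`. -/
theorem fb76_F1b (n n'' : Ideal B) [n.IsPrime] [n''.IsPrime]
    (hf : n''.comap β = n.comap α) (h₂'' : P₂ ≤ n'') (h₁ : P₁ ≤ n) : n'' = n.comap w := by
  have h : n''.comap w = n := by
    refine fb76_ext H (n''.comap w) n (H.P₁_le_comap_w h₂'') h₁ fun b' => ?_
    have e : b' ∈ n''.comap β ↔ b' ∈ n.comap α := by rw [hf]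
    rw [Ideal.mem_comap, Ideal.mem_comap] at e
    rw [Ideal.mem_comap, H.hwα, e]
  rw [← h, H.comap_w_comap_w]

/-- (F1), `n''` on the `∞`-branch, `n` on the `0`-branch: `n'' = w n`. -/
theorem fb76_F1c (n n'' : Ideal B) [n.IsPrime] [n''.IsPrime]
    (hf : n''.comap β = n.comap α) (h₁'' : P₁ ≤ n'') (h₂ : P₂ ≤ n) : n'' = n.comap w := by
  refine fb76_ext H n'' (n.comap w) h₁'' (H.P₁_le_comap_w h₂) fun b' => ?_
  have e : s' b' ∈ n''.comap β ↔ s' b' ∈ n.comap α := by rw [hf]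
  rw [Ideal.mem_comap, Ideal.mem_comap] at e
  rw [Ideal.mem_comap, H.hwα, ← fb76_beta_iff' H n'' h₁'' b', e,
    fb76_alpha_iff H n h₂ (s' b'), RingEquiv.symm_apply_apply]

/-- (F1), both points on the `0`-branch: `n'' = s n`. -/
theorem fb76_F1d (n n'' : Ideal B) [n.IsPrime] [n''.IsPrime]
    (hf : n''.comap β = n.comap α) (h₂'' : P₂ ≤ n'') (h₂ : P₂ ≤ n) : n'' = n.comap s.symm := by
  have hf' : (n''.comap w).comap α = (n.comap w).comap β := by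
    ext b'
    have e : b' ∈ n''.comap β ↔ b' ∈ n.comap α := by rw [hf]
    rw [Ideal.mem_comap, Ideal.mem_comap] at e
    rw [Ideal.mem_comap, Ideal.mem_comap, Ideal.mem_comap, Ideal.mem_comap, H.hwα, H.hwβ, e]
  have h := fb76_F2a H (n.comap w) (n''.comap w) hf' (H.P₁_le_comap_w h₂'')
    (H.P₁_le_comap_w h₂)
  have h2 : n'' = ((n.comap w).comap s.symm).comap w := by
    rw [← h, H.comap_w_comap_w]
  rw [h2]
  ext b
  rw [Ideal.mem_comap, Ideal.mem_comap, Ideal.mem_comap, Ideal.mem_comap, H.symm_w, H.hww]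

/-! ### (F2): `n''.comap α = n.comap β` -/

/-- (F2), `n''` on the `0`-branch, `n` on the `∞`-branch: `n'' = w n`. -/
theorem fb76_F2b (n n'' : Ideal B) [n.IsPrime] [n''.IsPrime]
    (hf : n''.comap α = n.comap β) (h₂'' : P₂ ≤ n'') (h₁ : P₁ ≤ n) : n'' = n.comap w := by
  have h : n''.comap w = n := by
    refine fb76_ext H (n''.comap w) n (H.P₁_le_comap_w h₂'') h₁ fun b' => ?_
    have e : s' b' ∈ n''.comap α ↔ s' b' ∈ n.comap β := by rw [hf]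
    rw [Ideal.mem_comap, Ideal.mem_comap] at e
    rw [← fb76_beta_iff' H (n''.comap w) (H.P₁_le_comap_w h₂'') b',
      ← fb76_beta_iff' H n h₁ b', Ideal.mem_comap, H.hwβ, e]
  rw [← h, H.comap_w_comap_w]

/-- (F2), `n''` on the `∞`-branch, `n` on the `0`-branch: `n'' = w n`. -/
theorem fb76_F2c (n n'' : Ideal B) [n.IsPrime] [n''.IsPrime]
    (hf : n''.comap α = n.comap β) (h₁'' : P₁ ≤ n'') (h₂ : P₂ ≤ n) : n'' = n.comap w := by
  refine fb76_ext H n'' (n.comap w) h₁'' (H.P₁_le_comap_w h₂) fun b' => ?_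
  have e : b' ∈ n''.comap α ↔ b' ∈ n.comap β := by rw [hf]
  rw [Ideal.mem_comap, Ideal.mem_comap] at e
  rw [Ideal.mem_comap, H.hwα, e]

/-- (F2), both points on the `0`-branch: `n'' = s⁻¹ n`. -/
theorem fb76_F2d (n n'' : Ideal B) [n.IsPrime] [n''.IsPrime]
    (hf : n''.comap α = n.comap β) (h₂'' : P₂ ≤ n'') (h₂ : P₂ ≤ n) : n'' = n.comap s := by
  have hf' : (n''.comap w).comap β = (n.comap w).comap α := by
    ext b'
    have e : b' ∈ n''.comap α ↔ b' ∈ n.comap β := by rw [hf]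
    rw [Ideal.mem_comap, Ideal.mem_comap] at e
    rw [Ideal.mem_comap, Ideal.mem_comap, Ideal.mem_comap, Ideal.mem_comap, H.hwα, H.hwβ, e]
  have h := fb76_F1a H (n.comap w) (n''.comap w) hf' (H.P₁_le_comap_w h₂'')
    (H.P₁_le_comap_w h₂)
  have h2 : n'' = ((n.comap w).comap s).comap w := by
    rw [← h, H.comap_w_comap_w]
  rw [h2]
  ext b
  rw [Ideal.mem_comap, Ideal.mem_comap, Ideal.mem_comap, Ideal.mem_comap, H.hsw, H.hww]

/-! ### Disjunctive forms and the corollary for B3 -/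

/-- (F1) in disjunctive form. -/
theorem fb76_F1 (n n'' : Ideal B) [n.IsPrime] [n''.IsPrime]
    (hf : n''.comap β = n.comap α) (h'' : P₁ ≤ n'' ∨ P₂ ≤ n'') (h : P₁ ≤ n ∨ P₂ ≤ n) :
    n'' = n.comap s ∨ n'' = n.comap w ∨ n'' = n.comap s.symm := by
  rcases h'' with h₁'' | h₂''
  · rcases h with h₁ | h₂
    · exact Or.inl (fb76_F1a H n n'' hf h₁'' h₁)
    · exact Or.inr (Or.inl (fb76_F1c H n n'' hf h₁'' h₂))
  · rcases h with h₁ | h₂
    · exact Or.inr (Or.inl (fb76_F1b H n n'' hf h₂'' h₁))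
    · exact Or.inr (Or.inr (fb76_F1d H n n'' hf h₂'' h₂))

/-- (F2) in disjunctive form. -/
theorem fb76_F2 (n n'' : Ideal B) [n.IsPrime] [n''.IsPrime]
    (hf : n''.comap α = n.comap β) (h'' : P₁ ≤ n'' ∨ P₂ ≤ n'') (h : P₁ ≤ n ∨ P₂ ≤ n) :
    n'' = n.comap s ∨ n'' = n.comap w ∨ n'' = n.comap s.symm := by
  rcases h'' with h₁'' | h₂''
  · rcases h with h₁ | h₂
    · exact Or.inr (Or.inr (fb76_F2a H n n'' hf h₁'' h₁))
    · exact Or.inr (Or.inl (fb76_F2c H n n'' hf h₁'' h₂))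
  · rcases h with h₁ | h₂
    · exact Or.inr (Or.inl (fb76_F2b H n n'' hf h₂'' h₁))
    · exact Or.inl (fb76_F2d H n n'' hf h₂'' h₂)

/-- Both fibres at once: a prime `n''` of the special fibre lying over the same point of the
level-`M'` chart as `n`, through `(β, α)` or through `(α, β)`, is `s⁻¹ n`, `w n` or `s n`. -/
theorem fb76_fibre_cases (n n'' : Ideal B) [n.IsPrime] [n''.IsPrime]
    (hf : n''.comap β = n.comap α ∨ n''.comap α = n.comap β)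
    (h'' : P₁ ≤ n'' ∨ P₂ ≤ n'') (h : P₁ ≤ n ∨ P₂ ≤ n) :
    n'' = n.comap s ∨ n'' = n.comap w ∨ n'' = n.comap s.symm := by
  rcases hf with hf | hf
  · exact fb76_F1 H n n'' hf h'' h
  · exact fb76_F2 H n n'' hf h'' h

/-- **Corollary (consumer: B3).**  In all cases the fibre point `n''` satisfies
`s⁻¹ n'' ∈ {n, s⁻¹ s⁻¹ n, s⁻¹ w n}`. -/
theorem fb76_fibre (n n'' : Ideal B) [n.IsPrime] [n''.IsPrime]
    (hf : n''.comap β = n.comap α ∨ n''.comap α = n.comap β)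
    (h'' : P₁ ≤ n'' ∨ P₂ ≤ n'') (h : P₁ ≤ n ∨ P₂ ≤ n) :
    n''.comap s = n ∨ n''.comap s = (n.comap s).comap s ∨
      n''.comap s = (n.comap w).comap s := by
  rcases fb76_fibre_cases H n n'' hf h'' h with e | e | e
  · exact Or.inr (Or.inl (by rw [e]))
  · exact Or.inr (Or.inr (by rw [e]))
  · exact Or.inl (by rw [e, fb76_comap_s_comap_symm])

/-! ### Nodes -/

/-- **Nodes**: for a prime `n` containing both vertical ideals, `w n = s n` and `s (s n) = n`. -/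
theorem fb76_node (n : Ideal B) [n.IsPrime] (h₁ : P₁ ≤ n) (h₂ : P₂ ≤ n) :
    n.comap w = n.comap s.symm ∧ (n.comap s.symm).comap s.symm = n := by
  have key : ∀ m : Ideal B, m.IsPrime → P₁ ≤ m → P₂ ≤ m → m.comap w = m.comap s.symm := by
    intro m hm hm₁ hm₂
    refine fb76_ext H (m.comap w) (m.comap s.symm) (H.P₁_le_comap_w hm₂)
      (H.P₁_le_comap_s_symm hm₁) fun b' => ?_
    rw [Ideal.mem_comap, Ideal.mem_comap, H.hwα, H.symm_α]
    exact fb76_beta_iff H m hm₁ b'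
  have e1 := key n inferInstance h₁ h₂
  refine ⟨e1, ?_⟩
  have e2 := key (n.comap w) inferInstance (H.P₁_le_comap_w h₂) (H.P₂_le_comap_w h₁)
  rw [H.comap_w_comap_w, e1] at e2
  exact e2.symm

/-- **Nodes**, in the `s⁻¹`-form of `NodeFrob99`: `s⁻¹ n = w n` and `s⁻¹ s⁻¹ n = n`. -/
theorem fb76_node' (n : Ideal B) [n.IsPrime] (h₁ : P₁ ≤ n) (h₂ : P₂ ≤ n) :
    n.comap s = n.comap w ∧ (n.comap s).comap s = n := by
  obtain ⟨e1, e2⟩ := fb76_node H n h₁ h₂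
  have e3 : (n.comap s).comap s = n := by
    have h := congrArg (fun I : Ideal B => (I.comap s).comap s) e2
    simp only [fb76_comap_s_comap_symm] at h
    exact h.symm
  refine ⟨?_, e3⟩
  -- `s⁻¹ n = s (s⁻¹ s⁻¹ n)`-type bookkeeping: `w n = s n` and `s (s n) = n` give `s⁻¹ n = s n`
  have e4 : n.comap s = n.comap s.symm := by
    have h := congrArg (fun I : Ideal B => I.comap s) e2
    simp only [fb76_comap_s_comap_symm] at h
    exact h.symm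
  rw [e4, e1]

end fb76

end Fermat.Agent.S35
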