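import Mathlib

/-!
# S35 lab, chain B, row B3b-Fibres (helper84, twin): closed points in the fibres of `α`, `β`

Abstract, Mathlib only.  `B'`, `B` commutative rings (the charts of the good level `M'` and of the
level `M' q`), `α β : B' →+* B` the two degeneracy maps, `w : B ≃+* B` the Atkin–Lehner involution,
`s : B ≃+* B`, `s' : B' ≃+* B'` a Frobenius lift, `P1 P2` ideals of `B` (the two branches
`p_∞`, `p_0`).

Hypotheses: `w ∘ α = β`, `w ∘ β = α`, `w ∘ w = id`, `s ∘ α = α ∘ s'`, `s w = w s`,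
`b ∈ P2 ↔ w b ∈ P1`, `b ∈ P1 ↔ s b ∈ P1`, **(SURJ)** `∀ b, ∃ b', b - α b' ∈ P1`,
**(KRON)** `∀ b', β b' - (α (s'⁻¹ b')) ^ q ∈ P1`, `q ≠ 0`.

For an ideal `n` of `B` write `s⁻¹ n = n.comap s`, `s n = n.comap s.symm`, `w n = n.comap w`.
For prime ideals `n`, `n''` of `B`:

* `fb84_F1` : if `n''.comap β = n.comap α` then
  `P1 ≤ n'' → P1 ≤ n → n'' = s⁻¹ n`, `P2 ≤ n'' → P1 ≤ n → n'' = w n`,
  `P1 ≤ n'' → P2 ≤ n → n'' = w n`, `P2 ≤ n'' → P2 ≤ n → n'' = s n`;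
* `fb84_F2` : if `n''.comap α = n.comap β` then
  `P1 ≤ n'' → P1 ≤ n → n'' = s n`, `P2 ≤ n'' → P1 ≤ n → n'' = w n`,
  `P1 ≤ n'' → P2 ≤ n → n'' = w n`, `P2 ≤ n'' → P2 ≤ n → n'' = s⁻¹ n`;
* `fb84_cor` : in all cases `s⁻¹ n'' ∈ {n, s⁻¹ s⁻¹ n, s⁻¹ w n}`;
* `fb84_node` : `P1 ≤ n → P2 ≤ n → w n = s n ∧ w n = s⁻¹ n ∧ s (s n) = n ∧ s⁻¹ (s⁻¹ n) = n`.
-/

set_option autoImplicit false

namespace Fermat.Agent.S35

section FB84

variable {B' B : Type*} [CommRing B'] [CommRing B]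

/-- **Key step 1** (Kronecker + primality): for a prime `n ⊇ P1`,
`β b' ∈ n ↔ α (s'⁻¹ b') ∈ n`. -/
theorem fb84_beta_mem_iff (α β : B' →+* B) (s' : B' ≃+* B') (P1 : Ideal B) (q : ℕ) (hq : q ≠ 0)
    (hkron : ∀ b' : B', β b' - (α (s'.symm b')) ^ q ∈ P1)
    (n : Ideal B) [hn : n.IsPrime] (hP : P1 ≤ n) (b' : B') :
    β b' ∈ n ↔ α (s'.symm b') ∈ n := by
  have h := hP (hkron b')
  constructor
  · intro hb
    have h2 : (α (s'.symm b')) ^ q ∈ n := by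
      have e : (α (s'.symm b')) ^ q = β b' - (β b' - (α (s'.symm b')) ^ q) := by ring
      rw [e]
      exact n.sub_mem hb h
    exact hn.mem_of_pow_mem q h2
  · intro hb
    have e : β b' = (β b' - (α (s'.symm b')) ^ q) + (α (s'.symm b')) ^ q := by ring
    rw [e]
    exact n.add_mem h (n.pow_mem_of_mem hb q (Nat.pos_of_ne_zero hq))

/-- **Key step 2** (surjectivity): an ideal over `P1` is determined by its `α`-trace. -/
theorem fb84_eq_of_comap_alpha (α : B' →+* B) (P1 : Ideal B)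
    (hsurj : ∀ b : B, ∃ b' : B', b - α b' ∈ P1)
    (n₁ n₂ : Ideal B) (h₁ : P1 ≤ n₁) (h₂ : P1 ≤ n₂)
    (h : n₁.comap α = n₂.comap α) : n₁ = n₂ := by
  have key : ∀ m₁ m₂ : Ideal B, P1 ≤ m₁ → P1 ≤ m₂ → m₁.comap α = m₂.comap α → m₁ ≤ m₂ := by
    intro m₁ m₂ k₁ k₂ k b hb
    obtain ⟨b', hb'⟩ := hsurj b
    have h1 : α b' ∈ m₁ := by
      have e : α b' = b - (b - α b') := by ring
      rw [e]
      exact m₁.sub_mem hb (k₁ hb')
    have h2 : b' ∈ m₁.comap α := h1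
    rw [k] at h2
    have h3 : α b' ∈ m₂ := h2
    have e : b = (b - α b') + α b' := by ring
    rw [e]
    exact m₂.add_mem (k₂ hb') h3
  exact le_antisymm (key n₁ n₂ h₁ h₂ h) (key n₂ n₁ h₂ h₁ h.symm)

variable (α β : B' →+* B) (s w : B ≃+* B) (s' : B' ≃+* B') (P1 P2 : Ideal B)

/-- `w` exchanges the ideals over `P2` and the ideals over `P1`. -/
theorem fb84_P1_le_w (hww : ∀ b : B, w (w b) = b) (hwP : ∀ b : B, b ∈ P2 ↔ w b ∈ P1)
    (n : Ideal B) (h : P2 ≤ n) : P1 ≤ n.comap w := by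
  intro b hb
  rw [Ideal.mem_comap]
  apply h
  rw [hwP, hww]
  exact hb

theorem fb84_P2_le_w (hwP : ∀ b : B, b ∈ P2 ↔ w b ∈ P1)
    (n : Ideal B) (h : P1 ≤ n) : P2 ≤ n.comap w := by
  intro b hb
  rw [Ideal.mem_comap]
  exact h ((hwP b).mp hb)

theorem fb84_w_w (hww : ∀ b : B, w (w b) = b) (n : Ideal B) : (n.comap w).comap w = n := by
  ext b
  rw [Ideal.mem_comap, Ideal.mem_comap, hww]

theorem fb84_comap_w_alpha (hwα : ∀ b' : B', w (α b') = β b') (n : Ideal B) :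
    (n.comap w).comap α = n.comap β := by
  ext b'
  rw [Ideal.mem_comap, Ideal.mem_comap, Ideal.mem_comap, hwα]

theorem fb84_comap_w_beta (hwβ : ∀ b' : B', w (β b') = α b') (n : Ideal B) :
    (n.comap w).comap β = n.comap α := by
  ext b'
  rw [Ideal.mem_comap, Ideal.mem_comap, Ideal.mem_comap, hwβ]

theorem fb84_P1_le_s (hsP : ∀ b : B, b ∈ P1 ↔ s b ∈ P1) (n : Ideal B) (h : P1 ≤ n) :
    P1 ≤ n.comap s := by
  intro b hb
  rw [Ideal.mem_comap]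
  exact h ((hsP b).mp hb)

theorem fb84_P1_le_s_symm (hsP : ∀ b : B, b ∈ P1 ↔ s b ∈ P1) (n : Ideal B) (h : P1 ≤ n) :
    P1 ≤ n.comap s.symm := by
  intro b hb
  rw [Ideal.mem_comap]
  apply h
  rw [hsP, RingEquiv.apply_symm_apply]
  exact hb

theorem fb84_s_symm_alpha (hsα : ∀ b' : B', s (α b') = α (s' b')) (b' : B') :
    s.symm (α b') = α (s'.symm b') := by
  rw [RingEquiv.symm_apply_eq, hsα, RingEquiv.apply_symm_apply]

/-- The core: two primes over `P1` with `n''.comap β = n.comap α` satisfy `n'' = s⁻¹ n`. -/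
theorem fb84_core (q : ℕ) (hq : q ≠ 0)
    (hsα : ∀ b' : B', s (α b') = α (s' b')) (hsP : ∀ b : B, b ∈ P1 ↔ s b ∈ P1)
    (hsurj : ∀ b : B, ∃ b' : B', b - α b' ∈ P1)
    (hkron : ∀ b' : B', β b' - (α (s'.symm b')) ^ q ∈ P1)
    (n n'' : Ideal B) [n''.IsPrime] (h : n''.comap β = n.comap α)
    (h'' : P1 ≤ n'') (hn : P1 ≤ n) : n'' = n.comap s := by
  apply fb84_eq_of_comap_alpha α P1 hsurj n'' (n.comap s) h'' (fb84_P1_le_s s P1 hsP n hn)
  ext b'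
  rw [Ideal.mem_comap, Ideal.mem_comap, Ideal.mem_comap, hsα]
  have h1 : β (s' b') ∈ n'' ↔ α (s'.symm (s' b')) ∈ n'' :=
    fb84_beta_mem_iff α β s' P1 q hq hkron n'' h'' (s' b')
  rw [RingEquiv.symm_apply_apply] at h1
  rw [← h1]
  have h2 : s' b' ∈ n''.comap β ↔ s' b' ∈ n.comap α := by rw [h]
  exact h2

/-- **(F1)**: the points `n''` with `β⁻¹ n'' = α⁻¹ n`. -/
theorem fb84_F1 (q : ℕ) (hq : q ≠ 0)
    (hwα : ∀ b' : B', w (α b') = β b') (hwβ : ∀ b' : B', w (β b') = α b')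
    (hww : ∀ b : B, w (w b) = b)
    (hsα : ∀ b' : B', s (α b') = α (s' b')) (hsw : ∀ b : B, s (w b) = w (s b))
    (hwP : ∀ b : B, b ∈ P2 ↔ w b ∈ P1) (hsP : ∀ b : B, b ∈ P1 ↔ s b ∈ P1)
    (hsurj : ∀ b : B, ∃ b' : B', b - α b' ∈ P1)
    (hkron : ∀ b' : B', β b' - (α (s'.symm b')) ^ q ∈ P1)
    (n n'' : Ideal B) [hn : n.IsPrime] [hn'' : n''.IsPrime] (h : n''.comap β = n.comap α) :
    (P1 ≤ n'' → P1 ≤ n → n'' = n.comap s) ∧
    (P2 ≤ n'' → P1 ≤ n → n'' = n.comap w) ∧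
    (P1 ≤ n'' → P2 ≤ n → n'' = n.comap w) ∧
    (P2 ≤ n'' → P2 ≤ n → n'' = n.comap s.symm) := by
  have hwn : (n.comap w).IsPrime := Ideal.comap_isPrime w n
  have hwn'' : (n''.comap w).IsPrime := Ideal.comap_isPrime w n''
  refine ⟨fun h'' h1 => fb84_core α β s s' P1 q hq hsα hsP hsurj hkron n n'' h h'' h1, ?_, ?_, ?_⟩
  · -- `P2 ≤ n''`, `P1 ≤ n`
    intro h'' h1
    have e : n''.comap w = n :=
      fb84_eq_of_comap_alpha α P1 hsurj _ _ (fb84_P1_le_w w P1 P2 hww hwP n'' h'') h1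
        (by rw [fb84_comap_w_alpha α β w hwα, h])
    rw [← e, fb84_w_w w hww]
  · -- `P1 ≤ n''`, `P2 ≤ n`
    intro h'' h2
    have hm : P1 ≤ n.comap w := fb84_P1_le_w w P1 P2 hww hwP n h2
    apply fb84_eq_of_comap_alpha α P1 hsurj n'' (n.comap w) h'' hm
    ext b'
    have k1 := fb84_beta_mem_iff α β s' P1 q hq hkron n'' h'' (s' b')
    have k2 := fb84_beta_mem_iff α β s' P1 q hq hkron (n.comap w) hm (s' b')
    rw [RingEquiv.symm_apply_apply] at k1 k2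
    rw [Ideal.mem_comap, Ideal.mem_comap, ← k1, ← k2]
    have e1 : s' b' ∈ n''.comap β ↔ s' b' ∈ (n.comap w).comap β := by
      rw [h, fb84_comap_w_beta α β w hwβ]
    exact e1
  · -- `P2 ≤ n''`, `P2 ≤ n`
    intro h'' h2
    have h1'' : P1 ≤ n''.comap w := fb84_P1_le_w w P1 P2 hww hwP n'' h''
    have h1 : P1 ≤ n.comap w := fb84_P1_le_w w P1 P2 hww hwP n h2
    -- `(w n).comap β = n.comap α = n''.comap β = (w n'').comap α`, so `w n = s⁻¹ (w n'')`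
    have e : n.comap w = (n''.comap w).comap s :=
      fb84_core α β s s' P1 q hq hsα hsP hsurj hkron (n''.comap w) (n.comap w)
        (by rw [fb84_comap_w_beta α β w hwβ, fb84_comap_w_alpha α β w hwα, h]) h1 h1''
    ext b
    have e2 : w (s.symm b) ∈ n.comap w ↔ w (s.symm b) ∈ (n''.comap w).comap s := by rw [e]
    rw [Ideal.mem_comap, Ideal.mem_comap, Ideal.mem_comap, hww, hsw, hww,
      RingEquiv.apply_symm_apply] at e2
    rw [Ideal.mem_comap]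
    exact e2.symm

/-- **(F2)**: the points `n''` with `α⁻¹ n'' = β⁻¹ n`. -/
theorem fb84_F2 (q : ℕ) (hq : q ≠ 0)
    (hwα : ∀ b' : B', w (α b') = β b') (hwβ : ∀ b' : B', w (β b') = α b')
    (hww : ∀ b : B, w (w b) = b)
    (hsα : ∀ b' : B', s (α b') = α (s' b')) (hsw : ∀ b : B, s (w b) = w (s b))
    (hwP : ∀ b : B, b ∈ P2 ↔ w b ∈ P1) (hsP : ∀ b : B, b ∈ P1 ↔ s b ∈ P1)
    (hsurj : ∀ b : B, ∃ b' : B', b - α b' ∈ P1)
    (hkron : ∀ b' : B', β b' - (α (s'.symm b')) ^ q ∈ P1)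
    (n n'' : Ideal B) [hn : n.IsPrime] [hn'' : n''.IsPrime] (h : n''.comap α = n.comap β) :
    (P1 ≤ n'' → P1 ≤ n → n'' = n.comap s.symm) ∧
    (P2 ≤ n'' → P1 ≤ n → n'' = n.comap w) ∧
    (P1 ≤ n'' → P2 ≤ n → n'' = n.comap w) ∧
    (P2 ≤ n'' → P2 ≤ n → n'' = n.comap s) := by
  obtain ⟨k1, k2, k3, k4⟩ := fb84_F1 α β s w s' P1 P2 q hq hwα hwβ hww hsα hsw hwP hsP hsurj hkron
    n'' n h.symm
  refine ⟨fun h'' h1 => ?_, fun h'' h1 => ?_, fun h'' h2 => ?_, fun h'' h2 => ?_⟩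
  · -- `n = s⁻¹ n''`
    have e := k1 h1 h''
    ext b
    rw [Ideal.mem_comap]
    have e2 : s.symm b ∈ n ↔ s.symm b ∈ n''.comap s := by rw [← e]
    rw [Ideal.mem_comap, RingEquiv.apply_symm_apply] at e2
    exact e2.symm
  · -- `n = w n''`
    have e := k3 h1 h''
    rw [e, fb84_w_w w hww]
  · have e := k2 h2 h''
    rw [e, fb84_w_w w hww]
  · -- `n = s n''`
    have e := k4 h2 h''
    ext b
    rw [Ideal.mem_comap]
    have e2 : s b ∈ n ↔ s b ∈ n''.comap s.symm := by rw [← e]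
    rw [Ideal.mem_comap, RingEquiv.symm_apply_apply] at e2
    exact e2.symm

/-- **Corollary** (for the unit transport of chain B): in all cases the fibre point `n''` satisfies
`s⁻¹ n'' ∈ {n, s⁻¹ s⁻¹ n, s⁻¹ w n}`. -/
theorem fb84_cor (q : ℕ) (hq : q ≠ 0)
    (hwα : ∀ b' : B', w (α b') = β b') (hwβ : ∀ b' : B', w (β b') = α b')
    (hww : ∀ b : B, w (w b) = b)
    (hsα : ∀ b' : B', s (α b') = α (s' b')) (hsw : ∀ b : B, s (w b) = w (s b))
    (hwP : ∀ b : B, b ∈ P2 ↔ w b ∈ P1) (hsP : ∀ b : B, b ∈ P1 ↔ s b ∈ P1)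
    (hsurj : ∀ b : B, ∃ b' : B', b - α b' ∈ P1)
    (hkron : ∀ b' : B', β b' - (α (s'.symm b')) ^ q ∈ P1)
    (n n'' : Ideal B) [hn : n.IsPrime] [hn'' : n''.IsPrime]
    (h : n''.comap β = n.comap α ∨ n''.comap α = n.comap β)
    (h'' : P1 ≤ n'' ∨ P2 ≤ n'') (hPn : P1 ≤ n ∨ P2 ≤ n) :
    n''.comap s = n ∨ n''.comap s = (n.comap s).comap s ∨ n''.comap s = (n.comap w).comap s := by
  have hss : (n.comap s.symm).comap s = n := by
    ext b
    rw [Ideal.mem_comap, Ideal.mem_comap, RingEquiv.symm_apply_apply]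
  rcases h with h | h
  · obtain ⟨k1, k2, k3, k4⟩ := fb84_F1 α β s w s' P1 P2 q hq hwα hwβ hww hsα hsw hwP hsP hsurj
      hkron n n'' h
    rcases h'' with h'' | h'' <;> rcases hPn with hPn | hPn
    · exact Or.inr (Or.inl (by rw [k1 h'' hPn]))
    · exact Or.inr (Or.inr (by rw [k3 h'' hPn]))
    · exact Or.inr (Or.inr (by rw [k2 h'' hPn]))
    · exact Or.inl (by rw [k4 h'' hPn, hss])
  · obtain ⟨k1, k2, k3, k4⟩ := fb84_F2 α β s w s' P1 P2 q hq hwα hwβ hww hsα hsw hwP hsP hsurj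
      hkron n n'' h
    rcases h'' with h'' | h'' <;> rcases hPn with hPn | hPn
    · exact Or.inl (by rw [k1 h'' hPn, hss])
    · exact Or.inr (Or.inr (by rw [k3 h'' hPn]))
    · exact Or.inr (Or.inr (by rw [k2 h'' hPn]))
    · exact Or.inr (Or.inl (by rw [k4 h'' hPn]))

/-- **Nodes**: at a prime `n` over both branches, `w n = s n = s⁻¹ n`, so `s (s n) = n` and
`s⁻¹ (s⁻¹ n) = n`. -/
theorem fb84_node (q : ℕ) (hq : q ≠ 0)
    (hwα : ∀ b' : B', w (α b') = β b') (hwβ : ∀ b' : B', w (β b') = α b')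
    (hww : ∀ b : B, w (w b) = b)
    (hsα : ∀ b' : B', s (α b') = α (s' b')) (hsw : ∀ b : B, s (w b) = w (s b))
    (hwP : ∀ b : B, b ∈ P2 ↔ w b ∈ P1) (hsP : ∀ b : B, b ∈ P1 ↔ s b ∈ P1)
    (hsurj : ∀ b : B, ∃ b' : B', b - α b' ∈ P1)
    (hkron : ∀ b' : B', β b' - (α (s'.symm b')) ^ q ∈ P1)
    (n : Ideal B) [hn : n.IsPrime] (h1 : P1 ≤ n) (h2 : P2 ≤ n) :
    n.comap w = n.comap s.symm ∧ n.comap w = n.comap s ∧
      (n.comap s.symm).comap s.symm = n ∧ (n.comap s).comap s = n := by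
  have hwn : (n.comap w).IsPrime := Ideal.comap_isPrime w n
  obtain ⟨k1, -, -, k4⟩ := fb84_F1 α β s w s' P1 P2 q hq hwα hwβ hww hsα hsw hwP hsP hsurj hkron
    n (n.comap w) (fb84_comap_w_beta α β w hwβ n)
  have e1 : n.comap w = n.comap s := k1 (fb84_P1_le_w w P1 P2 hww hwP n h2) h1
  have e2 : n.comap w = n.comap s.symm := k4 (fb84_P2_le_w w P1 P2 hwP n h1) h2
  have hss : (n.comap s.symm).comap s = n := by
    ext b
    rw [Ideal.mem_comap, Ideal.mem_comap, RingEquiv.symm_apply_apply]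
  have hss' : (n.comap s).comap s.symm = n := by
    ext b
    rw [Ideal.mem_comap, Ideal.mem_comap, RingEquiv.apply_symm_apply]
  refine ⟨e2, e1, ?_, ?_⟩
  · rw [← e2, e1, hss']
  · rw [← e1, e2, hss]

end FB84

end Fermat.Agent.S35
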