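import Fermat.Agent.S35.Fibres76
import Fermat.Agent.S35.NodeFrob96
import Fermat.Agent.S34.FrameSat85

/-!
# S35 lab, chain B, row B3b-INST (helper76): the fibre clause ON THE CANONICAL FRAME

`Fibres76` (abstract, Mathlib only) describes the closed points `n''` of the special fibre of the
level-`M' q` chart lying over the same point of the level-`M'` chart as `n`, through `(β, α)` or
through `(α, β)`: `n'' ∈ {ŝ⁻¹ n, w n, ŝ n}`.  This file binds it to the canonical frame of the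
S34 lab (`V_∞ = cm85_Vinf`, `w = al97L_w` (`= bz13_w`), `V_0 = s34i47c_V0`, the charts
`pk15_chart R {h}`, `pk15_chart R {h⁻¹}` of an admissible Hauptmodul `h`, lying over the charts
`pk15_chart R {h'}`, `pk15_chart R {h'⁻¹}` of level `M'`, `h = α h'`) and a Frobenius lift `σ`
(`ff50_Frob R q σ`), `ŝ = s34i47_coeffEquiv σ _`.

## Abstract layer (field form; `B ⊆ F`, `B' ⊆ F'` subalgebras, no maps between subtypes needed
by the user)

* `fbi76_Frame π B B' V₁ V₂ α β s w s' q` : the hypotheses, in the shapes of `nf96_globalK_abs`.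
* `fbi76_hom`, `fbi76_equiv`, `fbi76_P` : the restricted maps `B' →+* B`, `B ≃+* B` and the
  vertical ideals `B ∩ π V_i`; `fbi76_Frame.hyp : fb76_Hyp …` (so every lemma of `Fibres76`
  applies).
* `fbi76_Frame.branch` : a prime `n ∋ π` of `B` contains `B ∩ π V₁` or `B ∩ π V₂`.
* `fbi76_Fib π B B' α β s w` : **the fibre clause, membership form**: for primes `n`, `n''` of `B`
  containing `π` with `β a ∈ n'' ↔ α a ∈ n` for all `a ∈ B'` (or `α a ∈ n'' ↔ β a ∈ n`):
  `(ŝ y ∈ n'' ↔ y ∈ n)` for all `y`, or `(ŝ y ∈ n'' ↔ ŝ ŝ y ∈ n)` for all `y`, or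
  `(ŝ y ∈ n'' ↔ w ŝ y ∈ n)` for all `y`  (i.e. `ŝ⁻¹ n'' ∈ {n, ŝ⁻² n, ŝ⁻¹ w n}`).
* `fbi76_Frame.fib`, `fbi76_Frame.through` (a valuation ring through `n''` pulls back along `ŝ`
  to a valuation ring through one of `n`, `ŝ⁻² n`, `ŝ⁻¹ w n`).

## Canonical frame

* `fbi76_symm_mem_of_pow`, `fbi76_coeff_symm_chart` : `ŝ⁻¹` preserves the charts of a Hauptmodul.
* `fbi76_frame_chart` : `fbi76_Frame` for one chart over one chart (binder block of
  `nf96_global_chart`).
* `fbi76_frame` : `fbi76_Frame` for both affine charts of every admissible Hauptmodul,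
  hypothesis-free.
* `fbi76_fibre` : `fbi76_Fib` for both charts; `fbi76_fibre'` : the same with the fibre
  hypothesis quantified over ALL `a : F(M')` (no level-`M'` chart in the statement).

All names are prefixed `fbi76_`.
-/

set_option autoImplicit false
set_option linter.unusedVariables false
set_option linter.unusedSectionVars false
set_option linter.style.longLine false

open ModularCurve

namespace Fermat.Agent.S35

open Fermat.Agent.S18 Fermat.Agent.S24 Fermat.Agent.S34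

local notation "Q̄" => AlgebraicClosure ℚ

/-! ## Abstract layer -/

section fbi76_abs

variable {R F F' : Type*} [CommRing R] [Field F] [Field F'] [Algebra R F] [Algebra R F']

/-- The restriction of a ring homomorphism `F' →+* F` to subalgebras `B' → B`. -/
def fbi76_hom (B' : Subalgebra R F') (B : Subalgebra R F) (α : F' →+* F)
    (h : ∀ a ∈ B', α a ∈ B) : B' →+* B where
  toFun a := ⟨α a, h a a.2⟩
  map_one' := Subtype.ext (map_one α)
  map_mul' x y := Subtype.ext (map_mul α (x : F') (y : F'))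
  map_zero' := Subtype.ext (map_zero α)
  map_add' x y := Subtype.ext (map_add α (x : F') (y : F'))

theorem fbi76_hom_coe (B' : Subalgebra R F') (B : Subalgebra R F) (α : F' →+* F)
    (h : ∀ a ∈ B', α a ∈ B) (a : B') : ((fbi76_hom B' B α h a : B) : F) = α a := rfl

/-- The restriction of a ring automorphism of `F` to a stable subalgebra. -/
def fbi76_equiv (B : Subalgebra R F) (s : F ≃+* F) (h : ∀ x ∈ B, s x ∈ B)
    (h' : ∀ x ∈ B, s.symm x ∈ B) : B ≃+* B where
  toFun b := ⟨s b, h b b.2⟩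
  invFun b := ⟨s.symm b, h' b b.2⟩
  left_inv b := Subtype.ext (s.symm_apply_apply (b : F))
  right_inv b := Subtype.ext (s.apply_symm_apply (b : F))
  map_mul' x y := Subtype.ext (map_mul s (x : F) (y : F))
  map_add' x y := Subtype.ext (map_add s (x : F) (y : F))

theorem fbi76_equiv_coe (B : Subalgebra R F) (s : F ≃+* F) (h : ∀ x ∈ B, s x ∈ B)
    (h' : ∀ x ∈ B, s.symm x ∈ B) (b : B) : ((fbi76_equiv B s h h' b : B) : F) = s b := rfl

theorem fbi76_equiv_symm_coe (B : Subalgebra R F) (s : F ≃+* F) (h : ∀ x ∈ B, s x ∈ B)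
    (h' : ∀ x ∈ B, s.symm x ∈ B) (b : B) :
    (((fbi76_equiv B s h h').symm b : B) : F) = s.symm b := rfl

/-- The vertical ideal `B ∩ π V` of the chart `B` (for a branch `V ⊇ B`). -/
def fbi76_P (π : R) (B : Subalgebra R F) (V : Subring F) (hBV : ∀ x ∈ B, x ∈ V) : Ideal B where
  carrier := {b | (algebraMap R F π)⁻¹ * (b : F) ∈ V}
  add_mem' := by
    intro a b ha hb
    show (algebraMap R F π)⁻¹ * ((a : F) + (b : F)) ∈ V
    rw [mul_add]
    exact V.add_mem ha hb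
  zero_mem' := by
    show (algebraMap R F π)⁻¹ * (0 : F) ∈ V
    rw [mul_zero]
    exact V.zero_mem
  smul_mem' := by
    intro c b hb
    show (algebraMap R F π)⁻¹ * ((c : F) * (b : F)) ∈ V
    rw [mul_left_comm]
    exact V.mul_mem (hBV c c.2) hb

theorem fbi76_mem_P (π : R) (B : Subalgebra R F) (V : Subring F) (hBV : ∀ x ∈ B, x ∈ V)
    (b : B) : b ∈ fbi76_P π B V hBV ↔ (algebraMap R F π)⁻¹ * (b : F) ∈ V := Iff.rfl

/-- The hypotheses of the fibre clause, in field form (shapes of `nf96_globalK_abs`). -/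
structure fbi76_Frame (π : R) (B : Subalgebra R F) (B' : Subalgebra R F') (V₁ V₂ : Subring F)
    (α β : F' →+* F) (s w : F ≃+* F) (s' : F' ≃+* F') (q : ℕ) : Prop where
  hq : q ≠ 0
  hp0 : algebraMap R F π ≠ 0
  hBV₁ : ∀ x ∈ B, x ∈ V₁
  hsB : ∀ x ∈ B, s x ∈ B
  hsB' : ∀ x ∈ B, s.symm x ∈ B
  hwB : ∀ x ∈ B, w x ∈ B
  hs'B : ∀ a ∈ B', s' a ∈ B'
  hs'B' : ∀ a ∈ B', s'.symm a ∈ B'
  hαB : ∀ a ∈ B', α a ∈ B
  hsα : ∀ a, s (α a) = α (s' a)
  hwα : ∀ a, w (α a) = β a
  hww : ∀ x, w (w x) = x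
  hsw : ∀ x, s (w x) = w (s x)
  hwπ : w (algebraMap R F π) = algebraMap R F π
  hV₂ : ∀ x, x ∈ V₂ ↔ w x ∈ V₁
  hsV : ∀ x, (algebraMap R F π)⁻¹ * x ∈ V₁ ↔ (algebraMap R F π)⁻¹ * s x ∈ V₁
  hsat : ∀ x ∈ B, (algebraMap R F π)⁻¹ * x ∈ V₁ → (algebraMap R F π)⁻¹ * x ∈ V₂ →
    (algebraMap R F π)⁻¹ * x ∈ B
  hsurj : ∀ x ∈ B, ∃ a ∈ B', (algebraMap R F π)⁻¹ * (x - α a) ∈ V₁
  hfrob : ∀ a ∈ B', (algebraMap R F π)⁻¹ * (β (s' a) - (α a) ^ q) ∈ V₁

/-- **The fibre clause, membership form.** -/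
def fbi76_Fib (π : R) (B : Subalgebra R F) (B' : Subalgebra R F') (α β : F' → F)
    (s w : F → F) : Prop :=
  ∀ n n'' : Ideal B, n.IsPrime → n''.IsPrime → algebraMap R B π ∈ n → algebraMap R B π ∈ n'' →
    ((∀ a ∈ B', ∀ za zb : B, (za : F) = α a → (zb : F) = β a → (zb ∈ n'' ↔ za ∈ n)) ∨
      (∀ a ∈ B', ∀ za zb : B, (za : F) = α a → (zb : F) = β a → (za ∈ n'' ↔ zb ∈ n))) →
    (∀ y z : B, (z : F) = s (y : F) → (z ∈ n'' ↔ y ∈ n)) ∨
    (∀ y z z₂ : B, (z : F) = s (y : F) → (z₂ : F) = s (s (y : F)) → (z ∈ n'' ↔ z₂ ∈ n)) ∨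
    (∀ y z z₃ : B, (z : F) = s (y : F) → (z₃ : F) = w (s (y : F)) → (z ∈ n'' ↔ z₃ ∈ n))

namespace fbi76_Frame

variable {π : R} {B : Subalgebra R F} {B' : Subalgebra R F'} {V₁ V₂ : Subring F}
  {α β : F' →+* F} {s w : F ≃+* F} {s' : F' ≃+* F'} {q : ℕ}
  (D : fbi76_Frame π B B' V₁ V₂ α β s w s' q)
include D

theorem hBV₂ : ∀ x ∈ B, x ∈ V₂ := fun x hx => (D.hV₂ x).mpr (D.hBV₁ _ (D.hwB x hx))

theorem hβB : ∀ a ∈ B', β a ∈ B := fun a ha => by
  rw [← D.hwα]
  exact D.hwB _ (D.hαB a ha)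

theorem w_symm (x : F) : w.symm x = w x := by
  rw [RingEquiv.symm_apply_eq, D.hww]

theorem hwB' : ∀ x ∈ B, w.symm x ∈ B := fun x hx => by
  rw [D.w_symm]
  exact D.hwB x hx

/-- **The hypotheses of `Fibres76` hold for the restricted maps.** -/
theorem hyp :
    fb76_Hyp (fbi76_hom B' B α D.hαB) (fbi76_hom B' B β D.hβB) (fbi76_equiv B s D.hsB D.hsB')
      (fbi76_equiv B w D.hwB D.hwB') (fbi76_equiv B' s' D.hs'B D.hs'B')
      (fbi76_P π B V₁ D.hBV₁) (fbi76_P π B V₂ D.hBV₂) q where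
  hq := D.hq
  hwα b' := Subtype.ext (D.hwα b')
  hwβ b' := Subtype.ext (by
    show w (β (b' : F')) = α (b' : F')
    rw [← D.hwα, D.hww])
  hww b := Subtype.ext (D.hww b)
  hsα b' := Subtype.ext (D.hsα b')
  hsw b := Subtype.ext (D.hsw b)
  hwP b := by
    rw [fbi76_mem_P, fbi76_mem_P, D.hV₂, map_mul, map_inv₀, D.hwπ]
    rfl
  hsP b := D.hsV b
  hsurj b := by
    obtain ⟨a, ha, h⟩ := D.hsurj b b.2
    exact ⟨⟨a, ha⟩, h⟩
  hK b' := by
    have h := D.hfrob (s'.symm (b' : F')) (D.hs'B' _ b'.2)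
    rw [RingEquiv.apply_symm_apply] at h
    exact h

/-- A prime `n ∋ π` of `B` lies on (at least) one of the two branches. -/
theorem branch (n : Ideal B) [hn : n.IsPrime] (hπn : algebraMap R B π ∈ n) :
    fbi76_P π B V₁ D.hBV₁ ≤ n ∨ fbi76_P π B V₂ D.hBV₂ ≤ n := by
  by_contra hcon
  rw [not_or] at hcon
  obtain ⟨h1, h2⟩ := hcon
  obtain ⟨δ₁, hδ₁, hδ₁n⟩ := SetLike.not_le_iff_exists.mp h1
  obtain ⟨δ₂, hδ₂, hδ₂n⟩ := SetLike.not_le_iff_exists.mp h2
  rw [fbi76_mem_P] at hδ₁ hδ₂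
  have hc : (algebraMap R F π)⁻¹ * ((δ₁ : F) * (δ₂ : F)) ∈ B := by
    apply D.hsat _ (B.mul_mem δ₁.2 δ₂.2)
    · rw [← mul_assoc]
      exact V₁.mul_mem hδ₁ (D.hBV₁ _ δ₂.2)
    · rw [mul_left_comm]
      exact V₂.mul_mem (D.hBV₂ _ δ₁.2) hδ₂
  have h3 : δ₁ * δ₂ = ⟨_, hc⟩ * algebraMap R B π := by
    apply Subtype.ext
    show (δ₁ : F) * (δ₂ : F) =
      (algebraMap R F π)⁻¹ * ((δ₁ : F) * (δ₂ : F)) * algebraMap R F π
    rw [mul_comm (algebraMap R F π)⁻¹, mul_assoc, inv_mul_cancel₀ D.hp0, mul_one]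
  have h4 : δ₁ * δ₂ ∈ n := by
    rw [h3]
    exact n.mul_mem_left _ hπn
  rcases hn.mem_or_mem h4 with h | h
  · exact hδ₁n h
  · exact hδ₂n h

/-- The fibre hypothesis in ideal form, from the membership form. -/
theorem comap_eq_of_mem (n n'' : Ideal B)
    (hf : ∀ a ∈ B', ∀ za zb : B, (za : F) = α a → (zb : F) = β a → (zb ∈ n'' ↔ za ∈ n)) :
    n''.comap (fbi76_hom B' B β D.hβB) = n.comap (fbi76_hom B' B α D.hαB) := by
  ext a
  rw [Ideal.mem_comap, Ideal.mem_comap]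
  exact hf a a.2 _ _ rfl rfl

theorem comap_eq_of_mem' (n n'' : Ideal B)
    (hf : ∀ a ∈ B', ∀ za zb : B, (za : F) = α a → (zb : F) = β a → (za ∈ n'' ↔ zb ∈ n)) :
    n''.comap (fbi76_hom B' B α D.hαB) = n.comap (fbi76_hom B' B β D.hβB) := by
  ext a
  rw [Ideal.mem_comap, Ideal.mem_comap]
  exact hf a a.2 _ _ rfl rfl

/-- **The fibre clause in ideal form**: `ŝ⁻¹ n'' ∈ {n, ŝ⁻² n, ŝ⁻¹ w n}`. -/
theorem fib_ideal (n n'' : Ideal B) [n.IsPrime] [n''.IsPrime]
    (hπn : algebraMap R B π ∈ n) (hπn'' : algebraMap R B π ∈ n'')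
    (hf : (∀ a ∈ B', ∀ za zb : B, (za : F) = α a → (zb : F) = β a → (zb ∈ n'' ↔ za ∈ n)) ∨
      (∀ a ∈ B', ∀ za zb : B, (za : F) = α a → (zb : F) = β a → (za ∈ n'' ↔ zb ∈ n))) :
    n''.comap (fbi76_equiv B s D.hsB D.hsB') = n ∨
    n''.comap (fbi76_equiv B s D.hsB D.hsB') =
      (n.comap (fbi76_equiv B s D.hsB D.hsB')).comap (fbi76_equiv B s D.hsB D.hsB') ∨
    n''.comap (fbi76_equiv B s D.hsB D.hsB') =
      (n.comap (fbi76_equiv B w D.hwB D.hwB')).comap (fbi76_equiv B s D.hsB D.hsB') := by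
  refine fb76_fibre D.hyp n n'' ?_ (D.branch n'' hπn'') (D.branch n hπn)
  rcases hf with hf | hf
  · exact Or.inl (D.comap_eq_of_mem n n'' hf)
  · exact Or.inr (D.comap_eq_of_mem' n n'' hf)

/-- **The fibre clause, membership form.** -/
theorem fib : fbi76_Fib π B B' α β s w := by
  intro n n'' hn hn'' hπn hπn'' hf
  have := hn
  have := hn''
  rcases D.fib_ideal n n'' hπn hπn'' hf with e | e | e
  · refine Or.inl fun y z hz => ?_
    have hz' : z = fbi76_equiv B s D.hsB D.hsB' y := Subtype.ext hz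
    rw [hz', ← Ideal.mem_comap, e]
  · refine Or.inr (Or.inl fun y z z₂ hz hz₂ => ?_)
    have hz' : z = fbi76_equiv B s D.hsB D.hsB' y := Subtype.ext hz
    have hz₂' : z₂ = fbi76_equiv B s D.hsB D.hsB' (fbi76_equiv B s D.hsB D.hsB' y) :=
      Subtype.ext hz₂
    rw [hz', hz₂', ← Ideal.mem_comap, e, Ideal.mem_comap, Ideal.mem_comap]
  · refine Or.inr (Or.inr fun y z z₃ hz hz₃ => ?_)
    have hz' : z = fbi76_equiv B s D.hsB D.hsB' y := Subtype.ext hz
    have hz₃' : z₃ = fbi76_equiv B w D.hwB D.hwB' (fbi76_equiv B s D.hsB D.hsB' y) :=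
      Subtype.ext hz₃
    rw [hz', hz₃', ← Ideal.mem_comap, e, Ideal.mem_comap, Ideal.mem_comap]

/-- **Through-transport.**  If a valuation ring `O''` of `F` passes through the fibre point
`n''` (`B ⊆ O''`, `B ∖ n'' ⊆ O''ˣ`), then `O''.comap ŝ` passes through a prime `n₁` of `B` which is
`n`, or `ŝ⁻² n`, or `ŝ⁻¹ w n`. -/
theorem through (n n'' : Ideal B) [n.IsPrime] [n''.IsPrime]
    (hπn : algebraMap R B π ∈ n) (hπn'' : algebraMap R B π ∈ n'')
    (hf : (∀ a ∈ B', ∀ za zb : B, (za : F) = α a → (zb : F) = β a → (zb ∈ n'' ↔ za ∈ n)) ∨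
      (∀ a ∈ B', ∀ za zb : B, (za : F) = α a → (zb : F) = β a → (za ∈ n'' ↔ zb ∈ n)))
    (O'' : ValuationSubring F) (hO : s34i47_Through B n'' O'') :
    ∃ n₁ : Ideal B, n₁.IsPrime ∧ s34i47_Through B n₁ (O''.comap (s : F →+* F)) ∧
      (n₁ = n ∨
        (∀ y z₂ : B, (z₂ : F) = s (s (y : F)) → (y ∈ n₁ ↔ z₂ ∈ n)) ∨
        (∀ y z₃ : B, (z₃ : F) = w (s (y : F)) → (y ∈ n₁ ↔ z₃ ∈ n))) := by
  refine ⟨n''.comap (fbi76_equiv B s D.hsB D.hsB'), Ideal.comap_isPrime _ _, ⟨?_, ?_⟩, ?_⟩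
  · intro x hx
    exact hO.1 _ (D.hsB x hx)
  · intro x hx
    show s ((x : F)⁻¹) ∈ O''
    rw [map_inv₀]
    exact hO.2 (fbi76_equiv B s D.hsB D.hsB' x) hx
  · rcases D.fib_ideal n n'' hπn hπn'' hf with e | e | e
    · exact Or.inl e
    · refine Or.inr (Or.inl fun y z₂ hz₂ => ?_)
      have hz₂' : z₂ = fbi76_equiv B s D.hsB D.hsB' (fbi76_equiv B s D.hsB D.hsB' y) :=
        Subtype.ext hz₂
      rw [e, hz₂', Ideal.mem_comap, Ideal.mem_comap]
    · refine Or.inr (Or.inr fun y z₃ hz₃ => ?_)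
      have hz₃' : z₃ = fbi76_equiv B w D.hwB D.hwB' (fbi76_equiv B s D.hsB D.hsB' y) :=
        Subtype.ext hz₃
      rw [e, hz₃', Ideal.mem_comap, Ideal.mem_comap]

end fbi76_Frame

/-- A finite-order automorphism mapping a set into itself maps it onto itself. -/
theorem fbi76_symm_mem_of_pow {F₀ : Type*} [Field F₀] (B : Set F₀) (τ : F₀ ≃+* F₀)
    (hτB : ∀ x ∈ B, τ x ∈ B) (k : ℕ) (hk0 : 0 < k) (hk : τ ^ k = 1) (x : F₀) (hx : x ∈ B) :
    τ.symm x ∈ B := by
  have hpow : ∀ j : ℕ, ∀ y ∈ B, (τ ^ j) y ∈ B := by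
    intro j
    induction j with
    | zero => intro y hy; simpa using hy
    | succ j ih =>
      intro y hy
      have e : (τ ^ (j + 1)) y = (τ ^ j) (τ y) := by rw [pow_succ]; rfl
      rw [e]
      exact ih _ (hτB y hy)
  obtain ⟨j, rfl⟩ : ∃ j, k = j + 1 := ⟨k - 1, by omega⟩
  have h1 : τ.symm x = (τ ^ j) x := by
    apply τ.injective
    rw [RingEquiv.apply_symm_apply]
    have h2 : τ ((τ ^ j) x) = (τ ^ (j + 1)) x := by rw [pow_succ']; rfl
    rw [h2, hk]
    rfl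
  rw [h1]
  exact hpow j x hx

/-- The fibre clause with the fibre hypothesis quantified over ALL `a : F'` (no `B'`). -/
def fbi76_FibU (π : R) (B : Subalgebra R F) (α β : F' → F) (s w : F → F) : Prop :=
  ∀ n n'' : Ideal B, n.IsPrime → n''.IsPrime → algebraMap R B π ∈ n → algebraMap R B π ∈ n'' →
    ((∀ (a : F') (za zb : B), (za : F) = α a → (zb : F) = β a → (zb ∈ n'' ↔ za ∈ n)) ∨
      (∀ (a : F') (za zb : B), (za : F) = α a → (zb : F) = β a → (za ∈ n'' ↔ zb ∈ n))) →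
    (∀ y z : B, (z : F) = s (y : F) → (z ∈ n'' ↔ y ∈ n)) ∨
    (∀ y z z₂ : B, (z : F) = s (y : F) → (z₂ : F) = s (s (y : F)) → (z ∈ n'' ↔ z₂ ∈ n)) ∨
    (∀ y z z₃ : B, (z : F) = s (y : F) → (z₃ : F) = w (s (y : F)) → (z ∈ n'' ↔ z₃ ∈ n))

theorem fbi76_fibU_of_fib (π : R) (B : Subalgebra R F) (B' : Subalgebra R F') (α β : F' → F)
    (s w : F → F) (h : fbi76_Fib π B B' α β s w) : fbi76_FibU π B α β s w := by
  intro n n'' hn hn'' hπn hπn'' hf
  refine h n n'' hn hn'' hπn hπn'' ?_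
  rcases hf with hf | hf
  · exact Or.inl fun a _ za zb hza hzb => hf a za zb hza hzb
  · exact Or.inr fun a _ za zb hza hzb => hf a za zb hza hzb

end fbi76_abs

/-! ## Canonical frame -/

section fbi76_inst

variable {R K : Type} [CommRing R] [IsDomain R] [IsDiscreteValuationRing R] [Field K]
  [NumberField K] [Algebra R K] [IsFractionRing R K] [Algebra K Q̄]
  (M' q : ℕ) [NeZero M'] [NeZero q] (hq : q.Prime) (hM' : ¬ q ∣ M')
  [Algebra R ↥(modularFunctionFieldFullC K M')]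
  [IsScalarTower R K ↥(modularFunctionFieldFullC K M')]
  [Algebra R ↥(modularFunctionFieldFullC K (M' * q))]
  [IsScalarTower R K ↥(modularFunctionFieldFullC K (M' * q))]

/-- `ŝ⁻¹` preserves every set preserved by `ŝ` (`K` a number field: `σ` has finite order). -/
theorem fbi76_coeff_symm_mem (M : ℕ) [NeZero M] (σ : K ≃+* K)
    (B : Set ↥(modularFunctionFieldFullC K M))
    (hB : ∀ x ∈ B, s34i47_coeffEquiv σ M x ∈ B) (x : ↥(modularFunctionFieldFullC K M))
    (hx : x ∈ B) : (s34i47_coeffEquiv σ M).symm x ∈ B := by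
  obtain ⟨k, hk0, hk⟩ := in87i_finOrder σ
  refine fbi76_symm_mem_of_pow B (s34i47_coeffEquiv σ M) hB k hk0 ?_ x hx
  rw [in87i_coeffEquiv_eq]
  exact in87_aut_pow_eq_one M σ k hk

include hq hM' in
/-- **`fbi76_Frame` on one chart** `B = pk15_chart R s` of level `M' * q` lying over the chart
`B' = pk15_chart R s'` of level `M'` (binder block of `nf96_global_chart`). -/
theorem fbi76_frame_chart {π : R} (hπ : Irreducible π) (hqR : ¬ IsUnit (q : R))
    (σ : K ≃+* K) (hσ : ff50_Frob R q σ)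
    (s' : Set ↥(modularFunctionFieldFullC K M'))
    (s : Set ↥(modularFunctionFieldFullC K (M' * q)))
    (hs'V : ∀ g ∈ s', g ∈ cm85_Vinf (K := K) M' hπ)
    (hBV : ∀ x ∈ pk15_chart R s, x ∈ cm85_Vinf (K := K) (M' * q) hπ)
    (hαB : ∀ x ∈ pk15_chart R s', al97L_alpha K M' q x ∈ pk15_chart R s)
    (hwB : ∀ z : ↥(modularFunctionFieldFullC K (M' * q)),
      bz13_w M' q hq hM' z ∈ pk15_chart R s ↔ z ∈ pk15_chart R s)
    (hsB : ∀ z ∈ pk15_chart R s, s34i47_coeffEquiv σ (M' * q) z ∈ pk15_chart R s)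
    (hs'B : ∀ z ∈ pk15_chart R s', s34i47_coeffEquiv σ M' z ∈ pk15_chart R s')
    (hsat : ∀ x ∈ pk15_chart R s,
      (algebraMap R ↥(modularFunctionFieldFullC K (M' * q)) π)⁻¹ * x ∈
        s34i47c_W (K := K) M' q hq hM' hπ →
      (algebraMap R ↥(modularFunctionFieldFullC K (M' * q)) π)⁻¹ * x ∈ pk15_chart R s)
    (hsurj : bi93_Surj (K := K) M' (M' * q) (dvd_mul_right M' q) hπ s' s) :
    fbi76_Frame π (pk15_chart R s) (pk15_chart R s')
      (cm85_Vinf (K := K) (M' * q) hπ).toSubring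
      (s34i47c_V0 (K := K) M' q hq hM' hπ).toSubring
      (al97L_alpha K M' q : ↥(modularFunctionFieldFullC K M') →+*
        ↥(modularFunctionFieldFullC K (M' * q)))
      (al97L_beta K M' q : ↥(modularFunctionFieldFullC K M') →+*
        ↥(modularFunctionFieldFullC K (M' * q)))
      (s34i47_coeffEquiv σ (M' * q)) (bz13_w M' q hq hM') (s34i47_coeffEquiv σ M') q := by
  have hAlg : Algebra.IsAlgebraic K Q̄ := fs85_isAlgebraic K
  have hB'V' : ∀ x ∈ pk15_chart R s', x ∈ cm85_Vinf (K := K) M' hπ :=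
    fun x hx => pk15_chart_le_V (cm85_Vinf (K := K) M' hπ) (pk85_hRV M' hπ) s' hs'V x hx
  have hp0 : algebraMap R ↥(modularFunctionFieldFullC K (M' * q)) π ≠ 0 := by
    intro h0
    rw [IsScalarTower.algebraMap_apply R K ↥(modularFunctionFieldFullC K (M' * q))] at h0
    have h1 := (map_eq_zero _).mp h0
    exact hπ.ne_zero ((map_eq_zero_iff _ (IsFractionRing.injective R K)).mp h1)
  exact
    { hq := hq.ne_zero
      hp0 := hp0
      hBV₁ := fun x hx => hBV x hx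
      hsB := fun x hx => hsB x hx
      hsB' := fun x hx => fbi76_coeff_symm_mem (M' * q) σ _ hsB x hx
      hwB := fun x hx => (hwB x).mpr hx
      hs'B := fun x hx => hs'B x hx
      hs'B' := fun x hx => fbi76_coeff_symm_mem M' σ _ hs'B x hx
      hαB := fun a ha => hαB a ha
      hsα := fun a => fn93_coeff_alpha (K := K) M' q σ a
      hwα := fun a => al97L_w_alpha_apply (algebraMap K Q̄) M' q hq hM' a
      hww := fun x => al97L_w_w (algebraMap K Q̄) M' q hq hM' x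
      hsw := fun x => (al97V_w_coeffEquiv (algebraMap K Q̄) M' q hq hM' σ x).symm
      hwπ := bz13_w_algebraMap M' q hq hM' π
      hV₂ := fun x => s34i47c_mem_V0 M' q hq hM' hπ x
      hsV := fun x => by
        by_cases hx : x = 0
        · rw [hx, map_zero]
        · have hsx : s34i47_coeffEquiv σ (M' * q) x ≠ 0 := fun h =>
            hx ((map_eq_zero_iff _ (s34i47_coeffEquiv σ (M' * q)).injective).mp h)
          have h1 := ff50_div_mem_Vinf (M' * q) hq.ne_zero hπ σ hσ x hx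
          have h2 := ff50_inv_div_mem_Vinf (M' * q) hq.ne_zero hπ σ hσ x hx
          constructor
          · intro h
            have e : (algebraMap R ↥(modularFunctionFieldFullC K (M' * q)) π)⁻¹ *
                s34i47_coeffEquiv σ (M' * q) x =
                (algebraMap R ↥(modularFunctionFieldFullC K (M' * q)) π)⁻¹ * x *
                  (s34i47_coeffEquiv σ (M' * q) x / x) := by
              field_simp
            rw [e]
            exact (cm85_Vinf (K := K) (M' * q) hπ).toSubring.mul_mem h h1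
          · intro h
            have e : (algebraMap R ↥(modularFunctionFieldFullC K (M' * q)) π)⁻¹ * x =
                (algebraMap R ↥(modularFunctionFieldFullC K (M' * q)) π)⁻¹ *
                  s34i47_coeffEquiv σ (M' * q) x * (x / s34i47_coeffEquiv σ (M' * q) x) := by
              field_simp
            rw [e]
            exact (cm85_Vinf (K := K) (M' * q) hπ).toSubring.mul_mem h h2
      hsat := fun x hx h1 h2 => hsat x hx
        ((s34i47c_mem_W M' q hq hM' hπ _).mpr ⟨h1, (s34i47c_mem_V0 M' q hq hM' hπ _).mp h2⟩)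
      hsurj := fun x hx => by
        obtain ⟨x', hx', hyx'⟩ := hsurj x hx
        exact ⟨x', hx', hyx'⟩
      hfrob := fun a ha => fn93_kron_inf (K := K) M' q hq hπ hqR σ (ff50_sigmaR σ hσ)
        (ff50_sigmaR_spec σ hσ) (nf96_frob_dvd (q := q) hπ σ hσ) a (hB'V' a ha) }

include hq hM' in
/-- **`fbi76_Frame` on the canonical frame**: for a Frobenius lift `σ`, every admissible
Hauptmodul `h = α h'` and both affine charts (over the corresponding charts of level `M'`). -/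
theorem fbi76_frame {π : R} (hπ : Irreducible π)
    (hunit : ∀ n : ℕ, Nat.Coprime n q → IsUnit (n : R)) (hqR : ¬ IsUnit (q : R))
    (σ : K ≃+* K) (hσ : ff50_Frob R q σ)
    (h : ↥(modularFunctionFieldFullC K (M' * q))) (hh : s34i47c_IsHaupt K (M' * q) q h) :
    ∃ h' : ↥(modularFunctionFieldFullC K M'), al97L_alpha K M' q h' = h ∧
      s34i47_coeffEquiv σ M' h' = h' ∧
      fbi76_Frame π (pk15_chart R ({h} : Set ↥(modularFunctionFieldFullC K (M' * q))))
        (pk15_chart R ({h'} : Set ↥(modularFunctionFieldFullC K M')))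
        (cm85_Vinf (K := K) (M' * q) hπ).toSubring
        (s34i47c_V0 (K := K) M' q hq hM' hπ).toSubring
        (al97L_alpha K M' q : ↥(modularFunctionFieldFullC K M') →+*
          ↥(modularFunctionFieldFullC K (M' * q)))
        (al97L_beta K M' q : ↥(modularFunctionFieldFullC K M') →+*
          ↥(modularFunctionFieldFullC K (M' * q)))
        (s34i47_coeffEquiv σ (M' * q)) (bz13_w M' q hq hM') (s34i47_coeffEquiv σ M') q ∧
      fbi76_Frame π (pk15_chart R ({h⁻¹} : Set ↥(modularFunctionFieldFullC K (M' * q))))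
        (pk15_chart R ({h'⁻¹} : Set ↥(modularFunctionFieldFullC K M')))
        (cm85_Vinf (K := K) (M' * q) hπ).toSubring
        (s34i47c_V0 (K := K) M' q hq hM' hπ).toSubring
        (al97L_alpha K M' q : ↥(modularFunctionFieldFullC K M') →+*
          ↥(modularFunctionFieldFullC K (M' * q)))
        (al97L_beta K M' q : ↥(modularFunctionFieldFullC K M') →+*
          ↥(modularFunctionFieldFullC K (M' * q)))
        (s34i47_coeffEquiv σ (M' * q)) (bz13_w M' q hq hM') (s34i47_coeffEquiv σ M') q := by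
  have hAlg : Algebra.IsAlgebraic K Q̄ := fs85_isAlgebraic K
  have hdvd : M' ∣ M' * q := dvd_mul_right M' q
  have hMu : IsUnit (M' : R) := hunit M' ((Nat.Prime.coprime_iff_not_dvd hq).mpr hM').symm
  have hf1 := fl71_F1 (R := R) (K := K) M' q hq hM' hπ hqR
  obtain ⟨hw₁, hw₂, -⟩ := bz13_charts_stable (R := R) M' q hq hM' hunit h hh
  have hBV₁ : ∀ x ∈ pk15_chart R ({h} : Set ↥(modularFunctionFieldFullC K (M' * q))),
      x ∈ cm85_Vinf (K := K) (M' * q) hπ := fun x hx =>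
    ((s34i47c_mem_W M' q hq hM' hπ x).mp
      (al97C_chart_le_W M' q hq hM' hπ h hh {h} (by simp) x hx)).1
  have hBV₂ : ∀ x ∈ pk15_chart R ({h⁻¹} : Set ↥(modularFunctionFieldFullC K (M' * q))),
      x ∈ cm85_Vinf (K := K) (M' * q) hπ := fun x hx =>
    ((s34i47c_mem_W M' q hq hM' hπ x).mp
      (al97C_chart_le_W M' q hq hM' hπ h hh {h⁻¹} (by simp) x hx)).1
  obtain ⟨-, hC⟩ := fs85_frameSat M' q hq hM' R K π hπ hunit hqR
  obtain ⟨-, -, hsat₁, hsat₂, -⟩ := hC h hh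
  have hR : ∀ r : R, ∃ r' : R,
      s34i47_coeffEquiv σ (M' * q) (algebraMap R ↥(modularFunctionFieldFullC K (M' * q)) r) =
        algebraMap R ↥(modularFunctionFieldFullC K (M' * q)) r' :=
    fun r => ⟨ff50_sigmaR σ hσ r,
      fn93_coeff_alg (K := K) (M' * q) σ (ff50_sigmaR σ hσ) (ff50_sigmaR_spec σ hσ) r⟩
  have hR' : ∀ r : R, ∃ r' : R,
      s34i47_coeffEquiv σ M' (algebraMap R ↥(modularFunctionFieldFullC K M') r) =
        algebraMap R ↥(modularFunctionFieldFullC K M') r' :=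
    fun r => ⟨ff50_sigmaR σ hσ r,
      fn93_coeff_alg (K := K) M' σ (ff50_sigmaR σ hσ) (ff50_sigmaR_spec σ hσ) r⟩
  rcases hh with ⟨hq2, h2, rfl⟩ | ⟨hq3, h3, rfl⟩
  · have h2' : 2 ∣ M' :=
      ((Nat.coprime_primes Nat.prime_two hq).mpr (Ne.symm hq2)).dvd_of_dvd_mul_right h2
    obtain ⟨-, -, -, -, hhV, hhV', -⟩ := cm85_facts_level2 (R := R) (K := K) M' hπ h2'
    obtain ⟨⟨hSj₁, -⟩, ⟨hSj₂, -⟩⟩ :=
      bi93_level2 (R := R) (K := K) M' (M' * q) hdvd hπ h2' hMu hf1
    obtain ⟨hs₁, hs₂, -⟩ := in87i_chart_mem_haupt (R := R) (s34i47_coeffEquiv σ (M' * q)) hR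
      (pk85_h2 K (M' * q) h2) (cm15_coeffEquiv_h2 (M' * q) σ h2)
    obtain ⟨hs'₁, hs'₂, -⟩ := in87i_chart_mem_haupt (R := R) (s34i47_coeffEquiv σ M') hR'
      (pk85_h2 K M' h2') (cm15_coeffEquiv_h2 M' σ h2')
    have hhe : al97L_alpha K M' q (pk85_h2 K M' h2') = pk85_h2 K (M' * q) h2 :=
      Subtype.ext (by rw [al97L_alpha_coe, pk85_h2_coe, pk85_h2_coe])
    have hα₁ : ∀ x ∈ pk15_chart R ({pk85_h2 K M' h2'} : Set ↥(modularFunctionFieldFullC K M')),
        al97L_alpha K M' q x ∈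
          pk15_chart R ({pk85_h2 K (M' * q) h2} : Set ↥(modularFunctionFieldFullC K (M' * q))) := by
      intro x hx
      have h1 := fl71_alpha_chart (R := R) (K := K) M' q _ x hx
      rwa [Set.image_singleton, hhe] at h1
    have hα₂ : ∀ x ∈ pk15_chart R ({(pk85_h2 K M' h2')⁻¹} : Set ↥(modularFunctionFieldFullC K M')),
        al97L_alpha K M' q x ∈
          pk15_chart R ({(pk85_h2 K (M' * q) h2)⁻¹} :
            Set ↥(modularFunctionFieldFullC K (M' * q))) := by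
      intro x hx
      have h1 := fl71_alpha_chart (R := R) (K := K) M' q _ x hx
      rwa [Set.image_singleton, map_inv₀, hhe] at h1
    exact ⟨pk85_h2 K M' h2', hhe, cm15_coeffEquiv_h2 M' σ h2',
      fbi76_frame_chart (K := K) M' q hq hM' hπ hqR σ hσ _ _
        (fun g hg => by rw [Set.mem_singleton_iff.mp hg]; exact hhV) hBV₁ hα₁ hw₁ hs₁ hs'₁
        hsat₁ hSj₁,
      fbi76_frame_chart (K := K) M' q hq hM' hπ hqR σ hσ _ _
        (fun g hg => by rw [Set.mem_singleton_iff.mp hg]; exact hhV') hBV₂ hα₂ hw₂ hs₂ hs'₂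
        hsat₂ hSj₂⟩
  · have h3' : 3 ∣ M' :=
      ((Nat.coprime_primes Nat.prime_three hq).mpr (Ne.symm hq3)).dvd_of_dvd_mul_right h3
    obtain ⟨-, -, -, -, hhV, hhV', -⟩ := cm85_facts_level3 (R := R) (K := K) M' hπ h3'
    obtain ⟨⟨hSj₁, -⟩, ⟨hSj₂, -⟩⟩ :=
      bi93_level3 (R := R) (K := K) M' (M' * q) hdvd hπ h3' hMu hf1
    obtain ⟨hs₁, hs₂, -⟩ := in87i_chart_mem_haupt (R := R) (s34i47_coeffEquiv σ (M' * q)) hR
      (pk85_h3 K (M' * q) h3) (cm15_coeffEquiv_h3 (M' * q) σ h3)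
    obtain ⟨hs'₁, hs'₂, -⟩ := in87i_chart_mem_haupt (R := R) (s34i47_coeffEquiv σ M') hR'
      (pk85_h3 K M' h3') (cm15_coeffEquiv_h3 M' σ h3')
    have hhe : al97L_alpha K M' q (pk85_h3 K M' h3') = pk85_h3 K (M' * q) h3 :=
      Subtype.ext (by rw [al97L_alpha_coe, pk85_h3_coe, pk85_h3_coe])
    have hα₁ : ∀ x ∈ pk15_chart R ({pk85_h3 K M' h3'} : Set ↥(modularFunctionFieldFullC K M')),
        al97L_alpha K M' q x ∈
          pk15_chart R ({pk85_h3 K (M' * q) h3} : Set ↥(modularFunctionFieldFullC K (M' * q))) := by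
      intro x hx
      have h1 := fl71_alpha_chart (R := R) (K := K) M' q _ x hx
      rwa [Set.image_singleton, hhe] at h1
    have hα₂ : ∀ x ∈ pk15_chart R ({(pk85_h3 K M' h3')⁻¹} : Set ↥(modularFunctionFieldFullC K M')),
        al97L_alpha K M' q x ∈
          pk15_chart R ({(pk85_h3 K (M' * q) h3)⁻¹} :
            Set ↥(modularFunctionFieldFullC K (M' * q))) := by
      intro x hx
      have h1 := fl71_alpha_chart (R := R) (K := K) M' q _ x hx
      rwa [Set.image_singleton, map_inv₀, hhe] at h1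
    exact ⟨pk85_h3 K M' h3', hhe, cm15_coeffEquiv_h3 M' σ h3',
      fbi76_frame_chart (K := K) M' q hq hM' hπ hqR σ hσ _ _
        (fun g hg => by rw [Set.mem_singleton_iff.mp hg]; exact hhV) hBV₁ hα₁ hw₁ hs₁ hs'₁
        hsat₁ hSj₁,
      fbi76_frame_chart (K := K) M' q hq hM' hπ hqR σ hσ _ _
        (fun g hg => by rw [Set.mem_singleton_iff.mp hg]; exact hhV') hBV₂ hα₂ hw₂ hs₂ hs'₂
        hsat₂ hSj₂⟩

include hq hM' in
/-- **The fibre clause on the canonical frame** (membership form), both affine charts of every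
admissible Hauptmodul `h = α h'`; the fibre hypothesis is over the chart of level `M'`. -/
theorem fbi76_fibre {π : R} (hπ : Irreducible π)
    (hunit : ∀ n : ℕ, Nat.Coprime n q → IsUnit (n : R)) (hqR : ¬ IsUnit (q : R))
    (σ : K ≃+* K) (hσ : ff50_Frob R q σ)
    (h : ↥(modularFunctionFieldFullC K (M' * q))) (hh : s34i47c_IsHaupt K (M' * q) q h) :
    ∃ h' : ↥(modularFunctionFieldFullC K M'), al97L_alpha K M' q h' = h ∧
      fbi76_Fib π (pk15_chart R ({h} : Set ↥(modularFunctionFieldFullC K (M' * q))))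
        (pk15_chart R ({h'} : Set ↥(modularFunctionFieldFullC K M')))
        (al97L_alpha K M' q) (al97L_beta K M' q)
        (s34i47_coeffEquiv σ (M' * q)) (al97L_w (algebraMap K Q̄) M' q hq hM') ∧
      fbi76_Fib π (pk15_chart R ({h⁻¹} : Set ↥(modularFunctionFieldFullC K (M' * q))))
        (pk15_chart R ({h'⁻¹} : Set ↥(modularFunctionFieldFullC K M')))
        (al97L_alpha K M' q) (al97L_beta K M' q)
        (s34i47_coeffEquiv σ (M' * q)) (al97L_w (algebraMap K Q̄) M' q hq hM') := by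
  obtain ⟨h', hh', -, D₁, D₂⟩ := fbi76_frame (K := K) M' q hq hM' hπ hunit hqR σ hσ h hh
  exact ⟨h', hh', D₁.fib, D₂.fib⟩

include hq hM' in
/-- **The fibre clause on the canonical frame**, with the fibre hypothesis quantified over all
`a : F_K(M')` (no chart of level `M'` in the statement). -/
theorem fbi76_fibre' {π : R} (hπ : Irreducible π)
    (hunit : ∀ n : ℕ, Nat.Coprime n q → IsUnit (n : R)) (hqR : ¬ IsUnit (q : R))
    (σ : K ≃+* K) (hσ : ff50_Frob R q σ)
    (h : ↥(modularFunctionFieldFullC K (M' * q))) (hh : s34i47c_IsHaupt K (M' * q) q h) :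
    fbi76_FibU π (pk15_chart R ({h} : Set ↥(modularFunctionFieldFullC K (M' * q))))
        (al97L_alpha K M' q) (al97L_beta K M' q)
        (s34i47_coeffEquiv σ (M' * q)) (al97L_w (algebraMap K Q̄) M' q hq hM') ∧
      fbi76_FibU π (pk15_chart R ({h⁻¹} : Set ↥(modularFunctionFieldFullC K (M' * q))))
        (al97L_alpha K M' q) (al97L_beta K M' q)
        (s34i47_coeffEquiv σ (M' * q)) (al97L_w (algebraMap K Q̄) M' q hq hM') := by
  obtain ⟨h', -, H₁, H₂⟩ := fbi76_fibre (K := K) M' q hq hM' hπ hunit hqR σ hσ h hh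
  exact ⟨fbi76_fibU_of_fib _ _ _ _ _ _ _ H₁, fbi76_fibU_of_fib _ _ _ _ _ _ _ H₂⟩

end fbi76_inst

end Fermat.Agent.S35
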