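import Fermat.Agent.S37.KroneckerNorm97
import Fermat.Agent.S34.AtkinLehnerL97
import Fermat.Agent.S34.LevelChange52

/-!
# S35 lab (helper52): level change, part 1 — the norms along `α` and `β` commute with raising
the level

Row L1g (level-change half).  For `N ∣ N₁`, a prime `ℓ ∤ N₁`, `F(M) = modularFunctionFieldBar M`,
`α, β : F(N) → F(N ℓ)` (`heckeAlphaBar`, `heckeBetaBar`), `α₁, β₁ : F(N₁) → F(N₁ ℓ)` and the
inclusions `ι = tv1_iota : F(N ℓ) → F(N₁ ℓ)`, `ι' = tv1_iota : F(N) → F(N₁)`: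

* `lv52_wBar_compat`, `lv52_wBar_iota` : the Atkin-Lehner involutions `al97L_wBar` of the two
  levels agree on `F(N ℓ)`;
* `lv52_norm_alpha` : `Nm_{α₁} (ι f) = ι' (Nm_α f)`;
* `lv52_norm_beta_eq` : `Nm_β f = Nm_α (w f)`;
* `lv52_norm_beta` : `Nm_{β₁} (ι f) = ι' (Nm_β f)`.

Proof: `kn97_norm_gen` (the norm as a product of `q`-expansions) at both levels; no power basis,
no linear disjointness.
-/

set_option autoImplicit false
set_option linter.style.haveILetI false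

open ModularCurve AlgebraicCurve IntermediateField
open Fermat.Agent.S24 Fermat.Agent.S28 Fermat.Agent.S18 Fermat.Agent.S37

namespace Fermat.Agent.S35

local notation "Qb" => AlgebraicClosure ℚ

section NormCompat

variable {N N₁ ℓ : ℕ} [NeZero N] [NeZero N₁] [NeZero ℓ]

/-- The Atkin-Lehner involutions at `ℓ` of the levels `N ℓ ∣ N₁ ℓ` are compatible. -/
theorem lv52_wBar_compat (hNN : N ∣ N₁) (hℓ : ℓ.Prime) (hN₁ : ¬ ℓ ∣ N₁)
    (x : ↥(modularFunctionFieldBar (N * ℓ))) :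
    ((S34.al97L_wBar N₁ ℓ hℓ hN₁ (tv1_iota (Nat.mul_dvd_mul_right hNN ℓ) x) :
        ↥(modularFunctionFieldBar (N₁ * ℓ))) : LaurentSeries Kbar) =
      ((S34.al97L_wBar N ℓ hℓ (fun h => hN₁ (h.trans hNN)) x :
        ↥(modularFunctionFieldBar (N * ℓ))) : LaurentSeries Kbar) := by
  have hN : ¬ ℓ ∣ N := fun h => hN₁ (h.trans hNN)
  have hd : N * ℓ ∣ N₁ * ℓ := Nat.mul_dvd_mul_right hNN ℓ
  have key : (S34.al97L_wBar N₁ ℓ hℓ hN₁).comp (tv1_iota hd) =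
      (tv1_iota hd).comp (S34.al97L_wBar N ℓ hℓ hN) := by
    apply IntermediateField.algHom_ext_of_eq_adjoin Kbar (asmAb_eq_adjoin (N * ℓ))
    rintro x ⟨d, rfl⟩
    have hdN : d.1 ∣ N * ℓ := Nat.dvd_of_mem_divisors d.2
    apply Subtype.ext
    rw [AlgHom.comp_apply, AlgHom.comp_apply, tv1_coe_iota,
      S34.al97L_wBar_gen N₁ ℓ hℓ hN₁ d.1 (hdN.trans hd) _ (by rw [tv1_coe_iota]),
      S34.al97L_wBar_gen N ℓ hℓ hN d.1 hdN _ rfl]
  have := congrArg (fun φ : ↥(modularFunctionFieldBar (N * ℓ)) →ₐ[Kbar]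
    ↥(modularFunctionFieldBar (N₁ * ℓ)) => ((φ x : ↥(modularFunctionFieldBar (N₁ * ℓ))) :
      LaurentSeries Kbar)) key
  simpa using this

/-- **Base change of the norm along `α`**: for `N ∣ N₁`, `ℓ ∤ N₁` and `f ∈ F(N ℓ)`, the norm of
`f` from `F(N₁ ℓ)` to `F(N₁)` is the norm of `f` from `F(N ℓ)` to `F(N)`. -/
theorem lv52_norm_alpha (hNN : N ∣ N₁) (hℓ : ℓ.Prime) (hN₁ : ¬ ℓ ∣ N₁)
    (f : ↥(modularFunctionFieldBar (N * ℓ))) :
    letI := algebraAlong (heckeAlphaBar Kbar N ℓ)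
    letI := algebraAlong (heckeAlphaBar Kbar N₁ ℓ)
    Algebra.norm ↥(modularFunctionFieldBar N₁) (tv1_iota (Nat.mul_dvd_mul_right hNN ℓ) f) =
      tv1_iota hNN (Algebra.norm ↥(modularFunctionFieldBar N) f) := by
  letI := algebraAlong (heckeAlphaBar Kbar N ℓ)
  letI := algebraAlong (heckeAlphaBar Kbar N₁ ℓ)
  have hN : ¬ ℓ ∣ N := fun h => hN₁ (h.trans hNN)
  obtain ⟨ζ, hζ⟩ : ∃ ζ : Kbar, IsPrimitiveRoot ζ ℓ :=
    HasEnoughRootsOfUnity.exists_primitiveRoot Kbar ℓ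
  have hζ0 : ζ ≠ 0 := hζ.ne_zero hℓ.ne_zero
  have hζu : IsPrimitiveRoot (Units.mk0 ζ hζ0) ℓ := by
    rw [← IsPrimitiveRoot.coe_units_iff]
    exact hζ
  have hJ : ∀ (M : ℕ) [NeZero M] (hM : ¬ ℓ ∣ M) (x : ↥(modularFunctionFieldBar (M * ℓ))),
      (x : LaurentSeries Kbar) = JJ ℓ →
        ((S34.al97L_wBar M ℓ hℓ hM x : ↥(modularFunctionFieldBar (M * ℓ))) :
          LaurentSeries Kbar) = JJ 1 := by
    intro M _ hM x hx
    have := S34.al97L_wBar_gen M ℓ hℓ hM ℓ (dvd_mul_left ℓ M) x hx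
    rwa [al97_swap_of_dvd dvd_rfl, Nat.div_self hℓ.pos] at this
  have h1 := kn97_norm_gen N₁ ℓ hℓ hN₁ (Units.mk0 ζ hζ0) hζu (S34.al97L_wBar N₁ ℓ hℓ hN₁)
    (S34.al97L_wBar_alpha N₁ ℓ hℓ hN₁) (hJ N₁ hN₁) (tv1_iota (Nat.mul_dvd_mul_right hNN ℓ) f)
  have h2 := kn97_norm_gen N ℓ hℓ hN (Units.mk0 ζ hζ0) hζu (S34.al97L_wBar N ℓ hℓ hN)
    (S34.al97L_wBar_alpha N ℓ hℓ hN) (hJ N hN) f
  rw [lv52_wBar_compat hNN hℓ hN₁ f, tv1_coe_iota, ← h2] at h1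
  apply Subtype.ext
  rw [tv1_coe_iota]
  exact qExpand_injective (R := Kbar) (N := ℓ) h1

/-- Element form of `lv52_wBar_compat`: `w₁ (ι x) = ι (w x)`. -/
theorem lv52_wBar_iota (hNN : N ∣ N₁) (hℓ : ℓ.Prime) (hN₁ : ¬ ℓ ∣ N₁)
    (x : ↥(modularFunctionFieldBar (N * ℓ))) :
    S34.al97L_wBar N₁ ℓ hℓ hN₁ (tv1_iota (Nat.mul_dvd_mul_right hNN ℓ) x) =
      tv1_iota (Nat.mul_dvd_mul_right hNN ℓ)
        (S34.al97L_wBar N ℓ hℓ (fun h => hN₁ (h.trans hNN)) x) := by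
  apply Subtype.ext
  rw [lv52_wBar_compat hNN hℓ hN₁ x, tv1_coe_iota]

/-- The Atkin-Lehner involution as a ring automorphism of `F(N ℓ)`. -/
noncomputable def lv52_wEquiv (N ℓ : ℕ) [NeZero N] [NeZero ℓ] (hℓ : ℓ.Prime) (hN : ¬ ℓ ∣ N) :
    ↥(modularFunctionFieldBar (N * ℓ)) ≃+* ↥(modularFunctionFieldBar (N * ℓ)) where
  toFun := S34.al97L_wBar N ℓ hℓ hN
  invFun := S34.al97L_wBar N ℓ hℓ hN
  left_inv := S34.al97L_wBar_wBar N ℓ hℓ hN
  right_inv := S34.al97L_wBar_wBar N ℓ hℓ hN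
  map_mul' := map_mul _
  map_add' := map_add _

/-- The norm along `β` is the norm along `α` after the Atkin-Lehner involution. -/
theorem lv52_norm_beta_eq (hℓ : ℓ.Prime) (hN : ¬ ℓ ∣ N)
    (f : ↥(modularFunctionFieldBar (N * ℓ))) :
    @Algebra.norm ↥(modularFunctionFieldBar N) ↥(modularFunctionFieldBar (N * ℓ)) _ _
        (algebraAlong (heckeBetaBar Kbar N ℓ)) f =
      @Algebra.norm ↥(modularFunctionFieldBar N) ↥(modularFunctionFieldBar (N * ℓ)) _ _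
        (algebraAlong (heckeAlphaBar Kbar N ℓ)) (S34.al97L_wBar N ℓ hℓ hN f) := by
  have he : RingHom.comp (@algebraMap ↥(modularFunctionFieldBar N)
        ↥(modularFunctionFieldBar (N * ℓ)) _ _ (algebraAlong (heckeAlphaBar Kbar N ℓ)))
        ((RingEquiv.refl ↥(modularFunctionFieldBar N) : ↥(modularFunctionFieldBar N) ≃+*
          ↥(modularFunctionFieldBar N)) : ↥(modularFunctionFieldBar N) →+*
          ↥(modularFunctionFieldBar N)) =
      RingHom.comp ((lv52_wEquiv N ℓ hℓ hN : ↥(modularFunctionFieldBar (N * ℓ)) ≃+*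
          ↥(modularFunctionFieldBar (N * ℓ))) : ↥(modularFunctionFieldBar (N * ℓ)) →+*
          ↥(modularFunctionFieldBar (N * ℓ)))
        (@algebraMap ↥(modularFunctionFieldBar N) ↥(modularFunctionFieldBar (N * ℓ)) _ _
          (algebraAlong (heckeBetaBar Kbar N ℓ))) := by
    ext1 x
    show heckeAlphaBar Kbar N ℓ x = S34.al97L_wBar N ℓ hℓ hN (heckeBetaBar Kbar N ℓ x)
    rw [← AlgHom.comp_apply, S34.al97L_wBar_beta]
  have h := @Algebra.norm_eq_of_equiv_equiv ↥(modularFunctionFieldBar N)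
    ↥(modularFunctionFieldBar (N * ℓ)) ↥(modularFunctionFieldBar N)
    ↥(modularFunctionFieldBar (N * ℓ)) _ _ _ _ (algebraAlong (heckeBetaBar Kbar N ℓ))
    (algebraAlong (heckeAlphaBar Kbar N ℓ)) (RingEquiv.refl _) (lv52_wEquiv N ℓ hℓ hN) he f
  exact h

/-- **Base change of the norm along `β`**: for `N ∣ N₁`, `ℓ ∤ N₁` and `f ∈ F(N ℓ)`, the norm of
`f` from `F(N₁ ℓ)` to `β F(N₁)` is the norm of `f` from `F(N ℓ)` to `β F(N)`. -/
theorem lv52_norm_beta (hNN : N ∣ N₁) (hℓ : ℓ.Prime) (hN₁ : ¬ ℓ ∣ N₁)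
    (f : ↥(modularFunctionFieldBar (N * ℓ))) :
    @Algebra.norm ↥(modularFunctionFieldBar N₁) ↥(modularFunctionFieldBar (N₁ * ℓ)) _ _
        (algebraAlong (heckeBetaBar Kbar N₁ ℓ)) (tv1_iota (Nat.mul_dvd_mul_right hNN ℓ) f) =
      tv1_iota hNN (@Algebra.norm ↥(modularFunctionFieldBar N)
        ↥(modularFunctionFieldBar (N * ℓ)) _ _ (algebraAlong (heckeBetaBar Kbar N ℓ)) f) := by
  rw [lv52_norm_beta_eq hℓ hN₁, lv52_norm_beta_eq hℓ (fun h => hN₁ (h.trans hNN)),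
    lv52_wBar_iota hNN hℓ hN₁]
  exact lv52_norm_alpha hNN hℓ hN₁ _

end NormCompat

end Fermat.Agent.S35
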