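import Mathlib
import Fermat.Agent.S35.Iface62
import Fermat.Agent.S34.FieldDef92
import Fermat.Agent.S34.BranchInf46
import Fermat.Agent.S37.KroneckerNorm97
import Fermat.Agent.S35.LevelNorm52

/-!
# S35 lab (helper64, twin of the field-of-definition half of registry row L1g):
`s35i62_Pkg_FieldDef`

The package `CORE35 M' q m ⟹ FFA M' q m` of the interface `Iface62`, literally.

* `fd64_norm_baseChange` (Mathlib only): the norm commutes with a base change
  `E → E'`, `F → F'` of finite separable field extensions of the same degree, provided `F'` is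
  generated (as a field) by `E'` and the image of `F`;
* `fd64_frobenial` : for a normal intermediate field `L` of `ℚ̄ / ℚ`, the restriction to `L` of a
  Frobenius element of `A` at `q` is Frobenial (`s35i62_Frobenial`) for the ring `A ∩ L`;
* `fd64_normA_iota`, `fd64_normB_iota` : the norms along `α` and `β` commute with the base
  change `F_L(M' q) → F_{ℚ̄}(M' q)`;
* `fd64_rat` : rationality of the zeros and poles over a large normal number field, in the
  literal shape of the hypothesis of CORE35;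
* `fd64_pkg_fieldDef : s35i62_Pkg_FieldDef`.

All names are prefixed `fd64_`.
-/

set_option autoImplicit false
set_option linter.style.haveILetI false
set_option linter.style.longLine false
set_option linter.unusedVariables false
set_option linter.unusedSectionVars false

open ModularCurve AlgebraicCurve IntermediateField

namespace Fermat.Agent.S35

open Fermat.Agent.S18 Fermat.Agent.S24 Fermat.Agent.S34 Fermat.Agent.S37

local notation "Q̄" => AlgebraicClosure ℚ

/-! ## 1. The norm commutes with base change (Mathlib only) -/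

section Abstract

variable {E F E' F' : Type*} [Field E] [Field F] [Algebra E F]
  [FiniteDimensional E F] [Algebra.IsSeparable E F]
  [Field E'] [Field F'] [Algebra E' F'] [FiniteDimensional E' F'] [Algebra.IsSeparable E' F']

/-- The norm commutes with a base change of finite separable field extensions of the same
degree, if `F'` is generated as a field by `E'` and the image of `F`. -/
theorem fd64_norm_baseChange (ιE : E →+* E') (ιF : F →+* F')
    (hcomm : ∀ e : E, ιF (algebraMap E F e) = algebraMap E' F' (ιE e))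
    (hgen : ∀ S : Subfield F', (∀ e : E', algebraMap E' F' e ∈ S) → (∀ x : F, ιF x ∈ S) →
      ∀ z : F', z ∈ S)
    (hrank : Module.finrank E F = Module.finrank E' F') (x : F) :
    ιE (Algebra.norm E x) = Algebra.norm E' (ιF x) := by
  classical
  let Ω := AlgebraicClosure F'
  letI algE : Algebra E Ω := ((algebraMap E' Ω).comp ιE).toAlgebra
  let T : (F' →ₐ[E'] Ω) → (F →ₐ[E] Ω) := fun τ =>
    { toRingHom := τ.toRingHom.comp ιF
      commutes' := fun e => by
        show τ (ιF (algebraMap E F e)) = algebraMap E' Ω (ιE e)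
        rw [hcomm, AlgHom.commutes] }
  have hTinj : Function.Injective T := by
    intro τ τ' h
    have hx : ∀ y : F, τ (ιF y) = τ' (ιF y) := fun y =>
      congrArg (fun f : F →ₐ[E] Ω => f y) h
    have hall := hgen (RingHom.eqLocusField τ.toRingHom τ'.toRingHom)
      (fun e => by
        show τ (algebraMap E' F' e) = τ' (algebraMap E' F' e)
        rw [AlgHom.commutes, AlgHom.commutes])
      (fun y => hx y)
    exact AlgHom.ext fun z => hall z
  have hcard : Fintype.card (F' →ₐ[E'] Ω) = Fintype.card (F →ₐ[E] Ω) := by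
    rw [AlgHom.card, AlgHom.card, hrank]
  have hbij : Function.Bijective T :=
    (Fintype.bijective_iff_injective_and_card T).mpr ⟨hTinj, hcard⟩
  have h1 := Algebra.norm_eq_prod_embeddings E Ω x
  have h2 := Algebra.norm_eq_prod_embeddings E' Ω (ιF x)
  apply (algebraMap E' Ω).injective
  calc algebraMap E' Ω (ιE (Algebra.norm E x))
      = algebraMap E Ω (Algebra.norm E x) := rfl
    _ = ∏ σ : F →ₐ[E] Ω, σ x := h1
    _ = ∏ τ : F' →ₐ[E'] Ω, T τ x := (Fintype.prod_bijective T hbij _ _ (fun τ => rfl)).symm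
    _ = ∏ τ : F' →ₐ[E'] Ω, τ (ιF x) := rfl
    _ = algebraMap E' Ω (Algebra.norm E' (ιF x)) := h2.symm

end Abstract


/-! ## 2. Frobenius elements restrict to Frobenial automorphisms -/

section Restrict

/-- A Frobenius element in the Prelude's sense preserves the valuation ring and satisfies the
Frobenius congruence. -/
theorem fd64_frob_congr {K₀ L₀ : Type*} [Field K₀] [Field L₀] [Algebra K₀ L₀]
    (A : ValuationSubring L₀) (σ : L₀ ≃ₐ[K₀] L₀) (q : ℕ) (h : A.IsFrobeniusAt σ q) (x : L₀)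
    (hx : x ∈ A) : σ x ∈ A ∧ σ x - x ^ q ∈ A.nonunits := by
  obtain ⟨hσ, hres⟩ := h
  have hmem : σ x ∈ A :=
    (A.subMulAction K₀).smul_mem (⟨σ, hσ⟩ : A.decompositionSubgroup K₀) (x := x) hx
  refine ⟨hmem, ?_⟩
  have h1 := hres (IsLocalRing.residue A ⟨x, hx⟩)
  rw [← IsLocalRing.ResidueField.residue_smul, ← map_pow, ← sub_eq_zero, ← map_sub,
    IsLocalRing.residue_eq_zero_iff] at h1
  rw [ValuationSubring.mem_nonunits_iff_exists_mem_maximalIdeal]
  exact ⟨_, h1⟩

variable (L : IntermediateField ℚ Q̄) [Normal ℚ L] (A : ValuationSubring Q̄)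

/-- The restriction to a normal intermediate field `L` of a Frobenius element of `A` at `q` is
Frobenial for the ring `A ∩ L`. -/
theorem fd64_frobenial {σ : Q̄ ≃ₐ[ℚ] Q̄} {q : ℕ} (hσ : A.IsFrobeniusAt σ q) :
    s35i62_Frobenial (↥(A.comap (algebraMap ↥L Q̄))) q ((σ.restrictNormal L).toRingEquiv) := by
  intro r
  have hcomm : algebraMap ↥L Q̄ (σ.restrictNormal L (r : ↥L)) = σ (algebraMap ↥L Q̄ (r : ↥L)) :=
    AlgEquiv.restrictNormal_commutes σ L (r : ↥L)
  have hr : algebraMap ↥L Q̄ (r : ↥L) ∈ A := r.2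
  obtain ⟨h1, h2⟩ := fd64_frob_congr A σ q hσ _ hr
  have hmem : σ.restrictNormal L (r : ↥L) ∈ A.comap (algebraMap ↥L Q̄) := by
    rw [ValuationSubring.mem_comap, hcomm]
    exact h1
  refine ⟨⟨_, hmem⟩, rfl, ?_⟩
  rw [← ValuationSubring.coe_mem_nonunits_iff, nf23_mem_nonunits_comap]
  have h3 : algebraMap ↥L Q̄
      ((((⟨_, hmem⟩ : ↥(A.comap (algebraMap ↥L Q̄))) - r ^ q :
        ↥(A.comap (algebraMap ↥L Q̄))) : ↥L)) =
      σ (algebraMap ↥L Q̄ (r : ↥L)) - (algebraMap ↥L Q̄ (r : ↥L)) ^ q := by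
    rw [← hcomm, ← map_pow, ← map_sub]
    rfl
  rw [h3]
  exact h2

end Restrict


/-! ## 3. The norms along `α`, `β` commute with the base change `F_K(M' q) → F_{ℚ̄}(M' q)` -/

section NormIota

variable {K : Type} [Field K] [CharZero K] (φ : K →+* Q̄)
variable (M' q : ℕ) [NeZero M'] [NeZero q]

/-- `F_{ℚ̄}(M)` is generated as a field by any subfield containing `ℚ̄` and the image of
`F_K(M)`. -/
theorem fd64_gen (M : ℕ) (S : Subfield ↥(modularFunctionFieldBar M))
    (hS1 : ∀ c : Q̄, algebraMap Q̄ ↥(modularFunctionFieldBar M) c ∈ S)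
    (hS2 : ∀ x : ↥(modularFunctionFieldFullC K M), fd27_iota φ M x ∈ S)
    (z : ↥(modularFunctionFieldBar M)) : z ∈ S := by
  let S' : IntermediateField Q̄ ↥(modularFunctionFieldBar M) :=
    { S with algebraMap_mem' := hS1 }
  have hle : IntermediateField.adjoin Q̄ (Set.range (fd27_iota φ M)) ≤ S' := by
    rw [IntermediateField.adjoin_le_iff]
    rintro _ ⟨x, rfl⟩
    exact hS2 x
  have hz : z ∈ IntermediateField.adjoin Q̄ (Set.range (fd27_iota φ M)) := by
    rw [fd27_iota_adjoin φ M]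
    exact IntermediateField.mem_top
  exact hle hz

/-- **Base change of the norm along `α`**. -/
theorem fd64_normA_iota (hq : q.Prime) (hqM' : ¬ q ∣ M')
    (x : ↥(modularFunctionFieldFullC K (M' * q))) :
    fd27_iota φ M' (s35i62_normA K M' q x) =
      s35i62_normABar M' q (fd27_iota φ (M' * q) x) := by
  letI algL : Algebra ↥(modularFunctionFieldFullC K M') ↥(modularFunctionFieldFullC K (M' * q)) :=
    algebraAlong (al97L_alpha K M' q)
  letI algB : Algebra ↥(modularFunctionFieldBar M') ↥(modularFunctionFieldBar (M' * q)) :=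
    algebraAlong (heckeAlphaBar Q̄ M' q)
  haveI : FiniteDimensional ↥(modularFunctionFieldFullC K M')
      ↥(modularFunctionFieldFullC K (M' * q)) := bi46_finiteDimensional K M' q hq
  have hfrL : Module.finrank ↥(modularFunctionFieldFullC K M')
      ↥(modularFunctionFieldFullC K (M' * q)) = q + 1 := bi46_finrank K M' q hq hqM'
  have hfrB : Module.finrank ↥(modularFunctionFieldBar M')
      ↥(modularFunctionFieldBar (M' * q)) = q + 1 := kn97_finrank M' q hq hqM'
  haveI : FiniteDimensional ↥(modularFunctionFieldBar M') ↥(modularFunctionFieldBar (M' * q)) :=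
    Module.finite_of_finrank_pos (by rw [hfrB]; omega)
  haveI : CharZero ↥(modularFunctionFieldFullC K M') :=
    charZero_of_injective_algebraMap (algebraMap K ↥(modularFunctionFieldFullC K M')).injective
  haveI : CharZero ↥(modularFunctionFieldBar M') :=
    charZero_of_injective_algebraMap (algebraMap Q̄ ↥(modularFunctionFieldBar M')).injective
  haveI : Algebra.IsSeparable ↥(modularFunctionFieldFullC K M')
      ↥(modularFunctionFieldFullC K (M' * q)) := Algebra.IsAlgebraic.isSeparable_of_perfectField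
  haveI : Algebra.IsSeparable ↥(modularFunctionFieldBar M')
      ↥(modularFunctionFieldBar (M' * q)) := Algebra.IsAlgebraic.isSeparable_of_perfectField
  have hcomm : ∀ e : ↥(modularFunctionFieldFullC K M'),
      fd27_iota φ (M' * q) (algebraMap ↥(modularFunctionFieldFullC K M')
        ↥(modularFunctionFieldFullC K (M' * q)) e) =
      algebraMap ↥(modularFunctionFieldBar M') ↥(modularFunctionFieldBar (M' * q))
        (fd27_iota φ M' e) := by
    intro e
    apply Subtype.ext
    show coeffMap φ ((al97L_alpha K M' q e : ↥(modularFunctionFieldFullC K (M' * q))) :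
        LaurentSeries K) =
      ((heckeAlphaBar Q̄ M' q (fd27_iota φ M' e) : ↥(modularFunctionFieldBar (M' * q))) :
        LaurentSeries Q̄)
    rw [al97L_alpha_coe, coe_heckeAlphaBar, fd27_iota_coe]
  have hgen : ∀ S : Subfield ↥(modularFunctionFieldBar (M' * q)),
      (∀ e : ↥(modularFunctionFieldBar M'),
        algebraMap ↥(modularFunctionFieldBar M') ↥(modularFunctionFieldBar (M' * q)) e ∈ S) →
      (∀ x : ↥(modularFunctionFieldFullC K (M' * q)), fd27_iota φ (M' * q) x ∈ S) →
      ∀ z : ↥(modularFunctionFieldBar (M' * q)), z ∈ S := by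
    intro S hS1 hS2 z
    refine fd64_gen φ (M' * q) S (fun c => ?_) hS2 z
    have h := hS1 (algebraMap Q̄ ↥(modularFunctionFieldBar M') c)
    have h2 : algebraMap ↥(modularFunctionFieldBar M') ↥(modularFunctionFieldBar (M' * q))
        (algebraMap Q̄ ↥(modularFunctionFieldBar M') c) =
        algebraMap Q̄ ↥(modularFunctionFieldBar (M' * q)) c :=
      (heckeAlphaBar Q̄ M' q).commutes c
    rwa [h2] at h
  exact fd64_norm_baseChange (fd27_iota φ M') (fd27_iota φ (M' * q)) hcomm hgen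
    (hfrL.trans hfrB.symm) x


/-- The norm along `β` is the norm along `α` after the Atkin-Lehner involution (level `K`). -/
theorem fd64_normB_eq (hq : q.Prime) (hqM' : ¬ q ∣ M')
    (x : ↥(modularFunctionFieldFullC K (M' * q))) :
    s35i62_normB K M' q x = s35i62_normA K M' q (al97L_w φ M' q hq hqM' x) := by
  have he : RingHom.comp (@algebraMap ↥(modularFunctionFieldFullC K M')
        ↥(modularFunctionFieldFullC K (M' * q)) _ _ (algebraAlong (al97L_alpha K M' q)))
        ((RingEquiv.refl ↥(modularFunctionFieldFullC K M') : ↥(modularFunctionFieldFullC K M') ≃+*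
          ↥(modularFunctionFieldFullC K M')) : ↥(modularFunctionFieldFullC K M') →+*
          ↥(modularFunctionFieldFullC K M')) =
      RingHom.comp (((al97L_w φ M' q hq hqM').toRingEquiv :
          ↥(modularFunctionFieldFullC K (M' * q)) ≃+* ↥(modularFunctionFieldFullC K (M' * q))) :
          ↥(modularFunctionFieldFullC K (M' * q)) →+* ↥(modularFunctionFieldFullC K (M' * q)))
        (@algebraMap ↥(modularFunctionFieldFullC K M') ↥(modularFunctionFieldFullC K (M' * q)) _ _
          (algebraAlong (al97L_beta K M' q))) := by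
    ext1 y
    show al97L_alpha K M' q y = al97L_w φ M' q hq hqM' (al97L_beta K M' q y)
    rw [al97L_w_beta_apply]
  have h := @Algebra.norm_eq_of_equiv_equiv ↥(modularFunctionFieldFullC K M')
    ↥(modularFunctionFieldFullC K (M' * q)) ↥(modularFunctionFieldFullC K M')
    ↥(modularFunctionFieldFullC K (M' * q)) _ _ _ _ (algebraAlong (al97L_beta K M' q))
    (algebraAlong (al97L_alpha K M' q)) (RingEquiv.refl _) (al97L_w φ M' q hq hqM').toRingEquiv
    he x
  exact h

/-- **Base change of the norm along `β`**. -/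
theorem fd64_normB_iota (hq : q.Prime) (hqM' : ¬ q ∣ M')
    (x : ↥(modularFunctionFieldFullC K (M' * q))) :
    fd27_iota φ M' (s35i62_normB K M' q x) =
      s35i62_normBBar M' q (fd27_iota φ (M' * q) x) := by
  rw [fd64_normB_eq φ M' q hq hqM', fd64_normA_iota φ M' q hq hqM']
  have hw : fd27_iota φ (M' * q) (al97L_w φ M' q hq hqM' x) =
      al97L_wBar M' q hq hqM' (fd27_iota φ (M' * q) x) :=
    al97L_w_iota φ M' q hq hqM' x
  rw [hw]
  exact (lv52_norm_beta_eq hq hqM' (fd27_iota φ (M' * q) x)).symm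

end NormIota

/-! ## 4. Rational zeros and poles -/

section Rat

variable (M : ℕ) [NeZero M] (L : IntermediateField ℚ Q̄)

set_option synthInstance.maxHeartbeats 400000 in
/-- The rationality hypothesis of CORE35 for a function `yL` over `L` whose base change `y` has
`L`-rational zeros and poles (conclusion of `rs88_exists`). -/
theorem fd64_rat (yL : ↥(modularFunctionFieldFullC ↥L M)) (y : ↥(modularFunctionFieldBar M))
    (hy : fd27_iota (algebraMap ↥L Q̄) M yL = y)
    (hrat : ∀ P : Place Q̄ ↥(modularFunctionFieldBar M), P.ord y ≠ 0 →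
      ∀ (σ : Q̄ ≃ₐ[ℚ] Q̄) (x : ↥(modularFunctionFieldFullC ↥L M)),
        fd27_iota (algebraMap ↥L Q̄) M x ∈
          (arithmeticGalois (modularFunctionFieldFull M) σ • P).toValuationSubring →
        ∃ c : ↥L, fd27_iota (algebraMap ↥L Q̄) M x
              = algebraMap Q̄ ↥(modularFunctionFieldBar M) (c : Q̄) ∨
            0 < (arithmeticGalois (modularFunctionFieldFull M) σ • P).ord
              (fd27_iota (algebraMap ↥L Q̄) M x -
                algebraMap Q̄ ↥(modularFunctionFieldBar M) (c : Q̄)))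
    (P : Place ↥L ↥(modularFunctionFieldFullC ↥L M)) :
    (yL ∈ P.toValuationSubring ∧ yL⁻¹ ∈ P.toValuationSubring) ∨
      s34i47_IsRat ↥L P.toValuationSubring := by
  have hιcoe : ∀ x : ↥(modularFunctionFieldFullC ↥L M),
      ((fd27_iota (algebraMap ↥L Q̄) M x : ↥(modularFunctionFieldBar M)) : LaurentSeries Q̄) =
        coeffMap (algebraMap ↥L Q̄) (x : LaurentSeries ↥L) := fun x => fd27_iota_coe _ _ x
  obtain ⟨P', hP'⟩ := cx_modular_place_exists (K0 := ↥L) (fd27_iota (algebraMap ↥L Q̄) M)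
    hιcoe P
  by_cases h0 : P'.ord y = 0
  · left
    have h1 : P.ord yL = 0 := by rw [← hP' yL, hy, h0]
    refine ⟨(wp1_mem_iff_ord_nonneg P yL).mpr h1.ge,
      (wp1_mem_iff_ord_nonneg P yL⁻¹).mpr ?_⟩
    rw [Place.ord_inv, h1, neg_zero]
  · right
    intro x hx
    have hx' : fd27_iota (algebraMap ↥L Q̄) M x ∈ P'.toValuationSubring :=
      (wp1_mem_iff_ord_nonneg P' _).mpr
        (by rw [hP' x]; exact (wp1_mem_iff_ord_nonneg P x).mp hx)
    have hx1 : fd27_iota (algebraMap ↥L Q̄) M x ∈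
        (arithmeticGalois (modularFunctionFieldFull M) (1 : Q̄ ≃ₐ[ℚ] Q̄) • P').toValuationSubring := by
      rw [map_one, one_smul]
      exact hx'
    obtain ⟨c, hc⟩ := hrat P' h0 1 x hx1
    rw [map_one, one_smul] at hc
    refine ⟨c, ?_⟩
    have hcmap : fd27_iota (algebraMap ↥L Q̄) M
        (algebraMap ↥L ↥(modularFunctionFieldFullC ↥L M) c) =
        algebraMap Q̄ ↥(modularFunctionFieldBar M) (c : Q̄) :=
      fd27_iota_algebraMap (algebraMap ↥L Q̄) M c
    rcases hc with hc | hc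
    · left
      apply fd27_iota_injective (algebraMap ↥L Q̄) M
      rw [hcmap]
      exact hc
    · right
      intro hinv
      rw [← hcmap, ← map_sub, hP'] at hc
      have h2 := (wp1_mem_iff_ord_nonneg P _).mp hinv
      rw [Place.ord_inv] at h2
      omega

end Rat

/-! ## 5. The package -/

section Main

/-- The norm of a nonzero element of a field extension is nonzero (if the extension is not
finite the norm is `1`). -/
theorem fd64_norm_ne_zero {E F : Type*} [Field E] [Field F] [Algebra E F] {x : F} (hx : x ≠ 0) :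
    Algebra.norm E x ≠ 0 := by
  by_cases hfin : Module.Finite E F
  · haveI := hfin
    exact Algebra.norm_ne_zero_iff.mpr hx
  · rw [Algebra.norm_eq_one_of_not_module_finite hfin]
    exact one_ne_zero

/-- `ι ∘ α = ᾱ ∘ ι`. -/
theorem fd64_iota_alpha {K : Type} [Field K] (φ : K →+* Q̄) (M' q : ℕ) [NeZero M'] [NeZero q]
    (e : ↥(modularFunctionFieldFullC K M')) :
    fd27_iota φ (M' * q) (al97L_alpha K M' q e) = heckeAlphaBar Q̄ M' q (fd27_iota φ M' e) := by
  apply Subtype.ext
  rw [fd27_iota_coe, al97L_alpha_coe, coe_heckeAlphaBar, fd27_iota_coe]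

/-- `ι ∘ β = β̄ ∘ ι`. -/
theorem fd64_iota_beta {K : Type} [Field K] (φ : K →+* Q̄) (M' q : ℕ) [NeZero M'] [NeZero q]
    (e : ↥(modularFunctionFieldFullC K M')) :
    fd27_iota φ (M' * q) (al97L_beta K M' q e) = heckeBetaBar Q̄ M' q (fd27_iota φ M' e) := by
  apply Subtype.ext
  rw [fd27_iota_coe, al97L_beta_coe, coe_heckeBetaBar, fd27_iota_coe, coeffMap_qExpand]

set_option synthInstance.maxHeartbeats 400000 in
set_option maxHeartbeats 1600000 in
/-- **P-FD**: `CORE35 M' q m ⟹ FFA M' q m` (`s35i62_Pkg_FieldDef` of `Iface62`). -/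
theorem fd64_pkg_fieldDef : s35i62_Pkg_FieldDef := by
  intro M' q m _ _ hq hqM' hm hcop hcore A hA σ hσ f hf hdiv ha hb
  obtain ⟨a, ha⟩ := ha
  obtain ⟨b, hb⟩ := hb
  classical
  haveI hMq : NeZero (M' * q) := ⟨Nat.mul_ne_zero (NeZero.ne M') hq.ne_zero⟩
  have ha0 : a ≠ 0 := by
    rintro rfl
    rw [zero_pow hm.ne'] at ha
    exact (@fd64_norm_ne_zero ↥(modularFunctionFieldBar M') ↥(modularFunctionFieldBar (M' * q))
      _ _ (algebraAlong (heckeAlphaBar Q̄ M' q)) f hf) ha
  have hb0 : b ≠ 0 := by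
    rintro rfl
    rw [zero_pow hm.ne'] at hb
    exact (@fd64_norm_ne_zero ↥(modularFunctionFieldBar M') ↥(modularFunctionFieldBar (M' * q))
      _ _ (algebraAlong (heckeBetaBar Q̄ M' q)) f hf) hb
  have hαa : heckeAlphaBar Q̄ M' q a ≠ 0 := (map_ne_zero _).mpr ha0
  have hβa : heckeBetaBar Q̄ M' q a ≠ 0 := (map_ne_zero _).mpr ha0
  have hαb : heckeAlphaBar Q̄ M' q b ≠ 0 := (map_ne_zero _).mpr hb0
  have hβb : heckeBetaBar Q̄ M' q b ≠ 0 := (map_ne_zero _).mpr hb0
  obtain ⟨ζ, hζ⟩ := fd27_exists_primitiveRoot q hq.ne_zero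
  obtain ⟨L1, hfd1, hT1, h1⟩ := rs88_exists (M' * q) f hf {ζ}
  obtain ⟨L2, hfd2, -, h2⟩ := rs88_exists (M' * q) (heckeAlphaBar Q̄ M' q a) hαa ∅
  obtain ⟨L3, hfd3, -, h3⟩ := rs88_exists (M' * q) (heckeBetaBar Q̄ M' q a) hβa ∅
  obtain ⟨L4, hfd4, -, h4⟩ := rs88_exists (M' * q) (heckeAlphaBar Q̄ M' q b) hαb ∅
  obtain ⟨L5, hfd5, -, h5⟩ := rs88_exists (M' * q) (heckeBetaBar Q̄ M' q b) hβb ∅
  obtain ⟨K0, hK0fd, -, hK0⟩ := fd27_exists M'
    {(a : LaurentSeries Q̄), (b : LaurentSeries Q̄)}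
    (by
      intro x hx
      rw [Finset.mem_insert, Finset.mem_singleton] at hx
      rcases hx with rfl | rfl
      · exact a.2
      · exact b.2) ∅
  -- one finite Galois extension containing everything
  obtain ⟨L, hfdL, hnorm, hL1, hL2, hL3, hL4, hL5, hLK0⟩ :
      ∃ L : IntermediateField ℚ Q̄, FiniteDimensional ℚ L ∧ Normal ℚ L ∧ L1 ≤ L ∧ L2 ≤ L ∧
        L3 ≤ L ∧ L4 ≤ L ∧ L5 ≤ L ∧ K0 ≤ L := by
    haveI := hfd1
    haveI := hfd2
    haveI := hfd3
    haveI := hfd4
    haveI := hfd5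
    haveI := hK0fd
    have halg : Algebra.IsAlgebraic ℚ Q̄ := AlgebraicClosure.isAlgebraic ℚ
    haveI : IsAlgClosure ℚ Q̄ := ⟨inferInstance, halg⟩
    haveI : Normal ℚ Q̄ := IsAlgClosure.normal ℚ Q̄
    let L₀ : IntermediateField ℚ Q̄ := L1 ⊔ L2 ⊔ L3 ⊔ L4 ⊔ L5 ⊔ K0
    haveI : FiniteDimensional ℚ ↥L₀ := inferInstance
    have hle : L₀ ≤ IntermediateField.normalClosure ℚ L₀ Q̄ := L₀.le_normalClosure
    refine ⟨IntermediateField.normalClosure ℚ L₀ Q̄, normalClosure.is_finiteDimensional ℚ L₀ Q̄,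
      normalClosure.normal ℚ L₀ Q̄, ?_, ?_, ?_, ?_, ?_, ?_⟩
    · exact (le_sup_left.trans (le_sup_left.trans (le_sup_left.trans
        (le_sup_left.trans le_sup_left)))).trans hle
    · exact (le_sup_right.trans (le_sup_left.trans (le_sup_left.trans
        (le_sup_left.trans le_sup_left)))).trans hle
    · exact (le_sup_right.trans (le_sup_left.trans (le_sup_left.trans le_sup_left))).trans hle
    · exact (le_sup_right.trans (le_sup_left.trans le_sup_left)).trans hle
    · exact (le_sup_right.trans le_sup_left).trans hle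
    · exact le_sup_right.trans hle
  haveI := hfdL
  haveI := hnorm
  haveI hNF : NumberField ↥L := fd27_numberField L hfdL
  have hιcoe : ∀ x : ↥(modularFunctionFieldFullC ↥L (M' * q)),
      ((fd27_iota (algebraMap ↥L Q̄) (M' * q) x : ↥(modularFunctionFieldBar (M' * q))) :
        LaurentSeries Q̄) = coeffMap (algebraMap ↥L Q̄) (x : LaurentSeries ↥L) :=
    fun x => fd27_iota_coe _ _ x
  obtain ⟨⟨fL, hfL⟩, hrat1⟩ := h1 L hL1
  obtain ⟨-, hrat2⟩ := h2 L hL2
  obtain ⟨-, hrat3⟩ := h3 L hL3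
  obtain ⟨-, hrat4⟩ := h4 L hL4
  obtain ⟨-, hrat5⟩ := h5 L hL5
  -- `a`, `b` over `L`
  obtain ⟨ya, hya, hyaa⟩ := hK0 (a : LaurentSeries Q̄)
    (by rw [Finset.mem_insert]; exact Or.inl rfl)
  obtain ⟨ya', hya', hyaa'⟩ := fd27_lift hLK0 M' ya hya
  obtain ⟨yb, hyb, hybb⟩ := hK0 (b : LaurentSeries Q̄)
    (by rw [Finset.mem_insert, Finset.mem_singleton]; exact Or.inr rfl)
  obtain ⟨yb', hyb', hybb'⟩ := fd27_lift hLK0 M' yb hyb
  have haL : fd27_iota (algebraMap ↥L Q̄) M' ⟨ya', hya'⟩ = a :=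
    Subtype.ext (by rw [fd27_iota_coe]; exact hyaa'.trans hyaa)
  have hbL : fd27_iota (algebraMap ↥L Q̄) M' ⟨yb', hyb'⟩ = b :=
    Subtype.ext (by rw [fd27_iota_coe]; exact hybb'.trans hybb)
  generalize (⟨ya', hya'⟩ : ↥(modularFunctionFieldFullC ↥L M')) = aL at haL
  generalize (⟨yb', hyb'⟩ : ↥(modularFunctionFieldFullC ↥L M')) = bL at hbL
  have hfL0 : fL ≠ 0 := by
    rintro rfl
    exact hf (by rw [← hfL, map_zero])
  have haL0 : aL ≠ 0 := by
    rintro rfl
    exact ha0 (by rw [← haL, map_zero])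
  have hbL0 : bL ≠ 0 := by
    rintro rfl
    exact hb0 (by rw [← hbL, map_zero])
  -- the root of unity
  have hζL : ζ ∈ L := hL1 (hT1 ζ (Finset.mem_singleton_self ζ))
  have hζ' : ∃ ζ' : ↥L, IsPrimitiveRoot ζ' q :=
    ⟨⟨ζ, hζL⟩, IsPrimitiveRoot.of_map_of_injective (f := algebraMap ↥L Q̄) hζ
      (algebraMap ↥L Q̄).injective⟩
  -- the discrete valuation ring `A ∩ L`
  haveI hdvr : IsDiscreteValuationRing ↥(A.comap (algebraMap ↥L Q̄)) :=
    nf23_comap_isDVR_of_liesOverPrime (algebraMap ↥L Q̄) A hq.ne_zero hA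
  obtain ⟨π, hπ⟩ := IsDiscreteValuationRing.exists_irreducible ↥(A.comap (algebraMap ↥L Q̄))
  letI alg : Algebra ↥(A.comap (algebraMap ↥L Q̄)) ↥(modularFunctionFieldFullC ↥L (M' * q)) :=
    ((algebraMap ↥L ↥(modularFunctionFieldFullC ↥L (M' * q))).comp
      (algebraMap ↥(A.comap (algebraMap ↥L Q̄)) ↥L)).toAlgebra
  haveI htower : IsScalarTower ↥(A.comap (algebraMap ↥L Q̄)) ↥L
      ↥(modularFunctionFieldFullC ↥L (M' * q)) := IsScalarTower.of_algebraMap_eq (fun _ => rfl)
  have hunit : ∀ n : ℕ, Nat.Coprime n q →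
      IsUnit ((n : ℕ) : ↥(A.comap (algebraMap ↥L Q̄))) := by
    intro n hn
    obtain ⟨μ, hμ⟩ := nf23_exists_natCast_mul_eq_one (algebraMap ↥L Q̄) A hA hn
    exact IsUnit.of_mul_eq_one _ hμ
  have hqnu : ¬ IsUnit ((q : ℕ) : ↥(A.comap (algebraMap ↥L Q̄))) := by
    intro hu
    have h1 : ((q : ↥L)) ∈ (A.comap (algebraMap ↥L Q̄)).nonunits := by
      rw [nf23_mem_nonunits_comap, map_natCast]
      exact hA
    have h2 : ((q : ℕ) : ↥(A.comap (algebraMap ↥L Q̄))) ∈
        IsLocalRing.maximalIdeal ↥(A.comap (algebraMap ↥L Q̄)) := by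
      rw [← ValuationSubring.coe_mem_nonunits_iff]
      exact h1
    exact h2 hu
  have hσL := fd64_frobenial L A hσ
  -- the hypotheses of CORE35
  have hP1 : ∀ P : Place ↥L ↥(modularFunctionFieldFullC ↥L (M' * q)), (m : ℤ) ∣ P.ord fL := by
    intro P
    refine cx_modular_place_dvd (K0 := ↥L) (fd27_iota (algebraMap ↥L Q̄) (M' * q)) hιcoe
      (m : ℤ) fL ?_ P
    intro P'
    rw [hfL]
    exact hdiv P'
  have hnA : s35i62_normA ↥L M' q fL =
      algebraMap ↥L ↥(modularFunctionFieldFullC ↥L M') 1 * aL ^ m := by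
    rw [map_one, one_mul]
    apply fd27_iota_injective (algebraMap ↥L Q̄) M'
    rw [fd64_normA_iota (algebraMap ↥L Q̄) M' q hq hqM', hfL, map_pow, haL]
    exact ha
  have hnB : s35i62_normB ↥L M' q fL =
      algebraMap ↥L ↥(modularFunctionFieldFullC ↥L M') 1 * bL ^ m := by
    rw [map_one, one_mul]
    apply fd27_iota_injective (algebraMap ↥L Q̄) M'
    rw [fd64_normB_iota (algebraMap ↥L Q̄) M' q hq hqM', hfL, map_pow, hbL]
    exact hb
  have hP2 : ∀ y : ↥(modularFunctionFieldFullC ↥L (M' * q)),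
      (y = fL ∨ y = al97L_alpha ↥L M' q aL ∨ y = al97L_beta ↥L M' q aL ∨
        y = al97L_alpha ↥L M' q bL ∨ y = al97L_beta ↥L M' q bL) →
      ∀ P : Place ↥L ↥(modularFunctionFieldFullC ↥L (M' * q)),
        (y ∈ P.toValuationSubring ∧ y⁻¹ ∈ P.toValuationSubring) ∨
          s34i47_IsRat ↥L P.toValuationSubring := by
    rintro y (rfl | rfl | rfl | rfl | rfl) P
    · exact fd64_rat (M' * q) L y f hfL (hrat1 hnorm) P
    · exact fd64_rat (M' * q) L _ (heckeAlphaBar Q̄ M' q a)
        (by rw [fd64_iota_alpha, haL]) (hrat2 hnorm) P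
    · exact fd64_rat (M' * q) L _ (heckeBetaBar Q̄ M' q a)
        (by rw [fd64_iota_beta, haL]) (hrat3 hnorm) P
    · exact fd64_rat (M' * q) L _ (heckeAlphaBar Q̄ M' q b)
        (by rw [fd64_iota_alpha, hbL]) (hrat4 hnorm) P
    · exact fd64_rat (M' * q) L _ (heckeBetaBar Q̄ M' q b)
        (by rw [fd64_iota_beta, hbL]) (hrat5 hnorm) P
  obtain ⟨f₀, c, hf₀, -, hmain⟩ := hcore ↥(A.comap (algebraMap ↥L Q̄)) ↥L π hπ hunit hqnu hζ'
    ((σ.restrictNormal L).toRingEquiv) hσL fL aL bL 1 1 hfL0 haL0 hbL0 one_ne_zero one_ne_zero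
    hP1 hnA hnB hP2
  -- transport to `ℚ̄`
  have hι := congrArg (fd27_iota (algebraMap ↥L Q̄) (M' * q)) hmain
  have hop : fd27_iota (algebraMap ↥L Q̄) (M' * q)
      (s35i62_op q (s34i47_coeffEquiv ((σ.restrictNormal L).toRingEquiv) (M' * q)) fL) =
      s35i62_op q (arithmeticRingAut (modularFunctionFieldFull (M' * q)) σ) f := by
    unfold s35i62_op
    rw [map_div₀, map_mul, map_mul, map_pow, map_pow, map_pow]
    simp only [fd92_iota_coeffEquiv, hfL]
  rw [map_mul, map_pow, hop, fd27_iota_algebraMap] at hι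
  obtain ⟨γ, hγ⟩ := IsAlgClosed.exists_pow_nat_eq (algebraMap ↥L Q̄ c) hm
  have hf0' : fd27_iota (algebraMap ↥L Q̄) (M' * q) f₀ ≠ 0 :=
    (map_ne_zero_iff _ (fd27_iota_injective (algebraMap ↥L Q̄) (M' * q))).mpr hf₀
  refine ⟨algebraMap Q̄ ↥(modularFunctionFieldBar (M' * q)) γ *
    (fd27_iota (algebraMap ↥L Q̄) (M' * q) f₀)⁻¹, ?_⟩
  have hx : fd27_iota (algebraMap ↥L Q̄) (M' * q) f₀ ^ m ≠ 0 := pow_ne_zero m hf0'
  rw [mul_pow, ← map_pow, hγ, ← hι, inv_pow]
  exact (mul_right_comm _ _ _).trans (by rw [mul_inv_cancel₀ hx, one_mul])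

end Main

end Fermat.Agent.S35
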