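import Fermat.Agent.S35.Iface62
import Fermat.Agent.S35.LevelNorm52
import Fermat.Agent.S34.FieldDef92
import Fermat.Agent.S34.FrameSat85

/-!
# S35 lab (helper77, twin of registry row 550, field-of-definition half): `s35i62_Pkg_FieldDef`

The package `CORE35 M' q m ⟹ FFA M' q m` of the interface `Iface62`, literally.

* `fd77_iota_alpha`, `fd77_iota_beta` : the base change `ι : F(M)_L → F(M)_{ℚ̄}` commutes with the
  two degeneracy maps;
* `fd77_normA_iota`, `fd77_normB_iota` : **the norms along `α` and `β` commute with the base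
  change of the constants** (`ι' (N_α y) = N̄_α (ι y)`), by the `q + 1` embeddings into `ℚ̄((Q))`
  of `kn97_norm_gen` restricted to `F(M' q)_L`;
* `fd77_frob`, `fd77_frobenial` : the restriction to a normal number field `L` of a Frobenius
  lift at `A` is Frobenial (`s35i62_Frobenial`) for the ring `A ∩ L`;
* `fd77_field` : one finite Galois extension `L / ℚ` containing a primitive `q`-th root of unity
  over which `f`, `a`, `b` are defined and all zeros and poles of `f`, `α a`, `β a`, `α b`, `β b`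
  are rational points;
* `fd77_pkg_fieldDef : s35i62_Pkg_FieldDef`.
-/

set_option autoImplicit false
set_option linter.style.haveILetI false
set_option linter.style.longLine false
set_option linter.unusedVariables false

open ModularCurve AlgebraicCurve IntermediateField

namespace Fermat.Agent.S35

open Fermat.Agent.S18 Fermat.Agent.S24 Fermat.Agent.S28 Fermat.Agent.S34 Fermat.Agent.S37

local notation "Q̄" => AlgebraicClosure ℚ

section NormBC

variable {L : Type} [Field L] (φ : L →+* Q̄) (N ℓ : ℕ) [NeZero N] [NeZero ℓ]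

/-- `ι (α x) = ᾱ (ι x)`. -/
theorem fd77_iota_alpha (x : ↥(modularFunctionFieldFullC L N)) :
    fd27_iota φ (N * ℓ) (al97L_alpha L N ℓ x) = heckeAlphaBar Q̄ N ℓ (fd27_iota φ N x) := by
  apply Subtype.ext
  rw [coe_heckeAlphaBar, fd27_iota_coe, fd27_iota_coe, al97L_alpha_coe]

/-- `ι (β x) = β̄ (ι x)`. -/
theorem fd77_iota_beta (x : ↥(modularFunctionFieldFullC L N)) :
    fd27_iota φ (N * ℓ) (al97L_beta L N ℓ x) = heckeBetaBar Q̄ N ℓ (fd27_iota φ N x) := by
  apply Subtype.ext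
  rw [coe_heckeBetaBar, fd27_iota_coe, fd27_iota_coe, al97L_beta_coe, coeffMap_qExpand]

/-- `ι (w x) = w̄ (ι x)`. -/
theorem fd77_iota_w (hℓ : ℓ.Prime) (hN : ¬ ℓ ∣ N) (x : ↥(modularFunctionFieldFullC L (N * ℓ))) :
    fd27_iota φ (N * ℓ) (al97L_w φ N ℓ hℓ hN x) =
      al97L_wBar N ℓ hℓ hN (fd27_iota φ (N * ℓ) x) :=
  al97L_w_iota φ N ℓ hℓ hN x

/-- **The norm along `α` commutes with the base change of the constants.** -/
theorem fd77_normA_iota (hℓ : ℓ.Prime) (hN : ¬ ℓ ∣ N)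
    (y : ↥(modularFunctionFieldFullC L (N * ℓ))) :
    fd27_iota φ N (s35i62_normA L N ℓ y) = s35i62_normABar N ℓ (fd27_iota φ (N * ℓ) y) := by
  classical
  haveI : CharZero L := RingHom.charZero φ
  letI algL : Algebra ↥(modularFunctionFieldFullC L N) ↥(modularFunctionFieldFullC L (N * ℓ)) :=
    algebraAlong (al97L_alpha L N ℓ)
  letI algB : Algebra ↥(modularFunctionFieldBar N) ↥(modularFunctionFieldBar (N * ℓ)) :=
    algebraAlong (heckeAlphaBar Q̄ N ℓ)
  have hfr : Module.finrank ↥(modularFunctionFieldFullC L N)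
      ↥(modularFunctionFieldFullC L (N * ℓ)) = ℓ + 1 := fs85_finrank L N ℓ hℓ hN
  haveI : FiniteDimensional ↥(modularFunctionFieldFullC L N)
      ↥(modularFunctionFieldFullC L (N * ℓ)) :=
    Module.finite_of_finrank_pos (by rw [hfr]; omega)
  haveI : CharZero ↥(modularFunctionFieldFullC L N) :=
    charZero_of_injective_algebraMap (algebraMap L ↥(modularFunctionFieldFullC L N)).injective
  haveI : Algebra.IsSeparable ↥(modularFunctionFieldFullC L N)
      ↥(modularFunctionFieldFullC L (N * ℓ)) :=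
    Algebra.IsAlgebraic.isSeparable_of_perfectField
  obtain ⟨ζ, hζ⟩ : ∃ ζ : Q̄, IsPrimitiveRoot ζ ℓ :=
    HasEnoughRootsOfUnity.exists_primitiveRoot Q̄ ℓ
  have hζ0 : ζ ≠ 0 := hζ.ne_zero hℓ.ne_zero
  have hζu : IsPrimitiveRoot (Units.mk0 ζ hζ0) ℓ := by
    rw [← IsPrimitiveRoot.coe_units_iff]
    exact hζ
  have hwα := al97L_wBar_alpha N ℓ hℓ hN
  have hwJ : ∀ x : ↥(modularFunctionFieldBar (N * ℓ)), (x : LaurentSeries Q̄) = JJ ℓ →
      ((al97L_wBar N ℓ hℓ hN x : ↥(modularFunctionFieldBar (N * ℓ))) : LaurentSeries Q̄) =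
        JJ 1 := by
    intro x hx
    have := al97L_wBar_gen N ℓ hℓ hN ℓ (dvd_mul_left ℓ N) x hx
    rwa [al97_swap_of_dvd dvd_rfl, Nat.div_self hℓ.pos] at this
  let valB : ↥(modularFunctionFieldBar (N * ℓ)) →+* LaurentSeries Q̄ :=
    (modularFunctionFieldBar (N * ℓ)).val.toRingHom
  let ιΩ : ↥(modularFunctionFieldFullC L N) →+* LaurentSeries Q̄ :=
    ((qExpand Q̄ ℓ).comp (modularFunctionFieldBar N).val.toRingHom).comp (fd27_iota φ N)
  let σ : Option (Fin ℓ) → (↥(modularFunctionFieldFullC L (N * ℓ)) →+* LaurentSeries Q̄) :=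
    fun i =>
      match i with
      | none => ((qExpand Q̄ ℓ).comp valB).comp (fd27_iota φ (N * ℓ))
      | some b => ((twist (Units.mk0 ζ hζ0 ^ (b : ℕ))).comp
          (valB.comp (al97L_wBar N ℓ hℓ hN).toRingHom)).comp (fd27_iota φ (N * ℓ))
  have hσ : ∀ i, (σ i).comp (algebraMap ↥(modularFunctionFieldFullC L N)
      ↥(modularFunctionFieldFullC L (N * ℓ))) = ιΩ := by
    intro i
    ext1 x
    have hx : algebraMap ↥(modularFunctionFieldFullC L N)
        ↥(modularFunctionFieldFullC L (N * ℓ)) x = al97L_alpha L N ℓ x := rfl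
    rw [RingHom.comp_apply, hx]
    cases i with
    | none =>
      show qExpand Q̄ ℓ ((fd27_iota φ (N * ℓ) (al97L_alpha L N ℓ x) :
        ↥(modularFunctionFieldBar (N * ℓ))) : LaurentSeries Q̄) =
          qExpand Q̄ ℓ ((fd27_iota φ N x : ↥(modularFunctionFieldBar N)) : LaurentSeries Q̄)
      rw [fd77_iota_alpha, coe_heckeAlphaBar]
    | some b =>
      show twist (Units.mk0 ζ hζ0 ^ (b : ℕ))
        ((al97L_wBar N ℓ hℓ hN (fd27_iota φ (N * ℓ) (al97L_alpha L N ℓ x)) :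
          ↥(modularFunctionFieldBar (N * ℓ))) : LaurentSeries Q̄) =
          qExpand Q̄ ℓ ((fd27_iota φ N x : ↥(modularFunctionFieldBar N)) : LaurentSeries Q̄)
      have h1 : al97L_wBar N ℓ hℓ hN (heckeAlphaBar Q̄ N ℓ (fd27_iota φ N x)) =
          heckeBetaBar Q̄ N ℓ (fd27_iota φ N x) := AlgHom.congr_fun hwα _
      rw [fd77_iota_alpha, h1, coe_heckeBetaBar]
      exact twist_qExpand_of_pow_eq_one _ ℓ
        (by rw [← pow_mul, mul_comm, pow_mul, hζu.pow_eq_one, one_pow]) _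
  have hinj : Function.Injective σ := by
    have hℓ2 : ¬ ((ℓ : ℤ) ∣ (-1 : ℤ)) := by
      intro hd
      have h1 : (ℓ : ℤ) ∣ 1 := (dvd_neg).mp hd
      have h2 : ℓ ∣ 1 := by exact_mod_cast h1
      exact hℓ.one_lt.ne' (Nat.dvd_one.mp h2)
    let x0 : ↥(modularFunctionFieldFullC L (N * ℓ)) :=
      ⟨qExpand L ℓ (jqModC L), jqModCd_mem_full L (N * ℓ) (dvd_mul_left ℓ N)⟩
    have hx0 : ((fd27_iota φ (N * ℓ) x0 : ↥(modularFunctionFieldBar (N * ℓ))) :
        LaurentSeries Q̄) = JJ ℓ := by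
      rw [fd27_iota_coe]
      exact al97L_coeffMap_gen φ ℓ
    have hnone : (σ none x0).coeff (-1) = 0 := by
      show (qExpand Q̄ ℓ ((fd27_iota φ (N * ℓ) x0 : ↥(modularFunctionFieldBar (N * ℓ))) :
        LaurentSeries Q̄)).coeff (-1) = 0
      exact qExpand_coeff_of_not_dvd ℓ _ hℓ2
    have hsome : ∀ b : Fin ℓ, (σ (some b) x0).coeff (-1) =
        (((Units.mk0 ζ hζ0 ^ (b : ℕ)) ^ (-1 : ℤ) : Q̄ˣ) : Q̄) := by
      intro b
      show (twist (Units.mk0 ζ hζ0 ^ (b : ℕ))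
        ((al97L_wBar N ℓ hℓ hN (fd27_iota φ (N * ℓ) x0) :
          ↥(modularFunctionFieldBar (N * ℓ))) : LaurentSeries Q̄)).coeff (-1) = _
      rw [hwJ _ hx0, twist_coeff, kn97_JJ_one_coeff, mul_one]
    intro i j hij
    have hc : (σ i x0).coeff (-1) = (σ j x0).coeff (-1) := by rw [hij]
    cases i with
    | none =>
      cases j with
      | none => rfl
      | some b =>
        rw [hnone, hsome] at hc
        exact absurd hc.symm (Units.ne_zero _)
    | some a =>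
      cases j with
      | none =>
        rw [hnone, hsome] at hc
        exact absurd hc (Units.ne_zero _)
      | some b =>
        rw [hsome, hsome] at hc
        have h1 : (Units.mk0 ζ hζ0 ^ (a : ℕ)) ^ (-1 : ℤ) =
            (Units.mk0 ζ hζ0 ^ (b : ℕ)) ^ (-1 : ℤ) := Units.ext hc
        have h2 : Units.mk0 ζ hζ0 ^ (a : ℕ) = Units.mk0 ζ hζ0 ^ (b : ℕ) := by
          simpa using h1
        have h3 : (a : ℕ) = (b : ℕ) := hζu.pow_inj a.2 b.2 h2
        exact congrArg some (Fin.ext h3)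
  have hn : Module.finrank ↥(modularFunctionFieldFullC L N)
      ↥(modularFunctionFieldFullC L (N * ℓ)) = Fintype.card (Option (Fin ℓ)) := by
    rw [hfr, Fintype.card_option, Fintype.card_fin]
  have hmain := kn97_norm_eq_prod ιΩ σ hσ hinj hn y
  rw [Fintype.prod_option] at hmain
  have hbar := kn97_norm_gen N ℓ hℓ hN (Units.mk0 ζ hζ0) hζu (al97L_wBar N ℓ hℓ hN) hwα hwJ
    (fd27_iota φ (N * ℓ) y)
  apply Subtype.ext
  apply qExpand_injective (R := Q̄) (N := ℓ)
  exact hmain.trans hbar.symm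

/-- The norm along `β` is the norm along `α` after the Atkin–Lehner involution (over `L`). -/
theorem fd77_normB_eq (hℓ : ℓ.Prime) (hN : ¬ ℓ ∣ N)
    (y : ↥(modularFunctionFieldFullC L (N * ℓ))) :
    s35i62_normB L N ℓ y = s35i62_normA L N ℓ (al97L_w φ N ℓ hℓ hN y) := by
  have he : RingHom.comp (@algebraMap ↥(modularFunctionFieldFullC L N)
        ↥(modularFunctionFieldFullC L (N * ℓ)) _ _ (algebraAlong (al97L_alpha L N ℓ)))
        ((RingEquiv.refl ↥(modularFunctionFieldFullC L N) : ↥(modularFunctionFieldFullC L N) ≃+*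
          ↥(modularFunctionFieldFullC L N)) : ↥(modularFunctionFieldFullC L N) →+*
          ↥(modularFunctionFieldFullC L N)) =
      RingHom.comp (((al97L_w φ N ℓ hℓ hN).toRingEquiv : ↥(modularFunctionFieldFullC L (N * ℓ)) ≃+*
          ↥(modularFunctionFieldFullC L (N * ℓ))) : ↥(modularFunctionFieldFullC L (N * ℓ)) →+*
          ↥(modularFunctionFieldFullC L (N * ℓ)))
        (@algebraMap ↥(modularFunctionFieldFullC L N) ↥(modularFunctionFieldFullC L (N * ℓ)) _ _
          (algebraAlong (al97L_beta L N ℓ))) := by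
    ext1 x
    show al97L_alpha L N ℓ x = al97L_w φ N ℓ hℓ hN (al97L_beta L N ℓ x)
    rw [al97L_w_beta_apply]
  have h := @Algebra.norm_eq_of_equiv_equiv ↥(modularFunctionFieldFullC L N)
    ↥(modularFunctionFieldFullC L (N * ℓ)) ↥(modularFunctionFieldFullC L N)
    ↥(modularFunctionFieldFullC L (N * ℓ)) _ _ _ _ (algebraAlong (al97L_beta L N ℓ))
    (algebraAlong (al97L_alpha L N ℓ)) (RingEquiv.refl _) (al97L_w φ N ℓ hℓ hN).toRingEquiv he y
  exact h

/-- **The norm along `β` commutes with the base change of the constants.** -/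
theorem fd77_normB_iota (hℓ : ℓ.Prime) (hN : ¬ ℓ ∣ N)
    (y : ↥(modularFunctionFieldFullC L (N * ℓ))) :
    fd27_iota φ N (s35i62_normB L N ℓ y) = s35i62_normBBar N ℓ (fd27_iota φ (N * ℓ) y) := by
  rw [fd77_normB_eq φ N ℓ hℓ hN, fd77_normA_iota φ N ℓ hℓ hN, fd77_iota_w]
  exact (lv52_norm_beta_eq hℓ hN _).symm

end NormBC

section Frob

variable {E : Type*} [Field E] (K : Type*) [Field K] [Algebra K E] (A : ValuationSubring E)

/-- A Frobenius lift at `A` preserves `A` and induces `x ↦ x ^ q` on its residue field. -/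
theorem fd77_frob {σ : E ≃ₐ[K] E} {q : ℕ} (hσ : A.IsFrobeniusAt σ q) (x : E) (hx : x ∈ A) :
    σ x ∈ A ∧ σ x - x ^ q ∈ A.nonunits := by
  obtain ⟨hdec, hfr⟩ := hσ
  have hmem : σ x ∈ A :=
    (A.subMulAction K).smul_mem (⟨σ, hdec⟩ : A.decompositionSubgroup K) (x := x) hx
  refine ⟨hmem, ?_⟩
  have h2 := hfr (IsLocalRing.residue A ⟨x, hx⟩)
  rw [← IsLocalRing.ResidueField.residue_smul] at h2
  have h3 : IsLocalRing.residue A
      ((⟨σ, hdec⟩ : A.decompositionSubgroup K) • (⟨x, hx⟩ : A) - (⟨x, hx⟩ : A) ^ q) = 0 := by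
    rw [map_sub, map_pow, h2, sub_self]
  rw [IsLocalRing.residue_eq_zero_iff] at h3
  exact ValuationSubring.coe_mem_nonunits_iff.mpr h3

end Frob

section Restrict

variable (L : IntermediateField ℚ Q̄) [Normal ℚ L] (A : ValuationSubring Q̄)

/-- The restriction to a normal intermediate field `L` of a Frobenius lift at `A` is Frobenial
for the ring `A ∩ L`. -/
theorem fd77_frobenial {q : ℕ} {t : Q̄ ≃ₐ[ℚ] Q̄} (ht : A.IsFrobeniusAt t q) :
    s35i62_Frobenial (↥(A.comap (algebraMap ↥L Q̄))) q ((t.restrictNormal L).toRingEquiv) := by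
  intro r
  have hcomm : algebraMap ↥L Q̄ (t.restrictNormal L (r : ↥L)) = t (algebraMap ↥L Q̄ (r : ↥L)) :=
    AlgEquiv.restrictNormal_commutes t L (r : ↥L)
  have hr : algebraMap ↥L Q̄ (r : ↥L) ∈ A := r.2
  obtain ⟨h1, h2⟩ := fd77_frob ℚ A ht _ hr
  have hmem : t.restrictNormal L (r : ↥L) ∈ A.comap (algebraMap ↥L Q̄) := by
    rw [ValuationSubring.mem_comap, hcomm]
    exact h1
  refine ⟨⟨_, hmem⟩, rfl, ?_⟩
  rw [← ValuationSubring.coe_mem_nonunits_iff, nf23_mem_nonunits_comap]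
  have h3 : algebraMap ↥L Q̄
      ((((⟨_, hmem⟩ : ↥(A.comap (algebraMap ↥L Q̄))) - r ^ q :
        ↥(A.comap (algebraMap ↥L Q̄))) : ↥L)) =
      t (algebraMap ↥L Q̄ (r : ↥L)) - algebraMap ↥L Q̄ (r : ↥L) ^ q := by
    rw [← hcomm, ← map_pow, ← map_sub]
    rfl
  rw [h3]
  exact h2

end Restrict

section Field

set_option synthInstance.maxHeartbeats 200000

/-- Every Galois conjugate of every place in the support of `div g` is an `L`-rational point
(evaluation form of `rs88_exists`). -/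
def fd77_RatOn (M : ℕ) (L : IntermediateField ℚ Q̄) (g : ↥(modularFunctionFieldBar M)) : Prop :=
  ∀ P : Place Q̄ ↥(modularFunctionFieldBar M), P.ord g ≠ 0 →
    ∀ (σ : Q̄ ≃ₐ[ℚ] Q̄) (x : ↥(modularFunctionFieldFullC L M)),
      fd27_iota (algebraMap L Q̄) M x ∈
        (arithmeticGalois (modularFunctionFieldFull M) σ • P).toValuationSubring →
      ∃ c : L, fd27_iota (algebraMap L Q̄) M x
            = algebraMap Q̄ ↥(modularFunctionFieldBar M) (c : Q̄) ∨
          0 < (arithmeticGalois (modularFunctionFieldFull M) σ • P).ord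
            (fd27_iota (algebraMap L Q̄) M x -
              algebraMap Q̄ ↥(modularFunctionFieldBar M) (c : Q̄))

/-- `rs88_exists`, restated. -/
theorem fd77_ev (M : ℕ) [NeZero M] (g : ↥(modularFunctionFieldBar M)) (hg : g ≠ 0)
    (T : Finset Q̄) :
    ∃ L₀ : IntermediateField ℚ Q̄, FiniteDimensional ℚ L₀ ∧ (∀ t ∈ T, t ∈ L₀) ∧
      ∀ L : IntermediateField ℚ Q̄, L₀ ≤ L →
        (∃ gL : ↥(modularFunctionFieldFullC L M), fd27_iota (algebraMap L Q̄) M gL = g) ∧
        (Normal ℚ L → fd77_RatOn M L g) :=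
  rs88_exists M g hg T

/-- From the evaluation form over `ℚ̄` to the rationality clause of `CORE35` over `L`. -/
theorem fd77_rat (M : ℕ) [NeZero M] (L : IntermediateField ℚ Q̄)
    (g : ↥(modularFunctionFieldBar M)) (gL : ↥(modularFunctionFieldFullC ↥L M))
    (hgL : fd27_iota (algebraMap ↥L Q̄) M gL = g) (hrat : fd77_RatOn M L g)
    (P : Place ↥L ↥(modularFunctionFieldFullC ↥L M)) :
    (gL ∈ P.toValuationSubring ∧ gL⁻¹ ∈ P.toValuationSubring) ∨
      s34i47_IsRat ↥L P.toValuationSubring := by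
  have hιcoe : ∀ x : ↥(modularFunctionFieldFullC ↥L M),
      ((fd27_iota (algebraMap ↥L Q̄) M x : ↥(modularFunctionFieldBar M)) : LaurentSeries Q̄) =
        coeffMap (algebraMap ↥L Q̄) (x : LaurentSeries ↥L) := fun x => fd27_iota_coe _ _ x
  obtain ⟨P', hP'⟩ := cx_modular_place_exists (K0 := ↥L) (fd27_iota (algebraMap ↥L Q̄) M)
    hιcoe P
  by_cases h0 : P'.ord g = 0
  · left
    have h1 : P.ord gL = 0 := by rw [← hP' gL, hgL, h0]
    refine ⟨(wp1_mem_iff_ord_nonneg P gL).mpr h1.ge,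
      (wp1_mem_iff_ord_nonneg P gL⁻¹).mpr ?_⟩
    rw [Place.ord_inv, h1, neg_zero]
  · right
    intro x hx
    have hx' : fd27_iota (algebraMap ↥L Q̄) M x ∈ P'.toValuationSubring :=
      (wp1_mem_iff_ord_nonneg P' _).mpr
        (by rw [hP' x]; exact (wp1_mem_iff_ord_nonneg P x).mp hx)
    have hx1 : fd27_iota (algebraMap ↥L Q̄) M x ∈
        (arithmeticGalois (modularFunctionFieldFull M) (1 : Q̄ ≃ₐ[ℚ] Q̄) • P').toValuationSubring := by
      rw [map_one, one_smul]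
      exact hx'
    obtain ⟨c, hc⟩ := hrat P' h0 1 x hx1
    rw [map_one, one_smul] at hc
    refine ⟨c, ?_⟩
    have hcmap : fd27_iota (algebraMap ↥L Q̄) M
        (algebraMap ↥L ↥(modularFunctionFieldFullC ↥L M) c) =
        algebraMap Q̄ ↥(modularFunctionFieldBar M) (c : Q̄) :=
      fd27_iota_algebraMap (algebraMap ↥L Q̄) M c
    rcases hc with hc | hc
    · left
      apply fd27_iota_injective (algebraMap ↥L Q̄) M
      rw [hcmap]
      exact hc
    · right
      intro hinv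
      rw [← hcmap, ← map_sub, hP'] at hc
      have h2 := (wp1_mem_iff_ord_nonneg P _).mp hinv
      rw [Place.ord_inv] at h2
      omega

/-- **The field of definition.**  One finite Galois extension `L / ℚ` inside `ℚ̄`, containing a
prescribed finite set, over which `f`, `a`, `b` are defined and all zeros and poles of `f`,
`α a`, `β a`, `α b`, `β b` (and their Galois conjugates) are rational points. -/
theorem fd77_field (M' q : ℕ) [NeZero M'] [NeZero q] (T : Finset Q̄)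
    (f : ↥(modularFunctionFieldBar (M' * q))) (hf : f ≠ 0)
    (a b : ↥(modularFunctionFieldBar M')) (ha : a ≠ 0) (hb : b ≠ 0) :
    ∃ L : IntermediateField ℚ Q̄, FiniteDimensional ℚ L ∧ IsGalois ℚ L ∧ (∀ t ∈ T, t ∈ L) ∧
      (∃ fL : ↥(modularFunctionFieldFullC L (M' * q)),
        fd27_iota (algebraMap L Q̄) (M' * q) fL = f) ∧
      (∃ aL : ↥(modularFunctionFieldFullC L M'), fd27_iota (algebraMap L Q̄) M' aL = a) ∧
      (∃ bL : ↥(modularFunctionFieldFullC L M'), fd27_iota (algebraMap L Q̄) M' bL = b) ∧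
      fd77_RatOn (M' * q) L f ∧
      fd77_RatOn (M' * q) L (heckeAlphaBar Q̄ M' q a) ∧
      fd77_RatOn (M' * q) L (heckeBetaBar Q̄ M' q a) ∧
      fd77_RatOn (M' * q) L (heckeAlphaBar Q̄ M' q b) ∧
      fd77_RatOn (M' * q) L (heckeBetaBar Q̄ M' q b) := by
  have hαa : heckeAlphaBar Q̄ M' q a ≠ 0 := (map_ne_zero _).mpr ha
  have hβa : heckeBetaBar Q̄ M' q a ≠ 0 := (map_ne_zero _).mpr ha
  have hαb : heckeAlphaBar Q̄ M' q b ≠ 0 := (map_ne_zero _).mpr hb
  have hβb : heckeBetaBar Q̄ M' q b ≠ 0 := (map_ne_zero _).mpr hb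
  obtain ⟨L1, hfd1, hT1, h1⟩ := fd77_ev (M' * q) f hf T
  obtain ⟨L2, hfd2, -, h2⟩ := fd77_ev (M' * q) _ hαa ∅
  obtain ⟨L3, hfd3, -, h3⟩ := fd77_ev (M' * q) _ hβa ∅
  obtain ⟨L4, hfd4, -, h4⟩ := fd77_ev (M' * q) _ hαb ∅
  obtain ⟨L5, hfd5, -, h5⟩ := fd77_ev (M' * q) _ hβb ∅
  obtain ⟨L6, hfd6, -, h6⟩ := fd77_ev M' a ha ∅
  obtain ⟨L7, hfd7, -, h7⟩ := fd77_ev M' b hb ∅
  haveI := hfd1
  haveI := hfd2
  haveI := hfd3
  haveI := hfd4
  haveI := hfd5
  haveI := hfd6
  haveI := hfd7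
  set L₀ : IntermediateField ℚ Q̄ := L1 ⊔ L2 ⊔ L3 ⊔ L4 ⊔ L5 ⊔ L6 ⊔ L7 with hL₀
  haveI hfd0 : FiniteDimensional ℚ ↥L₀ := by
    rw [hL₀]
    infer_instance
  have halg : Algebra.IsAlgebraic ℚ Q̄ := AlgebraicClosure.isAlgebraic ℚ
  haveI : IsAlgClosure ℚ Q̄ := ⟨inferInstance, halg⟩
  haveI : Normal ℚ Q̄ := IsAlgClosure.normal ℚ Q̄
  have hfdL : FiniteDimensional ℚ ↥(IntermediateField.normalClosure ℚ L₀ Q̄) :=
    normalClosure.is_finiteDimensional ℚ L₀ Q̄
  have hnorm : Normal ℚ ↥(IntermediateField.normalClosure ℚ L₀ Q̄) :=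
    normalClosure.normal ℚ L₀ Q̄
  have hsep : Algebra.IsSeparable ℚ ↥(IntermediateField.normalClosure ℚ L₀ Q̄) :=
    ⟨fun x => (minpoly.irreducible (hnorm.isIntegral x)).separable⟩
  have hle0 : L₀ ≤ IntermediateField.normalClosure ℚ L₀ Q̄ := L₀.le_normalClosure
  have hl1 : L1 ≤ L₀ := by
    rw [hL₀]
    exact le_sup_of_le_left (le_sup_of_le_left (le_sup_of_le_left (le_sup_of_le_left
      (le_sup_of_le_left le_sup_left))))
  have hl2 : L2 ≤ L₀ := by
    rw [hL₀]
    exact le_sup_of_le_left (le_sup_of_le_left (le_sup_of_le_left (le_sup_of_le_left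
      (le_sup_of_le_left le_sup_right))))
  have hl3 : L3 ≤ L₀ := by
    rw [hL₀]
    exact le_sup_of_le_left (le_sup_of_le_left (le_sup_of_le_left (le_sup_of_le_left
      le_sup_right)))
  have hl4 : L4 ≤ L₀ := by
    rw [hL₀]
    exact le_sup_of_le_left (le_sup_of_le_left (le_sup_of_le_left le_sup_right))
  have hl5 : L5 ≤ L₀ := by
    rw [hL₀]
    exact le_sup_of_le_left (le_sup_of_le_left le_sup_right)
  have hl6 : L6 ≤ L₀ := by
    rw [hL₀]
    exact le_sup_of_le_left le_sup_right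
  have hl7 : L7 ≤ L₀ := by
    rw [hL₀]
    exact le_sup_right
  refine ⟨IntermediateField.normalClosure ℚ L₀ Q̄, hfdL, ⟨⟩,
    fun t ht => hle0 (hl1 (hT1 t ht)), (h1 _ (hl1.trans hle0)).1, (h6 _ (hl6.trans hle0)).1,
    (h7 _ (hl7.trans hle0)).1, (h1 _ (hl1.trans hle0)).2 hnorm, (h2 _ (hl2.trans hle0)).2 hnorm,
    (h3 _ (hl3.trans hle0)).2 hnorm, (h4 _ (hl4.trans hle0)).2 hnorm,
    (h5 _ (hl5.trans hle0)).2 hnorm⟩

end Field

section Main

set_option synthInstance.maxHeartbeats 200000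

set_option maxHeartbeats 4000000 in
/-- **P-FD**: `CORE35 M' q m ⟹ FFA M' q m` (`s35i62_Pkg_FieldDef` of `Iface62`). -/
theorem fd77_pkg_fieldDef : s35i62_Pkg_FieldDef := by
  intro M' q m _ _ hq hqM' hm hcop hcore A hA t ht f hf hdiv hNa hNb
  obtain ⟨a, ha⟩ := hNa
  obtain ⟨b, hb⟩ := hNb
  have hm0 : m ≠ 0 := hm.ne'
  have hNA0 : s35i62_normABar M' q f ≠ 0 :=
    (IsUnit.map (s35i62_normABar M' q) (isUnit_iff_ne_zero.mpr hf)).ne_zero
  have hNB0 : s35i62_normBBar M' q f ≠ 0 :=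
    (IsUnit.map (s35i62_normBBar M' q) (isUnit_iff_ne_zero.mpr hf)).ne_zero
  have ha0 : a ≠ 0 := by
    rintro rfl
    rw [zero_pow hm0] at ha
    exact hNA0 ha
  have hb0 : b ≠ 0 := by
    rintro rfl
    rw [zero_pow hm0] at hb
    exact hNB0 hb
  obtain ⟨ζ, hζ⟩ : ∃ ζ : Q̄, IsPrimitiveRoot ζ q :=
    HasEnoughRootsOfUnity.exists_primitiveRoot Q̄ q
  obtain ⟨L, hfd, hgal, hT, ⟨fL, hfL⟩, ⟨aL, haL⟩, ⟨bL, hbL⟩, hrf, hraa, hrba, hrab, hrbb⟩ :=
    fd77_field M' q {ζ} f hf a b ha0 hb0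
  haveI := hfd
  haveI := hgal
  haveI hnorm : Normal ℚ ↥L := inferInstance
  haveI hNF : NumberField ↥L := fd27_numberField L hfd
  have hιcoe : ∀ x : ↥(modularFunctionFieldFullC ↥L (M' * q)),
      ((fd27_iota (algebraMap ↥L Q̄) (M' * q) x : ↥(modularFunctionFieldBar (M' * q))) :
        LaurentSeries Q̄) = coeffMap (algebraMap ↥L Q̄) (x : LaurentSeries ↥L) :=
    fun x => fd27_iota_coe _ _ x
  have hfL0 : fL ≠ 0 := by
    rintro rfl
    exact hf (by rw [← hfL, map_zero])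
  have haL0 : aL ≠ 0 := by
    rintro rfl
    exact ha0 (by rw [← haL, map_zero])
  have hbL0 : bL ≠ 0 := by
    rintro rfl
    exact hb0 (by rw [← hbL, map_zero])
  -- the discrete valuation ring `A ∩ L`
  haveI hdvr : IsDiscreteValuationRing ↥(A.comap (algebraMap ↥L Q̄)) :=
    nf23_comap_isDVR_of_liesOverPrime (algebraMap ↥L Q̄) A hq.ne_zero hA
  obtain ⟨π, hπ⟩ := IsDiscreteValuationRing.exists_irreducible ↥(A.comap (algebraMap ↥L Q̄))
  letI alg : Algebra ↥(A.comap (algebraMap ↥L Q̄)) ↥(modularFunctionFieldFullC ↥L (M' * q)) :=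
    ((algebraMap ↥L ↥(modularFunctionFieldFullC ↥L (M' * q))).comp
      (algebraMap ↥(A.comap (algebraMap ↥L Q̄)) ↥L)).toAlgebra
  haveI htower : IsScalarTower ↥(A.comap (algebraMap ↥L Q̄)) ↥L
      ↥(modularFunctionFieldFullC ↥L (M' * q)) := IsScalarTower.of_algebraMap_eq (fun _ => rfl)
  have hunit : ∀ n : ℕ, Nat.Coprime n q →
      IsUnit ((n : ℕ) : ↥(A.comap (algebraMap ↥L Q̄))) := by
    intro n hn
    obtain ⟨μ, hμ⟩ := nf23_exists_natCast_mul_eq_one (algebraMap ↥L Q̄) A hA hn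
    exact IsUnit.of_mul_eq_one _ hμ
  have hqnu : ¬ IsUnit ((q : ℕ) : ↥(A.comap (algebraMap ↥L Q̄))) := by
    intro hu
    have h1 : ((q : ↥L)) ∈ (A.comap (algebraMap ↥L Q̄)).nonunits := by
      rw [nf23_mem_nonunits_comap, map_natCast]
      exact hA
    have h2 : ((q : ℕ) : ↥(A.comap (algebraMap ↥L Q̄))) ∈
        IsLocalRing.maximalIdeal ↥(A.comap (algebraMap ↥L Q̄)) := by
      rw [← ValuationSubring.coe_mem_nonunits_iff]
      exact h1
    exact h2 hu
  have hσ := fd77_frobenial L A ht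
  have hζL : ζ ∈ L := hT ζ (Finset.mem_singleton_self ζ)
  have hζp : IsPrimitiveRoot (⟨ζ, hζL⟩ : ↥L) q :=
    IsPrimitiveRoot.of_map_of_injective (f := algebraMap ↥L Q̄) hζ (algebraMap ↥L Q̄).injective
  -- the hypotheses of CORE35
  have hP1 : ∀ P : Place ↥L ↥(modularFunctionFieldFullC ↥L (M' * q)), (m : ℤ) ∣ P.ord fL := by
    intro P
    refine cx_modular_place_dvd (K0 := ↥L) (fd27_iota (algebraMap ↥L Q̄) (M' * q)) hιcoe
      (m : ℤ) fL ?_ P
    intro P'
    rw [hfL]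
    exact hdiv P'
  have hNA : s35i62_normA ↥L M' q fL =
      algebraMap ↥L ↥(modularFunctionFieldFullC ↥L M') 1 * aL ^ m := by
    rw [map_one, one_mul]
    apply fd27_iota_injective (algebraMap ↥L Q̄) M'
    rw [fd77_normA_iota _ M' q hq hqM', hfL, ha, map_pow, haL]
  have hNB : s35i62_normB ↥L M' q fL =
      algebraMap ↥L ↥(modularFunctionFieldFullC ↥L M') 1 * bL ^ m := by
    rw [map_one, one_mul]
    apply fd27_iota_injective (algebraMap ↥L Q̄) M'
    rw [fd77_normB_iota _ M' q hq hqM', hfL, hb, map_pow, hbL]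
  have hRat : ∀ y : ↥(modularFunctionFieldFullC ↥L (M' * q)),
      (y = fL ∨ y = al97L_alpha ↥L M' q aL ∨ y = al97L_beta ↥L M' q aL ∨
        y = al97L_alpha ↥L M' q bL ∨ y = al97L_beta ↥L M' q bL) →
      ∀ P : Place ↥L ↥(modularFunctionFieldFullC ↥L (M' * q)),
        (y ∈ P.toValuationSubring ∧ y⁻¹ ∈ P.toValuationSubring) ∨
          s34i47_IsRat ↥L P.toValuationSubring := by
    rintro y (rfl | rfl | rfl | rfl | rfl) P
    · exact fd77_rat (M' * q) L f _ hfL hrf P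
    · exact fd77_rat (M' * q) L _ _ (by rw [fd77_iota_alpha, haL]) hraa P
    · exact fd77_rat (M' * q) L _ _ (by rw [fd77_iota_beta, haL]) hrba P
    · exact fd77_rat (M' * q) L _ _ (by rw [fd77_iota_alpha, hbL]) hrab P
    · exact fd77_rat (M' * q) L _ _ (by rw [fd77_iota_beta, hbL]) hrbb P
  obtain ⟨f₀, c, hf₀, -, hmain⟩ := hcore ↥(A.comap (algebraMap ↥L Q̄)) ↥L π hπ hunit hqnu
    ⟨⟨ζ, hζL⟩, hζp⟩ ((t.restrictNormal L).toRingEquiv) hσ fL aL bL 1 1 hfL0 haL0 hbL0
    one_ne_zero one_ne_zero hP1 hNA hNB hRat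
  -- transport to `ℚ̄`
  have hι := congrArg (fd27_iota (algebraMap ↥L Q̄) (M' * q)) hmain
  have hop : fd27_iota (algebraMap ↥L Q̄) (M' * q)
      (s35i62_op q (s34i47_coeffEquiv ((t.restrictNormal L).toRingEquiv) (M' * q)) fL) =
      s35i62_op q (arithmeticRingAut (modularFunctionFieldFull (M' * q)) t) f := by
    unfold s35i62_op
    simp only [map_div₀, map_mul, map_pow, fd92_iota_coeffEquiv, hfL]
  rw [map_mul, map_pow, hop, fd27_iota_algebraMap] at hι
  obtain ⟨γ, hγ⟩ := IsAlgClosed.exists_pow_nat_eq (algebraMap ↥L Q̄ c) hm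
  have hf0' : fd27_iota (algebraMap ↥L Q̄) (M' * q) f₀ ≠ 0 :=
    (map_ne_zero_iff _ (fd27_iota_injective (algebraMap ↥L Q̄) (M' * q))).mpr hf₀
  refine ⟨algebraMap Q̄ ↥(modularFunctionFieldBar (M' * q)) γ *
    (fd27_iota (algebraMap ↥L Q̄) (M' * q) f₀)⁻¹, ?_⟩
  rw [mul_pow, ← map_pow, hγ, ← hι, inv_pow, mul_right_comm,
    mul_inv_cancel₀ (pow_ne_zero m hf0'), one_mul]

end Main

end Fermat.Agent.S35
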