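import Mathlib

/-!
# S35 lab (helper70): kernels of base-changed maps over a flat coefficient ring

Abstract bridge between (2b) `cores(x0) = 0` (an identity in `O ⊗[ℤ] L'`) and the hypothesis
"`x0` lies in the `O`-span of the pure tensors `1 ⊗ c`, `c` in the NEW sublattice" used by the
marked-vector step (row A of the S35 registry).  Mathlib only.

* `fk70_mem_span_ker` : `O` flat over `ℤ`, `c : L →ₗ[ℤ] L'`, `x : O ⊗[ℤ] L` with
  `c.baseChange O x = 0` ⟹ `x ∈ span_O {1 ⊗ l | c l = 0}`.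
* `fk70_mem_span_ker_lTensor` : the same with `LinearMap.lTensor O c`.
* `fk70_mem_span_ker₂` : two maps `c₁ : L →ₗ[ℤ] L₁`, `c₂ : L →ₗ[ℤ] L₂`:
  `x ∈ span_O {1 ⊗ l | c₁ l = 0 ∧ c₂ l = 0}`.
* `fk70_mem_span_ker₂_image` : the same, the spanning set written as an image
  `(fun l => 1 ⊗ₜ l) '' {l | c₁ l = 0 ∧ c₂ l = 0}`.
* `fk70_mem_span_ker₂_addHom` : the same for additive maps `c₁ : L →+ L₁`, `c₂ : L →+ L₂`.
* `fk70_baseChange_eq_zero_of_span` : an `O`-linear map which kills the pure tensors `1 ⊗ l`,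
  `l ∈ S`, kills their `O`-span.
* `fk70_flat_of_charZero` : a domain of characteristic zero is flat over `ℤ`.

All names are prefixed `fk70_`.
-/

set_option autoImplicit false

open scoped TensorProduct

namespace Fermat.Agent.S35

section fk70

variable {O : Type*} [CommRing O] {L L' L₁ L₂ : Type*} [AddCommGroup L] [AddCommGroup L']
  [AddCommGroup L₁] [AddCommGroup L₂]

/-- A domain of characteristic zero is flat over `ℤ`. -/
theorem fk70_flat_of_charZero (O : Type*) [CommRing O] [IsDomain O] [CharZero O] :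
    Module.Flat ℤ O := inferInstance

/-- **Flat kernel, `lTensor` form.** -/
theorem fk70_mem_span_ker_lTensor [Module.Flat ℤ O] (c : L →ₗ[ℤ] L') (x : O ⊗[ℤ] L)
    (hx : LinearMap.lTensor O c x = 0) :
    x ∈ Submodule.span O {y : O ⊗[ℤ] L | ∃ l : L, c l = 0 ∧ y = (1 : O) ⊗ₜ[ℤ] l} := by
  have hex : Function.Exact (LinearMap.lTensor O (LinearMap.ker c).subtype)
      (LinearMap.lTensor O c) :=
    Module.Flat.lTensor_exact O (LinearMap.exact_subtype_ker_map c)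
  obtain ⟨k, rfl⟩ := (hex x).mp hx
  clear hx
  induction k using TensorProduct.induction_on with
  | zero => rw [map_zero]; exact Submodule.zero_mem _
  | tmul a k =>
    rw [LinearMap.lTensor_tmul]
    have h4 : a ⊗ₜ[ℤ] ((LinearMap.ker c).subtype k) = a • ((1 : O) ⊗ₜ[ℤ] (k : L)) := by
      rw [TensorProduct.smul_tmul', smul_eq_mul, mul_one]
      rfl
    rw [h4]
    exact Submodule.smul_mem _ a (Submodule.subset_span ⟨(k : L), k.2, rfl⟩)
  | add c₁ c₂ h₁ h₂ =>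
    rw [map_add]
    exact Submodule.add_mem _ h₁ h₂

/-- **Flat kernel, `baseChange` form**: if `O` is flat over `ℤ` and `c.baseChange O x = 0`, then
`x` is an `O`-linear combination of pure tensors `1 ⊗ l` with `c l = 0`. -/
theorem fk70_mem_span_ker [Module.Flat ℤ O] (c : L →ₗ[ℤ] L') (x : O ⊗[ℤ] L)
    (hx : c.baseChange O x = 0) :
    x ∈ Submodule.span O {y : O ⊗[ℤ] L | ∃ l : L, c l = 0 ∧ y = (1 : O) ⊗ₜ[ℤ] l} :=
  fk70_mem_span_ker_lTensor c x hx

/-- **Flat kernel for two maps.** -/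
theorem fk70_mem_span_ker₂ [Module.Flat ℤ O] (c₁ : L →ₗ[ℤ] L₁) (c₂ : L →ₗ[ℤ] L₂)
    (x : O ⊗[ℤ] L) (hx₁ : c₁.baseChange O x = 0) (hx₂ : c₂.baseChange O x = 0) :
    x ∈ Submodule.span O
      {y : O ⊗[ℤ] L | ∃ l : L, (c₁ l = 0 ∧ c₂ l = 0) ∧ y = (1 : O) ⊗ₜ[ℤ] l} := by
  -- first the kernel of `c₁`
  have hex : Function.Exact (LinearMap.lTensor O (LinearMap.ker c₁).subtype)
      (LinearMap.lTensor O c₁) :=
    Module.Flat.lTensor_exact O (LinearMap.exact_subtype_ker_map c₁)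
  obtain ⟨k, rfl⟩ := (hex x).mp hx₁
  -- then the kernel of `c₂` restricted to `ker c₁`
  have h2 : LinearMap.lTensor O (c₂.comp (LinearMap.ker c₁).subtype) k = 0 := by
    rw [LinearMap.lTensor_comp]
    exact hx₂
  have h3 := fk70_mem_span_ker_lTensor (c₂.comp (LinearMap.ker c₁).subtype) k h2
  have hle : Submodule.span O {y : O ⊗[ℤ] ↥(LinearMap.ker c₁) | ∃ l : ↥(LinearMap.ker c₁),
        (c₂.comp (LinearMap.ker c₁).subtype) l = 0 ∧ y = (1 : O) ⊗ₜ[ℤ] l} ≤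
      (Submodule.span O {y : O ⊗[ℤ] L | ∃ l : L, (c₁ l = 0 ∧ c₂ l = 0) ∧
        y = (1 : O) ⊗ₜ[ℤ] l}).comap
        ((LinearMap.ker c₁).subtype.baseChange O) := by
    rw [Submodule.span_le]
    rintro y ⟨l, hl, rfl⟩
    refine Submodule.subset_span ⟨(l : L), ⟨l.2, hl⟩, ?_⟩
    rfl
  exact hle h3

/-- **Flat kernel for two maps**, the spanning set written as an image. -/
theorem fk70_mem_span_ker₂_image [Module.Flat ℤ O] (c₁ : L →ₗ[ℤ] L₁) (c₂ : L →ₗ[ℤ] L₂)
    (x : O ⊗[ℤ] L) (hx₁ : c₁.baseChange O x = 0) (hx₂ : c₂.baseChange O x = 0) :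
    x ∈ Submodule.span O
      ((fun l : L => (1 : O) ⊗ₜ[ℤ] l) '' {l : L | c₁ l = 0 ∧ c₂ l = 0}) := by
  have h := fk70_mem_span_ker₂ c₁ c₂ x hx₁ hx₂
  refine Submodule.span_mono ?_ h
  rintro y ⟨l, hl, rfl⟩
  exact ⟨l, hl, rfl⟩

/-- **Flat kernel for two additive maps** (`AddMonoidHom` form, as for the corestrictions on the
lattice of parabolic homomorphisms). -/
theorem fk70_mem_span_ker₂_addHom [Module.Flat ℤ O] (c₁ : L →+ L₁) (c₂ : L →+ L₂)
    (x : O ⊗[ℤ] L) (hx₁ : c₁.toIntLinearMap.baseChange O x = 0)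
    (hx₂ : c₂.toIntLinearMap.baseChange O x = 0) :
    x ∈ Submodule.span O
      ((fun l : L => (1 : O) ⊗ₜ[ℤ] l) '' {l : L | c₁ l = 0 ∧ c₂ l = 0}) :=
  fk70_mem_span_ker₂_image c₁.toIntLinearMap c₂.toIntLinearMap x hx₁ hx₂

/-- An `O`-linear map which kills the pure tensors `1 ⊗ l`, `l ∈ S`, kills their `O`-span. -/
theorem fk70_eq_zero_of_mem_span {M : Type*} [AddCommGroup M] [Module O M]
    (S : Set L) (T : O ⊗[ℤ] L →ₗ[O] M) (hT : ∀ l ∈ S, T ((1 : O) ⊗ₜ[ℤ] l) = 0)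
    (x : O ⊗[ℤ] L) (hx : x ∈ Submodule.span O ((fun l : L => (1 : O) ⊗ₜ[ℤ] l) '' S)) :
    T x = 0 := by
  have hle : Submodule.span O ((fun l : L => (1 : O) ⊗ₜ[ℤ] l) '' S) ≤ LinearMap.ker T := by
    rw [Submodule.span_le]
    rintro y ⟨l, hl, rfl⟩
    exact hT l hl
  exact hle hx

/-- **The marked-vector bridge.**  `Φ : L →+ J` (a Kummer map `Θ n`), `P : J →+ J` (a polynomial
in a Galois element) with `P (Φ l) = 0` for every `l` in the common kernel of `c₁`, `c₂` (the new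
sublattice).  If `x0 : O ⊗ L` is killed by the base changes of `c₁` and `c₂`, then the base change
of `P ∘ Φ` kills `x0`. -/
theorem fk70_bridge [Module.Flat ℤ O] {J : Type*} [AddCommGroup J] (c₁ : L →+ L₁) (c₂ : L →+ L₂)
    (Φ : L →+ J) (P : J →+ J) (hP : ∀ l : L, c₁ l = 0 → c₂ l = 0 → P (Φ l) = 0)
    (x0 : O ⊗[ℤ] L) (hx₁ : c₁.toIntLinearMap.baseChange O x0 = 0)
    (hx₂ : c₂.toIntLinearMap.baseChange O x0 = 0) :
    P.toIntLinearMap.baseChange O (Φ.toIntLinearMap.baseChange O x0) = 0 := by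
  have h := fk70_mem_span_ker₂_addHom c₁ c₂ x0 hx₁ hx₂
  have key := fk70_eq_zero_of_mem_span {l : L | c₁ l = 0 ∧ c₂ l = 0}
    ((P.toIntLinearMap.baseChange O).comp (Φ.toIntLinearMap.baseChange O)) (fun l hl => by
      show P.toIntLinearMap.baseChange O (Φ.toIntLinearMap.baseChange O ((1 : O) ⊗ₜ[ℤ] l)) = 0
      rw [LinearMap.baseChange_tmul, LinearMap.baseChange_tmul]
      show (1 : O) ⊗ₜ[ℤ] (P (Φ l)) = 0
      rw [hP l hl.1 hl.2, TensorProduct.tmul_zero]) x0 h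
  exact key

end fk70

end Fermat.Agent.S35
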