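import Mathlib
import Fermat.Agent.S35.FlatKer56

/-!
# S35 lab, flatness glue for a FINITE FAMILY of maps (helper56) — Mathlib only

`Iface62` (`s35i62_NewClaim`) wants ONE subgroup `K` of the lattice with `x0 ∈ O' ⊗ K` such that
every `Θ n k`, `k ∈ K`, is `q`-new for ALL `q ∥ M`, `q ≠ lam` simultaneously, i.e.
`K = ⋂_q (ker cores_{α,q} ∩ ker cores_{β,q})`.  The flatness step for a finite family
`f i : L →ₗ[ℤ] L' i` (the targets may depend on `i`):

  `(∀ i, (f i).baseChange O x = 0) → x ∈ Submodule.span O ((fun c => 1 ⊗ₜ c) '' {c | ∀ i, f i c = 0})`.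

* `fkf56_mem_span_ker_family` : the statement above (`ι` finite, `O` flat over `ℤ`);
* `fkf56_K` : the subgroup `K = {c | ∀ i, f i c = 0}` as an `AddSubgroup`, `fkf56_mem_K`;
* `fkf56_mem_span_K` : the same with the spanning set written `(K : Set L)` — literally the
  clause `x0 ∈ Submodule.span O' ((fun k => 1 ⊗ₜ k) '' (K : Set _))` of `s35i62_NewClaim` /
  `s35i62_ET` (M8).
-/

set_option autoImplicit false
set_option linter.unusedSectionVars false
set_option linter.unusedVariables false
set_option linter.style.longLine false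

open TensorProduct

namespace Fermat.Agent.S35

section fkf56

variable {O L : Type*} {ι : Type*} {L' : ι → Type*} [CommRing O] [Module.Flat ℤ O]
  [AddCommGroup L] [∀ i, AddCommGroup (L' i)]

/-- The components of `(LinearMap.pi f).lTensor O x` are the `(f i).lTensor O x`. -/
theorem fkf56_piRight_lTensor [Fintype ι] [DecidableEq ι] (f : ∀ i, L →ₗ[ℤ] L' i)
    (x : O ⊗[ℤ] L) (i : ι) :
    TensorProduct.piRight ℤ ℤ O L' ((LinearMap.pi f).lTensor O x) i = (f i).lTensor O x := by
  induction x using TensorProduct.induction_on with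
  | zero => simp
  | tmul o c =>
    rw [LinearMap.lTensor_tmul, LinearMap.lTensor_tmul, TensorProduct.piRight_apply,
      TensorProduct.piRightHom_tmul]
    rfl
  | add y y' hy hy' => simp only [map_add, Pi.add_apply, hy, hy']

/-- **Finite family**: the common kernel of the `(f i).baseChange O` is spanned by the pure
tensors `1 ⊗ c`, `c` in the common kernel of the `f i`. -/
theorem fkf56_mem_span_ker_family [Finite ι] (f : ∀ i, L →ₗ[ℤ] L' i) (x : O ⊗[ℤ] L)
    (hx : ∀ i, (f i).baseChange O x = 0) :
    x ∈ Submodule.span O ((fun c : L => (1 : O) ⊗ₜ[ℤ] c) '' {c | ∀ i, f i c = 0}) := by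
  classical
  have := Fintype.ofFinite ι
  have h0 : (LinearMap.pi f).baseChange O x = 0 := by
    rw [fk56_baseChange_apply]
    apply (TensorProduct.piRight ℤ ℤ O L').injective
    funext i
    rw [fkf56_piRight_lTensor, map_zero, Pi.zero_apply, ← fk56_baseChange_apply]
    exact hx i
  have h1 := fk56_mem_span_ker (LinearMap.pi f) x h0
  have hset : {c : L | (LinearMap.pi f) c = 0} = {c : L | ∀ i, f i c = 0} := by
    ext c
    constructor
    · intro hc i
      have := congrFun (show (LinearMap.pi f) c = 0 from hc) i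
      simpa using this
    · intro hc
      show (LinearMap.pi f) c = 0
      funext i
      simpa using hc i
  rw [hset] at h1
  exact h1

/-- The common kernel of a family of `ℤ`-linear maps, as an additive subgroup. -/
def fkf56_K (f : ∀ i, L →ₗ[ℤ] L' i) : AddSubgroup L where
  carrier := {c | ∀ i, f i c = 0}
  add_mem' := by
    intro a b ha hb i
    rw [map_add, ha i, hb i, add_zero]
  zero_mem' := fun i => map_zero _
  neg_mem' := by
    intro a ha i
    rw [map_neg, ha i, neg_zero]

theorem fkf56_mem_K (f : ∀ i, L →ₗ[ℤ] L' i) (c : L) : c ∈ fkf56_K f ↔ ∀ i, f i c = 0 :=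
  Iff.rfl

/-- **Finite family, subgroup form** (the literal span clause of `s35i62_NewClaim` and of (M8) in
`s35i62_ET`). -/
theorem fkf56_mem_span_K [Finite ι] (f : ∀ i, L →ₗ[ℤ] L' i) (x : O ⊗[ℤ] L)
    (hx : ∀ i, (f i).baseChange O x = 0) :
    x ∈ Submodule.span O ((fun c : L => (1 : O) ⊗ₜ[ℤ] c) '' (fkf56_K f : Set L)) :=
  fkf56_mem_span_ker_family f x hx

end fkf56

end Fermat.Agent.S35
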