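import Mathlib
import Fermat.Agent.S34.SpecFibre79

/-!
# S35 lab, row L1d-LocStrLab: labelled local structure of a chart at the closed points of its
special fibre (helper79)

`sf79_locStr` (S34 lab) forgets which coordinate belongs to which branch.  Here the same proof is
run once more and the labels are kept:

* `nl79_node` : at a point of both branches there are `z, z' ∈ n` with `n B_n = (z, z', π)`,
  `s z z' = π ^ κ s'` (`s, s' ∉ n`, `1 ≤ κ ≤ e`), `z` a unit along `V₁` and `z'` a unit along `V₂`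
  (so `z` vanishes to order `κ` along `V₂` and `z'` to order `κ` along `V₁`).
* `nl79_LocStr π B V₁ V₂` : the labelled local structure: every closed point of the special fibre
  is a smooth point of exactly one branch (with a local coordinate of that branch) or a node with
  labelled coordinates.
* `nl79_locStr` : smoothness of the two branches, transversality and `sf79_UVAt` give it.
* `nl79_locStr_weak` : it implies the interface statement `s34i47_LocStr π B`.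
-/

set_option autoImplicit false

namespace Fermat.Agent.S35

open Fermat.Agent.S34

section NL79

variable {R F : Type*} [CommRing R] [Field F] [Algebra R F]

set_option maxHeartbeats 1600000 in
/-- **A node of the special fibre, with labels**: good coordinates `z z' = π ^ κ · unit`, `z` a
unit along `V₁`, `z'` a unit along `V₂`. -/
theorem nl79_node (π : R) (B : Subalgebra R F) [IsNoetherianRing B] (V₁ V₂ : Subring F)
    (hB₁ : ∀ x ∈ B, x ∈ V₁) (hB₂ : ∀ x ∈ B, x ∈ V₂)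
    (hπ₁ : (algebraMap R F π)⁻¹ ∉ V₁) (hπ₂ : (algebraMap R F π)⁻¹ ∉ V₂)
    (hV₁ : ∀ x ∈ V₁, (algebraMap R F π)⁻¹ * x ∉ V₁ → x⁻¹ ∈ V₁)
    (hV₂ : ∀ x ∈ V₂, (algebraMap R F π)⁻¹ * x ∉ V₂ → x⁻¹ ∈ V₂)
    (hsat : ∀ x ∈ B, (algebraMap R F π)⁻¹ * x ∈ V₁ → (algebraMap R F π)⁻¹ * x ∈ V₂ →
      (algebraMap R F π)⁻¹ * x ∈ B)
    (n : Ideal B) [hn : n.IsMaximal] (hπn : algebraMap R B π ∈ n)
    (h1 : sf79_OnBr π B V₁ n) (h2 : sf79_OnBr π B V₂ n)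
    (z₁ : B) (hz₁ : sf79_Unif π B V₁ n z₁) (z₂ : B) (hz₂ : sf79_Unif π B V₂ n z₂)
    (hT : ∀ x ∈ n, ∃ s : B, s ∉ n ∧ ∃ y y' : B, s * x = y + y' ∧
      (algebraMap R F π)⁻¹ * (y : F) ∈ V₁ ∧ (algebraMap R F π)⁻¹ * (y' : F) ∈ V₂)
    (u v s₀ : B) (e : ℕ) (hs₀ : s₀ ∉ n) (he : 1 ≤ e)
    (huv : u * v = algebraMap R B π ^ e * s₀)
    (hu : (algebraMap R F π)⁻¹ * (u : F) ∉ V₁) (hv : (algebraMap R F π)⁻¹ * (v : F) ∉ V₂) :
    ∃ z z' : B, z ∈ n ∧ z' ∈ n ∧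
      (∀ x ∈ n, ∃ s : B, s ∉ n ∧ ∃ a b c : B, s * x = a * z + b * z' + c * algebraMap R B π) ∧
      (algebraMap R F π)⁻¹ * (z : F) ∉ V₁ ∧ (algebraMap R F π)⁻¹ * (z' : F) ∉ V₂ ∧
      ∃ (κ : ℕ) (s s' : B), 1 ≤ κ ∧ κ ≤ e ∧ s ∉ n ∧ s' ∉ n ∧
        s * z * z' = algebraMap R B π ^ κ * s' := by
  classical
  have hnp : n.IsPrime := hn.isPrime
  have hpB : ((algebraMap R B π : B) : F) = algebraMap R F π := rfl
  set p : F := algebraMap R F π with hp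
  have hp0 : p ≠ 0 := fun h0 => hπ₁ (by rw [h0, inv_zero]; exact V₁.zero_mem)
  set A : Subring F := sf79_loc B n with hA
  have hA₁ : A ≤ V₁ := sf79_loc_le π B V₁ hB₁ hV₁ n h1
  have hA₂ : A ≤ V₂ := sf79_loc_le π B V₂ hB₂ hV₂ n h2
  have hBA : ∀ x ∈ B, x ∈ A := fun x hx => sf79_le_loc B n x hx
  have hinvA : ∀ s : B, s ∉ n → (s : F)⁻¹ ∈ A := fun s hs => sf79_inv_mem_loc B n s hs
  have hne : ∀ s : B, s ∉ n → (s : F) ≠ 0 := fun s hs => sf79_ne_zero B n s hs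
  have hpA : p ∈ A := hBA _ (algebraMap R B π).2
  have hsatA : ∀ x ∈ A, p⁻¹ * x ∈ V₁ → p⁻¹ * x ∈ V₂ → p⁻¹ * x ∈ A :=
    fun x hx a b => sf79_loc_sat π B V₁ V₂ hB₁ hB₂ hsat n x hx a b
  -- the coordinates
  obtain ⟨sa, hsa, ya, ya', hya, hya1, hya2⟩ := hT z₁ hz₁.1
  obtain ⟨sb, hsb, yb, yb', hyb, hyb1, hyb2⟩ := hT z₂ hz₂.1
  have hyaF : (sa : F) * (z₁ : F) = (ya : F) + (ya' : F) := by
    have := congrArg (fun t : B => (t : F)) hya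
    simpa using this
  have hybF : (sb : F) * (z₂ : F) = (yb : F) + (yb' : F) := by
    have := congrArg (fun t : B => (t : F)) hyb
    simpa using this
  set z : F := (sa : F)⁻¹ * (ya' : F) with hz
  set z' : F := (sb : F)⁻¹ * (yb : F) with hz'
  have hzA : z ∈ A := A.mul_mem (hinvA sa hsa) (hBA _ ya'.2)
  have hz'A : z' ∈ A := A.mul_mem (hinvA sb hsb) (hBA _ yb.2)
  have hz2 : p⁻¹ * z ∈ V₂ := by
    have e1 : p⁻¹ * z = (sa : F)⁻¹ * (p⁻¹ * (ya' : F)) := by rw [hz]; ring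
    rw [e1]; exact V₂.mul_mem (hA₂ (hinvA sa hsa)) hya2
  have hz'1 : p⁻¹ * z' ∈ V₁ := by
    have e1 : p⁻¹ * z' = (sb : F)⁻¹ * (p⁻¹ * (yb : F)) := by rw [hz']; ring
    rw [e1]; exact V₁.mul_mem (hA₁ (hinvA sb hsb)) hyb1
  have hzz1 : p⁻¹ * ((z₁ : F) - z) ∈ V₁ := by
    have e1 : p⁻¹ * ((z₁ : F) - z) = (sa : F)⁻¹ * (p⁻¹ * (ya : F)) := by
      have : (z₁ : F) = (sa : F)⁻¹ * ((ya : F) + (ya' : F)) := by
        rw [← hyaF, ← mul_assoc, inv_mul_cancel₀ (hne sa hsa), one_mul]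
      rw [hz, this]; ring
    rw [e1]; exact V₁.mul_mem (hA₁ (hinvA sa hsa)) hya1
  have hzz2 : p⁻¹ * ((z₂ : F) - z') ∈ V₂ := by
    have e1 : p⁻¹ * ((z₂ : F) - z') = (sb : F)⁻¹ * (p⁻¹ * (yb' : F)) := by
      have : (z₂ : F) = (sb : F)⁻¹ * ((yb : F) + (yb' : F)) := by
        rw [← hybF, ← mul_assoc, inv_mul_cancel₀ (hne sb hsb), one_mul]
      rw [hz', this]; ring
    rw [e1]; exact V₂.mul_mem (hA₂ (hinvA sb hsb)) hyb2
  have hyan : ya ∈ n := h1 ya hya1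
  have hybn : yb ∈ n := h1 yb hyb1
  have hya'n : ya' ∈ n := by
    have : ya' = sa * z₁ - ya := by rw [hya]; ring
    rw [this]; exact n.sub_mem (n.mul_mem_left _ hz₁.1) hyan
  have hznm : sf79_nmem B n z :=
    ⟨sa, hsa, ya', hya'n, by rw [hz, ← mul_assoc, mul_inv_cancel₀ (hne sa hsa), one_mul]⟩
  have hz'nm : sf79_nmem B n z' :=
    ⟨sb, hsb, yb, hybn, by rw [hz', ← mul_assoc, mul_inv_cancel₀ (hne sb hsb), one_mul]⟩
  have hpnm : sf79_nmem B n p := sf79_nmem_of_mem B n _ hπn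
  -- `u`, `v`
  have hu0 : (u : F) ≠ 0 := fun h0 => hu (by rw [h0, mul_zero]; exact V₁.zero_mem)
  have huinv : (u : F)⁻¹ ∈ V₁ := hV₁ _ (hB₁ _ u.2) hu
  have huvF : (u : F) * (v : F) = p ^ e * (s₀ : F) := by
    have := congrArg (fun t : B => (t : F)) huv
    simpa using this
  have hv1 : p⁻¹ * (v : F) ∈ V₁ := by
    obtain ⟨k, rfl⟩ : ∃ k, e = k + 1 := ⟨e - 1, by omega⟩
    have e1 : p⁻¹ * (v : F) = (u : F)⁻¹ * (p ^ k * (s₀ : F)) := by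
      have : (v : F) = (u : F)⁻¹ * (p ^ (k + 1) * (s₀ : F)) := by
        rw [← huvF, ← mul_assoc, inv_mul_cancel₀ hu0, one_mul]
      rw [this, pow_succ]
      field_simp
    rw [e1]
    exact V₁.mul_mem huinv (V₁.mul_mem (V₁.pow_mem (hA₁ hpA) _) (hB₁ _ s₀.2))
  have hvn : v ∈ n := h1 v hv1
  have hz'2 : p⁻¹ * z' ∉ V₂ := by
    intro hcon
    have hz2p : p⁻¹ * (z₂ : F) ∈ V₂ := by
      have e1 : p⁻¹ * (z₂ : F) = p⁻¹ * z' + p⁻¹ * ((z₂ : F) - z') := by ring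
      rw [e1]; exact V₂.add_mem hcon hzz2
    obtain ⟨s, hs, a, ha⟩ := hz₂.2 v hvn
    apply hv
    have e1 : p⁻¹ * (v : F) = (s : F)⁻¹ *
        (p⁻¹ * ((s : F) * (v : F) - (a : F) * (z₂ : F)) + (a : F) * (p⁻¹ * (z₂ : F))) := by
      have := hne s hs
      field_simp
      ring
    rw [e1]
    exact V₂.mul_mem (hA₂ (hinvA s hs)) (V₂.add_mem ha (V₂.mul_mem (hB₂ _ a.2) hz2p))
  -- generation
  have hgen : ∀ b₀ : B, b₀ ∈ n →
      ∃ c' ∈ A, ∃ a ∈ A, ∃ b ∈ A, (b₀ : F) = p * c' + a * z + b * z' := by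
    intro b₀ hb₀
    obtain ⟨s1, hs1, a1, ha1⟩ := hz₁.2 b₀ hb₀
    set α : F := (s1 : F)⁻¹ * (a1 : F) with hα
    have hαA : α ∈ A := A.mul_mem (hinvA s1 hs1) (hBA _ a1.2)
    set t : F := (b₀ : F) - α * z with ht
    have htA : t ∈ A := A.sub_mem (hBA _ b₀.2) (A.mul_mem hαA hzA)
    have ht1 : p⁻¹ * t ∈ V₁ := by
      have e1 : p⁻¹ * t = (s1 : F)⁻¹ * (p⁻¹ * ((s1 : F) * (b₀ : F) - (a1 : F) * (z₁ : F))) +
          α * (p⁻¹ * ((z₁ : F) - z)) := by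
        rw [ht, hα]
        have := hne s1 hs1
        field_simp
        ring
      rw [e1]
      exact V₁.add_mem (V₁.mul_mem (hA₁ (hinvA s1 hs1)) ha1) (V₁.mul_mem (hA₁ hαA) hzz1)
    obtain ⟨s3, hs3, hs3t⟩ := htA
    have hb3n : (⟨(s3 : F) * t, hs3t⟩ : B) ∈ n := by
      apply h1
      have e1 : p⁻¹ * (((⟨(s3 : F) * t, hs3t⟩ : B) : B) : F) = (s3 : F) * (p⁻¹ * t) := by
        show p⁻¹ * ((s3 : F) * t) = (s3 : F) * (p⁻¹ * t)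
        ring
      rw [e1]; exact V₁.mul_mem (hB₁ _ s3.2) ht1
    obtain ⟨s4, hs4, a4, ha4⟩ := hz₂.2 _ hb3n
    set β : F := (s3 : F)⁻¹ * ((s4 : F)⁻¹ * (a4 : F)) with hβ
    have hβA : β ∈ A := A.mul_mem (hinvA s3 hs3) (A.mul_mem (hinvA s4 hs4) (hBA _ a4.2))
    set w : F := t - β * z' with hw
    have hwA : w ∈ A := A.sub_mem ⟨s3, hs3, hs3t⟩ (A.mul_mem hβA hz'A)
    have hw2 : p⁻¹ * w ∈ V₂ := by
      have e1 : p⁻¹ * w = (s3 : F)⁻¹ * ((s4 : F)⁻¹ *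
          (p⁻¹ * ((s4 : F) * ((s3 : F) * t) - (a4 : F) * (z₂ : F)))) +
          β * (p⁻¹ * ((z₂ : F) - z')) := by
        rw [hw, hβ]
        have := hne s3 hs3
        have := hne s4 hs4
        field_simp
        ring
      rw [e1]
      exact V₂.add_mem (V₂.mul_mem (hA₂ (hinvA s3 hs3)) (V₂.mul_mem (hA₂ (hinvA s4 hs4)) ha4))
        (V₂.mul_mem (hA₂ hβA) hzz2)
    have hw1 : p⁻¹ * w ∈ V₁ := by
      have e1 : p⁻¹ * w = p⁻¹ * t - β * (p⁻¹ * z') := by rw [hw]; ring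
      rw [e1]; exact V₁.sub_mem ht1 (V₁.mul_mem (hA₁ hβA) hz'1)
    refine ⟨p⁻¹ * w, hsatA w hwA hw1 hw2, α, hαA, β, hβA, ?_⟩
    rw [hw, ht]
    field_simp
    ring
  have hloc : ∀ c ∈ A, (∃ d ∈ A, c * d = 1) ∨
      ∃ c' ∈ A, ∃ a ∈ A, ∃ b ∈ A, c = p * c' + a * z + b * z' := by
    rintro c ⟨s, hs, hsc⟩
    by_cases hb : (⟨(s : F) * c, hsc⟩ : B) ∈ n
    · right
      obtain ⟨c', hc', a, ha, b, hb', e1⟩ := hgen _ hb
      have e3 : (s : F) * c = p * c' + a * z + b * z' := e1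
      refine ⟨(s : F)⁻¹ * c', A.mul_mem (hinvA s hs) hc', (s : F)⁻¹ * a,
        A.mul_mem (hinvA s hs) ha, (s : F)⁻¹ * b, A.mul_mem (hinvA s hs) hb', ?_⟩
      calc c = (s : F)⁻¹ * ((s : F) * c) := by
            rw [← mul_assoc, inv_mul_cancel₀ (hne s hs), one_mul]
        _ = (s : F)⁻¹ * (p * c' + a * z + b * z') := by rw [e3]
        _ = _ := by ring
    · left
      have h0 : (s : F) * c ≠ 0 := hne _ hb
      refine ⟨(s : F) * ((s : F) * c)⁻¹, A.mul_mem (hBA _ s.2) (hinvA _ hb), ?_⟩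
      rw [← mul_assoc, mul_comm c, mul_inv_cancel₀ h0]
  have hprop : ∀ c' ∈ A, ∀ a ∈ A, ∀ b ∈ A, p * c' + a * z + b * z' ≠ 1 := by
    intro c' hc' a ha b hb h1'
    apply sf79_not_nmem_one B n
    rw [← h1']
    refine sf79_nmem_add B n _ _ (sf79_nmem_add B n _ _ ?_ (sf79_nmem_mul B n a z ha hznm))
      (sf79_nmem_mul B n b z' hb hz'nm)
    rw [mul_comm]; exact sf79_nmem_mul B n c' p hc' hpnm
  set Vv : F := (s₀ : F)⁻¹ * (v : F) with hVv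
  have hUA : (u : F) ∈ A := hBA _ u.2
  have hVA : Vv ∈ A := A.mul_mem (hinvA s₀ hs₀) (hBA _ v.2)
  have hUV : (u : F) * Vv = p ^ e := by
    rw [hVv, mul_left_comm, huvF, mul_comm (p ^ e), ← mul_assoc,
      inv_mul_cancel₀ (hne s₀ hs₀), one_mul]
  have hV2' : p⁻¹ * Vv ∉ V₂ := by
    intro hcon
    apply hv
    have e1 : p⁻¹ * (v : F) = (s₀ : F) * (p⁻¹ * Vv) := by
      rw [hVv]; have := hne s₀ hs₀; field_simp
    rw [e1]; exact V₂.mul_mem (hB₂ _ s₀.2) hcon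
  have hUμ : ∃ (μ : ℕ) (ε δ : F), ε ∈ A ∧ δ ∈ A ∧ ε * δ = 1 ∧
      p⁻¹ * ((u : F) - ε * z ^ μ) ∈ V₁ := by
    obtain ⟨μ, s, a, hs, ha, hsu⟩ := sf79_unif_pow π B V₁ hB₁ hπ₁ hV₁ n h1 z₁ hz₁ u hu
    refine ⟨μ, (s : F)⁻¹ * (a : F), (a : F)⁻¹ * (s : F), A.mul_mem (hinvA s hs) (hBA _ a.2),
      A.mul_mem (hinvA a ha) (hBA _ s.2), ?_, ?_⟩
    · have := hne s hs
      have := hne a ha
      field_simp
    · have hz₁V : (z₁ : F) ∈ V₁ := hB₁ _ z₁.2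
      have hzV : z ∈ V₁ := hA₁ hzA
      obtain ⟨w, hw⟩ := sub_dvd_pow_sub_pow (⟨(z₁ : F), hz₁V⟩ : V₁) ⟨z, hzV⟩ μ
      have hwF : (z₁ : F) ^ μ - z ^ μ = ((z₁ : F) - z) * (w : F) := by
        have := congrArg (fun t : V₁ => (t : F)) hw
        simpa using this
      have e1 : p⁻¹ * ((u : F) - (s : F)⁻¹ * (a : F) * z ^ μ) =
          (s : F)⁻¹ * (p⁻¹ * ((s : F) * (u : F) - (a : F) * (z₁ : F) ^ μ)) +
          (s : F)⁻¹ * (a : F) * ((p⁻¹ * ((z₁ : F) - z)) * (w : F)) := by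
        have h5 : (s : F)⁻¹ * (a : F) * ((p⁻¹ * ((z₁ : F) - z)) * (w : F)) =
            (s : F)⁻¹ * (a : F) * (p⁻¹ * ((z₁ : F) ^ μ - z ^ μ)) := by rw [hwF]; ring
        rw [h5]
        have := hne s hs
        field_simp
        ring
      rw [e1]
      exact V₁.add_mem (V₁.mul_mem (hA₁ (hinvA s hs)) hsu)
        (V₁.mul_mem (V₁.mul_mem (hA₁ (hinvA s hs)) (hB₁ _ a.2)) (V₁.mul_mem hzz1 w.2))
  obtain ⟨κ, Z, Z', c, d, hκ1, hκe, hZA, hZ'A, hcA, hdA, hcd, hZZ, hZz, hZ'z⟩ :=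
    nl71_main A V₁ V₂ p hp0 hpA hA₁ hA₂ hπ₁ hπ₂ hV₁ hV₂ hsatA z z' hzA hz'A hz2 hz'1 hz'2
      hloc hprop (u : F) Vv hUA hVA e he hUV hu hV2' hUμ
  have hZnm : sf79_nmem B n Z := by
    have e1 : Z = z + (p⁻¹ * (Z - z)) * p := by field_simp; ring
    rw [e1]; exact sf79_nmem_add B n _ _ hznm (sf79_nmem_mul B n _ p hZz hpnm)
  have hZ'nm : sf79_nmem B n Z' := by
    have e1 : Z' = z' + (p⁻¹ * (Z' - z')) * p := by field_simp; ring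
    rw [e1]; exact sf79_nmem_add B n _ _ hz'nm (sf79_nmem_mul B n _ p hZ'z hpnm)
  obtain ⟨sZ, hsZ, hbZ⟩ := id hZA
  obtain ⟨sZ', hsZ', hbZ'⟩ := id hZ'A
  obtain ⟨sc, hsc, hbc⟩ := id hcA
  obtain ⟨sd, hsd, hbd⟩ := id hdA
  have hbZn : (⟨(sZ : F) * Z, hbZ⟩ : B) ∈ n :=
    sf79_mem_of_nmem B n _ (sf79_nmem_mul B n (sZ : F) Z (hBA _ sZ.2) hZnm)
  have hbZ'n : (⟨(sZ' : F) * Z', hbZ'⟩ : B) ∈ n :=
    sf79_mem_of_nmem B n _ (sf79_nmem_mul B n (sZ' : F) Z' (hBA _ sZ'.2) hZ'nm)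
  have hbcn : (⟨(sc : F) * c, hbc⟩ : B) ∉ n := by
    intro hcon
    have h5 : (⟨(sc : F) * c, hbc⟩ : B) * ⟨(sd : F) * d, hbd⟩ = sc * sd := by
      apply Subtype.ext
      show (sc : F) * c * ((sd : F) * d) = (sc : F) * (sd : F)
      calc (sc : F) * c * ((sd : F) * d) = (sc : F) * (sd : F) * (c * d) := by ring
        _ = _ := by rw [hcd, mul_one]
    have h6 : sc * sd ∈ n := by rw [← h5]; exact n.mul_mem_right _ hcon
    exact (hnp.mem_or_mem h6).elim hsc hsd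
  refine ⟨⟨(sZ : F) * Z, hbZ⟩, ⟨(sZ' : F) * Z', hbZ'⟩, hbZn, hbZ'n, ?_, ?_, ?_, κ, sc,
    ⟨(sc : F) * c, hbc⟩ * sZ * sZ', hκ1, hκe, hsc, ?_, ?_⟩
  · intro x hx
    obtain ⟨c', hc', a, ha, b, hb, e1⟩ := hgen x hx
    set γ : F := c' - a * (p⁻¹ * (Z - z)) - b * (p⁻¹ * (Z' - z')) with hγ
    have hγA : γ ∈ A := A.sub_mem (A.sub_mem hc' (A.mul_mem ha hZz)) (A.mul_mem hb hZ'z)
    have e2 : (x : F) = p * γ + a * Z + b * Z' := by
      rw [e1, hγ]; field_simp; ring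
    obtain ⟨sα, hsα, hbα⟩ := A.mul_mem ha (hinvA sZ hsZ)
    obtain ⟨sβ, hsβ, hbβ⟩ := A.mul_mem hb (hinvA sZ' hsZ')
    obtain ⟨sγ, hsγ, hbγ⟩ := hγA
    refine ⟨sα * sβ * sγ, ?_, sβ * sγ * ⟨_, hbα⟩, sα * sγ * ⟨_, hbβ⟩, sα * sβ * ⟨_, hbγ⟩, ?_⟩
    · intro h
      rcases hnp.mem_or_mem h with h | h
      · rcases hnp.mem_or_mem h with h | h
        · exact hsα h
        · exact hsβ h
      · exact hsγ h
    · apply Subtype.ext
      show (sα : F) * (sβ : F) * (sγ : F) * (x : F) =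
        (sβ : F) * (sγ : F) * ((sα : F) * (a * (sZ : F)⁻¹)) * ((sZ : F) * Z) +
          (sα : F) * (sγ : F) * ((sβ : F) * (b * (sZ' : F)⁻¹)) * ((sZ' : F) * Z') +
            (sα : F) * (sβ : F) * ((sγ : F) * γ) * p
      rw [e2]
      have := hne sZ hsZ
      have := hne sZ' hsZ'
      field_simp
      ring
  · -- `z` is a unit along `V₁`
    intro hcon
    have hcon' : p⁻¹ * ((sZ : F) * Z) ∈ V₁ := hcon
    have hZ1 : p⁻¹ * Z ∈ V₁ := by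
      have e1 : p⁻¹ * Z = (sZ : F)⁻¹ * (p⁻¹ * ((sZ : F) * Z)) := by
        have := hne sZ hsZ
        field_simp
      rw [e1]; exact V₁.mul_mem (hA₁ (hinvA sZ hsZ)) hcon'
    have hz1 : p⁻¹ * z ∈ V₁ := by
      have e1 : p⁻¹ * z = p⁻¹ * Z - p⁻¹ * (Z - z) := by ring
      rw [e1]; exact V₁.sub_mem hZ1 (hA₁ hZz)
    have hz₁1 : p⁻¹ * (z₁ : F) ∈ V₁ := by
      have e1 : p⁻¹ * (z₁ : F) = p⁻¹ * z + p⁻¹ * ((z₁ : F) - z) := by ring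
      rw [e1]; exact V₁.add_mem hz1 hzz1
    have hv0 : (v : F) ≠ 0 := fun h0 => hv (by rw [h0, mul_zero]; exact V₂.zero_mem)
    have hvinv : (v : F)⁻¹ ∈ V₂ := hV₂ _ (hB₂ _ v.2) hv
    have hu2 : p⁻¹ * (u : F) ∈ V₂ := by
      obtain ⟨k, hk⟩ : ∃ k, e = k + 1 := ⟨e - 1, by omega⟩
      have e1 : p⁻¹ * (u : F) = (v : F)⁻¹ * (p ^ k * (s₀ : F)) := by
        have : (u : F) = (v : F)⁻¹ * (p ^ (k + 1) * (s₀ : F)) := by
          rw [← hk, ← huvF, mul_comm (u : F), ← mul_assoc, inv_mul_cancel₀ hv0, one_mul]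
        rw [this, pow_succ]
        field_simp
      rw [e1]
      exact V₂.mul_mem hvinv (V₂.mul_mem (V₂.pow_mem (hA₂ hpA) _) (hB₂ _ s₀.2))
    have hun : u ∈ n := h2 u hu2
    obtain ⟨s, hs, a, ha⟩ := hz₁.2 u hun
    apply hu
    have e1 : p⁻¹ * (u : F) = (s : F)⁻¹ *
        (p⁻¹ * ((s : F) * (u : F) - (a : F) * (z₁ : F)) + (a : F) * (p⁻¹ * (z₁ : F))) := by
      have := hne s hs
      field_simp
      ring
    rw [e1]
    exact V₁.mul_mem (hA₁ (hinvA s hs)) (V₁.add_mem ha (V₁.mul_mem (hB₁ _ a.2) hz₁1))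
  · -- `z'` is a unit along `V₂`
    intro hcon
    have hcon' : p⁻¹ * ((sZ' : F) * Z') ∈ V₂ := hcon
    have hZ2 : p⁻¹ * Z' ∈ V₂ := by
      have e1 : p⁻¹ * Z' = (sZ' : F)⁻¹ * (p⁻¹ * ((sZ' : F) * Z')) := by
        have := hne sZ' hsZ'
        field_simp
      rw [e1]; exact V₂.mul_mem (hA₂ (hinvA sZ' hsZ')) hcon'
    apply hz'2
    have e1 : p⁻¹ * z' = p⁻¹ * Z' - p⁻¹ * (Z' - z') := by ring
    rw [e1]; exact V₂.sub_mem hZ2 (hA₂ hZ'z)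
  · intro h
    rcases hnp.mem_or_mem h with h | h
    · rcases hnp.mem_or_mem h with h | h
      · exact hbcn h
      · exact hsZ h
    · exact hsZ' h
  · apply Subtype.ext
    show (sc : F) * ((sZ : F) * Z) * ((sZ' : F) * Z') =
      p ^ κ * ((sc : F) * c * (sZ : F) * (sZ' : F))
    calc (sc : F) * ((sZ : F) * Z) * ((sZ' : F) * Z')
        = (sc : F) * (sZ : F) * (sZ' : F) * (Z * Z') := by ring
      _ = _ := by rw [hZZ]; ring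

/-- **Labelled local structure** of the chart `B` along the two branches `V₁`, `V₂`. -/
def nl79_LocStr (π : R) (B : Subalgebra R F) (V₁ V₂ : Subring F) : Prop :=
  ∀ n : Ideal B, n.IsMaximal → algebraMap R B π ∈ n →
    (sf79_OnBr π B V₁ n ∧ ¬ sf79_OnBr π B V₂ n ∧ ∃ z : B, sf79_Unif π B V₁ n z ∧
      ∀ x ∈ n, ∃ s : B, s ∉ n ∧ ∃ a c : B, s * x = a * z + c * algebraMap R B π) ∨
    (sf79_OnBr π B V₂ n ∧ ¬ sf79_OnBr π B V₁ n ∧ ∃ z : B, sf79_Unif π B V₂ n z ∧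
      ∀ x ∈ n, ∃ s : B, s ∉ n ∧ ∃ a c : B, s * x = a * z + c * algebraMap R B π) ∨
    (sf79_OnBr π B V₁ n ∧ sf79_OnBr π B V₂ n ∧ ∃ z z' : B, z ∈ n ∧ z' ∈ n ∧
      (∀ x ∈ n, ∃ s : B, s ∉ n ∧ ∃ a b c : B, s * x = a * z + b * z' + c * algebraMap R B π) ∧
      (algebraMap R F π)⁻¹ * (z : F) ∉ V₁ ∧ (algebraMap R F π)⁻¹ * (z' : F) ∉ V₂ ∧
      ∃ (κ : ℕ) (s s' : B), 1 ≤ κ ∧ s ∉ n ∧ s' ∉ n ∧ s * z * z' = algebraMap R B π ^ κ * s')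

/-- **Abstract assembly with labels** (same hypotheses as `sf79_locStr`). -/
theorem nl79_locStr (π : R) (B : Subalgebra R F) [IsNoetherianRing B] (V₁ V₂ : Subring F)
    (hB₁ : ∀ x ∈ B, x ∈ V₁) (hB₂ : ∀ x ∈ B, x ∈ V₂)
    (hπ₁ : (algebraMap R F π)⁻¹ ∉ V₁) (hπ₂ : (algebraMap R F π)⁻¹ ∉ V₂)
    (hV₁ : ∀ x ∈ V₁, (algebraMap R F π)⁻¹ * x ∉ V₁ → x⁻¹ ∈ V₁)
    (hV₂ : ∀ x ∈ V₂, (algebraMap R F π)⁻¹ * x ∉ V₂ → x⁻¹ ∈ V₂)
    (hsat : ∀ x ∈ B, (algebraMap R F π)⁻¹ * x ∈ V₁ → (algebraMap R F π)⁻¹ * x ∈ V₂ →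
      (algebraMap R F π)⁻¹ * x ∈ B)
    (hS₁ : sf79_Smooth π B V₁) (hS₂ : sf79_Smooth π B V₂) (hT : sf79_Transv π B V₁ V₂)
    (hUV : sf79_UVAt π B V₁ V₂) : nl79_LocStr π B V₁ V₂ := by
  intro n hn hπn
  have hnp : n.IsPrime := hn.isPrime
  have hp0 : algebraMap R F π ≠ 0 := fun h0 => hπ₁ (by rw [h0, inv_zero]; exact V₁.zero_mem)
  by_cases h1 : sf79_OnBr π B V₁ n
  · by_cases h2 : sf79_OnBr π B V₂ n
    · obtain ⟨z₁, hz₁⟩ := hS₁ n hn hπn h1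
      obtain ⟨z₂, hz₂⟩ := hS₂ n hn hπn h2
      obtain ⟨u, v, s₀, e, hs₀, he, huv, hu, hv⟩ := hUV n hn hπn h1 h2
      obtain ⟨z, z', hz, hz', hgen, hl1, hl2, κ, s, s', hκ, -, hs, hs', heq⟩ :=
        nl79_node π B V₁ V₂ hB₁ hB₂ hπ₁ hπ₂ hV₁ hV₂ hsat n hπn h1 h2 z₁ hz₁ z₂ hz₂
          (hT n hn hπn h1 h2) u v s₀ e hs₀ he huv hu hv
      exact Or.inr (Or.inr ⟨h1, h2, z, z', hz, hz', hgen, hl1, hl2, κ, s, s', hκ, hs, hs', heq⟩)
    · obtain ⟨z, hz⟩ := hS₁ n hn hπn h1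
      refine Or.inl ⟨h1, h2, z, hz, ?_⟩
      intro x hx
      exact sf79_regular π B V₁ V₂ hB₁ hsat hp0 hB₂ n z hz h2 x hx
  · by_cases h2 : sf79_OnBr π B V₂ n
    · obtain ⟨z, hz⟩ := hS₂ n hn hπn h2
      refine Or.inr (Or.inl ⟨h2, h1, z, hz, ?_⟩)
      intro x hx
      exact sf79_regular π B V₂ V₁ hB₂ (fun x hx a b => hsat x hx b a) hp0 hB₁ n z hz h1 x hx
    · exfalso
      obtain ⟨δ₁, hδ₁⟩ := not_forall.mp h1
      obtain ⟨hδ₁V, hδ₁n⟩ := Classical.not_imp.mp hδ₁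
      obtain ⟨δ₂, hδ₂⟩ := not_forall.mp h2
      obtain ⟨hδ₂V, hδ₂n⟩ := Classical.not_imp.mp hδ₂
      have hc : (algebraMap R F π)⁻¹ * ((δ₁ : F) * (δ₂ : F)) ∈ B := by
        apply hsat _ (B.mul_mem δ₁.2 δ₂.2)
        · rw [← mul_assoc]; exact V₁.mul_mem hδ₁V (hB₁ _ δ₂.2)
        · rw [mul_left_comm]; exact V₂.mul_mem (hB₂ _ δ₁.2) hδ₂V
      have h3 : δ₁ * δ₂ = ⟨_, hc⟩ * algebraMap R B π := by
        apply Subtype.ext
        show (δ₁ : F) * (δ₂ : F) =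
          (algebraMap R F π)⁻¹ * ((δ₁ : F) * (δ₂ : F)) * algebraMap R F π
        rw [mul_comm (algebraMap R F π)⁻¹, mul_assoc, inv_mul_cancel₀ hp0, mul_one]
      have h4 : δ₁ * δ₂ ∈ n := by rw [h3]; exact n.mul_mem_left _ hπn
      exact (hnp.mem_or_mem h4).elim hδ₁n hδ₂n

/-- The labelled local structure implies the interface statement (LS). -/
theorem nl79_locStr_weak (π : R) (B : Subalgebra R F) (V₁ V₂ : Subring F)
    (h : nl79_LocStr π B V₁ V₂) : s34i47_LocStr π B := by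
  intro n hn hπn
  rcases h n hn hπn with ⟨-, -, z, hz, hgen⟩ | ⟨-, -, z, hz, hgen⟩ |
    ⟨-, -, z, z', hz, hz', hgen, -, -, κ, s, s', -, hs, hs', heq⟩
  · refine ⟨z, algebraMap R B π, hz.1, hπn, ?_, Or.inl rfl⟩
    intro x hx
    obtain ⟨s, hs, a, c, e⟩ := hgen x hx
    exact ⟨s, hs, a, 0, c, by rw [e]; ring⟩
  · refine ⟨z, algebraMap R B π, hz.1, hπn, ?_, Or.inl rfl⟩
    intro x hx
    obtain ⟨s, hs, a, c, e⟩ := hgen x hx
    exact ⟨s, hs, a, 0, c, by rw [e]; ring⟩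
  · exact ⟨z, z', hz, hz', hgen, Or.inr ⟨κ, s, s', hs, hs', heq⟩⟩

end NL79

end Fermat.Agent.S35
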