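import Mathlib
import Fermat.Agent.S35.LocStrLab79
import Fermat.Agent.S34.Iface47e
import Fermat.Agent.S34.FrameSat85
import Fermat.Agent.S34.PkgFrameSmooth73
import Fermat.Agent.S34.PkgFrameTransv66
import Fermat.Agent.S34.BranchSep87
import Fermat.Agent.S34.Krull65
import Fermat.Agent.S34.UniqueZero37
import Fermat.Agent.S34.CoreAsm57
import Fermat.Agent.S34.WIntInst18

/-!
# S35 lab (helper99): the chart toolkit on the canonical frame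

The abstract local lemmas of the S35 lab (`sd89_localDatum`, the node datum, `tl39_*`, the
LP-transport, `nl79_*`, `tv66_*`) all consume the same chart-level hypotheses on a chart `B`
and the two valuation rings `V₁ = V_∞`, `V₂ = V_0`.  This file collects ALL of them in one
structure and proves it, hypothesis-free, for both affine charts of every admissible Hauptmodul
on the canonical frame data of `Iface47c`.

* `ft99_Chart K π B V₁ V₂ : Prop` (structure, fields named as the hypotheses of the consumers):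
  `hB₁ hB₂` (`B ⊆ V_i`), `hπ₁ hπ₂` (`π⁻¹ ∉ V_i`), `hV₁ hV₂` (units), `hsat` (saturation in
  `V₁ ⊓ V₂`), `hnoeth`, `hFrac`, `harch₁ harch₂`, `hKr` (`s34i47_Krull`), `hS₁ hS₂`
  (`sf79_Smooth`), `hT` (`sf79_Transv`), `hUV` (`sf79_UVAt`), `hsep₁ hsep₂` (separating elements),
  `hfr₁ hfr₂` (`V_i = B_{P_i}`), `hLab` (`nl79_LocStr`), `hLS` (`s34i47_LocStr`),
  `hUZ` (`s34i47_UniqueZero`).
* `ft99_chart_of` : the abstract builder (the derived fields from the primitive ones).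
* `ft99_frame` : both charts `pk15_chart R {h}`, `pk15_chart R {h⁻¹}` on the canonical data.
* `ft99_W_of`, `ft99_W_left`, `ft99_W_right` : `W = V_∞ ⊓ V_0` elementwise.
-/

set_option autoImplicit false

open ModularCurve AlgebraicCurve

namespace Fermat.Agent.S35

open Fermat.Agent.S34 Fermat.Agent.S18

local notation "Q̄" => AlgebraicClosure ℚ

/-- **The chart toolkit**: all chart-level hypotheses of the abstract local lemmas, for a chart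
`B ⊆ F` and the two valuation rings `V₁`, `V₂` (as subrings of `F`). -/
structure ft99_Chart {R F : Type*} (K : Type*) [CommRing R] [Field K] [Field F] [Algebra R F]
    [Algebra K F] (π : R) (B : Subalgebra R F) (V₁ V₂ : Subring F) : Prop where
  hB₁ : ∀ x ∈ B, x ∈ V₁
  hB₂ : ∀ x ∈ B, x ∈ V₂
  hπ₁ : (algebraMap R F π)⁻¹ ∉ V₁
  hπ₂ : (algebraMap R F π)⁻¹ ∉ V₂
  hV₁ : ∀ x ∈ V₁, (algebraMap R F π)⁻¹ * x ∉ V₁ → x⁻¹ ∈ V₁
  hV₂ : ∀ x ∈ V₂, (algebraMap R F π)⁻¹ * x ∉ V₂ → x⁻¹ ∈ V₂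
  hsat : ∀ x ∈ B, (algebraMap R F π)⁻¹ * x ∈ V₁ → (algebraMap R F π)⁻¹ * x ∈ V₂ →
    (algebraMap R F π)⁻¹ * x ∈ B
  hnoeth : IsNoetherianRing B
  hFrac : ∀ x : F, ∃ a ∈ B, ∃ b ∈ B, b ≠ 0 ∧ x * b = a
  harch₁ : ∀ x ∈ B, x ≠ 0 → ∃ k : ℕ, (algebraMap R F π ^ k)⁻¹ * x ∉ V₁
  harch₂ : ∀ x ∈ B, x ≠ 0 → ∃ k : ℕ, (algebraMap R F π ^ k)⁻¹ * x ∉ V₂
  hKr : s34i47_Krull π B
  hS₁ : sf79_Smooth π B V₁
  hS₂ : sf79_Smooth π B V₂
  hT : sf79_Transv π B V₁ V₂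
  hUV : sf79_UVAt π B V₁ V₂
  hsep₁ : ∃ y : B, (algebraMap R F π)⁻¹ * (y : F) ∈ V₁ ∧ (algebraMap R F π)⁻¹ * (y : F) ∉ V₂
  hsep₂ : ∃ y : B, (algebraMap R F π)⁻¹ * (y : F) ∈ V₂ ∧ (algebraMap R F π)⁻¹ * (y : F) ∉ V₁
  hfr₁ : ∀ x ∈ V₁, ∃ b b' : B, (algebraMap R F π)⁻¹ * (b' : F) ∉ V₁ ∧ (b' : F) * x = (b : F)
  hfr₂ : ∀ x ∈ V₂, ∃ b b' : B, (algebraMap R F π)⁻¹ * (b' : F) ∉ V₂ ∧ (b' : F) * x = (b : F)
  hLab : nl79_LocStr π B V₁ V₂
  hLS : s34i47_LocStr π B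
  hUZ : s34i47_UniqueZero K π B

section ft99_abs

variable {R K F : Type} [CommRing R] [IsDomain R] [IsDiscreteValuationRing R] [Field K] [Field F]
  [Algebra R K] [IsFractionRing R K] [Algebra R F] [Algebra K F] [IsScalarTower R K F]

/-- **The builder**: the derived fields (`V_i = B_{P_i}`, labelled local structure, (LS), (UZ))
from the primitive ones. -/
theorem ft99_chart_of (π : R) (hπ : Irreducible π) (B : Subalgebra R F) (V₁ V₂ : Subring F)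
    (hB₁ : ∀ x ∈ B, x ∈ V₁) (hB₂ : ∀ x ∈ B, x ∈ V₂)
    (hπ₁ : (algebraMap R F π)⁻¹ ∉ V₁) (hπ₂ : (algebraMap R F π)⁻¹ ∉ V₂)
    (hV₁ : ∀ x ∈ V₁, (algebraMap R F π)⁻¹ * x ∉ V₁ → x⁻¹ ∈ V₁)
    (hV₂ : ∀ x ∈ V₂, (algebraMap R F π)⁻¹ * x ∉ V₂ → x⁻¹ ∈ V₂)
    (hsat : ∀ x ∈ B, (algebraMap R F π)⁻¹ * x ∈ V₁ → (algebraMap R F π)⁻¹ * x ∈ V₂ →
      (algebraMap R F π)⁻¹ * x ∈ B)
    (hnoeth : IsNoetherianRing B)
    (hFrac : ∀ x : F, ∃ a ∈ B, ∃ b ∈ B, b ≠ 0 ∧ x * b = a)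
    (harch₁ : ∀ x ∈ B, x ≠ 0 → ∃ k : ℕ, (algebraMap R F π ^ k)⁻¹ * x ∉ V₁)
    (harch₂ : ∀ x ∈ B, x ≠ 0 → ∃ k : ℕ, (algebraMap R F π ^ k)⁻¹ * x ∉ V₂)
    (hKr : s34i47_Krull π B)
    (hS₁ : sf79_Smooth π B V₁) (hS₂ : sf79_Smooth π B V₂) (hT : sf79_Transv π B V₁ V₂)
    (hUV : sf79_UVAt π B V₁ V₂)
    (hsep₁ : ∃ y : B, (algebraMap R F π)⁻¹ * (y : F) ∈ V₁ ∧ (algebraMap R F π)⁻¹ * (y : F) ∉ V₂)
    (hsep₂ : ∃ y : B, (algebraMap R F π)⁻¹ * (y : F) ∈ V₂ ∧ (algebraMap R F π)⁻¹ * (y : F) ∉ V₁) :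
    ft99_Chart K π B V₁ V₂ := by
  have hLab : nl79_LocStr π B V₁ V₂ :=
    nl79_locStr π B V₁ V₂ hB₁ hB₂ hπ₁ hπ₂ hV₁ hV₂ hsat hS₁ hS₂ hT hUV
  have hLS : s34i47_LocStr π B := nl79_locStr_weak π B V₁ V₂ hLab
  obtain ⟨c₁, hc₁1, hc₁2⟩ := hsep₁
  obtain ⟨c₂, hc₂2, hc₂1⟩ := hsep₂
  exact
    { hB₁ := hB₁, hB₂ := hB₂, hπ₁ := hπ₁, hπ₂ := hπ₂, hV₁ := hV₁, hV₂ := hV₂, hsat := hsat
      hnoeth := hnoeth, hFrac := hFrac, harch₁ := harch₁, harch₂ := harch₂, hKr := hKr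
      hS₁ := hS₁, hS₂ := hS₂, hT := hT, hUV := hUV
      hsep₁ := ⟨c₁, hc₁1, hc₁2⟩, hsep₂ := ⟨c₂, hc₂2, hc₂1⟩
      hfr₁ := fun x hx => tv66_frac π B V₂ V₁ hB₂ hB₁ hV₁ (fun y hy h2 h1 => hsat y hy h1 h2)
        hFrac harch₁ c₂ hc₂2 hc₂1 x hx
      hfr₂ := fun x hx => tv66_frac π B V₁ V₂ hB₁ hB₂ hV₂ hsat hFrac harch₂ c₁ hc₁1 hc₁2 x hx
      hLab := hLab, hLS := hLS
      hUZ := uz37_Pkg_UZ R K F π hπ B hnoeth hFrac hLS }

end ft99_abs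

section ft99_canon

variable {R K : Type} [CommRing R] [IsDomain R] [IsDiscreteValuationRing R] [Field K]
  [Algebra R K] [IsFractionRing R K] [Algebra K Q̄]
  (M' q : ℕ) [NeZero M'] [NeZero q] (hq : q.Prime) (hM' : ¬ q ∣ M')

/-- `W = V_∞ ⊓ V_0`, elementwise (introduction). -/
theorem ft99_W_of {π : R} (hπ : Irreducible π) (x : ↥(modularFunctionFieldFullC K (M' * q)))
    (h1 : x ∈ (cm85_Vinf (K := K) (M' * q) hπ).toSubring)
    (h2 : x ∈ (s34i47c_V0 (K := K) M' q hq hM' hπ).toSubring) :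
    x ∈ s34i47c_W (K := K) M' q hq hM' hπ :=
  (wa5_mem_W _ _ _).mpr ⟨h1, h2⟩

/-- `W ⊆ V_∞`. -/
theorem ft99_W_left {π : R} (hπ : Irreducible π) (x : ↥(modularFunctionFieldFullC K (M' * q)))
    (hx : x ∈ s34i47c_W (K := K) M' q hq hM' hπ) :
    x ∈ (cm85_Vinf (K := K) (M' * q) hπ).toSubring :=
  ((wa5_mem_W _ _ _).mp hx).1

/-- `W ⊆ V_0`. -/
theorem ft99_W_right {π : R} (hπ : Irreducible π) (x : ↥(modularFunctionFieldFullC K (M' * q)))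
    (hx : x ∈ s34i47c_W (K := K) M' q hq hM' hπ) :
    x ∈ (s34i47c_V0 (K := K) M' q hq hM' hπ).toSubring :=
  ((wa5_mem_W _ _ _).mp hx).2

end ft99_canon

/-- **The chart toolkit on the canonical frame**: both affine charts of every admissible
Hauptmodul, along `V_∞ = cm85_Vinf (M' * q)` and `V_0 = s34i47c_V0`, hypothesis-free (binder block
of `s34i47c_FrameLS`). -/
theorem ft99_frame (M' q : ℕ) [NeZero M'] [NeZero q] (hq : q.Prime) (hM' : ¬ q ∣ M')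
    (R K : Type) [CommRing R] [IsDomain R] [IsDiscreteValuationRing R] [Field K] [NumberField K]
    [Algebra K Q̄] [Algebra R K] [IsFractionRing R K]
    [Algebra R ↥(modularFunctionFieldFullC K (M' * q))]
    [IsScalarTower R K ↥(modularFunctionFieldFullC K (M' * q))] (π : R) (hπ : Irreducible π)
    (hunit : ∀ n : ℕ, Nat.Coprime n q → IsUnit (n : R)) (hqR : ¬ IsUnit (q : R))
    (h : ↥(modularFunctionFieldFullC K (M' * q))) (hh : s34i47c_IsHaupt K (M' * q) q h) :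
    ft99_Chart K π (pk15_chart R ({h} : Set ↥(modularFunctionFieldFullC K (M' * q))))
        (cm85_Vinf (K := K) (M' * q) hπ).toSubring
        (s34i47c_V0 (K := K) M' q hq hM' hπ).toSubring ∧
      ft99_Chart K π (pk15_chart R ({h⁻¹} : Set ↥(modularFunctionFieldFullC K (M' * q))))
        (cm85_Vinf (K := K) (M' * q) hπ).toSubring
        (s34i47c_V0 (K := K) M' q hq hM' hπ).toSubring := by
  obtain ⟨-, hC⟩ := fs85_pkg_frameSat M' q hq hM' R K π hπ hunit hqR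
  obtain ⟨htr, h12W, hsat₁, hsat₂, -, hN₁, hN₂, hfin, hfrac₁⟩ := hC h hh
  have hh0 : h ≠ 0 := by
    rintro rfl
    exact htr isAlgebraic_zero
  have hfrac₂ := ca57_frac_inv (R := R) h hh0 hfrac₁
  obtain ⟨hS₁, hS₂⟩ := sc73_pkg_frameSmooth M' q hq hM' R K π hπ hunit hqR h hh
  obtain ⟨hT₁, hT₂⟩ := tv66_pkg_frameTransv M' q hq hM' R K π hπ hunit hqR h hh
  obtain ⟨hS₁0, hS₂0⟩ := bz13_smooth_V0 (K := K) M' q hq hM' (π := π) hπ hunit h hh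
  obtain ⟨hUV₁, hUV₂⟩ := uvf22_UVAt (K := K) M' q hq hM' hπ hunit hqR h hh
  obtain ⟨hKr₁, hKr₂⟩ := kr65_Pkg_Krull R K ↥(modularFunctionFieldFullC K (M' * q)) π hπ h htr
    hN₁ hN₂ hfin hfrac₁
  have hπ₁ : (algebraMap R ↥(modularFunctionFieldFullC K (M' * q)) π)⁻¹ ∉
      (cm85_Vinf (K := K) (M' * q) hπ).toSubring := by
    rw [IsScalarTower.algebraMap_apply R K ↥(modularFunctionFieldFullC K (M' * q))]
    exact gv85_pi_inv_not_mem (IsLocalRing.residue R) π (pk85_res_iff hπ) hπ.ne_zero _ _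
  have hπ₂ : (algebraMap R ↥(modularFunctionFieldFullC K (M' * q)) π)⁻¹ ∉
      (s34i47c_V0 (K := K) M' q hq hM' hπ).toSubring := by
    intro hmem
    have hmem' : (algebraMap R ↥(modularFunctionFieldFullC K (M' * q)) π)⁻¹ ∈
        s34i47c_V0 (K := K) M' q hq hM' hπ := hmem
    rw [s34i47c_mem_V0, map_inv₀,
      IsScalarTower.algebraMap_apply R K ↥(modularFunctionFieldFullC K (M' * q)),
      AlgEquiv.commutes,
      ← IsScalarTower.algebraMap_apply R K ↥(modularFunctionFieldFullC K (M' * q))] at hmem'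
    exact hπ₁ hmem'
  have hV₁ : ∀ x ∈ (cm85_Vinf (K := K) (M' * q) hπ).toSubring,
      (algebraMap R ↥(modularFunctionFieldFullC K (M' * q)) π)⁻¹ * x ∉
        (cm85_Vinf (K := K) (M' * q) hπ).toSubring →
      x⁻¹ ∈ (cm85_Vinf (K := K) (M' * q) hπ).toSubring := by
    intro x hx hnot
    by_contra hinv
    apply hnot
    have := gv85_hmax (IsLocalRing.residue R) π (pk85_res_iff hπ) hπ.ne_zero _ _ x hx hinv
    rw [IsScalarTower.algebraMap_apply R K ↥(modularFunctionFieldFullC K (M' * q))]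
    exact this
  have hV₂ : ∀ x ∈ (s34i47c_V0 (K := K) M' q hq hM' hπ).toSubring,
      (algebraMap R ↥(modularFunctionFieldFullC K (M' * q)) π)⁻¹ * x ∉
        (s34i47c_V0 (K := K) M' q hq hM' hπ).toSubring →
      x⁻¹ ∈ (s34i47c_V0 (K := K) M' q hq hM' hπ).toSubring :=
    fun x hx hnot => tv66_hV_V0 M' q hq hM' hπ x hx hnot
  have hBW : ∀ (s : Set ↥(modularFunctionFieldFullC K (M' * q))),
      s ⊆ {h, h⁻¹} → ∀ x ∈ pk15_chart R s, x ∈ s34i47c_W (K := K) M' q hq hM' hπ :=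
    fun s hs x hx => h12W x (pk15_chart_mono hs hx)
  have hsat : ∀ (B : Subalgebra R ↥(modularFunctionFieldFullC K (M' * q))),
      (∀ x ∈ B, (algebraMap R ↥(modularFunctionFieldFullC K (M' * q)) π)⁻¹ * x ∈
        s34i47c_W (K := K) M' q hq hM' hπ →
        (algebraMap R ↥(modularFunctionFieldFullC K (M' * q)) π)⁻¹ * x ∈ B) →
      ∀ x ∈ B, (algebraMap R ↥(modularFunctionFieldFullC K (M' * q)) π)⁻¹ * x ∈
          (cm85_Vinf (K := K) (M' * q) hπ).toSubring →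
        (algebraMap R ↥(modularFunctionFieldFullC K (M' * q)) π)⁻¹ * x ∈
          (s34i47c_V0 (K := K) M' q hq hM' hπ).toSubring →
        (algebraMap R ↥(modularFunctionFieldFullC K (M' * q)) π)⁻¹ * x ∈ B :=
    fun B hB x hx h1 h2 => hB x hx ((wa5_mem_W _ _ _).mpr ⟨h1, h2⟩)
  have hB₁ : ∀ (s : Set ↥(modularFunctionFieldFullC K (M' * q))),
      s ⊆ {h, h⁻¹} → ∀ x ∈ pk15_chart R s, x ∈ (cm85_Vinf (K := K) (M' * q) hπ).toSubring :=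
    fun s hs x hx => ((wa5_mem_W _ _ _).mp (hBW s hs x hx)).1
  have hB₂ : ∀ (s : Set ↥(modularFunctionFieldFullC K (M' * q))),
      s ⊆ {h, h⁻¹} → ∀ x ∈ pk15_chart R s,
        x ∈ (s34i47c_V0 (K := K) M' q hq hM' hπ).toSubring :=
    fun s hs x hx => ((wa5_mem_W _ _ _).mp (hBW s hs x hx)).2
  have hs₁ : ({h} : Set ↥(modularFunctionFieldFullC K (M' * q))) ⊆ {h, h⁻¹} := by simp
  have hs₂ : ({h⁻¹} : Set ↥(modularFunctionFieldFullC K (M' * q))) ⊆ {h, h⁻¹} := by simp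
  have harch₁ : ∀ x : ↥(modularFunctionFieldFullC K (M' * q)), x ≠ 0 →
      ∃ k : ℕ, (algebraMap R ↥(modularFunctionFieldFullC K (M' * q)) π ^ k)⁻¹ * x ∉
        (cm85_Vinf (K := K) (M' * q) hπ).toSubring :=
    fun x hx => wi18_arch (M' * q) hπ x hx
  have harch₂ : ∀ x : ↥(modularFunctionFieldFullC K (M' * q)), x ≠ 0 →
      ∃ k : ℕ, (algebraMap R ↥(modularFunctionFieldFullC K (M' * q)) π ^ k)⁻¹ * x ∉
        (s34i47c_V0 (K := K) M' q hq hM' hπ).toSubring :=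
    fun x hx => tv66_arch_V0 M' q hq hM' hπ x hx
  obtain ⟨hsepA₁, hsepA₂⟩ := bs87_exists M' q hq hM' hπ hunit hqR h hh
    (pk15_chart R ({h} : Set ↥(modularFunctionFieldFullC K (M' * q)))) (Or.inl rfl)
  obtain ⟨hsepB₁, hsepB₂⟩ := bs87_exists M' q hq hM' hπ hunit hqR h hh
    (pk15_chart R ({h⁻¹} : Set ↥(modularFunctionFieldFullC K (M' * q)))) (Or.inr rfl)
  exact ⟨ft99_chart_of π hπ _ _ _ (hB₁ _ hs₁) (hB₂ _ hs₁) hπ₁ hπ₂ hV₁ hV₂ (hsat _ hsat₁) hN₁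
      hfrac₁ (fun x _ hx => harch₁ x hx) (fun x _ hx => harch₂ x hx) hKr₁ hS₁ (hS₁0 hS₁) hT₁ hUV₁
      hsepA₁ hsepA₂,
    ft99_chart_of π hπ _ _ _ (hB₁ _ hs₂) (hB₂ _ hs₂) hπ₁ hπ₂ hV₁ hV₂ (hsat _ hsat₂) hN₂
      hfrac₂ (fun x _ hx => harch₁ x hx) (fun x _ hx => harch₂ x hx) hKr₂ hS₂ (hS₂0 hS₂) hT₂ hUV₂
      hsepB₁ hsepB₂⟩

end Fermat.Agent.S35
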