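import Fermat.Agent.S18.GaussVal85
import Fermat.Agent.S37.FrobL66
import Fermat.Prelude.Thm_ModularCurve_coeffMap_qExpand

/-!
# S35 lab (helper93): the Kronecker congruence for a Frobenius lift, at a Gauss valuation ring

`R` a valuation ring with fraction field `K`, `res : R → κ` its reduction (`res r = 0 ↔ π ∣ r`),
`κ` of characteristic `q`; `σ` an endomorphism of `K` restricting to `σR` on `R` with
`σR r ≡ r ^ q mod π` (a *Frobenius lift*).  `F` an intermediate field of `K((Q))`, `V = gv85_V`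
its Gauss valuation ring.

* `fk93_res_comp` : `res ∘ σR = frobenius ∘ res`;
* `fk93_red_frob` : `coeffMap res (qExpand q (coeffMap σR s)) = (coeffMap res s) ^ q`;
* `fk93_gv_frob`  : if `x ∈ V` and `y ∈ F` has the series `(σ x)(Q^q)`
  (`= qExpand K q (coeffMap σ x)`), then `π⁻¹ (y - x ^ q) ∈ V`
  — "`β(σ̂ x) ≡ (α x)^q` modulo `π V_∞`" (with the explicit coefficientwise `σ̂ x`, not only an
  existential `q`-th root as in `ins50_frob_Vinf`).
-/

set_option autoImplicit false

open ModularCurve

namespace Fermat.Agent.S35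

open Fermat.Agent.S18 Fermat.Agent.S37

section fk93

variable {R K κ : Type*} [CommRing R] [IsDomain R] [Field K] [Algebra R K] [IsFractionRing R K]
  [Field κ] [ValuationRing R]

omit [IsDomain R] [ValuationRing R] in
/-- A Frobenius lift induces the Frobenius on the residue field. -/
theorem fk93_res_comp (res : R →+* κ) (π : R) (hres : ∀ r, res r = 0 ↔ π ∣ r) (q : ℕ)
    [ExpChar κ q] (σR : R →+* R) (hfr : ∀ r, π ∣ σR r - r ^ q) :
    res.comp σR = (frobenius κ q).comp res := by
  ext r
  have h := (hres _).mpr (hfr r)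
  rw [map_sub, map_pow, sub_eq_zero] at h
  rw [RingHom.comp_apply, RingHom.comp_apply, frobenius_def]
  exact h

omit [IsDomain R] [ValuationRing R] in
/-- The reduction of `(σR s)(Q^q)` is the `q`-th power of the reduction of `s`. -/
theorem fk93_red_frob (res : R →+* κ) (π : R) (hres : ∀ r, res r = 0 ↔ π ∣ r) (q : ℕ) [NeZero q]
    [ExpChar κ q] (σR : R →+* R) (hfr : ∀ r, π ∣ σR r - r ^ q) (s : LaurentSeries R) :
    coeffMap res (qExpand R q (coeffMap σR s)) = coeffMap res s ^ q := by
  rw [coeffMap_qExpand, coeffMap_coeffMap, fk93_res_comp res π hres q σR hfr,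
    ← coeffMap_coeffMap, ← fr66_pow_expChar]

/-- **Kronecker congruence for a Frobenius lift.**  If `x ∈ V` and `y ∈ F` has the Laurent
series `(σ x)(Q^q)`, then `π⁻¹ (y - x ^ q) ∈ V`. -/
theorem fk93_gv_frob (res : R →+* κ) (π : R) (hres : ∀ r, res r = 0 ↔ π ∣ r) (hπ0 : π ≠ 0)
    (q : ℕ) [NeZero q] [ExpChar κ q]
    (F : IntermediateField K (LaurentSeries K)) (hF : gv85_HF res F) (σ : K →+* K) (σR : R →+* R)
    (hσ : ∀ r, algebraMap R K (σR r) = σ (algebraMap R K r))
    (hfr : ∀ r, π ∣ σR r - r ^ q)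
    (x y : F) (hxy : (y : LaurentSeries K) = qExpand K q (coeffMap σ (x : LaurentSeries K)))
    (hx : x ∈ gv85_V res F hF) :
    (algebraMap K F (algebraMap R K π))⁻¹ * (y - x ^ q) ∈ gv85_V res F hF := by
  obtain ⟨s, t, hs, hst⟩ := hx
  -- the relation for `y`
  have e1 : coeffMap (algebraMap R K) (qExpand R q (coeffMap σR s)) * (y : LaurentSeries K) =
      coeffMap (algebraMap R K) (qExpand R q (coeffMap σR t)) := by
    have hc : ∀ u : LaurentSeries R, coeffMap (algebraMap R K) (qExpand R q (coeffMap σR u)) =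
        qExpand K q (coeffMap σ (coeffMap (algebraMap R K) u)) := by
      intro u
      rw [coeffMap_qExpand, coeffMap_coeffMap, coeffMap_coeffMap]
      congr 1
      exact coeffMap_congr (RingHom.ext hσ) u
    rw [hc, hc, hxy, ← map_mul, ← map_mul, hst]
  -- the relation for `x ^ q`
  have e2 : coeffMap (algebraMap R K) (s ^ q) * (x : LaurentSeries K) ^ q =
      coeffMap (algebraMap R K) (t ^ q) := by
    rw [map_pow, map_pow, ← mul_pow, hst]
  set s₁ := qExpand R q (coeffMap σR s) with hs₁
  set t₁ := qExpand R q (coeffMap σR t) with ht₁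
  have hS : coeffMap res (s₁ * s ^ q) ≠ 0 := by
    rw [map_mul, map_pow, hs₁, fk93_red_frob res π hres q σR hfr]
    exact mul_ne_zero (pow_ne_zero q hs) (pow_ne_zero q hs)
  have hT : coeffMap res (t₁ * s ^ q - s₁ * t ^ q) = 0 := by
    rw [map_sub, map_mul, map_mul, map_pow, map_pow, hs₁, ht₁,
      fk93_red_frob res π hres q σR hfr, fk93_red_frob res π hres q σR hfr]
    ring
  obtain ⟨T', hT'⟩ := gv85_red_eq_zero res π hres hπ0 _ hT
  have hπK : algebraMap R K π ≠ 0 := fun h =>
    hπ0 (IsFractionRing.injective R K (by rw [h, map_zero]))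
  have hC0 : (HahnSeries.C (algebraMap R K π) : LaurentSeries K) ≠ 0 := HahnSeries.C_ne_zero hπK
  refine ⟨s₁ * s ^ q, T', hS, ?_⟩
  rw [gv85_coe_inv_mul]
  have hcoe : ((y - x ^ q : F) : LaurentSeries K) =
      (y : LaurentSeries K) - (x : LaurentSeries K) ^ q := rfl
  have hST : coeffMap (algebraMap R K) (s₁ * s ^ q) *
      ((y : LaurentSeries K) - (x : LaurentSeries K) ^ q) =
      coeffMap (algebraMap R K) (t₁ * s ^ q - s₁ * t ^ q) := by
    rw [map_sub, map_mul, map_mul, map_mul, ← e1, ← e2]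
    ring
  rw [hcoe, mul_left_comm, hST, hT', map_mul, gv85_coeffMap_C, ← mul_assoc, inv_mul_cancel₀ hC0,
    one_mul]

end fk93

end Fermat.Agent.S35
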