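import Fermat.Agent.S35.FrobKron93
import Fermat.Agent.S34.FrameLSAsm71
import Fermat.Agent.S34.InertiaIface87
import Fermat.Agent.S34.FrameGal87

/-!
# S35 lab (helper93), step (1e): `w ∘ ŝ` fixes every node — "`w = ŝ⁻¹` on nodes"

Canonical frame of the S34 lab at level `M' * q` (`q` prime, `q ∤ M'`): `V_∞ = cm85_Vinf`,
`w = al97L_w`, `V_0 = s34i47c_V0`, charts `B = pk15_chart R {h}`, `pk15_chart R {h⁻¹}` of an
admissible Hauptmodul.  A *Frobenius lift* is an automorphism `σ` of `K` restricting to an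
endomorphism `σR` of `R` with `σR r ≡ r ^ q mod π`; `ŝ = s34i47_coeffEquiv σ _` is its
coefficientwise action.

* `fn93_fix_node` (abstract, Mathlib + `SpecFibre79`): `g : F →+* F`, `B = A + (B ∩ π V₁)` with
  `g a ≡ a ^ q mod π V₁` on `A`, `g (B ∩ π V₁) ⊆ B ∩ π V₂`; then at every prime `n` of `B`
  containing both branches: `g y ∈ n ↔ y ∈ n`.
* `fn93_kron_inf` : `π⁻¹ (β (ŝ x) - (α x) ^ q) ∈ V_∞` for `x ∈ V'` (explicit Kronecker congruence
  for the Frobenius lift).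
* `fn93_coeff_alg`, `fn93_coeff_mem_Vinf`, `fn93_coeff_pi_mem` : `ŝ` on `R`, on `V_∞`, on `π V_∞`.
* `fn93_node_chart`, `fn93_node` : on the canonical charts, for every prime `n` containing both
  branches (a node): `w (ŝ y) ∈ n ↔ y ∈ n` and `ŝ y ∈ n ↔ w y ∈ n`, i.e. `ŝ⁻¹ n = w n`.
-/

set_option autoImplicit false
set_option linter.unusedSectionVars false
set_option linter.style.haveILetI false

open ModularCurve

namespace Fermat.Agent.S35

open Fermat.Agent.S18 Fermat.Agent.S24 Fermat.Agent.S34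

local notation "Q̄" => AlgebraicClosure ℚ

section fn93_abs

variable {R F : Type*} [CommRing R] [Field F] [Algebra R F]

/-- **Abstract (1e).**  `g` a ring endomorphism of `F`; every `y ∈ B` is `a + p` with
`π⁻¹ p ∈ V₁`, `g a ∈ B` and `g a ≡ a ^ q mod π V₁`; `g` maps `B ∩ π V₁` into `B ∩ π V₂`.
Then `g` fixes every prime of `B` containing both branches: `g y ∈ n ↔ y ∈ n`. -/
theorem fn93_fix_node (π : R) (B : Subalgebra R F) (V₁ V₂ : Subring F) (g : F →+* F) (q : ℕ)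
    (hq : q ≠ 0)
    (h1 : ∀ y ∈ B, ∃ a ∈ B, (algebraMap R F π)⁻¹ * (y - a) ∈ V₁ ∧ g a ∈ B ∧
      (algebraMap R F π)⁻¹ * (g a - a ^ q) ∈ V₁)
    (h2 : ∀ p ∈ B, (algebraMap R F π)⁻¹ * p ∈ V₁ → g p ∈ B ∧ (algebraMap R F π)⁻¹ * g p ∈ V₂)
    (n : Ideal B) (hn : n.IsPrime) (hn₁ : sf79_OnBr π B V₁ n) (hn₂ : sf79_OnBr π B V₂ n)
    (y z : B) (hz : (z : F) = g (y : F)) : z ∈ n ↔ y ∈ n := by
  obtain ⟨a, ha, hya, hga, hkr⟩ := h1 y y.2
  obtain ⟨hgp, hgp2⟩ := h2 ((y : F) - a) (B.sub_mem y.2 ha) hya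
  -- `p = y - a ∈ n`
  have hp : y - ⟨a, ha⟩ ∈ n := hn₁ (y - ⟨a, ha⟩) hya
  -- `g p ∈ n`
  have hgpn : (⟨g ((y : F) - a), hgp⟩ : B) ∈ n := hn₂ ⟨g ((y : F) - a), hgp⟩ hgp2
  -- `g a - a ^ q ∈ n`
  have hkn : (⟨g a, hga⟩ : B) - ⟨a, ha⟩ ^ q ∈ n := hn₁ (⟨g a, hga⟩ - ⟨a, ha⟩ ^ q) hkr
  have hzsum : z = ⟨g a, hga⟩ + ⟨g ((y : F) - a), hgp⟩ := by
    apply Subtype.ext
    show (z : F) = g a + g ((y : F) - a)
    rw [hz, ← map_add]
    congr 1
    ring
  have e1 : z ∈ n ↔ (⟨g a, hga⟩ : B) ∈ n := by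
    rw [hzsum]
    exact ⟨fun h => (Ideal.add_mem_iff_left n hgpn).mp h, fun h => n.add_mem h hgpn⟩
  have e2 : (⟨g a, hga⟩ : B) ∈ n ↔ (⟨a, ha⟩ : B) ^ q ∈ n := by
    constructor
    · intro h
      have h3 := n.sub_mem h hkn
      rwa [sub_sub_cancel] at h3
    · intro h
      have h3 := n.add_mem hkn h
      rwa [sub_add_cancel] at h3
  have e3 : (⟨a, ha⟩ : B) ^ q ∈ n ↔ (⟨a, ha⟩ : B) ∈ n :=
    ⟨fun h => hn.mem_of_pow_mem q h, fun h => Ideal.pow_mem_of_mem n h q (Nat.pos_of_ne_zero hq)⟩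
  have e4 : (⟨a, ha⟩ : B) ∈ n ↔ y ∈ n := by
    constructor
    · intro h
      have h3 := n.add_mem hp h
      rwa [sub_add_cancel] at h3
    · intro h
      have h3 := n.sub_mem h hp
      rwa [sub_sub_cancel] at h3
  exact e1.trans (e2.trans (e3.trans e4))

end fn93_abs

section fn93_canon

variable {R K : Type} [CommRing R] [IsDomain R] [IsDiscreteValuationRing R] [Field K] [CharZero K]
  [Algebra R K] [IsFractionRing R K]

/-- A Frobenius lift reflects divisibility by `π`. -/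
theorem fn93_loc {π : R} (hπ : Irreducible π) (q : ℕ) (σR : R →+* R)
    (hfr : ∀ r, π ∣ σR r - r ^ q) (r : R) (h : π ∣ σR r) : π ∣ r := by
  have h1 : π ∣ r ^ q := by
    have h2 := dvd_sub h (hfr r)
    rwa [sub_sub_cancel] at h2
  exact hπ.prime.dvd_of_dvd_pow h1

/-- A Frobenius lift maps `π` into `(π)`. -/
theorem fn93_pi_dvd {π : R} (q : ℕ) (hq : q ≠ 0) (σR : R →+* R)
    (hfr : ∀ r, π ∣ σR r - r ^ q) : π ∣ σR π := by
  have h1 : π ∣ π ^ q := dvd_pow_self π hq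
  have h2 := dvd_add (hfr π) h1
  rwa [sub_add_cancel] at h2

variable (M : ℕ) [NeZero M] [Algebra R ↥(modularFunctionFieldFullC K M)]
  [IsScalarTower R K ↥(modularFunctionFieldFullC K M)]

/-- The coefficientwise action of `σ` on the image of `R`. -/
theorem fn93_coeff_alg (σ : K ≃+* K) (σR : R →+* R)
    (hσ : ∀ r, algebraMap R K (σR r) = σ (algebraMap R K r)) (r : R) :
    s34i47_coeffEquiv σ M (algebraMap R ↥(modularFunctionFieldFullC K M) r) =
      algebraMap R ↥(modularFunctionFieldFullC K M) (σR r) := by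
  rw [IsScalarTower.algebraMap_apply R K ↥(modularFunctionFieldFullC K M),
    al97V_coeffEquiv_algebraMap, ← hσ,
    ← IsScalarTower.algebraMap_apply R K ↥(modularFunctionFieldFullC K M)]

/-- `ŝ V_∞ ⊆ V_∞` for a Frobenius lift. -/
theorem fn93_coeff_mem_Vinf {π : R} (hπ : Irreducible π) (q : ℕ) (σ : K ≃+* K) (σR : R →+* R)
    (hσ : ∀ r, algebraMap R K (σR r) = σ (algebraMap R K r))
    (hfr : ∀ r, π ∣ σR r - r ^ q)
    (x : ↥(modularFunctionFieldFullC K M)) (hx : x ∈ cm85_Vinf (K := K) M hπ) :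
    s34i47_coeffEquiv σ M x ∈ cm85_Vinf (K := K) M hπ := by
  rw [in87i_coeffEquiv_eq]
  exact in87_mem_V M hπ σ σR hσ (fun r h => fn93_loc hπ q σR hfr r h) x hx

/-- `ŝ (π V_∞) ⊆ π V_∞` for a Frobenius lift. -/
theorem fn93_coeff_pi_mem {π : R} (hπ : Irreducible π) (q : ℕ) (hq : q ≠ 0) (σ : K ≃+* K)
    (σR : R →+* R) (hσ : ∀ r, algebraMap R K (σR r) = σ (algebraMap R K r))
    (hfr : ∀ r, π ∣ σR r - r ^ q)
    (x : ↥(modularFunctionFieldFullC K M))
    (hx : (algebraMap R ↥(modularFunctionFieldFullC K M) π)⁻¹ * x ∈ cm85_Vinf (K := K) M hπ) :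
    (algebraMap R ↥(modularFunctionFieldFullC K M) π)⁻¹ * s34i47_coeffEquiv σ M x ∈
      cm85_Vinf (K := K) M hπ := by
  have h1 := fn93_coeff_mem_Vinf (K := K) M hπ q σ σR hσ hfr _ hx
  rw [map_mul, map_inv₀, fn93_coeff_alg (K := K) M σ σR hσ] at h1
  obtain ⟨u, hu⟩ := fn93_pi_dvd (π := π) q hq σR hfr
  have hπF : algebraMap R ↥(modularFunctionFieldFullC K M) π ≠ 0 := by
    rw [IsScalarTower.algebraMap_apply R K ↥(modularFunctionFieldFullC K M)]
    intro h0
    have h2 := (map_eq_zero (algebraMap K ↥(modularFunctionFieldFullC K M))).mp h0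
    exact hπ.ne_zero (IsFractionRing.injective R K (by rw [h2, map_zero]))
  by_cases hσπ : σR π = 0
  · -- then `ŝ x = 0`
    have h3 : s34i47_coeffEquiv σ M (algebraMap R ↥(modularFunctionFieldFullC K M) π) = 0 := by
      rw [fn93_coeff_alg (K := K) M σ σR hσ, hσπ, map_zero]
    exact absurd ((map_eq_zero_iff _ (s34i47_coeffEquiv σ M).injective).mp h3) hπF
  have hσπF : algebraMap R ↥(modularFunctionFieldFullC K M) (σR π) ≠ 0 := by
    rw [← fn93_coeff_alg (K := K) M σ σR hσ]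
    exact fun h0 => hπF ((map_eq_zero_iff _ (s34i47_coeffEquiv σ M).injective).mp h0)
  have h4 : (algebraMap R ↥(modularFunctionFieldFullC K M) π)⁻¹ * s34i47_coeffEquiv σ M x =
      algebraMap R ↥(modularFunctionFieldFullC K M) u *
        ((algebraMap R ↥(modularFunctionFieldFullC K M) (σR π))⁻¹ * s34i47_coeffEquiv σ M x) := by
    have h5 : algebraMap R ↥(modularFunctionFieldFullC K M) (σR π) =
        algebraMap R ↥(modularFunctionFieldFullC K M) π *
          algebraMap R ↥(modularFunctionFieldFullC K M) u := by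
      rw [← map_mul, ← hu]
    have hu0 : algebraMap R ↥(modularFunctionFieldFullC K M) u ≠ 0 := by
      intro h0
      rw [h5, h0, mul_zero] at hσπF
      exact hσπF rfl
    rw [h5, mul_inv]
    field_simp
  rw [h4]
  exact (cm85_Vinf (K := K) M hπ).mul_mem _ _ (pk85_hRV M hπ u) h1

end fn93_canon

section fn93_inst

variable {R K : Type} [CommRing R] [IsDomain R] [IsDiscreteValuationRing R] [Field K] [CharZero K]
  [Algebra R K] [IsFractionRing R K] [Algebra K Q̄]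
  (M' q : ℕ) [NeZero M'] [NeZero q] (hq : q.Prime) (hM' : ¬ q ∣ M')
  [Algebra R ↥(modularFunctionFieldFullC K M')]
  [IsScalarTower R K ↥(modularFunctionFieldFullC K M')]
  [Algebra R ↥(modularFunctionFieldFullC K (M' * q))]
  [IsScalarTower R K ↥(modularFunctionFieldFullC K (M' * q))]

/-- `ŝ` commutes with `α`. -/
theorem fn93_coeff_alpha (σ : K ≃+* K) (x : ↥(modularFunctionFieldFullC K M')) :
    s34i47_coeffEquiv σ (M' * q) (al97L_alpha K M' q x) =
      al97L_alpha K M' q (s34i47_coeffEquiv σ M' x) := by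
  apply Subtype.ext
  rw [s34i47_coeffEquiv_coe, al97L_alpha_coe, al97L_alpha_coe, s34i47_coeffEquiv_coe]

include hq in
/-- **Kronecker congruence for a Frobenius lift**: `β (ŝ x) ≡ (α x) ^ q` modulo `π V_∞`, for
`x` in the Gauss valuation ring `V'` of level `M'`. -/
theorem fn93_kron_inf {π : R} (hπ : Irreducible π) (hqR : ¬ IsUnit (q : R))
    (σ : K ≃+* K) (σR : R →+* R)
    (hσ : ∀ r, algebraMap R K (σR r) = σ (algebraMap R K r))
    (hfr : ∀ r, π ∣ σR r - r ^ q)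
    (x : ↥(modularFunctionFieldFullC K M')) (hx : x ∈ cm85_Vinf (K := K) M' hπ) :
    (algebraMap R ↥(modularFunctionFieldFullC K (M' * q)) π)⁻¹ *
        (al97L_beta K M' q (s34i47_coeffEquiv σ M' x) - al97L_alpha K M' q x ^ q) ∈
      cm85_Vinf (K := K) (M' * q) hπ := by
  have hchar : (q : IsLocalRing.ResidueField R) = 0 := by
    have h1 : IsLocalRing.residue R (q : R) = 0 :=
      (IsLocalRing.residue_eq_zero_iff _).mpr ((IsLocalRing.mem_maximalIdeal _).mpr hqR)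
    rwa [map_natCast] at h1
  haveI : CharP (IsLocalRing.ResidueField R) q := (CharP.charP_iff_prime_eq_zero hq).mpr hchar
  haveI : Fact q.Prime := ⟨hq⟩
  haveI : ExpChar (IsLocalRing.ResidueField R) q := ExpChar.prime hq
  have hx' : al97L_alpha K M' q x ∈ cm85_Vinf (K := K) (M' * q) hπ :=
    (bi93_incl_mem_iff (K := K) M' (M' * q) (dvd_mul_right M' q) hπ x).mpr hx
  rw [IsScalarTower.algebraMap_apply R K ↥(modularFunctionFieldFullC K (M' * q))]
  refine fk93_gv_frob (IsLocalRing.residue R) π (pk85_res_iff hπ) hπ.ne_zero q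
    (modularFunctionFieldFullC K (M' * q)) (pk85_HF K (M' * q) hπ) (σ : K →+* K) σR hσ hfr
    (al97L_alpha K M' q x) (al97L_beta K M' q (s34i47_coeffEquiv σ M' x)) ?_ hx'
  rw [al97L_beta_coe, s34i47_coeffEquiv_coe, al97L_alpha_coe]

variable [Algebra.IsAlgebraic K Q̄]

include hq hM' in
/-- **(1e) on one chart** `B = pk15_chart R s` of level `M' * q` lying over the chart
`B' = pk15_chart R s'` of level `M'`. -/
theorem fn93_node_chart {π : R} (hπ : Irreducible π) (hqR : ¬ IsUnit (q : R))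
    (σ : K ≃+* K) (σR : R →+* R)
    (hσ : ∀ r, algebraMap R K (σR r) = σ (algebraMap R K r))
    (hfr : ∀ r, π ∣ σR r - r ^ q)
    (s' : Set ↥(modularFunctionFieldFullC K M'))
    (s : Set ↥(modularFunctionFieldFullC K (M' * q)))
    (hs'V : ∀ g ∈ s', g ∈ cm85_Vinf (K := K) M' hπ)
    (hαB : ∀ x ∈ pk15_chart R s', al97L_alpha K M' q x ∈ pk15_chart R s)
    (hwB : ∀ z : ↥(modularFunctionFieldFullC K (M' * q)),
      bz13_w M' q hq hM' z ∈ pk15_chart R s ↔ z ∈ pk15_chart R s)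
    (hsB : ∀ z ∈ pk15_chart R s, s34i47_coeffEquiv σ (M' * q) z ∈ pk15_chart R s)
    (hsurj : bi93_Surj (K := K) M' (M' * q) (dvd_mul_right M' q) hπ s' s)
    (n : Ideal ↥(pk15_chart R s)) (hn : n.IsPrime)
    (hn₁ : sf79_OnBr π (pk15_chart R s) (cm85_Vinf (K := K) (M' * q) hπ).toSubring n)
    (hn₂ : sf79_OnBr π (pk15_chart R s) (s34i47c_V0 (K := K) M' q hq hM' hπ).toSubring n) :
    (∀ y z : ↥(pk15_chart R s),
      (z : ↥(modularFunctionFieldFullC K (M' * q))) =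
        al97L_w (algebraMap K Q̄) M' q hq hM' (s34i47_coeffEquiv σ (M' * q)
          (y : ↥(modularFunctionFieldFullC K (M' * q)))) → (z ∈ n ↔ y ∈ n)) ∧
    (∀ y z₁ z₂ : ↥(pk15_chart R s),
      (z₁ : ↥(modularFunctionFieldFullC K (M' * q))) =
        s34i47_coeffEquiv σ (M' * q) (y : ↥(modularFunctionFieldFullC K (M' * q))) →
      (z₂ : ↥(modularFunctionFieldFullC K (M' * q))) =
        al97L_w (algebraMap K Q̄) M' q hq hM' (y : ↥(modularFunctionFieldFullC K (M' * q))) →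
      (z₁ ∈ n ↔ z₂ ∈ n)) := by
  set g : ↥(modularFunctionFieldFullC K (M' * q)) →+* ↥(modularFunctionFieldFullC K (M' * q)) :=
    ((bz13_w (K := K) M' q hq hM' : ↥(modularFunctionFieldFullC K (M' * q)) ≃+*
        ↥(modularFunctionFieldFullC K (M' * q))) :
      ↥(modularFunctionFieldFullC K (M' * q)) →+* ↥(modularFunctionFieldFullC K (M' * q))).comp
    ((s34i47_coeffEquiv σ (M' * q) : ↥(modularFunctionFieldFullC K (M' * q)) ≃+*
        ↥(modularFunctionFieldFullC K (M' * q))) :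
      ↥(modularFunctionFieldFullC K (M' * q)) →+* ↥(modularFunctionFieldFullC K (M' * q)))
    with hg
  have hgap : ∀ x : ↥(modularFunctionFieldFullC K (M' * q)),
      g x = al97L_w (algebraMap K Q̄) M' q hq hM' (s34i47_coeffEquiv σ (M' * q) x) :=
    fun x => rfl
  have hgB : ∀ x ∈ pk15_chart R s, g x ∈ pk15_chart R s := fun x hx =>
    (hwB _).mpr (hsB x hx)
  have hB'V' : ∀ x ∈ pk15_chart R s', x ∈ cm85_Vinf (K := K) M' hπ :=
    fun x hx => pk15_chart_le_V (cm85_Vinf (K := K) M' hπ) (pk85_hRV M' hπ) s' hs'V x hx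
  have h1 : ∀ y ∈ pk15_chart R s, ∃ a ∈ pk15_chart R s,
      (algebraMap R ↥(modularFunctionFieldFullC K (M' * q)) π)⁻¹ * (y - a) ∈
        (cm85_Vinf (K := K) (M' * q) hπ).toSubring ∧ g a ∈ pk15_chart R s ∧
      (algebraMap R ↥(modularFunctionFieldFullC K (M' * q)) π)⁻¹ * (g a - a ^ q) ∈
        (cm85_Vinf (K := K) (M' * q) hπ).toSubring := by
    intro y hy
    obtain ⟨x', hx', hyx'⟩ := hsurj y hy
    refine ⟨al97L_alpha K M' q x', hαB x' hx', hyx', hgB _ (hαB x' hx'), ?_⟩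
    have e : g (al97L_alpha K M' q x') = al97L_beta K M' q (s34i47_coeffEquiv σ M' x') := by
      rw [hgap, fn93_coeff_alpha, al97L_w_alpha_apply]
    rw [e]
    exact fn93_kron_inf (K := K) M' q hq hπ hqR σ σR hσ hfr x' (hB'V' x' hx')
  have h2 : ∀ p ∈ pk15_chart R s,
      (algebraMap R ↥(modularFunctionFieldFullC K (M' * q)) π)⁻¹ * p ∈
        (cm85_Vinf (K := K) (M' * q) hπ).toSubring →
      g p ∈ pk15_chart R s ∧
        (algebraMap R ↥(modularFunctionFieldFullC K (M' * q)) π)⁻¹ * g p ∈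
          (s34i47c_V0 (K := K) M' q hq hM' hπ).toSubring := by
    intro p hp hpV
    refine ⟨hgB p hp, ?_⟩
    show (algebraMap R ↥(modularFunctionFieldFullC K (M' * q)) π)⁻¹ * g p ∈
      s34i47c_V0 (K := K) M' q hq hM' hπ
    rw [s34i47c_mem_V0, map_mul, map_inv₀,
      IsScalarTower.algebraMap_apply R K ↥(modularFunctionFieldFullC K (M' * q)),
      AlgEquiv.commutes,
      ← IsScalarTower.algebraMap_apply R K ↥(modularFunctionFieldFullC K (M' * q)), hgap,
      al97L_w_w]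
    exact fn93_coeff_pi_mem (K := K) (M' * q) hπ q hq.ne_zero σ σR hσ hfr p hpV
  have key : ∀ y z : ↥(pk15_chart R s),
      (z : ↥(modularFunctionFieldFullC K (M' * q))) =
        al97L_w (algebraMap K Q̄) M' q hq hM' (s34i47_coeffEquiv σ (M' * q)
          (y : ↥(modularFunctionFieldFullC K (M' * q)))) → (z ∈ n ↔ y ∈ n) :=
    fun y z hz => fn93_fix_node π (pk15_chart R s) _ _ g q hq.ne_zero h1 h2 n hn hn₁ hn₂ y z hz
  refine ⟨key, fun y z₁ z₂ hz₁ hz₂ => key z₂ z₁ ?_⟩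
  have hcomm : al97L_w (algebraMap K Q̄) M' q hq hM' (s34i47_coeffEquiv σ (M' * q)
      (al97L_w (algebraMap K Q̄) M' q hq hM' (y : ↥(modularFunctionFieldFullC K (M' * q))))) =
      s34i47_coeffEquiv σ (M' * q) (al97L_w (algebraMap K Q̄) M' q hq hM'
        (al97L_w (algebraMap K Q̄) M' q hq hM' (y : ↥(modularFunctionFieldFullC K (M' * q))))) :=
    al97V_w_coeffEquiv (algebraMap K Q̄) M' q hq hM' σ _
  rw [hz₁, hz₂, hcomm, al97L_w_w]

/-- **`w ∘ s` fixes the nodes of the chart `B`** (`V₁`, `V₂` the two branches): at every prime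
`n` of `B` containing both branches, `w (s y) ∈ n ↔ y ∈ n` and `s y ∈ n ↔ w y ∈ n`
(`s⁻¹ n = w⁻¹ n`). -/
def fn93_NodeFix {R F : Type*} [CommRing R] [Field F] [Algebra R F] (π : R) (B : Subalgebra R F)
    (V₁ V₂ : Subring F) (s w : F → F) : Prop :=
  ∀ n : Ideal B, n.IsPrime → sf79_OnBr π B V₁ n → sf79_OnBr π B V₂ n →
    (∀ y z : B, (z : F) = w (s (y : F)) → (z ∈ n ↔ y ∈ n)) ∧
    (∀ y z₁ z₂ : B, (z₁ : F) = s (y : F) → (z₂ : F) = w (y : F) → (z₁ ∈ n ↔ z₂ ∈ n))

include hq hM' in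
/-- **(1e) on the canonical frame**: for a Frobenius lift `σ` (restricting to `σR` on `R`,
`σR r ≡ r ^ q mod π`), the automorphism `w ∘ ŝ` fixes every node of both affine charts of every
admissible Hauptmodul; equivalently `ŝ⁻¹ n = w n` at every node `n`. -/
theorem fn93_node {π : R} (hπ : Irreducible π)
    (hunit : ∀ n : ℕ, Nat.Coprime n q → IsUnit (n : R)) (hqR : ¬ IsUnit (q : R))
    (σ : K ≃+* K) (σR : R →+* R)
    (hσ : ∀ r, algebraMap R K (σR r) = σ (algebraMap R K r))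
    (hfr : ∀ r, π ∣ σR r - r ^ q)
    (h : ↥(modularFunctionFieldFullC K (M' * q))) (hh : s34i47c_IsHaupt K (M' * q) q h) :
    fn93_NodeFix π (pk15_chart R ({h} : Set ↥(modularFunctionFieldFullC K (M' * q))))
        (cm85_Vinf (K := K) (M' * q) hπ).toSubring
        (s34i47c_V0 (K := K) M' q hq hM' hπ).toSubring
        (s34i47_coeffEquiv σ (M' * q)) (al97L_w (algebraMap K Q̄) M' q hq hM') ∧
      fn93_NodeFix π (pk15_chart R ({h⁻¹} : Set ↥(modularFunctionFieldFullC K (M' * q))))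
        (cm85_Vinf (K := K) (M' * q) hπ).toSubring
        (s34i47c_V0 (K := K) M' q hq hM' hπ).toSubring
        (s34i47_coeffEquiv σ (M' * q)) (al97L_w (algebraMap K Q̄) M' q hq hM') := by
  have hdvd : M' ∣ M' * q := dvd_mul_right M' q
  have hMu : IsUnit (M' : R) := hunit M' ((Nat.Prime.coprime_iff_not_dvd hq).mpr hM').symm
  have hf1 := fl71_F1 (R := R) (K := K) M' q hq hM' hπ hqR
  obtain ⟨hw₁, hw₂, -⟩ := bz13_charts_stable (R := R) M' q hq hM' hunit h hh
  have hR : ∀ r : R, ∃ r' : R,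
      s34i47_coeffEquiv σ (M' * q) (algebraMap R ↥(modularFunctionFieldFullC K (M' * q)) r) =
        algebraMap R ↥(modularFunctionFieldFullC K (M' * q)) r' :=
    fun r => ⟨σR r, fn93_coeff_alg (K := K) (M' * q) σ σR hσ r⟩
  rcases hh with ⟨hq2, h2, rfl⟩ | ⟨hq3, h3, rfl⟩
  · have h2' : 2 ∣ M' :=
      ((Nat.coprime_primes Nat.prime_two hq).mpr (Ne.symm hq2)).dvd_of_dvd_mul_right h2
    obtain ⟨-, -, -, -, hhV, hhV', -⟩ := cm85_facts_level2 (R := R) (K := K) M' hπ h2'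
    obtain ⟨⟨hSj₁, -⟩, ⟨hSj₂, -⟩⟩ :=
      bi93_level2 (R := R) (K := K) M' (M' * q) hdvd hπ h2' hMu hf1
    obtain ⟨hs₁, hs₂, -⟩ := in87i_chart_mem_haupt (R := R) (s34i47_coeffEquiv σ (M' * q)) hR
      (pk85_h2 K (M' * q) h2) (cm15_coeffEquiv_h2 (M' * q) σ h2)
    have hhe : al97L_alpha K M' q (pk85_h2 K M' h2') = pk85_h2 K (M' * q) h2 :=
      Subtype.ext (by rw [al97L_alpha_coe, pk85_h2_coe, pk85_h2_coe])
    have hα₁ : ∀ x ∈ pk15_chart R ({pk85_h2 K M' h2'} : Set ↥(modularFunctionFieldFullC K M')),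
        al97L_alpha K M' q x ∈
          pk15_chart R ({pk85_h2 K (M' * q) h2} : Set ↥(modularFunctionFieldFullC K (M' * q))) := by
      intro x hx
      have h1 := fl71_alpha_chart (R := R) (K := K) M' q _ x hx
      rwa [Set.image_singleton, hhe] at h1
    have hα₂ : ∀ x ∈ pk15_chart R ({(pk85_h2 K M' h2')⁻¹} : Set ↥(modularFunctionFieldFullC K M')),
        al97L_alpha K M' q x ∈
          pk15_chart R ({(pk85_h2 K (M' * q) h2)⁻¹} :
            Set ↥(modularFunctionFieldFullC K (M' * q))) := by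
      intro x hx
      have h1 := fl71_alpha_chart (R := R) (K := K) M' q _ x hx
      rwa [Set.image_singleton, map_inv₀, hhe] at h1
    exact ⟨fun n hn hn₁ hn₂ => fn93_node_chart (K := K) M' q hq hM' hπ hqR σ σR hσ hfr _ _
        (fun g hg => by rw [Set.mem_singleton_iff.mp hg]; exact hhV) hα₁ hw₁ hs₁ hSj₁ n hn hn₁ hn₂,
      fun n hn hn₁ hn₂ => fn93_node_chart (K := K) M' q hq hM' hπ hqR σ σR hσ hfr _ _
        (fun g hg => by rw [Set.mem_singleton_iff.mp hg]; exact hhV') hα₂ hw₂ hs₂ hSj₂ n hn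
        hn₁ hn₂⟩
  · have h3' : 3 ∣ M' :=
      ((Nat.coprime_primes Nat.prime_three hq).mpr (Ne.symm hq3)).dvd_of_dvd_mul_right h3
    obtain ⟨-, -, -, -, hhV, hhV', -⟩ := cm85_facts_level3 (R := R) (K := K) M' hπ h3'
    obtain ⟨⟨hSj₁, -⟩, ⟨hSj₂, -⟩⟩ :=
      bi93_level3 (R := R) (K := K) M' (M' * q) hdvd hπ h3' hMu hf1
    obtain ⟨hs₁, hs₂, -⟩ := in87i_chart_mem_haupt (R := R) (s34i47_coeffEquiv σ (M' * q)) hR
      (pk85_h3 K (M' * q) h3) (cm15_coeffEquiv_h3 (M' * q) σ h3)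
    have hhe : al97L_alpha K M' q (pk85_h3 K M' h3') = pk85_h3 K (M' * q) h3 :=
      Subtype.ext (by rw [al97L_alpha_coe, pk85_h3_coe, pk85_h3_coe])
    have hα₁ : ∀ x ∈ pk15_chart R ({pk85_h3 K M' h3'} : Set ↥(modularFunctionFieldFullC K M')),
        al97L_alpha K M' q x ∈
          pk15_chart R ({pk85_h3 K (M' * q) h3} : Set ↥(modularFunctionFieldFullC K (M' * q))) := by
      intro x hx
      have h1 := fl71_alpha_chart (R := R) (K := K) M' q _ x hx
      rwa [Set.image_singleton, hhe] at h1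
    have hα₂ : ∀ x ∈ pk15_chart R ({(pk85_h3 K M' h3')⁻¹} : Set ↥(modularFunctionFieldFullC K M')),
        al97L_alpha K M' q x ∈
          pk15_chart R ({(pk85_h3 K (M' * q) h3)⁻¹} :
            Set ↥(modularFunctionFieldFullC K (M' * q))) := by
      intro x hx
      have h1 := fl71_alpha_chart (R := R) (K := K) M' q _ x hx
      rwa [Set.image_singleton, map_inv₀, hhe] at h1
    exact ⟨fun n hn hn₁ hn₂ => fn93_node_chart (K := K) M' q hq hM' hπ hqR σ σR hσ hfr _ _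
        (fun g hg => by rw [Set.mem_singleton_iff.mp hg]; exact hhV) hα₁ hw₁ hs₁ hSj₁ n hn hn₁ hn₂,
      fun n hn hn₁ hn₂ => fn93_node_chart (K := K) M' q hq hM' hπ hqR σ σR hσ hfr _ _
        (fun g hg => by rw [Set.mem_singleton_iff.mp hg]; exact hhV') hα₂ hw₂ hs₂ hSj₂ n hn
        hn₁ hn₂⟩

end fn93_inst

end Fermat.Agent.S35
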