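import Mathlib
import Fermat.Agent.S35.FrobFrame50
import Fermat.Agent.S34.ResDeg90
import Fermat.Agent.S34.AtkinLehnerCanon97

/-!
# S35 lab (helper50): the two reduction maps of the canonical frame, step (1a), second half

Canonical frame of `Iface47c` at level `M' q` (`q ∤ M'`): `V_∞ = cm85_Vinf (M' q) hπ`,
`w = al97L_w`, `V_0 = s34i47c_V0`, `W = s34i47c_W = V_∞ ⊓ V_0`; `V' = cm85_Vinf M' hπ`;
`κ = ResidueField R`.

* `fr50_red (K := K) M hπ : V_∞(M) →+* κ((Q))` : the reduction of the Gauss ring at any level (helper84's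
  `tv84_red` restricted to `F_K(M)`); kernel `π V_∞` (`fr50_red_eq_zero_iff`);
* `fr50_rInf, fr50_rZero : W →+* κ((Q))` : **`red_∞`** and **`red_0 = red_∞ ∘ w`** on `W`;
  `fr50_rInf_eq_zero_iff`, `fr50_rZero_eq_zero_iff`, `fr50_ker` (both vanish iff `x ∈ π W`);
* `fr50_rInf_alpha`, `fr50_rInf_beta`, `fr50_rZero_alpha`, `fr50_rZero_beta` :
  `red_∞ (α h) = red' h`, `red_∞ (β h) = E (red' h)`, `red_0 (β h) = red' h`,
  `red_0 (α h) = E (red' h)` (`E = qExpand κ q`, `Q ↦ Q^q`);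
* `fr50_E_sb` : `E (sb g) = g ^ q` (`sb = coeffMap (frobenius κ q)`);
* `fr50_red_frob`, `fr50_rInf_frob`, `fr50_rZero_frob` : for a Frobenius lift `σ`,
  `red (σ̂ x) = sb (red x)` on `V'`, and `red_∞ (σ̂ x) = sb (red_∞ x)`,
  `red_0 (σ̂ x) = sb (red_0 x)` on `W`;
* `fr50_rInf_res`, `fr50_rZero_res` : residue degree one on both branches:
  `red_∞ (W) ⊆ red' (V')`, `red_0 (W) ⊆ red' (V')`;
* `fr50_rZero_pow` : `red_0 (x) ^ q = red_0 (α a)` for some `a ∈ V'` (pure inseparability along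
  `α` on the `0`-branch), `fr50_rInf_pow` : `red_∞ (x) ^ q = red_∞ (β a)`;
* `fr50_red_C` : `red (r) = C (res r)` for constants `r ∈ R`;
* `fr50_unit_of_red_ne_zero` : `x ∈ V_∞`, `red x ≠ 0` ⟹ `x⁻¹ ∈ V_∞`;
* `fr50_red_eq_of_sub_mem` : `x ≡ y` modulo `π V_∞` ⟹ `red x = red y`.

PERFORMANCE NOTE for users: always write `fr50_red (K := K) M hπ`, `fr50_rInf (K := K) ..`,
`fr50_rZero (K := K) ..` — the field `K` is not determined by the explicit arguments, and
leaving it to later unification costs seconds of stuck instance problems per application.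
-/

set_option autoImplicit false
set_option linter.unusedSectionVars false
set_option linter.style.haveILetI false

open ModularCurve IntermediateField

namespace Fermat.Agent.S35

open Fermat.Agent.S18 Fermat.Agent.S34 Fermat.Agent.S37

local notation "Q̄" => AlgebraicClosure ℚ

/-! ## 1. The reduction of the Gauss ring at one level -/

section Red

variable {R K : Type} [CommRing R] [IsDomain R] [IsDiscreteValuationRing R] [Field K]
  [Algebra R K] [IsFractionRing R K] (M : ℕ) [NeZero M]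

/-- `V_∞(M) → G`, the inclusion of the Gauss ring of `F_K(M)` into the Gauss-integral series. -/
noncomputable def fr50_toG {π : R} (hπ : Irreducible π) :
    ↥(cm85_Vinf (K := K) M hπ) →+* ↥(tv84_G K (IsLocalRing.residue R)) :=
  (((modularFunctionFieldFullC K M).val :
      ↥(modularFunctionFieldFullC K M) →+* LaurentSeries K).comp
    (cm85_Vinf (K := K) M hπ).subtype).codRestrict (tv84_G K (IsLocalRing.residue R))
      (fun x => x.2)

/-- **The reduction** `red : V_∞(M) →+* κ((Q))`. -/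
noncomputable def fr50_red {π : R} (hπ : Irreducible π) :
    ↥(cm85_Vinf (K := K) M hπ) →+* LaurentSeries (IsLocalRing.ResidueField R) :=
  (tv84_red (IsLocalRing.residue R)).comp (fr50_toG (K := K) M hπ)

theorem fr50_red_apply {π : R} (hπ : Irreducible π) (x : ↥(cm85_Vinf (K := K) M hπ)) :
    fr50_red (K := K) M hπ x = tv84_red (IsLocalRing.residue R)
      ⟨((x : ↥(modularFunctionFieldFullC K M)) : LaurentSeries K), x.2⟩ := rfl

theorem fr50_red_congr {π : R} (hπ : Irreducible π) {x y : ↥(modularFunctionFieldFullC K M)}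
    (h : x = y) (hx : x ∈ cm85_Vinf (K := K) M hπ) (hy : y ∈ cm85_Vinf (K := K) M hπ) :
    fr50_red (K := K) M hπ ⟨x, hx⟩ = fr50_red (K := K) M hπ ⟨y, hy⟩ := by
  subst h
  rfl

/-- Two elements of `V_∞` congruent modulo `π V_∞` have the same reduction. -/
theorem fr50_red_eq_of_sub_mem {π : R} (hπ : Irreducible π)
    {x y : ↥(modularFunctionFieldFullC K M)}
    (hx : x ∈ cm85_Vinf (K := K) M hπ) (hy : y ∈ cm85_Vinf (K := K) M hπ)
    (h : (algebraMap K ↥(modularFunctionFieldFullC K M) (algebraMap R K π))⁻¹ * (x - y) ∈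
      cm85_Vinf (K := K) M hπ) :
    fr50_red (K := K) M hπ ⟨x, hx⟩ = fr50_red (K := K) M hπ ⟨y, hy⟩ := by
  have hxy : (x : LaurentSeries K) - (y : LaurentSeries K) ∈ tv84_G K (IsLocalRing.residue R) :=
    Subring.sub_mem _ hx hy
  have h' : (HahnSeries.C (algebraMap R K π))⁻¹ * ((x : LaurentSeries K) - (y : LaurentSeries K)) ∈
      tv84_G K (IsLocalRing.residue R) := by
    have h2 : ((((algebraMap K ↥(modularFunctionFieldFullC K M) (algebraMap R K π))⁻¹ * (x - y) :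
        ↥(modularFunctionFieldFullC K M)) : LaurentSeries K)) ∈
        tv84_G K (IsLocalRing.residue R) := h
    rw [gv85_coe_inv_mul] at h2
    exact h2
  have h0 : tv84_red (IsLocalRing.residue R)
      (⟨(x : LaurentSeries K) - (y : LaurentSeries K), hxy⟩ : ↥(tv84_G K (IsLocalRing.residue R)))
      = 0 :=
    (tv84_red_eq_zero_iff (IsLocalRing.residue R) π (pk85_res_iff hπ) hπ.ne_zero ⟨_, hxy⟩).mpr h'
  have h1 : (⟨(x : LaurentSeries K) - (y : LaurentSeries K), hxy⟩ :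
      ↥(tv84_G K (IsLocalRing.residue R))) =
      (⟨(x : LaurentSeries K), hx⟩ : ↥(tv84_G K (IsLocalRing.residue R))) -
        ⟨(y : LaurentSeries K), hy⟩ := rfl
  rw [h1, map_sub, sub_eq_zero] at h0
  exact h0

/-- **The kernel of `red` is `π V_∞`.** -/
theorem fr50_red_eq_zero_iff {π : R} (hπ : Irreducible π) (x : ↥(cm85_Vinf (K := K) M hπ)) :
    fr50_red (K := K) M hπ x = 0 ↔
      (algebraMap K ↥(modularFunctionFieldFullC K M) (algebraMap R K π))⁻¹ *
        (x : ↥(modularFunctionFieldFullC K M)) ∈ cm85_Vinf (K := K) M hπ := by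
  rw [fr50_red_apply, tv84_red_eq_zero_iff (IsLocalRing.residue R) π (pk85_res_iff hπ) hπ.ne_zero]
  show _ ↔ ((((algebraMap K ↥(modularFunctionFieldFullC K M) (algebraMap R K π))⁻¹ *
        (x : ↥(modularFunctionFieldFullC K M)) : ↥(modularFunctionFieldFullC K M)) :
      LaurentSeries K)) ∈ tv84_G K (IsLocalRing.residue R)
  rw [gv85_coe_inv_mul]

/-- A Gauss-integral function with nonzero reduction is a unit of `V_∞`. -/
theorem fr50_unit_of_red_ne_zero {π : R} (hπ : Irreducible π)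
    (x : ↥(cm85_Vinf (K := K) M hπ)) (hx : fr50_red (K := K) M hπ x ≠ 0) :
    (x : ↥(modularFunctionFieldFullC K M))⁻¹ ∈ cm85_Vinf (K := K) M hπ := by
  by_contra hinv
  have hx0 : (x : ↥(modularFunctionFieldFullC K M)) ≠ 0 := by
    intro h0
    apply hx
    have : x = 0 := Subtype.ext h0
    rw [this, map_zero]
  have hπK : algebraMap R K π ≠ 0 := fun h =>
    hπ.ne_zero (IsFractionRing.injective R K (by rw [h, map_zero]))
  have hπF : algebraMap K ↥(modularFunctionFieldFullC K M) (algebraMap R K π) ≠ 0 :=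
    (map_ne_zero _).mpr hπK
  -- `x⁻¹ ∉ V` gives `π / x ∈ V`... we show `π⁻¹ x ∈ V` by the dichotomy for `π⁻¹ x`
  apply hx
  rw [fr50_red_eq_zero_iff]
  rcases (cm85_Vinf (K := K) M hπ).mem_or_inv_mem
      ((algebraMap K ↥(modularFunctionFieldFullC K M) (algebraMap R K π))⁻¹ *
        (x : ↥(modularFunctionFieldFullC K M))) with h | h
  · exact h
  · exfalso
    apply hinv
    rw [mul_inv, inv_inv] at h
    -- `π x⁻¹ ∈ V`; its reduction times `red x` is `red π = 0`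
    have h1 : fr50_red (K := K) M hπ ⟨_, h⟩ * fr50_red (K := K) M hπ x =
        fr50_red (K := K) M hπ ⟨algebraMap K ↥(modularFunctionFieldFullC K M) (algebraMap R K π), by
          have := mul_mem h x.2
          rwa [mul_assoc, inv_mul_cancel₀ hx0, mul_one] at this⟩ := by
      rw [← map_mul]
      apply fr50_red_congr
      show algebraMap K ↥(modularFunctionFieldFullC K M) (algebraMap R K π) *
        (x : ↥(modularFunctionFieldFullC K M))⁻¹ * (x : ↥(modularFunctionFieldFullC K M)) = _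
      rw [mul_assoc, inv_mul_cancel₀ hx0, mul_one]
    have h2 : fr50_red (K := K) M hπ ⟨algebraMap K ↥(modularFunctionFieldFullC K M) (algebraMap R K π), by
          have := mul_mem h x.2
          rwa [mul_assoc, inv_mul_cancel₀ hx0, mul_one] at this⟩ = 0 := by
      rw [fr50_red_eq_zero_iff]
      show (algebraMap K ↥(modularFunctionFieldFullC K M) (algebraMap R K π))⁻¹ *
        algebraMap K ↥(modularFunctionFieldFullC K M) (algebraMap R K π) ∈ _
      rw [inv_mul_cancel₀ hπF]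
      exact (cm85_Vinf (K := K) M hπ).one_mem
    rw [h2] at h1
    have h3 : fr50_red (K := K) M hπ ⟨_, h⟩ = 0 := (mul_eq_zero.mp h1).resolve_right hx
    rw [fr50_red_eq_zero_iff] at h3
    show (x : ↥(modularFunctionFieldFullC K M))⁻¹ ∈ cm85_Vinf (K := K) M hπ
    have h4 : (algebraMap K ↥(modularFunctionFieldFullC K M) (algebraMap R K π))⁻¹ *
        (algebraMap K ↥(modularFunctionFieldFullC K M) (algebraMap R K π) *
          (x : ↥(modularFunctionFieldFullC K M))⁻¹) = (x : ↥(modularFunctionFieldFullC K M))⁻¹ := by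
      rw [← mul_assoc, inv_mul_cancel₀ hπF, one_mul]
    rw [← h4]
    exact h3

/-- `red` of a constant of `R`. -/
theorem fr50_red_C {π : R} (hπ : Irreducible π) (r : R)
    (hr : algebraMap K ↥(modularFunctionFieldFullC K M) (algebraMap R K r) ∈
      cm85_Vinf (K := K) M hπ) :
    fr50_red (K := K) M hπ ⟨_, hr⟩ = HahnSeries.C (IsLocalRing.residue R r) := by
  rw [fr50_red_apply]
  rw [tv84_red_of_integral (IsLocalRing.residue R) _ (HahnSeries.C r)
    (by rw [gv85_coeffMap_C]; exact gv85_coe_algebraMap (modularFunctionFieldFullC K M) _),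
    gv85_coeffMap_C]

/-- `E (sb g) = g ^ q`. -/
theorem fr50_E_sb {κ : Type*} [Field κ] (q : ℕ) [NeZero q] [ExpChar κ q] (g : LaurentSeries κ) :
    qExpand κ q (coeffMap (frobenius κ q) g) = g ^ q :=
  (kr50_pow_char q g).symm

/-- **`red (σ̂ x) = sb (red x)`** on the Gauss ring of any level, for a Frobenius lift `σ`. -/
theorem fr50_red_frob {q : ℕ} (hq : q.Prime) [ExpChar (IsLocalRing.ResidueField R) q]
    {π : R} (hπ : Irreducible π) (σ : K ≃+* K) (hσ : ff50_Frob R q σ)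
    (x : ↥(cm85_Vinf (K := K) M hπ)) :
    fr50_red (K := K) M hπ ⟨s34i47_coeffEquiv σ M x, ff50_mem_Vinf M hq.ne_zero hπ σ hσ x x.2⟩ =
      coeffMap (frobenius (IsLocalRing.ResidueField R) q) (fr50_red (K := K) M hπ x) :=
  ff50_red_coeffMap (IsLocalRing.residue R) q (σ : K →+* K) (ff50_sigmaR σ hσ)
    (ff50_sigmaR_spec σ hσ) (ff50_sigmaR_res σ hσ) ⟨_, x.2⟩ _

end Red

/-! ## 2. The two reductions of `W` -/

section W

variable {R K : Type} [CommRing R] [IsDomain R] [IsDiscreteValuationRing R] [Field K]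
  [Algebra R K] [IsFractionRing R K] [Algebra K Q̄]
  (M' q : ℕ) [NeZero M'] [NeZero q] (hq : q.Prime) (hM' : ¬ q ∣ M')

/-- `W → V_∞`, the inclusion. -/
noncomputable def fr50_incl {π : R} (hπ : Irreducible π) :
    ↥(s34i47c_W (K := K) M' q hq hM' hπ) →+* ↥(cm85_Vinf (K := K) (M' * q) hπ) :=
  (s34i47c_W (K := K) M' q hq hM' hπ).subtype.codRestrict (cm85_Vinf (K := K) (M' * q) hπ)
    (fun x => ((s34i47c_mem_W M' q hq hM' hπ x.1).mp x.2).1)

/-- `W → V_∞`, `x ↦ w x`. -/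
noncomputable def fr50_inclW {π : R} (hπ : Irreducible π) :
    ↥(s34i47c_W (K := K) M' q hq hM' hπ) →+* ↥(cm85_Vinf (K := K) (M' * q) hπ) :=
  (((al97L_w (algebraMap K Q̄) M' q hq hM' :
      ↥(modularFunctionFieldFullC K (M' * q)) ≃ₐ[K] ↥(modularFunctionFieldFullC K (M' * q))) :
      ↥(modularFunctionFieldFullC K (M' * q)) →+* ↥(modularFunctionFieldFullC K (M' * q))).comp
    (s34i47c_W (K := K) M' q hq hM' hπ).subtype).codRestrict (cm85_Vinf (K := K) (M' * q) hπ)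
    (fun x => ((s34i47c_mem_W M' q hq hM' hπ x.1).mp x.2).2)

/-- **`red_∞ : W →+* κ((Q))`.** -/
noncomputable def fr50_rInf {π : R} (hπ : Irreducible π) :
    ↥(s34i47c_W (K := K) M' q hq hM' hπ) →+* LaurentSeries (IsLocalRing.ResidueField R) :=
  (fr50_red (K := K) (M' * q) hπ).comp (fr50_incl (K := K) M' q hq hM' hπ)

/-- **`red_0 : W →+* κ((Q))`**, `red_0 x = red_∞ (w x)`. -/
noncomputable def fr50_rZero {π : R} (hπ : Irreducible π) :
    ↥(s34i47c_W (K := K) M' q hq hM' hπ) →+* LaurentSeries (IsLocalRing.ResidueField R) :=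
  (fr50_red (K := K) (M' * q) hπ).comp (fr50_inclW (K := K) M' q hq hM' hπ)

theorem fr50_rInf_apply {π : R} (hπ : Irreducible π)
    (x : ↥(s34i47c_W (K := K) M' q hq hM' hπ)) :
    fr50_rInf (K := K) M' q hq hM' hπ x =
      fr50_red (K := K) (M' * q) hπ ⟨x.1, ((s34i47c_mem_W M' q hq hM' hπ x.1).mp x.2).1⟩ := rfl

theorem fr50_rZero_apply {π : R} (hπ : Irreducible π)
    (x : ↥(s34i47c_W (K := K) M' q hq hM' hπ)) :
    fr50_rZero (K := K) M' q hq hM' hπ x =
      fr50_red (K := K) (M' * q) hπ ⟨al97L_w (algebraMap K Q̄) M' q hq hM' x.1,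
        ((s34i47c_mem_W M' q hq hM' hπ x.1).mp x.2).2⟩ := rfl

/-- `red_∞ x = 0 ↔ x ∈ π V_∞`. -/
theorem fr50_rInf_eq_zero_iff {π : R} (hπ : Irreducible π)
    (x : ↥(s34i47c_W (K := K) M' q hq hM' hπ)) :
    fr50_rInf (K := K) M' q hq hM' hπ x = 0 ↔
      (algebraMap K ↥(modularFunctionFieldFullC K (M' * q)) (algebraMap R K π))⁻¹ *
        (x : ↥(modularFunctionFieldFullC K (M' * q))) ∈ cm85_Vinf (K := K) (M' * q) hπ := by
  rw [fr50_rInf_apply, fr50_red_eq_zero_iff]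

/-- `red_0 x = 0 ↔ x ∈ π V_0`. -/
theorem fr50_rZero_eq_zero_iff {π : R} (hπ : Irreducible π)
    (x : ↥(s34i47c_W (K := K) M' q hq hM' hπ)) :
    fr50_rZero (K := K) M' q hq hM' hπ x = 0 ↔
      (algebraMap K ↥(modularFunctionFieldFullC K (M' * q)) (algebraMap R K π))⁻¹ *
        (x : ↥(modularFunctionFieldFullC K (M' * q))) ∈ s34i47c_V0 (K := K) M' q hq hM' hπ := by
  rw [fr50_rZero_apply, fr50_red_eq_zero_iff, s34i47c_mem_V0, map_mul, map_inv₀,
    AlgEquiv.commutes]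

/-- **`ker red_∞ ∩ ker red_0 = π W`.** -/
theorem fr50_ker {π : R} (hπ : Irreducible π) (x : ↥(s34i47c_W (K := K) M' q hq hM' hπ)) :
    (fr50_rInf (K := K) M' q hq hM' hπ x = 0 ∧ fr50_rZero (K := K) M' q hq hM' hπ x = 0) ↔
      (algebraMap K ↥(modularFunctionFieldFullC K (M' * q)) (algebraMap R K π))⁻¹ *
        (x : ↥(modularFunctionFieldFullC K (M' * q))) ∈ s34i47c_W (K := K) M' q hq hM' hπ := by
  rw [fr50_rInf_eq_zero_iff, fr50_rZero_eq_zero_iff, s34i47c_mem_W, s34i47c_mem_V0]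

/-- `red_∞ (α h) = red' h`. -/
theorem fr50_rInf_alpha {π : R} (hπ : Irreducible π) (a : ↥(cm85_Vinf (K := K) M' hπ))
    (ha : al97L_alpha K M' q (a : ↥(modularFunctionFieldFullC K M')) ∈
      s34i47c_W (K := K) M' q hq hM' hπ) :
    fr50_rInf (K := K) M' q hq hM' hπ ⟨_, ha⟩ = fr50_red (K := K) M' hπ a := by
  rw [fr50_rInf_apply, fr50_red_apply, fr50_red_apply]
  congr 1

/-- `red_∞ (β h) = E (red' h)`. -/
theorem fr50_rInf_beta {π : R} (hπ : Irreducible π) (a : ↥(cm85_Vinf (K := K) M' hπ))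
    (ha : al97L_beta K M' q (a : ↥(modularFunctionFieldFullC K M')) ∈
      s34i47c_W (K := K) M' q hq hM' hπ) :
    fr50_rInf (K := K) M' q hq hM' hπ ⟨_, ha⟩ =
      qExpand (IsLocalRing.ResidueField R) q (fr50_red (K := K) M' hπ a) := by
  rw [fr50_rInf_apply, fr50_red_apply, fr50_red_apply]
  exact tv84_red_qExpand (IsLocalRing.residue R) q ⟨_, a.2⟩ _

/-- `red_0 (α h) = E (red' h)`. -/
theorem fr50_rZero_alpha {π : R} (hπ : Irreducible π) (a : ↥(cm85_Vinf (K := K) M' hπ))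
    (ha : al97L_alpha K M' q (a : ↥(modularFunctionFieldFullC K M')) ∈
      s34i47c_W (K := K) M' q hq hM' hπ) :
    fr50_rZero (K := K) M' q hq hM' hπ ⟨_, ha⟩ =
      qExpand (IsLocalRing.ResidueField R) q (fr50_red (K := K) M' hπ a) := by
  rw [fr50_rZero_apply]
  have h1 : al97L_w (algebraMap K Q̄) M' q hq hM'
      (al97L_alpha K M' q (a : ↥(modularFunctionFieldFullC K M'))) =
      al97L_beta K M' q (a : ↥(modularFunctionFieldFullC K M')) :=
    al97L_w_alpha_apply _ M' q hq hM' _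
  rw [fr50_red_congr (K := K) (M' * q) hπ h1 _ ((tv84_beta_mem M' q hπ _ a.2)), fr50_red_apply,
    fr50_red_apply]
  exact tv84_red_qExpand (IsLocalRing.residue R) q ⟨_, a.2⟩ _

/-- `red_0 (β h) = red' h`. -/
theorem fr50_rZero_beta {π : R} (hπ : Irreducible π) (a : ↥(cm85_Vinf (K := K) M' hπ))
    (ha : al97L_beta K M' q (a : ↥(modularFunctionFieldFullC K M')) ∈
      s34i47c_W (K := K) M' q hq hM' hπ) :
    fr50_rZero (K := K) M' q hq hM' hπ ⟨_, ha⟩ = fr50_red (K := K) M' hπ a := by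
  rw [fr50_rZero_apply]
  have h1 : al97L_w (algebraMap K Q̄) M' q hq hM'
      (al97L_beta K M' q (a : ↥(modularFunctionFieldFullC K M'))) =
      al97L_alpha K M' q (a : ↥(modularFunctionFieldFullC K M')) :=
    al97L_w_beta_apply _ M' q hq hM' _
  rw [fr50_red_congr (K := K) (M' * q) hπ h1 _ ((tv84_alpha_mem M' q hπ _).mpr a.2), fr50_red_apply,
    fr50_red_apply]
  congr 1

/-- `α V' ⊆ W`. -/
theorem fr50_alpha_mem_W {π : R} (hπ : Irreducible π) (a : ↥(modularFunctionFieldFullC K M'))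
    (ha : a ∈ cm85_Vinf (K := K) M' hπ) :
    al97L_alpha K M' q a ∈ s34i47c_W (K := K) M' q hq hM' hπ := by
  rw [s34i47c_mem_W, al97L_w_alpha_apply]
  exact ⟨(tv84_alpha_mem M' q hπ a).mpr ha, tv84_beta_mem M' q hπ a ha⟩

/-- `β V' ⊆ W`. -/
theorem fr50_beta_mem_W {π : R} (hπ : Irreducible π) (a : ↥(modularFunctionFieldFullC K M'))
    (ha : a ∈ cm85_Vinf (K := K) M' hπ) :
    al97L_beta K M' q a ∈ s34i47c_W (K := K) M' q hq hM' hπ := by
  rw [s34i47c_mem_W, al97L_w_beta_apply]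
  exact ⟨tv84_beta_mem M' q hπ a ha, (tv84_alpha_mem M' q hπ a).mpr ha⟩

/-- **`red_∞ (σ̂ x) = sb (red_∞ x)`** on `W`, for a Frobenius lift `σ`. -/
theorem fr50_rInf_frob [NumberField K] [ExpChar (IsLocalRing.ResidueField R) q]
    {π : R} (hπ : Irreducible π) (σ : K ≃+* K) (hσ : ff50_Frob R q σ)
    (x : ↥(s34i47c_W (K := K) M' q hq hM' hπ)) :
    fr50_rInf (K := K) M' q hq hM' hπ
        ⟨s34i47_coeffEquiv σ (M' * q) x, ff50_mem_W M' q hq hM' hπ σ hσ x x.2⟩ =
      coeffMap (frobenius (IsLocalRing.ResidueField R) q) (fr50_rInf (K := K) M' q hq hM' hπ x) := by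
  rw [fr50_rInf_apply, fr50_rInf_apply]
  exact fr50_red_frob (K := K) (M' * q) hq hπ σ hσ ⟨x.1, ((s34i47c_mem_W M' q hq hM' hπ x.1).mp x.2).1⟩

/-- **`red_0 (σ̂ x) = sb (red_0 x)`** on `W`, for a Frobenius lift `σ`. -/
theorem fr50_rZero_frob [NumberField K] [ExpChar (IsLocalRing.ResidueField R) q]
    {π : R} (hπ : Irreducible π) (σ : K ≃+* K) (hσ : ff50_Frob R q σ)
    (x : ↥(s34i47c_W (K := K) M' q hq hM' hπ)) :
    fr50_rZero (K := K) M' q hq hM' hπ
        ⟨s34i47_coeffEquiv σ (M' * q) x, ff50_mem_W M' q hq hM' hπ σ hσ x x.2⟩ =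
      coeffMap (frobenius (IsLocalRing.ResidueField R) q) (fr50_rZero (K := K) M' q hq hM' hπ x) := by
  rw [fr50_rZero_apply, fr50_rZero_apply]
  have h1 : al97L_w (algebraMap K Q̄) M' q hq hM' (s34i47_coeffEquiv σ (M' * q) x.1) =
      s34i47_coeffEquiv σ (M' * q) (al97L_w (algebraMap K Q̄) M' q hq hM' x.1) :=
    in87g_w_comm M' q hq hM' σ x.1
  rw [fr50_red_congr (K := K) (M' * q) hπ h1 _
    (ff50_mem_Vinf (M' * q) hq.ne_zero hπ σ hσ _ ((s34i47c_mem_W M' q hq hM' hπ x.1).mp x.2).2)]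
  exact fr50_red_frob (K := K) (M' * q) hq hπ σ hσ
    ⟨al97L_w (algebraMap K Q̄) M' q hq hM' x.1, ((s34i47c_mem_W M' q hq hM' hπ x.1).mp x.2).2⟩

end W

/-! ## 3. Residue degree one on both branches -/

section ResOne

variable {R K : Type} [CommRing R] [IsDomain R] [IsDiscreteValuationRing R] [Field K] [CharZero K]
  [Algebra R K] [IsFractionRing R K] [Algebra K Q̄] (M' q : ℕ) [NeZero M'] [NeZero q]
  [Algebra R ↥(modularFunctionFieldFullC K M')]
  [IsScalarTower R K ↥(modularFunctionFieldFullC K M')]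
  [Algebra R ↥(modularFunctionFieldFullC K (M' * q))]
  [IsScalarTower R K ↥(modularFunctionFieldFullC K (M' * q))]
  (hq : q.Prime) (hM' : ¬ q ∣ M')

/-- **Residue degree one at `∞`**: `red_∞ (W) ⊆ red' (V')`. -/
theorem fr50_rInf_res {π : R} (hπ : Irreducible π) (hqR : ¬ IsUnit (q : R))
    (x : ↥(s34i47c_W (K := K) M' q hq hM' hπ)) :
    ∃ a : ↥(cm85_Vinf (K := K) M' hπ), fr50_rInf (K := K) M' q hq hM' hπ x = fr50_red (K := K) M' hπ a := by
  obtain ⟨b, hb, hxb⟩ := rd90_res1 (K := K) M' q hq hM' hπ hqR x.1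
    ((s34i47c_mem_W M' q hq hM' hπ x.1).mp x.2).1
  refine ⟨⟨b, hb⟩, ?_⟩
  rw [IsScalarTower.algebraMap_apply R K ↥(modularFunctionFieldFullC K (M' * q))] at hxb
  have h1 := fr50_red_eq_of_sub_mem (K := K) (M' * q) hπ ((s34i47c_mem_W M' q hq hM' hπ x.1).mp x.2).1
    ((tv84_alpha_mem M' q hπ b).mpr hb) hxb
  rw [fr50_rInf_apply]
  refine h1.trans ?_
  rw [fr50_red_apply, fr50_red_apply]
  congr 1

/-- **Residue degree one at `0`**: `red_0 (W) ⊆ red' (V')`. -/
theorem fr50_rZero_res {π : R} (hπ : Irreducible π) (hqR : ¬ IsUnit (q : R))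
    (x : ↥(s34i47c_W (K := K) M' q hq hM' hπ)) :
    ∃ a : ↥(cm85_Vinf (K := K) M' hπ), fr50_rZero (K := K) M' q hq hM' hπ x = fr50_red (K := K) M' hπ a := by
  obtain ⟨b, hb, hxb⟩ := rd90_res2 (K := K) M' q hq hM' hπ hqR x.1
    ((s34i47c_mem_V0 M' q hq hM' hπ x.1).mpr ((s34i47c_mem_W M' q hq hM' hπ x.1).mp x.2).2)
  refine ⟨⟨b, hb⟩, ?_⟩
  rw [IsScalarTower.algebraMap_apply R K ↥(modularFunctionFieldFullC K (M' * q)),
    s34i47c_mem_V0, map_mul, map_inv₀, AlgEquiv.commutes, map_sub, al97L_w_beta_apply] at hxb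
  have h1 := fr50_red_eq_of_sub_mem (K := K) (M' * q) hπ ((s34i47c_mem_W M' q hq hM' hπ x.1).mp x.2).2
    ((tv84_alpha_mem M' q hπ b).mpr hb) hxb
  rw [fr50_rZero_apply]
  refine h1.trans ?_
  rw [fr50_red_apply, fr50_red_apply]
  congr 1

/-- **Pure inseparability along `α` on the `0`-branch**: for a Frobenius lift `σ`,
`red_0 (x) ^ q = red_0 (α a)` with `a ∈ V'`. -/
theorem fr50_rZero_pow [ExpChar (IsLocalRing.ResidueField R) q]
    {π : R} (hπ : Irreducible π) (hqR : ¬ IsUnit (q : R)) (σ : K ≃+* K) (hσ : ff50_Frob R q σ)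
    (x : ↥(s34i47c_W (K := K) M' q hq hM' hπ)) :
    ∃ (a : ↥(cm85_Vinf (K := K) M' hπ))
      (ha : al97L_alpha K M' q (a : ↥(modularFunctionFieldFullC K M')) ∈
        s34i47c_W (K := K) M' q hq hM' hπ),
      fr50_rZero (K := K) M' q hq hM' hπ x ^ q = fr50_rZero (K := K) M' q hq hM' hπ ⟨_, ha⟩ := by
  obtain ⟨b, hb⟩ := fr50_rZero_res M' q hq hM' hπ hqR x
  refine ⟨⟨s34i47_coeffEquiv σ M' b, ff50_mem_Vinf M' hq.ne_zero hπ σ hσ b b.2⟩,
    fr50_alpha_mem_W M' q hq hM' hπ _ (ff50_mem_Vinf M' hq.ne_zero hπ σ hσ b b.2), ?_⟩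
  rw [fr50_rZero_alpha, fr50_red_frob (K := K) M' hq hπ σ hσ b, fr50_E_sb, hb]

/-- **Pure inseparability along `β` on the `∞`-branch**: for a Frobenius lift `σ`,
`red_∞ (x) ^ q = red_∞ (β a)` with `a ∈ V'`. -/
theorem fr50_rInf_pow [ExpChar (IsLocalRing.ResidueField R) q]
    {π : R} (hπ : Irreducible π) (hqR : ¬ IsUnit (q : R)) (σ : K ≃+* K) (hσ : ff50_Frob R q σ)
    (x : ↥(s34i47c_W (K := K) M' q hq hM' hπ)) :
    ∃ (a : ↥(cm85_Vinf (K := K) M' hπ))
      (ha : al97L_beta K M' q (a : ↥(modularFunctionFieldFullC K M')) ∈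
        s34i47c_W (K := K) M' q hq hM' hπ),
      fr50_rInf (K := K) M' q hq hM' hπ x ^ q = fr50_rInf (K := K) M' q hq hM' hπ ⟨_, ha⟩ := by
  obtain ⟨b, hb⟩ := fr50_rInf_res M' q hq hM' hπ hqR x
  refine ⟨⟨s34i47_coeffEquiv σ M' b, ff50_mem_Vinf M' hq.ne_zero hπ σ hσ b b.2⟩,
    fr50_beta_mem_W M' q hq hM' hπ _ (ff50_mem_Vinf M' hq.ne_zero hπ σ hσ b b.2), ?_⟩
  rw [fr50_rInf_beta, fr50_red_frob (K := K) M' hq hπ σ hσ b, fr50_E_sb, hb]

end ResOne

end Fermat.Agent.S35
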