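import Fermat.Agent.S34.TwoValInst84
import Fermat.Agent.S37.KroneckerNorm97

/-!
# S35 lab (helper73): the coefficientwise action of a Frobenius lift on Gauss-integral series

Level-free `Q`-expansion facts behind step (1a) of the S35 proof text (#2519):
`red(ŝ x) = sb(red x)` and `E(sb g) = g ^ q`.

`R ⊆ K` a domain with fraction field `K`, `res : R →+* κ`, `G = tv84_G K res ⊆ K((Q))` the ring
of Gauss-integral Laurent series, `red = tv84_red res : G → κ((Q))`.  Let `σ : K →+* K`
restrict to `σR : R →+* R`, and let `φ : κ →+* κ` with `res ∘ σR = φ ∘ res`.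

* `fr73_coeffMap_mem_G` : `coeffMap σ` maps `G` into `G`;
* `fr73_red_coeffMap` : `red (coeffMap σ x) = coeffMap φ (red x)`;
* `fr73_red_frob` : if `φ` is the Frobenius of `κ` (characteristic `q`), then
  `red ((coeffMap σ x)(Q^q)) = (red x) ^ q`;
* `fr73_frob_cong` : hence `π⁻¹ ((coeffMap σ x)(Q^q) - x ^ q) ∈ G` (`ker red = π G`).
-/

set_option autoImplicit false

open ModularCurve

namespace Fermat.Agent.S35

open Fermat.Agent.S18 Fermat.Agent.S37 Fermat.Agent.S34

section fr73_series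

variable {R K κ : Type*} [CommRing R] [IsDomain R] [Field K] [Algebra R K] [IsFractionRing R K]
  [Field κ]
variable (res : R →+* κ)

omit [IsDomain R] [IsFractionRing R K] in
/-- Coefficient maps commute with the inclusion `R((Q)) → K((Q))`. -/
theorem fr73_coeffMap_comm (σ : K →+* K) (σR : R →+* R)
    (hσ : ∀ r, algebraMap R K (σR r) = σ (algebraMap R K r)) (s : LaurentSeries R) :
    coeffMap (algebraMap R K) (coeffMap σR s) = coeffMap σ (coeffMap (algebraMap R K) s) := by
  rw [coeffMap_coeffMap, coeffMap_coeffMap]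
  exact coeffMap_congr (RingHom.ext hσ) s

omit [IsDomain R] [IsFractionRing R K] in
/-- Coefficient maps commute with the reduction. -/
theorem fr73_coeffMap_res (σR : R →+* R) (φ : κ →+* κ)
    (hφ : ∀ r, res (σR r) = φ (res r)) (s : LaurentSeries R) :
    coeffMap res (coeffMap σR s) = coeffMap φ (coeffMap res s) := by
  rw [coeffMap_coeffMap, coeffMap_coeffMap]
  exact coeffMap_congr (RingHom.ext hφ) s

omit [IsDomain R] [IsFractionRing R K] in
theorem fr73_coeffMap_ne_zero (φ : κ →+* κ) (s : LaurentSeries κ) (hs : s ≠ 0) :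
    coeffMap φ s ≠ 0 := by
  intro h
  apply hs
  ext n
  have h1 := congrArg (fun z => z.coeff n) h
  simp only [coeffMap_coeff, HahnSeries.coeff_zero] at h1
  rw [HahnSeries.coeff_zero]
  exact (map_eq_zero φ).mp h1

omit [IsDomain R] [IsFractionRing R K] in
/-- `coeffMap σ` maps Gauss-integral series to Gauss-integral series. -/
theorem fr73_coeffMap_mem_G (σ : K →+* K) (σR : R →+* R) (φ : κ →+* κ)
    (hσ : ∀ r, algebraMap R K (σR r) = σ (algebraMap R K r))
    (hφ : ∀ r, res (σR r) = φ (res r))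
    (x : LaurentSeries K) (hx : x ∈ tv84_G K res) : coeffMap σ x ∈ tv84_G K res := by
  obtain ⟨s, t, hs, hst⟩ := hx
  refine ⟨coeffMap σR s, coeffMap σR t, ?_, ?_⟩
  · rw [fr73_coeffMap_res res σR φ hφ]
    exact fr73_coeffMap_ne_zero φ _ hs
  · rw [fr73_coeffMap_comm σ σR hσ, fr73_coeffMap_comm σ σR hσ, ← map_mul, hst]

omit [IsDomain R] in
/-- **`red (ŝ x) = sb (red x)`**: the reduction intertwines the coefficientwise actions. -/
theorem fr73_red_coeffMap (σ : K →+* K) (σR : R →+* R) (φ : κ →+* κ)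
    (hσ : ∀ r, algebraMap R K (σR r) = σ (algebraMap R K r))
    (hφ : ∀ r, res (σR r) = φ (res r))
    (x : tv84_G K res) (hx' : coeffMap σ (x : LaurentSeries K) ∈ tv84_G K res) :
    tv84_red res ⟨coeffMap σ (x : LaurentSeries K), hx'⟩ = coeffMap φ (tv84_red res x) := by
  obtain ⟨s, t, hs, hst⟩ := (tv84_mem_G res x.1).mp x.2
  have hs' : coeffMap res (coeffMap σR s) ≠ 0 := by
    rw [fr73_coeffMap_res res σR φ hφ]
    exact fr73_coeffMap_ne_zero φ _ hs
  have hst' : coeffMap (algebraMap R K) (coeffMap σR s) * coeffMap σ (x : LaurentSeries K) =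
      coeffMap (algebraMap R K) (coeffMap σR t) := by
    rw [fr73_coeffMap_comm σ σR hσ, fr73_coeffMap_comm σ σR hσ, ← map_mul, hst]
  rw [tv84_red_eq res ⟨_, hx'⟩ (coeffMap σR s) (coeffMap σR t) hs' hst',
    tv84_red_eq res x s t hs hst, fr73_coeffMap_res res σR φ hφ,
    fr73_coeffMap_res res σR φ hφ, map_div₀]

omit [IsDomain R] in
/-- **`E (sb (red x)) = (red x) ^ q`** for a Frobenius lift: the reduction of `(ŝ x)(Q^q)` is the
`q`-th power of the reduction of `x`. -/
theorem fr73_red_frob (q : ℕ) [NeZero q] [ExpChar κ q] (σ : K →+* K) (σR : R →+* R)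
    (hσ : ∀ r, algebraMap R K (σR r) = σ (algebraMap R K r))
    (hφ : ∀ r, res (σR r) = res r ^ q)
    (x : tv84_G K res)
    (hx' : qExpand K q (coeffMap σ (x : LaurentSeries K)) ∈ tv84_G K res) :
    tv84_red res ⟨qExpand K q (coeffMap σ (x : LaurentSeries K)), hx'⟩ = tv84_red res x ^ q := by
  have hφ' : ∀ r, res (σR r) = frobenius κ q (res r) := fun r => by
    rw [hφ r, frobenius_def]
  have h1 : coeffMap σ (x : LaurentSeries K) ∈ tv84_G K res :=
    fr73_coeffMap_mem_G res σ σR (frobenius κ q) hσ hφ' _ x.2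
  have h2 := tv84_red_qExpand res q ⟨coeffMap σ (x : LaurentSeries K), h1⟩ hx'
  rw [h2, fr73_red_coeffMap res σ σR (frobenius κ q) hσ hφ' x h1, kn97_frobenius q]

/-- **Frobenius congruence in `G`**: `(ŝ x)(Q^q) ≡ x ^ q mod π G`. -/
theorem fr73_frob_cong (q : ℕ) [NeZero q] [ExpChar κ q] (π : R)
    (hres : ∀ r, res r = 0 ↔ π ∣ r) (hπ0 : π ≠ 0) (σ : K →+* K) (σR : R →+* R)
    (hσ : ∀ r, algebraMap R K (σR r) = σ (algebraMap R K r))
    (hφ : ∀ r, res (σR r) = res r ^ q)
    (x : LaurentSeries K) (hx : x ∈ tv84_G K res) :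
    (HahnSeries.C (algebraMap R K π))⁻¹ * (qExpand K q (coeffMap σ x) - x ^ q) ∈
      tv84_G K res := by
  have hφ' : ∀ r, res (σR r) = frobenius κ q (res r) := fun r => by
    rw [hφ r, frobenius_def]
  have h1 : coeffMap σ x ∈ tv84_G K res :=
    fr73_coeffMap_mem_G res σ σR (frobenius κ q) hσ hφ' _ hx
  have h2 : qExpand K q (coeffMap σ x) ∈ tv84_G K res := tv84_qExpand_mem_G res q _ h1
  have h3 : qExpand K q (coeffMap σ x) - x ^ q ∈ tv84_G K res :=
    Subring.sub_mem _ h2 (Subring.pow_mem _ hx q)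
  rw [← tv84_red_eq_zero_iff res π hres hπ0 ⟨_, h3⟩]
  have h4 : (⟨qExpand K q (coeffMap σ x) - x ^ q, h3⟩ : tv84_G K res) =
      ⟨qExpand K q (coeffMap σ x), h2⟩ - (⟨x, hx⟩ : tv84_G K res) ^ q := rfl
  rw [h4, map_sub, map_pow, fr73_red_frob res q σ σR hσ hφ ⟨x, hx⟩ h2, sub_self]

end fr73_series

end Fermat.Agent.S35
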