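import Mathlib
import Fermat.Agent.S35.Iface62
import Fermat.Agent.S35.Endgame60
import Fermat.Agent.S30.CoreIface73

/-!
# S35 lab (helper51, registrar): the gate theorem

`s35g51_result_of_pkgs` : the six literal packages of `Iface62`
(`s35i62_Pkg_Core`, `s35i62_Pkg_FieldDef`, `s35i62_Pkg_Level`, `s35i62_Pkg_Pic`, `s35i62_Pkg_ET`,
`s35i62_Pkg_New`) imply the frozen statement S35 (its literal type, as in the template).

Chain: `s35i62_assembly` gives `(A*)` at every level (`s35i62_AStarAt`); `s35i62_Pkg_New` gives the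
THETA family, the Hecke lattice, the primitive eigenvector `x0` and the subgroup `K` of new
classes; `s35i62_Pkg_ET` gives the eigen-Tate module with the transfer clause (M8); (M8) with the
coefficients of `(X² − q²)(1 − X²)²` gives a nonzero vector killed by that polynomial in `ρ(τ)`
(`s35g51_M8`), i.e. `s35e60_ET` (`s35g51_ET`); `s35e60_endgame` (helper60) finishes.

All names are prefixed `s35g51_`.
-/

set_option autoImplicit false
set_option linter.style.longLine false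
set_option linter.unusedVariables false
set_option linter.unusedSectionVars false

open CongruenceSubgroup ModularCurve ModularCurve.Period Polynomial
open scoped TensorProduct

namespace Fermat.Agent.S35

open Fermat.Agent.S30 Fermat.Agent.S16

local notation "Qb" => AlgebraicClosure ℚ
local notation "GQ" => AlgebraicClosure ℚ ≃ₐ[ℚ] AlgebraicClosure ℚ

/-- The root list of `(X² − q²)(1 − X²)²`, expanded. -/
theorem s35g51_poly {O : Type} [CommRing O] (q : O) :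
    (([q, -q, 1, 1, -1, -1] : List O).map fun ν => (X : O[X]) - C ν).prod =
      X ^ 6 - C (q ^ 2 + 2) * X ^ 4 + C (2 * q ^ 2 + 1) * X ^ 2 - C (q ^ 2) := by
  simp only [List.map_cons, List.map_nil, List.prod_cons, List.prod_nil, map_neg, map_one,
    map_add, map_mul, map_pow, map_ofNat]
  ring

/-- Evaluation of the expanded polynomial at an endomorphism. -/
theorem s35g51_aeval {O Mod : Type} [CommRing O] [AddCommGroup Mod] [Module O Mod]
    (T : Module.End O Mod) (a b c : O) (w : Mod) :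
    aeval T (X ^ 6 - C a * X ^ 4 + C b * X ^ 2 - C c) w =
      (T ^ 6) w - a • (T ^ 4) w + b • (T ^ 2) w - c • w := by
  simp only [map_sub, map_add, map_mul, aeval_X_pow, aeval_C, LinearMap.sub_apply,
    LinearMap.add_apply, Module.End.mul_apply, Module.algebraMap_end_apply]

/-- (M8) of `Endgame60` at `q` from: for every Frobenius lift `τ` at `q`, ONE nonzero vector of
the (torsion-free) module killed by `τ⁶ − (q²+2) τ⁴ + (2q²+1) τ² − q²`. -/
theorem s35g51_M8 (q : ℕ) (O : Type) [CommRing O] [IsDomain O] (hq0 : (q : O) ≠ 0)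
    (Mod : Type) [AddCommGroup Mod] [Module O Mod] (ρ : GQ →* Module.End O Mod)
    (hM1 : ∀ (b : O) (w : Mod), b • w = 0 → b = 0 ∨ w = 0)
    (h : ∀ A : ValuationSubring Qb, A.LiesOverPrime q → ∀ τ : GQ, A.IsFrobeniusAt τ q →
      ∃ w : Mod, w ≠ 0 ∧
        (((-((q ^ 2 : ℕ) : ℤ) : ℤ)) : O) • w + ((((2 * q ^ 2 + 1 : ℕ) : ℤ)) : O) • ρ (τ ^ 2) w +
          (((-((q ^ 2 + 2 : ℕ) : ℤ) : ℤ)) : O) • ρ (τ ^ 4) w + (((1 : ℤ)) : O) • ρ (τ ^ 6) w = 0) :
    s35e60_M8 q O Mod ρ := by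
  intro A hA τ hτ b hb
  obtain ⟨w, hw, hrel⟩ := h A hA τ hτ
  refine s35a60_of_aeval (ρ τ) b (q : O) hq0 hM1 [(q : O), -(q : O), 1, 1, -1, -1] ?_ _ rfl w hw
    (hb w) ?_
  · intro ν hν
    simp only [List.mem_cons, List.not_mem_nil, or_false] at hν
    rcases hν with rfl | rfl | rfl | rfl | rfl | rfl <;> simp
  · rw [s35g51_poly, s35g51_aeval]
    rw [map_pow, map_pow, map_pow] at hrel
    push_cast at hrel
    rw [← hrel]
    module

/-- `s35e60_ET` (the input of `s35e60_endgame`) from the interface row (ET35) `s35i62_ET`,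
(A\*) at level `N` and a subgroup `K` of new classes containing `x0` in its span. -/
theorem s35g51_ET (p : ℕ) [Fact p.Prime] (N : ℕ) [NeZero N] (S : Finset ℕ)
    (O : Type) [CommRing O] [IsDomain O] [IsDiscreteValuationRing O]
    [IsAdicComplete (IsLocalRing.maximalIdeal O) O] [CharZero O]
    (hp : (p : O) ∈ IsLocalRing.maximalIdeal O) (a : ℕ → O)
    (x0 : O ⊗[ℤ] ↥(parabolicHoms ℤ (Gamma0 N) ℤ))
    (Θ : ℕ → (↥(parabolicHoms ℤ (Gamma0 N) ℤ) →+ JZero N))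
    (hΘ : s30i37_ThetaFamily N p Θ)
    (K : AddSubgroup ↥(parabolicHoms ℤ (Gamma0 N) ℤ))
    (hx0K : x0 ∈ Submodule.span O ((fun k : ↥(parabolicHoms ℤ (Gamma0 N) ℤ) => (1 : O) ⊗ₜ[ℤ] k) ''
      (K : Set ↥(parabolicHoms ℤ (Gamma0 N) ℤ))))
    (hnew : ∀ k ∈ K, ∀ (n q : ℕ), q.Prime → q ≠ p → q ∣ N → ¬ q ^ 2 ∣ N →
      s35i62_IsNewAt N q (Θ n k))
    (hA : ∀ q : ℕ, q.Prime → q ≠ p → q ∣ N → ¬ q ^ 2 ∣ N → s35i62_AStarAt N q p)
    (hET : s35i62_ET p N S O hp a x0 Θ) :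
    s35e60_ET p N S O hp a := by
  obtain ⟨Mod, i1, i2, ρ, hM1, hM2, hM3, hM4, hM5, hM6, hM7, hM8⟩ := hET
  refine ⟨Mod, i1, i2, ρ, hM1, hM2, hM3, hM4, hM6, hM7, ?_⟩
  intro q hq hqp hqN hq2
  refine s35g51_M8 q O (Nat.cast_ne_zero.mpr hq.ne_zero) Mod ρ hM1 ?_
  intro A hAq τ hτ
  refine hM8 K hx0K τ (-((q ^ 2 : ℕ) : ℤ)) ((2 * q ^ 2 + 1 : ℕ) : ℤ) (-((q ^ 2 + 2 : ℕ) : ℤ)) 1 ?_
  intro n k hk
  have htors : (p ^ n) • Θ n k = 0 := by
    have h1 := hΘ.1 n k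
    rwa [natCast_zsmul] at h1
  have h := hA q hq hqp hqN hq2 n A hAq τ hτ (Θ n k) htors (hnew k hk n q hq hqp hqN hq2)
  rw [neg_smul, neg_smul, natCast_zsmul, natCast_zsmul, natCast_zsmul, one_smul]
  have h3 : (τ ^ 6) • Θ n k =
      (q ^ 2 + 2) • (τ ^ 4) • Θ n k + q ^ 2 • Θ n k - (2 * q ^ 2 + 1) • (τ ^ 2) • Θ n k :=
    eq_sub_of_add_eq h
  rw [h3]
  abel

/-- **The conclusion of the frozen S35** from the interface rows at the data of the statement: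
(A\*) at level `M` for every `q ∥ M`, `q ≠ lam`; the row (ET35); the row (NEW). -/
theorem s35g51_result_of_rows
    {M : ℕ} [NeZero M]
    (lam : ℕ) [Fact lam.Prime]
    (S : Finset ℕ)
    (O' : Type) [CommRing O'] [IsDomain O'] [IsDiscreteValuationRing O']
    [IsAdicComplete (IsLocalRing.maximalIdeal O') O'] [Finite (IsLocalRing.ResidueField O')]
    [CharZero O'] (hlamO' : (lam : O') ∈ IsLocalRing.maximalIdeal O')
    (χ : CuspForm.heckeAlgebra M 2 (↑S : Set ℕ) →+* O')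
    (hlamS : lam ∈ S) (hMS : ∀ q : ℕ, q.Prime → q ∣ M → q ∈ S)
    (hA : ∀ q : ℕ, q.Prime → q ≠ lam → q ∣ M → ¬ q ^ 2 ∣ M → s35i62_AStarAt M q lam)
    (hET : s35i62_ETClaim lam M S O' hlamO')
    (hNew : s35i62_NewClaim M lam S O' χ) :
    ∃ (O'' : Type) (_ : CommRing O'') (_ : IsDomain O'') (_ : IsDiscreteValuationRing O'')
      (_ : IsAdicComplete (IsLocalRing.maximalIdeal O'') O'') (_ : Finite (IsLocalRing.ResidueField O''))
      (_ : CharZero O'') (_ : Algebra O' O'') (_ : Module.Finite O' O'') (_ : IsLocalHom (algebraMap O' O'')),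
      Function.Injective (algebraMap O' O'') ∧
      ∃ ρ : GaloisRepAdic O'',
        (∀ (ℓ : ℕ) (hℓ : ℓ.Prime) (hℓM : ¬ ℓ ∣ M) (hℓS : ℓ ∉ (↑S : Set ℕ)),
          ∀ A : ValuationSubring (AlgebraicClosure ℚ), A.LiesOverPrime ℓ →
            ∀ σ : AlgebraicClosure ℚ ≃ₐ[ℚ] AlgebraicClosure ℚ, A.IsFrobeniusAt σ ℓ →
              LinearMap.charpoly (ρ.ρ σ) =
                X ^ 2 - C (algebraMap O' O'' (χ (CuspForm.heckeAlgebra.T hℓ hℓM hℓS))) * X
                  + C ((ℓ : O''))) ∧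
        (∀ q : ℕ, q.Prime → q ≠ lam → q ∣ M → ¬ q ^ 2 ∣ M →
          ∀ A : ValuationSubring (AlgebraicClosure ℚ), A.LiesOverPrime q →
            ∀ σ : AlgebraicClosure ℚ ≃ₐ[ℚ] AlgebraicClosure ℚ, A.IsFrobeniusAt σ q →
              LinearMap.charpoly (ρ.ρ σ) = X ^ 2 - C ((q : O'') + 1) * X + C ((q : O'')) ∨
              LinearMap.charpoly (ρ.ρ σ) = X ^ 2 + C ((q : O'') + 1) * X + C ((q : O''))) := by
  classical
  obtain ⟨Θ, hΘ, Φ, hΦ, x0, K, hx0, hx0e, hx0K, hnew⟩ := hNew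
  -- the eigenvalues and the Hecke operators on the lattice, indexed by all natural numbers
  -- (exactly as in `s30e37_endgame` / `s35e60_endgame`)
  have hcond : ∀ ℓ : ℕ, ℓ.Prime → ℓ ∉ S → ℓ.Prime ∧ ¬ ℓ ∣ M ∧ ℓ ∉ (↑S : Set ℕ) :=
    fun ℓ hℓ hℓS => ⟨hℓ, fun hd => hℓS (hMS ℓ hℓ hd), fun hm => hℓS (Finset.mem_coe.mp hm)⟩
  have hTL : ∀ ℓ : ℕ, ℓ.Prime → ℓ ∉ S → ∀ x : ↥(parabolicHoms ℤ (Gamma0 M) ℤ),
      (((if h : ℓ.Prime ∧ ¬ ℓ ∣ M ∧ ℓ ∉ (↑S : Set ℕ) then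
        Φ (CuspForm.heckeAlgebra.T h.1 h.2.1 h.2.2) else 0) x :
          ↥(parabolicHoms ℤ (Gamma0 M) ℤ)) : Additive ↥(Gamma0 M) →+ ℤ) =
        heckeHom M ℓ ℤ (x : Additive ↥(Gamma0 M) →+ ℤ) := by
    intro ℓ hℓ hℓS x
    have hc := hcond ℓ hℓ hℓS
    rw [dif_pos hc]
    exact hΦ ℓ hc.1 hc.2.1 hc.2.2 x
  have hx0a : ∀ ℓ : ℕ, ℓ.Prime → ℓ ∉ S →
      (if h : ℓ.Prime ∧ ¬ ℓ ∣ M ∧ ℓ ∉ (↑S : Set ℕ) then
        Φ (CuspForm.heckeAlgebra.T h.1 h.2.1 h.2.2) else 0).baseChange O' x0 =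
      (if h : ℓ.Prime ∧ ¬ ℓ ∣ M ∧ ℓ ∉ (↑S : Set ℕ) then
        χ (CuspForm.heckeAlgebra.T h.1 h.2.1 h.2.2) else 0) • x0 := by
    intro ℓ hℓ hℓS
    have hc := hcond ℓ hℓ hℓS
    rw [dif_pos hc, dif_pos hc]
    exact hx0e _
  have het := hET hlamS hMS
    (fun ℓ => if h : ℓ.Prime ∧ ¬ ℓ ∣ M ∧ ℓ ∉ (↑S : Set ℕ) then
      χ (CuspForm.heckeAlgebra.T h.1 h.2.1 h.2.2) else 0)
    (fun ℓ => if h : ℓ.Prime ∧ ¬ ℓ ∣ M ∧ ℓ ∉ (↑S : Set ℕ) then
      Φ (CuspForm.heckeAlgebra.T h.1 h.2.1 h.2.2) else 0)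
    x0 Θ hTL hx0 hx0a hΘ
  exact s35e60_endgame lam M S hlamS hMS O' hlamO' χ (ex73_s30i37_core_charZero O')
    (s35g51_ET lam M S O' hlamO' _ x0 Θ hΘ K hx0K hnew hA het)

/-- **GATE**: the six literal packages of `Iface62` imply the frozen statement S35 (literal type
of the template; `S35.lean` is this theorem applied to the six package theorems). -/
theorem s35g51_result_of_pkgs (hCore : s35i62_Pkg_Core) (hFD : s35i62_Pkg_FieldDef)
    (hLevel : s35i62_Pkg_Level) (hPic : s35i62_Pkg_Pic) (hET : s35i62_Pkg_ET)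
    (hNew : s35i62_Pkg_New)
    {M : ℕ} [NeZero M] {g : CuspForm (CongruenceSubgroup.Gamma0 M) 2} (hg : g.IsNewform)
    (lam : ℕ) [Fact lam.Prime]
    (S : Finset ℕ)
    (O' : Type) [CommRing O'] [IsDomain O'] [IsDiscreteValuationRing O']
    [IsAdicComplete (IsLocalRing.maximalIdeal O') O'] [Finite (IsLocalRing.ResidueField O')]
    [CharZero O'] (hlamO' : (lam : O') ∈ IsLocalRing.maximalIdeal O')
    (chig : CuspForm.heckeAlgebra M 2 (↑S : Set ℕ) →+* ℂ)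
    (hchig : ∀ (ℓ : ℕ) (hℓ : ℓ.Prime) (hℓM : ¬ ℓ ∣ M) (hℓS : ℓ ∉ (↑S : Set ℕ)),
      chig (CuspForm.heckeAlgebra.T hℓ hℓM hℓS) = ModularFormClass.qCoeff g ℓ)
    (iota : chig.range →+* O')
    (hlamS : lam ∈ S) (hMS : ∀ q : ℕ, q.Prime → q ∣ M → q ∈ S)
    :
    ∃ (O'' : Type) (_ : CommRing O'') (_ : IsDomain O'') (_ : IsDiscreteValuationRing O'')
      (_ : IsAdicComplete (IsLocalRing.maximalIdeal O'') O'') (_ : Finite (IsLocalRing.ResidueField O''))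
      (_ : CharZero O'') (_ : Algebra O' O'') (_ : Module.Finite O' O'') (_ : IsLocalHom (algebraMap O' O'')),
      Function.Injective (algebraMap O' O'') ∧
      ∃ ρ : GaloisRepAdic O'',
        (∀ (ℓ : ℕ) (hℓ : ℓ.Prime) (hℓM : ¬ ℓ ∣ M) (hℓS : ℓ ∉ (↑S : Set ℕ)),
          ∀ A : ValuationSubring (AlgebraicClosure ℚ), A.LiesOverPrime ℓ →
            ∀ σ : AlgebraicClosure ℚ ≃ₐ[ℚ] AlgebraicClosure ℚ, A.IsFrobeniusAt σ ℓ →
              LinearMap.charpoly (ρ.ρ σ) =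
                X ^ 2 - C (algebraMap O' O'' ((iota.comp chig.rangeRestrict) (CuspForm.heckeAlgebra.T hℓ hℓM hℓS))) * X
                  + C ((ℓ : O''))) ∧
        (∀ q : ℕ, q.Prime → q ≠ lam → q ∣ M → ¬ q ^ 2 ∣ M →
          ∀ A : ValuationSubring (AlgebraicClosure ℚ), A.LiesOverPrime q →
            ∀ σ : AlgebraicClosure ℚ ≃ₐ[ℚ] AlgebraicClosure ℚ, A.IsFrobeniusAt σ q →
              LinearMap.charpoly (ρ.ρ σ) = X ^ 2 - C ((q : O'') + 1) * X + C ((q : O'')) ∨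
              LinearMap.charpoly (ρ.ρ σ) = X ^ 2 + C ((q : O'') + 1) * X + C ((q : O''))) :=
  s35g51_result_of_rows lam S O' hlamO' (iota.comp chig.rangeRestrict) hlamS hMS
    (fun q hq hqlam hqM hq2 =>
      s35i62_assembly hCore hFD hLevel hPic M q lam hq (Fact.out : lam.Prime) (Ne.symm hqlam)
        hqM hq2)
    (hET lam M S O' hlamO')
    (hNew M g hg lam S O' hlamO' chig hchig iota hlamS hMS)

end Fermat.Agent.S35
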