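import Mathlib
import Fermat.Agent.S35.Iface62b
import Fermat.Agent.S35.FieldDef92
import Fermat.Agent.S35.PkgLevel52
import Fermat.Agent.S35.PkgPic17

/-!
# S35 lab (helper51, registrar): the gate theorem, part b — S35 from TWO closed `Prop`s

`s35g51b_result_of_core_new : s35i62_Pkg_Core → s35i62_Pkg_New → (frozen statement S35)`.

The other packages of `Iface62` are plugged in from main:
* P-FD `s35fd92_pkg_fieldDef` (helper92, `FieldDef92`),
* P-LEVEL `lv52_pkg_level` (helper52, `PkgLevel52`),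
* P-PIC `jf17_pkg_pic` (helper17, `PkgPic17`),
* the top-level assembly `s35i62b_top` (helper62, `Iface62b`; through helper60's endgame and
  eigen-Tate module with the marked vector, and the CORE of S30).

`s35g51b_AStarAt` : (A\*) at every level from P-CORE alone.
All names are prefixed `s35g51b_`.
-/

set_option autoImplicit false
set_option linter.style.longLine false
set_option linter.unusedVariables false

open Polynomial

namespace Fermat.Agent.S35

/-- (A\*) at every level `N` with `q ∥ N`, for every prime `p ≠ q`, from P-CORE alone. -/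
theorem s35g51b_AStarAt (hCore : s35i62_Pkg_Core) (N q p : ℕ) (hq : q.Prime) (hp : p.Prime)
    (hpq : p ≠ q) (hqN : q ∣ N) (hq2 : ¬ q ^ 2 ∣ N) : s35i62_AStarAt N q p :=
  s35i62_assembly hCore s35fd92_pkg_fieldDef lv52_pkg_level jf17_pkg_pic N q p hq hp hpq hqN hq2

/-- **GATE (two `Prop`s)**: P-CORE and P-NEW imply the frozen statement S35 (literal binder
block of the template). -/
theorem s35g51b_result_of_core_new (hCore : s35i62_Pkg_Core) (hNew : s35i62_Pkg_New)
    {M : ℕ} [NeZero M] {g : CuspForm (CongruenceSubgroup.Gamma0 M) 2} (hg : g.IsNewform)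
    (lam : ℕ) [Fact lam.Prime]
    (S : Finset ℕ)
    (O' : Type) [CommRing O'] [IsDomain O'] [IsDiscreteValuationRing O']
    [IsAdicComplete (IsLocalRing.maximalIdeal O') O'] [Finite (IsLocalRing.ResidueField O')]
    [CharZero O'] (hlamO' : (lam : O') ∈ IsLocalRing.maximalIdeal O')
    (chig : CuspForm.heckeAlgebra M 2 (↑S : Set ℕ) →+* ℂ)
    (hchig : ∀ (ℓ : ℕ) (hℓ : ℓ.Prime) (hℓM : ¬ ℓ ∣ M) (hℓS : ℓ ∉ (↑S : Set ℕ)),
      chig (CuspForm.heckeAlgebra.T hℓ hℓM hℓS) = ModularFormClass.qCoeff g ℓ)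
    (iota : chig.range →+* O')
    (hlamS : lam ∈ S) (hMS : ∀ q : ℕ, q.Prime → q ∣ M → q ∈ S)
    :
    ∃ (O'' : Type) (_ : CommRing O'') (_ : IsDomain O'') (_ : IsDiscreteValuationRing O'')
      (_ : IsAdicComplete (IsLocalRing.maximalIdeal O'') O'') (_ : Finite (IsLocalRing.ResidueField O''))
      (_ : CharZero O'') (_ : Algebra O' O'') (_ : Module.Finite O' O'') (_ : IsLocalHom (algebraMap O' O'')),
      Function.Injective (algebraMap O' O'') ∧
      ∃ ρ : GaloisRepAdic O'',
        (∀ (ℓ : ℕ) (hℓ : ℓ.Prime) (hℓM : ¬ ℓ ∣ M) (hℓS : ℓ ∉ (↑S : Set ℕ)),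
          ∀ A : ValuationSubring (AlgebraicClosure ℚ), A.LiesOverPrime ℓ →
            ∀ σ : AlgebraicClosure ℚ ≃ₐ[ℚ] AlgebraicClosure ℚ, A.IsFrobeniusAt σ ℓ →
              LinearMap.charpoly (ρ.ρ σ) =
                X ^ 2 - C (algebraMap O' O'' ((iota.comp chig.rangeRestrict) (CuspForm.heckeAlgebra.T hℓ hℓM hℓS))) * X
                  + C ((ℓ : O''))) ∧
        (∀ q : ℕ, q.Prime → q ≠ lam → q ∣ M → ¬ q ^ 2 ∣ M →
          ∀ A : ValuationSubring (AlgebraicClosure ℚ), A.LiesOverPrime q →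
            ∀ σ : AlgebraicClosure ℚ ≃ₐ[ℚ] AlgebraicClosure ℚ, A.IsFrobeniusAt σ q →
              LinearMap.charpoly (ρ.ρ σ) = X ^ 2 - C ((q : O'') + 1) * X + C ((q : O'')) ∨
              LinearMap.charpoly (ρ.ρ σ) = X ^ 2 + C ((q : O'') + 1) * X + C ((q : O''))) :=
  s35i62b_top hNew
    (fun N q p hq hp hpq hqN hq2 => s35g51b_AStarAt hCore N q p hq hp hpq hqN hq2)
    hg lam S O' hlamO' chig hchig iota hlamS hMS

end Fermat.Agent.S35
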