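import Mathlib

/-!
# S35 lab (helper14): the algebraic endgame step (Mathlib only)

`O` a domain, `T` a torsion-free `O`-module, `σ w : End_O(T)` commuting, `w ∘ w = 1`, and ONE
nonzero vector `m` with

* `σ² m - t σ m + q m = 0`                      (the quadratic relation of the Galois
  representation at a Frobenius lift: `t` = trace, `q` = determinant), and
* `(σ + q w)(σ + w)² m = 0`                      (the geometric relation on the `q`-new torsion).

Then `t = q + 1` or `t = -(q + 1)` (`s35t14_trace`).
-/

set_option autoImplicit false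
set_option linter.unusedSectionVars false

open Polynomial

namespace Fermat.Agent.S35

section

variable {O T : Type*} [CommRing O] [IsDomain O] [AddCommGroup T] [Module O T]

/-- Core elimination: a nonzero vector `v` killed by `σ² - tσ + q` and by
`(σ + qe)(σ + e)²`, `e² = 1`, forces `q + 1 + t e = 0`. -/
theorem s35t14_elim (htf : ∀ (a : O) (v : T), a • v = 0 → a = 0 ∨ v = 0)
    (σ : Module.End O T) (t q e : O) (hq : q ≠ 0) (he : e * e = 1)
    (v : T) (hv : v ≠ 0)
    (hP : σ (σ v) - t • σ v + q • v = 0)
    (hQ : (σ + (q * e) • (1 : Module.End O T)) ((σ + e • (1 : Module.End O T))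
      ((σ + e • (1 : Module.End O T)) v)) = 0) :
    q + 1 + t * e = 0 := by
  by_contra hr
  set r : O := q + 1 + t * e with hrdef
  -- polynomials
  let P : O[X] := X ^ 2 - C t * X + C q
  let A : O[X] := X + C e
  let B : O[X] := X + C (q * e)
  let Cc : O[X] := X - C (t + e)
  let D : O[X] := X - C (t + q * e)
  have hCe : (C e : O[X]) * C e = 1 := by rw [← C_mul, he, C_1]
  have hAC : A * Cc = P - C r := by
    show (X + C e) * (X - C (t + e)) = X ^ 2 - C t * X + C q - C (q + 1 + t * e)
    simp only [C_add, C_mul, C_1]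
    linear_combination (-1 : O[X]) * hCe
  have hBD : B * D = P - C (q * r) := by
    show (X + C (q * e)) * (X - C (t + q * e)) = X ^ 2 - C t * X + C q - C (q * (q + 1 + t * e))
    simp only [C_add, C_mul, C_1]
    linear_combination (-(C q * C q) : O[X]) * hCe
  have hid : Cc * Cc * D * (B * A * A) =
      P * (P ^ 2 - (C (2 * r + q * r)) * P + C (r ^ 2 + 2 * r * (q * r))) - C (r ^ 2 * (q * r)) := by
    have : Cc * Cc * D * (B * A * A) = (A * Cc) * (A * Cc) * (B * D) := by ring
    rw [this, hAC, hBD]
    simp only [C_add, C_mul, C_pow, C_ofNat]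
    ring
  -- evaluate at σ and v
  have hPv : (aeval σ P) v = 0 := by
    have : aeval σ P = σ * σ - t • σ + q • (1 : Module.End O T) := by
      show aeval σ (X ^ 2 - C t * X + C q) = _
      simp only [map_add, map_sub, map_mul, aeval_X, aeval_C, pow_two,
        Algebra.algebraMap_eq_smul_one, smul_mul_assoc, one_mul]
    rw [this]
    simpa using hP
  have hBAAv : (aeval σ (B * A * A)) v = 0 := by
    have hA : aeval σ A = σ + e • (1 : Module.End O T) := by
      show aeval σ (X + C e) = _
      simp only [map_add, aeval_X, aeval_C, Algebra.algebraMap_eq_smul_one]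
    have hB : aeval σ B = σ + (q * e) • (1 : Module.End O T) := by
      show aeval σ (X + C (q * e)) = _
      simp only [map_add, aeval_X, aeval_C, Algebra.algebraMap_eq_smul_one]
    rw [map_mul, map_mul, hA, hB]
    exact hQ
  have hcomm : ∀ S : O[X], (aeval σ P) ((aeval σ S) v) = 0 := by
    intro S
    have : (aeval σ P) ((aeval σ S) v) = (aeval σ (P * S)) v := by
      rw [map_mul]; rfl
    rw [this, mul_comm, map_mul]
    show (aeval σ S) ((aeval σ P) v) = 0
    rw [hPv, map_zero]
  have h2 : (aeval σ (C (r ^ 2 * (q * r)) : O[X])) v = (r ^ 2 * (q * r)) • v := by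
    rw [aeval_C, Algebra.algebraMap_eq_smul_one]
    rfl
  have hL : (aeval σ (Cc * Cc * D * (B * A * A))) v = 0 := by
    rw [map_mul (aeval σ) (Cc * Cc * D) (B * A * A), Module.End.mul_apply, hBAAv, map_zero]
  have hR : (aeval σ (P * (P ^ 2 - (C (2 * r + q * r)) * P + C (r ^ 2 + 2 * r * (q * r)))
      - C (r ^ 2 * (q * r)))) v = - ((r ^ 2 * (q * r)) • v) := by
    rw [map_sub, LinearMap.sub_apply, map_mul, Module.End.mul_apply, hcomm, h2, zero_sub]
  rw [hid, hR] at hL
  have h3 : (r ^ 2 * (q * r)) • v = 0 := by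
    have := congrArg Neg.neg hL
    simpa using this
  rcases htf _ _ h3 with h4 | h4
  · have : r ^ 2 * (q * r) ≠ 0 := mul_ne_zero (pow_ne_zero 2 hr) (mul_ne_zero hq hr)
    exact this h4
  · exact hv h4

/-- **The trace at a Frobenius lift.**  One nonzero vector `m` of a torsion-free module with
`σ² m - t σ m + q m = 0` and `(σ + q w)(σ + w)² m = 0`, for commuting `σ, w` with `w² = 1`,
forces `t = q + 1` or `t = -(q + 1)`. -/
theorem s35t14_trace (htf : ∀ (a : O) (v : T), a • v = 0 → a = 0 ∨ v = 0)
    (h2 : (2 : O) ≠ 0)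
    (σ w : Module.End O T) (hσw : ∀ x : T, σ (w x) = w (σ x)) (hw : ∀ x : T, w (w x) = x)
    (t q : O) (hq : q ≠ 0) (m : T) (hm : m ≠ 0)
    (hP : σ (σ m) - t • σ m + q • m = 0)
    (hQ : (σ + q • w) ((σ + w) ((σ + w) m)) = 0) :
    t = q + 1 ∨ t = -(q + 1) := by
  -- the key: for `e = ± 1` and `v := w m + e m ≠ 0`
  have key : ∀ e : O, e * e = 1 → w m + e • m ≠ 0 → q + 1 + t * e = 0 := by
    intro e he hv
    set v : T := w m + e • m with hvdef
    have hwv : w v = e • v := by
      rw [hvdef, map_add, map_smul, hw, smul_add, smul_smul, he, one_smul, add_comm]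
    -- `w` acts as `e` along the chain
    have step : ∀ u : T, w u = e • u → (σ + w) u = (σ + e • (1 : Module.End O T)) u ∧
        w ((σ + w) u) = e • (σ + w) u := by
      intro u hu
      refine ⟨by simp [hu], ?_⟩
      rw [LinearMap.add_apply, map_add, ← hσw, hu, map_smul, smul_add, map_smul, hu]
    obtain ⟨e1, w1⟩ := step v hwv
    obtain ⟨e2, w2⟩ := step _ w1
    have hPv : σ (σ v) - t • σ v + q • v = 0 := by
      have h1 : σ (σ (w m)) - t • σ (w m) + q • w m = w (σ (σ m) - t • σ m + q • m) := by
        rw [map_add, map_sub, map_smul, map_smul, hσw, hσw]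
      have h3 : σ (σ v) - t • σ v + q • v =
          (σ (σ (w m)) - t • σ (w m) + q • w m) + e • (σ (σ m) - t • σ m + q • m) := by
        rw [hvdef]
        simp only [map_add, map_smul, smul_add, smul_sub, smul_smul]
        rw [mul_comm t e, mul_comm q e]
        abel
      rw [h3, h1, hP, map_zero, smul_zero, add_zero]
    have hQv : (σ + (q * e) • (1 : Module.End O T)) ((σ + e • (1 : Module.End O T))
        ((σ + e • (1 : Module.End O T)) v)) = 0 := by
      rw [← e1, ← e2]
      have h3 : (σ + (q * e) • (1 : Module.End O T)) ((σ + w) ((σ + w) v)) =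
          (σ + q • w) ((σ + w) ((σ + w) v)) := by
        generalize (σ + w) ((σ + w) v) = y at w2 ⊢
        simp only [LinearMap.add_apply, LinearMap.smul_apply, Module.End.one_apply]
        rw [w2, smul_smul]
      rw [h3]
      -- `Z := (σ + q w)(σ + w)(σ + w)` commutes with `w`
      have hZw : ∀ x : T, (σ + q • w) ((σ + w) ((σ + w) (w x))) =
          w ((σ + q • w) ((σ + w) ((σ + w) x))) := by
        intro x
        have c1 : ∀ y : T, (σ + w) (w y) = w ((σ + w) y) := by
          intro y
          simp only [LinearMap.add_apply, map_add, hσw]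
        have c2 : ∀ y : T, (σ + q • w) (w y) = w ((σ + q • w) y) := by
          intro y
          simp only [LinearMap.add_apply, LinearMap.smul_apply, map_add, map_smul, hσw]
        rw [c1, c1, c2]
      rw [hvdef, map_add, map_add, map_add, map_smul, map_smul, map_smul, hZw, hQ, map_zero,
        smul_zero, add_zero]
    exact s35t14_elim htf σ t q e hq he v hv hPv hQv
  by_cases h1 : w m + (1 : O) • m = 0
  · -- then `w m - m ≠ 0`
    have h3 : w m + (-1 : O) • m ≠ 0 := by
      intro h4
      have h5 : (2 : O) • m = 0 := by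
        have : (2 : O) • m = (w m + (1 : O) • m) - (w m + (-1 : O) • m) := by
          simp only [one_smul, neg_smul]
          rw [two_smul]
          abel
        rw [this, h1, h4, sub_zero]
      rcases htf _ _ h5 with h6 | h6
      · exact h2 h6
      · exact hm h6
    have := key (-1) (by ring) h3
    left
    linear_combination -this
  · have := key 1 (by ring) h1
    right
    linear_combination this

end

section roots

variable {O T : Type*} [CommRing O] [IsDomain O] [AddCommGroup T] [Module O T]

/-- **Root elimination.**  If no `ρ` of the list `l` is a root of `X² - tX + q`, a vector killed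
by `σ² - tσ + q` and by `∏_{ρ ∈ l} (σ - ρ)` is zero. -/
theorem s35t14_roots (htf : ∀ (a : O) (v : T), a • v = 0 → a = 0 ∨ v = 0)
    (σ : Module.End O T) (t q : O) (l : List O)
    (hl : ∀ ρ ∈ l, ρ * ρ - t * ρ + q ≠ 0) :
    ∀ v : T, σ (σ v) - t • σ v + q • v = 0 →
      (l.map fun ρ => σ - ρ • (1 : Module.End O T)).prod v = 0 → v = 0 := by
  induction l with
  | nil =>
    intro v _ hv
    simpa using hv
  | cons ρ l ih =>
    intro v hP hv
    have hl' : ∀ ρ' ∈ l, ρ' * ρ' - t * ρ' + q ≠ 0 := fun ρ' h => hl ρ' (List.mem_cons_of_mem _ h)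
    set Xl : Module.End O T := (l.map fun ρ => σ - ρ • (1 : Module.End O T)).prod with hXl
    have hcomm : Commute σ Xl := by
      rw [hXl]
      refine Commute.list_prod_right _ _ fun x hx => ?_
      obtain ⟨ρ', -, rfl⟩ := List.mem_map.mp hx
      exact (Commute.refl σ).sub_right ((Commute.one_right σ).smul_right ρ')
    have hc : ∀ y : T, σ (Xl y) = Xl (σ y) := fun y =>
      congrArg (fun f : Module.End O T => f y) hcomm.eq
    set u : T := Xl v with hu
    have hPu : σ (σ u) - t • σ u + q • u = 0 := by
      have h1 : σ (σ (Xl v)) - t • σ (Xl v) + q • Xl v = Xl (σ (σ v) - t • σ v + q • v) := by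
        rw [hc, hc, map_add, map_sub, map_smul, map_smul]
      rw [hu, h1, hP, map_zero]
    have hσu : σ u = ρ • u := by
      have : (σ - ρ • (1 : Module.End O T)) u = 0 := by
        rw [List.map_cons, List.prod_cons] at hv
        exact hv
      rw [LinearMap.sub_apply, LinearMap.smul_apply, Module.End.one_apply, sub_eq_zero] at this
      exact this
    have h0 : (ρ * ρ - t * ρ + q) • u = 0 := by
      rw [hσu, map_smul, hσu] at hPu
      rw [add_smul, sub_smul, mul_smul, mul_smul]
      exact hPu
    rcases htf _ _ h0 with h1 | h1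
    · exact absurd h1 (hl ρ List.mem_cons_self)
    · exact ih hl' v hP h1

/-- **The trace at a Frobenius lift, product form**: a nonzero vector killed by `σ² - tσ + q` and
by a product `∏ (σ - ρ_i)` with all `ρ_i ∈ {1, -1, q, -q}` forces `t = q + 1` or `t = -(q + 1)`. -/
theorem s35t14_trace_of_roots (htf : ∀ (a : O) (v : T), a • v = 0 → a = 0 ∨ v = 0)
    (σ : Module.End O T) (t q : O) (hq : q ≠ 0) (l : List O)
    (hl : ∀ ρ ∈ l, ρ = 1 ∨ ρ = -1 ∨ ρ = q ∨ ρ = -q) (v : T) (hv : v ≠ 0)
    (hP : σ (σ v) - t • σ v + q • v = 0)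
    (hQ : (l.map fun ρ => σ - ρ • (1 : Module.End O T)).prod v = 0) :
    t = q + 1 ∨ t = -(q + 1) := by
  by_contra hcon
  rw [not_or] at hcon
  obtain ⟨h1, h2⟩ := hcon
  have ha : q + 1 - t ≠ 0 := fun h => h1 (by linear_combination -h)
  have hb : q + 1 + t ≠ 0 := fun h => h2 (by linear_combination h)
  refine hv (s35t14_roots htf σ t q l (fun ρ hρ => ?_) v hP hQ)
  rcases hl ρ hρ with rfl | rfl | rfl | rfl
  · intro h; exact ha (by linear_combination h)
  · intro h; exact hb (by linear_combination h)
  · intro h
    have : ρ * (ρ + 1 - t) = 0 := by linear_combination h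
    rcases mul_eq_zero.mp this with h3 | h3
    · exact hq h3
    · exact ha h3
  · intro h
    have : q * (q + 1 + t) = 0 := by linear_combination h
    rcases mul_eq_zero.mp this with h3 | h3
    · exact hq h3
    · exact hb h3

/-- **The form of proposal #2519**: `(σ² - q²)(σ² - 1)² v = 0`, `v ≠ 0`,
`σ² v - t σ v + q v = 0` force `t = ±(q + 1)`. -/
theorem s35t14_trace_of_sq (htf : ∀ (a : O) (v : T), a • v = 0 → a = 0 ∨ v = 0)
    (σ : Module.End O T) (t q : O) (hq : q ≠ 0) (v : T) (hv : v ≠ 0)
    (hP : σ (σ v) - t • σ v + q • v = 0)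
    (hQ : (σ * σ - (q * q) • (1 : Module.End O T))
      ((σ * σ - 1) ((σ * σ - 1) v)) = 0) :
    t = q + 1 ∨ t = -(q + 1) := by
  refine s35t14_trace_of_roots htf σ t q hq [q, -q, 1, -1, 1, -1] ?_ v hv hP ?_
  · intro ρ hρ
    simp only [List.mem_cons, List.not_mem_nil, or_false] at hρ
    rcases hρ with rfl | rfl | rfl | rfl | rfl | rfl <;> simp
  · have e1 : (σ - q • (1 : Module.End O T)) * (σ - (-q) • (1 : Module.End O T)) =
        σ * σ - (q * q) • (1 : Module.End O T) := by
      rw [neg_smul, sub_neg_eq_add, sub_mul, mul_add, mul_add, smul_mul_assoc, one_mul,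
        smul_mul_assoc, one_mul, mul_smul_comm, mul_one, mul_smul]
      abel
    have e2 : (σ - (1 : O) • (1 : Module.End O T)) * (σ - (-1 : O) • (1 : Module.End O T)) =
        σ * σ - 1 := by
      rw [neg_smul, one_smul, sub_neg_eq_add, sub_mul, mul_add, mul_add, one_mul, mul_one,
        one_mul]
      abel
    have e3 : ([q, -q, 1, -1, 1, -1].map fun ρ => σ - ρ • (1 : Module.End O T)).prod =
        (σ * σ - (q * q) • (1 : Module.End O T)) * ((σ * σ - 1) * (σ * σ - 1)) := by
      simp only [List.map_cons, List.map_nil, List.prod_cons, List.prod_nil, mul_one]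
      rw [← e1, ← e2]
      simp only [mul_assoc]
    rw [e3]
    exact hQ

end roots

end Fermat.Agent.S35
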