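import Mathlib
import Fermat.Agent.S35.Iface62
import Fermat.Agent.S35.Endgame60
import Fermat.Agent.S35.TraceAlg14
import Fermat.Agent.S30.CoreIface73

/-!
# S35 lab (helper67): the gate, independent twin of row ENDGAME-62

The six packages of `Iface62` give the frozen statement S35.

* `s35g67_Pkg_ET` : the package (ET35) of `Iface62` restricted to coefficient rings of
  characteristic zero (the literal `s35i62_Pkg_ET` quantifies over all complete discrete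
  valuation rings; the eigen-Tate module of S30 needs `CharZero`).
* `s35g67_M8` : the clause (M8) of `Endgame60` (trace `= ± (q + 1)` at the Frobenius lifts at
  `q`) from the clause (M8) of `Iface62` in the `K`-span form and (A\*) at level `N`.
* `s35g67_ET` : `s35e60_ET` from `s35i62_ETClaim` at ONE coefficient ring, `s35i62_NewClaim`
  and (A\*) at the primes `q ∥ M`, `q ≠ lam`.
* `s35g67_core` : the conclusion of the frozen S35 from the same three inputs.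
* `s35g67_result_of_pkgs` : the six packages imply the frozen statement S35.

All names are prefixed `s35g67_`.
-/

set_option autoImplicit false
set_option linter.style.longLine false
set_option linter.unusedVariables false
set_option linter.unusedSectionVars false

open ModularCurve AlgebraicCurve CongruenceSubgroup ModularCurve.Period Polynomial
open scoped TensorProduct

namespace Fermat.Agent.S35

open Fermat.Agent.S18 Fermat.Agent.S34 Fermat.Agent.S30 Fermat.Agent.S16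

local notation "Q̄" => AlgebraicClosure ℚ
local notation "GQ" => AlgebraicClosure ℚ ≃ₐ[ℚ] AlgebraicClosure ℚ

/-- **P-ET in characteristic zero**: the package (ET35) of `Iface62` for coefficient rings of
characteristic zero. -/
def s35g67_Pkg_ET : Prop :=
  ∀ (p : ℕ) [Fact p.Prime] (N : ℕ) [NeZero N] (S : Finset ℕ)
    (O : Type) [CommRing O] [IsDomain O] [IsDiscreteValuationRing O]
    [IsAdicComplete (IsLocalRing.maximalIdeal O) O] [CharZero O]
    (hp : (p : O) ∈ IsLocalRing.maximalIdeal O), s35i62_ETClaim p N S O hp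

/-- The literal package of `Iface62` implies its characteristic-zero form. -/
theorem s35g67_pkg_ET_of (h : s35i62_Pkg_ET) : s35g67_Pkg_ET :=
  fun p _ N _ S O _ _ _ _ _ hp => h p N S O hp

/-- The relation `P(T) w = 0`, `P = (X² − q²)(X² − 1)²`, in the nested form of `TraceAlg14`, from
its expanded form. -/
theorem s35g67_expand {O Mod : Type*} [CommRing O] [AddCommGroup Mod] [Module O Mod]
    (T : Module.End O Mod) (c : O) (w : Mod)
    (h : (-(c * c)) • w + (2 * (c * c) + 1) • (T * T) w + (-(c * c + 2)) • (T * T * (T * T)) w +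
      (T * T * (T * T) * (T * T)) w = 0) :
    (T * T - (c * c) • (1 : Module.End O Mod)) ((T * T - 1) ((T * T - 1) w)) = 0 := by
  simp only [LinearMap.sub_apply, Module.End.mul_apply, LinearMap.smul_apply,
    Module.End.one_apply, map_sub] at h ⊢
  rw [← h]
  module

/-- **(M8) of `Endgame60` from (M8) of `Iface62`.**  If every integral relation
`c₀ + c₁ σ² + c₂ σ⁴ + c₃ σ⁶ = 0` valid on all `Θ n k`, `k ∈ K`, holds on a nonzero vector of the
module, and `(σ² − q²)(1 − σ²)²` kills the `Θ n k` for every Frobenius lift `σ` at `q`, then the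
trace of a Frobenius lift at `q` is `± (q + 1)`. -/
theorem s35g67_M8 (q : ℕ) (N : ℕ) [NeZero N] (O : Type) [CommRing O] [IsDomain O]
    (hq0 : (q : O) ≠ 0) (Mod : Type) [AddCommGroup Mod] [Module O Mod]
    (ρ : GQ →* Module.End O Mod)
    (hM1 : ∀ (b : O) (w : Mod), b • w = 0 → b = 0 ∨ w = 0)
    (Θ : ℕ → (↥(parabolicHoms ℤ (Gamma0 N) ℤ) →+ JZero N))
    (K : AddSubgroup ↥(parabolicHoms ℤ (Gamma0 N) ℤ))
    (hM8 : ∀ (σ : GQ) (c₀ c₁ c₂ c₃ : ℤ),
      (∀ (n : ℕ) (k : ↥(parabolicHoms ℤ (Gamma0 N) ℤ)), k ∈ K →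
        c₀ • Θ n k + c₁ • (σ ^ 2) • Θ n k + c₂ • (σ ^ 4) • Θ n k + c₃ • (σ ^ 6) • Θ n k = 0) →
      ∃ w : Mod, w ≠ 0 ∧
        (c₀ : O) • w + (c₁ : O) • ρ (σ ^ 2) w + (c₂ : O) • ρ (σ ^ 4) w +
          (c₃ : O) • ρ (σ ^ 6) w = 0)
    (hA : ∀ (A : ValuationSubring Q̄), A.LiesOverPrime q → ∀ σ : GQ, A.IsFrobeniusAt σ q →
      ∀ (n : ℕ) (k : ↥(parabolicHoms ℤ (Gamma0 N) ℤ)), k ∈ K →
        (σ ^ 6) • Θ n k + (2 * q ^ 2 + 1) • (σ ^ 2) • Θ n k =
          (q ^ 2 + 2) • (σ ^ 4) • Θ n k + (q ^ 2) • Θ n k) :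
    s35e60_M8 q O Mod ρ := by
  intro A hAq τ hτ b hb
  obtain ⟨w, hw, hrel⟩ := hM8 τ (-((q : ℤ) * q)) (2 * ((q : ℤ) * q) + 1) (-((q : ℤ) * q + 2)) 1
    (by
      intro n k hk
      have h := hA A hAq τ hτ n k hk
      have e1 : ((2 * q ^ 2 + 1 : ℕ)) • (τ ^ 2) • Θ n k =
          (2 * ((q : ℤ) * q) + 1) • (τ ^ 2) • Θ n k := by
        rw [← natCast_zsmul]
        congr 1
        push_cast
        ring
      have e2 : ((q ^ 2 + 2 : ℕ)) • (τ ^ 4) • Θ n k = ((q : ℤ) * q + 2) • (τ ^ 4) • Θ n k := by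
        rw [← natCast_zsmul]
        congr 1
        push_cast
        ring
      have e3 : ((q ^ 2 : ℕ)) • Θ n k = ((q : ℤ) * q) • Θ n k := by
        rw [← natCast_zsmul]
        congr 1
        push_cast
        ring
      rw [e1, e2, e3] at h
      rw [neg_smul, neg_smul, one_smul, ← sub_eq_zero.mpr h]
      abel)
  refine s35t14_trace_of_sq hM1 (ρ τ) b (q : O) hq0 w hw (hb w) ?_
  refine s35g67_expand (ρ τ) (q : O) w ?_
  have p2 : ρ (τ ^ 2) = ρ τ * ρ τ := by rw [map_pow, pow_two]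
  have p4 : ρ (τ ^ 4) = ρ τ * ρ τ * (ρ τ * ρ τ) := by
    rw [map_pow]
    noncomm_ring
  have p6 : ρ (τ ^ 6) = ρ τ * ρ τ * (ρ τ * ρ τ) * (ρ τ * ρ τ) := by
    rw [map_pow]
    noncomm_ring
  rw [p2, p4, p6] at hrel
  push_cast at hrel
  rw [one_smul] at hrel
  exact hrel

/-- **`s35e60_ET` from the interface**: (ET35) at ONE coefficient ring + (NEW) + (A\*) at every
prime `q ∥ M`, `q ≠ lam` give the one `Prop` consumed by `s35e60_endgame`. -/
theorem s35g67_ET (lam : ℕ) [Fact lam.Prime] (M : ℕ) [NeZero M] (S : Finset ℕ)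
    (hlamS : lam ∈ S) (hMS : ∀ q : ℕ, q.Prime → q ∣ M → q ∈ S)
    (O' : Type) [CommRing O'] [IsDomain O'] [IsDiscreteValuationRing O']
    [IsAdicComplete (IsLocalRing.maximalIdeal O') O'] [CharZero O']
    (hlamO' : (lam : O') ∈ IsLocalRing.maximalIdeal O')
    (χ : CuspForm.heckeAlgebra M 2 (↑S : Set ℕ) →+* O')
    (hET : s35i62_ETClaim lam M S O' hlamO')
    (hNew : s35i62_NewClaim M lam S O' χ)
    (hA : ∀ q : ℕ, q.Prime → q ≠ lam → q ∣ M → ¬ q ^ 2 ∣ M → s35i62_AStarAt M q lam) :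
    s35e60_ET lam M S O' hlamO' (fun ℓ =>
      if h : ℓ.Prime ∧ ¬ ℓ ∣ M ∧ ℓ ∉ (↑S : Set ℕ) then
        χ (CuspForm.heckeAlgebra.T h.1 h.2.1 h.2.2) else 0) := by
  classical
  obtain ⟨Θ, hΘ, Φ, hΦ, x0, K, hx0, hx0e, hx0K, hKnew⟩ := hNew
  have hgood : ∀ ℓ : ℕ, ℓ.Prime → ℓ ∉ S → ℓ.Prime ∧ ¬ ℓ ∣ M ∧ ℓ ∉ (↑S : Set ℕ) :=
    fun ℓ hℓ hℓS => ⟨hℓ, fun hd => hℓS (hMS ℓ hℓ hd), fun hm => hℓS (Finset.mem_coe.mp hm)⟩
  let TL : ℕ → Module.End ℤ ↥(parabolicHoms ℤ (Gamma0 M) ℤ) := fun ℓ =>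
    if h : ℓ.Prime ∧ ¬ ℓ ∣ M ∧ ℓ ∉ (↑S : Set ℕ) then
      Φ (CuspForm.heckeAlgebra.T h.1 h.2.1 h.2.2) else 0
  obtain ⟨Mod, i1, i2, ρ, hM1, hM2, hM3, hM4, -, hM6, hM7, hM8⟩ :=
    hET hlamS hMS (fun ℓ =>
      if h : ℓ.Prime ∧ ¬ ℓ ∣ M ∧ ℓ ∉ (↑S : Set ℕ) then
        χ (CuspForm.heckeAlgebra.T h.1 h.2.1 h.2.2) else 0) TL x0 Θ
      (by
        intro ℓ hℓ hℓS x
        have hg := hgood ℓ hℓ hℓS
        show (((if h : ℓ.Prime ∧ ¬ ℓ ∣ M ∧ ℓ ∉ (↑S : Set ℕ) then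
          Φ (CuspForm.heckeAlgebra.T h.1 h.2.1 h.2.2) else 0) x :
            ↥(parabolicHoms ℤ (Gamma0 M) ℤ)) : Additive ↥(Gamma0 M) →+ ℤ) = _
        rw [dif_pos hg]
        exact hΦ ℓ hg.1 hg.2.1 hg.2.2 x)
      hx0
      (by
        intro ℓ hℓ hℓS
        have hg := hgood ℓ hℓ hℓS
        show ((if h : ℓ.Prime ∧ ¬ ℓ ∣ M ∧ ℓ ∉ (↑S : Set ℕ) then
          Φ (CuspForm.heckeAlgebra.T h.1 h.2.1 h.2.2) else 0)).baseChange O' x0 = _
        rw [dif_pos hg, dif_pos hg]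
        exact hx0e _)
      hΘ
  refine ⟨Mod, i1, i2, ρ, hM1, hM2, hM3, hM4, hM6, hM7, ?_⟩
  intro q hq hqlam hqM hq2
  have hq0 : (q : O') ≠ 0 := Nat.cast_ne_zero.mpr hq.ne_zero
  refine s35g67_M8 q M O' hq0 Mod ρ hM1 Θ K (hM8 K hx0K) ?_
  intro A hAq σ hσ n k hk
  refine hA q hq hqlam hqM hq2 n A hAq σ hσ (Θ n k) ?_ (hKnew k hk n q hq hqlam hqM hq2)
  have h := hΘ.1 n k
  rwa [natCast_zsmul] at h

/-- **The conclusion of the frozen S35** (for a character `χ` of the Hecke algebra with values in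
`O'`) from (ET35) at `O'`, (NEW) and (A\*). -/
theorem s35g67_core (lam : ℕ) [Fact lam.Prime] (M : ℕ) [NeZero M] (S : Finset ℕ)
    (hlamS : lam ∈ S) (hMS : ∀ q : ℕ, q.Prime → q ∣ M → q ∈ S)
    (O' : Type) [CommRing O'] [IsDomain O'] [IsDiscreteValuationRing O']
    [IsAdicComplete (IsLocalRing.maximalIdeal O') O'] [Finite (IsLocalRing.ResidueField O')]
    [CharZero O'] (hlamO' : (lam : O') ∈ IsLocalRing.maximalIdeal O')
    (χ : CuspForm.heckeAlgebra M 2 (↑S : Set ℕ) →+* O')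
    (hET : s35i62_ETClaim lam M S O' hlamO')
    (hNew : s35i62_NewClaim M lam S O' χ)
    (hA : ∀ q : ℕ, q.Prime → q ≠ lam → q ∣ M → ¬ q ^ 2 ∣ M → s35i62_AStarAt M q lam) :
    ∃ (O'' : Type) (_ : CommRing O'') (_ : IsDomain O'') (_ : IsDiscreteValuationRing O'')
      (_ : IsAdicComplete (IsLocalRing.maximalIdeal O'') O'') (_ : Finite (IsLocalRing.ResidueField O''))
      (_ : CharZero O'') (_ : Algebra O' O'') (_ : Module.Finite O' O'') (_ : IsLocalHom (algebraMap O' O'')),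
      Function.Injective (algebraMap O' O'') ∧
      ∃ ρ : GaloisRepAdic O'',
        (∀ (ℓ : ℕ) (hℓ : ℓ.Prime) (hℓM : ¬ ℓ ∣ M) (hℓS : ℓ ∉ (↑S : Set ℕ)),
          ∀ A : ValuationSubring (AlgebraicClosure ℚ), A.LiesOverPrime ℓ →
            ∀ σ : AlgebraicClosure ℚ ≃ₐ[ℚ] AlgebraicClosure ℚ, A.IsFrobeniusAt σ ℓ →
              LinearMap.charpoly (ρ.ρ σ) =
                X ^ 2 - C (algebraMap O' O'' (χ (CuspForm.heckeAlgebra.T hℓ hℓM hℓS))) * X
                  + C ((ℓ : O''))) ∧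
        (∀ q : ℕ, q.Prime → q ≠ lam → q ∣ M → ¬ q ^ 2 ∣ M →
          ∀ A : ValuationSubring (AlgebraicClosure ℚ), A.LiesOverPrime q →
            ∀ σ : AlgebraicClosure ℚ ≃ₐ[ℚ] AlgebraicClosure ℚ, A.IsFrobeniusAt σ q →
              LinearMap.charpoly (ρ.ρ σ) = X ^ 2 - C ((q : O'') + 1) * X + C ((q : O'')) ∨
              LinearMap.charpoly (ρ.ρ σ) = X ^ 2 + C ((q : O'') + 1) * X + C ((q : O''))) :=
  s35e60_endgame lam M S hlamS hMS O' hlamO' χ (ex73_s30i37_core_charZero O')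
    (s35g67_ET lam M S hlamS hMS O' hlamO' χ hET hNew hA)

/-- **GATE (twin)**: the six packages of `Iface62` (P-ET in its characteristic-zero form) imply
the frozen statement S35. -/
theorem s35g67_result_of_pkgs (hCore : s35i62_Pkg_Core) (hFD : s35i62_Pkg_FieldDef)
    (hLevel : s35i62_Pkg_Level) (hPic : s35i62_Pkg_Pic) (hET : s35g67_Pkg_ET)
    (hNew : s35i62_Pkg_New)
    {M : ℕ} [NeZero M] {g : CuspForm (CongruenceSubgroup.Gamma0 M) 2} (hg : g.IsNewform)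
    (lam : ℕ) [Fact lam.Prime]
    (S : Finset ℕ)
    (O' : Type) [CommRing O'] [IsDomain O'] [IsDiscreteValuationRing O']
    [IsAdicComplete (IsLocalRing.maximalIdeal O') O'] [Finite (IsLocalRing.ResidueField O')]
    [CharZero O'] (hlamO' : (lam : O') ∈ IsLocalRing.maximalIdeal O')
    (chig : CuspForm.heckeAlgebra M 2 (↑S : Set ℕ) →+* ℂ)
    (hchig : ∀ (ℓ : ℕ) (hℓ : ℓ.Prime) (hℓM : ¬ ℓ ∣ M) (hℓS : ℓ ∉ (↑S : Set ℕ)),
      chig (CuspForm.heckeAlgebra.T hℓ hℓM hℓS) = ModularFormClass.qCoeff g ℓ)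
    (iota : chig.range →+* O')
    (hlamS : lam ∈ S) (hMS : ∀ q : ℕ, q.Prime → q ∣ M → q ∈ S) :
    ∃ (O'' : Type) (_ : CommRing O'') (_ : IsDomain O'') (_ : IsDiscreteValuationRing O'')
      (_ : IsAdicComplete (IsLocalRing.maximalIdeal O'') O'') (_ : Finite (IsLocalRing.ResidueField O''))
      (_ : CharZero O'') (_ : Algebra O' O'') (_ : Module.Finite O' O'') (_ : IsLocalHom (algebraMap O' O'')),
      Function.Injective (algebraMap O' O'') ∧
      ∃ ρ : GaloisRepAdic O'',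
        (∀ (ℓ : ℕ) (hℓ : ℓ.Prime) (hℓM : ¬ ℓ ∣ M) (hℓS : ℓ ∉ (↑S : Set ℕ)),
          ∀ A : ValuationSubring (AlgebraicClosure ℚ), A.LiesOverPrime ℓ →
            ∀ σ : AlgebraicClosure ℚ ≃ₐ[ℚ] AlgebraicClosure ℚ, A.IsFrobeniusAt σ ℓ →
              LinearMap.charpoly (ρ.ρ σ) =
                X ^ 2 - C (algebraMap O' O'' ((iota.comp chig.rangeRestrict) (CuspForm.heckeAlgebra.T hℓ hℓM hℓS))) * X
                  + C ((ℓ : O''))) ∧
        (∀ q : ℕ, q.Prime → q ≠ lam → q ∣ M → ¬ q ^ 2 ∣ M →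
          ∀ A : ValuationSubring (AlgebraicClosure ℚ), A.LiesOverPrime q →
            ∀ σ : AlgebraicClosure ℚ ≃ₐ[ℚ] AlgebraicClosure ℚ, A.IsFrobeniusAt σ q →
              LinearMap.charpoly (ρ.ρ σ) = X ^ 2 - C ((q : O'') + 1) * X + C ((q : O'')) ∨
              LinearMap.charpoly (ρ.ρ σ) = X ^ 2 + C ((q : O'') + 1) * X + C ((q : O''))) :=
  s35g67_core lam M S hlamS hMS O' hlamO' (iota.comp chig.rangeRestrict)
    (hET lam M S O' hlamO')
    (hNew M g hg lam S O' hlamO' chig hchig iota hlamS hMS)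
    (fun q hq hqlam hqM hq2 =>
      s35i62_assembly hCore hFD hLevel hPic M q lam hq (Fact.out : lam.Prime)
        (fun h => hqlam h.symm) hqM hq2)

end Fermat.Agent.S35
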