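import Fermat.Agent.S35.ThetaEval22
import Fermat.Agent.S35.CorPar22

/-!
# S35 lab, row N2a-alpha (helper22): `α_* ∘ Θ_n = Θ'_n ∘ cor`, divisor form

For families `Θ` (level `N q`) and `Θ'` (level `N`) with the existence / evaluation clauses of
`te22_family`: every `Θ n χ` is the class of a degree-zero divisor `D` such that
`Θ' n (cor22 χ)` is the class of the pushforward of `D` along `α = heckeAlphaBar`.
(For ANY additive `α_* : JZero (N q) → JZero N` with `α_* (mk D) = mk (pushforwardAlong α D)`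
this is `α_* (Θ n χ) = Θ' n (cor22 χ)`.)
-/

set_option autoImplicit false
set_option linter.unusedSectionVars false
set_option linter.unusedVariables false
set_option linter.style.longLine false
set_option linter.style.haveILetI false

open CongruenceSubgroup ModularCurve ModularCurve.Period AlgebraicCurve UpperHalfPlane
open scoped MatrixGroups

namespace Fermat.Agent.S35

open Fermat.Agent.S16 Fermat.Agent.S24 Fermat.Agent.S42 Fermat.Agent.S41 Fermat.Agent.S37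

local notation "Qb" => AlgebraicClosure ℚ

section taf22

variable (N q : ℕ) [NeZero N] [NeZero q]

/-- **`α_* ∘ Θ_n = Θ'_n ∘ cor`, divisor form.** -/
theorem taf22_compat_alpha (hq : q.Prime) (hqN : ¬ q ∣ N) (p : ℕ) (hp : p ≠ 0)
    (Θ : ℕ → (↥(parabolicHoms ℤ (Gamma0 (N * q)) ℤ) →+ JZero (N * q)))
    (hex : ∀ (n : ℕ) (χ : ↥(parabolicHoms ℤ (Gamma0 (N * q)) ℤ)),
      ∃ (h : mer95_MER) (f : ↥(modularFunctionFieldBar (N * q))),
        thz31_AdmZ Qb (ff79_ev0 phi (N * q)) (p ^ n) (th70_zeta (p ^ n))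
          (χ : Additive (Gamma0 (N * q)) →+ ℤ) h f)
    (heval : ∀ (n : ℕ) (χ : ↥(parabolicHoms ℤ (Gamma0 (N * q)) ℤ)) (h : mer95_MER)
      (f : ↥(modularFunctionFieldBar (N * q))),
      thz31_AdmZ Qb (ff79_ev0 phi (N * q)) (p ^ n) (th70_zeta (p ^ n))
        (χ : Additive (Gamma0 (N * q)) →+ ℤ) h f →
      ∀ D : Divisor.degZero (K := Qb) (F := ↥(modularFunctionFieldBar (N * q))),
        th70_IsDivOf (p ^ n) f (D : Divisor Qb ↥(modularFunctionFieldBar (N * q))) →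
          Θ n χ = Pic0.mk D)
    (Θ' : ℕ → (↥(parabolicHoms ℤ (Gamma0 N) ℤ) →+ JZero N))
    (heval' : ∀ (n : ℕ) (χ : ↥(parabolicHoms ℤ (Gamma0 N) ℤ)) (h : mer95_MER)
      (f : ↥(modularFunctionFieldBar N)),
      thz31_AdmZ Qb (ff79_ev0 phi N) (p ^ n) (th70_zeta (p ^ n))
        (χ : Additive (Gamma0 N) →+ ℤ) h f →
      ∀ D : Divisor.degZero (K := Qb) (F := ↥(modularFunctionFieldBar N)),
        th70_IsDivOf (p ^ n) f (D : Divisor Qb ↥(modularFunctionFieldBar N)) →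
          Θ' n χ = Pic0.mk D)
    (n : ℕ) (χ : ↥(parabolicHoms ℤ (Gamma0 (N * q)) ℤ)) :
    ∃ D : Divisor.degZero (K := Qb) (F := ↥(modularFunctionFieldBar (N * q))),
      Θ n χ = Pic0.mk D ∧
      Θ' n ⟨cor22 (Gamma0 N) (Gamma0 (N * q)) (χ : Additive (Gamma0 (N * q)) →+ ℤ),
          cor22_mem_parabolicHoms ℤ (Gamma0 N) (Gamma0 (N * q)) χ.2⟩
        = Pic0.mk ⟨Divisor.pushforwardAlong (heckeAlphaBar Qb N q)
            (hx63_heckeAlphaBarIntegral N q)
            (D : Divisor Qb ↥(modularFunctionFieldBar (N * q))),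
          Divisor.pushforwardAlong_mem_degZero _ _ D.2⟩ := by
  haveI := hi63_hasPrincipalDivisors_bar (N * q)
  have hm : p ^ n ≠ 0 := pow_ne_zero n hp
  obtain ⟨h, f, H⟩ := hex n χ
  obtain ⟨h0, f0, hchar, hpow, hdvd⟩ := id H
  obtain ⟨D, hD, hdeg⟩ := th70_exists_div (K := Qb) hm f0 hdvd
  obtain ⟨⟨H', hadm⟩, hdiv⟩ := te22_adm_alpha N q hq hqN (p ^ n) hm
    (χ : Additive (Gamma0 (N * q)) →+ ℤ) h f H
  refine ⟨⟨D, Divisor.mem_degZero.mpr hdeg⟩, heval n χ h f H _ hD, ?_⟩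
  exact heval' n ⟨_, cor22_mem_parabolicHoms ℤ (Gamma0 N) (Gamma0 (N * q)) χ.2⟩ H' _ hadm
    ⟨_, Divisor.pushforwardAlong_mem_degZero _ _ (Divisor.mem_degZero.mpr hdeg)⟩ (hdiv D hD)

end taf22

end Fermat.Agent.S35
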