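import Fermat.Agent.S35.HeckeTransfer69
import Fermat.Agent.S35.ThetaAlphaFull22
import Fermat.Agent.S35.CorPar68

/-!
# S35 lab, row N3 (helper69), binding for `α`: the transfer commutes with ALL `T_ℓ`, `ℓ ∤ N q`

`hta69_hcomm_alpha` : for a prime `q ∤ N` and ANY additive map `π : JZero (N q) → JZero N` which
is Galois-equivariant and induced by the push-forward of divisors along `α = heckeAlphaBar`
(`π (Pic0.mk D) = Pic0.mk (α_* D)`; this is what row N4 provides), the transfer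
`cp68_corAlpha : Hom_par(Γ₀(N q), ℤ) → Hom_par(Γ₀(N), ℤ)` (helper68) satisfies

  `cor (T_ℓ c) = T_ℓ (cor c)` for EVERY prime `ℓ ∤ N q`

(`T_ℓ = hl42_TL`), including the torsion primes: the THETA-Z families with evaluation clause
(`te22_family`, helper22) are used at the two primes `2` and `3`, with `taf22_compat_alpha`
(helper22: `α_* ∘ Θ_n = Θ'_n ∘ cor`) and `ht69_cores_hecke_two`.

* `hta69_2a_alpha` : `π (Θ n χ) = Θ' n (cor χ)` for any two families with the clauses of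
  `te22_family`;
* `hta69_hcomm_alpha`, `hta69_hcomm_alpha_comp` (linear-map form = `hcomm` of row N5),
  `hta69_eigen_alpha` (transport of eigenvectors over any commutative ring `O`).
-/

set_option autoImplicit false
set_option linter.style.haveILetI false
set_option linter.unusedSectionVars false
set_option linter.unusedVariables false
set_option linter.style.longLine false

open CongruenceSubgroup ModularCurve ModularCurve.Period AlgebraicCurve UpperHalfPlane
open scoped TensorProduct MatrixGroups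

namespace Fermat.Agent.S35

open Fermat.Agent.S16 Fermat.Agent.S24 Fermat.Agent.S31 Fermat.Agent.S42 Fermat.Agent.S41
  Fermat.Agent.S37 Fermat.Agent.S30

local notation "Qb" => AlgebraicClosure ℚ
local notation "GQ" => AlgebraicClosure ℚ ≃ₐ[ℚ] AlgebraicClosure ℚ

section hta69

variable (N q : ℕ) [NeZero N] [NeZero q]

/-- **(2a) for `α` in the `Θ'`-form**, for any additive `π` induced by the push-forward of
divisors along `α` and any two families with the existence / evaluation clauses. -/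
theorem hta69_2a_alpha (hq : q.Prime) (hqN : ¬ q ∣ N)
    (π : JZero (N * q) →+ JZero N)
    (hπmk : ∀ D : Divisor.degZero (K := Qb) (F := ↥(modularFunctionFieldBar (N * q))),
      π (Pic0.mk D) = Pic0.mk ⟨Divisor.pushforwardAlong (heckeAlphaBar Qb N q)
            (hx63_heckeAlphaBarIntegral N q)
            (D : Divisor Qb ↥(modularFunctionFieldBar (N * q))),
          Divisor.pushforwardAlong_mem_degZero _ _ D.2⟩)
    (p : ℕ) (hp : p ≠ 0)
    (Θ : ℕ → (↥(parabolicHoms ℤ (Gamma0 (N * q)) ℤ) →+ JZero (N * q)))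
    (hex : ∀ (n : ℕ) (χ : ↥(parabolicHoms ℤ (Gamma0 (N * q)) ℤ)),
      ∃ (h : mer95_MER) (f : ↥(modularFunctionFieldBar (N * q))),
        thz31_AdmZ Qb (ff79_ev0 phi (N * q)) (p ^ n) (th70_zeta (p ^ n))
          (χ : Additive (Gamma0 (N * q)) →+ ℤ) h f)
    (heval : ∀ (n : ℕ) (χ : ↥(parabolicHoms ℤ (Gamma0 (N * q)) ℤ)) (h : mer95_MER)
      (f : ↥(modularFunctionFieldBar (N * q))),
      thz31_AdmZ Qb (ff79_ev0 phi (N * q)) (p ^ n) (th70_zeta (p ^ n))
        (χ : Additive (Gamma0 (N * q)) →+ ℤ) h f →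
      ∀ D : Divisor.degZero (K := Qb) (F := ↥(modularFunctionFieldBar (N * q))),
        th70_IsDivOf (p ^ n) f (D : Divisor Qb ↥(modularFunctionFieldBar (N * q))) →
          Θ n χ = Pic0.mk D)
    (Θ' : ℕ → (↥(parabolicHoms ℤ (Gamma0 N) ℤ) →+ JZero N))
    (heval' : ∀ (n : ℕ) (χ : ↥(parabolicHoms ℤ (Gamma0 N) ℤ)) (h : mer95_MER)
      (f : ↥(modularFunctionFieldBar N)),
      thz31_AdmZ Qb (ff79_ev0 phi N) (p ^ n) (th70_zeta (p ^ n))
        (χ : Additive (Gamma0 N) →+ ℤ) h f →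
      ∀ D : Divisor.degZero (K := Qb) (F := ↥(modularFunctionFieldBar N)),
        th70_IsDivOf (p ^ n) f (D : Divisor Qb ↥(modularFunctionFieldBar N)) →
          Θ' n χ = Pic0.mk D)
    (n : ℕ) (χ : ↥(parabolicHoms ℤ (Gamma0 (N * q)) ℤ)) :
    π (Θ n χ) = Θ' n (cp68_corAlpha N q hq hqN χ) := by
  obtain ⟨D, hD, hD'⟩ := taf22_compat_alpha N q hq hqN p hp Θ hex heval Θ' heval' n χ
  rw [hD, hπmk]
  exact hD'.symm

/-- **The transfer along `α` commutes with `T_ℓ` for every prime `ℓ ∤ N q`.** -/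
theorem hta69_hcomm_alpha (hq : q.Prime) (hqN : ¬ q ∣ N)
    (π : JZero (N * q) →+ JZero N)
    (hπgal : ∀ (g : GQ) (x : JZero (N * q)), π (g • x) = g • π x)
    (hπmk : ∀ D : Divisor.degZero (K := Qb) (F := ↥(modularFunctionFieldBar (N * q))),
      π (Pic0.mk D) = Pic0.mk ⟨Divisor.pushforwardAlong (heckeAlphaBar Qb N q)
            (hx63_heckeAlphaBarIntegral N q)
            (D : Divisor Qb ↥(modularFunctionFieldBar (N * q))),
          Divisor.pushforwardAlong_mem_degZero _ _ D.2⟩)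
    (ℓ : ℕ) (hℓ : ℓ.Prime) (hℓN : ¬ ℓ ∣ N * q)
    (c : ↥(parabolicHoms ℤ (Gamma0 (N * q)) ℤ)) :
    cp68_corAlpha N q hq hqN (hl42_TL (N * q) ℓ c) =
      hl42_TL N ℓ (cp68_corAlpha N q hq hqN c) := by
  obtain ⟨Θ₂, a1, a2, a3, a4, aex, aev⟩ := te22_family (N * q) 2 two_ne_zero
  obtain ⟨Θ₂', b1, b2, b3, b4, -, bev⟩ := te22_family N 2 two_ne_zero
  obtain ⟨Θ₃, c1, c2, c3, c4, cex, cev⟩ := te22_family (N * q) 3 three_ne_zero
  obtain ⟨Θ₃', d1, d2, d3, d4, -, dev⟩ := te22_family N 3 three_ne_zero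
  exact ht69_cores_hecke_two (N * q) N 2 3 Nat.prime_two Nat.prime_three (by norm_num)
    Θ₂ Θ₃ Θ₂' Θ₃' ⟨a1, a2, a3, a4⟩ ⟨b1, b2, b3, b4⟩ ⟨c1, c2, c3, c4⟩ ⟨d1, d2, d3, d4⟩ π hπgal
    (cp68_corAlpha N q hq hqN).toAddMonoidHom
    (fun n χ => hta69_2a_alpha N q hq hqN π hπmk 2 two_ne_zero Θ₂ aex aev Θ₂' bev n χ)
    (fun n χ => hta69_2a_alpha N q hq hqN π hπmk 3 three_ne_zero Θ₃ cex cev Θ₃' dev n χ)
    ℓ hℓ hℓN (fun h => hℓN (Dvd.dvd.mul_right h q)) c

/-- Linear-map form (`hcomm` of row N5). -/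
theorem hta69_hcomm_alpha_comp (hq : q.Prime) (hqN : ¬ q ∣ N)
    (π : JZero (N * q) →+ JZero N)
    (hπgal : ∀ (g : GQ) (x : JZero (N * q)), π (g • x) = g • π x)
    (hπmk : ∀ D : Divisor.degZero (K := Qb) (F := ↥(modularFunctionFieldBar (N * q))),
      π (Pic0.mk D) = Pic0.mk ⟨Divisor.pushforwardAlong (heckeAlphaBar Qb N q)
            (hx63_heckeAlphaBarIntegral N q)
            (D : Divisor Qb ↥(modularFunctionFieldBar (N * q))),
          Divisor.pushforwardAlong_mem_degZero _ _ D.2⟩)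
    (ℓ : ℕ) (hℓ : ℓ.Prime) (hℓN : ¬ ℓ ∣ N * q) :
    cp68_corAlpha N q hq hqN ∘ₗ hl42_TL (N * q) ℓ =
      hl42_TL N ℓ ∘ₗ cp68_corAlpha N q hq hqN :=
  LinearMap.ext fun c => hta69_hcomm_alpha N q hq hqN π hπgal hπmk ℓ hℓ hℓN c

/-- Transport of eigenvectors along the transfer, over any commutative ring `O`. -/
theorem hta69_eigen_alpha (hq : q.Prime) (hqN : ¬ q ∣ N)
    (π : JZero (N * q) →+ JZero N)
    (hπgal : ∀ (g : GQ) (x : JZero (N * q)), π (g • x) = g • π x)
    (hπmk : ∀ D : Divisor.degZero (K := Qb) (F := ↥(modularFunctionFieldBar (N * q))),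
      π (Pic0.mk D) = Pic0.mk ⟨Divisor.pushforwardAlong (heckeAlphaBar Qb N q)
            (hx63_heckeAlphaBarIntegral N q)
            (D : Divisor Qb ↥(modularFunctionFieldBar (N * q))),
          Divisor.pushforwardAlong_mem_degZero _ _ D.2⟩)
    (O : Type*) [CommRing O] (ℓ : ℕ) (hℓ : ℓ.Prime) (hℓN : ¬ ℓ ∣ N * q)
    (x : O ⊗[ℤ] ↥(parabolicHoms ℤ (Gamma0 (N * q)) ℤ)) (a : O)
    (hx : (hl42_TL (N * q) ℓ).baseChange O x = a • x) :
    (hl42_TL N ℓ).baseChange O ((cp68_corAlpha N q hq hqN).baseChange O x) =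
      a • (cp68_corAlpha N q hq hqN).baseChange O x :=
  ht69_cores_eigen O ℓ (cp68_corAlpha N q hq hqN)
    (fun c => hta69_hcomm_alpha N q hq hqN π hπgal hπmk ℓ hℓ hℓN c) x a hx

end hta69

end Fermat.Agent.S35
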