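import Fermat.Agent.S35.HeckeTransferPush69
import Fermat.Agent.S35.PushBeta87

/-!
# S35 lab, row N3 (helper69), the `β` half: the `β`-transfer commutes with ALL `T_ℓ`, `ℓ ∤ N q`

Levels `N q → N` (`q` prime, `q ∤ N`), `β = heckeBetaBar`, `β_* = pj40_betaPush N q` (helper40),
`cor_β = tb87_corBpar N q : Hom_par(Γ₀(N q), ℤ) →+ Hom_par(Γ₀(N), ℤ)` (helper87: the transfer
along `δ Γ₀(N q) δ⁻¹ ≤ Γ₀(N)`, `δ = diag(q, 1)`).

* `htb69_compat_beta` : **(2a) for `β`, divisor form** — for families `Θ` (level `N q`), `Θ'`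
  (level `N`) with the existence / evaluation clauses of `te22_family`, every `Θ n χ` is the class
  of a degree-zero divisor `D` with `Θ' n (cor_β χ) = [β_* D]` (from `tb87_adm_beta`);
* `htb69_2a_beta` : `π (Θ n χ) = Θ' n (cor_β χ)` for any additive `π` with
  `π (Pic0.mk D) = Pic0.mk (β_* D)`; `htb69_2a_betaPush` : the same for `π = pj40_betaPush N q`;
* `htb69_hcomm_beta`, `htb69_hcomm_beta_comp` : `cor_β (T_ℓ c) = T_ℓ (cor_β c)` for EVERY prime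
  `ℓ ∤ N q` (`T_ℓ = hl42_TL`), with NO further hypothesis;
* `htb69_eigen_beta` : transport of eigenvectors over any commutative ring `O`.
-/

set_option autoImplicit false
set_option linter.style.haveILetI false
set_option linter.unusedSectionVars false
set_option linter.unusedVariables false
set_option linter.style.longLine false

open CongruenceSubgroup ModularCurve ModularCurve.Period AlgebraicCurve UpperHalfPlane
open scoped TensorProduct MatrixGroups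

namespace Fermat.Agent.S35

open Fermat.Agent.S16 Fermat.Agent.S24 Fermat.Agent.S31 Fermat.Agent.S42 Fermat.Agent.S41
  Fermat.Agent.S37 Fermat.Agent.S30

local notation "Qb" => AlgebraicClosure ℚ
local notation "GQ" => AlgebraicClosure ℚ ≃ₐ[ℚ] AlgebraicClosure ℚ

section htb69

variable (N q : ℕ) [NeZero N] [NeZero q]

/-- **`β_* ∘ Θ_n = Θ'_n ∘ cor_β`, divisor form.** -/
theorem htb69_compat_beta (hq : q.Prime) (hqN : ¬ q ∣ N) (p : ℕ) (hp : p ≠ 0)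
    (Θ : ℕ → (↥(parabolicHoms ℤ (Gamma0 (N * q)) ℤ) →+ JZero (N * q)))
    (hex : ∀ (n : ℕ) (χ : ↥(parabolicHoms ℤ (Gamma0 (N * q)) ℤ)),
      ∃ (h : mer95_MER) (f : ↥(modularFunctionFieldBar (N * q))),
        thz31_AdmZ Qb (ff79_ev0 phi (N * q)) (p ^ n) (th70_zeta (p ^ n))
          (χ : Additive (Gamma0 (N * q)) →+ ℤ) h f)
    (heval : ∀ (n : ℕ) (χ : ↥(parabolicHoms ℤ (Gamma0 (N * q)) ℤ)) (h : mer95_MER)
      (f : ↥(modularFunctionFieldBar (N * q))),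
      thz31_AdmZ Qb (ff79_ev0 phi (N * q)) (p ^ n) (th70_zeta (p ^ n))
        (χ : Additive (Gamma0 (N * q)) →+ ℤ) h f →
      ∀ D : Divisor.degZero (K := Qb) (F := ↥(modularFunctionFieldBar (N * q))),
        th70_IsDivOf (p ^ n) f (D : Divisor Qb ↥(modularFunctionFieldBar (N * q))) →
          Θ n χ = Pic0.mk D)
    (Θ' : ℕ → (↥(parabolicHoms ℤ (Gamma0 N) ℤ) →+ JZero N))
    (heval' : ∀ (n : ℕ) (χ : ↥(parabolicHoms ℤ (Gamma0 N) ℤ)) (h : mer95_MER)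
      (f : ↥(modularFunctionFieldBar N)),
      thz31_AdmZ Qb (ff79_ev0 phi N) (p ^ n) (th70_zeta (p ^ n))
        (χ : Additive (Gamma0 N) →+ ℤ) h f →
      ∀ D : Divisor.degZero (K := Qb) (F := ↥(modularFunctionFieldBar N)),
        th70_IsDivOf (p ^ n) f (D : Divisor Qb ↥(modularFunctionFieldBar N)) →
          Θ' n χ = Pic0.mk D)
    (n : ℕ) (χ : ↥(parabolicHoms ℤ (Gamma0 (N * q)) ℤ)) :
    ∃ D : Divisor.degZero (K := Qb) (F := ↥(modularFunctionFieldBar (N * q))),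
      Θ n χ = Pic0.mk D ∧
      Θ' n (tb87_corBpar N q χ)
        = Pic0.mk ⟨Divisor.pushforwardAlong (heckeBetaBar Qb N q)
            (hx63_heckeBetaBarIntegral N q)
            (D : Divisor Qb ↥(modularFunctionFieldBar (N * q))),
          Divisor.pushforwardAlong_mem_degZero _ _ D.2⟩ := by
  haveI := hi63_hasPrincipalDivisors_bar (N * q)
  have hm : p ^ n ≠ 0 := pow_ne_zero n hp
  obtain ⟨h, f, H⟩ := hex n χ
  obtain ⟨h0, f0, hchar, hpow, hdvd⟩ := id H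
  obtain ⟨D, hD, hdeg⟩ := th70_exists_div (K := Qb) hm f0 hdvd
  obtain ⟨⟨H', hadm⟩, hdiv⟩ := tb87_adm_beta N q hq hqN (p ^ n) hm
    (χ : Additive (Gamma0 (N * q)) →+ ℤ) h f H
  refine ⟨⟨D, Divisor.mem_degZero.mpr hdeg⟩, heval n χ h f H _ hD, ?_⟩
  exact heval' n (tb87_corBpar N q χ) H' _ hadm
    ⟨_, Divisor.pushforwardAlong_mem_degZero _ _ (Divisor.mem_degZero.mpr hdeg)⟩ (hdiv D hD)

/-- **(2a) for `β` in the `Θ'`-form**, for any additive `π` induced by the push-forward of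
divisors along `β`. -/
theorem htb69_2a_beta (hq : q.Prime) (hqN : ¬ q ∣ N)
    (π : JZero (N * q) →+ JZero N)
    (hπmk : ∀ D : Divisor.degZero (K := Qb) (F := ↥(modularFunctionFieldBar (N * q))),
      π (Pic0.mk D) = Pic0.mk ⟨Divisor.pushforwardAlong (heckeBetaBar Qb N q)
            (hx63_heckeBetaBarIntegral N q)
            (D : Divisor Qb ↥(modularFunctionFieldBar (N * q))),
          Divisor.pushforwardAlong_mem_degZero _ _ D.2⟩)
    (p : ℕ) (hp : p ≠ 0)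
    (Θ : ℕ → (↥(parabolicHoms ℤ (Gamma0 (N * q)) ℤ) →+ JZero (N * q)))
    (hex : ∀ (n : ℕ) (χ : ↥(parabolicHoms ℤ (Gamma0 (N * q)) ℤ)),
      ∃ (h : mer95_MER) (f : ↥(modularFunctionFieldBar (N * q))),
        thz31_AdmZ Qb (ff79_ev0 phi (N * q)) (p ^ n) (th70_zeta (p ^ n))
          (χ : Additive (Gamma0 (N * q)) →+ ℤ) h f)
    (heval : ∀ (n : ℕ) (χ : ↥(parabolicHoms ℤ (Gamma0 (N * q)) ℤ)) (h : mer95_MER)
      (f : ↥(modularFunctionFieldBar (N * q))),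
      thz31_AdmZ Qb (ff79_ev0 phi (N * q)) (p ^ n) (th70_zeta (p ^ n))
        (χ : Additive (Gamma0 (N * q)) →+ ℤ) h f →
      ∀ D : Divisor.degZero (K := Qb) (F := ↥(modularFunctionFieldBar (N * q))),
        th70_IsDivOf (p ^ n) f (D : Divisor Qb ↥(modularFunctionFieldBar (N * q))) →
          Θ n χ = Pic0.mk D)
    (Θ' : ℕ → (↥(parabolicHoms ℤ (Gamma0 N) ℤ) →+ JZero N))
    (heval' : ∀ (n : ℕ) (χ : ↥(parabolicHoms ℤ (Gamma0 N) ℤ)) (h : mer95_MER)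
      (f : ↥(modularFunctionFieldBar N)),
      thz31_AdmZ Qb (ff79_ev0 phi N) (p ^ n) (th70_zeta (p ^ n))
        (χ : Additive (Gamma0 N) →+ ℤ) h f →
      ∀ D : Divisor.degZero (K := Qb) (F := ↥(modularFunctionFieldBar N)),
        th70_IsDivOf (p ^ n) f (D : Divisor Qb ↥(modularFunctionFieldBar N)) →
          Θ' n χ = Pic0.mk D)
    (n : ℕ) (χ : ↥(parabolicHoms ℤ (Gamma0 (N * q)) ℤ)) :
    π (Θ n χ) = Θ' n (tb87_corBpar N q χ) := by
  obtain ⟨D, hD, hD'⟩ := htb69_compat_beta N q hq hqN p hp Θ hex heval Θ' heval' n χ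
  rw [hD, hπmk]
  exact hD'.symm

/-- **(2a) for `β`** with `π = pj40_betaPush N q`. -/
theorem htb69_2a_betaPush (hq : q.Prime) (hqN : ¬ q ∣ N) (p : ℕ) (hp : p ≠ 0)
    (Θ : ℕ → (↥(parabolicHoms ℤ (Gamma0 (N * q)) ℤ) →+ JZero (N * q)))
    (hex : ∀ (n : ℕ) (χ : ↥(parabolicHoms ℤ (Gamma0 (N * q)) ℤ)),
      ∃ (h : mer95_MER) (f : ↥(modularFunctionFieldBar (N * q))),
        thz31_AdmZ Qb (ff79_ev0 phi (N * q)) (p ^ n) (th70_zeta (p ^ n))
          (χ : Additive (Gamma0 (N * q)) →+ ℤ) h f)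
    (heval : ∀ (n : ℕ) (χ : ↥(parabolicHoms ℤ (Gamma0 (N * q)) ℤ)) (h : mer95_MER)
      (f : ↥(modularFunctionFieldBar (N * q))),
      thz31_AdmZ Qb (ff79_ev0 phi (N * q)) (p ^ n) (th70_zeta (p ^ n))
        (χ : Additive (Gamma0 (N * q)) →+ ℤ) h f →
      ∀ D : Divisor.degZero (K := Qb) (F := ↥(modularFunctionFieldBar (N * q))),
        th70_IsDivOf (p ^ n) f (D : Divisor Qb ↥(modularFunctionFieldBar (N * q))) →
          Θ n χ = Pic0.mk D)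
    (Θ' : ℕ → (↥(parabolicHoms ℤ (Gamma0 N) ℤ) →+ JZero N))
    (heval' : ∀ (n : ℕ) (χ : ↥(parabolicHoms ℤ (Gamma0 N) ℤ)) (h : mer95_MER)
      (f : ↥(modularFunctionFieldBar N)),
      thz31_AdmZ Qb (ff79_ev0 phi N) (p ^ n) (th70_zeta (p ^ n))
        (χ : Additive (Gamma0 N) →+ ℤ) h f →
      ∀ D : Divisor.degZero (K := Qb) (F := ↥(modularFunctionFieldBar N)),
        th70_IsDivOf (p ^ n) f (D : Divisor Qb ↥(modularFunctionFieldBar N)) →
          Θ' n χ = Pic0.mk D)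
    (n : ℕ) (χ : ↥(parabolicHoms ℤ (Gamma0 (N * q)) ℤ)) :
    pj40_betaPush N q (Θ n χ) = Θ' n (tb87_corBpar N q χ) :=
  htb69_2a_beta N q hq hqN (pj40_betaPush N q) (htp69_betaPush_mk N q) p hp Θ hex heval Θ'
    heval' n χ

/-- **(2a) for `α`** with `π = pj40_alphaPush N q` (twin of `htb69_2a_betaPush`). -/
theorem htb69_2a_alphaPush (hq : q.Prime) (hqN : ¬ q ∣ N) (p : ℕ) (hp : p ≠ 0)
    (Θ : ℕ → (↥(parabolicHoms ℤ (Gamma0 (N * q)) ℤ) →+ JZero (N * q)))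
    (hex : ∀ (n : ℕ) (χ : ↥(parabolicHoms ℤ (Gamma0 (N * q)) ℤ)),
      ∃ (h : mer95_MER) (f : ↥(modularFunctionFieldBar (N * q))),
        thz31_AdmZ Qb (ff79_ev0 phi (N * q)) (p ^ n) (th70_zeta (p ^ n))
          (χ : Additive (Gamma0 (N * q)) →+ ℤ) h f)
    (heval : ∀ (n : ℕ) (χ : ↥(parabolicHoms ℤ (Gamma0 (N * q)) ℤ)) (h : mer95_MER)
      (f : ↥(modularFunctionFieldBar (N * q))),
      thz31_AdmZ Qb (ff79_ev0 phi (N * q)) (p ^ n) (th70_zeta (p ^ n))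
        (χ : Additive (Gamma0 (N * q)) →+ ℤ) h f →
      ∀ D : Divisor.degZero (K := Qb) (F := ↥(modularFunctionFieldBar (N * q))),
        th70_IsDivOf (p ^ n) f (D : Divisor Qb ↥(modularFunctionFieldBar (N * q))) →
          Θ n χ = Pic0.mk D)
    (Θ' : ℕ → (↥(parabolicHoms ℤ (Gamma0 N) ℤ) →+ JZero N))
    (heval' : ∀ (n : ℕ) (χ : ↥(parabolicHoms ℤ (Gamma0 N) ℤ)) (h : mer95_MER)
      (f : ↥(modularFunctionFieldBar N)),
      thz31_AdmZ Qb (ff79_ev0 phi N) (p ^ n) (th70_zeta (p ^ n))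
        (χ : Additive (Gamma0 N) →+ ℤ) h f →
      ∀ D : Divisor.degZero (K := Qb) (F := ↥(modularFunctionFieldBar N)),
        th70_IsDivOf (p ^ n) f (D : Divisor Qb ↥(modularFunctionFieldBar N)) →
          Θ' n χ = Pic0.mk D)
    (n : ℕ) (χ : ↥(parabolicHoms ℤ (Gamma0 (N * q)) ℤ)) :
    pj40_alphaPush N q (Θ n χ) = Θ' n (cp68_corAlpha N q hq hqN χ) :=
  hta69_2a_alpha N q hq hqN (pj40_alphaPush N q) (htp69_alphaPush_mk N q) p hp Θ hex heval Θ'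
    heval' n χ

/-- **The `β`-transfer commutes with `T_ℓ` for every prime `ℓ ∤ N q`** (no hypothesis). -/
theorem htb69_hcomm_beta (hq : q.Prime) (hqN : ¬ q ∣ N)
    (ℓ : ℕ) (hℓ : ℓ.Prime) (hℓN : ¬ ℓ ∣ N * q)
    (c : ↥(parabolicHoms ℤ (Gamma0 (N * q)) ℤ)) :
    tb87_corBpar N q (hl42_TL (N * q) ℓ c) = hl42_TL N ℓ (tb87_corBpar N q c) := by
  obtain ⟨Θ₂, a1, a2, a3, a4, aex, aev⟩ := te22_family (N * q) 2 two_ne_zero
  obtain ⟨Θ₂', b1, b2, b3, b4, -, bev⟩ := te22_family N 2 two_ne_zero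
  obtain ⟨Θ₃, c1, c2, c3, c4, cex, cev⟩ := te22_family (N * q) 3 three_ne_zero
  obtain ⟨Θ₃', d1, d2, d3, d4, -, dev⟩ := te22_family N 3 three_ne_zero
  exact htp69_hcomm_of_2a (N * q) N (pj40_betaPush N q) (pj40_betaPush_smul N q)
    (tb87_corBpar N q) Θ₂ Θ₃ Θ₂' Θ₃' ⟨a1, a2, a3, a4⟩ ⟨b1, b2, b3, b4⟩ ⟨c1, c2, c3, c4⟩
    ⟨d1, d2, d3, d4⟩
    (fun n χ => htb69_2a_betaPush N q hq hqN 2 two_ne_zero Θ₂ aex aev Θ₂' bev n χ)
    (fun n χ => htb69_2a_betaPush N q hq hqN 3 three_ne_zero Θ₃ cex cev Θ₃' dev n χ)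
    ℓ hℓ hℓN (fun h => hℓN (Dvd.dvd.mul_right h q)) c

/-- Linear-map form (`hcomm` of row N5) for `β`. -/
theorem htb69_hcomm_beta_comp (hq : q.Prime) (hqN : ¬ q ∣ N)
    (ℓ : ℕ) (hℓ : ℓ.Prime) (hℓN : ¬ ℓ ∣ N * q) :
    (tb87_corBpar N q).toIntLinearMap ∘ₗ hl42_TL (N * q) ℓ =
      hl42_TL N ℓ ∘ₗ (tb87_corBpar N q).toIntLinearMap :=
  LinearMap.ext fun c => htb69_hcomm_beta N q hq hqN ℓ hℓ hℓN c

/-- Transport of eigenvectors along the `β`-transfer, over any commutative ring `O`. -/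
theorem htb69_eigen_beta (hq : q.Prime) (hqN : ¬ q ∣ N)
    (O : Type*) [CommRing O] (ℓ : ℕ) (hℓ : ℓ.Prime) (hℓN : ¬ ℓ ∣ N * q)
    (x : O ⊗[ℤ] ↥(parabolicHoms ℤ (Gamma0 (N * q)) ℤ)) (a : O)
    (hx : (hl42_TL (N * q) ℓ).baseChange O x = a • x) :
    (hl42_TL N ℓ).baseChange O ((tb87_corBpar N q).toIntLinearMap.baseChange O x) =
      a • (tb87_corBpar N q).toIntLinearMap.baseChange O x :=
  ht69_cores_eigen O ℓ (tb87_corBpar N q).toIntLinearMap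
    (fun c => htb69_hcomm_beta N q hq hqN ℓ hℓ hℓN c) x a hx

end htb69

end Fermat.Agent.S35
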