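import Fermat.Agent.S42.HeckeGalois25

/-!
# S35 lab, row N4 (helper40): push-forward and pull-back of divisor classes between levels

For levels `N`, `M` and ANY `ℚ̄`-algebra map `φ : F(N) → F(M)` of the function fields
(`F(N) = modularFunctionFieldBar N`, `JZero N = Pic⁰(F(N))`):

* `pj40_pushDiv φ : Div F(M) →+ Div F(N)`, `pj40_push0 φ` (degree zero), and
  `pj40_pushPic φ : JZero M →+ JZero N`, the push-forward `φ_*` of divisor classes
  (`= Pic⁰` of the Prelude `Divisor.pushforwardAlong φ`);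
* `pj40_pullDiv φ`, `pj40_pull0 φ`, `pj40_pullPic φ : JZero N →+ JZero M`, the pull-back `φ^*`;
* `pj40_pushDiv_single` (`φ_* (n w) = n (w ∘ φ)`: all inertia degrees are `1`),
  `pj40_pushDiv_eq_ord_norm` (norm formula `φ_* div f = div N_φ f`),
  `pj40_pushPic_mk`, `pj40_pushPic_mk_eq_zero_iff`, `pj40_pushPic_pullPic` (`φ_* φ^* = deg φ`),
  `pj40_pushPic_smul`, `pj40_pullPic_smul` (Galois equivariance, for `φ` intertwining the
  coefficientwise Galois actions), `pj40_corr` (`ψ_* φ^*` is the Prelude correspondence);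

and the two instances at the levels `N`, `N ℓ` for the degeneracy maps `α = heckeAlphaBar`
(inclusion) and `β = heckeBetaBar` (`q ↦ q ^ ℓ`):

* `pj40_alphaPush N ℓ`, `pj40_betaPush N ℓ : JZero (N * ℓ) →+ JZero N`   (`α_*`, `β_*`);
* `pj40_alphaPull N ℓ`, `pj40_betaPull N ℓ : JZero N →+ JZero (N * ℓ)`   (`α^*`, `β^*`);
* `pj40_alphaPush_smul`, `pj40_betaPush_smul`, `pj40_alphaPull_smul`, `pj40_betaPull_smul`;
* `pj40_alphaPush_mk_eq_zero_iff`, `pj40_betaPush_mk_eq_zero_iff`, `pj40_alpha_norm`,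
  `pj40_beta_norm`;
* `pj40_hecke_eq` : `T_ℓ = α_* β^*` on `JZero N`.
-/

set_option autoImplicit false
set_option linter.style.haveILetI false
set_option linter.unusedSectionVars false

namespace Fermat.Agent.S35

open ModularCurve AlgebraicCurve Fermat.Agent.S37 Fermat.Agent.S42

local notation "Qb" => AlgebraicClosure ℚ
local notation "GQ" => AlgebraicClosure ℚ ≃ₐ[ℚ] AlgebraicClosure ℚ

/-- A class is zero iff its divisor is principal. -/
theorem pj40_mk_eq_zero_iff {L : ℕ}
    (D : Divisor.degZero (K := Qb) (F := ↥(modularFunctionFieldBar L))) :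
    (Pic0.mk D : JZero L) = 0 ↔
      (D : Divisor Qb ↥(modularFunctionFieldBar L)).IsPrincipal := by
  rw [Pic0.mk, QuotientAddGroup.eq_zero_iff, AddSubgroup.mem_addSubgroupOf]
  exact Iff.rfl

section pj40_generic

variable {N M : ℕ} [NeZero N] [NeZero M]
  (φ : ↥(modularFunctionFieldBar N) →ₐ[Qb] ↥(modularFunctionFieldBar M))

/-- Every `ℚ̄`-algebra map `F(N) → F(M)` is integral. -/
theorem pj40_integral : φ.toRingHom.IsIntegral := hx63_isIntegral_gen N M φ

/-- Every `ℚ̄`-algebra map `F(N) → F(M)` is finite. -/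
theorem pj40_finite : FiniteAlong Qb φ := hx63_finiteAlong_gen N M φ

/-- The norm formula along `φ`. -/
theorem pj40_normFormula : NormFormulaAlong Qb φ (pj40_finite φ) := by
  haveI := hi63_hasPrincipalDivisors_bar M
  obtain ⟨-, hfin, hNF⟩ := hx63_inputs_gen (φ := φ) (pj40_integral φ)
  exact hNF

/-- The fundamental identity along `φ`. -/
theorem pj40_fundamental :
    haveI := hi63_hasPrincipalDivisors_bar M
    FundamentalIdentityAlong Qb φ (pj40_integral φ) := by
  haveI := hi63_hasPrincipalDivisors_bar M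
  exact (hx63_inputs_gen (φ := φ) (pj40_integral φ)).1

/-! ### Push-forward -/

/-- The push-forward `φ_* : Div F(M) → Div F(N)` of divisors. -/
noncomputable def pj40_pushDiv :
    Divisor Qb ↥(modularFunctionFieldBar M) →+ Divisor Qb ↥(modularFunctionFieldBar N) :=
  Divisor.pushforwardAlong φ (pj40_integral φ)

theorem pj40_pushDiv_eq (hφ : φ.toRingHom.IsIntegral) :
    pj40_pushDiv φ = Divisor.pushforwardAlong φ hφ := rfl

/-- `φ_* (n · w) = n · (w restricted along φ)` (all inertia degrees are `1`). -/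
theorem pj40_pushDiv_single (w : Place Qb ↥(modularFunctionFieldBar M)) (n : ℤ) :
    pj40_pushDiv φ (Finsupp.single w n) =
      Finsupp.single (w.restrictAlong φ (pj40_integral φ)) n := by
  haveI := hi63_hasPrincipalDivisors_bar M
  rw [pj40_pushDiv, Divisor.pushforwardAlong_single,
    hx63_inertiaDegAlong_gen (pj40_integral φ) w, Nat.cast_one, mul_one]

theorem pj40_degree_pushDiv (D : Divisor Qb ↥(modularFunctionFieldBar M)) :
    Divisor.degree (pj40_pushDiv φ D) = Divisor.degree D :=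
  Divisor.degree_pushforwardAlong φ (pj40_integral φ) D

theorem pj40_pushDiv_isPrincipal {D : Divisor Qb ↥(modularFunctionFieldBar M)}
    (hD : D.IsPrincipal) : (pj40_pushDiv φ D).IsPrincipal :=
  Divisor.isPrincipal_pushforwardAlong φ (pj40_integral φ) (pj40_finite φ) (pj40_normFormula φ) hD

/-- **Norm formula**: if `D = div f` then `φ_* D = div (N_φ f)`. -/
theorem pj40_pushDiv_eq_ord_norm {f : ↥(modularFunctionFieldBar M)} (hf : f ≠ 0)
    {D : Divisor Qb ↥(modularFunctionFieldBar M)} (hD : ∀ w, D w = w.ord f)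
    (v : Place Qb ↥(modularFunctionFieldBar N)) :
    pj40_pushDiv φ D v =
      v.ord (letI := algebraAlong φ; Algebra.norm ↥(modularFunctionFieldBar N) f) := by
  letI := algebraAlong φ
  haveI := isScalarTower_along φ
  haveI := isIntegral_along φ (pj40_integral φ)
  haveI : Module.Finite ↥(modularFunctionFieldBar N) ↥(modularFunctionFieldBar M) := pj40_finite φ
  exact (pj40_normFormula φ) f hf D hD v

/-- The push-forward on divisors of degree zero. -/
noncomputable def pj40_push0 :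
    Divisor.degZero (K := Qb) (F := ↥(modularFunctionFieldBar M)) →+
      Divisor.degZero (K := Qb) (F := ↥(modularFunctionFieldBar N)) :=
  ((pj40_pushDiv φ).domRestrict
    (Divisor.degZero (K := Qb) (F := ↥(modularFunctionFieldBar M)))).codRestrict _
    (fun D => Divisor.pushforwardAlong_mem_degZero φ (pj40_integral φ) D.2)

theorem pj40_coe_push0 (D : Divisor.degZero (K := Qb) (F := ↥(modularFunctionFieldBar M))) :
    ((pj40_push0 φ D : Divisor.degZero (K := Qb) (F := ↥(modularFunctionFieldBar N))) :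
      Divisor Qb ↥(modularFunctionFieldBar N)) =
      pj40_pushDiv φ (D : Divisor Qb ↥(modularFunctionFieldBar M)) :=
  rfl

/-- **The push-forward `φ_* : JZero M →+ JZero N` of divisor classes.** -/
noncomputable def pj40_pushPic : JZero M →+ JZero N :=
  QuotientAddGroup.map _ _ (pj40_push0 φ) (by
    rintro ⟨D, hD0⟩ hD
    simp only [AddSubgroup.mem_addSubgroupOf] at hD ⊢
    exact pj40_pushDiv_isPrincipal φ hD)

theorem pj40_pushPic_mk (D : Divisor.degZero (K := Qb) (F := ↥(modularFunctionFieldBar M))) :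
    pj40_pushPic φ (Pic0.mk D) = Pic0.mk (pj40_push0 φ D) :=
  rfl

/-- `φ_* [D] = 0` iff `φ_* D` is principal. -/
theorem pj40_pushPic_mk_eq_zero_iff
    (D : Divisor.degZero (K := Qb) (F := ↥(modularFunctionFieldBar M))) :
    pj40_pushPic φ (Pic0.mk D) = 0 ↔
      (pj40_pushDiv φ (D : Divisor Qb ↥(modularFunctionFieldBar M))).IsPrincipal := by
  rw [pj40_pushPic_mk, pj40_mk_eq_zero_iff, pj40_coe_push0]

/-- `φ_*` maps `m`-torsion to `m`-torsion. -/
theorem pj40_pushPic_nsmul_eq_zero {m : ℕ} {x : JZero M} (hx : m • x = 0) :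
    m • pj40_pushPic φ x = 0 := by
  rw [← map_nsmul, hx, map_zero]

/-- `φ_*` commutes with semilinear automorphisms intertwined by `φ`, on divisors. -/
theorem pj40_pushDiv_smul
    (hφσ : ∀ σ : GQ, SemilinearAut.IntertwinesAlong φ.toRingHom
      (arithmeticGalois (modularFunctionFieldFull N) σ)
      (arithmeticGalois (modularFunctionFieldFull M) σ))
    (σ : GQ) (D : Divisor Qb ↥(modularFunctionFieldBar M)) :
    pj40_pushDiv φ (arithmeticGalois (modularFunctionFieldFull M) σ • D) =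
      arithmeticGalois (modularFunctionFieldFull N) σ • pj40_pushDiv φ D :=
  haveI := hi63_hasPrincipalDivisors_bar M
  hg25_pushforwardAlong_smul φ (pj40_integral φ) (hφσ σ)
    (fun w => hx63_inertiaDegAlong_gen (pj40_integral φ) w) D

/-- **`φ_*` commutes with the Galois action** (for `φ` intertwining the coefficientwise
actions). -/
theorem pj40_pushPic_smul
    (hφσ : ∀ σ : GQ, SemilinearAut.IntertwinesAlong φ.toRingHom
      (arithmeticGalois (modularFunctionFieldFull N) σ)
      (arithmeticGalois (modularFunctionFieldFull M) σ))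
    (σ : GQ) (x : JZero M) :
    pj40_pushPic φ (σ • x) = σ • pj40_pushPic φ x := by
  obtain ⟨D, rfl⟩ := Pic0.mk_surjective x
  rw [galois_smul_pic0_def, galois_smul_pic0_def, SemilinearAut.pic0_smul_mk, pj40_pushPic_mk,
    pj40_pushPic_mk, SemilinearAut.pic0_smul_mk]
  congr 1
  apply Subtype.ext
  rw [pj40_coe_push0, SemilinearAut.coe_degZeroSMulHom, SemilinearAut.coe_degZeroSMulHom,
    pj40_coe_push0]
  exact pj40_pushDiv_smul φ hφσ σ _

/-! ### Pull-back -/

/-- The pull-back `φ^* : Div F(N) → Div F(M)` of divisors. -/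
noncomputable def pj40_pullDiv :
    Divisor Qb ↥(modularFunctionFieldBar N) →+ Divisor Qb ↥(modularFunctionFieldBar M) :=
  haveI := hi63_hasPrincipalDivisors_bar M
  Divisor.pullbackAlong φ (pj40_integral φ)

theorem pj40_pullDiv_eq [HasPrincipalDivisors Qb ↥(modularFunctionFieldBar M)]
    (hφ : φ.toRingHom.IsIntegral) :
    pj40_pullDiv φ = Divisor.pullbackAlong φ hφ := rfl

theorem pj40_degree_pullDiv (D : Divisor Qb ↥(modularFunctionFieldBar N)) :
    Divisor.degree (pj40_pullDiv φ D) = (finrankAlong Qb φ : ℤ) * Divisor.degree D := by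
  haveI := hi63_hasPrincipalDivisors_bar M
  exact Divisor.degree_pullbackAlong φ (pj40_integral φ) (pj40_fundamental φ) D

theorem pj40_pullDiv_isPrincipal {D : Divisor Qb ↥(modularFunctionFieldBar N)}
    (hD : D.IsPrincipal) : (pj40_pullDiv φ D).IsPrincipal := by
  haveI := hi63_hasPrincipalDivisors_bar M
  exact Divisor.isPrincipal_pullbackAlong φ (pj40_integral φ) hD

/-- The pull-back on divisors of degree zero. -/
noncomputable def pj40_pull0 :
    Divisor.degZero (K := Qb) (F := ↥(modularFunctionFieldBar N)) →+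
      Divisor.degZero (K := Qb) (F := ↥(modularFunctionFieldBar M)) :=
  ((pj40_pullDiv φ).domRestrict
    (Divisor.degZero (K := Qb) (F := ↥(modularFunctionFieldBar N)))).codRestrict _
    (fun D => by
      rw [Divisor.mem_degZero]
      show Divisor.degree (pj40_pullDiv φ (D : Divisor Qb ↥(modularFunctionFieldBar N))) = 0
      rw [pj40_degree_pullDiv, Divisor.mem_degZero.mp D.2, mul_zero])

theorem pj40_coe_pull0 (D : Divisor.degZero (K := Qb) (F := ↥(modularFunctionFieldBar N))) :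
    ((pj40_pull0 φ D : Divisor.degZero (K := Qb) (F := ↥(modularFunctionFieldBar M))) :
      Divisor Qb ↥(modularFunctionFieldBar M)) =
      pj40_pullDiv φ (D : Divisor Qb ↥(modularFunctionFieldBar N)) :=
  rfl

/-- **The pull-back `φ^* : JZero N →+ JZero M` of divisor classes.** -/
noncomputable def pj40_pullPic : JZero N →+ JZero M :=
  QuotientAddGroup.map _ _ (pj40_pull0 φ) (by
    rintro ⟨D, hD0⟩ hD
    simp only [AddSubgroup.mem_addSubgroupOf] at hD ⊢
    exact pj40_pullDiv_isPrincipal φ hD)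

theorem pj40_pullPic_mk (D : Divisor.degZero (K := Qb) (F := ↥(modularFunctionFieldBar N))) :
    pj40_pullPic φ (Pic0.mk D) = Pic0.mk (pj40_pull0 φ D) :=
  rfl

/-- **`φ^*` commutes with the Galois action** (for `φ` intertwining the coefficientwise
actions). -/
theorem pj40_pullPic_smul
    (hφσ : ∀ σ : GQ, SemilinearAut.IntertwinesAlong φ.toRingHom
      (arithmeticGalois (modularFunctionFieldFull N) σ)
      (arithmeticGalois (modularFunctionFieldFull M) σ))
    (σ : GQ) (x : JZero N) :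
    pj40_pullPic φ (σ • x) = σ • pj40_pullPic φ x := by
  haveI := hi63_hasPrincipalDivisors_bar M
  obtain ⟨D, rfl⟩ := Pic0.mk_surjective x
  rw [galois_smul_pic0_def, galois_smul_pic0_def, SemilinearAut.pic0_smul_mk, pj40_pullPic_mk,
    pj40_pullPic_mk, SemilinearAut.pic0_smul_mk]
  congr 1
  apply Subtype.ext
  rw [pj40_coe_pull0, SemilinearAut.coe_degZeroSMulHom, SemilinearAut.coe_degZeroSMulHom,
    pj40_coe_pull0]
  exact hg25_pullbackAlong_smul φ (pj40_integral φ) (hφσ σ) _

/-- `φ_* φ^* = deg φ` on divisors. -/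
theorem pj40_pushDiv_pullDiv (D : Divisor Qb ↥(modularFunctionFieldBar N)) :
    pj40_pushDiv φ (pj40_pullDiv φ D) = (finrankAlong Qb φ : ℤ) • D := by
  haveI := hi63_hasPrincipalDivisors_bar M
  exact hx63_pushforwardAlong_pullbackAlong_gen (pj40_integral φ) D

/-- **`φ_* φ^* = deg φ`** on divisor classes. -/
theorem pj40_pushPic_pullPic (x : JZero N) :
    pj40_pushPic φ (pj40_pullPic φ x) = (finrankAlong Qb φ : ℤ) • x := by
  obtain ⟨D, rfl⟩ := Pic0.mk_surjective x
  rw [pj40_pullPic_mk, pj40_pushPic_mk]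
  have h2 : (finrankAlong Qb φ : ℤ) • (Pic0.mk D : JZero N) =
      Pic0.mk ((finrankAlong Qb φ : ℤ) • D) := rfl
  rw [h2]
  congr 1
  apply Subtype.ext
  rw [pj40_coe_push0, pj40_coe_pull0, pj40_pushDiv_pullDiv]
  rfl

/-- The Prelude correspondence `ψ_* φ^*` on classes is `pj40_pushPic ψ ∘ pj40_pullPic φ`. -/
theorem pj40_corr (ψ : ↥(modularFunctionFieldBar N) →ₐ[Qb] ↥(modularFunctionFieldBar M))
    [HasPrincipalDivisors Qb ↥(modularFunctionFieldBar M)]
    (hφ : φ.toRingHom.IsIntegral) (hψ : ψ.toRingHom.IsIntegral)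
    (hFI : FundamentalIdentityAlong Qb φ hφ) (hfin : FiniteAlong Qb ψ)
    (hN : NormFormulaAlong Qb ψ hfin) (x : JZero N) :
    Pic0.correspondence φ ψ hφ hψ hFI hfin hN x = pj40_pushPic ψ (pj40_pullPic φ x) := by
  obtain ⟨D, rfl⟩ := Pic0.mk_surjective x
  rw [Pic0.correspondence_mk, pj40_pullPic_mk, pj40_pushPic_mk]
  congr 1

end pj40_generic

/-! ### The degeneracy maps `α`, `β` between the levels `N` and `N ℓ` -/

section pj40_hecke

variable (N ℓ : ℕ) [NeZero N] [NeZero ℓ]

theorem pj40_neZero_mul : NeZero (N * ℓ) := ⟨mul_ne_zero (NeZero.ne N) (NeZero.ne ℓ)⟩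

/-- **`α_* : JZero (N ℓ) →+ JZero N`**, the push-forward along the inclusion
`α = heckeAlphaBar` (forgetting the level structure at `ℓ`). -/
noncomputable def pj40_alphaPush : JZero (N * ℓ) →+ JZero N :=
  haveI := pj40_neZero_mul N ℓ
  pj40_pushPic (heckeAlphaBar Qb N ℓ)

/-- **`β_* : JZero (N ℓ) →+ JZero N`**, the push-forward along `β = heckeBetaBar`
(`q ↦ q ^ ℓ`). -/
noncomputable def pj40_betaPush : JZero (N * ℓ) →+ JZero N :=
  haveI := pj40_neZero_mul N ℓ
  pj40_pushPic (heckeBetaBar Qb N ℓ)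

/-- `α^* : JZero N →+ JZero (N ℓ)`. -/
noncomputable def pj40_alphaPull : JZero N →+ JZero (N * ℓ) :=
  haveI := pj40_neZero_mul N ℓ
  pj40_pullPic (heckeAlphaBar Qb N ℓ)

/-- `β^* : JZero N →+ JZero (N ℓ)`. -/
noncomputable def pj40_betaPull : JZero N →+ JZero (N * ℓ) :=
  haveI := pj40_neZero_mul N ℓ
  pj40_pullPic (heckeBetaBar Qb N ℓ)

/-- **`α_*` commutes with the Galois action.** -/
theorem pj40_alphaPush_smul (σ : GQ) (x : JZero (N * ℓ)) :
    pj40_alphaPush N ℓ (σ • x) = σ • pj40_alphaPush N ℓ x :=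
  haveI := pj40_neZero_mul N ℓ
  pj40_pushPic_smul (heckeAlphaBar Qb N ℓ) (fun τ => hg25_intertwines_alpha N ℓ τ) σ x

/-- **`β_*` commutes with the Galois action.** -/
theorem pj40_betaPush_smul (σ : GQ) (x : JZero (N * ℓ)) :
    pj40_betaPush N ℓ (σ • x) = σ • pj40_betaPush N ℓ x :=
  haveI := pj40_neZero_mul N ℓ
  pj40_pushPic_smul (heckeBetaBar Qb N ℓ) (fun τ => hg25_intertwines_beta N ℓ τ) σ x

/-- `α^*` commutes with the Galois action. -/
theorem pj40_alphaPull_smul (σ : GQ) (x : JZero N) :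
    pj40_alphaPull N ℓ (σ • x) = σ • pj40_alphaPull N ℓ x :=
  haveI := pj40_neZero_mul N ℓ
  pj40_pullPic_smul (heckeAlphaBar Qb N ℓ) (fun τ => hg25_intertwines_alpha N ℓ τ) σ x

/-- `β^*` commutes with the Galois action. -/
theorem pj40_betaPull_smul (σ : GQ) (x : JZero N) :
    pj40_betaPull N ℓ (σ • x) = σ • pj40_betaPull N ℓ x :=
  haveI := pj40_neZero_mul N ℓ
  pj40_pullPic_smul (heckeBetaBar Qb N ℓ) (fun τ => hg25_intertwines_beta N ℓ τ) σ x

/-- `α_*` maps `m`-torsion to `m`-torsion. -/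
theorem pj40_alphaPush_nsmul_eq_zero {m : ℕ} {x : JZero (N * ℓ)} (hx : m • x = 0) :
    m • pj40_alphaPush N ℓ x = 0 := by
  rw [← map_nsmul, hx, map_zero]

/-- `β_*` maps `m`-torsion to `m`-torsion. -/
theorem pj40_betaPush_nsmul_eq_zero {m : ℕ} {x : JZero (N * ℓ)} (hx : m • x = 0) :
    m • pj40_betaPush N ℓ x = 0 := by
  rw [← map_nsmul, hx, map_zero]

/-- `α_* [D] = 0` iff the Prelude push-forward of `D` along `α` is principal. -/
theorem pj40_alphaPush_mk_eq_zero_iff (hα : HeckeAlphaBarIntegral Qb N ℓ)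
    (D : Divisor.degZero (K := Qb) (F := ↥(modularFunctionFieldBar (N * ℓ)))) :
    pj40_alphaPush N ℓ (Pic0.mk D) = 0 ↔
      (Divisor.pushforwardAlong (heckeAlphaBar Qb N ℓ) hα
        (D : Divisor Qb ↥(modularFunctionFieldBar (N * ℓ)))).IsPrincipal :=
  haveI := pj40_neZero_mul N ℓ
  pj40_pushPic_mk_eq_zero_iff (heckeAlphaBar Qb N ℓ) D

/-- `β_* [D] = 0` iff the Prelude push-forward of `D` along `β` is principal. -/
theorem pj40_betaPush_mk_eq_zero_iff (hβ : HeckeBetaBarIntegral Qb N ℓ)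
    (D : Divisor.degZero (K := Qb) (F := ↥(modularFunctionFieldBar (N * ℓ)))) :
    pj40_betaPush N ℓ (Pic0.mk D) = 0 ↔
      (Divisor.pushforwardAlong (heckeBetaBar Qb N ℓ) hβ
        (D : Divisor Qb ↥(modularFunctionFieldBar (N * ℓ)))).IsPrincipal :=
  haveI := pj40_neZero_mul N ℓ
  pj40_pushPic_mk_eq_zero_iff (heckeBetaBar Qb N ℓ) D

/-- Norm formula for `α`: if `D = div f` then `α_* D = div (N_α f)`. -/
theorem pj40_alpha_norm (hα : HeckeAlphaBarIntegral Qb N ℓ)
    {f : ↥(modularFunctionFieldBar (N * ℓ))} (hf : f ≠ 0)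
    {D : Divisor Qb ↥(modularFunctionFieldBar (N * ℓ))} (hD : ∀ w, D w = w.ord f)
    (v : Place Qb ↥(modularFunctionFieldBar N)) :
    Divisor.pushforwardAlong (heckeAlphaBar Qb N ℓ) hα D v =
      v.ord (letI := algebraAlong (heckeAlphaBar Qb N ℓ);
        Algebra.norm ↥(modularFunctionFieldBar N) f) :=
  haveI := pj40_neZero_mul N ℓ
  pj40_pushDiv_eq_ord_norm (heckeAlphaBar Qb N ℓ) hf hD v

/-- Norm formula for `β`: if `D = div f` then `β_* D = div (N_β f)`. -/
theorem pj40_beta_norm (hβ : HeckeBetaBarIntegral Qb N ℓ)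
    {f : ↥(modularFunctionFieldBar (N * ℓ))} (hf : f ≠ 0)
    {D : Divisor Qb ↥(modularFunctionFieldBar (N * ℓ))} (hD : ∀ w, D w = w.ord f)
    (v : Place Qb ↥(modularFunctionFieldBar N)) :
    Divisor.pushforwardAlong (heckeBetaBar Qb N ℓ) hβ D v =
      v.ord (letI := algebraAlong (heckeBetaBar Qb N ℓ);
        Algebra.norm ↥(modularFunctionFieldBar N) f) :=
  haveI := pj40_neZero_mul N ℓ
  pj40_pushDiv_eq_ord_norm (heckeBetaBar Qb N ℓ) hf hD v

/-- **`T_ℓ = α_* β^*`** on `JZero N` (every prime `ℓ`, also `ℓ ∣ N`). -/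
theorem pj40_hecke_eq (hℓ : ℓ.Prime) (x : JZero N) :
    heckeOperatorBar N ⟨ℓ, hℓ⟩ x = pj40_alphaPush N ℓ (pj40_betaPull N ℓ x) := by
  haveI := pj40_neZero_mul N ℓ
  haveI := hi63_hasPrincipalDivisors_bar (N * ℓ)
  obtain ⟨D, rfl⟩ := Pic0.mk_surjective x
  obtain ⟨hD, h⟩ := hx63_heckeOperatorBar_mk hℓ (hx63_heckeAlphaBarIntegral N ℓ)
    (hx63_heckeBetaBarIntegral N ℓ) D
  rw [h]
  rfl

end pj40_hecke

end Fermat.Agent.S35
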