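import Fermat.Agent.S35.HeckeTransferAlpha69
import Fermat.Agent.S35.PushJac40

/-!
# S35 lab, row N3 (helper69): the hypothesis-free Hecke transfer for `α`

With `π := pj40_alphaPush N q` (helper40, row N4) in `hta69_hcomm_alpha`:

* `htp69_alphaPush_mk` : `α_* [D] = [α_* D]` in the literal shape `hπmk` of `hta69_hcomm_alpha`;
* `htp69_hcomm_alpha` / `htp69_hcomm_alpha_comp` : for a prime `q ∤ N` and EVERY prime
  `ℓ ∤ N q`: `cp68_corAlpha (T_ℓ c) = T_ℓ (cp68_corAlpha c)` on the lattices of integral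
  parabolic homomorphisms (`T_ℓ = hl42_TL`), with NO further hypothesis;
* `htp69_eigen_alpha` : transport of eigenvectors over any commutative ring `O`;
* `htp69_alphaPush_hecke`, `htp69_betaPush_hecke` : `T_ℓ α_* = α_* T_ℓ` and `T_ℓ β_* = β_* T_ℓ`
  on the `p^n`-torsion of `J₀(N q)` (`ℓ ∤ N q p`);
* `htp69_hcomm_of_2a` : the same commutation for ANY transfer `cor` and ANY Galois-equivariant
  `π` once `(2a)` (`π (Θ n c) = Θ' n (cor c)`) is known for the `te22_family`-type families at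
  the primes `2` and `3` (the form the `β` half binds to).
-/

set_option autoImplicit false
set_option linter.style.haveILetI false
set_option linter.unusedSectionVars false
set_option linter.unusedVariables false
set_option linter.style.longLine false

open CongruenceSubgroup ModularCurve ModularCurve.Period AlgebraicCurve UpperHalfPlane
open scoped TensorProduct MatrixGroups

namespace Fermat.Agent.S35

open Fermat.Agent.S16 Fermat.Agent.S24 Fermat.Agent.S31 Fermat.Agent.S42 Fermat.Agent.S41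
  Fermat.Agent.S37 Fermat.Agent.S30

local notation "Qb" => AlgebraicClosure ℚ
local notation "GQ" => AlgebraicClosure ℚ ≃ₐ[ℚ] AlgebraicClosure ℚ

section htp69

variable (N q : ℕ) [NeZero N] [NeZero q]

/-- `α_* [D] = [α_* D]` in the literal shape `hπmk`. -/
theorem htp69_alphaPush_mk
    (D : Divisor.degZero (K := Qb) (F := ↥(modularFunctionFieldBar (N * q)))) :
    pj40_alphaPush N q (Pic0.mk D) = Pic0.mk ⟨Divisor.pushforwardAlong (heckeAlphaBar Qb N q)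
        (hx63_heckeAlphaBarIntegral N q)
        (D : Divisor Qb ↥(modularFunctionFieldBar (N * q))),
      Divisor.pushforwardAlong_mem_degZero _ _ D.2⟩ :=
  rfl

/-- `β_* [D] = [β_* D]`. -/
theorem htp69_betaPush_mk
    (D : Divisor.degZero (K := Qb) (F := ↥(modularFunctionFieldBar (N * q)))) :
    pj40_betaPush N q (Pic0.mk D) = Pic0.mk ⟨Divisor.pushforwardAlong (heckeBetaBar Qb N q)
        (hx63_heckeBetaBarIntegral N q)
        (D : Divisor Qb ↥(modularFunctionFieldBar (N * q))),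
      Divisor.pushforwardAlong_mem_degZero _ _ D.2⟩ :=
  rfl

/-- **The transfer along `α` commutes with `T_ℓ` for every prime `ℓ ∤ N q`** (no hypothesis). -/
theorem htp69_hcomm_alpha (hq : q.Prime) (hqN : ¬ q ∣ N)
    (ℓ : ℕ) (hℓ : ℓ.Prime) (hℓN : ¬ ℓ ∣ N * q)
    (c : ↥(parabolicHoms ℤ (Gamma0 (N * q)) ℤ)) :
    cp68_corAlpha N q hq hqN (hl42_TL (N * q) ℓ c) =
      hl42_TL N ℓ (cp68_corAlpha N q hq hqN c) :=
  hta69_hcomm_alpha N q hq hqN (pj40_alphaPush N q) (pj40_alphaPush_smul N q)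
    (htp69_alphaPush_mk N q) ℓ hℓ hℓN c

/-- Linear-map form (`hcomm` of row N5). -/
theorem htp69_hcomm_alpha_comp (hq : q.Prime) (hqN : ¬ q ∣ N)
    (ℓ : ℕ) (hℓ : ℓ.Prime) (hℓN : ¬ ℓ ∣ N * q) :
    cp68_corAlpha N q hq hqN ∘ₗ hl42_TL (N * q) ℓ =
      hl42_TL N ℓ ∘ₗ cp68_corAlpha N q hq hqN :=
  LinearMap.ext fun c => htp69_hcomm_alpha N q hq hqN ℓ hℓ hℓN c

/-- Transport of eigenvectors along the transfer, over any commutative ring `O`. -/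
theorem htp69_eigen_alpha (hq : q.Prime) (hqN : ¬ q ∣ N)
    (O : Type*) [CommRing O] (ℓ : ℕ) (hℓ : ℓ.Prime) (hℓN : ¬ ℓ ∣ N * q)
    (x : O ⊗[ℤ] ↥(parabolicHoms ℤ (Gamma0 (N * q)) ℤ)) (a : O)
    (hx : (hl42_TL (N * q) ℓ).baseChange O x = a • x) :
    (hl42_TL N ℓ).baseChange O ((cp68_corAlpha N q hq hqN).baseChange O x) =
      a • (cp68_corAlpha N q hq hqN).baseChange O x :=
  ht69_cores_eigen O ℓ (cp68_corAlpha N q hq hqN)
    (fun c => htp69_hcomm_alpha N q hq hqN ℓ hℓ hℓN c) x a hx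

/-- `T_ℓ α_* = α_* T_ℓ` on the `p^n`-torsion of `J₀(N q)`, `ℓ ∤ N q p`. -/
theorem htp69_alphaPush_hecke (p : ℕ) (ℓ : ℕ) (hℓ : ℓ.Prime) (hℓN : ¬ ℓ ∣ N * q)
    (hℓp : ¬ ℓ ∣ p) (n : ℕ) (y : JZero (N * q)) (hy : p ^ n • y = 0) :
    pj40_alphaPush N q (heckeOperatorBar (N * q) ⟨ℓ, hℓ⟩ y) =
      heckeOperatorBar N ⟨ℓ, hℓ⟩ (pj40_alphaPush N q y) :=
  ht69_push_hecke_JZero (N * q) N p ℓ hℓ hℓN (fun h => hℓN (Dvd.dvd.mul_right h q)) hℓp
    (pj40_alphaPush N q) (pj40_alphaPush_smul N q) n y hy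

/-- `T_ℓ β_* = β_* T_ℓ` on the `p^n`-torsion of `J₀(N q)`, `ℓ ∤ N q p`. -/
theorem htp69_betaPush_hecke (p : ℕ) (ℓ : ℕ) (hℓ : ℓ.Prime) (hℓN : ¬ ℓ ∣ N * q)
    (hℓp : ¬ ℓ ∣ p) (n : ℕ) (y : JZero (N * q)) (hy : p ^ n • y = 0) :
    pj40_betaPush N q (heckeOperatorBar (N * q) ⟨ℓ, hℓ⟩ y) =
      heckeOperatorBar N ⟨ℓ, hℓ⟩ (pj40_betaPush N q y) :=
  ht69_push_hecke_JZero (N * q) N p ℓ hℓ hℓN (fun h => hℓN (Dvd.dvd.mul_right h q)) hℓp
    (pj40_betaPush N q) (pj40_betaPush_smul N q) n y hy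

end htp69

section htp69_gen

variable (N N' : ℕ) [NeZero N] [NeZero N']

/-- **The transfer commutes with `T_ℓ` once `(2a)` is known at the primes `2` and `3`**: for
ANY additive `cor : L(N) → L(N')` and ANY additive Galois-equivariant `π : J₀(N) → J₀(N')` such
that `π (Θ n c) = Θ' n (cor c)` for all families with the `s30i37_ThetaFamily` clauses at the
primes `2` and `3`, and every prime `ℓ ∤ N`, `ℓ ∤ N'`. -/
theorem htp69_hcomm_of_2a
    (π : JZero N →+ JZero N') (hπgal : ∀ (g : GQ) (x : JZero N), π (g • x) = g • π x)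
    (cor : ↥(parabolicHoms ℤ (Gamma0 N) ℤ) →+ ↥(parabolicHoms ℤ (Gamma0 N') ℤ))
    (Θ₂ Θ₃ : ℕ → (↥(parabolicHoms ℤ (Gamma0 N) ℤ) →+ JZero N))
    (Θ₂' Θ₃' : ℕ → (↥(parabolicHoms ℤ (Gamma0 N') ℤ) →+ JZero N'))
    (h₂ : s30i37_ThetaFamily N 2 Θ₂) (h₂' : s30i37_ThetaFamily N' 2 Θ₂')
    (h₃ : s30i37_ThetaFamily N 3 Θ₃) (h₃' : s30i37_ThetaFamily N' 3 Θ₃')
    (h2a₂ : ∀ (n : ℕ) (c : ↥(parabolicHoms ℤ (Gamma0 N) ℤ)), π (Θ₂ n c) = Θ₂' n (cor c))
    (h2a₃ : ∀ (n : ℕ) (c : ↥(parabolicHoms ℤ (Gamma0 N) ℤ)), π (Θ₃ n c) = Θ₃' n (cor c))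
    (ℓ : ℕ) (hℓ : ℓ.Prime) (hℓN : ¬ ℓ ∣ N) (hℓN' : ¬ ℓ ∣ N')
    (c : ↥(parabolicHoms ℤ (Gamma0 N) ℤ)) :
    cor (hl42_TL N ℓ c) = hl42_TL N' ℓ (cor c) :=
  ht69_cores_hecke_two N N' 2 3 Nat.prime_two Nat.prime_three (by norm_num)
    Θ₂ Θ₃ Θ₂' Θ₃' h₂ h₂' h₃ h₃' π hπgal cor h2a₂ h2a₃ ℓ hℓ hℓN hℓN' c

end htp69_gen

end Fermat.Agent.S35
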