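import Mathlib
import Fermat.Prelude.Def_ModularCurve_HeckeOperator

/-!
# S35 lab (helper36), row LJ: from the function-field form of `(A*)` to its Jacobian form

Abstract part (Mathlib + Prelude only).

* `lj36_core` : for a curve `F' / K`, semilinear automorphisms `g i` and integers `c i`
  (an element `∑ c i [g i]` of the group ring): if `m D = div f` and the multiplicative image
  `∏ (g i • f) ^ (c i)` is an `m`-th power, then `∑ c i • (g i • [D]) = 0` in `Pic⁰`.
* `lj36_abs` : the same for the classes `[D]` that are killed by `m` and by the two push-forwards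
  along `φ₁ φ₂ : F → F'` ("new" classes), when the `m`-th power statement is only known for
  Kummer functions whose two norms are `m`-th powers (the function-field form of `(A*)`).
-/

set_option autoImplicit false
set_option linter.style.haveILetI false

open AlgebraicCurve

namespace Fermat.Agent.S35

section Core

variable {K F' : Type*} [Field K] [Field F'] [Algebra K F']

/-- `P.ord (g • f) = (g⁻¹ • P).ord f`. -/
theorem lj36_ord_smul (g : SemilinearAut K F') (P : Place K F') (f : F') :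
    P.ord (g • f) = (g⁻¹ • P).ord f := by
  have h := SemilinearAut.ord_smul g (g⁻¹ • P) f
  rwa [smul_inv_smul] at h

/-- Order of a finite product of nonzero functions. -/
theorem lj36_ord_prod {ι : Type*} (s : Finset ι) (h : ι → F') (hh : ∀ i ∈ s, h i ≠ 0)
    (P : Place K F') : P.ord (∏ i ∈ s, h i) = ∑ i ∈ s, P.ord (h i) := by
  classical
  induction s using Finset.induction_on with
  | empty => simp
  | insert a s ha ih =>
    rw [Finset.prod_insert ha, Finset.sum_insert ha,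
      P.ord_mul (hh a (Finset.mem_insert_self a s))
        (Finset.prod_ne_zero_iff.mpr fun i hi => hh i (Finset.mem_insert_of_mem hi)),
      ih fun i hi => hh i (Finset.mem_insert_of_mem hi)]

/-- **Core computation.** -/
theorem lj36_core {ι : Type*} (s : Finset ι) (g : ι → SemilinearAut K F') (c : ι → ℤ)
    (m : ℕ) (hm0 : m ≠ 0) (D : Divisor.degZero (K := K) (F := F')) (f : F') (hf0 : f ≠ 0)
    (hfD : ∀ P : Place K F', P.ord f = (m : ℤ) * (D : Divisor K F') P)
    (v : F') (hv : v ^ m = ∏ i ∈ s, (g i • f) ^ (c i)) :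
    ∑ i ∈ s, c i • (g i • Pic0.mk D) = 0 := by
  classical
  have hgf : ∀ k : SemilinearAut K F', k • f ≠ 0 := fun k => by
    rw [SemilinearAut.smul_def]; simpa using hf0
  have hterm : ∀ i ∈ s, (g i • f) ^ (c i) ≠ 0 := fun i _ => zpow_ne_zero _ (hgf _)
  have hu0 : ∏ i ∈ s, (g i • f) ^ (c i) ≠ 0 := Finset.prod_ne_zero_iff.mpr hterm
  have hv0 : v ≠ 0 := by
    rintro rfl
    rw [zero_pow hm0] at hv
    exact hu0 hv.symm
  -- the divisor `E = ∑ c i • g i D`
  set E : Divisor.degZero (K := K) (F := F') :=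
    ∑ i ∈ s, c i • SemilinearAut.degZeroSMulHom (g i) D with hE
  have hmk : ∑ i ∈ s, c i • (g i • Pic0.mk D) = Pic0.mk E := by
    have h1 : Pic0.mk E = ∑ i ∈ s, Pic0.mk (c i • SemilinearAut.degZeroSMulHom (g i) D) :=
      map_sum (QuotientAddGroup.mk' _) _ s
    rw [h1]
    refine Finset.sum_congr rfl fun i _ => ?_
    rw [SemilinearAut.pic0_smul_mk]
    have h2 : Pic0.mk (c i • SemilinearAut.degZeroSMulHom (g i) D) =
        c i • Pic0.mk (SemilinearAut.degZeroSMulHom (g i) D) :=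
      map_zsmul (QuotientAddGroup.mk' _) (c i) (SemilinearAut.degZeroSMulHom (g i) D)
    exact h2.symm
  rw [hmk]
  refine (QuotientAddGroup.eq_zero_iff _).mpr ?_
  rw [AddSubgroup.mem_addSubgroupOf]
  refine ⟨v, hv0, fun P => ?_⟩
  have hEP : (E : Divisor K F') P = ∑ i ∈ s, c i * (D : Divisor K F') ((g i)⁻¹ • P) := by
    rw [hE, AddSubgroup.val_finset_sum, Finsupp.finset_sum_apply]
    refine Finset.sum_congr rfl fun i _ => ?_
    rw [AddSubgroup.coe_zsmul, Finsupp.smul_apply, SemilinearAut.coe_degZeroSMulHom,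
      SemilinearAut.divisor_smul_apply, smul_eq_mul]
  have hord : P.ord (v ^ m) = (m : ℤ) * P.ord v := by
    have := P.ord_zpow v (m : ℤ)
    simpa using this
  have hordu : P.ord (∏ i ∈ s, (g i • f) ^ (c i)) =
      ∑ i ∈ s, c i * ((m : ℤ) * (D : Divisor K F') ((g i)⁻¹ • P)) := by
    rw [lj36_ord_prod s _ hterm P]
    refine Finset.sum_congr rfl fun i _ => ?_
    rw [P.ord_zpow, lj36_ord_smul, hfD]
  have hkey : (m : ℤ) * P.ord v = (m : ℤ) * (E : Divisor K F') P := by
    rw [← hord, hv, hordu, hEP, Finset.mul_sum]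
    refine Finset.sum_congr rfl fun i _ => ?_
    ring
  have hm' : (m : ℤ) ≠ 0 := by exact_mod_cast hm0
  exact (mul_left_cancel₀ hm' hkey).symm

end Core

section New

variable {K F F' : Type*} [Field K] [Field F] [Field F'] [Algebra K F] [Algebra K F']

/-- The norm of `F' / φ(F)`. -/
noncomputable def lj36_normAlong (φ : F →ₐ[K] F') (w : F') : F :=
  letI := algebraAlong φ
  Algebra.norm F w

/-- If `m D = div f` and `φ_* D = div a₀`, then the norm of `f` is a constant times `a₀ ^ m`;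
over a field with `m`-th roots it is an `m`-th power. -/
theorem lj36_norm_eq_pow (φ : F →ₐ[K] F') (hφ : φ.toRingHom.IsIntegral)
    (hfin : FiniteAlong K φ) (hN : NormFormulaAlong K φ hfin)
    (hconst : ∀ y : F, y ≠ 0 → (∀ Q : Place K F, Q.ord y = 0) → ∃ a : K, y = algebraMap K F a)
    (m : ℕ) (hm0 : m ≠ 0) (hroot : ∀ a : K, ∃ b : K, b ^ m = a)
    (D : Divisor K F') (f : F') (hf0 : f ≠ 0)
    (hfD : ∀ P : Place K F', P.ord f = (m : ℤ) * D P)
    (h : (Divisor.pushforwardAlong φ hφ D).IsPrincipal) :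
    ∃ a : F, a ≠ 0 ∧ lj36_normAlong φ f = a ^ m := by
  obtain ⟨a₀, ha₀, hDa⟩ := h
  -- the norm of `f`
  have hnorm0 : lj36_normAlong φ f ≠ 0 := by
    unfold lj36_normAlong
    letI := algebraAlong φ
    haveI : Module.Finite F F' := hfin
    exact Algebra.norm_ne_zero_iff.mpr hf0
  have hmD : ∀ P : Place K F', ((m : ℤ) • D) P = P.ord f := fun P => by
    rw [Finsupp.smul_apply, smul_eq_mul, hfD]
  have hpush : ∀ Q : Place K F,
      Divisor.pushforwardAlong φ hφ ((m : ℤ) • D) Q = Q.ord (lj36_normAlong φ f) := by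
    intro Q
    unfold lj36_normAlong
    letI := algebraAlong φ
    haveI := isScalarTower_along φ
    haveI := isIntegral_along φ hφ
    haveI : Module.Finite F F' := hfin
    exact hN f hf0 _ hmD Q
  -- the quotient has trivial divisor
  have hq0 : lj36_normAlong φ f / a₀ ^ m ≠ 0 := div_ne_zero hnorm0 (pow_ne_zero m ha₀)
  have hord : ∀ Q : Place K F, Q.ord (lj36_normAlong φ f / a₀ ^ m) = 0 := by
    intro Q
    have h1 : Q.ord (a₀ ^ m) = (m : ℤ) * Q.ord a₀ := by
      have := Q.ord_zpow a₀ (m : ℤ)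
      simpa using this
    rw [div_eq_mul_inv, Q.ord_mul hnorm0 (inv_ne_zero (pow_ne_zero m ha₀)), Q.ord_inv, h1,
      ← hpush Q, map_zsmul, Finsupp.smul_apply, smul_eq_mul, hDa Q]
    ring
  obtain ⟨c, hc⟩ := hconst _ hq0 hord
  obtain ⟨d, hd⟩ := hroot c
  have hd0 : d ≠ 0 := by
    rintro rfl
    rw [zero_pow hm0] at hd
    rw [← hd, map_zero] at hc
    exact hq0 hc
  refine ⟨algebraMap K F d * a₀, mul_ne_zero ((map_ne_zero _).mpr hd0) ha₀, ?_⟩
  rw [mul_pow, ← map_pow, hd, ← hc, div_mul_cancel₀ _ (pow_ne_zero m ha₀)]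

/-- **Abstract Jacobian form.** -/
theorem lj36_abs (φ₁ φ₂ : F →ₐ[K] F') (hφ₁ : φ₁.toRingHom.IsIntegral)
    (hφ₂ : φ₂.toRingHom.IsIntegral)
    (hfin₁ : FiniteAlong K φ₁) (hN₁ : NormFormulaAlong K φ₁ hfin₁)
    (hfin₂ : FiniteAlong K φ₂) (hN₂ : NormFormulaAlong K φ₂ hfin₂)
    (hconst : ∀ y : F, y ≠ 0 → (∀ Q : Place K F, Q.ord y = 0) → ∃ a : K, y = algebraMap K F a)
    (m : ℕ) (hm0 : m ≠ 0) (hroot : ∀ a : K, ∃ b : K, b ^ m = a)
    {ι : Type*} (s : Finset ι) (g : ι → SemilinearAut K F') (c : ι → ℤ)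
    (hFF : ∀ f : F', f ≠ 0 → (∀ P : Place K F', (m : ℤ) ∣ P.ord f) →
      (∃ a : F, a ≠ 0 ∧ lj36_normAlong φ₁ f = a ^ m) →
      (∃ b : F, b ≠ 0 ∧ lj36_normAlong φ₂ f = b ^ m) →
      ∃ v : F', v ^ m = ∏ i ∈ s, (g i • f) ^ (c i))
    (D : Divisor.degZero (K := K) (F := F')) (hmD : m • Pic0.mk D = 0)
    (h₁ : (Divisor.pushforwardAlong φ₁ hφ₁ (D : Divisor K F')).IsPrincipal)
    (h₂ : (Divisor.pushforwardAlong φ₂ hφ₂ (D : Divisor K F')).IsPrincipal) :
    ∑ i ∈ s, c i • (g i • Pic0.mk D) = 0 := by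
  -- `m • D` is principal
  have hprin : (m • (D : Divisor K F')) ∈ Divisor.principal (K := K) (F := F') := by
    have h1 : Pic0.mk (m • D) = 0 := by
      have : Pic0.mk (m • D) = m • Pic0.mk D := map_nsmul (QuotientAddGroup.mk' _) m D
      rw [this, hmD]
    have h2 := (QuotientAddGroup.eq_zero_iff _).mp h1
    rw [AddSubgroup.mem_addSubgroupOf] at h2
    simpa using h2
  obtain ⟨f, hf0, hf⟩ := hprin
  have hfD : ∀ P : Place K F', P.ord f = (m : ℤ) * (D : Divisor K F') P := by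
    intro P
    rw [← hf P, Finsupp.smul_apply, nsmul_eq_mul]
  obtain ⟨v, hv⟩ := hFF f hf0 (fun P => ⟨_, hfD P⟩)
    (lj36_norm_eq_pow φ₁ hφ₁ hfin₁ hN₁ hconst m hm0 hroot _ f hf0 hfD h₁)
    (lj36_norm_eq_pow φ₂ hφ₂ hfin₂ hN₂ hconst m hm0 hroot _ f hf0 hfD h₂)
  exact lj36_core s g c m hm0 D f hf0 hfD v hv

end New

end Fermat.Agent.S35
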