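import Fermat.Agent.S35.JacForm36
import Fermat.Agent.S37.HeckeExports63
import Fermat.Agent.S42.ThetaConst21

/-!
# S35 lab (helper36), row LJ: the Jacobian form of `(A*)` on `JZero (M' * q)`

* `lj36_FF M' q m σ p` : the function-field form over `ℚ̄` at level `M' q` for the integer
  polynomial `p`: for every Kummer function `f` (all orders divisible by `m`) whose norms along
  `α = heckeAlphaBar` and `β = heckeBetaBar` are `m`-th powers, the function
  `∏ i, (σ^i f) ^ (p.coeff i)` is an `m`-th power.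
* `lj36_jac` : `lj36_FF` ⟹ `∑ i, p.coeff i • σ^i • [D] = 0` for every degree-zero divisor `D`
  whose class is killed by `m` and whose push-forwards `α_* D`, `β_* D` are principal.
* `lj36_poly q` : the polynomial `(X² - q²)(1 - X²)² = X⁶ - (2+q²) X⁴ + (1+2q²) X² - q²`, and
  `lj36_jac_poly` : the nested shape
  `σ⁶ x - (2+q²) σ⁴ x + (1+2q²) σ² x - q² x = 0`.
-/

set_option autoImplicit false
set_option linter.style.haveILetI false

open AlgebraicCurve ModularCurve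

namespace Fermat.Agent.S35

open Fermat.Agent.S24 Fermat.Agent.S37 Fermat.Agent.S42

local notation "Q̄" => AlgebraicClosure ℚ

/-- **Function-field form of `(A*)`** over `ℚ̄` at level `M' q`, for the integer polynomial `p`
and the element `σ` of `Gal(ℚ̄/ℚ)` acting coefficientwise on `q`-expansions. -/
def lj36_FF (M' q m : ℕ) [NeZero M'] [NeZero q] (σ : Q̄ ≃ₐ[ℚ] Q̄) (p : Polynomial ℤ) : Prop :=
  ∀ f : modularFunctionFieldBar (M' * q), f ≠ 0 →
    (∀ P : Place Q̄ (modularFunctionFieldBar (M' * q)), (m : ℤ) ∣ P.ord f) →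
    (∃ a : modularFunctionFieldBar M', a ≠ 0 ∧
      lj36_normAlong (heckeAlphaBar Q̄ M' q) f = a ^ m) →
    (∃ b : modularFunctionFieldBar M', b ≠ 0 ∧
      lj36_normAlong (heckeBetaBar Q̄ M' q) f = b ^ m) →
    ∃ v : modularFunctionFieldBar (M' * q),
      v ^ m = ∏ i ∈ p.support,
        (arithmeticGalois (modularFunctionFieldFull (M' * q)) (σ ^ i) • f) ^ (p.coeff i)

/-- `α = heckeAlphaBar` is integral. -/
theorem lj36_alpha_integral (M' q : ℕ) [NeZero M'] [NeZero q] :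
    (heckeAlphaBar Q̄ M' q).toRingHom.IsIntegral :=
  hx63_isIntegral_gen M' (M' * q) (heckeAlphaBar Q̄ M' q)

/-- `β = heckeBetaBar` is integral. -/
theorem lj36_beta_integral (M' q : ℕ) [NeZero M'] [NeZero q] :
    (heckeBetaBar Q̄ M' q).toRingHom.IsIntegral :=
  hx63_isIntegral_gen M' (M' * q) (heckeBetaBar Q̄ M' q)

/-- **Jacobian form, divisor shape, general polynomial.** -/
theorem lj36_jac (M' q m : ℕ) [NeZero M'] [NeZero q] (hm0 : m ≠ 0) (σ : Q̄ ≃ₐ[ℚ] Q̄)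
    (p : Polynomial ℤ) (hFF : lj36_FF M' q m σ p)
    (D : Divisor.degZero (K := Q̄) (F := modularFunctionFieldBar (M' * q)))
    (hmD : m • (Pic0.mk D : JZero (M' * q)) = 0)
    (h₁ : (Divisor.pushforwardAlong (heckeAlphaBar Q̄ M' q) (lj36_alpha_integral M' q)
      (D : Divisor Q̄ (modularFunctionFieldBar (M' * q)))).IsPrincipal)
    (h₂ : (Divisor.pushforwardAlong (heckeBetaBar Q̄ M' q) (lj36_beta_integral M' q)
      (D : Divisor Q̄ (modularFunctionFieldBar (M' * q)))).IsPrincipal) :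
    ∑ i ∈ p.support, p.coeff i • (σ ^ i • (Pic0.mk D : JZero (M' * q))) = 0 := by
  haveI := hi63_hasPrincipalDivisors_bar (M' * q)
  obtain ⟨-, hfin₁, hN₁⟩ := hx63_inputs_gen (φ := heckeAlphaBar Q̄ M' q) (lj36_alpha_integral M' q)
  obtain ⟨-, hfin₂, hN₂⟩ := hx63_inputs_gen (φ := heckeBetaBar Q̄ M' q) (lj36_beta_integral M' q)
  exact lj36_abs (heckeAlphaBar Q̄ M' q) (heckeBetaBar Q̄ M' q) (lj36_alpha_integral M' q)
    (lj36_beta_integral M' q) hfin₁ hN₁ hfin₂ hN₂ (tc21_hconst M') m hm0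
    (tc21_hroot m (Nat.pos_of_ne_zero hm0)) p.support
    (fun i => arithmeticGalois (modularFunctionFieldFull (M' * q)) (σ ^ i)) (fun i => p.coeff i)
    hFF D hmD h₁ h₂

/-- **Function-field form of `(A*)`, explicit shape** for
`(X² - q²)(1 - X²)² = X⁶ - (2+q²) X⁴ + (1+2q²) X² - q²`: for every Kummer function `f` whose norms
along `α` and `β` are `m`-th powers,
`σ⁶ f · (σ² f)^(1+2q²) / ((σ⁴ f)^(2+q²) · f^(q²))` is an `m`-th power. -/
def lj36_FFx (M' q m : ℕ) [NeZero M'] [NeZero q] (σ : Q̄ ≃ₐ[ℚ] Q̄) : Prop :=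
  ∀ f : modularFunctionFieldBar (M' * q), f ≠ 0 →
    (∀ P : Place Q̄ (modularFunctionFieldBar (M' * q)), (m : ℤ) ∣ P.ord f) →
    (∃ a : modularFunctionFieldBar M', a ≠ 0 ∧
      lj36_normAlong (heckeAlphaBar Q̄ M' q) f = a ^ m) →
    (∃ b : modularFunctionFieldBar M', b ≠ 0 ∧
      lj36_normAlong (heckeBetaBar Q̄ M' q) f = b ^ m) →
    ∃ v : modularFunctionFieldBar (M' * q),
      v ^ m = (arithmeticGalois (modularFunctionFieldFull (M' * q)) (σ ^ 6) • f) *
          (arithmeticGalois (modularFunctionFieldFull (M' * q)) (σ ^ 2) • f) ^ (1 + 2 * q ^ 2) /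
        ((arithmeticGalois (modularFunctionFieldFull (M' * q)) (σ ^ 4) • f) ^ (2 + q ^ 2) *
          f ^ (q ^ 2))

/-- The coefficient vector of `X⁶ - (2+q²) X⁴ + (1+2q²) X² - q²` in the powers `X⁰, X², X⁴, X⁶`. -/
def lj36_c (q : ℕ) : Fin 4 → ℤ :=
  ![-((q ^ 2 : ℕ) : ℤ), ((1 + 2 * q ^ 2 : ℕ) : ℤ), -((2 + q ^ 2 : ℕ) : ℤ), 1]

theorem lj36_c_zero (q : ℕ) : lj36_c q 0 = -((q ^ 2 : ℕ) : ℤ) := rfl
theorem lj36_c_one (q : ℕ) : lj36_c q 1 = ((1 + 2 * q ^ 2 : ℕ) : ℤ) := rfl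
theorem lj36_c_two (q : ℕ) : lj36_c q 2 = -((2 + q ^ 2 : ℕ) : ℤ) := rfl
theorem lj36_c_three (q : ℕ) : lj36_c q 3 = 1 := rfl

/-- The explicit quotient as a product over `Fin 4` (abstract field identity). -/
theorem lj36_prod_eq {F : Type*} [Field F] (q : ℕ) (f0 f2 f4 f6 : F) (h0 : f0 ≠ 0)
    (h4 : f4 ≠ 0) :
    f6 * f2 ^ (1 + 2 * q ^ 2) / (f4 ^ (2 + q ^ 2) * f0 ^ (q ^ 2)) =
      f0 ^ (lj36_c q 0) * f2 ^ (lj36_c q 1) * f4 ^ (lj36_c q 2) * f6 ^ (lj36_c q 3) := by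
  rw [lj36_c_zero, lj36_c_one, lj36_c_two, lj36_c_three, zpow_neg, zpow_neg, zpow_natCast,
    zpow_natCast, zpow_natCast, zpow_one]
  have hn0 : f0 ^ (q ^ 2) ≠ 0 := pow_ne_zero _ h0
  have hn4 : f4 ^ (2 + q ^ 2) ≠ 0 := pow_ne_zero _ h4
  field_simp

/-- **Jacobian form, divisor shape, the polynomial `(X² - q²)(1 - X²)²`** (nested shape). -/
theorem lj36_jac_x (M' q m : ℕ) [NeZero M'] [NeZero q] (hm0 : m ≠ 0) (σ : Q̄ ≃ₐ[ℚ] Q̄)
    (hFF : lj36_FFx M' q m σ)
    (D : Divisor.degZero (K := Q̄) (F := modularFunctionFieldBar (M' * q)))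
    (hmD : m • (Pic0.mk D : JZero (M' * q)) = 0)
    (h₁ : (Divisor.pushforwardAlong (heckeAlphaBar Q̄ M' q) (lj36_alpha_integral M' q)
      (D : Divisor Q̄ (modularFunctionFieldBar (M' * q)))).IsPrincipal)
    (h₂ : (Divisor.pushforwardAlong (heckeBetaBar Q̄ M' q) (lj36_beta_integral M' q)
      (D : Divisor Q̄ (modularFunctionFieldBar (M' * q)))).IsPrincipal) :
    σ • σ • σ • σ • σ • σ • (Pic0.mk D : JZero (M' * q))
      - (2 + (q : ℤ) ^ 2) • (σ • σ • σ • σ • (Pic0.mk D : JZero (M' * q)))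
      + (1 + 2 * (q : ℤ) ^ 2) • (σ • σ • (Pic0.mk D : JZero (M' * q)))
      - ((q : ℤ) ^ 2) • (Pic0.mk D : JZero (M' * q)) = 0 := by
  haveI := hi63_hasPrincipalDivisors_bar (M' * q)
  obtain ⟨-, hfin₁, hN₁⟩ := hx63_inputs_gen (φ := heckeAlphaBar Q̄ M' q) (lj36_alpha_integral M' q)
  obtain ⟨-, hfin₂, hN₂⟩ := hx63_inputs_gen (φ := heckeBetaBar Q̄ M' q) (lj36_beta_integral M' q)
  -- the four automorphisms `σ^0, σ^2, σ^4, σ^6`
  let g : Fin 4 → SemilinearAut Q̄ (modularFunctionFieldBar (M' * q)) :=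
    ![1, arithmeticGalois (modularFunctionFieldFull (M' * q)) (σ ^ 2),
      arithmeticGalois (modularFunctionFieldFull (M' * q)) (σ ^ 4),
      arithmeticGalois (modularFunctionFieldFull (M' * q)) (σ ^ 6)]
  have hg0 : g 0 = 1 := rfl
  have hg1 : g 1 = arithmeticGalois (modularFunctionFieldFull (M' * q)) (σ ^ 2) := rfl
  have hg2 : g 2 = arithmeticGalois (modularFunctionFieldFull (M' * q)) (σ ^ 4) := rfl
  have hg3 : g 3 = arithmeticGalois (modularFunctionFieldFull (M' * q)) (σ ^ 6) := rfl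
  have key := lj36_abs (heckeAlphaBar Q̄ M' q) (heckeBetaBar Q̄ M' q) (lj36_alpha_integral M' q)
    (lj36_beta_integral M' q) hfin₁ hN₁ hfin₂ hN₂ (tc21_hconst M') m hm0
    (tc21_hroot m (Nat.pos_of_ne_zero hm0)) (Finset.univ : Finset (Fin 4)) g (lj36_c q)
    (by
      intro f hf0 hord ha hb
      obtain ⟨v, hv⟩ := hFF f hf0 hord ha hb
      refine ⟨v, ?_⟩
      have hgf : ∀ k : SemilinearAut Q̄ (modularFunctionFieldBar (M' * q)), k • f ≠ 0 :=
        fun k => by rw [SemilinearAut.smul_def]; simpa using hf0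
      rw [hv, Fin.prod_univ_four, hg0, hg1, hg2, hg3, one_smul]
      exact lj36_prod_eq q f _ _ _ hf0 (hgf _))
    D hmD h₁ h₂
  rw [Fin.sum_univ_four, hg0, hg1, hg2, hg3, one_smul, lj36_c_zero, lj36_c_one, lj36_c_two,
    lj36_c_three] at key
  have e2 : arithmeticGalois (modularFunctionFieldFull (M' * q)) (σ ^ 2) •
      (Pic0.mk D : JZero (M' * q)) = σ • σ • (Pic0.mk D : JZero (M' * q)) := by
    rw [← galois_smul_pic0_def]
    simp only [pow_succ, pow_zero, one_mul, mul_smul]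
  have e4 : arithmeticGalois (modularFunctionFieldFull (M' * q)) (σ ^ 4) •
      (Pic0.mk D : JZero (M' * q)) = σ • σ • σ • σ • (Pic0.mk D : JZero (M' * q)) := by
    rw [← galois_smul_pic0_def]
    simp only [pow_succ, pow_zero, one_mul, mul_smul]
  have e6 : arithmeticGalois (modularFunctionFieldFull (M' * q)) (σ ^ 6) •
      (Pic0.mk D : JZero (M' * q)) = σ • σ • σ • σ • σ • σ • (Pic0.mk D : JZero (M' * q)) := by
    rw [← galois_smul_pic0_def]
    simp only [pow_succ, pow_zero, one_mul, mul_smul]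
  rw [e2, e4, e6] at key
  generalize σ • σ • σ • σ • σ • σ • (Pic0.mk D : JZero (M' * q)) = x6 at key ⊢
  generalize σ • σ • σ • σ • (Pic0.mk D : JZero (M' * q)) = x4 at key ⊢
  generalize σ • σ • (Pic0.mk D : JZero (M' * q)) = x2 at key ⊢
  generalize (Pic0.mk D : JZero (M' * q)) = x0 at key ⊢
  rw [← key]
  push_cast
  module

/-- The product `(T - q)(T + q)(T - 1)(T - 1)(T + 1)(T + 1)` on a vector, expanded. -/
theorem lj36_rootProd_expand {J : Type*} [AddCommGroup J] (T : Module.End ℤ J) (q : ℤ) (x : J) :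
    ((List.map (fun ν : ℤ => T - ν • (1 : Module.End ℤ J)) [q, -q, 1, 1, -1, -1]).prod) x =
      T (T (T (T (T (T x))))) - (2 + q ^ 2) • T (T (T (T x))) + (1 + 2 * q ^ 2) • T (T x)
        - (q ^ 2) • x := by
  simp only [List.map_cons, List.map_nil, List.prod_cons, List.prod_nil, mul_one,
    Module.End.mul_apply, LinearMap.sub_apply, LinearMap.smul_apply, Module.End.one_apply,
    map_sub, map_zsmul]
  module

/-- **Jacobian form, root-list shape**: for any `ℤ`-linear endomorphism `T` of `JZero (M' q)`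
which acts as `σ`, the product of the factors `T - ν`, `ν ∈ [q, -q, 1, 1, -1, -1]`, kills the
class of `D`. -/
theorem lj36_jac_root (M' q m : ℕ) [NeZero M'] [NeZero q] (hm0 : m ≠ 0) (σ : Q̄ ≃ₐ[ℚ] Q̄)
    (hFF : lj36_FFx M' q m σ)
    (T : Module.End ℤ (JZero (M' * q))) (hT : ∀ y : JZero (M' * q), T y = σ • y)
    (D : Divisor.degZero (K := Q̄) (F := modularFunctionFieldBar (M' * q)))
    (hmD : m • (Pic0.mk D : JZero (M' * q)) = 0)
    (h₁ : (Divisor.pushforwardAlong (heckeAlphaBar Q̄ M' q) (lj36_alpha_integral M' q)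
      (D : Divisor Q̄ (modularFunctionFieldBar (M' * q)))).IsPrincipal)
    (h₂ : (Divisor.pushforwardAlong (heckeBetaBar Q̄ M' q) (lj36_beta_integral M' q)
      (D : Divisor Q̄ (modularFunctionFieldBar (M' * q)))).IsPrincipal) :
    ((List.map (fun ν : ℤ => T - ν • (1 : Module.End ℤ (JZero (M' * q))))
      [(q : ℤ), -(q : ℤ), 1, 1, -1, -1]).prod) (Pic0.mk D : JZero (M' * q)) = 0 := by
  rw [lj36_rootProd_expand]
  simp only [hT]
  exact lj36_jac_x M' q m hm0 σ hFF D hmD h₁ h₂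

end Fermat.Agent.S35
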