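import Mathlib
import Fermat.Agent.S34.Iface47
import Fermat.Agent.S34.LocalDatum32

/-!
# S35 lab (helper54): the local datum of a multiplicative operator (abstract, chain B)

The S34 "delta trick" for an arbitrary multiplicative operator `T : F →*₀ F` (in the application
`T = TH`, helper22's Eichler–Shimura operator at a prime `q ∥ M`; `s34i47_dd σ τ` in S34).

* `ldo54_localDatum` : if `T x ≡ 1 mod π W` for EVERY `x ≠ 0`, the chart `B ⊆ W` is `π`-saturated
  in `W` and has the Krull property (KR), and at every closed point `n` of the special fibre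
  there is `c ≠ 0` such that `T (f / c ^ m)` is regular along every horizontal `O` through `n`,
  then `s34i47_LocalDatum π m W B (T f)` (the datum is `φ := (T c)⁻¹`).
* `ldo54_regular_of_transport` : the hypothesis on `c` from a *unit transport* statement for `T`
  (units along the horizontals through a set `Σ n` of closed points go to regular functions along
  the horizontals through `n`) and a *semi-local (LP)* on `Σ n`.
* `ldo54_localDatum_of_transport` : the two combined.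

Mathlib + `Iface47` + `LocalDatum32` only.  All names are prefixed `ldo54_`.
-/

set_option autoImplicit false

namespace Fermat.Agent.S35

open Fermat.Agent.S34

variable {R F : Type*} [CommRing R] [Field F] [Algebra R F]

/-- **(LD) for a multiplicative operator.** -/
theorem ldo54_localDatum (π : R) (hp0 : algebraMap R F π ≠ 0) (m : ℕ) (W : Subring F)
    (B : Subalgebra R F) (T : F →*₀ F) (f : F)
    (hRW : ∀ r : R, algebraMap R F r ∈ W) (hBW : ∀ x ∈ B, x ∈ W)
    (hsat : ∀ x ∈ B, (algebraMap R F π)⁻¹ * x ∈ W → (algebraMap R F π)⁻¹ * x ∈ B)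
    (hT1 : ∀ x : F, x ≠ 0 → (algebraMap R F π)⁻¹ * (T x - 1) ∈ W)
    (hKr : s34i47_Krull π B)
    (hreg : ∀ n : Ideal B, n.IsMaximal → algebraMap R B π ∈ n →
      ∃ c : F, c ≠ 0 ∧ ∀ O : ValuationSubring F, s34i47_IsHoriz π O → s34i47_Through B n O →
        T (f / c ^ m) ∈ O) :
    s34i47_LocalDatum π m W B (T f) := by
  intro n hn hπn
  have hpW : algebraMap R F π ∈ W := hRW π
  obtain ⟨c, hc0, hc⟩ := hreg n hn hπn
  refine ⟨(T c)⁻¹, ?_, ?_⟩
  · have h := hT1 _ (inv_ne_zero hc0)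
    rwa [map_inv₀] at h
  · have hkey : ((T c)⁻¹) ^ m * T f = T (f / c ^ m) := by
      rw [map_div₀, map_pow, inv_pow, div_eq_mul_inv, mul_comm]
    rw [hkey]
    have hθW : T (f / c ^ m) ∈ W := by
      by_cases hθ0 : f / c ^ m = 0
      · rw [hθ0, map_zero]; exact W.zero_mem
      · exact ld32_mem_of_cong W _ hp0 hpW (hT1 _ hθ0)
    obtain ⟨s, hs, k, hk⟩ := hKr n hn hπn (T (f / c ^ m)) hc
    exact ⟨s, hs, ld32_sat_pow W _ hp0 hpW B hsat k _ (W.mul_mem (hBW _ s.2) hθW) hk⟩

/-- Unit transport + semi-local (LP) give the regularity hypothesis of `ldo54_localDatum`. -/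
theorem ldo54_regular_of_transport (π : R) (m : ℕ) (B : Subalgebra R F) (T : F →*₀ F) (f : F)
    (Sig : Ideal B → Set (Ideal B))
    (htr : ∀ n : Ideal B, n.IsMaximal → algebraMap R B π ∈ n → ∀ y : F, y ≠ 0 →
      (∀ n' ∈ Sig n, ∀ O : ValuationSubring F, s34i47_IsHoriz π O → s34i47_Through B n' O →
        y ∈ O ∧ y⁻¹ ∈ O) →
      ∀ O : ValuationSubring F, s34i47_IsHoriz π O → s34i47_Through B n O → T y ∈ O)
    (hLP : ∀ n : Ideal B, n.IsMaximal → algebraMap R B π ∈ n →
      ∃ c : F, c ≠ 0 ∧ ∀ n' ∈ Sig n, ∀ O : ValuationSubring F, s34i47_IsHoriz π O →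
        s34i47_Through B n' O → f / c ^ m ∈ O ∧ c ^ m / f ∈ O)
    (hf : f ≠ 0) :
    ∀ n : Ideal B, n.IsMaximal → algebraMap R B π ∈ n →
      ∃ c : F, c ≠ 0 ∧ ∀ O : ValuationSubring F, s34i47_IsHoriz π O → s34i47_Through B n O →
        T (f / c ^ m) ∈ O := by
  intro n hn hπn
  obtain ⟨c, hc0, hc⟩ := hLP n hn hπn
  refine ⟨c, hc0, htr n hn hπn (f / c ^ m) (div_ne_zero hf (pow_ne_zero m hc0)) ?_⟩
  intro n' hn' O hO hOn'
  obtain ⟨h1, h2⟩ := hc n' hn' O hO hOn'
  exact ⟨h1, by rw [inv_div]; exact h2⟩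

/-- **(LD) for a multiplicative operator from unit transport + semi-local (LP).** -/
theorem ldo54_localDatum_of_transport (π : R) (hp0 : algebraMap R F π ≠ 0) (m : ℕ)
    (W : Subring F) (B : Subalgebra R F) (T : F →*₀ F) (f : F) (hf : f ≠ 0)
    (hRW : ∀ r : R, algebraMap R F r ∈ W) (hBW : ∀ x ∈ B, x ∈ W)
    (hsat : ∀ x ∈ B, (algebraMap R F π)⁻¹ * x ∈ W → (algebraMap R F π)⁻¹ * x ∈ B)
    (hT1 : ∀ x : F, x ≠ 0 → (algebraMap R F π)⁻¹ * (T x - 1) ∈ W)
    (hKr : s34i47_Krull π B)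
    (Sig : Ideal B → Set (Ideal B))
    (htr : ∀ n : Ideal B, n.IsMaximal → algebraMap R B π ∈ n → ∀ y : F, y ≠ 0 →
      (∀ n' ∈ Sig n, ∀ O : ValuationSubring F, s34i47_IsHoriz π O → s34i47_Through B n' O →
        y ∈ O ∧ y⁻¹ ∈ O) →
      ∀ O : ValuationSubring F, s34i47_IsHoriz π O → s34i47_Through B n O → T y ∈ O)
    (hLP : ∀ n : Ideal B, n.IsMaximal → algebraMap R B π ∈ n →
      ∃ c : F, c ≠ 0 ∧ ∀ n' ∈ Sig n, ∀ O : ValuationSubring F, s34i47_IsHoriz π O →
        s34i47_Through B n' O → f / c ^ m ∈ O ∧ c ^ m / f ∈ O) :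
    s34i47_LocalDatum π m W B (T f) :=
  ldo54_localDatum π hp0 m W B T f hRW hBW hsat hT1 hKr
    (ldo54_regular_of_transport π m B T f Sig htr hLP hf)

end Fermat.Agent.S35
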