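import Mathlib
import Fermat.Agent.S34.Iface47
import Fermat.Agent.S34.PkgLD35

/-!
# S35 lab (helper96), registry row 567 twin: LP-transport and the node root shape

Abstract glue (Mathlib + `Iface47` + `dd35_horiz_comap`) between the S34 package (LP) for the
ORIGINAL Kummer function `f` and the local data of the toric function
`f3 := f1 / τ f1 / G ^ m`, `f1 := f / τ f`, and of `u := τ f3 / f3 ^ Q` (`τ = ŝ²`, `Q = q²`).

* `lpt96_LPAt π m B n f c` : `c` is an (LP)-root of `f` at the prime `n` of the chart `B`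
  (`f / c ^ m` is a unit of every horizontal `O` through `n`); `s34i47_LocPrin` says that a root
  exists at every closed point of the special fibre (`lpt96_locPrin_iff`).
* pointwise closure: `lpt96_at_mul`, `lpt96_at_inv`, `lpt96_at_div`, `lpt96_at_pow`,
  `lpt96_at_mpow` (`g` is a root of `g ^ m`), and the transport `lpt96_at_map`:
  a root of `f` at `τ⁻¹ n` gives the root `τ c` of `τ f` at `n`.
* global closure of `s34i47_LocPrin π m B`: `lpt96_locPrin_mul / _inv / _div / _pow / _mpow /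
  _map`.
* `lpt96_locPrin_f3`, `lpt96_locPrin_u` : **(i)** from `s34i47_LocPrin π m B f` ALONE (no
  Ord / Rat / Fin, nothing about `G` except `G ≠ 0`): (LP) for `f3` and for `u = τ f3 / f3 ^ Q`.
* `lpt96_node_root` : **(ii)** at a `τ`-stable closed point `n`, with `c` an (LP)-root of `f` at
  `n` and `G` a unit of `W`: `c' := c * τ (τ c) / (τ c) ^ 2 / G` is a unit of `W`, and
  `ε' := f3 / c' ^ m` is a unit of `W` and of `B_n` (`∃ s ∉ n, s ε' ∈ B`, same for `ε'⁻¹`),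
  `f3 = ε' * c' ^ m`.
* `lpt96_locPrin_u_ss`, `lpt96_node_root_ss` : the same with `τ x = s (s x)` written out (the
  literal shapes of `nt98_tw` / `nt98_f3`).

All names are prefixed `lpt96_`.
-/

set_option autoImplicit false

namespace Fermat.Agent.S35

open Fermat.Agent.S34

section lpt96_pt

variable {R F : Type*} [CommRing R] [Field F] [Algebra R F]

/-- `c` is an **(LP)-root** of `f` at the prime `n` of the chart `B`: `c ≠ 0` and `f / c ^ m` is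
a unit of every horizontal `O` through `n`. -/
def lpt96_LPAt (π : R) (m : ℕ) (B : Subalgebra R F) (n : Ideal B) (f c : F) : Prop :=
  c ≠ 0 ∧ ∀ O : ValuationSubring F, s34i47_IsHoriz π O → s34i47_Through B n O →
    f / c ^ m ∈ O ∧ c ^ m / f ∈ O

theorem lpt96_locPrin_iff (π : R) (m : ℕ) (B : Subalgebra R F) (f : F) :
    s34i47_LocPrin π m B f ↔
      ∀ n : Ideal B, n.IsMaximal → algebraMap R B π ∈ n → ∃ c : F, lpt96_LPAt π m B n f c :=
  Iff.rfl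

theorem lpt96_at_mul (π : R) (m : ℕ) (B : Subalgebra R F) (n : Ideal B) {f g c d : F}
    (hf : lpt96_LPAt π m B n f c) (hg : lpt96_LPAt π m B n g d) :
    lpt96_LPAt π m B n (f * g) (c * d) := by
  refine ⟨mul_ne_zero hf.1 hg.1, fun O hO hT => ?_⟩
  obtain ⟨h1, h2⟩ := hf.2 O hO hT
  obtain ⟨h3, h4⟩ := hg.2 O hO hT
  have e1 : f * g / (c * d) ^ m = f / c ^ m * (g / d ^ m) := by
    rw [mul_pow, mul_div_mul_comm]
  have e2 : (c * d) ^ m / (f * g) = c ^ m / f * (d ^ m / g) := by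
    rw [mul_pow, mul_div_mul_comm]
  rw [e1, e2]
  exact ⟨O.mul_mem _ _ h1 h3, O.mul_mem _ _ h2 h4⟩

theorem lpt96_at_inv (π : R) (m : ℕ) (B : Subalgebra R F) (n : Ideal B) {f c : F}
    (hf : lpt96_LPAt π m B n f c) : lpt96_LPAt π m B n f⁻¹ c⁻¹ := by
  refine ⟨inv_ne_zero hf.1, fun O hO hT => ?_⟩
  obtain ⟨h1, h2⟩ := hf.2 O hO hT
  have e1 : f⁻¹ / c⁻¹ ^ m = c ^ m / f := by
    rw [inv_pow, inv_div_inv]
  have e2 : c⁻¹ ^ m / f⁻¹ = f / c ^ m := by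
    rw [inv_pow, inv_div_inv]
  rw [e1, e2]
  exact ⟨h2, h1⟩

theorem lpt96_at_div (π : R) (m : ℕ) (B : Subalgebra R F) (n : Ideal B) {f g c d : F}
    (hf : lpt96_LPAt π m B n f c) (hg : lpt96_LPAt π m B n g d) :
    lpt96_LPAt π m B n (f / g) (c / d) := by
  rw [div_eq_mul_inv, div_eq_mul_inv]
  exact lpt96_at_mul π m B n hf (lpt96_at_inv π m B n hg)

theorem lpt96_at_pow (π : R) (m : ℕ) (B : Subalgebra R F) (n : Ideal B) {f c : F}
    (hf : lpt96_LPAt π m B n f c) (k : ℕ) : lpt96_LPAt π m B n (f ^ k) (c ^ k) := by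
  refine ⟨pow_ne_zero k hf.1, fun O hO hT => ?_⟩
  obtain ⟨h1, h2⟩ := hf.2 O hO hT
  have e1 : f ^ k / (c ^ k) ^ m = (f / c ^ m) ^ k := by
    rw [div_pow, ← pow_mul, ← pow_mul, mul_comm]
  have e2 : (c ^ k) ^ m / f ^ k = (c ^ m / f) ^ k := by
    rw [div_pow, ← pow_mul, ← pow_mul, mul_comm]
  rw [e1, e2]
  exact ⟨O.pow_mem h1 k, O.pow_mem h2 k⟩

/-- `g` is an (LP)-root of `g ^ m` at every point. -/
theorem lpt96_at_mpow (π : R) (m : ℕ) (B : Subalgebra R F) (n : Ideal B) {g : F} (hg : g ≠ 0) :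
    lpt96_LPAt π m B n (g ^ m) g := by
  refine ⟨hg, fun O _ _ => ?_⟩
  rw [div_self (pow_ne_zero m hg)]
  exact ⟨O.one_mem, O.one_mem⟩

/-- The restriction to the chart `B` of an automorphism preserving `B`. -/
def lpt96_res (B : Subalgebra R F) (τ : F ≃+* F) (hτB : ∀ x ∈ B, τ x ∈ B) : B →+* B :=
  (τ : F →+* F).restrict B B hτB

theorem lpt96_res_coe (B : Subalgebra R F) (τ : F ≃+* F) (hτB : ∀ x ∈ B, τ x ∈ B) (x : B) :
    ((lpt96_res B τ hτB x : B) : F) = τ (x : F) := rfl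

theorem lpt96_res_surjective (B : Subalgebra R F) (τ : F ≃+* F) (hτB : ∀ x ∈ B, τ x ∈ B)
    (hτB' : ∀ x ∈ B, τ.symm x ∈ B) : Function.Surjective (lpt96_res B τ hτB) := by
  intro y
  refine ⟨⟨τ.symm (y : F), hτB' _ y.2⟩, ?_⟩
  apply Subtype.ext
  rw [lpt96_res_coe]
  exact τ.apply_symm_apply _

end lpt96_pt

section lpt96_dvr

variable {R K F : Type*} [CommRing R] [IsDomain R] [IsDiscreteValuationRing R] [Field K]
  [Field F] [Algebra R K] [IsFractionRing R K] [Algebra R F] [Algebra K F] [IsScalarTower R K F]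

include K in
/-- **Transport of a root**: a root `c` of `f` at `τ⁻¹ n` gives the root `τ c` of `τ f` at
`n`. -/
theorem lpt96_at_map (π : R) (hπ : Irreducible π) (m : ℕ) (B : Subalgebra R F) (τ : F ≃+* F)
    (hτR : ∀ r : R, ∃ r' : R, τ (algebraMap R F r) = algebraMap R F r')
    (hτB : ∀ x ∈ B, τ x ∈ B) (n : Ideal B) {f c : F}
    (h : lpt96_LPAt π m B (n.comap (lpt96_res B τ hτB)) f c) :
    lpt96_LPAt π m B n (τ f) (τ c) := by
  refine ⟨fun h0 => h.1 ((map_eq_zero_iff _ τ.injective).mp h0), fun O hO hT => ?_⟩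
  have hO' : s34i47_IsHoriz π (O.comap (τ : F →+* F)) :=
    dd35_horiz_comap (K := K) π hπ τ hτR O hO
  have hT' : s34i47_Through B (n.comap (lpt96_res B τ hτB)) (O.comap (τ : F →+* F)) := by
    refine ⟨fun x hx => hT.1 _ (hτB x hx), fun x hx => ?_⟩
    show τ ((x : F)⁻¹) ∈ O
    rw [map_inv₀]
    exact hT.2 (lpt96_res B τ hτB x) hx
  obtain ⟨h1, h2⟩ := h.2 _ hO' hT'
  have h1' : τ (f / c ^ m) ∈ O := h1
  have h2' : τ (c ^ m / f) ∈ O := h2
  rw [map_div₀, map_pow] at h1' h2'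
  exact ⟨h1', h2'⟩

include K in
/-- Transport at a `τ`-stable point (the complement of `n` is preserved by `τ`). -/
theorem lpt96_at_map_fixed (π : R) (hπ : Irreducible π) (m : ℕ) (B : Subalgebra R F)
    (τ : F ≃+* F) (hτR : ∀ r : R, ∃ r' : R, τ (algebraMap R F r) = algebraMap R F r')
    (hτB : ∀ x ∈ B, τ x ∈ B) (n : Ideal B)
    (hτn : ∀ x : B, x ∉ n → (⟨τ x, hτB x x.2⟩ : B) ∉ n) {f c : F}
    (h : lpt96_LPAt π m B n f c) : lpt96_LPAt π m B n (τ f) (τ c) := by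
  refine ⟨fun h0 => h.1 ((map_eq_zero_iff _ τ.injective).mp h0), fun O hO hT => ?_⟩
  have hO' : s34i47_IsHoriz π (O.comap (τ : F →+* F)) :=
    dd35_horiz_comap (K := K) π hπ τ hτR O hO
  have hT' : s34i47_Through B n (O.comap (τ : F →+* F)) :=
    dd35_through_comap B n τ hτB hτn O hT
  obtain ⟨h1, h2⟩ := h.2 _ hO' hT'
  have h1' : τ (f / c ^ m) ∈ O := h1
  have h2' : τ (c ^ m / f) ∈ O := h2
  rw [map_div₀, map_pow] at h1' h2'
  exact ⟨h1', h2'⟩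

/-! ### Global closure of `s34i47_LocPrin` -/

omit [IsDomain R] [IsDiscreteValuationRing R] in
theorem lpt96_locPrin_mul (π : R) (m : ℕ) (B : Subalgebra R F) {f g : F}
    (hf : s34i47_LocPrin π m B f) (hg : s34i47_LocPrin π m B g) :
    s34i47_LocPrin π m B (f * g) := by
  intro n hn hπn
  obtain ⟨c, hc⟩ := hf n hn hπn
  obtain ⟨d, hd⟩ := hg n hn hπn
  exact ⟨c * d, lpt96_at_mul π m B n hc hd⟩

omit [IsDomain R] [IsDiscreteValuationRing R] in
theorem lpt96_locPrin_inv (π : R) (m : ℕ) (B : Subalgebra R F) {f : F}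
    (hf : s34i47_LocPrin π m B f) : s34i47_LocPrin π m B f⁻¹ := by
  intro n hn hπn
  obtain ⟨c, hc⟩ := hf n hn hπn
  exact ⟨c⁻¹, lpt96_at_inv π m B n hc⟩

omit [IsDomain R] [IsDiscreteValuationRing R] in
theorem lpt96_locPrin_div (π : R) (m : ℕ) (B : Subalgebra R F) {f g : F}
    (hf : s34i47_LocPrin π m B f) (hg : s34i47_LocPrin π m B g) :
    s34i47_LocPrin π m B (f / g) := by
  intro n hn hπn
  obtain ⟨c, hc⟩ := hf n hn hπn
  obtain ⟨d, hd⟩ := hg n hn hπn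
  exact ⟨c / d, lpt96_at_div π m B n hc hd⟩

omit [IsDomain R] [IsDiscreteValuationRing R] in
theorem lpt96_locPrin_pow (π : R) (m : ℕ) (B : Subalgebra R F) {f : F}
    (hf : s34i47_LocPrin π m B f) (k : ℕ) : s34i47_LocPrin π m B (f ^ k) := by
  intro n hn hπn
  obtain ⟨c, hc⟩ := hf n hn hπn
  exact ⟨c ^ k, lpt96_at_pow π m B n hc k⟩

omit [IsDomain R] [IsDiscreteValuationRing R] in
/-- Every `m`-th power satisfies (LP). -/
theorem lpt96_locPrin_mpow (π : R) (m : ℕ) (B : Subalgebra R F) {g : F} (hg : g ≠ 0) :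
    s34i47_LocPrin π m B (g ^ m) :=
  fun n _ _ => ⟨g, lpt96_at_mpow π m B n hg⟩

include K in
/-- (LP) is stable under an automorphism `τ` with `τ R ⊆ R`, `τ B = B`, `τ π ∈ (π)`. -/
theorem lpt96_locPrin_map (π : R) (hπ : Irreducible π) (m : ℕ) (B : Subalgebra R F)
    (τ : F ≃+* F) (hτR : ∀ r : R, ∃ r' : R, τ (algebraMap R F r) = algebraMap R F r')
    (hτπ : ∃ r : R, τ (algebraMap R F π) = algebraMap R F π * algebraMap R F r)
    (hτB : ∀ x ∈ B, τ x ∈ B) (hτB' : ∀ x ∈ B, τ.symm x ∈ B) {f : F}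
    (hf : s34i47_LocPrin π m B f) : s34i47_LocPrin π m B (τ f) := by
  intro n hn hπn
  haveI := hn
  have hmax : (n.comap (lpt96_res B τ hτB)).IsMaximal :=
    Ideal.comap_isMaximal_of_surjective _ (lpt96_res_surjective B τ hτB hτB')
  have hπn' : algebraMap R B π ∈ n.comap (lpt96_res B τ hτB) := by
    rw [Ideal.mem_comap]
    obtain ⟨r, hr⟩ := hτπ
    have e : lpt96_res B τ hτB (algebraMap R B π) = algebraMap R B π * algebraMap R B r := by
      apply Subtype.ext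
      rw [lpt96_res_coe]
      exact hr
    rw [e]
    exact n.mul_mem_right _ hπn
  obtain ⟨c, hc⟩ := hf _ hmax hπn'
  exact ⟨τ c, lpt96_at_map (K := K) π hπ m B τ hτR hτB n hc⟩

include K in
/-- **(i), `f3`**: (LP) for `f3 := f1 / τ f1 / G ^ m`, `f1 := f / τ f`, from (LP) for `f`. -/
theorem lpt96_locPrin_f3 (π : R) (hπ : Irreducible π) (m : ℕ) (B : Subalgebra R F)
    (τ : F ≃+* F) (hτR : ∀ r : R, ∃ r' : R, τ (algebraMap R F r) = algebraMap R F r')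
    (hτπ : ∃ r : R, τ (algebraMap R F π) = algebraMap R F π * algebraMap R F r)
    (hτB : ∀ x ∈ B, τ x ∈ B) (hτB' : ∀ x ∈ B, τ.symm x ∈ B) {f : F} (G : F) (hG : G ≠ 0)
    (hf : s34i47_LocPrin π m B f) :
    s34i47_LocPrin π m B (f / τ f / τ (f / τ f) / G ^ m) := by
  have h1 : s34i47_LocPrin π m B (f / τ f) :=
    lpt96_locPrin_div π m B hf (lpt96_locPrin_map (K := K) π hπ m B τ hτR hτπ hτB hτB' hf)
  exact lpt96_locPrin_div π m B
    (lpt96_locPrin_div π m B h1 (lpt96_locPrin_map (K := K) π hπ m B τ hτR hτπ hτB hτB' h1))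
    (lpt96_locPrin_mpow π m B hG)

include K in
/-- **(i), `u`**: (LP) for `u := τ f3 / f3 ^ Q`, `f3 := f1 / τ f1 / G ^ m`, `f1 := f / τ f`, from
(LP) for `f` alone. -/
theorem lpt96_locPrin_u (π : R) (hπ : Irreducible π) (m : ℕ) (B : Subalgebra R F)
    (τ : F ≃+* F) (hτR : ∀ r : R, ∃ r' : R, τ (algebraMap R F r) = algebraMap R F r')
    (hτπ : ∃ r : R, τ (algebraMap R F π) = algebraMap R F π * algebraMap R F r)
    (hτB : ∀ x ∈ B, τ x ∈ B) (hτB' : ∀ x ∈ B, τ.symm x ∈ B) {f : F} (G : F) (hG : G ≠ 0)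
    (Q : ℕ) (hf : s34i47_LocPrin π m B f) :
    s34i47_LocPrin π m B
      (τ (f / τ f / τ (f / τ f) / G ^ m) / (f / τ f / τ (f / τ f) / G ^ m) ^ Q) := by
  have h3 := lpt96_locPrin_f3 (K := K) π hπ m B τ hτR hτπ hτB hτB' G hG hf
  exact lpt96_locPrin_div π m B
    (lpt96_locPrin_map (K := K) π hπ m B τ hτR hτπ hτB hτB' h3) (lpt96_locPrin_pow π m B h3 Q)

/-! ### The node root shape -/

include K in
/-- Saturation descent: `x ∈ W`, `s ∈ B`, `π ^ k * (s * x) ∈ B` ⟹ `s * x ∈ B`. -/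
theorem lpt96_sat_descent (π : R) (hπ : Irreducible π) (W : Subring F) (B : Subalgebra R F)
    (hBW : ∀ x ∈ B, x ∈ W)
    (hsat : ∀ x ∈ B, (algebraMap R F π)⁻¹ * x ∈ W → (algebraMap R F π)⁻¹ * x ∈ B)
    (y : F) (hy : y ∈ W) (k : ℕ) (h : algebraMap R F π ^ k * y ∈ B) : y ∈ B := by
  have hinj : Function.Injective (algebraMap R F) := dd35_algebraMap_injective (K := K)
  have hp0 : algebraMap R F π ≠ 0 := fun h0 => hπ.ne_zero (hinj (by rw [h0, map_zero]))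
  have hpW : algebraMap R F π ∈ W := hBW _ (B.algebraMap_mem π)
  induction k with
  | zero => simpa using h
  | succ k ih =>
    apply ih
    have e : algebraMap R F π ^ k * y =
        (algebraMap R F π)⁻¹ * (algebraMap R F π ^ (k + 1) * y) := by
      rw [pow_succ]
      field_simp
    rw [e]
    apply hsat _ h
    rw [← e]
    exact W.mul_mem (W.pow_mem hpW k) hy

include K in
/-- **(ii) Node root shape.**  `n` a `τ`-stable closed point of the special fibre of the chart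
`B` (saturated in `W`), `c` an (LP)-root of `f` at `n`, `G` a unit of `W`, `τ` with (G0), (G1)
(`τ x / x ∈ W`), the Krull clause at `n`.  Then `c' := c * τ (τ c) / (τ c) ^ 2 / G` is a unit of
`W`, and `ε' := f3 / c' ^ m` (`f3 := f1 / τ f1 / G ^ m`, `f1 := f / τ f`) is a unit of `W` and of
`B_n`; of course `f3 = ε' * c' ^ m`. -/
theorem lpt96_node_root (π : R) (hπ : Irreducible π) (m : ℕ) (W : Subring F)
    (B : Subalgebra R F) (hBW : ∀ x ∈ B, x ∈ W)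
    (hsat : ∀ x ∈ B, (algebraMap R F π)⁻¹ * x ∈ W → (algebraMap R F π)⁻¹ * x ∈ B)
    (τ : F ≃+* F) (hτR : ∀ r : R, ∃ r' : R, τ (algebraMap R F r) = algebraMap R F r')
    (hτB : ∀ x ∈ B, τ x ∈ B) (hτW : ∀ x : F, x ≠ 0 → τ x / x ∈ W)
    (n : Ideal B) (hτn : ∀ x : B, x ∉ n → (⟨τ x, hτB x x.2⟩ : B) ∉ n)
    (hKr : ∀ x : F,
      (∀ O : ValuationSubring F, s34i47_IsHoriz π O → s34i47_Through B n O → x ∈ O) →
      ∃ s : B, s ∉ n ∧ ∃ k : ℕ, algebraMap R F π ^ k * ((s : F) * x) ∈ B)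
    (f c G : F) (hf : f ≠ 0) (hc : lpt96_LPAt π m B n f c) (hG0 : G ≠ 0) (hGW : G ∈ W)
    (hGW' : G⁻¹ ∈ W) :
    c * τ (τ c) / τ c ^ 2 / G ≠ 0 ∧
    c * τ (τ c) / τ c ^ 2 / G ∈ W ∧ (c * τ (τ c) / τ c ^ 2 / G)⁻¹ ∈ W ∧
    f / τ f / τ (f / τ f) / G ^ m / (c * τ (τ c) / τ c ^ 2 / G) ^ m ∈ W ∧
    (f / τ f / τ (f / τ f) / G ^ m / (c * τ (τ c) / τ c ^ 2 / G) ^ m)⁻¹ ∈ W ∧
    (∃ s : B, s ∉ n ∧
      (s : F) * (f / τ f / τ (f / τ f) / G ^ m / (c * τ (τ c) / τ c ^ 2 / G) ^ m) ∈ B) ∧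
    (∃ s : B, s ∉ n ∧
      (s : F) * (f / τ f / τ (f / τ f) / G ^ m / (c * τ (τ c) / τ c ^ 2 / G) ^ m)⁻¹ ∈ B) ∧
    f / τ f / τ (f / τ f) / G ^ m =
      f / τ f / τ (f / τ f) / G ^ m / (c * τ (τ c) / τ c ^ 2 / G) ^ m *
        (c * τ (τ c) / τ c ^ 2 / G) ^ m := by
  have hc0 : c ≠ 0 := hc.1
  have hτ0 : ∀ x : F, x ≠ 0 → τ x ≠ 0 := fun x hx h0 =>
    hx ((map_eq_zero_iff _ τ.injective).mp h0)
  have hτc : τ c ≠ 0 := hτ0 c hc0
  have hττc : τ (τ c) ≠ 0 := hτ0 _ hτc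
  have hτf : τ f ≠ 0 := hτ0 f hf
  have hττf : τ (τ f) ≠ 0 := hτ0 _ hτf
  -- (G1) in both directions
  have hG1 : ∀ x : F, x ≠ 0 → τ x / x ∈ W ∧ x / τ x ∈ W := by
    intro x hx
    refine ⟨hτW x hx, ?_⟩
    have h := hτW x⁻¹ (inv_ne_zero hx)
    rw [map_inv₀, inv_div_inv] at h
    exact h
  set c' : F := c * τ (τ c) / τ c ^ 2 / G with hc'
  set f3 : F := f / τ f / τ (f / τ f) / G ^ m with hf3
  have hc'0 : c' ≠ 0 := by
    rw [hc']
    exact div_ne_zero (div_ne_zero (mul_ne_zero hc0 hττc) (pow_ne_zero 2 hτc)) hG0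
  have hc'W : c' ∈ W := by
    have e : c' = c / τ c * (τ (τ c) / τ c) * G⁻¹ := by
      rw [hc']; field_simp
    rw [e]
    exact W.mul_mem (W.mul_mem (hG1 c hc0).2 (hG1 (τ c) hτc).1) hGW'
  have hc'W' : c'⁻¹ ∈ W := by
    have e : c'⁻¹ = τ c / c * (τ c / τ (τ c)) * G := by
      rw [hc']; field_simp
    rw [e]
    exact W.mul_mem (W.mul_mem (hG1 c hc0).1 (hG1 (τ c) hτc).2) hGW
  have hf3e : f3 = f / τ f * (τ (τ f) / τ f) * G⁻¹ ^ m := by
    rw [hf3, map_div₀, inv_pow]; field_simp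
  have hf30 : f3 ≠ 0 := by
    rw [hf3e]
    exact mul_ne_zero (mul_ne_zero (div_ne_zero hf hτf) (div_ne_zero hττf hτf))
      (pow_ne_zero m (inv_ne_zero hG0))
  have hf3W : f3 ∈ W := by
    rw [hf3e]
    exact W.mul_mem (W.mul_mem (hG1 f hf).2 (hG1 (τ f) hτf).1) (W.pow_mem hGW' m)
  have hf3W' : f3⁻¹ ∈ W := by
    have e : f3⁻¹ = τ f / f * (τ f / τ (τ f)) * G ^ m := by
      rw [hf3e, inv_pow]; field_simp
    rw [e]
    exact W.mul_mem (W.mul_mem (hG1 f hf).1 (hG1 (τ f) hτf).2) (W.pow_mem hGW m)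
  set ε : F := f3 / c' ^ m with hε
  have hεW : ε ∈ W := by
    rw [hε, div_eq_mul_inv, ← inv_pow]
    exact W.mul_mem hf3W (W.pow_mem hc'W' m)
  have hεW' : ε⁻¹ ∈ W := by
    rw [hε, inv_div, div_eq_mul_inv]
    exact W.mul_mem (W.pow_mem hc'W m) hf3W'
  -- `ε = e * τ (τ e) / (τ e) ^ 2`, `e := f / c ^ m`
  have hcm : c' ^ m = c ^ m * τ (τ c) ^ m / (τ c ^ m) ^ 2 / G ^ m := by
    rw [hc', div_pow, div_pow, mul_pow, ← pow_mul, ← pow_mul, mul_comm 2 m]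
  have hεe : ε = f / c ^ m * τ (τ (f / c ^ m)) / τ (f / c ^ m) ^ 2 := by
    rw [hε, hcm, hf3, map_div₀, map_div₀, map_div₀, map_pow, map_pow]
    field_simp
  have hεe' : ε⁻¹ = c ^ m / f * τ (τ (c ^ m / f)) / τ (c ^ m / f) ^ 2 := by
    rw [hεe, map_div₀, map_div₀, map_div₀, map_div₀, map_pow, map_pow]
    field_simp
  -- horizontal regularity
  have h1 : lpt96_LPAt π m B n (τ f) (τ c) :=
    lpt96_at_map_fixed (K := K) π hπ m B τ hτR hτB n hτn hc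
  have h2 : lpt96_LPAt π m B n (τ (τ f)) (τ (τ c)) :=
    lpt96_at_map_fixed (K := K) π hπ m B τ hτR hτB n hτn h1
  have hhor : ∀ O : ValuationSubring F, s34i47_IsHoriz π O → s34i47_Through B n O →
      ε ∈ O ∧ ε⁻¹ ∈ O := by
    intro O hO hT
    obtain ⟨a1, a2⟩ := hc.2 O hO hT
    obtain ⟨b1, b2⟩ := h1.2 O hO hT
    obtain ⟨d1, d2⟩ := h2.2 O hO hT
    constructor
    · have e : ε = f / c ^ m * (τ (τ f) / τ (τ c) ^ m) * (τ c ^ m / τ f) ^ 2 := by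
        rw [hεe, map_div₀, map_div₀, map_pow, map_pow]
        field_simp
      rw [e]
      exact O.mul_mem _ _ (O.mul_mem _ _ a1 d1) (O.pow_mem b2 2)
    · have e : ε⁻¹ = c ^ m / f * (τ (τ c) ^ m / τ (τ f)) * (τ f / τ c ^ m) ^ 2 := by
        rw [hεe', map_div₀, map_div₀, map_pow, map_pow]
        field_simp
      rw [e]
      exact O.mul_mem _ _ (O.mul_mem _ _ a2 d2) (O.pow_mem b1 2)
  have hreg : ∀ x : F, x ∈ W →
      (∀ O : ValuationSubring F, s34i47_IsHoriz π O → s34i47_Through B n O → x ∈ O) →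
      ∃ s : B, s ∉ n ∧ (s : F) * x ∈ B := by
    intro x hxW hx
    obtain ⟨s, hs, k, hk⟩ := hKr x hx
    exact ⟨s, hs, lpt96_sat_descent (K := K) π hπ W B hBW hsat _
      (W.mul_mem (hBW _ s.2) hxW) k hk⟩
  refine ⟨hc'0, hc'W, hc'W', hεW, hεW', hreg ε hεW fun O hO hT => (hhor O hO hT).1,
    hreg ε⁻¹ hεW' fun O hO hT => (hhor O hO hT).2, ?_⟩
  rw [div_mul_cancel₀ _ (pow_ne_zero m hc'0)]

/-! ### The same with `τ x = s (s x)` written out -/

include K in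
/-- **(i)** for `τ = s ∘ s`: (LP) for `u := ŝ² f3 / f3 ^ Q`, `f3 := f1 / ŝ² f1 / G ^ m`,
`f1 := f / ŝ² f` (the literal shape `nt98_tw s (nt98_tw s f) / G ^ m` of `nt98_f3`), from (LP)
for `f` alone. -/
theorem lpt96_locPrin_u_ss (π : R) (hπ : Irreducible π) (m : ℕ) (B : Subalgebra R F)
    (s : F ≃+* F) (hsR : ∀ r : R, ∃ r' : R, s (algebraMap R F r) = algebraMap R F r')
    (hsπ : ∃ r : R, s (algebraMap R F π) = algebraMap R F π * algebraMap R F r)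
    (hsB : ∀ x ∈ B, s x ∈ B) (hsB' : ∀ x ∈ B, s.symm x ∈ B) {f : F} (G : F) (hG : G ≠ 0)
    (Q : ℕ) (hf : s34i47_LocPrin π m B f) :
    s34i47_LocPrin π m B (f / s (s f) / s (s (f / s (s f))) / G ^ m) ∧
    s34i47_LocPrin π m B
      (s (s (f / s (s f) / s (s (f / s (s f))) / G ^ m)) /
        (f / s (s f) / s (s (f / s (s f))) / G ^ m) ^ Q) := by
  have hτR : ∀ r : R, ∃ r' : R, (s.trans s) (algebraMap R F r) = algebraMap R F r' := by
    intro r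
    obtain ⟨r₁, hr₁⟩ := hsR r
    obtain ⟨r₂, hr₂⟩ := hsR r₁
    exact ⟨r₂, by rw [RingEquiv.trans_apply, hr₁, hr₂]⟩
  have hτπ : ∃ r : R, (s.trans s) (algebraMap R F π) = algebraMap R F π * algebraMap R F r := by
    obtain ⟨r₁, hr₁⟩ := hsπ
    obtain ⟨r₂, hr₂⟩ := hsR r₁
    exact ⟨r₁ * r₂, by rw [RingEquiv.trans_apply, hr₁, map_mul, hr₁, hr₂, map_mul, mul_assoc]⟩
  have hτB : ∀ x ∈ B, (s.trans s) x ∈ B := fun x hx => hsB _ (hsB x hx)
  have hτB' : ∀ x ∈ B, (s.trans s).symm x ∈ B := fun x hx => hsB' _ (hsB' x hx)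
  exact ⟨lpt96_locPrin_f3 (K := K) π hπ m B (s.trans s) hτR hτπ hτB hτB' G hG hf,
    lpt96_locPrin_u (K := K) π hπ m B (s.trans s) hτR hτπ hτB hτB' G hG Q hf⟩

include K in
/-- **(ii)** for `τ = s ∘ s`: the node root shape at a closed point `n` stable under `ŝ²`
(`s` itself need not fix `n`). -/
theorem lpt96_node_root_ss (π : R) (hπ : Irreducible π) (m : ℕ) (W : Subring F)
    (B : Subalgebra R F) (hBW : ∀ x ∈ B, x ∈ W)
    (hsat : ∀ x ∈ B, (algebraMap R F π)⁻¹ * x ∈ W → (algebraMap R F π)⁻¹ * x ∈ B)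
    (s : F ≃+* F) (hsR : ∀ r : R, ∃ r' : R, s (algebraMap R F r) = algebraMap R F r')
    (hsB : ∀ x ∈ B, s x ∈ B) (hsW : ∀ x : F, x ≠ 0 → s x / x ∈ W)
    (n : Ideal B)
    (hssn : ∀ x : B, x ∉ n → (⟨s (s x), hsB _ (hsB x x.2)⟩ : B) ∉ n)
    (hKr : ∀ x : F,
      (∀ O : ValuationSubring F, s34i47_IsHoriz π O → s34i47_Through B n O → x ∈ O) →
      ∃ t : B, t ∉ n ∧ ∃ k : ℕ, algebraMap R F π ^ k * ((t : F) * x) ∈ B)
    (f c G : F) (hf : f ≠ 0) (hc : lpt96_LPAt π m B n f c) (hG0 : G ≠ 0) (hGW : G ∈ W)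
    (hGW' : G⁻¹ ∈ W) :
    ∃ c' ε : F, c' = c * s (s (s (s c))) / s (s c) ^ 2 / G ∧
      ε = f / s (s f) / s (s (f / s (s f))) / G ^ m / c' ^ m ∧
      c' ≠ 0 ∧ c' ∈ W ∧ c'⁻¹ ∈ W ∧ ε ∈ W ∧ ε⁻¹ ∈ W ∧
      (∃ t : B, t ∉ n ∧ (t : F) * ε ∈ B) ∧ (∃ t : B, t ∉ n ∧ (t : F) * ε⁻¹ ∈ B) ∧
      f / s (s f) / s (s (f / s (s f))) / G ^ m = ε * c' ^ m := by
  have hτR : ∀ r : R, ∃ r' : R, (s.trans s) (algebraMap R F r) = algebraMap R F r' := by
    intro r
    obtain ⟨r₁, hr₁⟩ := hsR r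
    obtain ⟨r₂, hr₂⟩ := hsR r₁
    exact ⟨r₂, by rw [RingEquiv.trans_apply, hr₁, hr₂]⟩
  have hτB : ∀ x ∈ B, (s.trans s) x ∈ B := fun x hx => hsB _ (hsB x hx)
  have hτW : ∀ x : F, x ≠ 0 → (s.trans s) x / x ∈ W := by
    intro x hx
    have hsx : s x ≠ 0 := fun h0 => hx ((map_eq_zero_iff _ s.injective).mp h0)
    have e : (s.trans s) x / x = s (s x) / s x * (s x / x) := by
      rw [RingEquiv.trans_apply]; field_simp
    rw [e]
    exact W.mul_mem (hsW _ hsx) (hsW x hx)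
  obtain ⟨h1, h2, h3, h4, h5, h6, h7, h8⟩ :=
    lpt96_node_root (K := K) π hπ m W B hBW hsat (s.trans s) hτR hτB hτW n hssn hKr f c G hf hc
      hG0 hGW hGW'
  exact ⟨_, _, rfl, rfl, h1, h2, h3, h4, h5, h6, h7, h8⟩

end lpt96_dvr

end Fermat.Agent.S35
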