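import Mathlib
import Fermat.Agent.S35.LocPrinTau70
import Fermat.Agent.S35.FrobFrame50
import Fermat.Agent.S35.Iface62
import Fermat.Agent.S34.UniqueZero37
import Fermat.Agent.S34.LocPrin9
import Fermat.Agent.S34.Krull65
import Fermat.Agent.S34.FrameSat85
import Fermat.Agent.S34.FrameLSAsm71
import Fermat.Agent.S34.FinSupp29
import Fermat.Agent.S34.CoreAsm57

/-!
# S35 lab (helper70): (LP) on the canonical frame for `f`, `op f` and `u = τ f₃ / f₃ ^ Q`

Canonical data of `Iface47c` at level `M' * q` (`q ∤ M'`), `h` an admissible Hauptmodul, charts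
`B₁ = pk15_chart R {h}`, `B₂ = pk15_chart R {h⁻¹}`, `σ` Frobenial (`s35i62_Frobenial R q σ`),
`ŝ = s34i47_coeffEquiv σ (M' * q)`, `τ = ŝ²` (`lpt70i_tau σ M = ŝ.trans ŝ`).

* `lpt70i_aut` : `lpt70_Aut π Bᵢ ŝ` for both charts (the hypothesis of `LocPrinTau70`);
  `lpt70i_aut_tau` : the same for `τ = ŝ²`.
* `lpt70i_locPrin` : (LP) `s34i47_LocPrin π m Bᵢ f` on both charts, from the hypotheses of
  `s35i62_Core` on `f` (orders divisible by `m`, rational zeros and poles) — the S34 chain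
  `fl71_pkg_frameLS` ⟹ `uz37_Pkg_UZ` ⟹ `lp9_Pkg_LP`, with `fs29_Pkg_Fin`.
* `lpt70i_locPrin_u` : (LP) on both charts for `u = τ f₃ / f₃ ^ Q`,
  `f₃ = lpt70_f3 τ m G f = f · τ² f / (τ f)² / G ^ m`, for EVERY `G ≠ 0` — the literal
  hypothesis `hLP` of `sd89_datum` / `sd89_localDatum` (SmoothDatum89).
* `lpt70i_krull` : (KR) on both charts (`kr65_Pkg_Krull`), for the consumers.
* `lpt70i_op_eq` : `s35i62_op q ŝ f = τ f₂ / f₂ ^ (q ^ 2)` with `f₂ = f · τ² f / (τ f)²`, and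
  `lpt70i_u_eq` : `u = s35i62_op q ŝ f * (G ^ (q ^ 2) / τ G) ^ m`.

All names are prefixed `lpt70i_`.
-/

set_option autoImplicit false
set_option linter.unusedSectionVars false
set_option linter.unusedVariables false
set_option linter.style.longLine false

open ModularCurve AlgebraicCurve

namespace Fermat.Agent.S35

open Fermat.Agent.S18 Fermat.Agent.S34

local notation "Q̄" => AlgebraicClosure ℚ

/-- `τ = ŝ²` for the coefficientwise action `ŝ` of `σ`. -/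
noncomputable def lpt70i_tau {K : Type} [Field K] (σ : K ≃+* K) (M : ℕ) :
    ↥(modularFunctionFieldFullC K M) ≃+* ↥(modularFunctionFieldFullC K M) :=
  (s34i47_coeffEquiv σ M).trans (s34i47_coeffEquiv σ M)

@[simp]
theorem lpt70i_tau_apply {K : Type} [Field K] (σ : K ≃+* K) (M : ℕ)
    (x : ↥(modularFunctionFieldFullC K M)) :
    lpt70i_tau σ M x = s34i47_coeffEquiv σ M (s34i47_coeffEquiv σ M x) := rfl

section Alg

variable {F : Type*} [Field F]

/-- `s35i62_op q s f = τ f₂ / f₂ ^ (q ^ 2)` with `τ = s²`, `f₂ = f · τ² f / (τ f)²`. -/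
theorem lpt70i_op_eq (q : ℕ) (s : F ≃+* F) (f : F) (hf : f ≠ 0) :
    s35i62_op q s f =
      (s.trans s) (f * (s.trans s) ((s.trans s) f) / (s.trans s) f ^ 2) /
        (f * (s.trans s) ((s.trans s) f) / (s.trans s) f ^ 2) ^ (q ^ 2) := by
  have h1 : s f ≠ 0 := (map_ne_zero s).mpr hf
  have h2 : s (s f) ≠ 0 := (map_ne_zero s).mpr h1
  have h3 : s (s (s f)) ≠ 0 := (map_ne_zero s).mpr h2
  have h4 : s (s (s (s f))) ≠ 0 := (map_ne_zero s).mpr h3
  have h5 : s (s (s (s (s f)))) ≠ 0 := (map_ne_zero s).mpr h4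
  have h6 : s (s (s (s (s (s f))))) ≠ 0 := (map_ne_zero s).mpr h5
  simp only [s35i62_op, RingEquiv.trans_apply, map_div₀, map_mul, map_pow]
  have e1 : (s (s f)) ^ (2 * q ^ 2 + 1) = (s (s f)) ^ (q ^ 2) * (s (s f)) ^ (q ^ 2) * s (s f) := by
    ring
  have e2 : (s (s (s (s f)))) ^ (q ^ 2 + 2) =
      (s (s (s (s f)))) ^ (q ^ 2) * (s (s (s (s f)))) ^ 2 := by ring
  rw [e1, e2, div_pow, mul_pow, ← pow_mul]
  have e3 : (s (s f)) ^ (2 * q ^ 2) = (s (s f)) ^ (q ^ 2) * (s (s f)) ^ (q ^ 2) := by ring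
  rw [e3]
  field_simp

/-- `u = τ f₃ / f₃ ^ Q = (τ f₂ / f₂ ^ Q) * (G ^ Q / τ G) ^ m` for `f₃ = f₂ / G ^ m`. -/
theorem lpt70i_u_eq (τ : F ≃+* F) (m Q : ℕ) (G f : F) (hG : G ≠ 0) (hf : f ≠ 0) :
    τ (lpt70_f3 τ m G f) / lpt70_f3 τ m G f ^ Q =
      τ (f * τ (τ f) / τ f ^ 2) / (f * τ (τ f) / τ f ^ 2) ^ Q * (G ^ Q / τ G) ^ m := by
  have h1 : τ f ≠ 0 := (map_ne_zero τ).mpr hf
  have h2 : τ (τ f) ≠ 0 := (map_ne_zero τ).mpr h1
  have h3 : τ (τ (τ f)) ≠ 0 := (map_ne_zero τ).mpr h2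
  have hτG : τ G ≠ 0 := (map_ne_zero τ).mpr hG
  simp only [lpt70_f3, map_div₀, map_mul, map_pow, div_pow, mul_pow]
  have e : (G ^ m) ^ Q = (G ^ Q) ^ m := by rw [← pow_mul, ← pow_mul, mul_comm]
  rw [e]
  field_simp

end Alg

section Canonical

variable (M' q : ℕ) [NeZero M'] [NeZero q]
  (R K : Type) [CommRing R] [IsDomain R] [IsDiscreteValuationRing R] [Field K] [NumberField K]
  [Algebra K Q̄] [Algebra R K] [IsFractionRing R K]
  [Algebra R ↥(modularFunctionFieldFullC K (M' * q))]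
  [IsScalarTower R K ↥(modularFunctionFieldFullC K (M' * q))]

/-- **`lpt70_Aut` for the coefficientwise action of a Frobenial automorphism**, both charts of an
admissible Hauptmodul. -/
theorem lpt70i_aut (hq : q.Prime) (π : R) (hπ : Irreducible π) (σ : K ≃+* K)
    (hσ : s35i62_Frobenial R q σ)
    (h : ↥(modularFunctionFieldFullC K (M' * q))) (hh : s34i47c_IsHaupt K (M' * q) q h) :
    lpt70_Aut π (pk15_chart R ({h} : Set ↥(modularFunctionFieldFullC K (M' * q))))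
        (s34i47_coeffEquiv σ (M' * q)) ∧
      lpt70_Aut π (pk15_chart R ({h⁻¹} : Set ↥(modularFunctionFieldFullC K (M' * q))))
        (s34i47_coeffEquiv σ (M' * q)) := by
  have hσ' : ff50_Frob R q σ := hσ
  obtain ⟨hB₁, hB₂, -⟩ := ff50_chart M' q σ hσ' h hh
  obtain ⟨k, hk0, hk⟩ := in87i_finOrder σ
  have hpow : (s34i47_coeffEquiv σ (M' * q)) ^ k = 1 := by
    rw [in87i_coeffEquiv_eq]
    exact in87_aut_pow_eq_one (M' * q) σ k hk
  have hR : ∀ r : R, ∃ r' : R,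
      s34i47_coeffEquiv σ (M' * q) (algebraMap R ↥(modularFunctionFieldFullC K (M' * q)) r) =
        algebraMap R ↥(modularFunctionFieldFullC K (M' * q)) r' :=
    fun r => ff50_g0' (M' * q) σ hσ' r
  have hπ' : ∃ r : R,
      s34i47_coeffEquiv σ (M' * q) (algebraMap R ↥(modularFunctionFieldFullC K (M' * q)) π) =
        algebraMap R ↥(modularFunctionFieldFullC K (M' * q)) (π * r) := by
    obtain ⟨r', hr', hmem⟩ := hσ π
    have h1 : r' ∈ IsLocalRing.maximalIdeal R := by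
      have h2 : π ^ q ∈ IsLocalRing.maximalIdeal R := by
        have hπm : π ∈ IsLocalRing.maximalIdeal R := by
          rw [hπ.maximalIdeal_eq]
          exact Ideal.mem_span_singleton_self π
        exact Ideal.pow_mem_of_mem _ hπm q hq.pos
      have h3 := Ideal.add_mem _ hmem h2
      rwa [sub_add_cancel] at h3
    rw [hπ.maximalIdeal_eq, Ideal.mem_span_singleton] at h1
    obtain ⟨r, rfl⟩ := h1
    refine ⟨r, ?_⟩
    rw [IsScalarTower.algebraMap_apply R K ↥(modularFunctionFieldFullC K (M' * q)),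
      in87i_coeffEquiv_eq, in87_aut_algebraMap, hr',
      ← IsScalarTower.algebraMap_apply R K ↥(modularFunctionFieldFullC K (M' * q))]
  exact ⟨lpt70_aut_of_finOrder π _ _ hR hπ' hB₁ k hk0 hpow,
    lpt70_aut_of_finOrder π _ _ hR hπ' hB₂ k hk0 hpow⟩

/-- `lpt70_Aut` for `τ = ŝ²`, both charts. -/
theorem lpt70i_aut_tau (hq : q.Prime) (π : R) (hπ : Irreducible π) (σ : K ≃+* K)
    (hσ : s35i62_Frobenial R q σ)
    (h : ↥(modularFunctionFieldFullC K (M' * q))) (hh : s34i47c_IsHaupt K (M' * q) q h) :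
    lpt70_Aut π (pk15_chart R ({h} : Set ↥(modularFunctionFieldFullC K (M' * q))))
        (lpt70i_tau σ (M' * q)) ∧
      lpt70_Aut π (pk15_chart R ({h⁻¹} : Set ↥(modularFunctionFieldFullC K (M' * q))))
        (lpt70i_tau σ (M' * q)) := by
  obtain ⟨h1, h2⟩ := lpt70i_aut M' q R K hq π hπ σ hσ h hh
  exact ⟨lpt70_aut_sq π _ _ h1, lpt70_aut_sq π _ _ h2⟩

/-- **(LP) for `f` on both charts of the canonical frame** (hypotheses of `s35i62_Core` on
`f`). -/
theorem lpt70i_locPrin (hq : q.Prime) (hM' : ¬ q ∣ M') (π : R) (hπ : Irreducible π)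
    (hunit : ∀ n : ℕ, Nat.Coprime n q → IsUnit (n : R)) (hqR : ¬ IsUnit (q : R))
    (h : ↥(modularFunctionFieldFullC K (M' * q))) (hh : s34i47c_IsHaupt K (M' * q) q h)
    (m : ℕ) (hm : 0 < m) (f : ↥(modularFunctionFieldFullC K (M' * q))) (hf : f ≠ 0)
    (hord : ∀ P : Place K ↥(modularFunctionFieldFullC K (M' * q)), (m : ℤ) ∣ P.ord f)
    (hrat : ∀ P : Place K ↥(modularFunctionFieldFullC K (M' * q)),
      (f ∈ P.toValuationSubring ∧ f⁻¹ ∈ P.toValuationSubring) ∨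
        s34i47_IsRat K P.toValuationSubring) :
    s34i47_LocPrin π m (pk15_chart R ({h} : Set ↥(modularFunctionFieldFullC K (M' * q)))) f ∧
      s34i47_LocPrin π m
        (pk15_chart R ({h⁻¹} : Set ↥(modularFunctionFieldFullC K (M' * q)))) f := by
  obtain ⟨-, hC⟩ := fs85_pkg_frameSat M' q hq hM' R K π hπ hunit hqR
  obtain ⟨htr, -, -, -, -, hN₁, hN₂, -, hfrac⟩ := hC h hh
  obtain ⟨hLS₁, hLS₂⟩ := fl71_pkg_frameLS M' q hq hM' R K π hπ hunit hqR h hh
  have hh0 : h ≠ 0 := by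
    rintro rfl
    exact htr isAlgebraic_zero
  have hfrac₂ := ca57_frac_inv (R := R) h hh0 hfrac
  have hne : NeZero (M' * q) := ⟨Nat.mul_ne_zero (NeZero.ne M') (NeZero.ne q)⟩
  have hOrd : s34i47_Ord π m f := ca57_ord (K := K) hπ m f hf hord
  have hRat : s34i47_Rat K π f := ca57_rat (K := K) hπ f hrat
  have hFinS : s34i47_Fin π f := ca57_fin (K := K) hπ f (fs29_Pkg_Fin (M' * q) hne K f hf)
  have hUZ₁ := uz37_Pkg_UZ R K ↥(modularFunctionFieldFullC K (M' * q)) π hπ _ hN₁ hfrac hLS₁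
  have hUZ₂ := uz37_Pkg_UZ R K ↥(modularFunctionFieldFullC K (M' * q)) π hπ _ hN₂ hfrac₂ hLS₂
  exact ⟨lp9_Pkg_LP R K ↥(modularFunctionFieldFullC K (M' * q)) π hπ _ m hm f hf hUZ₁ hOrd hRat
      hFinS,
    lp9_Pkg_LP R K ↥(modularFunctionFieldFullC K (M' * q)) π hπ _ m hm f hf hUZ₂ hOrd hRat hFinS⟩

/-- **(LP) for `u = τ f₃ / f₃ ^ Q` on both charts of the canonical frame**, `τ = ŝ²`,
`f₃ = f · τ² f / (τ f)² / G ^ m`, for every `G ≠ 0`. -/
theorem lpt70i_locPrin_u (hq : q.Prime) (hM' : ¬ q ∣ M') (π : R) (hπ : Irreducible π)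
    (hunit : ∀ n : ℕ, Nat.Coprime n q → IsUnit (n : R)) (hqR : ¬ IsUnit (q : R))
    (σ : K ≃+* K) (hσ : s35i62_Frobenial R q σ)
    (h : ↥(modularFunctionFieldFullC K (M' * q))) (hh : s34i47c_IsHaupt K (M' * q) q h)
    (m : ℕ) (hm : 0 < m) (Q : ℕ) (G : ↥(modularFunctionFieldFullC K (M' * q))) (hG : G ≠ 0)
    (f : ↥(modularFunctionFieldFullC K (M' * q))) (hf : f ≠ 0)
    (hord : ∀ P : Place K ↥(modularFunctionFieldFullC K (M' * q)), (m : ℤ) ∣ P.ord f)
    (hrat : ∀ P : Place K ↥(modularFunctionFieldFullC K (M' * q)),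
      (f ∈ P.toValuationSubring ∧ f⁻¹ ∈ P.toValuationSubring) ∨
        s34i47_IsRat K P.toValuationSubring) :
    s34i47_LocPrin π m (pk15_chart R ({h} : Set ↥(modularFunctionFieldFullC K (M' * q))))
        (lpt70i_tau σ (M' * q) (lpt70_f3 (lpt70i_tau σ (M' * q)) m G f) /
          lpt70_f3 (lpt70i_tau σ (M' * q)) m G f ^ Q) ∧
      s34i47_LocPrin π m (pk15_chart R ({h⁻¹} : Set ↥(modularFunctionFieldFullC K (M' * q))))
        (lpt70i_tau σ (M' * q) (lpt70_f3 (lpt70i_tau σ (M' * q)) m G f) /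
          lpt70_f3 (lpt70i_tau σ (M' * q)) m G f ^ Q) := by
  obtain ⟨hLP₁, hLP₂⟩ := lpt70i_locPrin M' q R K hq hM' π hπ hunit hqR h hh m hm f hf hord hrat
  obtain ⟨ha₁, ha₂⟩ := lpt70i_aut_tau M' q R K hq π hπ σ hσ h hh
  exact ⟨lpt70_locPrin_u hπ m _ _ ha₁ Q G hG f hLP₁, lpt70_locPrin_u hπ m _ _ ha₂ Q G hG f hLP₂⟩

/-- (KR) on both charts of the canonical frame. -/
theorem lpt70i_krull (hq : q.Prime) (hM' : ¬ q ∣ M') (π : R) (hπ : Irreducible π)
    (hunit : ∀ n : ℕ, Nat.Coprime n q → IsUnit (n : R)) (hqR : ¬ IsUnit (q : R))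
    (h : ↥(modularFunctionFieldFullC K (M' * q))) (hh : s34i47c_IsHaupt K (M' * q) q h) :
    s34i47_Krull π (pk15_chart R ({h} : Set ↥(modularFunctionFieldFullC K (M' * q)))) ∧
      s34i47_Krull π (pk15_chart R ({h⁻¹} : Set ↥(modularFunctionFieldFullC K (M' * q)))) := by
  obtain ⟨-, hC⟩ := fs85_pkg_frameSat M' q hq hM' R K π hπ hunit hqR
  obtain ⟨htr, -, -, -, -, hN₁, hN₂, hfin, hfrac⟩ := hC h hh
  exact kr65_Pkg_Krull R K ↥(modularFunctionFieldFullC K (M' * q)) π hπ h htr hN₁ hN₂ hfin hfrac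

end Canonical

end Fermat.Agent.S35
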