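import Mathlib
import Fermat.Agent.S34.FrameLS79
import Fermat.Agent.S34.PkgFrameTransv66
import Fermat.Agent.S35.LocStrLab79

/-!
# S35 lab, row L1d-LocStrLab, instance: the labelled local structure on the canonical frame data
(helper79)

Canonical frame data of `Iface47c` at level `M' * q` (`q ∤ M'`): `V_∞ = cm85_Vinf (M' * q) hπ`,
`V_0 = s34i47c_V0 M' q hq hM' hπ`, `h` an admissible Hauptmodul, charts `pk15_chart R {h}` and
`pk15_chart R {h⁻¹}`.

* `nl79_FrameLSLab M' q hq hM'` : both charts have the labelled local structure `nl79_LocStr`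
  along `(V_∞, V_0)`: every closed point of the special fibre is a smooth point of exactly one
  branch (with a local coordinate of that branch, `n B_n = (z, π)`), or a node with coordinates
  `z, z'`, `n B_n = (z, z', π)`, `s z z' = π ^ κ s'`, `1 ≤ κ`, `z` a unit along `V_∞` and `z'` a
  unit along `V_0`.
* `nl79_frameLSLab` : it holds, with no hypothesis (binder block of `s34i47c_FrameLS`).
* `nl79_pkg_frameLSLab` : at all levels.

Inputs (all from the S34 lab): `sf79f_smooth_inf`, `sf79f_smooth_zero` (helper79),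
`tv66_pkg_frameTransv` (helper66), `uvf22_UVAt` (helper22), `fs85_frameSat` (helper85),
`al97C_*` (helper97).
-/

set_option autoImplicit false

open ModularCurve AlgebraicCurve IntermediateField

namespace Fermat.Agent.S35

open Fermat.Agent.S34 Fermat.Agent.S18

local notation "Q̄" => AlgebraicClosure ℚ

/-- **Labelled FRAME-LS** at level `M' * q`: both affine charts of every admissible Hauptmodul
have the labelled local structure along `(V_∞, V_0)`. -/
def nl79_FrameLSLab (M' q : ℕ) [NeZero M'] [NeZero q] (hq : q.Prime) (hM' : ¬ q ∣ M') : Prop :=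
  ∀ (R K : Type) [CommRing R] [IsDomain R] [IsDiscreteValuationRing R] [Field K] [NumberField K]
    [Algebra K Q̄] [Algebra R K] [IsFractionRing R K]
    [Algebra R ↥(modularFunctionFieldFullC K (M' * q))]
    [IsScalarTower R K ↥(modularFunctionFieldFullC K (M' * q))] (π : R) (hπ : Irreducible π),
    (∀ n : ℕ, Nat.Coprime n q → IsUnit (n : R)) → ¬ IsUnit (q : R) →
    ∀ h : ↥(modularFunctionFieldFullC K (M' * q)), s34i47c_IsHaupt K (M' * q) q h →
      nl79_LocStr π (pk15_chart R ({h} : Set ↥(modularFunctionFieldFullC K (M' * q))))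
          (cm85_Vinf (K := K) (M' * q) hπ).toSubring
          (s34i47c_V0 (K := K) M' q hq hM' hπ).toSubring ∧
        nl79_LocStr π (pk15_chart R ({h⁻¹} : Set ↥(modularFunctionFieldFullC K (M' * q))))
          (cm85_Vinf (K := K) (M' * q) hπ).toSubring
          (s34i47c_V0 (K := K) M' q hq hM' hπ).toSubring

/-- **Labelled FRAME-LS on the canonical frame data** (one level), hypothesis-free. -/
theorem nl79_frameLSLab (M' q : ℕ) [NeZero M'] [NeZero q] (hq : q.Prime)
    (hM' : ¬ q ∣ M') : nl79_FrameLSLab M' q hq hM' := by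
  intro R K _ _ _ _ _ _ _ _ _ _ π hπ hunit hqR h hh
  have hT := tv66_pkg_frameTransv M' q hq hM'
  obtain ⟨-, hC⟩ := fs85_frameSat M' q hq hM' R K π hπ hunit hqR
  obtain ⟨-, h12W, hsat1, hsat2, -, hN1, hN2, -, -⟩ := hC h hh
  obtain ⟨hSi1, hSi2⟩ := sf79f_smooth_inf M' q hq hM' hπ hunit hqR h hh
  obtain ⟨hSz1, hSz2⟩ := sf79f_smooth_zero M' q hq hM' hπ hunit hqR h hh
  obtain ⟨hT1, hT2⟩ := hT R K π hπ hunit hqR h hh
  obtain ⟨hUV1, hUV2⟩ := uvf22_UVAt (R := R) (K := K) M' q hq hM' hπ hunit hqR h hh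
  have hπ₁ : (algebraMap R ↥(modularFunctionFieldFullC K (M' * q)) π)⁻¹ ∉
      (cm85_Vinf (K := K) (M' * q) hπ).toSubring := al97C_pi_inv_not_mem_Vinf M' q hπ
  have hπ₂ : (algebraMap R ↥(modularFunctionFieldFullC K (M' * q)) π)⁻¹ ∉
      (s34i47c_V0 (K := K) M' q hq hM' hπ).toSubring := al97C_pi_inv_not_mem_V0 M' q hq hM' hπ
  have hV₁ : ∀ x ∈ (cm85_Vinf (K := K) (M' * q) hπ).toSubring,
      (algebraMap R ↥(modularFunctionFieldFullC K (M' * q)) π)⁻¹ * x ∉
        (cm85_Vinf (K := K) (M' * q) hπ).toSubring →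
      x⁻¹ ∈ (cm85_Vinf (K := K) (M' * q) hπ).toSubring := by
    intro x hx hx'
    by_contra hcon
    apply hx'
    have hconv : algebraMap R ↥(modularFunctionFieldFullC K (M' * q)) π =
        algebraMap K ↥(modularFunctionFieldFullC K (M' * q)) (algebraMap R K π) :=
      IsScalarTower.algebraMap_apply R K ↥(modularFunctionFieldFullC K (M' * q)) π
    rw [hconv]
    exact gv85_hmax (IsLocalRing.residue R) π (pk85_res_iff hπ) hπ.ne_zero _ _ x hx hcon
  have hV₂ : ∀ x ∈ (s34i47c_V0 (K := K) M' q hq hM' hπ).toSubring,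
      (algebraMap R ↥(modularFunctionFieldFullC K (M' * q)) π)⁻¹ * x ∉
        (s34i47c_V0 (K := K) M' q hq hM' hπ).toSubring →
      x⁻¹ ∈ (s34i47c_V0 (K := K) M' q hq hM' hπ).toSubring := by
    intro x hx hx'
    by_contra hcon
    exact hx' (al97C_hmax_V0 M' q hq hM' hπ x hx hcon)
  have hmemW : ∀ x : ↥(modularFunctionFieldFullC K (M' * q)),
      x ∈ s34i47c_W (K := K) M' q hq hM' hπ →
      x ∈ (cm85_Vinf (K := K) (M' * q) hπ).toSubring ∧
        x ∈ (s34i47c_V0 (K := K) M' q hq hM' hπ).toSubring := by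
    intro x hx
    obtain ⟨h1, h2⟩ := (s34i47c_mem_W M' q hq hM' hπ x).mp hx
    exact ⟨h1, (s34i47c_mem_V0 M' q hq hM' hπ x).mpr h2⟩
  have hWmem : ∀ x : ↥(modularFunctionFieldFullC K (M' * q)),
      x ∈ (cm85_Vinf (K := K) (M' * q) hπ).toSubring →
      x ∈ (s34i47c_V0 (K := K) M' q hq hM' hπ).toSubring →
      x ∈ s34i47c_W (K := K) M' q hq hM' hπ := by
    intro x h1 h2
    exact (s34i47c_mem_W M' q hq hM' hπ x).mpr ⟨h1, (s34i47c_mem_V0 M' q hq hM' hπ x).mp h2⟩
  have hsub1 : ({h} : Set ↥(modularFunctionFieldFullC K (M' * q))) ⊆ {h, h⁻¹} := by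
    intro x hx
    rw [Set.mem_singleton_iff.mp hx]
    exact Set.mem_insert _ _
  have hsub2 : ({h⁻¹} : Set ↥(modularFunctionFieldFullC K (M' * q))) ⊆ {h, h⁻¹} := by
    intro x hx
    rw [Set.mem_singleton_iff.mp hx]
    exact Set.mem_insert_of_mem _ rfl
  haveI := hN1
  haveI := hN2
  refine ⟨nl79_locStr π _ _ _ (fun x hx => (hmemW x (h12W x (pk15_chart_mono hsub1 hx))).1)
      (fun x hx => (hmemW x (h12W x (pk15_chart_mono hsub1 hx))).2) hπ₁ hπ₂ hV₁ hV₂
      (fun x hx h1 h2 => hsat1 x hx (hWmem _ h1 h2)) hSi1 hSz1 hT1 hUV1,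
    nl79_locStr π _ _ _ (fun x hx => (hmemW x (h12W x (pk15_chart_mono hsub2 hx))).1)
      (fun x hx => (hmemW x (h12W x (pk15_chart_mono hsub2 hx))).2) hπ₁ hπ₂ hV₁ hV₂
      (fun x hx h1 h2 => hsat2 x hx (hWmem _ h1 h2)) hSi2 hSz2 hT2 hUV2⟩

/-- **Labelled FRAME-LS at all levels.** -/
theorem nl79_pkg_frameLSLab (M' q : ℕ) [NeZero M'] [NeZero q] (hq : q.Prime) (hM' : ¬ q ∣ M') :
    nl79_FrameLSLab M' q hq hM' :=
  nl79_frameLSLab M' q hq hM'

end Fermat.Agent.S35
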