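import Mathlib
import Fermat.Agent.S35.LocStrLab79
import Fermat.Agent.S34.Iface47e
import Fermat.Agent.S34.FrameSat85
import Fermat.Agent.S34.PkgFrameSmooth73
import Fermat.Agent.S34.PkgFrameTransv66

/-!
# S35 lab, row L1d-LocStrLab (helper99, twin): the labelled local structure on the CANONICAL frame

`nl79_LocStr` (helper79, `LocStrLab79`) is the labelled form of `s34i47_LocStr`: every closed point
of the special fibre of a chart is a smooth point of exactly one branch or a node with labelled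
coordinates (`z` a unit along `V₁`, `z'` a unit along `V₂`, `s z z' = π ^ κ s'`).

Here:

* `lsl99_FrameLab M' q hq hM'` : the labelled local structure for BOTH affine charts
  `pk15_chart R {h}`, `pk15_chart R {h⁻¹}` of every admissible Hauptmodul, on the canonical frame
  data of `Iface47c` (`V_∞ = cm85_Vinf (M' * q)`, `V_0 = s34i47c_V0`), in the binder block of
  `s34i47c_FrameLS`;
* `lsl99_Pkg_FrameLab`, `lsl99_pkg_frameLab : lsl99_Pkg_FrameLab` : the closed package, proved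
  from the packages on main (`fs85_pkg_frameSat`, `sc73_pkg_frameSmooth`, `tv66_pkg_frameTransv`,
  `bz13_smooth_V0`, `uvf22_UVAt`) through `nl79_locStr`;
* abstract consequences of the labels at a node (`lsl99_node_vals`): `z = π ^ κ · (unit of V₂)`,
  `z' = π ^ κ · (unit of V₁)`, `z`, `z'` units of `V₁`, `V₂` respectively;
* `lsl99_smooth_unit` : at a one-branch point the local coordinate can be chosen to be a unit
  along the OTHER valuation (given a separating element), and it is a unit along its own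
  valuation as soon as the branch ideal is not the whole of `n`.
-/

set_option autoImplicit false

open ModularCurve AlgebraicCurve

namespace Fermat.Agent.S35

open Fermat.Agent.S34 Fermat.Agent.S18

local notation "Q̄" => AlgebraicClosure ℚ

section lsl99_abs

variable {R F : Type*} [CommRing R] [Field F] [Algebra R F]

/-- **Values of labelled node coordinates.**  At a point of both branches with labelled
coordinates `s z z' = π ^ κ s'` (`z` a unit along `V₁`, `z'` a unit along `V₂`): `z = π ^ κ ε` with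
`ε` a unit of `V₂`, and `z' = π ^ κ ε'` with `ε'` a unit of `V₁`. -/
theorem lsl99_node_vals (π : R) (B : Subalgebra R F) (V₁ V₂ : Subring F)
    (hB₁ : ∀ x ∈ B, x ∈ V₁) (hB₂ : ∀ x ∈ B, x ∈ V₂)
    (hV₁ : ∀ x ∈ V₁, (algebraMap R F π)⁻¹ * x ∉ V₁ → x⁻¹ ∈ V₁)
    (hV₂ : ∀ x ∈ V₂, (algebraMap R F π)⁻¹ * x ∉ V₂ → x⁻¹ ∈ V₂)
    (n : Ideal B) (h1 : sf79_OnBr π B V₁ n) (h2 : sf79_OnBr π B V₂ n)
    (z z' : B) (hl1 : (algebraMap R F π)⁻¹ * (z : F) ∉ V₁)
    (hl2 : (algebraMap R F π)⁻¹ * (z' : F) ∉ V₂)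
    (κ : ℕ) (s s' : B) (hs : s ∉ n) (hs' : s' ∉ n)
    (heq : s * z * z' = algebraMap R B π ^ κ * s') :
    (z : F)⁻¹ ∈ V₁ ∧ (z' : F)⁻¹ ∈ V₂ ∧
      (∃ ε : F, ε ∈ V₂ ∧ ε⁻¹ ∈ V₂ ∧ (z : F) = algebraMap R F π ^ κ * ε) ∧
      (∃ ε' : F, ε' ∈ V₁ ∧ ε'⁻¹ ∈ V₁ ∧ (z' : F) = algebraMap R F π ^ κ * ε') := by
  have hzinv : (z : F)⁻¹ ∈ V₁ := hV₁ _ (hB₁ _ z.2) hl1
  have hz'inv : (z' : F)⁻¹ ∈ V₂ := hV₂ _ (hB₂ _ z'.2) hl2
  have hz0 : (z : F) ≠ 0 := fun h0 => hl1 (by rw [h0, mul_zero]; exact V₁.zero_mem)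
  have hz'0 : (z' : F) ≠ 0 := fun h0 => hl2 (by rw [h0, mul_zero]; exact V₂.zero_mem)
  have hs0 : (s : F) ≠ 0 := sf79_ne_zero B n s hs
  have hs'0 : (s' : F) ≠ 0 := sf79_ne_zero B n s' hs'
  have hsinv₁ : (s : F)⁻¹ ∈ V₁ := sf79_inv_mem π B V₁ hB₁ hV₁ n h1 s hs
  have hsinv₂ : (s : F)⁻¹ ∈ V₂ := sf79_inv_mem π B V₂ hB₂ hV₂ n h2 s hs
  have hs'inv₁ : (s' : F)⁻¹ ∈ V₁ := sf79_inv_mem π B V₁ hB₁ hV₁ n h1 s' hs'
  have hs'inv₂ : (s' : F)⁻¹ ∈ V₂ := sf79_inv_mem π B V₂ hB₂ hV₂ n h2 s' hs'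
  have heqF : (s : F) * (z : F) * (z' : F) = algebraMap R F π ^ κ * (s' : F) := by
    have := congrArg (fun t : B => (t : F)) heq
    simpa using this
  refine ⟨hzinv, hz'inv, ⟨(s' : F) * (s : F)⁻¹ * (z' : F)⁻¹, ?_, ?_, ?_⟩,
    ⟨(s' : F) * (s : F)⁻¹ * (z : F)⁻¹, ?_, ?_, ?_⟩⟩
  · exact V₂.mul_mem (V₂.mul_mem (hB₂ _ s'.2) hsinv₂) hz'inv
  · rw [mul_inv, mul_inv, inv_inv, inv_inv]
    exact V₂.mul_mem (V₂.mul_mem hs'inv₂ (hB₂ _ s.2)) (hB₂ _ z'.2)
  · field_simp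
    linear_combination heqF
  · exact V₁.mul_mem (V₁.mul_mem (hB₁ _ s'.2) hsinv₁) hzinv
  · rw [mul_inv, mul_inv, inv_inv, inv_inv]
    exact V₁.mul_mem (V₁.mul_mem hs'inv₁ (hB₁ _ s.2)) (hB₁ _ z.2)
  · field_simp
    linear_combination heqF

/-- At a labelled node with `1 ≤ κ`: `z` lies on the second branch and `z'` on the first. -/
theorem lsl99_node_mem (π : R) (B : Subalgebra R F) (V₁ V₂ : Subring F)
    (hB₁ : ∀ x ∈ B, x ∈ V₁) (hB₂ : ∀ x ∈ B, x ∈ V₂)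
    (hV₁ : ∀ x ∈ V₁, (algebraMap R F π)⁻¹ * x ∉ V₁ → x⁻¹ ∈ V₁)
    (hV₂ : ∀ x ∈ V₂, (algebraMap R F π)⁻¹ * x ∉ V₂ → x⁻¹ ∈ V₂)
    (hp0 : algebraMap R F π ≠ 0)
    (n : Ideal B) (h1 : sf79_OnBr π B V₁ n) (h2 : sf79_OnBr π B V₂ n)
    (z z' : B) (hl1 : (algebraMap R F π)⁻¹ * (z : F) ∉ V₁)
    (hl2 : (algebraMap R F π)⁻¹ * (z' : F) ∉ V₂)
    (κ : ℕ) (hκ : 1 ≤ κ) (s s' : B) (hs : s ∉ n) (hs' : s' ∉ n)
    (heq : s * z * z' = algebraMap R B π ^ κ * s') :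
    (algebraMap R F π)⁻¹ * (z : F) ∈ V₂ ∧ (algebraMap R F π)⁻¹ * (z' : F) ∈ V₁ := by
  obtain ⟨-, -, ⟨ε, hε, -, hzε⟩, ⟨ε', hε', -, hz'ε⟩⟩ :=
    lsl99_node_vals π B V₁ V₂ hB₁ hB₂ hV₁ hV₂ n h1 h2 z z' hl1 hl2 κ s s' hs hs' heq
  obtain ⟨k, rfl⟩ : ∃ k, κ = k + 1 := ⟨κ - 1, by omega⟩
  have hπ₁ : algebraMap R F π ∈ V₁ := hB₁ _ (algebraMap R B π).2
  have hπ₂ : algebraMap R F π ∈ V₂ := hB₂ _ (algebraMap R B π).2
  constructor
  · have e : (algebraMap R F π)⁻¹ * (z : F) = algebraMap R F π ^ k * ε := by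
      rw [hzε, pow_succ]; field_simp
    rw [e]; exact V₂.mul_mem (V₂.pow_mem hπ₂ k) hε
  · have e : (algebraMap R F π)⁻¹ * (z' : F) = algebraMap R F π ^ k * ε' := by
      rw [hz'ε, pow_succ]; field_simp
    rw [e]; exact V₁.mul_mem (V₁.pow_mem hπ₁ k) hε'

/-- At a point of the first branch, a local coordinate (`n B_n = (z, π)`) is a unit along `V₁`
as soon as `n` is not the branch ideal itself. -/
theorem lsl99_smooth_not_mem (π : R) (B : Subalgebra R F) (V₁ : Subring F)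
    (hB₁ : ∀ x ∈ B, x ∈ V₁)
    (hV₁ : ∀ x ∈ V₁, (algebraMap R F π)⁻¹ * x ∉ V₁ → x⁻¹ ∈ V₁)
    (n : Ideal B) (h1 : sf79_OnBr π B V₁ n)
    (x₀ : B) (hx₀ : x₀ ∈ n) (hx₀' : (algebraMap R F π)⁻¹ * (x₀ : F) ∉ V₁)
    (z : B) (hgen : ∀ x ∈ n, ∃ s : B, s ∉ n ∧ ∃ a c : B, s * x = a * z + c * algebraMap R B π) :
    (algebraMap R F π)⁻¹ * (z : F) ∉ V₁ := by
  intro hcon
  apply hx₀'
  have hp0 : algebraMap R F π ≠ 0 := by
    intro h0
    apply hx₀'
    rw [h0, inv_zero, zero_mul]; exact V₁.zero_mem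
  obtain ⟨s, hs, a, c, e⟩ := hgen x₀ hx₀
  have eF : (s : F) * (x₀ : F) = (a : F) * (z : F) + (c : F) * algebraMap R F π := by
    have := congrArg (fun t : B => (t : F)) e
    simpa using this
  have hs0 : (s : F) ≠ 0 := sf79_ne_zero B n s hs
  have hsinv : (s : F)⁻¹ ∈ V₁ := sf79_inv_mem π B V₁ hB₁ hV₁ n h1 s hs
  have e1 : (algebraMap R F π)⁻¹ * (x₀ : F) =
      (s : F)⁻¹ * ((a : F) * ((algebraMap R F π)⁻¹ * (z : F)) + (c : F)) := by
    field_simp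
    linear_combination eF
  rw [e1]
  exact V₁.mul_mem hsinv (V₁.add_mem (V₁.mul_mem (hB₁ _ a.2) hcon) (hB₁ _ c.2))

/-- **At a point of the first branch only, the local coordinate can be chosen a unit along the
OTHER valuation** (given an element of the first branch ideal outside the second): the new
coordinate is congruent to the old one modulo the first branch. -/
theorem lsl99_smooth_unit (π : R) (B : Subalgebra R F) (V₁ V₂ : Subring F)
    (hB₁ : ∀ x ∈ B, x ∈ V₁) (hB₂ : ∀ x ∈ B, x ∈ V₂)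
    (hsat : ∀ x ∈ B, (algebraMap R F π)⁻¹ * x ∈ V₁ → (algebraMap R F π)⁻¹ * x ∈ V₂ →
      (algebraMap R F π)⁻¹ * x ∈ B)
    (hp0 : algebraMap R F π ≠ 0)
    (n : Ideal B) [hn : n.IsPrime] (h1 : sf79_OnBr π B V₁ n) (h2 : ¬ sf79_OnBr π B V₂ n)
    (hsep : ∃ t : B, (algebraMap R F π)⁻¹ * (t : F) ∈ V₁ ∧ (algebraMap R F π)⁻¹ * (t : F) ∉ V₂)
    (z : B) (hz : z ∈ n)
    (hgen : ∀ x ∈ n, ∃ s : B, s ∉ n ∧ ∃ a c : B, s * x = a * z + c * algebraMap R B π) :
    ∃ z₁ : B, z₁ ∈ n ∧ (algebraMap R F π)⁻¹ * (z₁ : F) ∉ V₂ ∧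
      (∀ x ∈ n, ∃ s : B, s ∉ n ∧ ∃ a c : B, s * x = a * z₁ + c * algebraMap R B π) ∧
      (algebraMap R F π)⁻¹ * ((z₁ : F) - (z : F)) ∈ V₁ := by
  by_cases hzV : (algebraMap R F π)⁻¹ * (z : F) ∈ V₂
  · obtain ⟨t, ht1, ht2⟩ := hsep
    obtain ⟨δ, hδ⟩ := not_forall.mp h2
    obtain ⟨hδ2, hδn⟩ := Classical.not_imp.mp hδ
    have htn : t ∈ n := h1 t ht1
    have hbB : (algebraMap R F π)⁻¹ * ((δ : F) * (t : F)) ∈ B := by
      apply hsat _ (B.mul_mem δ.2 t.2)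
      · rw [mul_left_comm]; exact V₁.mul_mem (hB₁ _ δ.2) ht1
      · rw [← mul_assoc]; exact V₂.mul_mem hδ2 (hB₂ _ t.2)
    refine ⟨z + t, n.add_mem hz htn, ?_, ?_, ?_⟩
    · intro hcon
      apply ht2
      have e : (algebraMap R F π)⁻¹ * (t : F) =
          (algebraMap R F π)⁻¹ * ((z + t : B) : F) - (algebraMap R F π)⁻¹ * (z : F) := by
        push_cast; ring
      rw [e]; exact V₂.sub_mem hcon hzV
    · intro x hx
      obtain ⟨s, hs, a, c, e⟩ := hgen x hx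
      refine ⟨δ * s, fun h => (hn.mem_or_mem h).elim hδn hs, δ * a, δ * c - a * ⟨_, hbB⟩, ?_⟩
      have eF : (s : F) * (x : F) = (a : F) * (z : F) + (c : F) * algebraMap R F π := by
        have := congrArg (fun t : B => (t : F)) e
        simpa using this
      apply Subtype.ext
      show (δ : F) * (s : F) * (x : F) = (δ : F) * (a : F) * ((z : F) + (t : F)) +
        ((δ : F) * (c : F) - (a : F) * ((algebraMap R F π)⁻¹ * ((δ : F) * (t : F)))) *
          algebraMap R F π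
      field_simp
      linear_combination (δ : F) * eF
    · have e : (algebraMap R F π)⁻¹ * (((z + t : B) : F) - (z : F)) =
          (algebraMap R F π)⁻¹ * (t : F) := by push_cast; ring
      rw [e]; exact ht1
  · exact ⟨z, hz, hzV, hgen, by rw [sub_self, mul_zero]; exact V₁.zero_mem⟩

end lsl99_abs

/-- **FRAME-LS with labels** at level `M' * q`: the labelled local structure of the two affine
charts of every admissible Hauptmodul along `V_∞` (first branch) and `V_0` (second branch). -/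
def lsl99_FrameLab (M' q : ℕ) [NeZero M'] [NeZero q] (hq : q.Prime) (hM' : ¬ q ∣ M') : Prop :=
  ∀ (R K : Type) [CommRing R] [IsDomain R] [IsDiscreteValuationRing R] [Field K] [NumberField K]
    [Algebra K Q̄] [Algebra R K] [IsFractionRing R K]
    [Algebra R ↥(modularFunctionFieldFullC K (M' * q))]
    [IsScalarTower R K ↥(modularFunctionFieldFullC K (M' * q))] (π : R) (hπ : Irreducible π),
    (∀ n : ℕ, Nat.Coprime n q → IsUnit (n : R)) → ¬ IsUnit (q : R) →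
    ∀ h : ↥(modularFunctionFieldFullC K (M' * q)), s34i47c_IsHaupt K (M' * q) q h →
      nl79_LocStr π (pk15_chart R ({h} : Set ↥(modularFunctionFieldFullC K (M' * q))))
        (cm85_Vinf (K := K) (M' * q) hπ).toSubring
        (s34i47c_V0 (K := K) M' q hq hM' hπ).toSubring ∧
      nl79_LocStr π (pk15_chart R ({h⁻¹} : Set ↥(modularFunctionFieldFullC K (M' * q))))
        (cm85_Vinf (K := K) (M' * q) hπ).toSubring
        (s34i47c_V0 (K := K) M' q hq hM' hπ).toSubring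

/-- Package statement for FRAME-LS with labels. -/
def lsl99_Pkg_FrameLab : Prop :=
  ∀ (M' q : ℕ) [NeZero M'] [NeZero q] (hq : q.Prime) (hM' : ¬ q ∣ M'),
    lsl99_FrameLab M' q hq hM'

/-- **FRAME-LS with labels from FRAME-SAT, FRAME-SMOOTH and FRAME-TRANSV** (`nl79_locStr` with
`bz13_smooth_V0` and `uvf22_UVAt`; same proof as `s34i47e_frameLS_of`). -/
theorem lsl99_frameLab_of (hSat : s34i47c_Pkg_FrameSat) (hSm : s34i47e_Pkg_FrameSmooth)
    (hTr : s34i47e_Pkg_FrameTransv) : lsl99_Pkg_FrameLab := by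
  intro M' q _ _ hq hM' R K _ _ _ _ _ _ _ _ _ _ π hπ hunit hqR h hh
  obtain ⟨-, hC⟩ := hSat M' q hq hM' R K π hπ hunit hqR
  obtain ⟨-, h12W, hsat₁, hsat₂, -, hN₁, hN₂, -, -⟩ := hC h hh
  obtain ⟨hS₁, hS₂⟩ := hSm M' q hq hM' R K π hπ hunit hqR h hh
  obtain ⟨hT₁, hT₂⟩ := hTr M' q hq hM' R K π hπ hunit hqR h hh
  obtain ⟨hS₁0, hS₂0⟩ := bz13_smooth_V0 (K := K) M' q hq hM' (π := π) hπ hunit h hh
  obtain ⟨hUV₁, hUV₂⟩ := uvf22_UVAt (K := K) M' q hq hM' hπ hunit hqR h hh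
  have hπ₁ : (algebraMap R ↥(modularFunctionFieldFullC K (M' * q)) π)⁻¹ ∉
      (cm85_Vinf (K := K) (M' * q) hπ).toSubring := by
    rw [IsScalarTower.algebraMap_apply R K ↥(modularFunctionFieldFullC K (M' * q))]
    exact gv85_pi_inv_not_mem (IsLocalRing.residue R) π (pk85_res_iff hπ) hπ.ne_zero _ _
  have hπ₂ : (algebraMap R ↥(modularFunctionFieldFullC K (M' * q)) π)⁻¹ ∉
      (s34i47c_V0 (K := K) M' q hq hM' hπ).toSubring := by
    intro hmem
    have hmem' : (algebraMap R ↥(modularFunctionFieldFullC K (M' * q)) π)⁻¹ ∈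
        s34i47c_V0 (K := K) M' q hq hM' hπ := hmem
    rw [s34i47c_mem_V0, map_inv₀,
      IsScalarTower.algebraMap_apply R K ↥(modularFunctionFieldFullC K (M' * q)),
      AlgEquiv.commutes,
      ← IsScalarTower.algebraMap_apply R K ↥(modularFunctionFieldFullC K (M' * q))] at hmem'
    exact hπ₁ hmem'
  have hV₁ : ∀ x ∈ (cm85_Vinf (K := K) (M' * q) hπ).toSubring,
      (algebraMap R ↥(modularFunctionFieldFullC K (M' * q)) π)⁻¹ * x ∉
        (cm85_Vinf (K := K) (M' * q) hπ).toSubring →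
      x⁻¹ ∈ (cm85_Vinf (K := K) (M' * q) hπ).toSubring := by
    intro x hx hnot
    by_contra hinv
    apply hnot
    have := gv85_hmax (IsLocalRing.residue R) π (pk85_res_iff hπ) hπ.ne_zero _ _ x hx hinv
    rw [IsScalarTower.algebraMap_apply R K ↥(modularFunctionFieldFullC K (M' * q))]
    exact this
  have hV₂ : ∀ x ∈ (s34i47c_V0 (K := K) M' q hq hM' hπ).toSubring,
      (algebraMap R ↥(modularFunctionFieldFullC K (M' * q)) π)⁻¹ * x ∉
        (s34i47c_V0 (K := K) M' q hq hM' hπ).toSubring →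
      x⁻¹ ∈ (s34i47c_V0 (K := K) M' q hq hM' hπ).toSubring := by
    intro x hx hnot
    have hx' : al97L_w (algebraMap K Q̄) M' q hq hM' x ∈
        (cm85_Vinf (K := K) (M' * q) hπ).toSubring := hx
    have h1 := hV₁ _ hx' (by
      intro hmem
      apply hnot
      show (algebraMap R ↥(modularFunctionFieldFullC K (M' * q)) π)⁻¹ * x ∈
        s34i47c_V0 (K := K) M' q hq hM' hπ
      rw [s34i47c_mem_V0, map_mul, map_inv₀,
        IsScalarTower.algebraMap_apply R K ↥(modularFunctionFieldFullC K (M' * q)),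
        AlgEquiv.commutes,
        ← IsScalarTower.algebraMap_apply R K ↥(modularFunctionFieldFullC K (M' * q))]
      exact hmem)
    show x⁻¹ ∈ s34i47c_V0 (K := K) M' q hq hM' hπ
    rw [s34i47c_mem_V0, map_inv₀]
    exact h1
  have hBW : ∀ (s : Set ↥(modularFunctionFieldFullC K (M' * q))),
      s ⊆ {h, h⁻¹} → ∀ x ∈ pk15_chart R s, x ∈ s34i47c_W (K := K) M' q hq hM' hπ :=
    fun s hs x hx => h12W x (pk15_chart_mono hs hx)
  have hsat : ∀ (B : Subalgebra R ↥(modularFunctionFieldFullC K (M' * q))),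
      (∀ x ∈ B, (algebraMap R ↥(modularFunctionFieldFullC K (M' * q)) π)⁻¹ * x ∈
        s34i47c_W (K := K) M' q hq hM' hπ →
        (algebraMap R ↥(modularFunctionFieldFullC K (M' * q)) π)⁻¹ * x ∈ B) →
      ∀ x ∈ B, (algebraMap R ↥(modularFunctionFieldFullC K (M' * q)) π)⁻¹ * x ∈
          (cm85_Vinf (K := K) (M' * q) hπ).toSubring →
        (algebraMap R ↥(modularFunctionFieldFullC K (M' * q)) π)⁻¹ * x ∈
          (s34i47c_V0 (K := K) M' q hq hM' hπ).toSubring →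
        (algebraMap R ↥(modularFunctionFieldFullC K (M' * q)) π)⁻¹ * x ∈ B :=
    fun B hB x hx h1 h2 => hB x hx ((wa5_mem_W _ _ _).mpr ⟨h1, h2⟩)
  have hB₁ : ∀ (s : Set ↥(modularFunctionFieldFullC K (M' * q))),
      s ⊆ {h, h⁻¹} → ∀ x ∈ pk15_chart R s, x ∈ (cm85_Vinf (K := K) (M' * q) hπ).toSubring :=
    fun s hs x hx => ((wa5_mem_W _ _ _).mp (hBW s hs x hx)).1
  have hB₂ : ∀ (s : Set ↥(modularFunctionFieldFullC K (M' * q))),
      s ⊆ {h, h⁻¹} → ∀ x ∈ pk15_chart R s,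
        x ∈ (s34i47c_V0 (K := K) M' q hq hM' hπ).toSubring :=
    fun s hs x hx => ((wa5_mem_W _ _ _).mp (hBW s hs x hx)).2
  have hs₁ : ({h} : Set ↥(modularFunctionFieldFullC K (M' * q))) ⊆ {h, h⁻¹} := by simp
  have hs₂ : ({h⁻¹} : Set ↥(modularFunctionFieldFullC K (M' * q))) ⊆ {h, h⁻¹} := by simp
  have := hN₁
  have := hN₂
  exact ⟨nl79_locStr π _ _ _ (hB₁ _ hs₁) (hB₂ _ hs₁) hπ₁ hπ₂ hV₁ hV₂ (hsat _ hsat₁) hS₁
      (hS₁0 hS₁) hT₁ hUV₁,
    nl79_locStr π _ _ _ (hB₁ _ hs₂) (hB₂ _ hs₂) hπ₁ hπ₂ hV₁ hV₂ (hsat _ hsat₂) hS₂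
      (hS₂0 hS₂) hT₂ hUV₂⟩

/-- **FRAME-LS with labels on the canonical frame** (closed package). -/
theorem lsl99_pkg_frameLab : lsl99_Pkg_FrameLab :=
  lsl99_frameLab_of fs85_pkg_frameSat sc73_pkg_frameSmooth tv66_pkg_frameTransv

end Fermat.Agent.S35
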