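import Mathlib
import Fermat.Agent.S30.Iface37
import Fermat.Agent.S30.EigenTateAsm21
import Fermat.Agent.S35.Endgame60

/-!
# S35 lab, row 533 (A-MarkedVector), independent twin (helper46)

The marked vector of the eigen-Tate module `ea21_M` of S30 is `w₀ = θ(x₀)`, the image of the
primitive eigenvector `x₀ ∈ O ⊗ L(N)` under the limit of the Kummer family `Θ n`.  If `x₀` lies in
the `O`-span of a set `Lnew` of lattice vectors (the common kernel of the corestrictions), and a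
product `∏ (τ - ν)` (`ν ∈ ℤ`) of Galois operators kills every `Θ n c`, `c ∈ Lnew` (this is (A*)),
then the same product kills `w₀`:

* `mk46_baseChange_eq_zero` : (Mathlib only) an endomorphism `P` of `J` with `P (Φ c) = 0` for
  `c ∈ Lnew` kills, after `O ⊗ -`, the image of every element of `span_O (1 ⊗ Lnew)`;
* `mk46_baseChange_prod` : `O ⊗ ∏ (f - ν) = ∏ (O ⊗ f - ν)`;
* `mk46_comp_prod` : the components of `∏ (ρ τ - ν) w` for `w` in the eigen-Tate module;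
* `mk46_marked` : the marked vector `w ≠ 0` with `∏ (ρ τ - ν) w = 0`;
* `mk46_M8` : (M8) of `s35e60_ET` at one prime `q` from (A*) for every Frobenius lift at `q`;
* `mk46_ET` : `s35e60_ET p N S O hp a` from the eigenvector, the Kummer family, `Lnew` and (A*).

All names are prefixed `mk46_`.
-/

set_option autoImplicit false
set_option linter.unusedSectionVars false
set_option linter.unusedVariables false
set_option linter.style.longLine false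
set_option linter.style.haveILetI false

open CongruenceSubgroup ModularCurve ModularCurve.Period AlgebraicCurve TensorProduct

namespace Fermat.Agent.S35

open Fermat.Agent.S30 Fermat.Agent.S42 Fermat.Agent.S16

local notation "Qb" => AlgebraicClosure ℚ
local notation "GQ" => AlgebraicClosure ℚ ≃ₐ[ℚ] AlgebraicClosure ℚ

/-! ### Abstract linear algebra (Mathlib only) -/

/-- A `ℤ`-linear endomorphism `P` of `J` killing `Φ c` for every `c ∈ Lnew` kills, after base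
change to `O`, the image under `O ⊗ Φ` of every element of the `O`-span of `1 ⊗ Lnew`. -/
theorem mk46_baseChange_eq_zero {O L J : Type*} [CommRing O] [AddCommGroup L] [AddCommGroup J]
    (Lnew : Set L) (Φ : L →ₗ[ℤ] J) (P : J →ₗ[ℤ] J)
    (hP : ∀ c ∈ Lnew, P (Φ c) = 0) (x : O ⊗[ℤ] L)
    (hx : x ∈ Submodule.span O ((fun c : L => (1 : O) ⊗ₜ[ℤ] c) '' Lnew)) :
    P.baseChange O (Φ.baseChange O x) = 0 := by
  induction hx using Submodule.span_induction with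
  | mem y hy =>
    obtain ⟨c, hc, rfl⟩ := hy
    show P.baseChange O (Φ.baseChange O ((1 : O) ⊗ₜ[ℤ] c)) = 0
    rw [LinearMap.baseChange_tmul, LinearMap.baseChange_tmul, hP c hc, TensorProduct.tmul_zero]
  | zero => rw [map_zero, map_zero]
  | add y z _ _ hy hz => rw [map_add, map_add, hy, hz, add_zero]
  | smul r y _ hy => rw [map_smul, map_smul, hy, smul_zero]

/-- Base change of a product of factors `f - ν`, `ν ∈ ℤ`. -/
theorem mk46_baseChange_prod {O J : Type*} [CommRing O] [AddCommGroup J]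
    (f : Module.End ℤ J) (l : List ℤ) :
    LinearMap.baseChange O (l.map fun ν : ℤ => f - ν • (1 : Module.End ℤ J)).prod =
      (l.map fun ν : ℤ => (LinearMap.baseChange O f : Module.End O (O ⊗[ℤ] J)) -
        (ν : O) • (1 : Module.End O (O ⊗[ℤ] J))).prod := by
  induction l with
  | nil =>
    simp only [List.map_nil, List.prod_nil]
    exact LinearMap.baseChange_one ℤ J
  | cons ν l ih =>
    simp only [List.map_cons, List.prod_cons]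
    rw [LinearMap.baseChange_mul, ih]
    congr 1
    rw [LinearMap.baseChange_sub, LinearMap.baseChange_smul, LinearMap.baseChange_one,
      Int.cast_smul_eq_zsmul O ν (1 : Module.End O (O ⊗[ℤ] J))]

/-! ### Tate sequences (TateSeq35 only) -/

/-- **Abstract marked-vector lemma.**  `Mod` is a module with an injective linear map `incl` into
the Tate sequences of `R ⊗ J`, `ρ` an endomorphism of `Mod` which `incl` intertwines with the
componentwise action of `R ⊗ g`, and `w ∈ Mod` is mapped to the limit `θ(x0)` of a compatible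
family `θ n : L → J`, where `x0` lies in the `R`-span of `1 ⊗ Lnew`.  If the product
`∏ (g - ν)` kills every `θ n c`, `c ∈ Lnew`, then `∏ (ρ - ν) w = 0`. -/
theorem mk46_prod_eq_zero {R : Type*} [CommRing R] (p : ℕ) {L J : Type*} [AddCommGroup L]
    [AddCommGroup J] (θ : ℕ → L →+ J) (h1 : ∀ x, (p : ℤ) • θ 1 x = 0)
    (hc : ∀ n, 1 ≤ n → ∀ x, (p : ℤ) • θ (n + 1) x = θ n x)
    (g : Module.End ℤ J) (Lnew : Set L) (x0 : R ⊗[ℤ] L)
    (hH1 : x0 ∈ Submodule.span R ((fun c : L => (1 : R) ⊗ₜ[ℤ] c) '' Lnew))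
    (l : List ℤ)
    (hH2 : ∀ n, ∀ c ∈ Lnew, (l.map fun ν : ℤ => g - ν • (1 : Module.End ℤ J)).prod (θ n c) = 0)
    (Mod : Type*) [AddCommGroup Mod] [Module R Mod]
    (incl : Mod →ₗ[R] ts35_T (p : R) (R ⊗[ℤ] J)) (hinj : Function.Injective incl)
    (ρ : Module.End R Mod)
    (hρ : ∀ w, incl (ρ w) = ts35_map (p : R) (R ⊗[ℤ] J) (LinearMap.baseChange R g) (incl w))
    (w : Mod) (hw : incl w = ts35_theta R p θ h1 hc x0) :
    (l.map fun ν : ℤ => ρ - (ν : R) • (1 : Module.End R Mod)).prod w = 0 := by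
  -- components of a product
  have hcomp : ∀ (l' : List ℤ) (v : Mod) (n : ℕ),
      ((incl ((l'.map fun ν : ℤ => ρ - (ν : R) • (1 : Module.End R Mod)).prod v) :
          ts35_T (p : R) (R ⊗[ℤ] J)) : ℕ → R ⊗[ℤ] J) n =
        (l'.map fun ν : ℤ => (LinearMap.baseChange R g : Module.End R (R ⊗[ℤ] J)) -
          (ν : R) • (1 : Module.End R (R ⊗[ℤ] J))).prod
          (((incl v : ts35_T (p : R) (R ⊗[ℤ] J)) : ℕ → R ⊗[ℤ] J) n) := by
    intro l'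
    induction l' with
    | nil =>
      intro v n
      simp only [List.map_nil, List.prod_nil, Module.End.one_apply]
    | cons ν l' ih =>
      intro v n
      simp only [List.map_cons, List.prod_cons, Module.End.mul_apply, LinearMap.sub_apply,
        LinearMap.smul_apply, Module.End.one_apply]
      rw [← ih v n, map_sub, map_smul, hρ]
      rfl
  apply hinj
  rw [map_zero]
  apply Subtype.ext
  funext n
  rw [hcomp l w n, hw, ← mk46_baseChange_prod (O := R) g l]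
  show _ = (0 : R ⊗[ℤ] J)
  cases n with
  | zero =>
    rw [(ts35_theta R p θ h1 hc x0).2.1, map_zero]
  | succ n =>
    rw [ts35_theta_apply_succ]
    exact mk46_baseChange_eq_zero Lnew (θ (n + 1)).toIntLinearMap _
      (fun c hc' => hH2 (n + 1) c hc') x0 hH1

/-- The same with the root list existentially quantified, in the literal shape of the hypothesis
of `s35e60_M8_of_prod`: entries `±1`, `±q` over `ℤ` give entries `±1`, `±q` over `R`. -/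
theorem mk46_exists_of_list {R : Type*} [CommRing R] (p : ℕ) {L J : Type*} [AddCommGroup L]
    [AddCommGroup J] (θ : ℕ → L →+ J) (h1 : ∀ x, (p : ℤ) • θ 1 x = 0)
    (hc : ∀ n, 1 ≤ n → ∀ x, (p : ℤ) • θ (n + 1) x = θ n x)
    (g : Module.End ℤ J) (Lnew : Set L) (x0 : R ⊗[ℤ] L)
    (hH1 : x0 ∈ Submodule.span R ((fun c : L => (1 : R) ⊗ₜ[ℤ] c) '' Lnew))
    (q : ℕ)
    (hl : ∃ l : List ℤ, (∀ ν ∈ l, ν = 1 ∨ ν = -1 ∨ ν = (q : ℤ) ∨ ν = -(q : ℤ)) ∧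
      ∀ n, ∀ c ∈ Lnew, (l.map fun ν : ℤ => g - ν • (1 : Module.End ℤ J)).prod (θ n c) = 0)
    (Mod : Type*) [AddCommGroup Mod] [Module R Mod]
    (incl : Mod →ₗ[R] ts35_T (p : R) (R ⊗[ℤ] J)) (hinj : Function.Injective incl)
    (ρ : Module.End R Mod)
    (hρ : ∀ w, incl (ρ w) = ts35_map (p : R) (R ⊗[ℤ] J) (LinearMap.baseChange R g) (incl w))
    (w : Mod) (hw : incl w = ts35_theta R p θ h1 hc x0) (hw0 : w ≠ 0) :
    ∃ l : List R, (∀ ν ∈ l, ν = 1 ∨ ν = -1 ∨ ν = (q : R) ∨ ν = -(q : R)) ∧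
      ∃ w : Mod, w ≠ 0 ∧ (l.map fun ν => ρ - ν • (1 : Module.End R Mod)).prod w = 0 := by
  obtain ⟨l, hl, hH2⟩ := hl
  refine ⟨l.map (Int.cast : ℤ → R), ?_, w, hw0, ?_⟩
  · intro ν hν
    obtain ⟨k, hk, rfl⟩ := List.mem_map.mp hν
    rcases hl k hk with h | h | h | h
    · left; rw [h, Int.cast_one]
    · right; left; rw [h, Int.cast_neg, Int.cast_one]
    · right; right; left; rw [h, Int.cast_natCast]
    · right; right; right; rw [h, Int.cast_neg, Int.cast_natCast]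
  · rw [List.map_map]
    exact mk46_prod_eq_zero p θ h1 hc g Lnew x0 hH1 l hH2 Mod incl hinj ρ hρ w hw

/-! ### The eigen-Tate module of S30 -/

section mk46_main

variable (p : ℕ) [Fact p.Prime] (N : ℕ) [NeZero N] (S : Finset ℕ)
  (O : Type) [CommRing O] [IsDomain O] [IsDiscreteValuationRing O]
  [IsAdicComplete (IsLocalRing.maximalIdeal O) O] [CharZero O] (a : ℕ → O)

/-- The limit vector `θ(x0)` of the primitive eigenvector lies in the eigen-Tate module and is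
nonzero (the construction inside `ea21_M3`). -/
theorem mk46_theta_mem (hp : (p : O) ∈ IsLocalRing.maximalIdeal O)
    (hpS : p ∈ S) (hNS : ∀ q : ℕ, q.Prime → q ∣ N → q ∈ S)
    (TL : ℕ → Module.End ℤ ↥(parabolicHoms ℤ (Gamma0 N) ℤ))
    (x0 : O ⊗[ℤ] ↥(parabolicHoms ℤ (Gamma0 N) ℤ))
    (Θ : ℕ → (↥(parabolicHoms ℤ (Gamma0 N) ℤ) →+ JZero N))
    (hTL : ∀ ℓ : ℕ, ℓ.Prime → ℓ ∉ S → ∀ x : ↥(parabolicHoms ℤ (Gamma0 N) ℤ),
      ((TL ℓ x : ↥(parabolicHoms ℤ (Gamma0 N) ℤ)) : Additive ↥(Gamma0 N) →+ ℤ) =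
        heckeHom N ℓ ℤ (x : Additive ↥(Gamma0 N) →+ ℤ))
    (hx0 : x0 ∉ IsLocalRing.maximalIdeal O •
      (⊤ : Submodule O (O ⊗[ℤ] ↥(parabolicHoms ℤ (Gamma0 N) ℤ))))
    (hx0a : ∀ ℓ : ℕ, ℓ.Prime → ℓ ∉ S → (TL ℓ).baseChange O x0 = a ℓ • x0)
    (hΘ : s30i37_ThetaFamily N p Θ)
    (h1 : ∀ x, (p : ℤ) • Θ 1 x = 0)
    (hc : ∀ n, 1 ≤ n → ∀ x, (p : ℤ) • Θ (n + 1) x = Θ n x) :
    ts35_theta O p Θ h1 hc x0 ∈ ea21_M p N S O a ∧ ts35_theta O p Θ h1 hc x0 ≠ 0 := by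
  classical
  obtain ⟨hΘ1, hΘ2, hΘ3, hΘ4⟩ := hΘ
  have hpp : p.Prime := Fact.out
  have hker : ∀ x, Θ 1 x = 0 → ∃ y : ↥(parabolicHoms ℤ (Gamma0 N) ℤ), x = (p : ℤ) • y := by
    intro x hx
    obtain ⟨y, hy⟩ := hΘ2 1 x hx
    refine ⟨y, ?_⟩
    rw [hy, pow_one, natCast_zsmul]
  have hv : ¬ ∃ w : O ⊗[ℤ] ↥(parabolicHoms ℤ (Gamma0 N) ℤ), x0 = (p : O) • w := by
    rintro ⟨w, rfl⟩
    exact hx0 (Submodule.smul_mem_smul hp Submodule.mem_top)
  refine ⟨?_, ts35_theta_ne_zero O p Θ h1 hc hker x0 hv⟩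
  refine ts35_mem_eigen_iff.mpr ?_
  rintro ⟨ℓ, hℓ, hℓS⟩ n
  have hℓN : ¬ ℓ ∣ N := fun h => hℓS (hNS ℓ hℓ h)
  have hℓp : ℓ ≠ p := fun h => hℓS (h ▸ hpS)
  have hℓp' : ¬ ℓ ∣ p := fun h => hℓp ((Nat.prime_dvd_prime_iff_eq hℓ hpp).mp h)
  cases n with
  | zero =>
    have h0 : ((ts35_theta O p Θ h1 hc x0 : ts35_T (p : O) (O ⊗[ℤ] JZero N)) :
        ℕ → O ⊗[ℤ] JZero N) 0 = 0 := (ts35_theta O p Θ h1 hc x0).2.1
    show tt21_hecke O N ⟨ℓ, hℓ⟩ (((ts35_theta O p Θ h1 hc x0 :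
        ts35_T (p : O) (O ⊗[ℤ] JZero N)) : ℕ → O ⊗[ℤ] JZero N) 0) =
      a ℓ • ((ts35_theta O p Θ h1 hc x0 : ts35_T (p : O) (O ⊗[ℤ] JZero N)) :
        ℕ → O ⊗[ℤ] JZero N) 0
    rw [h0, map_zero, smul_zero]
  | succ n =>
    have hs := ts35_theta_apply_succ O p Θ h1 hc x0 n
    show tt21_hecke O N ⟨ℓ, hℓ⟩ (((ts35_theta O p Θ h1 hc x0 :
        ts35_T (p : O) (O ⊗[ℤ] JZero N)) : ℕ → O ⊗[ℤ] JZero N) (n + 1)) =
      a ℓ • ((ts35_theta O p Θ h1 hc x0 : ts35_T (p : O) (O ⊗[ℤ] JZero N)) :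
        ℕ → O ⊗[ℤ] JZero N) (n + 1)
    rw [hs]
    have hnd : ¬ ((⟨ℓ, hℓ⟩ : Nat.Primes) : ℕ) ∣ N * p ^ (n + 1) := by
      intro hd
      rcases (Nat.Prime.dvd_mul hℓ).mp hd with h | h
      · exact hℓN h
      · exact hℓp' (hℓ.dvd_of_dvd_pow h)
    have h2 : (heckeOperatorBar N ⟨ℓ, hℓ⟩ : JZero N →ₗ[ℤ] JZero N) ∘ₗ
        (Θ (n + 1)).toIntLinearMap = (Θ (n + 1)).toIntLinearMap ∘ₗ TL ℓ := by
      refine LinearMap.ext fun x => ?_
      obtain ⟨hχ, hh⟩ := hΘ3 (n + 1) ⟨ℓ, hℓ⟩ hnd x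
      show heckeOperatorBar N ⟨ℓ, hℓ⟩ (Θ (n + 1) x) = Θ (n + 1) (TL ℓ x)
      rw [hh]
      congr 1
      exact Subtype.ext (hTL ℓ hℓ hℓS x).symm
    have h3 := congrArg (fun f => LinearMap.baseChange O f x0) h2
    simp only [LinearMap.baseChange_comp, LinearMap.comp_apply] at h3
    rw [hx0a ℓ hℓ hℓS, map_smul] at h3
    exact h3

set_option maxSynthPendingDepth 2 in
/-- **The marked vector** (row 533): ONE nonzero vector `w` of the eigen-Tate module such that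
every product `∏ (τ - ν)`, `ν ∈ ℤ`, of Galois operators which kills the Kummer images `Θ n c` of
the vectors `c ∈ Lnew` kills `w`; here `x0` is the primitive eigenvector, and it lies in the
`O`-span of `1 ⊗ Lnew`. -/
theorem mk46_marked (hp : (p : O) ∈ IsLocalRing.maximalIdeal O)
    (hpS : p ∈ S) (hNS : ∀ q : ℕ, q.Prime → q ∣ N → q ∈ S)
    (TL : ℕ → Module.End ℤ ↥(parabolicHoms ℤ (Gamma0 N) ℤ))
    (x0 : O ⊗[ℤ] ↥(parabolicHoms ℤ (Gamma0 N) ℤ))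
    (Θ : ℕ → (↥(parabolicHoms ℤ (Gamma0 N) ℤ) →+ JZero N))
    (hTL : ∀ ℓ : ℕ, ℓ.Prime → ℓ ∉ S → ∀ x : ↥(parabolicHoms ℤ (Gamma0 N) ℤ),
      ((TL ℓ x : ↥(parabolicHoms ℤ (Gamma0 N) ℤ)) : Additive ↥(Gamma0 N) →+ ℤ) =
        heckeHom N ℓ ℤ (x : Additive ↥(Gamma0 N) →+ ℤ))
    (hx0 : x0 ∉ IsLocalRing.maximalIdeal O •
      (⊤ : Submodule O (O ⊗[ℤ] ↥(parabolicHoms ℤ (Gamma0 N) ℤ))))
    (hx0a : ∀ ℓ : ℕ, ℓ.Prime → ℓ ∉ S → (TL ℓ).baseChange O x0 = a ℓ • x0)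
    (hΘ : s30i37_ThetaFamily N p Θ)
    (Lnew : Set ↥(parabolicHoms ℤ (Gamma0 N) ℤ))
    (hH1 : x0 ∈ Submodule.span O
      ((fun c : ↥(parabolicHoms ℤ (Gamma0 N) ℤ) => (1 : O) ⊗ₜ[ℤ] c) '' Lnew)) :
    ∃ w : ea21_M p N S O a, w ≠ 0 ∧ ∀ (τ : GQ) (l : List ℤ),
      (∀ n, ∀ c ∈ Lnew,
        (l.map fun ν : ℤ => tt21_galZ N τ - ν • (1 : Module.End ℤ (JZero N))).prod (Θ n c) = 0) →
      (l.map fun ν : ℤ => ea21_rho p N S O a τ -
        (ν : O) • (1 : Module.End O (ea21_M p N S O a))).prod w = 0 := by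
  have h1 : ∀ x, (p : ℤ) • Θ 1 x = 0 := by
    intro x
    have := hΘ.1 1 x
    rwa [pow_one] at this
  have hc : ∀ n, 1 ≤ n → ∀ x, (p : ℤ) • Θ (n + 1) x = Θ n x := fun n _ x => hΘ.2.2.2 n x
  have hm := mk46_theta_mem p N S O a hp hpS hNS TL x0 Θ hTL hx0 hx0a hΘ h1 hc
  refine ⟨⟨_, hm.1⟩, fun h0 => hm.2 (congrArg Subtype.val h0), fun τ l hH2 => ?_⟩
  exact mk46_prod_eq_zero p Θ h1 hc (tt21_galZ N τ) Lnew x0 hH1 l hH2
    (ea21_M p N S O a) (ea21_M p N S O a).subtype Subtype.val_injective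
    (ea21_rho p N S O a τ) (fun w => rfl) ⟨_, hm.1⟩ rfl

set_option maxSynthPendingDepth 2 in
/-- **(M8) at one prime `q`** for the eigen-Tate module of S30, from (A*) on the Kummer images
of `Lnew`: for every Frobenius lift `τ` at `q` a root list `l` (entries `±1`, `±q`) such that
`∏ (τ - ν)` kills every `Θ n c`, `c ∈ Lnew`. -/
theorem mk46_M8 (hp : (p : O) ∈ IsLocalRing.maximalIdeal O)
    (hpS : p ∈ S) (hNS : ∀ q : ℕ, q.Prime → q ∣ N → q ∈ S)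
    (TL : ℕ → Module.End ℤ ↥(parabolicHoms ℤ (Gamma0 N) ℤ))
    (x0 : O ⊗[ℤ] ↥(parabolicHoms ℤ (Gamma0 N) ℤ))
    (Θ : ℕ → (↥(parabolicHoms ℤ (Gamma0 N) ℤ) →+ JZero N))
    (hTL : ∀ ℓ : ℕ, ℓ.Prime → ℓ ∉ S → ∀ x : ↥(parabolicHoms ℤ (Gamma0 N) ℤ),
      ((TL ℓ x : ↥(parabolicHoms ℤ (Gamma0 N) ℤ)) : Additive ↥(Gamma0 N) →+ ℤ) =
        heckeHom N ℓ ℤ (x : Additive ↥(Gamma0 N) →+ ℤ))
    (hx0 : x0 ∉ IsLocalRing.maximalIdeal O •
      (⊤ : Submodule O (O ⊗[ℤ] ↥(parabolicHoms ℤ (Gamma0 N) ℤ))))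
    (hx0a : ∀ ℓ : ℕ, ℓ.Prime → ℓ ∉ S → (TL ℓ).baseChange O x0 = a ℓ • x0)
    (hΘ : s30i37_ThetaFamily N p Θ)
    (Lnew : Set ↥(parabolicHoms ℤ (Gamma0 N) ℤ))
    (hH1 : x0 ∈ Submodule.span O
      ((fun c : ↥(parabolicHoms ℤ (Gamma0 N) ℤ) => (1 : O) ⊗ₜ[ℤ] c) '' Lnew))
    (q : ℕ) (hq : q ≠ 0)
    (hA : ∀ A : ValuationSubring Qb, A.LiesOverPrime q → ∀ τ : GQ, A.IsFrobeniusAt τ q →
      ∃ l : List ℤ, (∀ ν ∈ l, ν = 1 ∨ ν = -1 ∨ ν = (q : ℤ) ∨ ν = -(q : ℤ)) ∧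
        ∀ n, ∀ c ∈ Lnew,
          (l.map fun ν : ℤ => tt21_galZ N τ - ν • (1 : Module.End ℤ (JZero N))).prod
            (Θ n c) = 0) :
    s35e60_M8 q O (ea21_M p N S O a) (ea21_rho p N S O a) := by
  have h1 : ∀ x, (p : ℤ) • Θ 1 x = 0 := by
    intro x
    have := hΘ.1 1 x
    rwa [pow_one] at this
  have hc : ∀ n, 1 ≤ n → ∀ x, (p : ℤ) • Θ (n + 1) x = Θ n x := fun n _ x => hΘ.2.2.2 n x
  have hm := mk46_theta_mem p N S O a hp hpS hNS TL x0 Θ hTL hx0 hx0a hΘ h1 hc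
  have hq0 : (q : O) ≠ 0 := Nat.cast_ne_zero.mpr hq
  have hM8 := s35e60_M8_of_prod q O hq0 (ea21_M p N S O a) (ea21_rho p N S O a)
    (ea21_M1 p N S O a hp)
  exact hM8 (fun A hA' τ hτ =>
    mk46_exists_of_list p Θ h1 hc (tt21_galZ N τ) Lnew x0 hH1 q (hA A hA' τ hτ)
      (ea21_M p N S O a) (ea21_M p N S O a).subtype Subtype.val_injective
      (ea21_rho p N S O a τ) (fun w => rfl) ⟨_, hm.1⟩ rfl
      (fun h0 => hm.2 (congrArg Subtype.val h0)))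

/-- **Row (ET) of S35** (`s35e60_ET`, helper60's endgame) from the primitive eigenvector `x0`, the
Kummer family `Θ`, a set `Lnew` of lattice vectors with `x0 ∈ span_O (1 ⊗ Lnew)`, and (A*) for the
Kummer images of `Lnew` at every Frobenius lift at every prime `q ∥ N`, `q ≠ p`. -/
theorem mk46_ET (hp : (p : O) ∈ IsLocalRing.maximalIdeal O)
    (hpS : p ∈ S) (hNS : ∀ q : ℕ, q.Prime → q ∣ N → q ∈ S)
    (TL : ℕ → Module.End ℤ ↥(parabolicHoms ℤ (Gamma0 N) ℤ))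
    (x0 : O ⊗[ℤ] ↥(parabolicHoms ℤ (Gamma0 N) ℤ))
    (Θ : ℕ → (↥(parabolicHoms ℤ (Gamma0 N) ℤ) →+ JZero N))
    (hTL : ∀ ℓ : ℕ, ℓ.Prime → ℓ ∉ S → ∀ x : ↥(parabolicHoms ℤ (Gamma0 N) ℤ),
      ((TL ℓ x : ↥(parabolicHoms ℤ (Gamma0 N) ℤ)) : Additive ↥(Gamma0 N) →+ ℤ) =
        heckeHom N ℓ ℤ (x : Additive ↥(Gamma0 N) →+ ℤ))
    (hx0 : x0 ∉ IsLocalRing.maximalIdeal O •
      (⊤ : Submodule O (O ⊗[ℤ] ↥(parabolicHoms ℤ (Gamma0 N) ℤ))))
    (hx0a : ∀ ℓ : ℕ, ℓ.Prime → ℓ ∉ S → (TL ℓ).baseChange O x0 = a ℓ • x0)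
    (hΘ : s30i37_ThetaFamily N p Θ)
    (Lnew : Set ↥(parabolicHoms ℤ (Gamma0 N) ℤ))
    (hH1 : x0 ∈ Submodule.span O
      ((fun c : ↥(parabolicHoms ℤ (Gamma0 N) ℤ) => (1 : O) ⊗ₜ[ℤ] c) '' Lnew))
    (hA : ∀ q : ℕ, q.Prime → q ≠ p → q ∣ N → ¬ q ^ 2 ∣ N →
      ∀ A : ValuationSubring Qb, A.LiesOverPrime q → ∀ τ : GQ, A.IsFrobeniusAt τ q →
        ∃ l : List ℤ, (∀ ν ∈ l, ν = 1 ∨ ν = -1 ∨ ν = (q : ℤ) ∨ ν = -(q : ℤ)) ∧
          ∀ n, ∀ c ∈ Lnew,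
            (l.map fun ν : ℤ => tt21_galZ N τ - ν • (1 : Module.End ℤ (JZero N))).prod
              (Θ n c) = 0) :
    s35e60_ET p N S O hp a :=
  s35e60_ET_of_ea21 p N S O a hp hpS hNS
    (ea21_M3 p N S O a hp hpS hNS TL x0 Θ hTL hx0 hx0a hΘ)
    (fun q hq hqp hqN hq2 =>
      mk46_M8 p N S O a hp hpS hNS TL x0 Θ hTL hx0 hx0a hΘ Lnew hH1 q hq.ne_zero
        (hA q hq hqp hqN hq2))

end mk46_main

end Fermat.Agent.S35
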