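import Mathlib
import Fermat.Agent.S35.Marked60
import Fermat.Agent.S35.FlatKer70

/-!
# S35 lab (helper60): the marked vector, COMPONENT form (no fixed new sublattice)

`Marked60` needs one set `Lnew` of lattice vectors for all primes `q ∥ N`.  Here the hypothesis is
stated on the components `(O ⊗ Θ n) x0` of the marked vector, so that the new sublattice (the
common kernel of the two corestrictions to level `N / q`) may depend on `q`:

* `s35w60_rootProd_baseChange` : `O ⊗ ∏ (T − ν) = ∏ (O ⊗ T − ν)`;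
* `s35w60_marked` : there is a nonzero `w` in the eigen-Tate module `ea21_M` such that for every
  `τ` and every integer root list `l`: if `O ⊗ ∏ (τ − ν)` kills every component
  `(O ⊗ Θ n) x0`, then `∏ (ea21_rho τ − ν)` kills `w`;
* `s35w60_ET` : **`s35e60_ET p N S O hp a`** from the hypotheses of `ea21_M3` and, for every
  Frobenius lift `τ` at a prime `q ∥ N`, `q ≠ p`, a root list with entries in `{1, −1, q, −q}`
  whose root product kills the components of the marked vector;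
* `s35w60_ET_of_cores` : the same, the hypothesis at `q` being given by two additive maps
  `c₁`, `c₂` out of the lattice (the corestrictions along `α` and `β` to level `N / q`) whose base
  changes kill `x0`, and root lists killing `Θ n c` for `c` in the common kernel of `c₁`, `c₂`
  (through `fk70_bridge`, helper70).

All names are prefixed `s35w60_`.
-/

set_option autoImplicit false
set_option linter.unusedSectionVars false
set_option linter.unusedVariables false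
set_option linter.style.longLine false
set_option linter.style.haveILetI false

open CongruenceSubgroup ModularCurve ModularCurve.Period AlgebraicCurve TensorProduct

namespace Fermat.Agent.S35

open Fermat.Agent.S30 Fermat.Agent.S42 Fermat.Agent.S16

local notation "Qb" => AlgebraicClosure ℚ
local notation "GQ" => AlgebraicClosure ℚ ≃ₐ[ℚ] AlgebraicClosure ℚ

section s35w60_abs

variable (O : Type) [CommRing O] {J : Type} [AddCommGroup J]

/-- The base change of an integral root product is the root product of the base change. -/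
theorem s35w60_rootProd_baseChange (T : Module.End ℤ J) (l : List ℤ) (v : O ⊗[ℤ] J) :
    (s35v60_rootProd T l).baseChange O v
      = s35v60_rootProd (T.baseChange O) (l.map fun ν : ℤ => (ν : O)) v := by
  induction v using TensorProduct.induction_on with
  | zero => rw [map_zero, map_zero]
  | tmul o x => rw [LinearMap.baseChange_tmul, s35v60_tmul_prod]
  | add y z hy hz => rw [map_add, map_add, hy, hz]

end s35w60_abs

section s35w60_main

variable (p : ℕ) [Fact p.Prime] (N : ℕ) [NeZero N] (S : Finset ℕ)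
  (O : Type) [CommRing O] [IsDomain O] [IsDiscreteValuationRing O]
  [IsAdicComplete (IsLocalRing.maximalIdeal O) O] [CharZero O] (a : ℕ → O)

/-- **The marked vector, component form.** -/
theorem s35w60_marked (hp : (p : O) ∈ IsLocalRing.maximalIdeal O)
    (hpS : p ∈ S) (hNS : ∀ q : ℕ, q.Prime → q ∣ N → q ∈ S)
    (TL : ℕ → Module.End ℤ ↥(parabolicHoms ℤ (Gamma0 N) ℤ))
    (x0 : O ⊗[ℤ] ↥(parabolicHoms ℤ (Gamma0 N) ℤ))
    (Θ : ℕ → (↥(parabolicHoms ℤ (Gamma0 N) ℤ) →+ JZero N))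
    (hTL : ∀ ℓ : ℕ, ℓ.Prime → ℓ ∉ S → ∀ x : ↥(parabolicHoms ℤ (Gamma0 N) ℤ),
      ((TL ℓ x : ↥(parabolicHoms ℤ (Gamma0 N) ℤ)) : Additive ↥(Gamma0 N) →+ ℤ) =
        heckeHom N ℓ ℤ (x : Additive ↥(Gamma0 N) →+ ℤ))
    (hx0 : x0 ∉ IsLocalRing.maximalIdeal O •
      (⊤ : Submodule O (O ⊗[ℤ] ↥(parabolicHoms ℤ (Gamma0 N) ℤ))))
    (hx0a : ∀ ℓ : ℕ, ℓ.Prime → ℓ ∉ S → (TL ℓ).baseChange O x0 = a ℓ • x0)
    (hΘ : s30i37_ThetaFamily N p Θ) :
    ∃ w : ea21_M p N S O a, w ≠ 0 ∧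
      ∀ (τ : GQ) (l : List ℤ),
        (∀ n : ℕ, (s35v60_rootProd (tt21_galZ N τ) l).baseChange O
          ((Θ n).toIntLinearMap.baseChange O x0) = 0) →
        s35v60_rootProd (ea21_rho p N S O a τ) (l.map fun ν : ℤ => (ν : O)) w = 0 := by
  have hpp : p.Prime := Fact.out
  have h1 : ∀ x, (p : ℤ) • Θ 1 x = 0 := by
    intro x
    have := hΘ.1 1 x
    rwa [pow_one] at this
  have hc : ∀ n, 1 ≤ n → ∀ x, (p : ℤ) • Θ (n + 1) x = Θ n x := fun n _ x => hΘ.2.2.2 n x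
  have hmem := s35v60_theta_mem p N S O a hpS hNS TL x0 Θ hTL hx0a hΘ h1 hc
  have hne := s35v60_theta_ne p N O hp x0 Θ hx0 hΘ h1 hc
  refine ⟨⟨_, hmem⟩, fun h0 => hne (congrArg Subtype.val h0), fun τ l hkill => ?_⟩
  refine ea21_ext p N S O a _ _ fun n => ?_
  rw [s35v60_rho_prod]
  show s35v60_rootProd (tt21_gal O N τ) (l.map fun ν : ℤ => (ν : O))
      (((ts35_theta O p Θ h1 hc x0 : ts35_T (p : O) (O ⊗[ℤ] JZero N)) :
        ℕ → O ⊗[ℤ] JZero N) n) = 0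
  cases n with
  | zero =>
    rw [(ts35_theta O p Θ h1 hc x0).2.1, map_zero]
  | succ n =>
    rw [ts35_theta_apply_succ]
    have h2 := hkill (n + 1)
    rw [s35w60_rootProd_baseChange] at h2
    exact h2

/-- **`s35e60_ET`, component form**: the hypotheses of `ea21_M3` and, for every Frobenius lift
`τ` at a prime `q ∥ N`, `q ≠ p`, an integer root list with entries in `{1, −1, q, −q}` whose root
product in `τ` (base changed to `O`) kills every component `(O ⊗ Θ n) x0`. -/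
theorem s35w60_ET (hp : (p : O) ∈ IsLocalRing.maximalIdeal O)
    (hpS : p ∈ S) (hNS : ∀ q : ℕ, q.Prime → q ∣ N → q ∈ S)
    (TL : ℕ → Module.End ℤ ↥(parabolicHoms ℤ (Gamma0 N) ℤ))
    (x0 : O ⊗[ℤ] ↥(parabolicHoms ℤ (Gamma0 N) ℤ))
    (Θ : ℕ → (↥(parabolicHoms ℤ (Gamma0 N) ℤ) →+ JZero N))
    (hTL : ∀ ℓ : ℕ, ℓ.Prime → ℓ ∉ S → ∀ x : ↥(parabolicHoms ℤ (Gamma0 N) ℤ),
      ((TL ℓ x : ↥(parabolicHoms ℤ (Gamma0 N) ℤ)) : Additive ↥(Gamma0 N) →+ ℤ) =
        heckeHom N ℓ ℤ (x : Additive ↥(Gamma0 N) →+ ℤ))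
    (hx0 : x0 ∉ IsLocalRing.maximalIdeal O •
      (⊤ : Submodule O (O ⊗[ℤ] ↥(parabolicHoms ℤ (Gamma0 N) ℤ))))
    (hx0a : ∀ ℓ : ℕ, ℓ.Prime → ℓ ∉ S → (TL ℓ).baseChange O x0 = a ℓ • x0)
    (hΘ : s30i37_ThetaFamily N p Θ)
    (hA : ∀ q : ℕ, q.Prime → q ≠ p → q ∣ N → ¬ q ^ 2 ∣ N →
      ∀ A : ValuationSubring Qb, A.LiesOverPrime q → ∀ τ : GQ, A.IsFrobeniusAt τ q →
        ∃ l : List ℤ, (∀ ν ∈ l, ν = 1 ∨ ν = -1 ∨ ν = (q : ℤ) ∨ ν = -(q : ℤ)) ∧
          ∀ n : ℕ, (s35v60_rootProd (tt21_galZ N τ) l).baseChange O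
            ((Θ n).toIntLinearMap.baseChange O x0) = 0) :
    s35e60_ET p N S O hp a := by
  obtain ⟨w, hw, hkill⟩ :=
    s35w60_marked p N S O a hp hpS hNS TL x0 Θ hTL hx0 hx0a hΘ
  refine s35e60_ET_of_ea21 p N S O a hp hpS hNS ⟨w, hw⟩ fun q hq hqp hqN hq2 => ?_
  refine s35e60_M8_of_prod q O (Nat.cast_ne_zero.mpr hq.ne_zero) _ _ (ea21_M1 p N S O a hp)
    fun A hA' τ hτ => ?_
  obtain ⟨l, hl, hk⟩ := hA q hq hqp hqN hq2 A hA' τ hτ
  refine ⟨l.map fun ν : ℤ => (ν : O), fun ν hν => ?_, w, hw, hkill τ l hk⟩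
  obtain ⟨z, hz, rfl⟩ := List.mem_map.mp hν
  rcases hl z hz with rfl | rfl | rfl | rfl
  · left; simp
  · right; left; simp
  · right; right; left; simp
  · right; right; right; simp

/-- **`s35e60_ET` from the corestrictions**: at every prime `q ∥ N`, `q ≠ p`, two additive maps
`c₁`, `c₂` out of the lattice whose base changes kill `x0` (newness of the eigenvector), and for
every Frobenius lift `τ` at `q` a root list with entries in `{1, −1, q, −q}` whose root product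
kills `Θ n c` for every `c` in the common kernel of `c₁` and `c₂`. -/
theorem s35w60_ET_of_cores (hp : (p : O) ∈ IsLocalRing.maximalIdeal O)
    (hpS : p ∈ S) (hNS : ∀ q : ℕ, q.Prime → q ∣ N → q ∈ S)
    (TL : ℕ → Module.End ℤ ↥(parabolicHoms ℤ (Gamma0 N) ℤ))
    (x0 : O ⊗[ℤ] ↥(parabolicHoms ℤ (Gamma0 N) ℤ))
    (Θ : ℕ → (↥(parabolicHoms ℤ (Gamma0 N) ℤ) →+ JZero N))
    (hTL : ∀ ℓ : ℕ, ℓ.Prime → ℓ ∉ S → ∀ x : ↥(parabolicHoms ℤ (Gamma0 N) ℤ),
      ((TL ℓ x : ↥(parabolicHoms ℤ (Gamma0 N) ℤ)) : Additive ↥(Gamma0 N) →+ ℤ) =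
        heckeHom N ℓ ℤ (x : Additive ↥(Gamma0 N) →+ ℤ))
    (hx0 : x0 ∉ IsLocalRing.maximalIdeal O •
      (⊤ : Submodule O (O ⊗[ℤ] ↥(parabolicHoms ℤ (Gamma0 N) ℤ))))
    (hx0a : ∀ ℓ : ℕ, ℓ.Prime → ℓ ∉ S → (TL ℓ).baseChange O x0 = a ℓ • x0)
    (hΘ : s30i37_ThetaFamily N p Θ)
    (hA : ∀ q : ℕ, q.Prime → q ≠ p → q ∣ N → ¬ q ^ 2 ∣ N →
      ∃ (L₁ L₂ : Type) (_ : AddCommGroup L₁) (_ : AddCommGroup L₂)
        (c₁ : ↥(parabolicHoms ℤ (Gamma0 N) ℤ) →+ L₁) (c₂ : ↥(parabolicHoms ℤ (Gamma0 N) ℤ) →+ L₂),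
        c₁.toIntLinearMap.baseChange O x0 = 0 ∧ c₂.toIntLinearMap.baseChange O x0 = 0 ∧
        ∀ A : ValuationSubring Qb, A.LiesOverPrime q → ∀ τ : GQ, A.IsFrobeniusAt τ q →
          ∃ l : List ℤ, (∀ ν ∈ l, ν = 1 ∨ ν = -1 ∨ ν = (q : ℤ) ∨ ν = -(q : ℤ)) ∧
            ∀ (n : ℕ) (c : ↥(parabolicHoms ℤ (Gamma0 N) ℤ)), c₁ c = 0 → c₂ c = 0 →
              s35v60_rootProd (tt21_galZ N τ) l (Θ n c) = 0) :
    s35e60_ET p N S O hp a := by
  refine s35w60_ET p N S O a hp hpS hNS TL x0 Θ hTL hx0 hx0a hΘ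
    fun q hq hqp hqN hq2 A hA' τ hτ => ?_
  obtain ⟨L₁, L₂, _, _, c₁, c₂, hx₁, hx₂, hkill⟩ := hA q hq hqp hqN hq2
  obtain ⟨l, hl, hk⟩ := hkill A hA' τ hτ
  refine ⟨l, hl, fun n => ?_⟩
  haveI : Module.Flat ℤ O := fk70_flat_of_charZero O
  exact fk70_bridge c₁ c₂ (Θ n) (s35v60_rootProd (tt21_galZ N τ) l).toAddMonoidHom
    (fun c h₁ h₂ => hk n c h₁ h₂) x0 hx₁ hx₂

end s35w60_main

end Fermat.Agent.S35
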