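import Mathlib
import Fermat.Agent.S30.EigenChar83

/-!
# S35 lab, row 557 (helper41), abstract part: descent of a marked eigenvector

Pure algebra (Mathlib + `S30/EigenChar83`).  `L` is a free `ℤ`-module, `act : A →+* End_ℤ L`,
`c i : L →ₗ[ℤ] L' i` a family of `ℤ`-linear maps (in the application: the corestrictions to the
lower levels).

* `ne41_rTensor_baseChange` : a map of coefficient modules `φ : S →ₗ[ℤ] T` commutes with the base
  changes of every `ℤ`-linear map `f : L → L'`.
* `ne41_field_descend` : `Ω / K` an extension of fields.  A nonzero vector `x̄ ∈ Ω ⊗ L` which is an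
  eigenvector of `act` for a character `χ` with values in `K` and is killed by every `c i` gives a
  nonzero vector of `K ⊗ L` with the same two properties (apply a `K`-linear functional of `Ω`).
* `ne41_ker_baseChange`, `ne41_ker_baseChange_family` : over a flat coefficient ring `R`, a vector
  of `R ⊗ L` killed by the base changes of the `c i` (finitely many) lies in the `R`-span of the
  vectors `1 ⊗ l` with `c i l = 0` for all `i`.
* `ne41_pi_baseChange_eq_zero` : for a finite family `c i : L →ₗ[ℤ] L' i`, the base change of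
  `LinearMap.pi c` kills `x` as soon as every base change `(c i).baseChange R` does.
* `ne41_descend` : `R` a discrete valuation ring of characteristic zero, `Ω` a field containing
  `R`.  The same hypothesis over `Ω` gives a PRIMITIVE `x₀ ∈ R ⊗ L` (`x₀ ∉ 𝔪 • (R ⊗ L)`) which is
  an eigenvector for `χ : A →+* R`, is killed by every `c i`, and lies in the `R`-span of the
  vectors `1 ⊗ l` with `c i l = 0` for all `i`.

No extension of the discrete valuation ring is needed: `Ω` is only used as a field.
-/

set_option autoImplicit false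
set_option linter.unusedSectionVars false
set_option linter.style.haveILetI false

open scoped TensorProduct

namespace Fermat.Agent.S35

open Fermat.Agent.S30

section Coeff

variable {L : Type*} [AddCommGroup L] {L' : Type*} [AddCommGroup L']

/-- A `ℤ`-linear map of coefficient rings commutes with the base changes of a `ℤ`-linear map. -/
theorem ne41_rTensor_baseChange {S T : Type*} [CommRing S] [CommRing T] (φ : S →ₗ[ℤ] T)
    (f : L →ₗ[ℤ] L') (x : S ⊗[ℤ] L) :
    f.baseChange T (LinearMap.rTensor L φ x) = LinearMap.rTensor L' φ (f.baseChange S x) := by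
  induction x using TensorProduct.induction_on with
  | zero => simp only [map_zero]
  | tmul s l =>
    rw [LinearMap.rTensor_tmul, LinearMap.baseChange_tmul, LinearMap.baseChange_tmul,
      LinearMap.rTensor_tmul]
  | add x y hx hy => simp only [map_add, hx, hy]

/-- A `K`-linear functional of `Ω` commutes with the scalars of `K`. -/
theorem ne41_rTensor_smul {K Ω : Type*} [Field K] [Field Ω] [Algebra K Ω] (φ : Ω →ₗ[K] K)
    (k : K) (x : Ω ⊗[ℤ] L) :
    LinearMap.rTensor L (φ.restrictScalars ℤ) (algebraMap K Ω k • x) =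
      k • LinearMap.rTensor L (φ.restrictScalars ℤ) x := by
  induction x using TensorProduct.induction_on with
  | zero => simp only [smul_zero, map_zero]
  | tmul ω l =>
    rw [TensorProduct.smul_tmul', LinearMap.rTensor_tmul, LinearMap.rTensor_tmul,
      TensorProduct.smul_tmul']
    congr 1
    show φ (algebraMap K Ω k • ω) = k • φ ω
    rw [algebraMap_smul, map_smul]
  | add x y hx hy => simp only [smul_add, map_add, hx, hy]

end Coeff

section Field

variable {A : Type*} [CommRing A] {L : Type*} [AddCommGroup L] [Module.Free ℤ L]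
  {I : Type*} {L' : I → Type*} [∀ i, AddCommGroup (L' i)]

/-- The coordinates of `rTensor L φ x` are the images under `φ` of the coordinates of `x`. -/
theorem ne41_repr_rTensor {K Ω : Type*} [Field K] [Field Ω] [Algebra K Ω] (φ : Ω →ₗ[K] K)
    {ι : Type*} (b : Module.Basis ι ℤ L) (x : Ω ⊗[ℤ] L) (i : ι) :
    (Algebra.TensorProduct.basis K b).repr (LinearMap.rTensor L (φ.restrictScalars ℤ) x) i =
      φ ((Algebra.TensorProduct.basis Ω b).repr x i) := by
  induction x using TensorProduct.induction_on with
  | zero => simp only [map_zero, Finsupp.coe_zero, Pi.zero_apply]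
  | tmul ω l =>
    rw [LinearMap.rTensor_tmul, Algebra.TensorProduct.basis_repr_tmul,
      Algebra.TensorProduct.basis_repr_tmul, Finsupp.smul_apply, Finsupp.smul_apply,
      Finsupp.mapRange_apply, Finsupp.mapRange_apply]
    show φ ω • (algebraMap ℤ K) (b.repr l i) = φ (ω • (algebraMap ℤ Ω) (b.repr l i))
    rw [smul_eq_mul, smul_eq_mul, eq_intCast, eq_intCast, mul_comm ω, ← zsmul_eq_mul,
      map_zsmul, zsmul_eq_mul, mul_comm]
  | add x y hx hy => simp only [map_add, Finsupp.coe_add, Pi.add_apply, hx, hy]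

/-- **Descent along a field extension.** -/
theorem ne41_field_descend (K Ω : Type*) [Field K] [Field Ω] [Algebra K Ω]
    (act : A →+* Module.End ℤ L) (χ : A →+* K) (c : ∀ i, L →ₗ[ℤ] L' i)
    (xbar : Ω ⊗[ℤ] L) (hx0 : xbar ≠ 0)
    (hx : ∀ a, (act a).baseChange Ω xbar = algebraMap K Ω (χ a) • xbar)
    (hc : ∀ i, (c i).baseChange Ω xbar = 0) :
    ∃ v : K ⊗[ℤ] L, v ≠ 0 ∧ (∀ a, (act a).baseChange K v = χ a • v) ∧
      ∀ i, (c i).baseChange K v = 0 := by
  classical
  let b := Module.Free.chooseBasis ℤ L
  -- a nonzero coordinate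
  obtain ⟨i, hi⟩ : ∃ i, (Algebra.TensorProduct.basis Ω b).repr xbar i ≠ 0 := by
    by_contra hcon
    push Not at hcon
    apply hx0
    apply (Algebra.TensorProduct.basis Ω b).repr.injective
    rw [map_zero]
    ext i
    exact hcon i
  set ξ := (Algebra.TensorProduct.basis Ω b).repr xbar i with hξ
  -- a functional with `φ ξ = 1`
  obtain ⟨φ, hφ⟩ := LinearMap.exists_leftInverse_of_injective
    (LinearMap.toSpanSingleton K Ω ξ) (LinearMap.ker_toSpanSingleton K hi)
  have hφξ : φ ξ = 1 := by
    have h1 := LinearMap.congr_fun hφ 1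
    rw [LinearMap.comp_apply, LinearMap.toSpanSingleton_apply, one_smul] at h1
    exact h1
  refine ⟨LinearMap.rTensor L (φ.restrictScalars ℤ) xbar, ?_, ?_, ?_⟩
  · intro h0
    have h1 := ne41_repr_rTensor φ b xbar i
    rw [h0, map_zero, Finsupp.coe_zero, Pi.zero_apply, ← hξ, hφξ] at h1
    exact zero_ne_one h1
  · intro a
    rw [ne41_rTensor_baseChange, hx a, ne41_rTensor_smul]
  · intro i
    rw [ne41_rTensor_baseChange, hc i, map_zero]

end Field

section Domain

section Maps

variable {L : Type*} [AddCommGroup L] {L' : Type*} [AddCommGroup L']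

/-- `ec83_incl` intertwines the base changes of a `ℤ`-linear map `L → L'`. -/
theorem ne41_incl_baseChange (R : Type*) [CommRing R] (K : Type*) [Field K] [Algebra R K]
    (f : L →ₗ[ℤ] L') (x : R ⊗[ℤ] L) :
    ec83_incl R K L' (f.baseChange R x) = f.baseChange K (ec83_incl R K L x) := by
  induction x using TensorProduct.induction_on with
  | zero => simp only [map_zero]
  | tmul r l =>
    rw [LinearMap.baseChange_tmul, ec83_incl_tmul, ec83_incl_tmul, LinearMap.baseChange_tmul]
  | add x y hx hy => simp only [map_add, hx, hy]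

/-- `R` (a domain of characteristic zero) is flat over `ℤ`. -/
theorem ne41_flat_int (R : Type*) [CommRing R] [IsDomain R] [CharZero R] : Module.Flat ℤ R := by
  rw [Module.Flat.flat_iff_torsion_eq_bot_of_isBezout]
  rw [Submodule.eq_bot_iff]
  intro x hx
  rw [Submodule.mem_torsion_iff] at hx
  obtain ⟨a, ha⟩ := hx
  have ha0 : ((a : ℤ) : R) ≠ 0 := by
    intro h
    exact nonZeroDivisors.coe_ne_zero a (by exact_mod_cast h)
  have h1 : ((a : ℤ) : R) * x = 0 := by
    rw [← zsmul_eq_mul]
    exact ha
  rcases mul_eq_zero.mp h1 with h | h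
  · exact absurd h ha0
  · exact h

/-- The kernel of the base change of `c` to a flat coefficient ring is spanned by the vectors
`1 ⊗ l`, `l ∈ ker c`. -/
theorem ne41_ker_baseChange (R : Type*) [CommRing R] [Module.Flat ℤ R] (c : L →ₗ[ℤ] L')
    (x : R ⊗[ℤ] L) (hx : c.baseChange R x = 0) :
    x ∈ Submodule.span R ((fun l : L => (1 : R) ⊗ₜ[ℤ] l) '' {l : L | c l = 0}) := by
  have hex : Function.Exact (LinearMap.ker c).subtype c := by
    intro y
    constructor
    · intro hy
      exact ⟨⟨y, hy⟩, rfl⟩
    · rintro ⟨z, rfl⟩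
      exact z.2
  have hex' := Module.Flat.lTensor_exact R hex
  have hx' : (c.lTensor R) x = 0 := by
    have h1 := congrFun (LinearMap.baseChange_eq_ltensor (A := R) (f := c)) x
    rw [← h1]
    exact hx
  have hall : ∀ y : R ⊗[ℤ] ↥(LinearMap.ker c), ((LinearMap.ker c).subtype.lTensor R) y ∈
      Submodule.span R ((fun l : L => (1 : R) ⊗ₜ[ℤ] l) '' {l : L | c l = 0}) := by
    intro y
    induction y using TensorProduct.induction_on with
    | zero => rw [map_zero]; exact Submodule.zero_mem _
    | tmul r l =>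
      rw [LinearMap.lTensor_tmul]
      have h1 : r ⊗ₜ[ℤ] ((LinearMap.ker c).subtype l) = r • ((1 : R) ⊗ₜ[ℤ] (l : L)) := by
        rw [TensorProduct.smul_tmul', smul_eq_mul, mul_one]
        rfl
      rw [h1]
      exact Submodule.smul_mem _ _ (Submodule.subset_span ⟨(l : L), l.2, rfl⟩)
    | add y z hy hz => rw [map_add]; exact Submodule.add_mem _ hy hz
  obtain ⟨y, rfl⟩ := (hex' x).mp hx'
  exact hall y

end Maps

section Family

variable {L : Type*} [AddCommGroup L] {I : Type*} {L' : I → Type*} [∀ i, AddCommGroup (L' i)]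

/-- For a finite family `c i : L →ₗ[ℤ] L' i`, the base change of `LinearMap.pi c` kills `x` as
soon as every base change `(c i).baseChange R` does. -/
theorem ne41_pi_baseChange_eq_zero [Finite I] (R : Type*) [CommRing R]
    (c : ∀ i, L →ₗ[ℤ] L' i) (x : R ⊗[ℤ] L) (hx : ∀ i, (c i).baseChange R x = 0) :
    (LinearMap.pi c).baseChange R x = 0 := by
  classical
  haveI := Fintype.ofFinite I
  have key : ∀ (y : R ⊗[ℤ] L) (i : I),
      TensorProduct.piRightHom ℤ R R L' ((LinearMap.pi c).baseChange R y) i =
        (c i).baseChange R y := by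
    intro y i
    induction y using TensorProduct.induction_on with
    | zero => simp only [map_zero, Pi.zero_apply]
    | tmul r l =>
      rw [LinearMap.baseChange_tmul, TensorProduct.piRightHom_tmul, LinearMap.baseChange_tmul]
      rfl
    | add y z hy hz => simp only [map_add, Pi.add_apply, hy, hz]
  apply (TensorProduct.piRight ℤ R R L').injective
  rw [map_zero]
  funext i
  rw [TensorProduct.piRight_apply, key x i, hx i]
  rfl

/-- Family form of `ne41_ker_baseChange`. -/
theorem ne41_ker_baseChange_family [Finite I] (R : Type*) [CommRing R] [Module.Flat ℤ R]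
    (c : ∀ i, L →ₗ[ℤ] L' i) (x : R ⊗[ℤ] L) (hx : ∀ i, (c i).baseChange R x = 0) :
    x ∈ Submodule.span R ((fun l : L => (1 : R) ⊗ₜ[ℤ] l) '' {l : L | ∀ i, c i l = 0}) := by
  have h1 := ne41_ker_baseChange R (LinearMap.pi c) x (ne41_pi_baseChange_eq_zero R c x hx)
  have h2 : {l : L | LinearMap.pi c l = 0} = {l : L | ∀ i, c i l = 0} := by
    ext l
    constructor
    · intro h i
      exact congrFun h i
    · intro h
      funext i
      exact h i
  rwa [h2] at h1

end Family

section Descend

variable {A : Type*} [CommRing A] {L : Type*} [AddCommGroup L] [Module.Free ℤ L]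
  [Module.Finite ℤ L] {I : Type*} [Finite I] {L' : I → Type*} [∀ i, AddCommGroup (L' i)]
  [∀ i, Module.Free ℤ (L' i)]
  {R : Type*} [CommRing R] [IsDomain R] [CharZero R] [IsDiscreteValuationRing R]

/-- **Descent to a discrete valuation ring, primitive form.**  `Ω` is any field containing `R`.
A nonzero `x̄ ∈ Ω ⊗ L` which is an eigenvector for `χ : A →+* R` and is killed by every `c i`
gives a primitive `x₀ ∈ R ⊗ L` with the same properties, lying in the `R`-span of the vectors
`1 ⊗ l` with `c i l = 0` for all `i`. -/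
theorem ne41_descend (Ω : Type*) [Field Ω] [Algebra R Ω]
    (hinj : Function.Injective (algebraMap R Ω))
    (act : A →+* Module.End ℤ L) (χ : A →+* R) (c : ∀ i, L →ₗ[ℤ] L' i)
    (xbar : Ω ⊗[ℤ] L) (hx0 : xbar ≠ 0)
    (hx : ∀ a, (act a).baseChange Ω xbar = algebraMap R Ω (χ a) • xbar)
    (hc : ∀ i, (c i).baseChange Ω xbar = 0) :
    ∃ x0 : R ⊗[ℤ] L, x0 ∉ IsLocalRing.maximalIdeal R • (⊤ : Submodule R (R ⊗[ℤ] L)) ∧
      (∀ a, (act a).baseChange R x0 = χ a • x0) ∧ (∀ i, (c i).baseChange R x0 = 0) ∧
      x0 ∈ Submodule.span R ((fun l : L => (1 : R) ⊗ₜ[ℤ] l) '' {l : L | ∀ i, c i l = 0}) := by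
  classical
  -- the fraction field of `R` inside `Ω`
  let K := FractionRing R
  letI : Algebra K Ω := (IsFractionRing.lift (K := K) hinj).toAlgebra
  have hKΩ : ∀ r : R, algebraMap K Ω (algebraMap R K r) = algebraMap R Ω r := by
    intro r
    exact IsFractionRing.lift_algebraMap hinj r
  -- Step A: descend to `K`
  obtain ⟨v, hv0, hv, hvc⟩ := ne41_field_descend K Ω act ((algebraMap R K).comp χ) c xbar hx0
    (fun a => by rw [RingHom.comp_apply, hKΩ]; exact hx a) hc
  -- Step B: clear denominators
  obtain ⟨d, hd, x, hxd⟩ := ec83_clear R K v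
  have hd' : algebraMap R K d ≠ 0 := by
    intro h'
    exact hd ((IsFractionRing.injective R K) (by rw [h', map_zero]))
  have hdv : d • v ≠ 0 := by
    intro h
    rw [← algebraMap_smul K d v] at h
    exact hv0 ((smul_eq_zero_iff_right hd').mp h)
  have hx' : ec83_incl R K L x = algebraMap R K d • v := by rw [hxd, algebraMap_smul]
  have hx0' : x ≠ 0 := fun h => hdv (by rw [← hxd, h, map_zero])
  have hxe : ∀ a, (act a).baseChange R x = χ a • x := by
    intro a
    apply ec83_incl_injective R K
    rw [ec83_incl_baseChange, map_smul, hx', map_smul, hv a, RingHom.comp_apply,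
      ← algebraMap_smul K (χ a) (algebraMap R K d • v), smul_comm]
  have hxc : ∀ i, (c i).baseChange R x = 0 := by
    intro i
    apply ec83_incl_injective R K
    rw [ne41_incl_baseChange, hx', map_smul, hvc i, smul_zero, map_zero]
  -- Step C: primitive
  obtain ⟨ϖ, hϖ⟩ := IsDiscreteValuationRing.exists_irreducible R
  have hm : IsLocalRing.maximalIdeal R = Ideal.span {ϖ} := hϖ.maximalIdeal_eq
  have hmem : ∀ (k : ℕ) (y : R ⊗[ℤ] L),
      y ∈ IsLocalRing.maximalIdeal R ^ k • (⊤ : Submodule R (R ⊗[ℤ] L)) ↔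
        ∃ z : R ⊗[ℤ] L, ϖ ^ k • z = y := by
    intro k y
    rw [hm, Ideal.span_singleton_pow, Submodule.ideal_span_singleton_smul,
      Submodule.mem_smul_pointwise_iff_exists]
    constructor
    · rintro ⟨z, -, hz⟩
      exact ⟨z, hz⟩
    · rintro ⟨z, hz⟩
      exact ⟨z, Submodule.mem_top, hz⟩
  have hkrull : ∃ k : ℕ, x ∉ IsLocalRing.maximalIdeal R ^ k • (⊤ : Submodule R (R ⊗[ℤ] L)) := by
    by_contra hall
    push Not at hall
    have h1 : x ∈ ⨅ i : ℕ, IsLocalRing.maximalIdeal R ^ i • (⊤ : Submodule R (R ⊗[ℤ] L)) :=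
      (Submodule.mem_iInf _).mpr hall
    rw [Ideal.iInf_pow_smul_eq_bot_of_isLocalRing (IsLocalRing.maximalIdeal R)
      (Ideal.IsMaximal.ne_top inferInstance)] at h1
    exact hx0' h1
  have hk0 : Nat.find hkrull ≠ 0 := by
    intro h0
    have h1 := Nat.find_spec hkrull
    rw [h0, pow_zero, Ideal.one_eq_top, Submodule.top_smul] at h1
    exact h1 Submodule.mem_top
  obtain ⟨k, hk⟩ := Nat.exists_eq_succ_of_ne_zero hk0
  have hin : x ∈ IsLocalRing.maximalIdeal R ^ k • (⊤ : Submodule R (R ⊗[ℤ] L)) := by
    by_contra h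
    exact Nat.find_min hkrull (m := k) (by omega) h
  have hout : x ∉ IsLocalRing.maximalIdeal R ^ (k + 1) • (⊤ : Submodule R (R ⊗[ℤ] L)) := by
    have h1 := Nat.find_spec hkrull
    rwa [hk] at h1
  obtain ⟨y, hy⟩ := (hmem k x).mp hin
  have hϖk : ϖ ^ k ≠ 0 := pow_ne_zero k hϖ.ne_zero
  have hyc : ∀ i, (c i).baseChange R y = 0 := by
    intro i
    have h1 : ϖ ^ k • (c i).baseChange R y = 0 := by
      rw [← map_smul, hy, hxc i]
    exact (smul_eq_zero_iff_right hϖk).mp h1
  haveI : Module.Flat ℤ R := ne41_flat_int R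
  refine ⟨y, fun hymem => hout ?_, fun a => ?_, hyc, ne41_ker_baseChange_family R c y hyc⟩
  · rw [← pow_one (IsLocalRing.maximalIdeal R)] at hymem
    obtain ⟨z, hz⟩ := (hmem 1 y).mp hymem
    rw [pow_one] at hz
    refine (hmem (k + 1) x).mpr ⟨z, ?_⟩
    rw [pow_succ, mul_smul, hz, hy]
  · have h1 : ϖ ^ k • ((act a).baseChange R y - χ a • y) = 0 := by
      rw [smul_sub, ← map_smul, smul_comm, hy, hxe a, sub_self]
    exact sub_eq_zero.mp ((smul_eq_zero_iff_right hϖk).mp h1)

end Descend

end Domain

end Fermat.Agent.S35
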