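import Mathlib
import Fermat.Agent.S22
import Fermat.Agent.S41.EigenBridge67
import Fermat.Agent.S35.NewEigAbs41
import Fermat.Agent.S35.NewVec28

/-!
# S35 lab, row 557 (helper41): the marked NEW eigenvector over `O'` itself

The frozen statement S35 gives `iota` only on `chig.range = ℤ[a_ℓ(g) : ℓ ∤ M, ℓ ∉ S]`, whereas
newness (Prelude `IsNewform`) speaks about the eigenvalues at ALL primes `ℓ ∤ M`.  This file
produces the marked eigenvector `x0` over `O'` ITSELF (no extension of the discrete valuation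
ring):

* `ne41_psi` : the full eigencharacter `Ψ : heckeAlgebra M 2 S →+* ℂ` of a normalised eigenform
  `g` (any `S`; `Ψ T_ℓ = a_ℓ(g)`, `Ψ U_q = a_q(g)`), with integral values (`ne41_psi_integral`,
  from S22).
* `ne41_injective_of_integral` : a ring homomorphism from a domain which is integral over `ℤ` to
  a domain of characteristic zero is injective.
* `ne41_extend` : `A ≤ B` subrings of `ℂ`, `B` integral over `ℤ`, `iota : A →+* O` (`O` a domain
  of characteristic zero inside an algebraically closed field `Ω`): `iota` extends to an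
  INJECTIVE ring homomorphism `B →+* Ω`.
* `ne41_exists` : for the data of the frozen S35 and a finite family of `ℤ`-linear maps
  `c i : L(M) → L(M' i)` to lattices of proper divisor levels `M' i` which commute with the
  Hecke operators `hl42_TL · ℓ` at all primes `ℓ ∤ M`: there is a PRIMITIVE
  `x0 ∈ O' ⊗ L(M)` which is an eigenvector of `hl42_act M ↑S` for `iota ∘ chig`, is killed by
  every `c i`, and lies in the `O'`-span of the `1 ⊗ l` with `c i l = 0` for all `i`.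
* `ne41_exists_subgroup` : the same in the shape of `s35i62_NewClaim` (an `AddSubgroup` `K`).

Proof: `Ω := AlgebraicClosure (FractionRing O')`; an eigenvector `x̄ ∈ Ω ⊗ L(M)` for the full
character exists (`ec83_exists_field`); each `c i x̄` is an eigenvector at a proper divisor level
with the eigenvalues of `g` at all `ℓ ∤ M`, hence `0` (`nv28_newvec`); descend (`ne41_descend`).
-/

set_option autoImplicit false
set_option linter.unusedSectionVars false
set_option linter.unusedVariables false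
set_option linter.style.longLine false
set_option linter.style.haveILetI false

open CongruenceSubgroup ModularCurve ModularCurve.Period ModularFormClass
open scoped TensorProduct

namespace Fermat.Agent.S35

open Fermat.Agent.S16 Fermat.Agent.S31 Fermat.Agent.S41 Fermat.Agent.S30 Fermat.Agent.S49

/-! ### The full eigencharacter of a normalised eigenform -/

section Psi

variable {M : ℕ} [NeZero M] {g : CuspForm (Gamma0 M) 2}

/-- A normalised eigenform is an eigenvector of every element of the Hecke algebra. -/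
theorem ne41_eig (hg : g.IsNormalizedEigenform) (S : Set ℕ) (t : CuspForm.heckeAlgebra M 2 S) :
    ∃ c : ℂ, (t : Module.End ℂ (CuspForm (Gamma0 M) 2)) g = c • g := by
  obtain ⟨t, ht⟩ := t
  induction ht using Algebra.adjoin_induction with
  | mem x hx =>
    rcases hx with ⟨ℓ, hℓ, hℓN, hℓS, rfl⟩ | ⟨q, hqN, hq, hqS, rfl⟩
    · exact ⟨_, eb67_heckeT_eq hg hℓ hℓN⟩
    · exact ⟨_, eb67_heckeU_eq hg hq hqN⟩
  | algebraMap r =>
    refine ⟨(r : ℂ), ?_⟩
    show (algebraMap ℤ (Module.End ℂ (CuspForm (Gamma0 M) 2)) r) g = (r : ℂ) • g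
    rw [eq_intCast, Module.End.intCast_apply, Int.cast_smul_eq_zsmul]
  | add x y hx hy ihx ihy =>
    obtain ⟨a, ha⟩ := ihx
    obtain ⟨b, hb⟩ := ihy
    refine ⟨a + b, ?_⟩
    show (x + y) g = (a + b) • g
    rw [LinearMap.add_apply, add_smul]
    exact congrArg₂ (· + ·) ha hb
  | mul x y hx hy ihx ihy =>
    obtain ⟨a, ha⟩ := ihx
    obtain ⟨b, hb⟩ := ihy
    refine ⟨b * a, ?_⟩
    show (x * y) g = (b * a) • g
    have hb' : y g = b • g := hb
    have ha' : x g = a • g := ha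
    rw [Module.End.mul_apply, hb', map_smul, ha', smul_smul]

/-- The eigenvalue is the first `q`-coefficient. -/
theorem ne41_eig_eq (hg : g.IsNormalizedEigenform) (S : Set ℕ)
    (t : CuspForm.heckeAlgebra M 2 S) :
    (t : Module.End ℂ (CuspForm (Gamma0 M) 2)) g =
      qCoeffLin M 1 ((t : Module.End ℂ (CuspForm (Gamma0 M) 2)) g) • g := by
  obtain ⟨c, hc⟩ := ne41_eig hg S t
  have h1 : qCoeffLin M 1 ((t : Module.End ℂ (CuspForm (Gamma0 M) 2)) g) = c := by
    rw [hc, map_smul, qCoeffLin_apply, hg.qCoeff_one, smul_eq_mul, mul_one]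
  rw [h1]
  exact hc

/-- **The full eigencharacter** of a normalised eigenform on the Hecke algebra away from `S`. -/
noncomputable def ne41_psi (hg : g.IsNormalizedEigenform) (S : Set ℕ) :
    CuspForm.heckeAlgebra M 2 S →+* ℂ where
  toFun t := qCoeffLin M 1 ((t : Module.End ℂ (CuspForm (Gamma0 M) 2)) g)
  map_one' := by
    show qCoeffLin M 1 ((1 : Module.End ℂ (CuspForm (Gamma0 M) 2)) g) = 1
    rw [Module.End.one_apply, qCoeffLin_apply, hg.qCoeff_one]
  map_mul' s t := by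
    show qCoeffLin M 1 (((s : Module.End ℂ (CuspForm (Gamma0 M) 2)) *
        (t : Module.End ℂ (CuspForm (Gamma0 M) 2))) g) =
      qCoeffLin M 1 ((s : Module.End ℂ (CuspForm (Gamma0 M) 2)) g) *
        qCoeffLin M 1 ((t : Module.End ℂ (CuspForm (Gamma0 M) 2)) g)
    rw [Module.End.mul_apply]
    conv_lhs => rw [ne41_eig_eq hg S t, map_smul, map_smul, smul_eq_mul]
    rw [mul_comm]
  map_zero' := by
    show qCoeffLin M 1 ((0 : Module.End ℂ (CuspForm (Gamma0 M) 2)) g) = 0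
    rw [LinearMap.zero_apply, map_zero]
  map_add' s t := by
    show qCoeffLin M 1 (((s : Module.End ℂ (CuspForm (Gamma0 M) 2)) +
        (t : Module.End ℂ (CuspForm (Gamma0 M) 2))) g) =
      qCoeffLin M 1 ((s : Module.End ℂ (CuspForm (Gamma0 M) 2)) g) +
        qCoeffLin M 1 ((t : Module.End ℂ (CuspForm (Gamma0 M) 2)) g)
    rw [LinearMap.add_apply, map_add]

theorem ne41_psi_apply (hg : g.IsNormalizedEigenform) (S : Set ℕ)
    (t : CuspForm.heckeAlgebra M 2 S) :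
    ne41_psi hg S t = qCoeffLin M 1 ((t : Module.End ℂ (CuspForm (Gamma0 M) 2)) g) := rfl

/-- `Ψ T_ℓ = a_ℓ(g)`. -/
theorem ne41_psi_T (hg : g.IsNormalizedEigenform) (S : Set ℕ) {ℓ : ℕ} (hℓ : ℓ.Prime)
    (hℓM : ¬ ℓ ∣ M) (hℓS : ℓ ∉ S) :
    ne41_psi hg S (CuspForm.heckeAlgebra.T hℓ hℓM hℓS) = qCoeff g ℓ := by
  rw [ne41_psi_apply, CuspForm.heckeAlgebra.coe_T, eb67_heckeT_eq hg hℓ hℓM, map_smul,
    qCoeffLin_apply, hg.qCoeff_one, smul_eq_mul, mul_one]

/-- The values of the eigencharacter are algebraic integers (S22). -/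
theorem ne41_psi_integral (hg : g.IsNormalizedEigenform) (S : Set ℕ)
    (t : CuspForm.heckeAlgebra M 2 S) : IsIntegral ℤ (ne41_psi hg S t) := by
  haveI : Module.Finite ℤ (CuspForm.heckeAlgebra M 2 S) := Fermat.Agent.S22.result M 2 S
  exact map_isIntegral_int (ne41_psi hg S) (Algebra.IsIntegral.isIntegral t)

end Psi

/-! ### Extending a ring homomorphism along an integral extension -/

section Extend

/-- A ring homomorphism from a domain which is integral over `ℤ` to a domain of characteristic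
zero is injective. -/
theorem ne41_injective_of_integral {B : Type*} [CommRing B] [IsDomain B]
    (hB : ∀ b : B, IsIntegral ℤ b) {D : Type*} [CommRing D] [IsDomain D] [CharZero D]
    (f : B →+* D) : Function.Injective f := by
  rw [injective_iff_map_eq_zero]
  intro b hb
  by_contra hb0
  have hmem : b ∈ RingHom.ker f := hb
  apply Ideal.comap_ne_bot_of_integral_mem (R := ℤ) hb0 hmem (hB b)
  rw [eq_bot_iff]
  intro n hn
  rw [Ideal.mem_comap, RingHom.mem_ker, eq_intCast, map_intCast] at hn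
  rw [Ideal.mem_bot]
  exact_mod_cast hn

/-- Integrality over `ℤ` of an element of a subring of `ℂ` may be tested in `ℂ`. -/
theorem ne41_isIntegral_subring (B : Subring ℂ) (b : B) (hb : IsIntegral ℤ (b : ℂ)) :
    IsIntegral ℤ b :=
  (isIntegral_algHom_iff (B.subtype.toIntAlgHom) Subtype.val_injective).mp hb

/-- **Extension.**  `A ≤ B` subrings of `ℂ`, `B` integral over `ℤ`; `O` a domain of
characteristic zero inside an algebraically closed field `Ω`.  Every ring homomorphism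
`iota : A →+* O` extends to an injective ring homomorphism `B →+* Ω`. -/
theorem ne41_extend (A B : Subring ℂ) (hAB : A ≤ B) (hB : ∀ b : B, IsIntegral ℤ (b : ℂ))
    {O : Type*} [CommRing O] [IsDomain O] [CharZero O] (iota : A →+* O)
    (Ω : Type*) [Field Ω] [IsAlgClosed Ω] [Algebra O Ω]
    (hinj : Function.Injective (algebraMap O Ω)) :
    ∃ ι' : B →+* Ω, Function.Injective ι' ∧
      ∀ a : A, ι' ⟨(a : ℂ), hAB a.2⟩ = algebraMap O Ω (iota a) := by
  haveI : CharZero Ω := charZero_of_injective_algebraMap hinj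
  have hBint : ∀ b : B, IsIntegral ℤ b := fun b => ne41_isIntegral_subring B b (hB b)
  have hAint : ∀ a : A, IsIntegral ℤ a := fun a =>
    ne41_isIntegral_subring A a (hB ⟨(a : ℂ), hAB a.2⟩)
  have hiota : Function.Injective iota := ne41_injective_of_integral hAint iota
  letI : Algebra A B := (Subring.inclusion hAB).toAlgebra
  letI : Algebra A Ω := ((algebraMap O Ω).comp iota).toAlgebra
  haveI : Module.IsTorsionFree A B :=
    Module.isTorsionFree_iff_algebraMap_injective.mpr (Subring.inclusion_injective hAB)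
  haveI : Module.IsTorsionFree A Ω :=
    Module.isTorsionFree_iff_algebraMap_injective.mpr (hinj.comp hiota)
  haveI : Algebra.IsAlgebraic A B :=
    ⟨fun b => ((hBint b).tower_top (A := A)).isAlgebraic⟩
  let φ : B →ₐ[A] Ω := IsAlgClosed.lift
  refine ⟨φ.toRingHom, ne41_injective_of_integral hBint φ.toRingHom, fun a => ?_⟩
  exact φ.commutes a

end Extend

/-! ### The marked new eigenvector -/

section Main

variable {M : ℕ} [NeZero M] {g : CuspForm (Gamma0 M) 2}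

/-- An eigenvector of the operators `hl42_TL M ℓ` (`ℓ ∤ M`, `ℓ ∉ S`, `S` containing the primes
dividing `M`) with eigenvalues `χ T_ℓ` for a character `χ` of the Hecke algebra away from `S` is
an eigenvector of the whole Hecke algebra for `χ`. -/
theorem ne41_eigen_S (S : Set ℕ) (hMS : ∀ q : ℕ, q.Prime → q ∣ M → q ∈ S)
    {Ω : Type*} [CommRing Ω] (χ : CuspForm.heckeAlgebra M 2 S →+* Ω)
    (x : Ω ⊗[ℤ] ↥(parabolicHoms ℤ (Gamma0 M) ℤ))
    (h : ∀ (ℓ : ℕ) (hℓ : ℓ.Prime) (hℓM : ¬ ℓ ∣ M) (hℓS : ℓ ∉ S),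
      (hl42_TL M ℓ).baseChange Ω x = χ (CuspForm.heckeAlgebra.T hℓ hℓM hℓS) • x)
    (t : CuspForm.heckeAlgebra M 2 S) :
    (hl42_act M S t).baseChange Ω x = χ t • x := by
  obtain ⟨t, ht⟩ := t
  induction ht using Algebra.adjoin_induction with
  | mem y hy =>
    rcases hy with ⟨ℓ, hℓ, hℓN, hℓS, rfl⟩ | ⟨q, hqN, hq, hqS, rfl⟩
    · have h1 : (⟨CuspForm.heckeTLin 2 hℓ hℓN, Algebra.subset_adjoin
          (Or.inl ⟨ℓ, hℓ, hℓN, hℓS, rfl⟩)⟩ : CuspForm.heckeAlgebra M 2 S)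
          = CuspForm.heckeAlgebra.T hℓ hℓN hℓS := rfl
      rw [h1, hl42_act_T]
      exact h ℓ hℓ hℓN hℓS
    · exact absurd (hMS q hq hqN) hqS
  | algebraMap r =>
    have h1 : (⟨algebraMap ℤ _ r, Subalgebra.algebraMap_mem _ r⟩ : CuspForm.heckeAlgebra M 2 S)
        = algebraMap ℤ (CuspForm.heckeAlgebra M 2 S) r := rfl
    have e1 : hl42_act M S (algebraMap ℤ (CuspForm.heckeAlgebra M 2 S) r) =
        ((r : ℤ) : Module.End ℤ ↥(parabolicHoms ℤ (Gamma0 M) ℤ)) := by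
      rw [eq_intCast, map_intCast]
    have e2 : χ (algebraMap ℤ (CuspForm.heckeAlgebra M 2 S) r) = (r : Ω) := by
      rw [eq_intCast, map_intCast]
    rw [h1, e1, e2, nv28_bc_int]
  | add x₁ x₂ h₁ h₂ ih₁ ih₂ =>
    have h1 : (⟨x₁ + x₂, Subalgebra.add_mem _ h₁ h₂⟩ : CuspForm.heckeAlgebra M 2 S)
        = ⟨x₁, h₁⟩ + ⟨x₂, h₂⟩ := rfl
    rw [h1, map_add (hl42_act M S), nv28_bc_add, ih₁, ih₂, map_add χ, add_smul]
  | mul x₁ x₂ h₁ h₂ ih₁ ih₂ =>
    have h1 : (⟨x₁ * x₂, Subalgebra.mul_mem _ h₁ h₂⟩ : CuspForm.heckeAlgebra M 2 S)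
        = ⟨x₁, h₁⟩ * ⟨x₂, h₂⟩ := rfl
    rw [h1, map_mul (hl42_act M S), nv28_bc_mul, ih₂, LinearMap.map_smul, ih₁, smul_smul,
      map_mul χ, mul_comm]

/-- The values of `chig` (character away from `S`, `S` containing the primes dividing `M`) lie in
the ring of values of the full eigencharacter. -/
theorem ne41_range_le (hg : g.IsNormalizedEigenform) (S : Set ℕ)
    (chig : CuspForm.heckeAlgebra M 2 S →+* ℂ)
    (hchig : ∀ (ℓ : ℕ) (hℓ : ℓ.Prime) (hℓM : ¬ ℓ ∣ M) (hℓS : ℓ ∉ S),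
      chig (CuspForm.heckeAlgebra.T hℓ hℓM hℓS) = qCoeff g ℓ)
    (hMS : ∀ q : ℕ, q.Prime → q ∣ M → q ∈ S) :
    chig.range ≤ (ne41_psi hg (∅ : Set ℕ)).range := by
  rintro z ⟨t, rfl⟩
  obtain ⟨t, ht⟩ := t
  induction ht using Algebra.adjoin_induction with
  | mem x hx =>
    rcases hx with ⟨ℓ, hℓ, hℓN, hℓS, rfl⟩ | ⟨q, hqN, hq, hqS, rfl⟩
    · refine ⟨CuspForm.heckeAlgebra.T hℓ hℓN (Set.notMem_empty ℓ), ?_⟩
      rw [ne41_psi_T]
      exact (hchig ℓ hℓ hℓN hℓS).symm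
    · exact absurd (hMS q hq hqN) hqS
  | algebraMap r =>
    have h1 : (⟨algebraMap ℤ _ r, Subalgebra.algebraMap_mem _ r⟩ : CuspForm.heckeAlgebra M 2 S)
        = algebraMap ℤ (CuspForm.heckeAlgebra M 2 S) r := rfl
    rw [h1, eq_intCast, map_intCast]
    exact intCast_mem _ r
  | add x₁ x₂ h₁ h₂ ih₁ ih₂ =>
    have h1 : (⟨x₁ + x₂, Subalgebra.add_mem _ h₁ h₂⟩ : CuspForm.heckeAlgebra M 2 S)
        = ⟨x₁, h₁⟩ + ⟨x₂, h₂⟩ := rfl
    rw [h1, map_add]
    exact add_mem ih₁ ih₂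
  | mul x₁ x₂ h₁ h₂ ih₁ ih₂ =>
    have h1 : (⟨x₁ * x₂, Subalgebra.mul_mem _ h₁ h₂⟩ : CuspForm.heckeAlgebra M 2 S)
        = ⟨x₁, h₁⟩ * ⟨x₂, h₂⟩ := rfl
    rw [h1, map_mul]
    exact mul_mem ih₁ ih₂

/-- Auxiliary form of `ne41_exists`, relative to an algebraically closed field `Ω` containing
`O'`. -/
theorem ne41_exists_aux (hg : g.IsNewform) (S : Set ℕ)
    (O' : Type) [CommRing O'] [IsDomain O'] [IsDiscreteValuationRing O'] [CharZero O']
    (Ω : Type*) [Field Ω] [IsAlgClosed Ω] [Algebra O' Ω]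
    (hinj : Function.Injective (algebraMap O' Ω))
    (chig : CuspForm.heckeAlgebra M 2 S →+* ℂ)
    (hchig : ∀ (ℓ : ℕ) (hℓ : ℓ.Prime) (hℓM : ¬ ℓ ∣ M) (hℓS : ℓ ∉ S),
      chig (CuspForm.heckeAlgebra.T hℓ hℓM hℓS) = qCoeff g ℓ)
    (iota : chig.range →+* O')
    (hMS : ∀ q : ℕ, q.Prime → q ∣ M → q ∈ S)
    {I : Type*} [Finite I] (M' : I → ℕ) [∀ i, NeZero (M' i)]
    (hM' : ∀ i, M' i ∣ M) (hne : ∀ i, M' i ≠ M)
    (c : ∀ i, ↥(parabolicHoms ℤ (Gamma0 M) ℤ) →ₗ[ℤ] ↥(parabolicHoms ℤ (Gamma0 (M' i)) ℤ))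
    (hcomm : ∀ (i : I) (ℓ : ℕ), ℓ.Prime → ¬ ℓ ∣ M →
      ∀ x : ↥(parabolicHoms ℤ (Gamma0 M) ℤ),
        c i (hl42_TL M ℓ x) = hl42_TL (M' i) ℓ (c i x)) :
    ∃ x0 : O' ⊗[ℤ] ↥(parabolicHoms ℤ (Gamma0 M) ℤ),
      x0 ∉ IsLocalRing.maximalIdeal O' •
        (⊤ : Submodule O' (O' ⊗[ℤ] ↥(parabolicHoms ℤ (Gamma0 M) ℤ))) ∧
      (∀ t : CuspForm.heckeAlgebra M 2 S,
        (hl42_act M S t).baseChange O' x0 = (iota.comp chig.rangeRestrict) t • x0) ∧
      (∀ i, (c i).baseChange O' x0 = 0) ∧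
      x0 ∈ Submodule.span O' ((fun l : ↥(parabolicHoms ℤ (Gamma0 M) ℤ) => (1 : O') ⊗ₜ[ℤ] l) ''
        {l : ↥(parabolicHoms ℤ (Gamma0 M) ℤ) | ∀ i, c i l = 0}) := by
  classical
  have hg1 : g.IsNormalizedEigenform := hg.1
  haveI := ee42_finite M
  haveI := ee42_free M
  haveI : ∀ i, Module.Free ℤ ↥(parabolicHoms ℤ (Gamma0 (M' i)) ℤ) := fun i => ee42_free (M' i)
  -- the full eigencharacter and its ring of values
  let Ψ := ne41_psi hg1 (∅ : Set ℕ)
  let B : Subring ℂ := Ψ.range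
  have hAB : chig.range ≤ B := ne41_range_le hg1 S chig hchig hMS
  have hB : ∀ b : B, IsIntegral ℤ (b : ℂ) := by
    rintro ⟨_, t, rfl⟩
    exact ne41_psi_integral hg1 ∅ t
  obtain ⟨ι', hι'inj, hι'⟩ := ne41_extend chig.range B hAB hB iota Ω hinj
  haveI : CharZero Ω := charZero_of_injective_algebraMap hinj
  -- the eigenvector over `Ω` for the full character
  obtain ⟨xbar, hxbar0, hxbar⟩ := ec83_exists_field Ω (hl42_act M (∅ : Set ℕ))
    (hl42_act_injective M ∅) (ι'.comp Ψ.rangeRestrict)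
  -- the eigenvalues
  let cf : ℕ → B := fun ℓ =>
    if h : ℓ.Prime ∧ ¬ ℓ ∣ M then
      Ψ.rangeRestrict (CuspForm.heckeAlgebra.T h.1 h.2 (Set.notMem_empty ℓ))
    else 0
  have hcf : ∀ ℓ : ℕ, ℓ.Prime → ¬ ℓ ∣ M → B.subtype (cf ℓ) = qCoeff g ℓ := by
    intro ℓ hℓ hℓM
    show ((cf ℓ : B) : ℂ) = qCoeff g ℓ
    simp only [cf]
    rw [dif_pos ⟨hℓ, hℓM⟩]
    exact ne41_psi_T hg1 ∅ hℓ hℓM (Set.notMem_empty ℓ)
  have hTL : ∀ ℓ : ℕ, ℓ.Prime → ¬ ℓ ∣ M →
      (hl42_TL M ℓ).baseChange Ω xbar = ι' (cf ℓ) • xbar := by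
    intro ℓ hℓ hℓM
    have h1 := hxbar (CuspForm.heckeAlgebra.T hℓ hℓM (Set.notMem_empty ℓ))
    rw [hl42_act_T] at h1
    rw [h1, RingHom.comp_apply]
    simp only [cf]
    rw [dif_pos ⟨hℓ, hℓM⟩]
  -- newness: the cores kill `xbar`
  have hcores : ∀ i, (c i).baseChange Ω xbar = 0 := by
    intro i
    refine nv28_newvec hg (M' i) (hM' i) (hne i) B.subtype ι'
      (fun r hr => by rw [(injective_iff_map_eq_zero ι').mp hι'inj r hr, map_zero]) cf hcf _ ?_
    intro ℓ hℓ hℓM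
    have hcomp : (hl42_TL (M' i) ℓ) ∘ₗ (c i) = (c i) ∘ₗ (hl42_TL M ℓ) := by
      apply LinearMap.ext
      intro x
      exact (hcomm i ℓ hℓ hℓM x).symm
    have h1 : (hl42_TL (M' i) ℓ).baseChange Ω ((c i).baseChange Ω xbar) =
        ((hl42_TL (M' i) ℓ) ∘ₗ (c i)).baseChange Ω xbar := by
      rw [LinearMap.baseChange_comp, LinearMap.comp_apply]
    rw [h1, hcomp, LinearMap.baseChange_comp, LinearMap.comp_apply, hTL ℓ hℓ hℓM, map_smul]
  -- the character away from `S`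
  have hS : ∀ t : CuspForm.heckeAlgebra M 2 S, (hl42_act M S t).baseChange Ω xbar =
      algebraMap O' Ω ((iota.comp chig.rangeRestrict) t) • xbar := by
    intro t
    refine ne41_eigen_S S hMS ((algebraMap O' Ω).comp (iota.comp chig.rangeRestrict)) xbar ?_ t
    intro ℓ hℓ hℓN hℓS
    have h2 : ι' (cf ℓ) = ((algebraMap O' Ω).comp (iota.comp chig.rangeRestrict))
        (CuspForm.heckeAlgebra.T hℓ hℓN hℓS) := by
      rw [RingHom.comp_apply, RingHom.comp_apply,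
        ← hι' (chig.rangeRestrict (CuspForm.heckeAlgebra.T hℓ hℓN hℓS))]
      congr 1
      apply Subtype.ext
      show ((cf ℓ : B) : ℂ) = chig (CuspForm.heckeAlgebra.T hℓ hℓN hℓS)
      rw [hchig ℓ hℓ hℓN hℓS]
      exact hcf ℓ hℓ hℓN
    rw [hTL ℓ hℓ hℓN, h2]
  exact ne41_descend Ω hinj (hl42_act M S) (iota.comp chig.rangeRestrict) c xbar hxbar0 hS hcores

/-- **Row 557: the marked new eigenvector over `O'` itself.**

`g` a newform of level `M`; `S`, `O'`, `chig`, `iota` as in the frozen statement S35; `c i` a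
finite family of `ℤ`-linear maps from the lattice `L(M)` to the lattices `L(M' i)` of proper
divisor levels, commuting with the Hecke operators at all primes `ℓ ∤ M`.  Then there is a
primitive eigenvector `x0 ∈ O' ⊗ L(M)` for `iota ∘ chig` which is killed by every `c i` and lies
in the `O'`-span of the vectors `1 ⊗ l`, `l` in the common kernel of the `c i`. -/
theorem ne41_exists (hg : g.IsNewform) (S : Set ℕ)
    (O' : Type) [CommRing O'] [IsDomain O'] [IsDiscreteValuationRing O'] [CharZero O']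
    (chig : CuspForm.heckeAlgebra M 2 S →+* ℂ)
    (hchig : ∀ (ℓ : ℕ) (hℓ : ℓ.Prime) (hℓM : ¬ ℓ ∣ M) (hℓS : ℓ ∉ S),
      chig (CuspForm.heckeAlgebra.T hℓ hℓM hℓS) = qCoeff g ℓ)
    (iota : chig.range →+* O')
    (hMS : ∀ q : ℕ, q.Prime → q ∣ M → q ∈ S)
    {I : Type*} [Finite I] (M' : I → ℕ) [∀ i, NeZero (M' i)]
    (hM' : ∀ i, M' i ∣ M) (hne : ∀ i, M' i ≠ M)
    (c : ∀ i, ↥(parabolicHoms ℤ (Gamma0 M) ℤ) →ₗ[ℤ] ↥(parabolicHoms ℤ (Gamma0 (M' i)) ℤ))
    (hcomm : ∀ (i : I) (ℓ : ℕ), ℓ.Prime → ¬ ℓ ∣ M →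
      ∀ x : ↥(parabolicHoms ℤ (Gamma0 M) ℤ),
        c i (hl42_TL M ℓ x) = hl42_TL (M' i) ℓ (c i x)) :
    ∃ x0 : O' ⊗[ℤ] ↥(parabolicHoms ℤ (Gamma0 M) ℤ),
      x0 ∉ IsLocalRing.maximalIdeal O' •
        (⊤ : Submodule O' (O' ⊗[ℤ] ↥(parabolicHoms ℤ (Gamma0 M) ℤ))) ∧
      (∀ t : CuspForm.heckeAlgebra M 2 S,
        (hl42_act M S t).baseChange O' x0 = (iota.comp chig.rangeRestrict) t • x0) ∧
      (∀ i, (c i).baseChange O' x0 = 0) ∧
      x0 ∈ Submodule.span O' ((fun l : ↥(parabolicHoms ℤ (Gamma0 M) ℤ) => (1 : O') ⊗ₜ[ℤ] l) ''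
        {l : ↥(parabolicHoms ℤ (Gamma0 M) ℤ) | ∀ i, c i l = 0}) := by
  have hinj : Function.Injective (algebraMap O' (AlgebraicClosure (FractionRing O'))) := by
    rw [IsScalarTower.algebraMap_eq O' (FractionRing O') (AlgebraicClosure (FractionRing O'))]
    exact (algebraMap (FractionRing O') (AlgebraicClosure (FractionRing O'))).injective.comp
      (IsFractionRing.injective O' (FractionRing O'))
  exact ne41_exists_aux hg S O' (AlgebraicClosure (FractionRing O')) hinj chig hchig iota hMS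
    M' hM' hne c hcomm

/-- The same in the shape of `s35i62_NewClaim`: an additive subgroup `K` of the lattice with
`x0 ∈ span (1 ⊗ K)`, every element of which is killed by every `c i`. -/
theorem ne41_exists_subgroup (hg : g.IsNewform) (S : Set ℕ)
    (O' : Type) [CommRing O'] [IsDomain O'] [IsDiscreteValuationRing O'] [CharZero O']
    (chig : CuspForm.heckeAlgebra M 2 S →+* ℂ)
    (hchig : ∀ (ℓ : ℕ) (hℓ : ℓ.Prime) (hℓM : ¬ ℓ ∣ M) (hℓS : ℓ ∉ S),
      chig (CuspForm.heckeAlgebra.T hℓ hℓM hℓS) = qCoeff g ℓ)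
    (iota : chig.range →+* O')
    (hMS : ∀ q : ℕ, q.Prime → q ∣ M → q ∈ S)
    {I : Type*} [Finite I] (M' : I → ℕ) [∀ i, NeZero (M' i)]
    (hM' : ∀ i, M' i ∣ M) (hne : ∀ i, M' i ≠ M)
    (c : ∀ i, ↥(parabolicHoms ℤ (Gamma0 M) ℤ) →+ ↥(parabolicHoms ℤ (Gamma0 (M' i)) ℤ))
    (hcomm : ∀ (i : I) (ℓ : ℕ), ℓ.Prime → ¬ ℓ ∣ M →
      ∀ x : ↥(parabolicHoms ℤ (Gamma0 M) ℤ),
        c i (hl42_TL M ℓ x) = hl42_TL (M' i) ℓ (c i x)) :
    ∃ (x0 : O' ⊗[ℤ] ↥(parabolicHoms ℤ (Gamma0 M) ℤ))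
      (K : AddSubgroup ↥(parabolicHoms ℤ (Gamma0 M) ℤ)),
      x0 ∉ IsLocalRing.maximalIdeal O' •
        (⊤ : Submodule O' (O' ⊗[ℤ] ↥(parabolicHoms ℤ (Gamma0 M) ℤ))) ∧
      (∀ t : CuspForm.heckeAlgebra M 2 S,
        (hl42_act M S t).baseChange O' x0 = (iota.comp chig.rangeRestrict) t • x0) ∧
      x0 ∈ Submodule.span O' ((fun k : ↥(parabolicHoms ℤ (Gamma0 M) ℤ) => (1 : O') ⊗ₜ[ℤ] k) ''
        (K : Set ↥(parabolicHoms ℤ (Gamma0 M) ℤ))) ∧
      ∀ k ∈ K, ∀ i, c i k = 0 := by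
  obtain ⟨x0, hx0, hx0e, -, hx0s⟩ := ne41_exists hg S O' chig hchig iota hMS M' hM' hne
    (fun i => (c i).toIntLinearMap) (fun i ℓ hℓ hℓM x => hcomm i ℓ hℓ hℓM x)
  refine ⟨x0, ⨅ i, (c i).ker, hx0, hx0e, ?_, ?_⟩
  · have hset : {l : ↥(parabolicHoms ℤ (Gamma0 M) ℤ) | ∀ i, (c i).toIntLinearMap l = 0} =
        ((⨅ i, (c i).ker : AddSubgroup ↥(parabolicHoms ℤ (Gamma0 M) ℤ)) :
          Set ↥(parabolicHoms ℤ (Gamma0 M) ℤ)) := by
      ext l
      simp only [Set.mem_ofPred_eq, SetLike.mem_coe, AddSubgroup.mem_iInf, AddMonoidHom.mem_ker]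
      rfl
    rw [← hset]
    exact hx0s
  · intro k hk i
    exact AddMonoidHom.mem_ker.mp ((AddSubgroup.mem_iInf.mp hk) i)

end Main

end Fermat.Agent.S35
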