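/-
S35 lab, registry row 557 (N5-NewEigenvector), the concrete existence WITHOUT any extension of
`O'` and without any auxiliary algebraically closed field (helper42).

Data of the frozen statement S35: `g` a NEWFORM of level `M`, `S` a set of primes containing the
primes dividing `M`, `chig : heckeAlgebra M 2 S →+* ℂ` the eigencharacter of `g`,
`iota : chig.range →+* O'`, `O'` a discrete valuation ring of characteristic zero.
`c i : L(M) →ₗ[ℤ] L(M' i)` a finite family of "corestrictions" to the lattices of PROPER divisors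
`M' i` of `M`, commuting with the Hecke operators `T_ℓ` for all primes `ℓ ∤ M`
(`L(N) = parabolicHoms ℤ (Gamma0 N) ℤ`).

`ne42_exists` : there is a PRIMITIVE vector `x0 ∈ O' ⊗ L(M)` which is an eigenvector of the Hecke
algebra with character `iota ∘ chig`, is killed by every `c i`, and lies in the `O'`-span of the
pure tensors `1 ⊗ k`, `k` in the common kernel of the `c i`.

Proof.  (1) The period homomorphism of `g` is a nonzero parabolic homomorphism, eigenvector of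
ALL Hecke operators (`eb67_periodMap_eigen`); it comes from a vector `v ≠ 0` of `ℂ ⊗ L(M)`
(`hl42_span`, `nl42_Theta_injective`): `ne42_complex_eigen`.
(2) Every `c i` kills `v` (lattice newness over `ℂ`, `nl42_newform_kills`): `ne42_complex_kills`.
(3) `Lnew := ⋂ ker (c i)` is stable under the Hecke algebra, `v ∈ ℂ ⊗ Lnew`, hence the character
`chig` (and `iota ∘ chig`) factors through the faithful Hecke ring of the lattice `Lnew`.
(4) `ec83_exists_field` on `Lnew` over `K = Frac O'`, pushed to `K ⊗ L(M)`.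
(5) `ne34_descend` (helper34, `NewEigAbs34`) with `Ω := K`.
-/
import Mathlib
import Fermat.Agent.S35.NewLattice42
import Fermat.Agent.S35.NewEigAbs34

set_option autoImplicit false
set_option linter.unusedSectionVars false
set_option linter.unusedVariables false
set_option linter.style.longLine false

open CongruenceSubgroup ModularCurve ModularCurve.Period
open scoped TensorProduct

namespace Fermat.Agent.S35

open Fermat.Agent.S16 Fermat.Agent.S31 Fermat.Agent.S41 Fermat.Agent.S30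

/-- Base change of a commutation relation. -/
theorem ne42_baseChange_comm (O : Type*) [CommRing O] {L₁ L₂ : Type*} [AddCommGroup L₁]
    [AddCommGroup L₂] (c : L₁ →ₗ[ℤ] L₂) (T₁ : Module.End ℤ L₁) (T₂ : Module.End ℤ L₂)
    (h : ∀ k, c (T₁ k) = T₂ (c k)) (x : O ⊗[ℤ] L₁) :
    c.baseChange O (T₁.baseChange O x) = T₂.baseChange O (c.baseChange O x) := by
  have h1 : c ∘ₗ T₁ = T₂ ∘ₗ c := LinearMap.ext h
  have h2 := congrArg (fun f => (LinearMap.baseChange O f) x) h1
  simpa only [LinearMap.baseChange_comp, LinearMap.comp_apply] using h2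

section Abstract

variable {A : Type*} [CommRing A] {L : Type*} [AddCommGroup L]

/-- The restriction of a ring action on `L` to a stable submodule. -/
noncomputable def ne42_restrict (act : A →+* Module.End ℤ L) (Lnew : Submodule ℤ L)
    (hst : ∀ a, ∀ k ∈ Lnew, act a k ∈ Lnew) : A →+* Module.End ℤ ↥Lnew where
  toFun a := (act a).restrict (hst a)
  map_one' := by
    refine LinearMap.ext fun k => Subtype.ext ?_
    rw [LinearMap.coe_restrict_apply, map_one]
    rfl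
  map_mul' a b := by
    refine LinearMap.ext fun k => Subtype.ext ?_
    rw [LinearMap.coe_restrict_apply, map_mul]
    rfl
  map_zero' := by
    refine LinearMap.ext fun k => Subtype.ext ?_
    rw [LinearMap.coe_restrict_apply, map_zero]
    rfl
  map_add' a b := by
    refine LinearMap.ext fun k => Subtype.ext ?_
    rw [LinearMap.coe_restrict_apply, map_add]
    rfl

theorem ne42_restrict_coe (act : A →+* Module.End ℤ L) (Lnew : Submodule ℤ L)
    (hst : ∀ a, ∀ k ∈ Lnew, act a k ∈ Lnew) (a : A) (k : ↥Lnew) :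
    ((ne42_restrict act Lnew hst a k : ↥Lnew) : L) = act a (k : L) := rfl

variable [Module.Free ℤ L] [Module.Finite ℤ L]

/-- Auxiliary form of `ne42_exists_abstract` with a named fraction field. -/
theorem ne42_exists_abstract_aux {R : Type*} [CommRing R] [IsDomain R]
    [IsDiscreteValuationRing R] [CharZero R] (K : Type*) [Field K] [Algebra R K]
    [IsFractionRing R K] {ι : Type*} [Finite ι] {L' : ι → Type*} [∀ i, AddCommGroup (L' i)]
    [∀ i, Module.Free ℤ (L' i)]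
    (act : A →+* Module.End ℤ L) (χ : A →+* R) (c : ∀ i, L →ₗ[ℤ] L' i)
    (hst : ∀ (a : A) (k : L), (∀ i, c i k = 0) → ∀ i, c i (act a k) = 0)
    (hker : ∀ a : A, (∀ k : L, (∀ i, c i k = 0) → act a k = 0) → χ a = 0) :
    ∃ x0 : R ⊗[ℤ] L, x0 ∉ IsLocalRing.maximalIdeal R • (⊤ : Submodule R (R ⊗[ℤ] L)) ∧
      (∀ a, (act a).baseChange R x0 = χ a • x0) ∧ (∀ i, (c i).baseChange R x0 = 0) ∧
      x0 ∈ Submodule.span R ((fun l : L => (1 : R) ⊗ₜ[ℤ] l) '' {l | ∀ i, c i l = 0}) := by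
  classical
  have : CharZero K := charZero_of_injective_algebraMap (IsFractionRing.injective R K)
  -- the new sublattice
  let Lnew : Submodule ℤ L := ⨅ i, LinearMap.ker (c i)
  have hLnew : ∀ k, k ∈ Lnew ↔ ∀ i, c i k = 0 := by
    intro k
    simp only [Lnew, Submodule.mem_iInf, LinearMap.mem_ker]
  have hst' : ∀ a, ∀ k ∈ Lnew, act a k ∈ Lnew := fun a k hk =>
    (hLnew _).2 (hst a k ((hLnew k).1 hk))
  -- the ring acting on `Lnew`
  let actN : A →+* Module.End ℤ ↥Lnew := ne42_restrict act Lnew hst'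
  have hχI : ∀ a ∈ RingHom.ker actN, ((algebraMap R K).comp χ) a = 0 := by
    intro a ha
    have h1 : actN a = 0 := (RingHom.mem_ker).1 ha
    have h2 : χ a = 0 := hker a fun k hk => by
      have h3 := ne42_restrict_coe act Lnew hst' a ⟨k, (hLnew k).2 hk⟩
      have h4 : ne42_restrict act Lnew hst' a = 0 := h1
      rw [h4] at h3
      exact h3.symm
    show algebraMap R K (χ a) = 0
    rw [h2, map_zero]
  -- the eigenvector over the fraction field, first in `K ⊗ Lnew`, then in `K ⊗ L`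
  obtain ⟨xb', hxb'0, hxb'⟩ := ec83_exists_field K (RingHom.kerLift actN)
    (RingHom.kerLift_injective actN)
    (Ideal.Quotient.lift (RingHom.ker actN) ((algebraMap R K).comp χ) hχI)
  have hinj : Function.Injective (Lnew.subtype.baseChange K) := by
    rw [LinearMap.baseChange_eq_ltensor]
    exact Module.Flat.lTensor_preserves_injective_linearMap (M := K) Lnew.subtype
      Lnew.injective_subtype
  have hxb0 : Lnew.subtype.baseChange K xb' ≠ 0 := fun h0 =>
    hxb'0 (hinj (by rw [h0, map_zero]))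
  have heig : ∀ a : A, (act a).baseChange K (Lnew.subtype.baseChange K xb') =
      algebraMap R K (χ a) • Lnew.subtype.baseChange K xb' := by
    intro a
    have h1 : (act a) ∘ₗ Lnew.subtype = Lnew.subtype ∘ₗ (actN a) :=
      LinearMap.ext fun k => (ne42_restrict_coe act Lnew hst' a k).symm
    have h2 := congrArg (fun f => (LinearMap.baseChange K f) xb') h1
    simp only [LinearMap.baseChange_comp, LinearMap.comp_apply] at h2
    have h3 := hxb' (Ideal.Quotient.mk (RingHom.ker actN) a)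
    rw [RingHom.kerLift_mk, Ideal.Quotient.lift_mk] at h3
    rw [h2, h3, map_smul]
    rfl
  have hcx : ∀ i, (c i).baseChange K (Lnew.subtype.baseChange K xb') = 0 := by
    intro i
    have h1 : (c i) ∘ₗ Lnew.subtype = 0 := LinearMap.ext fun k => (hLnew k).1 k.2 i
    have h2 := congrArg (fun f => (LinearMap.baseChange K f) xb') h1
    simp only [LinearMap.baseChange_comp, LinearMap.comp_apply, LinearMap.baseChange_zero,
      LinearMap.zero_apply] at h2
    exact h2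
  -- descent to `R`
  exact ne34_descend (R := R) (Ω := K) (IsFractionRing.injective R K) act χ c
    (Lnew.subtype.baseChange K xb') hxb0 heig hcx

/-- **Abstract form.**  `L` a finite free `ℤ`-module with an action `act` of a commutative ring
`A`, `c i : L → L' i` a finite family of `ℤ`-linear maps whose common kernel `Lnew` is stable
under `A`, `R` a discrete valuation ring of characteristic zero and `χ : A →+* R` a character
which vanishes on every `a` acting as zero on `Lnew`.  Then there is a PRIMITIVE `χ`-eigenvector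
in `R ⊗ L` killed by all the `c i` (and lying in the `R`-span of `1 ⊗ Lnew`). -/
theorem ne42_exists_abstract {R : Type*} [CommRing R] [IsDomain R] [IsDiscreteValuationRing R]
    [CharZero R] {ι : Type*} [Finite ι] {L' : ι → Type*} [∀ i, AddCommGroup (L' i)]
    [∀ i, Module.Free ℤ (L' i)]
    (act : A →+* Module.End ℤ L) (χ : A →+* R) (c : ∀ i, L →ₗ[ℤ] L' i)
    (hst : ∀ (a : A) (k : L), (∀ i, c i k = 0) → ∀ i, c i (act a k) = 0)
    (hker : ∀ a : A, (∀ k : L, (∀ i, c i k = 0) → act a k = 0) → χ a = 0) :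
    ∃ x0 : R ⊗[ℤ] L, x0 ∉ IsLocalRing.maximalIdeal R • (⊤ : Submodule R (R ⊗[ℤ] L)) ∧
      (∀ a, (act a).baseChange R x0 = χ a • x0) ∧ (∀ i, (c i).baseChange R x0 = 0) ∧
      x0 ∈ Submodule.span R ((fun l : L => (1 : R) ⊗ₜ[ℤ] l) '' {l | ∀ i, c i l = 0}) :=
  ne42_exists_abstract_aux (FractionRing R) act χ c hst hker

end Abstract

section Hecke

variable (M : ℕ) [NeZero M] (S : Set ℕ)

set_option maxHeartbeats 1600000 in
/-- A submodule of the lattice stable under the `T_ℓ`, `ℓ ∤ M`, is stable under the Hecke algebra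
`heckeAlgebra M 2 S` (`S` containing the primes dividing `M`). -/
theorem ne42_hecke_stable (hMS : ∀ q : ℕ, q.Prime → q ∣ M → q ∈ S)
    (Lnew : Submodule ℤ ↥(parabolicHoms ℤ (Gamma0 M) ℤ))
    (hst : ∀ ℓ : ℕ, ℓ.Prime → ¬ ℓ ∣ M → ∀ k ∈ Lnew, hl42_TL M ℓ k ∈ Lnew)
    (t : CuspForm.heckeAlgebra M 2 S) : ∀ k ∈ Lnew, hl42_act M S t k ∈ Lnew := by
  obtain ⟨x, hx⟩ := t
  refine Algebra.adjoin_induction
    (p := fun x hx => ∀ k ∈ Lnew, hl42_act M S ⟨x, hx⟩ k ∈ Lnew) ?_ ?_ ?_ ?_ hx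
  · rintro x (⟨ℓ, hℓ, hℓN, hℓS, rfl⟩ | ⟨q, hqN, hq, hqS, rfl⟩)
    · have h2 : (hl42_act M S ⟨CuspForm.heckeTLin 2 hℓ hℓN,
          Algebra.subset_adjoin (Or.inl ⟨ℓ, hℓ, hℓN, hℓS, rfl⟩)⟩) = hl42_TL M ℓ :=
        hl42_act_T M S hℓ hℓN hℓS
      rw [h2]
      exact hst ℓ hℓ hℓN
    · exact absurd (hMS q hq hqN) hqS
  · intro n k hk
    have h1 : (⟨algebraMap ℤ _ n, Subalgebra.algebraMap_mem _ n⟩ :
        CuspForm.heckeAlgebra M 2 S) = ((n : ℤ) : CuspForm.heckeAlgebra M 2 S) := by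
      apply Subtype.ext
      simp
    have h2 : ((n : ℤ) : Module.End ℤ ↥(parabolicHoms ℤ (Gamma0 M) ℤ)) = n • 1 := by
      simp
    rw [h1, map_intCast, h2, LinearMap.smul_apply, Module.End.one_apply]
    exact Lnew.smul_mem n hk
  · intro a b ha hb ha1 hb1 k hk
    have h1 : hl42_act M S ⟨a + b, add_mem ha hb⟩ =
        hl42_act M S ⟨a, ha⟩ + hl42_act M S ⟨b, hb⟩ := map_add (hl42_act M S) ⟨a, ha⟩ ⟨b, hb⟩
    rw [h1, LinearMap.add_apply]
    exact Lnew.add_mem (ha1 k hk) (hb1 k hk)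
  · intro a b ha hb ha1 hb1 k hk
    have h1 : hl42_act M S ⟨a * b, mul_mem ha hb⟩ =
        hl42_act M S ⟨a, ha⟩ * hl42_act M S ⟨b, hb⟩ := map_mul (hl42_act M S) ⟨a, ha⟩ ⟨b, hb⟩
    rw [h1, Module.End.mul_apply]
    exact ha1 _ (hb1 k hk)

set_option maxHeartbeats 1600000 in
/-- An eigenvector of the `T_ℓ`, `ℓ ∤ M`, with eigenvalues `χ (T_ℓ)` is an eigenvector of the
whole Hecke algebra with character `χ`. -/
theorem ne42_hecke_eigen (hMS : ∀ q : ℕ, q.Prime → q ∣ M → q ∈ S)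
    {O : Type*} [CommRing O] (χ : CuspForm.heckeAlgebra M 2 S →+* O)
    (y : O ⊗[ℤ] ↥(parabolicHoms ℤ (Gamma0 M) ℤ))
    (hy : ∀ (ℓ : ℕ) (hℓ : ℓ.Prime) (hℓM : ¬ ℓ ∣ M) (hℓS : ℓ ∉ S),
      (hl42_TL M ℓ).baseChange O y = χ (CuspForm.heckeAlgebra.T hℓ hℓM hℓS) • y)
    (t : CuspForm.heckeAlgebra M 2 S) : (hl42_act M S t).baseChange O y = χ t • y := by
  obtain ⟨x, hx⟩ := t
  refine Algebra.adjoin_induction
    (p := fun x hx => (hl42_act M S ⟨x, hx⟩).baseChange O y = χ ⟨x, hx⟩ • y) ?_ ?_ ?_ ?_ hx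
  · rintro x (⟨ℓ, hℓ, hℓN, hℓS, rfl⟩ | ⟨q, hqN, hq, hqS, rfl⟩)
    · have h2 : (hl42_act M S ⟨CuspForm.heckeTLin 2 hℓ hℓN,
          Algebra.subset_adjoin (Or.inl ⟨ℓ, hℓ, hℓN, hℓS, rfl⟩)⟩) = hl42_TL M ℓ :=
        hl42_act_T M S hℓ hℓN hℓS
      rw [h2]
      exact hy ℓ hℓ hℓN hℓS
    · exact absurd (hMS q hq hqN) hqS
  · intro n
    have h1 : (⟨algebraMap ℤ _ n, Subalgebra.algebraMap_mem _ n⟩ :
        CuspForm.heckeAlgebra M 2 S) = ((n : ℤ) : CuspForm.heckeAlgebra M 2 S) := by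
      apply Subtype.ext
      simp
    rw [h1, map_intCast, map_intCast]
    have h2 : ((n : ℤ) : Module.End ℤ ↥(parabolicHoms ℤ (Gamma0 M) ℤ)) = n • 1 := by
      simp
    rw [h2, LinearMap.baseChange_smul, LinearMap.baseChange_one, LinearMap.smul_apply,
      Module.End.one_apply, Int.cast_smul_eq_zsmul]
  · intro a b ha hb hca hcb
    have h1 : hl42_act M S ⟨a + b, add_mem ha hb⟩ =
        hl42_act M S ⟨a, ha⟩ + hl42_act M S ⟨b, hb⟩ := map_add (hl42_act M S) ⟨a, ha⟩ ⟨b, hb⟩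
    have h2 : χ ⟨a + b, add_mem ha hb⟩ = χ ⟨a, ha⟩ + χ ⟨b, hb⟩ := map_add χ ⟨a, ha⟩ ⟨b, hb⟩
    rw [h1, h2, LinearMap.baseChange_add, LinearMap.add_apply, hca, hcb, add_smul]
  · intro a b ha hb hca hcb
    have h1 : hl42_act M S ⟨a * b, mul_mem ha hb⟩ =
        hl42_act M S ⟨a, ha⟩ * hl42_act M S ⟨b, hb⟩ := map_mul (hl42_act M S) ⟨a, ha⟩ ⟨b, hb⟩
    have h2 : χ ⟨a * b, mul_mem ha hb⟩ = χ ⟨a, ha⟩ * χ ⟨b, hb⟩ := map_mul χ ⟨a, ha⟩ ⟨b, hb⟩
    rw [h1, h2, LinearMap.baseChange_mul, Module.End.mul_apply, hcb, map_smul, hca,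
      smul_smul, mul_comm]

end Hecke

section Complex

variable (M : ℕ) [NeZero M]

/-- **The complex eigenvector of a normalised eigenform**: a nonzero vector of
`ℂ ⊗[ℤ] Hom_par(Γ₀(M), ℤ)` which is an eigenvector of `T_ℓ` with eigenvalue `a_ℓ(g)` for EVERY
prime `ℓ`. -/
theorem ne42_complex_eigen {g : CuspForm (Gamma0 M) 2} (hg : g.IsNormalizedEigenform) :
    ∃ v : ℂ ⊗[ℤ] ↥(parabolicHoms ℤ (Gamma0 M) ℤ), v ≠ 0 ∧
      ∀ ℓ : ℕ, ℓ.Prime →
        (hl42_TL M ℓ).baseChange ℂ v = ModularFormClass.qCoeff g ℓ • v := by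
  obtain ⟨hmem, hne, heig⟩ := eb67_periodMap_eigen M hg
  obtain ⟨n, c, ψ, hv⟩ := hl42_span M (periodMap M g) hmem
  have hΘ : nl42_Theta M (∑ k, c k ⊗ₜ[ℤ] ψ k) = periodMap M g := by
    rw [map_sum, hv]
    exact Finset.sum_congr rfl fun k _ => nl42_Theta_tmul M (c k) (ψ k)
  refine ⟨∑ k, c k ⊗ₜ[ℤ] ψ k, fun h0 => hne ?_, fun ℓ hℓ => ?_⟩
  · rw [← hΘ, h0, map_zero]
  · apply nl42_Theta_injective M
    rw [← nl42_Theta_hecke, hΘ, heig ℓ hℓ, map_smul, hΘ]

/-- **Newness over `ℂ`**: a map `c : L(M) → L(M')` to the lattice of a proper divisor `M'` of `M`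
which commutes with the `T_ℓ`, `ℓ ∤ M`, kills every vector of `ℂ ⊗ L(M)` with the eigenvalues of
a newform `g` of level `M`. -/
theorem ne42_complex_kills {g : CuspForm (Gamma0 M) 2} (hg : g.IsNewform)
    (M' : ℕ) [NeZero M'] (hM' : M' ∣ M) (hne : M' ≠ M)
    (c : ↥(parabolicHoms ℤ (Gamma0 M) ℤ) →ₗ[ℤ] ↥(parabolicHoms ℤ (Gamma0 M') ℤ))
    (hcomm : ∀ ℓ : ℕ, ℓ.Prime → ¬ ℓ ∣ M → ∀ k, c (hl42_TL M ℓ k) = hl42_TL M' ℓ (c k))
    (v : ℂ ⊗[ℤ] ↥(parabolicHoms ℤ (Gamma0 M) ℤ))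
    (hv : ∀ ℓ : ℕ, ℓ.Prime → ¬ ℓ ∣ M →
      (hl42_TL M ℓ).baseChange ℂ v = ModularFormClass.qCoeff g ℓ • v) :
    c.baseChange ℂ v = 0 := by
  refine nl42_newform_kills M' hM' hne hg (RingHom.id ℂ) Function.injective_id (RingHom.id ℂ)
    (fun ℓ => ModularFormClass.qCoeff g ℓ) (fun _ _ _ => rfl) _ (fun ℓ hℓ hℓM => ?_)
  rw [← ne42_baseChange_comm ℂ c (hl42_TL M ℓ) (hl42_TL M' ℓ) (hcomm ℓ hℓ hℓM) v,
    hv ℓ hℓ hℓM, map_smul]
  rfl

end Complex

section Main

variable {M : ℕ} [NeZero M]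

/-- **N5: the marked NEW eigenvector over `O'` itself.** -/
theorem ne42_exists {g : CuspForm (Gamma0 M) 2} (hg : g.IsNewform)
    (S : Set ℕ) (hMS : ∀ q : ℕ, q.Prime → q ∣ M → q ∈ S)
    {O' : Type*} [CommRing O'] [IsDomain O'] [IsDiscreteValuationRing O'] [CharZero O']
    (chig : CuspForm.heckeAlgebra M 2 S →+* ℂ)
    (hchig : ∀ (ℓ : ℕ) (hℓ : ℓ.Prime) (hℓM : ¬ ℓ ∣ M) (hℓS : ℓ ∉ S),
      chig (CuspForm.heckeAlgebra.T hℓ hℓM hℓS) = ModularFormClass.qCoeff g ℓ)
    (iota : chig.range →+* O')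
    {ι : Type*} [Finite ι] (M' : ι → ℕ) [∀ i, NeZero (M' i)] (hM' : ∀ i, M' i ∣ M)
    (hne : ∀ i, M' i ≠ M)
    (c : ∀ i, ↥(parabolicHoms ℤ (Gamma0 M) ℤ) →ₗ[ℤ] ↥(parabolicHoms ℤ (Gamma0 (M' i)) ℤ))
    (hcomm : ∀ (i : ι) (ℓ : ℕ), ℓ.Prime → ¬ ℓ ∣ M →
      ∀ k, c i (hl42_TL M ℓ k) = hl42_TL (M' i) ℓ (c i k)) :
    ∃ x0 : O' ⊗[ℤ] ↥(parabolicHoms ℤ (Gamma0 M) ℤ),
      x0 ∉ IsLocalRing.maximalIdeal O' •
        (⊤ : Submodule O' (O' ⊗[ℤ] ↥(parabolicHoms ℤ (Gamma0 M) ℤ))) ∧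
      (∀ t : CuspForm.heckeAlgebra M 2 S,
        (hl42_act M S t).baseChange O' x0 = (iota.comp chig.rangeRestrict) t • x0) ∧
      (∀ i, (c i).baseChange O' x0 = 0) ∧
      x0 ∈ Submodule.span O'
        ((fun k : ↥(parabolicHoms ℤ (Gamma0 M) ℤ) => (1 : O') ⊗ₜ[ℤ] k) '' {k | ∀ i, c i k = 0}) := by
  classical
  have := ee42_finite M
  have := ee42_free M
  have hfree' : ∀ i, Module.Free ℤ ↥(parabolicHoms ℤ (Gamma0 (M' i)) ℤ) := fun i =>
    ee42_free (M' i)
  -- (1) the complex eigenvector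
  obtain ⟨v, hv0, hv⟩ := ne42_complex_eigen M hg.1
  -- (2) it is killed by the corestrictions
  have hcv : ∀ i, (c i).baseChange ℂ v = 0 := fun i =>
    ne42_complex_kills M hg (M' i) (hM' i) (hne i) (c i) (hcomm i) v (fun ℓ hℓ _ => hv ℓ hℓ)
  -- (3) the common kernel is stable under the Hecke algebra
  have hst : ∀ (t : CuspForm.heckeAlgebra M 2 S) (k : ↥(parabolicHoms ℤ (Gamma0 M) ℤ)),
      (∀ i, c i k = 0) → ∀ i, c i (hl42_act M S t k) = 0 := by
    intro t k hk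
    have h1 := ne42_hecke_stable M S hMS (⨅ i, LinearMap.ker (c i))
      (fun ℓ hℓ hℓM k hk => by
        simp only [Submodule.mem_iInf, LinearMap.mem_ker] at hk ⊢
        intro i
        rw [hcomm i ℓ hℓ hℓM k, hk i, map_zero]) t k
      (by simp only [Submodule.mem_iInf, LinearMap.mem_ker]; exact hk)
    simpa only [Submodule.mem_iInf, LinearMap.mem_ker] using h1
  -- (4) the Hecke algebra acts on `v` through `chig`
  have hchv : ∀ t : CuspForm.heckeAlgebra M 2 S,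
      (hl42_act M S t).baseChange ℂ v = chig t • v :=
    ne42_hecke_eigen M S hMS chig v fun ℓ hℓ hℓM hℓS => by
      rw [hchig ℓ hℓ hℓM hℓS]
      exact hv ℓ hℓ
  -- (5) an element of the Hecke algebra vanishing on the common kernel is killed by `chig`
  have hvspan := ne34_mem_span_ker_family (O := ℂ) c v hcv
  have hker : ∀ t : CuspForm.heckeAlgebra M 2 S,
      (∀ k : ↥(parabolicHoms ℤ (Gamma0 M) ℤ), (∀ i, c i k = 0) → hl42_act M S t k = 0) →
        (iota.comp chig.rangeRestrict) t = 0 := by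
    intro t ht
    have hle : Submodule.span ℂ ((fun l : ↥(parabolicHoms ℤ (Gamma0 M) ℤ) => (1 : ℂ) ⊗ₜ[ℤ] l) ''
        {l | ∀ i, c i l = 0}) ≤ LinearMap.ker ((hl42_act M S t).baseChange ℂ) := by
      rw [Submodule.span_le]
      rintro _ ⟨l, hl, rfl⟩
      show (hl42_act M S t).baseChange ℂ ((1 : ℂ) ⊗ₜ[ℤ] l) = 0
      rw [LinearMap.baseChange_tmul, ht l hl, TensorProduct.tmul_zero]
    have h0 : (hl42_act M S t).baseChange ℂ v = 0 := hle hvspan
    rw [hchv t] at h0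
    have h2 : chig t = 0 := (smul_eq_zero.mp h0).resolve_right hv0
    have h3 : chig.rangeRestrict t = 0 := Subtype.ext h2
    show iota (chig.rangeRestrict t) = 0
    rw [h3, map_zero]
  -- (6) the abstract form
  exact ne42_exists_abstract (hl42_act M S) (iota.comp chig.rangeRestrict) c hst hker

end Main

end Fermat.Agent.S35
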