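import Mathlib
import Fermat.Agent.S30.EigenChar83
import Fermat.Agent.S35.FlatKerFam56
import Fermat.Agent.S35.NewLattice42
import Fermat.Agent.S35.HeckeTransfer69
import Fermat.Agent.S41.EigenBridge67

/-!
# S35 lab, row 557 (helper88): the NEW primitive eigenvector over `O'` itself — period-vector route

Independent spare of the concrete existence statement of row 557 (N5).  No algebraic closure of
`Frac O'`, no extension of `iota`, no eigencharacter of the full Hecke algebra.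

## Abstract part (Mathlib + `ec83_exists_primitive`)

`A` a commutative ring acting on a finite free `ℤ`-module `L` (`act : A →+* End_ℤ L`), `K ⊆ L` an
`act`-stable, saturated submodule, `ψ : A →+* E` a character with values in a field `E` of
characteristic zero which has a NONZERO eigenvector in `E ⊗ K`, and `χ : A →+* R` (`R` a discrete
valuation ring of characteristic zero) with `ker ψ ⊆ ker χ`.  Then `χ` has a PRIMITIVE
eigenvector in `R ⊗ L` which comes from `R ⊗ K`:

* `ne88_actK` : the restricted action `A →+* End_ℤ K`;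
* `ne88_exists_retraction` : a saturated submodule of a finite free `ℤ`-module is a direct
  summand;
* `ne88_descend` : the statement above.  (Proof: `ψ`, hence `χ`, kills the kernel of
  `A → End_ℤ K`; apply `ec83_exists_primitive` to the faithful action of the quotient on `K`.)

## Concrete part

`g` a newform of level `M`, `S ⊇ {q ∣ M}`, `chig` its character on `heckeAlgebra M 2 S`,
`iota : chig.range →+* O'`, and a finite family `c i : L(M) →ₗ[ℤ] L(M' i)`, `M' i ∣ M`,
`M' i ≠ M`, commuting with the Hecke operators `T_ℓ`, `ℓ ∤ M` (the corestrictions):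

* `ne88_period_vector` : the period homomorphism of `g` as a nonzero vector `V ∈ ℂ ⊗ L(M)`,
  eigenvector of ALL `T_ℓ` (`ℓ` prime) with eigenvalue `a_ℓ(g)`;
* `ne88_period_killed` : `V` is killed by every `c i` (newness, `nl42_newvec` at `O = ℂ`);
* `ne88_exists` : a primitive `x0 ∈ O' ⊗ L(M)` with `(hl42_act M S t) x0 = iota (chig t) • x0`
  for all `t`, `(c i) x0 = 0` for all `i`, and `x0` in the `O'`-span of `1 ⊗ {l | ∀ i, c i l = 0}`.

All names are prefixed `ne88_`.
-/

set_option autoImplicit false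
set_option linter.unusedSectionVars false
set_option linter.unusedVariables false
set_option linter.style.longLine false
set_option linter.style.haveILetI false

open CongruenceSubgroup ModularCurve ModularCurve.Period
open scoped TensorProduct

namespace Fermat.Agent.S35

open Fermat.Agent.S16 Fermat.Agent.S31 Fermat.Agent.S41 Fermat.Agent.S30

/-! ## Abstract part -/

section ne88_abs

variable {A : Type*} [CommRing A] {L : Type*} [AddCommGroup L]

/-- The action restricted to a stable submodule. -/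
noncomputable def ne88_actK (act : A →+* Module.End ℤ L) (K : Submodule ℤ L)
    (hK : ∀ a, ∀ x ∈ K, act a x ∈ K) : A →+* Module.End ℤ K where
  toFun a := (act a).restrict (hK a)
  map_one' := by
    refine LinearMap.ext fun x => Subtype.ext ?_
    rw [LinearMap.coe_restrict_apply, map_one]
    rfl
  map_mul' a b := by
    refine LinearMap.ext fun x => Subtype.ext ?_
    rw [LinearMap.coe_restrict_apply, map_mul, Module.End.mul_apply, Module.End.mul_apply,
      LinearMap.coe_restrict_apply, LinearMap.coe_restrict_apply]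
  map_zero' := by
    refine LinearMap.ext fun x => Subtype.ext ?_
    rw [LinearMap.coe_restrict_apply, map_zero]
    rfl
  map_add' a b := by
    refine LinearMap.ext fun x => Subtype.ext ?_
    rw [LinearMap.coe_restrict_apply, map_add, LinearMap.add_apply, LinearMap.add_apply,
      Submodule.coe_add, LinearMap.coe_restrict_apply, LinearMap.coe_restrict_apply]

theorem ne88_actK_coe (act : A →+* Module.End ℤ L) (K : Submodule ℤ L)
    (hK : ∀ a, ∀ x ∈ K, act a x ∈ K) (a : A) (x : K) :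
    ((ne88_actK act K hK a x : K) : L) = act a (x : L) := rfl

/-- Naturality of the inclusion `B ⊗ K → B ⊗ L` for the two actions. -/
theorem ne88_incl_act (act : A →+* Module.End ℤ L) (K : Submodule ℤ L)
    (hK : ∀ a, ∀ x ∈ K, act a x ∈ K) (B : Type*) [CommRing B] (a : A) (y : B ⊗[ℤ] K) :
    (act a).baseChange B (K.subtype.baseChange B y) =
      K.subtype.baseChange B ((ne88_actK act K hK a).baseChange B y) := by
  have h : (act a) ∘ₗ K.subtype = K.subtype ∘ₗ (ne88_actK act K hK a) :=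
    LinearMap.ext fun x => rfl
  have h1 := congrArg (fun f => (LinearMap.baseChange B f) y) h
  simpa only [LinearMap.baseChange_comp, LinearMap.comp_apply] using h1

/-- The inclusion `B ⊗ K → B ⊗ L` is injective for `B` flat over `ℤ`. -/
theorem ne88_incl_injective (K : Submodule ℤ L) (B : Type*) [CommRing B] [Module.Flat ℤ B] :
    Function.Injective (K.subtype.baseChange B) := by
  rw [LinearMap.baseChange_eq_ltensor]
  exact Module.Flat.lTensor_preserves_injective_linearMap K.subtype K.injective_subtype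

variable [Module.Free ℤ L] [Module.Finite ℤ L]

/-- A saturated submodule of a finite free `ℤ`-module is a direct summand. -/
theorem ne88_exists_retraction (K : Submodule ℤ L)
    (hKsat : ∀ n : ℤ, n ≠ 0 → ∀ x : L, n • x ∈ K → x ∈ K) :
    ∃ r : L →ₗ[ℤ] K, ∀ k : K, r (k : L) = k := by
  haveI : Module.IsTorsionFree ℤ (L ⧸ K) := by
    refine ⟨fun n hn => ?_⟩
    have hn0 : n ≠ 0 := by
      rintro rfl
      exact (isRegular_iff_ne_zero.mp hn) rfl
    intro a b hab
    obtain ⟨x, rfl⟩ := Submodule.Quotient.mk_surjective K a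
    obtain ⟨y, rfl⟩ := Submodule.Quotient.mk_surjective K b
    have h1 : Submodule.Quotient.mk (p := K) (n • (x - y)) = 0 := by
      rw [smul_sub, Submodule.Quotient.mk_sub, Submodule.Quotient.mk_smul,
        Submodule.Quotient.mk_smul]
      exact sub_eq_zero.mpr hab
    have h2 : x - y ∈ K := hKsat n hn0 _ ((Submodule.Quotient.mk_eq_zero K).mp h1)
    exact (Submodule.Quotient.eq K).mpr h2
  haveI : Module.Free ℤ (L ⧸ K) := Module.free_of_finite_type_torsion_free'
  obtain ⟨s, hs⟩ := Module.projective_lifting_property K.mkQ (LinearMap.id : (L ⧸ K) →ₗ[ℤ] L ⧸ K)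
    (Submodule.mkQ_surjective K)
  have hs' : ∀ z : L ⧸ K, K.mkQ (s z) = z := fun z => by
    have := congrArg (fun f => f z) hs
    simpa using this
  have hmem : ∀ x : L, ((LinearMap.id : L →ₗ[ℤ] L) - s ∘ₗ K.mkQ) x ∈ K := by
    intro x
    rw [← Submodule.Quotient.mk_eq_zero K]
    show K.mkQ (((LinearMap.id : L →ₗ[ℤ] L) - s ∘ₗ K.mkQ) x) = 0
    rw [LinearMap.sub_apply, LinearMap.id_apply, LinearMap.comp_apply, map_sub, hs', sub_self]
  refine ⟨((LinearMap.id : L →ₗ[ℤ] L) - s ∘ₗ K.mkQ).codRestrict K hmem, fun k => Subtype.ext ?_⟩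
  rw [LinearMap.codRestrict_apply, LinearMap.sub_apply, LinearMap.id_apply, LinearMap.comp_apply]
  have hk : K.mkQ (k : L) = 0 := (Submodule.Quotient.mk_eq_zero K).mpr k.2
  rw [hk, map_zero, sub_zero]

/-- A primitive vector of `R ⊗ K` stays primitive in `R ⊗ L` when `K` is a direct summand. -/
theorem ne88_primitive {R : Type*} [CommRing R] [IsLocalRing R] (K : Submodule ℤ L)
    (r : L →ₗ[ℤ] K) (hr : ∀ k : K, r (k : L) = k) (x : R ⊗[ℤ] K)
    (hx : x ∉ IsLocalRing.maximalIdeal R • (⊤ : Submodule R (R ⊗[ℤ] K))) :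
    K.subtype.baseChange R x ∉ IsLocalRing.maximalIdeal R • (⊤ : Submodule R (R ⊗[ℤ] L)) := by
  intro h
  apply hx
  have h1 : r.baseChange R (K.subtype.baseChange R x) = x := by
    have h2 : r ∘ₗ K.subtype = LinearMap.id := LinearMap.ext hr
    have h3 := congrArg (fun f => (LinearMap.baseChange R f) x) h2
    simpa only [LinearMap.baseChange_comp, LinearMap.comp_apply, LinearMap.baseChange_id,
      LinearMap.id_apply] using h3
  rw [← h1]
  refine Submodule.smul_induction_on h (fun m hm n _ => ?_) (fun y z hy hz => ?_)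
  · rw [map_smul]
    exact Submodule.smul_mem_smul hm Submodule.mem_top
  · rw [map_add]
    exact Submodule.add_mem _ hy hz

/-- **Descent through the kernel of the Hecke action.**  If the character `ψ` (values in a field
of characteristic zero) has a nonzero eigenvector in `E ⊗ K`, `K` a stable saturated submodule of
the finite free `ℤ`-module `L`, then every character `χ` with `ker ψ ⊆ ker χ` with values in a
discrete valuation ring `R` of characteristic zero has an eigenvector `x ∈ R ⊗ K` whose image in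
`R ⊗ L` is primitive. -/
theorem ne88_descend {R : Type*} [CommRing R] [IsDomain R] [IsDiscreteValuationRing R]
    [CharZero R] {E : Type*} [Field E] [CharZero E]
    (act : A →+* Module.End ℤ L) (χ : A →+* R) (ψ : A →+* E)
    (hψχ : ∀ a, ψ a = 0 → χ a = 0) (K : Submodule ℤ L)
    (hKstab : ∀ a, ∀ x ∈ K, act a x ∈ K)
    (hKsat : ∀ n : ℤ, n ≠ 0 → ∀ x : L, n • x ∈ K → x ∈ K)
    (VK : E ⊗[ℤ] K) (hV0 : K.subtype.baseChange E VK ≠ 0)
    (hVeig : ∀ a, (act a).baseChange E (K.subtype.baseChange E VK) =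
      ψ a • K.subtype.baseChange E VK) :
    ∃ x : R ⊗[ℤ] K,
      K.subtype.baseChange R x ∉ IsLocalRing.maximalIdeal R • (⊤ : Submodule R (R ⊗[ℤ] L)) ∧
      ∀ a, (act a).baseChange R (K.subtype.baseChange R x) = χ a • K.subtype.baseChange R x := by
  classical
  have hVK0 : VK ≠ 0 := by
    rintro rfl
    exact hV0 (map_zero _)
  have hVKeig : ∀ a, (ne88_actK act K hKstab a).baseChange E VK = ψ a • VK := by
    intro a
    apply ne88_incl_injective K E
    rw [← ne88_incl_act, hVeig, map_smul]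
  have hker : ∀ a, ne88_actK act K hKstab a = 0 → χ a = 0 := by
    intro a ha
    apply hψχ
    have h := hVKeig a
    rw [ha, LinearMap.baseChange_zero, LinearMap.zero_apply] at h
    rcases smul_eq_zero.mp h.symm with h1 | h1
    · exact h1
    · exact absurd h1 hVK0
  obtain ⟨x, hx, hxe⟩ := ec83_exists_primitive (R := R)
    (RingHom.kerLift (ne88_actK act K hKstab)) (RingHom.kerLift_injective _)
    (Ideal.Quotient.lift (RingHom.ker (ne88_actK act K hKstab)) χ
      (fun a ha => hker a (RingHom.mem_ker.mp ha)))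
  obtain ⟨r, hr⟩ := ne88_exists_retraction K hKsat
  refine ⟨x, ne88_primitive K r hr x hx, fun a => ?_⟩
  have h := hxe (Ideal.Quotient.mk (RingHom.ker (ne88_actK act K hKstab)) a)
  rw [RingHom.kerLift_mk, Ideal.Quotient.lift_mk] at h
  rw [ne88_incl_act act K hKstab R a x, h, map_smul]

end ne88_abs

/-! ## Concrete part -/

section ne88_concrete

variable (M : ℕ) [NeZero M]

/-- **The period vector.**  The period homomorphism of a normalised eigenform `g` of level `M`,
as a NONZERO vector of `ℂ ⊗ Hom_par(Γ₀(M), ℤ)`; it is an eigenvector of every Hecke operator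
`T_ℓ` (`ℓ` prime) with eigenvalue `a_ℓ(g)`. -/
theorem ne88_period_vector {g : CuspForm (Gamma0 M) 2} (hg : g.IsNormalizedEigenform) :
    ∃ V : ℂ ⊗[ℤ] ↥(parabolicHoms ℤ (Gamma0 M) ℤ), V ≠ 0 ∧
      ∀ ℓ : ℕ, ℓ.Prime →
        (hl42_TL M ℓ).baseChange ℂ V = ModularFormClass.qCoeff g ℓ • V := by
  obtain ⟨hpar, hne, heig⟩ := eb67_periodMap_eigen M hg
  obtain ⟨n, z, ψ, hsum⟩ := hl42_span M (periodMap M g) hpar
  have hΘV : nl42_Theta M (∑ k, z k ⊗ₜ[ℤ] ψ k) = periodMap M g := by
    rw [hsum, map_sum]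
    rfl
  refine ⟨∑ k, z k ⊗ₜ[ℤ] ψ k, ?_, fun ℓ hℓ => ?_⟩
  · intro h0
    apply hne
    rw [← hΘV, h0, map_zero]
  · apply nl42_Theta_injective M
    rw [← nl42_Theta_hecke, hΘV, heig ℓ hℓ, map_smul, hΘV]

/-- **The period vector of a newform is killed by every Hecke-equivariant map to a lower
level** (`nl42_newvec` at `O = R = ℂ`). -/
theorem ne88_period_killed {g : CuspForm (Gamma0 M) 2} (hg : g.IsNewform)
    (M' : ℕ) [NeZero M'] (hM' : M' ∣ M) (hne : M' ≠ M)
    (c : ↥(parabolicHoms ℤ (Gamma0 M) ℤ) →ₗ[ℤ] ↥(parabolicHoms ℤ (Gamma0 M') ℤ))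
    (hcomm : ∀ ℓ : ℕ, ℓ.Prime → ¬ ℓ ∣ M → ∀ x, c (hl42_TL M ℓ x) = hl42_TL M' ℓ (c x))
    (V : ℂ ⊗[ℤ] ↥(parabolicHoms ℤ (Gamma0 M) ℤ))
    (hV : ∀ ℓ : ℕ, ℓ.Prime → ¬ ℓ ∣ M →
      (hl42_TL M ℓ).baseChange ℂ V = ModularFormClass.qCoeff g ℓ • V) :
    c.baseChange ℂ V = 0 :=
  nl42_newvec hg M' hM' hne (RingHom.id ℂ) (RingHom.id ℂ) (fun r h => h)
    (fun ℓ => ModularFormClass.qCoeff g ℓ) (fun ℓ _ _ => rfl) (c.baseChange ℂ V)
    (fun ℓ hℓ hℓM => ht69_cores_eigen ℂ ℓ c (hcomm ℓ hℓ hℓM) V _ (hV ℓ hℓ hℓM))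

/-- **The new primitive eigenvector over `O'` itself.**  `g` a newform of level `M`, `S` a set of
primes containing the primes dividing `M`, `chig` the character of `g` on `heckeAlgebra M 2 S`,
`iota : chig.range →+* O'` (`O'` a discrete valuation ring of characteristic zero), and a finite
family of `ℤ`-linear maps `c i : L(M) → L(M' i)` to lower levels `M' i ∣ M`, `M' i ≠ M`, commuting
with the Hecke operators `T_ℓ`, `ℓ ∤ M`.  Then there is a PRIMITIVE `x0 ∈ O' ⊗ L(M)`, eigenvector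
of the whole Hecke algebra for `χ = iota ∘ chig`, killed by every `c i`, and lying in the
`O'`-span of `1 ⊗ K`, `K` the common kernel of the `c i`. -/
theorem ne88_exists {g : CuspForm (Gamma0 M) 2} (hg : g.IsNewform) (S : Set ℕ)
    (hMS : ∀ q : ℕ, q.Prime → q ∣ M → q ∈ S)
    (O' : Type*) [CommRing O'] [IsDomain O'] [IsDiscreteValuationRing O'] [CharZero O']
    (chig : CuspForm.heckeAlgebra M 2 S →+* ℂ)
    (hchig : ∀ (ℓ : ℕ) (hℓ : ℓ.Prime) (hℓM : ¬ ℓ ∣ M) (hℓS : ℓ ∉ S),
      chig (CuspForm.heckeAlgebra.T hℓ hℓM hℓS) = ModularFormClass.qCoeff g ℓ)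
    (iota : chig.range →+* O')
    {ι : Type*} [Finite ι] (M' : ι → ℕ) [∀ i, NeZero (M' i)] (hM' : ∀ i, M' i ∣ M)
    (hne : ∀ i, M' i ≠ M)
    (c : ∀ i, ↥(parabolicHoms ℤ (Gamma0 M) ℤ) →ₗ[ℤ] ↥(parabolicHoms ℤ (Gamma0 (M' i)) ℤ))
    (hcomm : ∀ (i : ι) (ℓ : ℕ), ℓ.Prime → ¬ ℓ ∣ M →
      ∀ x, c i (hl42_TL M ℓ x) = hl42_TL (M' i) ℓ (c i x)) :
    ∃ x0 : O' ⊗[ℤ] ↥(parabolicHoms ℤ (Gamma0 M) ℤ),
      x0 ∉ IsLocalRing.maximalIdeal O' •
        (⊤ : Submodule O' (O' ⊗[ℤ] ↥(parabolicHoms ℤ (Gamma0 M) ℤ))) ∧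
      (∀ t : CuspForm.heckeAlgebra M 2 S,
        (hl42_act M S t).baseChange O' x0 = (iota.comp chig.rangeRestrict) t • x0) ∧
      (∀ i, (c i).baseChange O' x0 = 0) ∧
      x0 ∈ Submodule.span O'
        ((fun l : ↥(parabolicHoms ℤ (Gamma0 M) ℤ) => (1 : O') ⊗ₜ[ℤ] l) '' {l | ∀ i, c i l = 0}) := by
  classical
  haveI := ee42_finite M
  haveI := ee42_free M
  obtain ⟨V, hV0, hVeig⟩ := ne88_period_vector M hg.1
  have hVc : ∀ i, (c i).baseChange ℂ V = 0 := fun i =>
    ne88_period_killed M hg (M' i) (hM' i) (hne i) (c i) (hcomm i) V (fun ℓ hℓ _ => hVeig ℓ hℓ)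
  -- the common kernel
  have hKmem : ∀ l : ↥(parabolicHoms ℤ (Gamma0 M) ℤ),
      l ∈ (⨅ i, LinearMap.ker (c i) : Submodule ℤ ↥(parabolicHoms ℤ (Gamma0 M) ℤ)) ↔
        ∀ i, c i l = 0 := fun l => by
    simp only [Submodule.mem_iInf, LinearMap.mem_ker]
  -- it is stable under the Hecke algebra
  have hKstab : ∀ t : CuspForm.heckeAlgebra M 2 S,
      ∀ l ∈ (⨅ i, LinearMap.ker (c i) : Submodule ℤ ↥(parabolicHoms ℤ (Gamma0 M) ℤ)),
        hl42_act M S t l ∈
          (⨅ i, LinearMap.ker (c i) : Submodule ℤ ↥(parabolicHoms ℤ (Gamma0 M) ℤ)) := by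
    rintro ⟨x, hx⟩
    refine Algebra.adjoin_induction
      (p := fun x hx => ∀ l ∈ (⨅ i, LinearMap.ker (c i) :
          Submodule ℤ ↥(parabolicHoms ℤ (Gamma0 M) ℤ)),
        hl42_act M S ⟨x, hx⟩ l ∈
          (⨅ i, LinearMap.ker (c i) : Submodule ℤ ↥(parabolicHoms ℤ (Gamma0 M) ℤ)))
      ?_ ?_ ?_ ?_ hx
    · rintro x (⟨ℓ, hℓ, hℓN, hℓS, rfl⟩ | ⟨q, hqN, hq, hqS, rfl⟩)
      · intro l hl
        have h2 : (hl42_act M S ⟨CuspForm.heckeTLin 2 hℓ hℓN,
            Algebra.subset_adjoin (Or.inl ⟨ℓ, hℓ, hℓN, hℓS, rfl⟩)⟩) = hl42_TL M ℓ :=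
          hl42_act_T M S hℓ hℓN hℓS
        rw [h2, hKmem]
        intro i
        rw [hcomm i ℓ hℓ hℓN, (hKmem l).mp hl i, map_zero]
      · exact absurd (hMS q hq hqN) hqS
    · intro n l hl
      have h1 : (⟨algebraMap ℤ _ n, Subalgebra.algebraMap_mem _ n⟩ :
          CuspForm.heckeAlgebra M 2 S) = ((n : ℤ) : CuspForm.heckeAlgebra M 2 S) := by
        apply Subtype.ext
        simp
      rw [h1, map_intCast]
      have h2 : ((n : ℤ) : Module.End ℤ ↥(parabolicHoms ℤ (Gamma0 M) ℤ)) = n • 1 := by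
        simp
      rw [h2, LinearMap.smul_apply, Module.End.one_apply]
      exact Submodule.smul_mem _ n hl
    · rintro a b ha hb iha ihb l hl
      have h1 : (⟨a + b, add_mem ha hb⟩ : CuspForm.heckeAlgebra M 2 S) = ⟨a, ha⟩ + ⟨b, hb⟩ := rfl
      rw [h1, map_add, LinearMap.add_apply]
      exact Submodule.add_mem _ (iha l hl) (ihb l hl)
    · rintro a b ha hb iha ihb l hl
      have h1 : (⟨a * b, mul_mem ha hb⟩ : CuspForm.heckeAlgebra M 2 S) = ⟨a, ha⟩ * ⟨b, hb⟩ := rfl
      rw [h1, map_mul, Module.End.mul_apply]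
      exact iha _ (ihb l hl)
  -- it is saturated
  have hKsat : ∀ n : ℤ, n ≠ 0 → ∀ x : ↥(parabolicHoms ℤ (Gamma0 M) ℤ),
      n • x ∈ (⨅ i, LinearMap.ker (c i) : Submodule ℤ ↥(parabolicHoms ℤ (Gamma0 M) ℤ)) →
        x ∈ (⨅ i, LinearMap.ker (c i) : Submodule ℤ ↥(parabolicHoms ℤ (Gamma0 M) ℤ)) := by
    intro n hn x hx
    rw [hKmem] at hx ⊢
    intro i
    have h1 := hx i
    rw [map_smul] at h1
    exact hs42_cancel (M' i) n hn (c i x) 0 (by rw [h1, smul_zero])
  -- the period vector is an eigenvector of the whole Hecke algebra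
  have hVt : ∀ t : CuspForm.heckeAlgebra M 2 S,
      (hl42_act M S t).baseChange ℂ V = chig t • V := by
    rintro ⟨x, hx⟩
    refine Algebra.adjoin_induction
      (p := fun x hx => (hl42_act M S ⟨x, hx⟩).baseChange ℂ V = chig ⟨x, hx⟩ • V)
      ?_ ?_ ?_ ?_ hx
    · rintro x (⟨ℓ, hℓ, hℓN, hℓS, rfl⟩ | ⟨q, hqN, hq, hqS, rfl⟩)
      · have h2 : (hl42_act M S ⟨CuspForm.heckeTLin 2 hℓ hℓN,
            Algebra.subset_adjoin (Or.inl ⟨ℓ, hℓ, hℓN, hℓS, rfl⟩)⟩) = hl42_TL M ℓ :=
          hl42_act_T M S hℓ hℓN hℓS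
        have h3 : chig ⟨CuspForm.heckeTLin 2 hℓ hℓN,
            Algebra.subset_adjoin (Or.inl ⟨ℓ, hℓ, hℓN, hℓS, rfl⟩)⟩ =
            ModularFormClass.qCoeff g ℓ := hchig ℓ hℓ hℓN hℓS
        rw [h2, h3]
        exact hVeig ℓ hℓ
      · exact absurd (hMS q hq hqN) hqS
    · intro n
      have h1 : (⟨algebraMap ℤ _ n, Subalgebra.algebraMap_mem _ n⟩ :
          CuspForm.heckeAlgebra M 2 S) = ((n : ℤ) : CuspForm.heckeAlgebra M 2 S) := by
        apply Subtype.ext
        simp
      rw [h1, map_intCast, map_intCast]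
      have h2 : ((n : ℤ) : Module.End ℤ ↥(parabolicHoms ℤ (Gamma0 M) ℤ)) = n • 1 := by
        simp
      rw [h2, LinearMap.baseChange_smul, LinearMap.baseChange_one, LinearMap.smul_apply,
        Module.End.one_apply, Int.cast_smul_eq_zsmul]
    · rintro a b ha hb iha ihb
      have h1 : (⟨a + b, add_mem ha hb⟩ : CuspForm.heckeAlgebra M 2 S) = ⟨a, ha⟩ + ⟨b, hb⟩ := rfl
      rw [h1, map_add, LinearMap.baseChange_add, LinearMap.add_apply, iha, ihb, map_add, add_smul]
    · rintro a b ha hb iha ihb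
      have h1 : (⟨a * b, mul_mem ha hb⟩ : CuspForm.heckeAlgebra M 2 S) = ⟨a, ha⟩ * ⟨b, hb⟩ := rfl
      rw [h1, map_mul, LinearMap.baseChange_mul, Module.End.mul_apply, ihb, map_smul, iha,
        smul_smul, map_mul, mul_comm]
  -- the period vector comes from `ℂ ⊗ K`
  have hVspan := fkf56_mem_span_ker_family c V hVc
  have hrange : Submodule.span ℂ
      ((fun l : ↥(parabolicHoms ℤ (Gamma0 M) ℤ) => (1 : ℂ) ⊗ₜ[ℤ] l) '' {l | ∀ i, c i l = 0}) ≤
      LinearMap.range ((⨅ i, LinearMap.ker (c i) :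
        Submodule ℤ ↥(parabolicHoms ℤ (Gamma0 M) ℤ)).subtype.baseChange ℂ) := by
    rw [Submodule.span_le]
    rintro _ ⟨l, hl, rfl⟩
    exact ⟨(1 : ℂ) ⊗ₜ[ℤ] ⟨l, (hKmem l).mpr hl⟩, rfl⟩
  obtain ⟨VK, hVK⟩ := hrange hVspan
  -- `chig t = 0 ⟹ χ t = 0`
  have hψχ : ∀ t : CuspForm.heckeAlgebra M 2 S, chig t = 0 →
      (iota.comp chig.rangeRestrict) t = 0 := by
    intro t ht
    have h1 : chig.rangeRestrict t = 0 := Subtype.ext ht
    rw [RingHom.comp_apply, h1, map_zero]
  obtain ⟨x, hxprim, hxeig⟩ := ne88_descend (R := O') (E := ℂ) (hl42_act M S)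
    (iota.comp chig.rangeRestrict) chig hψχ _ hKstab hKsat VK
    (by rw [hVK]; exact hV0) (fun t => by rw [hVK]; exact hVt t)
  refine ⟨_, hxprim, hxeig, fun i => ?_, ?_⟩
  · have h0 : (c i) ∘ₗ (⨅ i, LinearMap.ker (c i) :
        Submodule ℤ ↥(parabolicHoms ℤ (Gamma0 M) ℤ)).subtype = 0 :=
      LinearMap.ext fun k => (hKmem k.1).mp k.2 i
    have h1 := congrArg (fun f => (LinearMap.baseChange O' f) x) h0
    simpa only [LinearMap.baseChange_comp, LinearMap.comp_apply, LinearMap.baseChange_zero,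
      LinearMap.zero_apply] using h1
  · have h := fk56_lTensor_subtype_mem_span (O := O')
      (⨅ i, LinearMap.ker (c i) : Submodule ℤ ↥(parabolicHoms ℤ (Gamma0 M) ℤ))
      (fun l => ∀ i, c i l = 0) (fun l hl => (hKmem l).mp hl) x
    rwa [← fk56_baseChange_apply] at h

end ne88_concrete

end Fermat.Agent.S35
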