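import Mathlib
import Fermat.Agent.S35.NewToric98

/-!
# S35 lab (helper98): step (1c) "new ⇒ toric" in CONGRUENCE form (lab vocabulary)

The same step as `NewToric98`, but without reduction maps: everything is expressed by
congruences `p⁻¹ * (x - y) ∈ V` modulo `p V` in ONE valuation ring `V = V_∞` of the function
field `F`, the second branch being `V_0 = w⁻¹ V` (`x ∈ V_0 ↔ w x ∈ V`) and
`W = V_∞ ⊓ V_0` (`x ∈ W ↔ x ∈ V ∧ w x ∈ V`).  This is the vocabulary of the frame packages of the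
lab (`s34i47c_W`, `ff50_*`, the norm congruence `α (N_α y) ≡ y * ŝ (w y)` modulo `π V_∞`, the
splitting element `e0 ≡ 0` modulo `π V_∞`, `e0 ≡ 1` modulo `π V_0`).

* `ntc98_Frame p V V' w sh sh' α β Nα Nβ e0 : Prop` — the hypotheses;
* `ntc98_G_unit` : `G = (1 - e0) * α u1 + e0 * β u2` is a unit of `W`, `G ≡ α u1` modulo `p V_∞`,
  `w G ≡ α u2` modulo `p V_∞`;
* `ntc98_main` : for `Nα f = c1 * a ^ m`, `Nβ f = c2 * b ^ m` the function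
  `f3 = (f1 / ŝ² f1) / G ^ m` (`nt98_f3`) is a unit of `W` with
  **`f3 ≡ α (γ1 / ŝ' γ2)` modulo `p V_∞` and `w f3 ≡ α (γ2 / ŝ' γ1)` modulo `p V_∞`**
  (`γi = ci / ŝ'² ci`), i.e. `f3 ≡ β (γ2 / ŝ' γ1)` modulo `p V_0`.
-/

set_option autoImplicit false

namespace Fermat.Agent.S35

/-! ## 1. Congruences modulo `p V` -/

section Cong

variable {F : Type*} [Field F] {p : F} {V : Subring F}

theorem ntc98_cong_refl (x : F) : p⁻¹ * (x - x) ∈ V := by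
  rw [sub_self, mul_zero]
  exact V.zero_mem

theorem ntc98_cong_symm {x y : F} (h : p⁻¹ * (x - y) ∈ V) : p⁻¹ * (y - x) ∈ V := by
  have e : p⁻¹ * (y - x) = -(p⁻¹ * (x - y)) := by ring
  rw [e]
  exact V.neg_mem h

theorem ntc98_cong_trans {x y z : F} (h : p⁻¹ * (x - y) ∈ V) (h' : p⁻¹ * (y - z) ∈ V) :
    p⁻¹ * (x - z) ∈ V := by
  have e : p⁻¹ * (x - z) = p⁻¹ * (x - y) + p⁻¹ * (y - z) := by ring
  rw [e]
  exact V.add_mem h h'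

theorem ntc98_mem_of_cong (hp0 : p ≠ 0) (hp : p ∈ V) {x y : F} (h : p⁻¹ * (x - y) ∈ V)
    (hy : y ∈ V) : x ∈ V := by
  have e : x = y + p * (p⁻¹ * (x - y)) := by
    rw [← mul_assoc, mul_inv_cancel₀ hp0, one_mul]
    ring
  rw [e]
  exact V.add_mem hy (V.mul_mem hp h)

/-- An element congruent to a unit is a unit. -/
theorem ntc98_unit_of_cong (hp0 : p ≠ 0) (hp : p ∈ V) (hinv : ∀ x ∈ V, (1 + p * x)⁻¹ ∈ V)
    {x y : F} (h : p⁻¹ * (x - y) ∈ V) (hy0 : y ≠ 0) (hy : y ∈ V) (hyi : y⁻¹ ∈ V) :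
    x ∈ V ∧ x⁻¹ ∈ V := by
  refine ⟨ntc98_mem_of_cong hp0 hp h hy, ?_⟩
  have e1 : 1 + p * (p⁻¹ * (x - y) * y⁻¹) = x / y := by
    rw [← mul_assoc, ← mul_assoc, mul_inv_cancel₀ hp0, one_mul, ← div_eq_mul_inv, sub_div,
      div_self hy0]
    ring
  have e : x⁻¹ = y⁻¹ * (1 + p * (p⁻¹ * (x - y) * y⁻¹))⁻¹ := by
    rw [e1, inv_div, ← mul_div_assoc, inv_mul_cancel₀ hy0, one_div]
  rw [e]
  exact V.mul_mem hyi (hinv _ (V.mul_mem h hyi))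

/-- An element congruent to a unit is nonzero (as `p⁻¹ ∉ V`). -/
theorem ntc98_ne_zero_of_cong (hpi : p⁻¹ ∉ V) {x y : F} (h : p⁻¹ * (x - y) ∈ V) (hy0 : y ≠ 0)
    (hyi : y⁻¹ ∈ V) : x ≠ 0 := by
  rintro rfl
  apply hpi
  have e : p⁻¹ = -(p⁻¹ * (0 - y)) * y⁻¹ := by
    rw [zero_sub, mul_neg, neg_neg, mul_assoc, mul_inv_cancel₀ hy0, mul_one]
  rw [e]
  exact V.mul_mem (V.neg_mem h) hyi

theorem ntc98_cong_mul {x y x' y' : F} (hx : x ∈ V) (hy' : y' ∈ V) (h : p⁻¹ * (x - y) ∈ V)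
    (h' : p⁻¹ * (x' - y') ∈ V) : p⁻¹ * (x * x' - y * y') ∈ V := by
  have e : p⁻¹ * (x * x' - y * y') = x * (p⁻¹ * (x' - y')) + p⁻¹ * (x - y) * y' := by ring
  rw [e]
  exact V.add_mem (V.mul_mem hx h') (V.mul_mem h hy')

theorem ntc98_cong_pow {x y : F} (hx : x ∈ V) (hy : y ∈ V) (h : p⁻¹ * (x - y) ∈ V) (m : ℕ) :
    p⁻¹ * (x ^ m - y ^ m) ∈ V := by
  induction m with
  | zero =>
    rw [pow_zero, pow_zero]
    exact ntc98_cong_refl 1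
  | succ k ih =>
    rw [pow_succ, pow_succ]
    exact ntc98_cong_mul (V.pow_mem hx k) hy ih h

theorem ntc98_cong_map (hp0 : p ≠ 0) (τ : F ≃+* F) (hτ : ∀ x ∈ V, τ x ∈ V)
    (hτp : τ p / p ∈ V) {x y : F} (h : p⁻¹ * (x - y) ∈ V) : p⁻¹ * (τ x - τ y) ∈ V := by
  have hτp0 : τ p ≠ 0 := (map_ne_zero τ).mpr hp0
  have e : p⁻¹ * (τ x - τ y) = τ p / p * τ (p⁻¹ * (x - y)) := by
    rw [map_mul, map_inv₀, map_sub]
    field_simp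
  rw [e]
  exact V.mul_mem hτp (hτ _ h)

theorem ntc98_cong_div {X Y Z : F} (hZ0 : Z ≠ 0) (hZi : Z⁻¹ ∈ V)
    (h : p⁻¹ * (X - Y * Z) ∈ V) : p⁻¹ * (X / Z - Y) ∈ V := by
  have e : p⁻¹ * (X / Z - Y) = p⁻¹ * (X - Y * Z) * Z⁻¹ := by
    field_simp
  rw [e]
  exact V.mul_mem h hZi

/-- **The elimination step** in congruence form: `A ≡ x * τ y`, `B ≡ y * τ x` and
`τ` preserves `V` and `p V` ⟹ `x / τ² x ≡ A / τ B`. -/
theorem ntc98_elim (hp0 : p ≠ 0) (τ : F ≃+* F) (hτ : ∀ x ∈ V, τ x ∈ V) (hτp : τ p / p ∈ V)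
    {x y A B : F} (hx0 : x ≠ 0) (hB0 : B ≠ 0) (hx : x ∈ V) (hxi : x⁻¹ ∈ V) (hBi : B⁻¹ ∈ V)
    (hA : p⁻¹ * (A - x * τ y) ∈ V) (hB : p⁻¹ * (B - y * τ x) ∈ V) :
    p⁻¹ * (x / τ (τ x) - A / τ B) ∈ V := by
  have hτx0 : τ (τ x) ≠ 0 := (map_ne_zero τ).mpr ((map_ne_zero τ).mpr hx0)
  have hτB0 : τ B ≠ 0 := (map_ne_zero τ).mpr hB0
  have hτxi : (τ (τ x))⁻¹ ∈ V := by
    rw [← map_inv₀, ← map_inv₀]
    exact hτ _ (hτ _ hxi)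
  have hτBi : (τ B)⁻¹ ∈ V := by
    rw [← map_inv₀]
    exact hτ _ hBi
  have hτxx : τ (τ x) ∈ V := hτ _ (hτ _ hx)
  have h1 : p⁻¹ * (τ B - τ y * τ (τ x)) ∈ V := by
    have := ntc98_cong_map hp0 τ hτ hτp hB
    rwa [map_mul] at this
  have e : p⁻¹ * (x / τ (τ x) - A / τ B) =
      (x * (p⁻¹ * (τ B - τ y * τ (τ x))) - p⁻¹ * (A - x * τ y) * τ (τ x)) *
        ((τ (τ x))⁻¹ * (τ B)⁻¹) := by
    field_simp
    ring
  rw [e]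
  exact V.mul_mem (V.sub_mem (V.mul_mem hx h1) (V.mul_mem hA hτxx)) (V.mul_mem hτxi hτBi)

end Cong

/-- **The norm is equivariant** under a pair of automorphisms compatible with the algebra map:
`N (e₂ x) = e₁ (N x)`. -/
theorem ntc98_norm_sh {A B : Type*} [Field A] [Field B] [Algebra A B] (e₁ : A ≃+* A)
    (e₂ : B ≃+* B) (he : ∀ x : A, e₂ (algebraMap A B x) = algebraMap A B (e₁ x)) (x : B) :
    Algebra.norm A (e₂ x) = e₁ (Algebra.norm A x) := by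
  have h := Algebra.norm_eq_of_equiv_equiv e₁ e₂ (RingHom.ext fun y => (he y).symm) x
  rw [h, RingEquiv.apply_symm_apply]

/-! ## 2. The frame in congruence form -/

/-- The abstract frame for step (1c), congruence form: `V = V_∞`, `V_0 = w⁻¹ V`,
`W = V_∞ ⊓ V_0`, `p` the uniformiser. -/
structure ntc98_Frame {F F' : Type*} [Field F] [Field F'] (p : F) (V : Subring F)
    (V' : Subring F') (w sh : F ≃+* F) (sh' : F' ≃+* F') (α β : F' →+* F) (Nα Nβ : F →* F')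
    (e0 : F) : Prop where
  p_ne : p ≠ 0
  p_mem : p ∈ V
  p_inv : p⁻¹ ∉ V
  /-- `1 + p V ⊆ V^×`. -/
  one_add : ∀ x ∈ V, (1 + p * x)⁻¹ ∈ V
  /-- `w` is an involution with `w ∘ α = β`. -/
  w_w : ∀ x : F, w (w x) = x
  w_α : ∀ h : F', w (α h) = β h
  /-- `ŝ` preserves `V`, the valuation is `ŝ`-invariant, `ŝ` commutes with `w` and `α`. -/
  sh_mem : ∀ x ∈ V, sh x ∈ V
  sh_div : ∀ x : F, x ≠ 0 → sh x / x ∈ V ∧ x / sh x ∈ V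
  sh_w : ∀ x : F, sh (w x) = w (sh x)
  sh_α : ∀ h : F', sh (α h) = α (sh' h)
  /-- The same at level `M'`. -/
  sh'_mem : ∀ h ∈ V', sh' h ∈ V'
  sh'_div : ∀ h : F', h ≠ 0 → sh' h / h ∈ V' ∧ h / sh' h ∈ V'
  /-- `α V' ⊆ V_∞`, `β V' ⊆ V_∞`. -/
  α_mem : ∀ h ∈ V', α h ∈ V
  β_mem : ∀ h ∈ V', β h ∈ V
  /-- The norms are `ŝ`-equivariant. -/
  Nα_sh : ∀ x : F, x ≠ 0 → Nα (sh x) = sh' (Nα x)
  Nβ_sh : ∀ x : F, x ≠ 0 → Nβ (sh x) = sh' (Nβ x)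
  /-- The norm formula (1b) in congruence form, on units of `W`:
  `α (N_α y) ≡ y * ŝ (w y)` and `α (N_β y) ≡ w y * ŝ y` modulo `p V_∞`. -/
  Nα_cong : ∀ y : F, y ∈ V → y⁻¹ ∈ V → w y ∈ V → (w y)⁻¹ ∈ V →
    p⁻¹ * (α (Nα y) - y * sh (w y)) ∈ V
  Nβ_cong : ∀ y : F, y ∈ V → y⁻¹ ∈ V → w y ∈ V → (w y)⁻¹ ∈ V →
    p⁻¹ * (α (Nβ y) - w y * sh y) ∈ V
  /-- The splitting element: `e0 ≡ 0` modulo `p V_∞`, `e0 ≡ 1` modulo `p V_0`. -/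
  e0_inf : p⁻¹ * e0 ∈ V
  e0_zero : p⁻¹ * (w e0 - 1) ∈ V

section Main

variable {F F' : Type*} [Field F] [Field F'] {p : F} {V : Subring F} {V' : Subring F'}
  {w sh : F ≃+* F} {sh' : F' ≃+* F'} {α β : F' →+* F} {Nα Nβ : F →* F'} {e0 : F}

theorem ntc98_w_β (H : ntc98_Frame p V V' w sh sh' α β Nα Nβ e0) (h : F') :
    w (β h) = α h := by
  rw [← H.w_α, H.w_w]

theorem ntc98_w_tw (H : ntc98_Frame p V V' w sh sh' α β Nα Nβ e0) (x : F) :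
    w (nt98_tw sh x) = nt98_tw sh (w x) := by
  rw [nt98_tw, nt98_tw, map_div₀, H.sh_w, H.sh_w]

/-- `ŝ` preserves `p V`. -/
theorem ntc98_sh_p (H : ntc98_Frame p V V' w sh sh' α β Nα Nβ e0) : sh p / p ∈ V :=
  (H.sh_div p H.p_ne).1

/-- The image under `α` of a unit of `V'` is a unit of `V`. -/
theorem ntc98_α_unit (H : ntc98_Frame p V V' w sh sh' α β Nα Nβ e0) {h : F'} (h0 : h ≠ 0)
    (hh : h ∈ V') (hhi : h⁻¹ ∈ V') : α h ≠ 0 ∧ α h ∈ V ∧ (α h)⁻¹ ∈ V := by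
  refine ⟨(map_ne_zero α).mpr h0, H.α_mem _ hh, ?_⟩
  rw [← map_inv₀]
  exact H.α_mem _ hhi

theorem ntc98_N_tw (sh : F ≃+* F) (sh' : F' ≃+* F') (N : F →* F')
    (hN : ∀ x : F, x ≠ 0 → N (sh x) = sh' (N x)) {f : F} (hf : f ≠ 0) :
    N (nt98_tw sh f) = nt98_tw sh' (N f) := by
  have h0 : sh (sh f) ≠ 0 := (map_ne_zero sh).mpr ((map_ne_zero sh).mpr hf)
  rw [nt98_tw, nt98_map_div N f h0, hN _ ((map_ne_zero sh).mpr hf), hN _ hf, nt98_tw]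

/-- The units `u = a1 / ŝ' b1` of `V'`. -/
theorem ntc98_quot (H : ntc98_Frame p V V' w sh sh' α β Nα Nβ e0) {a b : F'} (ha : a ≠ 0)
    (hb : b ≠ 0) :
    nt98_tw sh' a / sh' (nt98_tw sh' b) ≠ 0 ∧ nt98_tw sh' a / sh' (nt98_tw sh' b) ∈ V' ∧
      (nt98_tw sh' a / sh' (nt98_tw sh' b))⁻¹ ∈ V' := by
  have ha1 := nt98_tw_unit V' sh' H.sh'_div ha
  have hb1 := nt98_tw_unit V' sh' H.sh'_div hb
  have h0 : sh' (nt98_tw sh' b) ≠ 0 := (map_ne_zero sh').mpr (nt98_tw_ne_zero sh' hb)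
  refine ⟨div_ne_zero (nt98_tw_ne_zero sh' ha) h0, ?_, ?_⟩
  · rw [div_eq_mul_inv, ← map_inv₀]
    exact V'.mul_mem ha1.1 (H.sh'_mem _ hb1.2)
  · rw [inv_div, div_eq_mul_inv]
    exact V'.mul_mem (H.sh'_mem _ hb1.1) ha1.2

/-- **The unit `G`** in congruence form: `G ≡ α u1` modulo `p V_∞`, `w G ≡ α u2` modulo
`p V_∞` (i.e. `G ≡ β u2` modulo `p V_0`), and `G` is a unit of `W`. -/
theorem ntc98_G_unit (H : ntc98_Frame p V V' w sh sh' α β Nα Nβ e0) {a b : F'} (ha : a ≠ 0)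
    (hb : b ≠ 0) :
    (nt98_G sh' α β e0 a b ∈ V ∧ (nt98_G sh' α β e0 a b)⁻¹ ∈ V) ∧
    (w (nt98_G sh' α β e0 a b) ∈ V ∧ (w (nt98_G sh' α β e0 a b))⁻¹ ∈ V) ∧
    p⁻¹ * (nt98_G sh' α β e0 a b - α (nt98_tw sh' a / sh' (nt98_tw sh' b))) ∈ V ∧
    p⁻¹ * (w (nt98_G sh' α β e0 a b) - α (nt98_tw sh' b / sh' (nt98_tw sh' a))) ∈ V := by
  obtain ⟨hu10, hu1, hu1i⟩ := ntc98_quot H ha hb
  obtain ⟨hu20, hu2, hu2i⟩ := ntc98_quot H hb ha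
  obtain ⟨hαu10, hαu1, hαu1i⟩ := ntc98_α_unit H hu10 hu1 hu1i
  obtain ⟨hαu20, hαu2, hαu2i⟩ := ntc98_α_unit H hu20 hu2 hu2i
  have c1 : p⁻¹ * (nt98_G sh' α β e0 a b - α (nt98_tw sh' a / sh' (nt98_tw sh' b))) ∈ V := by
    have e : p⁻¹ * (nt98_G sh' α β e0 a b - α (nt98_tw sh' a / sh' (nt98_tw sh' b))) =
        p⁻¹ * e0 * (β (nt98_tw sh' b / sh' (nt98_tw sh' a)) -
          α (nt98_tw sh' a / sh' (nt98_tw sh' b))) := by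
      rw [nt98_G]
      ring
    rw [e]
    exact V.mul_mem H.e0_inf (V.sub_mem (H.β_mem _ hu2) hαu1)
  have c2 : p⁻¹ * (w (nt98_G sh' α β e0 a b) - α (nt98_tw sh' b / sh' (nt98_tw sh' a))) ∈ V := by
    have e : p⁻¹ * (w (nt98_G sh' α β e0 a b) - α (nt98_tw sh' b / sh' (nt98_tw sh' a))) =
        -(p⁻¹ * (w e0 - 1)) * (β (nt98_tw sh' a / sh' (nt98_tw sh' b)) -
          α (nt98_tw sh' b / sh' (nt98_tw sh' a))) := by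
      rw [nt98_G, map_add, map_mul, map_mul, map_sub, map_one, H.w_α, ntc98_w_β H]
      ring
    rw [e]
    exact V.mul_mem (V.neg_mem H.e0_zero) (V.sub_mem (H.β_mem _ hu1) hαu2)
  exact ⟨ntc98_unit_of_cong H.p_ne H.p_mem H.one_add c1 hαu10 hαu1 hαu1i,
    ntc98_unit_of_cong H.p_ne H.p_mem H.one_add c2 hαu20 hαu2 hαu2i, c1, c2⟩

/-- `G ≠ 0`. -/
theorem ntc98_G_ne_zero (H : ntc98_Frame p V V' w sh sh' α β Nα Nβ e0) {a b : F'} (ha : a ≠ 0)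
    (hb : b ≠ 0) : nt98_G sh' α β e0 a b ≠ 0 := by
  obtain ⟨-, -, cG, -⟩ := ntc98_G_unit (e0 := e0) H ha hb
  obtain ⟨hu10, hu1, hu1i⟩ := ntc98_quot H ha hb
  obtain ⟨hαu10, -, hαu1i⟩ := ntc98_α_unit H hu10 hu1 hu1i
  exact ntc98_ne_zero_of_cong H.p_inv cG hαu10 hαu1i

/-- One branch of (1c): if `α (N₁ f1) ≡ f1 * ŝ (w f1)`, `α (N₂ f1) ≡ w f1 * ŝ f1` with
`N₁ f = c1 * a ^ m`, `N₂ f = c2 * b ^ m`, then
`f1 / ŝ² f1 ≡ α (γ1 / ŝ' γ2) * α (a1 / ŝ' b1) ^ m` modulo `p V`. -/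
theorem ntc98_branch (H : ntc98_Frame p V V' w sh sh' α β Nα Nβ e0) (m : ℕ) {x y : F}
    {a b c1 c2 : F'} (hx0 : x ≠ 0) (hx : x ∈ V) (hxi : x⁻¹ ∈ V) (hb : b ≠ 0) (hc2 : c2 ≠ 0)
    (hA : p⁻¹ * (α (nt98_tw sh' c1 * nt98_tw sh' a ^ m) - x * sh y) ∈ V)
    (hB : p⁻¹ * (α (nt98_tw sh' c2 * nt98_tw sh' b ^ m) - y * sh x) ∈ V) :
    p⁻¹ * (nt98_tw sh x - α (nt98_tw sh' c1 / sh' (nt98_tw sh' c2)) *
      α (nt98_tw sh' a / sh' (nt98_tw sh' b)) ^ m) ∈ V := by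
  have hb1 := nt98_tw_unit V' sh' H.sh'_div hb
  have hγ2 := nt98_tw_unit V' sh' H.sh'_div hc2
  have hB0' : nt98_tw sh' c2 * nt98_tw sh' b ^ m ≠ 0 :=
    mul_ne_zero (nt98_tw_ne_zero sh' hc2) (pow_ne_zero m (nt98_tw_ne_zero sh' hb))
  have hBi' : (nt98_tw sh' c2 * nt98_tw sh' b ^ m)⁻¹ ∈ V' := by
    rw [mul_inv, ← inv_pow]
    exact V'.mul_mem hγ2.2 (V'.pow_mem hb1.2 m)
  have hBi : (α (nt98_tw sh' c2 * nt98_tw sh' b ^ m))⁻¹ ∈ V := by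
    rw [← map_inv₀]
    exact H.α_mem _ hBi'
  have h := ntc98_elim H.p_ne sh H.sh_mem (ntc98_sh_p H) hx0 ((map_ne_zero α).mpr hB0') hx hxi
    hBi hA hB
  have e : α (nt98_tw sh' c1 * nt98_tw sh' a ^ m) / sh (α (nt98_tw sh' c2 * nt98_tw sh' b ^ m)) =
      α (nt98_tw sh' c1 / sh' (nt98_tw sh' c2)) *
        α (nt98_tw sh' a / sh' (nt98_tw sh' b)) ^ m := by
    rw [H.sh_α, ← map_div₀, ← map_pow, ← map_mul, map_mul sh', map_pow sh', div_pow,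
      mul_div_mul_comm]
  rw [e] at h
  exact h

/-- **Step (1c), congruence form.**  If `Nα f = c1 * a ^ m` and `Nβ f = c2 * b ^ m`, then
`f3 = (f1 / ŝ² f1) / G ^ m` is a unit of `W = V_∞ ⊓ V_0` with
`f3 ≡ α (γ1 / ŝ' γ2)` modulo `p V_∞` and `w f3 ≡ α (γ2 / ŝ' γ1)` modulo `p V_∞`. -/
theorem ntc98_main (H : ntc98_Frame p V V' w sh sh' α β Nα Nβ e0) (m : ℕ) {f : F}
    {a b c1 c2 : F'} (hf : f ≠ 0) (ha : a ≠ 0) (hb : b ≠ 0) (hNα : Nα f = c1 * a ^ m)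
    (hNβ : Nβ f = c2 * b ^ m) :
    (nt98_f3 sh sh' α β e0 m f a b ∈ V ∧ (nt98_f3 sh sh' α β e0 m f a b)⁻¹ ∈ V) ∧
    (w (nt98_f3 sh sh' α β e0 m f a b) ∈ V ∧ (w (nt98_f3 sh sh' α β e0 m f a b))⁻¹ ∈ V) ∧
    p⁻¹ * (nt98_f3 sh sh' α β e0 m f a b - α (nt98_tw sh' c1 / sh' (nt98_tw sh' c2))) ∈ V ∧
    p⁻¹ * (w (nt98_f3 sh sh' α β e0 m f a b) - α (nt98_tw sh' c2 / sh' (nt98_tw sh' c1))) ∈ V := by
  have hc1 : c1 ≠ 0 := by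
    rintro rfl
    rw [zero_mul] at hNα
    exact nt98_map_ne_zero Nα hf hNα
  have hc2 : c2 ≠ 0 := by
    rintro rfl
    rw [zero_mul] at hNβ
    exact nt98_map_ne_zero Nβ hf hNβ
  -- the units `f1`, `w f1`
  have hf10 : nt98_tw sh f ≠ 0 := nt98_tw_ne_zero sh hf
  have hf1 : nt98_tw sh f ∈ V ∧ (nt98_tw sh f)⁻¹ ∈ V := nt98_tw_unit V sh H.sh_div hf
  have hwf0 : w f ≠ 0 := (map_ne_zero w).mpr hf
  have hwf1 : w (nt98_tw sh f) ∈ V ∧ (w (nt98_tw sh f))⁻¹ ∈ V := by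
    rw [ntc98_w_tw H]
    exact nt98_tw_unit V sh H.sh_div hwf0
  have hwf10 : w (nt98_tw sh f) ≠ 0 := (map_ne_zero w).mpr hf10
  -- the two norm congruences at `f1`
  have hA := H.Nα_cong _ hf1.1 hf1.2 hwf1.1 hwf1.2
  have hB := H.Nβ_cong _ hf1.1 hf1.2 hwf1.1 hwf1.2
  rw [ntc98_N_tw sh sh' Nα H.Nα_sh hf, hNα, nt98_tw_mul_pow] at hA
  rw [ntc98_N_tw sh sh' Nβ H.Nβ_sh hf, hNβ, nt98_tw_mul_pow] at hB
  -- the two branches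
  have b1 := ntc98_branch H m hf10 hf1.1 hf1.2 hb hc2 hA hB
  have b2 := ntc98_branch H m hwf10 hwf1.1 hwf1.2 ha hc1 hB hA
  rw [← ntc98_w_tw H] at b2
  -- the unit `G`
  obtain ⟨hG, hwG, cG, cwG⟩ := ntc98_G_unit (e0 := e0) H ha hb
  obtain ⟨hu10, hu1, hu1i⟩ := ntc98_quot H ha hb
  obtain ⟨hu20, hu2, hu2i⟩ := ntc98_quot H hb ha
  obtain ⟨hαu10, hαu1, hαu1i⟩ := ntc98_α_unit H hu10 hu1 hu1i
  obtain ⟨hαu20, hαu2, hαu2i⟩ := ntc98_α_unit H hu20 hu2 hu2i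
  obtain ⟨hk10, hk1, hk1i⟩ := ntc98_quot H hc1 hc2
  obtain ⟨hk20, hk2, hk2i⟩ := ntc98_quot H hc2 hc1
  obtain ⟨hαk10, hαk1, hαk1i⟩ := ntc98_α_unit H hk10 hk1 hk1i
  obtain ⟨hαk20, hαk2, hαk2i⟩ := ntc98_α_unit H hk20 hk2 hk2i
  have hG0 : nt98_G sh' α β e0 a b ≠ 0 := ntc98_ne_zero_of_cong H.p_inv cG hαu10 hαu1i
  have hwG0 : w (nt98_G sh' α β e0 a b) ≠ 0 := (map_ne_zero w).mpr hG0
  -- the branch at infinity
  have hpow1 := ntc98_cong_pow hαu1 hG.1 (ntc98_cong_symm cG) m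
  have hmul1 := ntc98_cong_mul hαk1 (V.pow_mem hG.1 m)
    (ntc98_cong_refl (p := p) (α (nt98_tw sh' c1 / sh' (nt98_tw sh' c2)))) hpow1
  have c3 : p⁻¹ * (nt98_f3 sh sh' α β e0 m f a b -
      α (nt98_tw sh' c1 / sh' (nt98_tw sh' c2))) ∈ V := by
    rw [nt98_f3]
    refine ntc98_cong_div (pow_ne_zero m hG0) ?_ (ntc98_cong_trans b1 hmul1)
    rw [← inv_pow]
    exact V.pow_mem hG.2 m
  -- the branch at zero
  have hpow2 := ntc98_cong_pow hαu2 hwG.1 (ntc98_cong_symm cwG) m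
  have hmul2 := ntc98_cong_mul hαk2 (V.pow_mem hwG.1 m)
    (ntc98_cong_refl (p := p) (α (nt98_tw sh' c2 / sh' (nt98_tw sh' c1)))) hpow2
  have c4 : p⁻¹ * (w (nt98_f3 sh sh' α β e0 m f a b) -
      α (nt98_tw sh' c2 / sh' (nt98_tw sh' c1))) ∈ V := by
    rw [nt98_f3, map_div₀, map_pow]
    refine ntc98_cong_div (pow_ne_zero m hwG0) ?_ (ntc98_cong_trans b2 hmul2)
    rw [← inv_pow]
    exact V.pow_mem hwG.2 m
  exact ⟨ntc98_unit_of_cong H.p_ne H.p_mem H.one_add c3 hαk10 hαk1 hαk1i,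
    ntc98_unit_of_cong H.p_ne H.p_mem H.one_add c4 hαk20 hαk2 hαk2i, c3, c4⟩

end Main

end Fermat.Agent.S35
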