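import Mathlib
import Fermat.Agent.S35.NewToricCong98
import Fermat.Agent.S35.FrobFrame50

/-!
# S35 lab (helper98): step (1c) "new ⇒ toric" on the CANONICAL frame

The instance of `NewToricCong98` on the canonical data of the lab (`Iface47c` / `FrobFrame50`):
`F = F_K(M' q)`, `F' = F_K(M')`, `V_∞ = cm85_Vinf (M' q) hπ`, `V' = cm85_Vinf M' hπ`,
`w = al97L_w`, `V_0 = s34i47c_V0`, `W = s34i47c_W`, `ŝ = s34i47_coeffEquiv σ _` for a Frobenius
lift `σ` (`ff50_Frob R q σ`), `α = al97L_alpha`, `β = al97L_beta`.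

Inputs which are NOT proved here (they are the outputs of the packages (1b) and `e0`):

* the two norms `Nα Nβ : F →* F'` with `N (ŝ x) = ŝ' (N x)` (`nti98_norm_sh`: automatic for
  `Algebra.norm` of any algebra structure whose `algebraMap` commutes with `ŝ`, `ŝ'`);
* the norm congruences on units of `W`:
  `π⁻¹ (α (Nα y) - y * ŝ (w y)) ∈ V_∞`, `π⁻¹ (α (Nβ y) - w y * ŝ y) ∈ V_∞`;
* the splitting element `e0`: `π⁻¹ e0 ∈ V_∞`, `π⁻¹ (e0 - 1) ∈ V_0`.

Output `nti98_main`: for `f ≠ 0`, `a b ≠ 0`, constants `k1 k2 : K` with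
`Nα f = k1 * a ^ m`, `Nβ f = k2 * b ^ m`: there are `G ≠ 0`, a unit of `W`, and units
`r1 r2 : R` such that `f3 = (f1 / ŝ² f1) / G ^ m` (`f1 = f / ŝ² f`) is a unit of `W` with
`f3 ≡ r1` modulo `π V_∞` and `f3 ≡ r2` modulo `π V_0`.
-/

set_option autoImplicit false
set_option linter.unusedSectionVars false
set_option linter.style.haveILetI false

open ModularCurve IntermediateField

namespace Fermat.Agent.S35

open Fermat.Agent.S18 Fermat.Agent.S34 Fermat.Agent.S37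

local notation "Q̄" => AlgebraicClosure ℚ

/-! ## 1. Units of `R` from twists by a Frobenius lift -/

section Const

variable {R K : Type} [CommRing R] [IsDomain R] [IsDiscreteValuationRing R] [Field K]
  [Algebra R K] [IsFractionRing R K] {q : ℕ}

/-- The valuation of `K` is invariant under a Frobenius lift. -/
theorem nti98_div_mem_R [NumberField K] (σ : K ≃+* K) (hσ : ff50_Frob R q σ) (k : K)
    (hk : k ≠ 0) :
    (∃ r : R, algebraMap R K r = σ k / k) ∧ (∃ r : R, algebraMap R K r = k / σ k) := by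
  have hmem : ∀ x : K, x ∈ (ValuationRing.valuation R K).valuationSubring ↔
      ∃ r : R, algebraMap R K r = x := by
    intro x
    rw [Valuation.mem_valuationSubring_iff, ← Valuation.mem_integer_iff,
      ValuationRing.mem_integer_iff]
  have hστ : ∀ x ∈ (ValuationRing.valuation R K).valuationSubring,
      σ x ∈ (ValuationRing.valuation R K).valuationSubring := by
    intro x hx
    obtain ⟨r, rfl⟩ := (hmem x).mp hx
    obtain ⟨r', hr'⟩ := ff50_g0 σ hσ r
    exact (hmem _).mpr ⟨r', hr'.symm⟩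
  obtain ⟨n, hn0, hn⟩ := in87i_finOrder σ
  exact ⟨(hmem _).mp (wi11_finOrder_div_mem _ σ hστ n hn0 hn k hk),
    (hmem _).mp (wi11_finOrder_inv_div_mem _ σ hστ n hn0 hn k hk)⟩

/-- An element of `K` which lies in `R` together with its inverse comes from a unit of `R`. -/
theorem nti98_unit_of (u : K) (hu0 : u ≠ 0) (h1 : ∃ r : R, algebraMap R K r = u)
    (h2 : ∃ r : R, algebraMap R K r = u⁻¹) : ∃ r : R, IsUnit r ∧ algebraMap R K r = u := by
  obtain ⟨r, hr⟩ := h1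
  obtain ⟨r', hr'⟩ := h2
  refine ⟨r, IsUnit.of_mul_eq_one r' ?_, hr⟩
  apply IsFractionRing.injective R K
  rw [map_mul, hr, hr', map_one, mul_inv_cancel₀ hu0]

/-- `k / σ² k` is a unit of `R`. -/
theorem nti98_tw_unit_R [NumberField K] (σ : K ≃+* K) (hσ : ff50_Frob R q σ) (k : K)
    (hk : k ≠ 0) : ∃ r : R, IsUnit r ∧ algebraMap R K r = k / σ (σ k) := by
  have hσk : σ k ≠ 0 := (map_ne_zero σ).mpr hk
  have hσσk : σ (σ k) ≠ 0 := (map_ne_zero σ).mpr hσk
  obtain ⟨⟨r1, h1⟩, ⟨r2, h2⟩⟩ := nti98_div_mem_R σ hσ k hk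
  obtain ⟨⟨r3, h3⟩, ⟨r4, h4⟩⟩ := nti98_div_mem_R σ hσ (σ k) hσk
  refine nti98_unit_of _ (div_ne_zero hk hσσk) ⟨r2 * r4, ?_⟩ ⟨r3 * r1, ?_⟩
  · rw [map_mul, h2, h4]
    field_simp
  · rw [map_mul, h3, h1]
    field_simp

/-- A Frobenius lift maps units of `R` to units of `R`. -/
theorem nti98_sigma_unit (σ : K ≃+* K) (hσ : ff50_Frob R q σ) (r : R) (hr : IsUnit r) :
    ∃ r' : R, IsUnit r' ∧ algebraMap R K r' = σ (algebraMap R K r) := by
  obtain ⟨s, hs⟩ := hr.exists_right_inv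
  obtain ⟨r', hr'⟩ := ff50_g0 σ hσ r
  obtain ⟨s', hs'⟩ := ff50_g0 σ hσ s
  refine ⟨r', IsUnit.of_mul_eq_one s' ?_, hr'.symm⟩
  apply IsFractionRing.injective R K
  rw [map_mul, ← hr', ← hs', ← map_mul, ← map_mul, hs, map_one, map_one]

/-- The constant `(k1 / σ² k1) / σ (k2 / σ² k2)` is a unit of `R`. -/
theorem nti98_const_unit [NumberField K] (σ : K ≃+* K) (hσ : ff50_Frob R q σ) (k1 k2 : K)
    (hk1 : k1 ≠ 0) (hk2 : k2 ≠ 0) :
    ∃ r : R, IsUnit r ∧ algebraMap R K r = k1 / σ (σ k1) / σ (k2 / σ (σ k2)) := by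
  obtain ⟨r1, hr1, h1⟩ := nti98_tw_unit_R σ hσ k1 hk1
  obtain ⟨r2, hr2, h2⟩ := nti98_tw_unit_R σ hσ k2 hk2
  obtain ⟨r3, hr3, h3⟩ := nti98_sigma_unit σ hσ r2 hr2
  obtain ⟨s, hs⟩ := hr3.exists_right_inv
  have hr30 : algebraMap R K r3 ≠ 0 := by
    intro h0
    have := congrArg (algebraMap R K) hs
    rw [map_mul, h0, zero_mul, map_one] at this
    exact zero_ne_one this
  refine ⟨r1 * s, hr1.mul (IsUnit.of_mul_eq_one r3 (by rw [mul_comm]; exact hs)), ?_⟩
  have hs' : algebraMap R K s = (algebraMap R K r3)⁻¹ := by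
    have := congrArg (algebraMap R K) hs
    rw [map_mul, map_one] at this
    exact eq_inv_of_mul_eq_one_right this
  rw [map_mul, hs', h1, h3, h2, ← div_eq_mul_inv]

end Const

/-! ## 2. The canonical frame -/

section Frame

variable {R K : Type} [CommRing R] [IsDomain R] [IsDiscreteValuationRing R] [Field K]
  [Algebra R K] [IsFractionRing R K]

/-- `π ∈ V_∞` (any level). -/
theorem nti98_pi_mem (M : ℕ) [NeZero M] {π : R} (hπ : Irreducible π) :
    algebraMap K ↥(modularFunctionFieldFullC K M) (algebraMap R K π) ∈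
      cm85_Vinf (K := K) M hπ :=
  gv85_mem_V_of_integral _ _ _ _ (HahnSeries.C π) (by rw [gv85_coe_algebraMap, gv85_coeffMap_C])

/-- `π⁻¹ ∉ V_∞` (any level). -/
theorem nti98_pi_inv (M : ℕ) [NeZero M] {π : R} (hπ : Irreducible π) :
    (algebraMap K ↥(modularFunctionFieldFullC K M) (algebraMap R K π))⁻¹ ∉
      cm85_Vinf (K := K) M hπ :=
  gv85_pi_inv_not_mem (IsLocalRing.residue R) π (pk85_res_iff hπ) hπ.ne_zero _ _

/-- `1 + π V_∞ ⊆ V_∞^×` (any level). -/
theorem nti98_one_add (M : ℕ) [NeZero M] {π : R} (hπ : Irreducible π)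
    (x : ↥(modularFunctionFieldFullC K M)) (hx : x ∈ cm85_Vinf (K := K) M hπ) :
    (1 + algebraMap K ↥(modularFunctionFieldFullC K M) (algebraMap R K π) * x)⁻¹ ∈
      cm85_Vinf (K := K) M hπ := by
  by_contra hnot
  have hp := nti98_pi_mem (K := K) M hπ
  have h1 : 1 + algebraMap K ↥(modularFunctionFieldFullC K M) (algebraMap R K π) * x ∈
      cm85_Vinf (K := K) M hπ :=
    (cm85_Vinf (K := K) M hπ).add_mem _ _ (cm85_Vinf (K := K) M hπ).one_mem
      ((cm85_Vinf (K := K) M hπ).mul_mem _ _ hp hx)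
  have h2 : (algebraMap K ↥(modularFunctionFieldFullC K M) (algebraMap R K π))⁻¹ *
      (1 + algebraMap K ↥(modularFunctionFieldFullC K M) (algebraMap R K π) * x) ∈
      cm85_Vinf (K := K) M hπ :=
    gv85_hmax (IsLocalRing.residue R) π (pk85_res_iff hπ) hπ.ne_zero _ _ _ h1 hnot
  apply nti98_pi_inv (K := K) M hπ
  have hp0 : algebraMap K ↥(modularFunctionFieldFullC K M) (algebraMap R K π) ≠ 0 := by
    intro h0
    apply nti98_pi_inv (K := K) M hπ
    rw [h0, inv_zero]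
    exact (cm85_Vinf (K := K) M hπ).zero_mem
  have e : (algebraMap K ↥(modularFunctionFieldFullC K M) (algebraMap R K π))⁻¹ =
      (algebraMap K ↥(modularFunctionFieldFullC K M) (algebraMap R K π))⁻¹ *
        (1 + algebraMap K ↥(modularFunctionFieldFullC K M) (algebraMap R K π) * x) - x := by
    field_simp
    ring
  rw [e]
  exact sub_mem h2 hx

variable (M' q : ℕ) [NeZero M'] [NeZero q] [Algebra K Q̄] (hq : q.Prime) (hM' : ¬ q ∣ M')

/-- **The canonical frame** satisfies `ntc98_Frame`, given the two norms with their congruences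
and the splitting element `e0`. -/
theorem nti98_frame [NumberField K] {π : R} (hπ : Irreducible π) (σ : K ≃+* K)
    (hσ : ff50_Frob R q σ)
    (Nα Nβ : ↥(modularFunctionFieldFullC K (M' * q)) →* ↥(modularFunctionFieldFullC K M'))
    (hNα_sh : ∀ x : ↥(modularFunctionFieldFullC K (M' * q)), x ≠ 0 →
      Nα (s34i47_coeffEquiv σ (M' * q) x) = s34i47_coeffEquiv σ M' (Nα x))
    (hNβ_sh : ∀ x : ↥(modularFunctionFieldFullC K (M' * q)), x ≠ 0 →
      Nβ (s34i47_coeffEquiv σ (M' * q) x) = s34i47_coeffEquiv σ M' (Nβ x))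
    (hNα : ∀ y : ↥(modularFunctionFieldFullC K (M' * q)),
      y ∈ s34i47c_W (K := K) M' q hq hM' hπ → y⁻¹ ∈ s34i47c_W (K := K) M' q hq hM' hπ →
      (algebraMap K ↥(modularFunctionFieldFullC K (M' * q)) (algebraMap R K π))⁻¹ *
        (al97L_alpha K M' q (Nα y) -
          y * s34i47_coeffEquiv σ (M' * q) (al97L_w (algebraMap K Q̄) M' q hq hM' y)) ∈
        cm85_Vinf (K := K) (M' * q) hπ)
    (hNβ : ∀ y : ↥(modularFunctionFieldFullC K (M' * q)),
      y ∈ s34i47c_W (K := K) M' q hq hM' hπ → y⁻¹ ∈ s34i47c_W (K := K) M' q hq hM' hπ →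
      (algebraMap K ↥(modularFunctionFieldFullC K (M' * q)) (algebraMap R K π))⁻¹ *
        (al97L_alpha K M' q (Nβ y) -
          al97L_w (algebraMap K Q̄) M' q hq hM' y * s34i47_coeffEquiv σ (M' * q) y) ∈
        cm85_Vinf (K := K) (M' * q) hπ)
    (e0 : ↥(modularFunctionFieldFullC K (M' * q)))
    (he0 : (algebraMap K ↥(modularFunctionFieldFullC K (M' * q)) (algebraMap R K π))⁻¹ * e0 ∈
      cm85_Vinf (K := K) (M' * q) hπ)
    (he0' : (algebraMap K ↥(modularFunctionFieldFullC K (M' * q)) (algebraMap R K π))⁻¹ *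
      (e0 - 1) ∈ s34i47c_V0 (K := K) M' q hq hM' hπ) :
    ntc98_Frame (algebraMap K ↥(modularFunctionFieldFullC K (M' * q)) (algebraMap R K π))
      (cm85_Vinf (K := K) (M' * q) hπ).toSubring (cm85_Vinf (K := K) M' hπ).toSubring
      (al97L_w (algebraMap K Q̄) M' q hq hM').toRingEquiv (s34i47_coeffEquiv σ (M' * q))
      (s34i47_coeffEquiv σ M') (al97L_alpha K M' q).toRingHom (al97L_beta K M' q).toRingHom
      Nα Nβ e0 where
  p_ne := by
    intro h0
    apply nti98_pi_inv (K := K) (M' * q) hπ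
    rw [h0, inv_zero]
    exact (cm85_Vinf (K := K) (M' * q) hπ).zero_mem
  p_mem := nti98_pi_mem (K := K) (M' * q) hπ
  p_inv := nti98_pi_inv (K := K) (M' * q) hπ
  one_add := fun x hx => nti98_one_add (M' * q) hπ x hx
  w_w := fun x => al97L_w_w (algebraMap K Q̄) M' q hq hM' x
  w_α := fun h => al97L_w_alpha_apply (algebraMap K Q̄) M' q hq hM' h
  sh_mem := fun x hx => ff50_mem_Vinf (M' * q) hq.ne_zero hπ σ hσ x hx
  sh_div := fun x hx => ⟨ff50_div_mem_Vinf (M' * q) hq.ne_zero hπ σ hσ x hx,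
    ff50_inv_div_mem_Vinf (M' * q) hq.ne_zero hπ σ hσ x hx⟩
  sh_w := fun x => (in87g_w_comm M' q hq hM' σ x).symm
  sh_α := fun h => ff50_alpha_comm M' q σ h
  sh'_mem := fun x hx => ff50_mem_Vinf M' hq.ne_zero hπ σ hσ x hx
  sh'_div := fun x hx => ⟨ff50_div_mem_Vinf M' hq.ne_zero hπ σ hσ x hx,
    ff50_inv_div_mem_Vinf M' hq.ne_zero hπ σ hσ x hx⟩
  α_mem := fun h hh => by
    show ((al97L_alpha K M' q h : ↥(modularFunctionFieldFullC K (M' * q))) : LaurentSeries K) ∈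
      tv84_G K (IsLocalRing.residue R)
    rw [al97L_alpha_coe]
    exact hh
  β_mem := fun h hh => by
    show ((al97L_beta K M' q h : ↥(modularFunctionFieldFullC K (M' * q))) : LaurentSeries K) ∈
      tv84_G K (IsLocalRing.residue R)
    rw [al97L_beta_coe]
    exact tv84_qExpand_mem_G (IsLocalRing.residue R) q _ hh
  Nα_sh := hNα_sh
  Nβ_sh := hNβ_sh
  Nα_cong := fun y h1 h2 h3 h4 =>
    hNα y ((s34i47c_mem_W M' q hq hM' hπ y).mpr ⟨h1, h3⟩)
      ((s34i47c_mem_W M' q hq hM' hπ y⁻¹).mpr ⟨h2, by rw [map_inv₀]; exact h4⟩)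
  Nβ_cong := fun y h1 h2 h3 h4 =>
    hNβ y ((s34i47c_mem_W M' q hq hM' hπ y).mpr ⟨h1, h3⟩)
      ((s34i47c_mem_W M' q hq hM' hπ y⁻¹).mpr ⟨h2, by rw [map_inv₀]; exact h4⟩)
  e0_inf := he0
  e0_zero := by
    rw [s34i47c_mem_V0, map_mul, map_inv₀, AlgEquiv.commutes, map_sub, map_one] at he0'
    exact he0'

/-- The congruence for `N_β` follows from the one for `N_α` when `N_β = N_α ∘ w`. -/
theorem nti98_Nβ_of_w {π : R} (hπ : Irreducible π) (σ : K ≃+* K)
    (Nα Nβ : ↥(modularFunctionFieldFullC K (M' * q)) →* ↥(modularFunctionFieldFullC K M'))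
    (hβ : ∀ y : ↥(modularFunctionFieldFullC K (M' * q)),
      Nβ y = Nα (al97L_w (algebraMap K Q̄) M' q hq hM' y))
    (hNα : ∀ y : ↥(modularFunctionFieldFullC K (M' * q)),
      y ∈ s34i47c_W (K := K) M' q hq hM' hπ → y⁻¹ ∈ s34i47c_W (K := K) M' q hq hM' hπ →
      (algebraMap K ↥(modularFunctionFieldFullC K (M' * q)) (algebraMap R K π))⁻¹ *
        (al97L_alpha K M' q (Nα y) -
          y * s34i47_coeffEquiv σ (M' * q) (al97L_w (algebraMap K Q̄) M' q hq hM' y)) ∈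
        cm85_Vinf (K := K) (M' * q) hπ)
    (y : ↥(modularFunctionFieldFullC K (M' * q)))
    (hy : y ∈ s34i47c_W (K := K) M' q hq hM' hπ)
    (hyi : y⁻¹ ∈ s34i47c_W (K := K) M' q hq hM' hπ) :
    (algebraMap K ↥(modularFunctionFieldFullC K (M' * q)) (algebraMap R K π))⁻¹ *
        (al97L_alpha K M' q (Nβ y) -
          al97L_w (algebraMap K Q̄) M' q hq hM' y * s34i47_coeffEquiv σ (M' * q) y) ∈
        cm85_Vinf (K := K) (M' * q) hπ := by
  rw [s34i47c_mem_W] at hy hyi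
  have h1 : al97L_w (algebraMap K Q̄) M' q hq hM' y ∈ s34i47c_W (K := K) M' q hq hM' hπ := by
    rw [s34i47c_mem_W, al97L_w_w]
    exact ⟨hy.2, hy.1⟩
  have h2 : (al97L_w (algebraMap K Q̄) M' q hq hM' y)⁻¹ ∈
      s34i47c_W (K := K) M' q hq hM' hπ := by
    rw [← map_inv₀, s34i47c_mem_W, al97L_w_w]
    exact ⟨hyi.2, hyi.1⟩
  have h := hNα _ h1 h2
  rw [al97L_w_w] at h
  rw [hβ]
  exact h

/-- The constant of (1c) on the canonical frame. -/
theorem nti98_const_eq (σ : K ≃+* K) (k1 k2 : K) :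
    (al97L_alpha K M' q).toRingHom
      (nt98_tw (s34i47_coeffEquiv σ M') (algebraMap K ↥(modularFunctionFieldFullC K M') k1) /
        s34i47_coeffEquiv σ M' (nt98_tw (s34i47_coeffEquiv σ M')
          (algebraMap K ↥(modularFunctionFieldFullC K M') k2))) =
    algebraMap K ↥(modularFunctionFieldFullC K (M' * q))
      (k1 / σ (σ k1) / σ (k2 / σ (σ k2))) := by
  have hs : ∀ k : K, s34i47_coeffEquiv σ M' (algebraMap K ↥(modularFunctionFieldFullC K M') k) =
      algebraMap K ↥(modularFunctionFieldFullC K M') (σ k) := by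
    intro k
    rw [in87i_coeffEquiv_eq, in87_aut_algebraMap]
  rw [nt98_tw, nt98_tw, hs, hs, hs, hs, ← map_div₀, ← map_div₀, hs, ← map_div₀]
  exact AlgHom.commutes (al97L_alpha K M' q) _

/-- **Step (1c) on the canonical frame.**  For `f ≠ 0` in `F_K(M' q)`, `a b ≠ 0` in `F_K(M')`
and constants `k1 k2 : K` with `Nα f = k1 * a ^ m`, `Nβ f = k2 * b ^ m`, there are `G ≠ 0`,
a unit of `W`, and units `r1 r2` of `R` such that `f3 := (f1 / ŝ² f1) / G ^ m`
(`f1 = f / ŝ² f`) is a unit of `W` with `f3 ≡ r1` modulo `π V_∞` and `f3 ≡ r2` modulo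
`π V_0`. -/
theorem nti98_main [NumberField K] {π : R} (hπ : Irreducible π) (σ : K ≃+* K)
    (hσ : ff50_Frob R q σ)
    (Nα Nβ : ↥(modularFunctionFieldFullC K (M' * q)) →* ↥(modularFunctionFieldFullC K M'))
    (hNα_sh : ∀ x : ↥(modularFunctionFieldFullC K (M' * q)), x ≠ 0 →
      Nα (s34i47_coeffEquiv σ (M' * q) x) = s34i47_coeffEquiv σ M' (Nα x))
    (hNβ_sh : ∀ x : ↥(modularFunctionFieldFullC K (M' * q)), x ≠ 0 →
      Nβ (s34i47_coeffEquiv σ (M' * q) x) = s34i47_coeffEquiv σ M' (Nβ x))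
    (hNα : ∀ y : ↥(modularFunctionFieldFullC K (M' * q)),
      y ∈ s34i47c_W (K := K) M' q hq hM' hπ → y⁻¹ ∈ s34i47c_W (K := K) M' q hq hM' hπ →
      (algebraMap K ↥(modularFunctionFieldFullC K (M' * q)) (algebraMap R K π))⁻¹ *
        (al97L_alpha K M' q (Nα y) -
          y * s34i47_coeffEquiv σ (M' * q) (al97L_w (algebraMap K Q̄) M' q hq hM' y)) ∈
        cm85_Vinf (K := K) (M' * q) hπ)
    (hNβ : ∀ y : ↥(modularFunctionFieldFullC K (M' * q)),
      y ∈ s34i47c_W (K := K) M' q hq hM' hπ → y⁻¹ ∈ s34i47c_W (K := K) M' q hq hM' hπ →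
      (algebraMap K ↥(modularFunctionFieldFullC K (M' * q)) (algebraMap R K π))⁻¹ *
        (al97L_alpha K M' q (Nβ y) -
          al97L_w (algebraMap K Q̄) M' q hq hM' y * s34i47_coeffEquiv σ (M' * q) y) ∈
        cm85_Vinf (K := K) (M' * q) hπ)
    (e0 : ↥(modularFunctionFieldFullC K (M' * q)))
    (he0 : (algebraMap K ↥(modularFunctionFieldFullC K (M' * q)) (algebraMap R K π))⁻¹ * e0 ∈
      cm85_Vinf (K := K) (M' * q) hπ)
    (he0' : (algebraMap K ↥(modularFunctionFieldFullC K (M' * q)) (algebraMap R K π))⁻¹ *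
      (e0 - 1) ∈ s34i47c_V0 (K := K) M' q hq hM' hπ)
    (m : ℕ) (f : ↥(modularFunctionFieldFullC K (M' * q)))
    (a b : ↥(modularFunctionFieldFullC K M')) (k1 k2 : K) (hf : f ≠ 0) (ha : a ≠ 0)
    (hb : b ≠ 0) (hfα : Nα f = algebraMap K ↥(modularFunctionFieldFullC K M') k1 * a ^ m)
    (hfβ : Nβ f = algebraMap K ↥(modularFunctionFieldFullC K M') k2 * b ^ m) :
    ∃ G : ↥(modularFunctionFieldFullC K (M' * q)), G ≠ 0 ∧
      G ∈ s34i47c_W (K := K) M' q hq hM' hπ ∧ G⁻¹ ∈ s34i47c_W (K := K) M' q hq hM' hπ ∧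
      ∃ r1 r2 : R, IsUnit r1 ∧ IsUnit r2 ∧
        f / s34i47_coeffEquiv σ (M' * q) (s34i47_coeffEquiv σ (M' * q) f) /
          s34i47_coeffEquiv σ (M' * q) (s34i47_coeffEquiv σ (M' * q)
            (f / s34i47_coeffEquiv σ (M' * q) (s34i47_coeffEquiv σ (M' * q) f))) / G ^ m ∈
          s34i47c_W (K := K) M' q hq hM' hπ ∧
        (f / s34i47_coeffEquiv σ (M' * q) (s34i47_coeffEquiv σ (M' * q) f) /
          s34i47_coeffEquiv σ (M' * q) (s34i47_coeffEquiv σ (M' * q)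
            (f / s34i47_coeffEquiv σ (M' * q) (s34i47_coeffEquiv σ (M' * q) f))) / G ^ m)⁻¹ ∈
          s34i47c_W (K := K) M' q hq hM' hπ ∧
        (algebraMap K ↥(modularFunctionFieldFullC K (M' * q)) (algebraMap R K π))⁻¹ *
          (f / s34i47_coeffEquiv σ (M' * q) (s34i47_coeffEquiv σ (M' * q) f) /
            s34i47_coeffEquiv σ (M' * q) (s34i47_coeffEquiv σ (M' * q)
              (f / s34i47_coeffEquiv σ (M' * q) (s34i47_coeffEquiv σ (M' * q) f))) / G ^ m -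
            algebraMap K ↥(modularFunctionFieldFullC K (M' * q)) (algebraMap R K r1)) ∈
          cm85_Vinf (K := K) (M' * q) hπ ∧
        (algebraMap K ↥(modularFunctionFieldFullC K (M' * q)) (algebraMap R K π))⁻¹ *
          (f / s34i47_coeffEquiv σ (M' * q) (s34i47_coeffEquiv σ (M' * q) f) /
            s34i47_coeffEquiv σ (M' * q) (s34i47_coeffEquiv σ (M' * q)
              (f / s34i47_coeffEquiv σ (M' * q) (s34i47_coeffEquiv σ (M' * q) f))) / G ^ m -
            algebraMap K ↥(modularFunctionFieldFullC K (M' * q)) (algebraMap R K r2)) ∈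
          s34i47c_V0 (K := K) M' q hq hM' hπ := by
  have H := nti98_frame M' q hq hM' hπ σ hσ Nα Nβ hNα_sh hNβ_sh hNα hNβ e0 he0 he0'
  have hk1 : k1 ≠ 0 := by
    rintro rfl
    rw [map_zero, zero_mul] at hfα
    exact nt98_map_ne_zero Nα hf hfα
  have hk2 : k2 ≠ 0 := by
    rintro rfl
    rw [map_zero, zero_mul] at hfβ
    exact nt98_map_ne_zero Nβ hf hfβ
  obtain ⟨hG, hwG, -, -⟩ := ntc98_G_unit H ha hb
  have hG0 := ntc98_G_ne_zero H ha hb
  obtain ⟨h3, hw3, c3, c4⟩ := ntc98_main H m hf ha hb hfα hfβ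
  rw [nti98_const_eq] at c3 c4
  obtain ⟨r1, hr1, e1⟩ := nti98_const_unit σ hσ k1 k2 hk1 hk2
  obtain ⟨r2, hr2, e2⟩ := nti98_const_unit σ hσ k2 k1 hk2 hk1
  rw [← e1] at c3
  rw [← e2] at c4
  refine ⟨nt98_G (s34i47_coeffEquiv σ M') (al97L_alpha K M' q).toRingHom
      (al97L_beta K M' q).toRingHom e0 a b, hG0,
    (s34i47c_mem_W M' q hq hM' hπ _).mpr ⟨hG.1, hwG.1⟩,
    (s34i47c_mem_W M' q hq hM' hπ _).mpr ⟨hG.2, by rw [map_inv₀]; exact hwG.2⟩,
    r1, r2, hr1, hr2,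
    (s34i47c_mem_W M' q hq hM' hπ _).mpr ⟨h3.1, hw3.1⟩,
    (s34i47c_mem_W M' q hq hM' hπ _).mpr ⟨h3.2, by rw [map_inv₀]; exact hw3.2⟩, c3, ?_⟩
  rw [s34i47c_mem_V0, map_mul, map_inv₀, AlgEquiv.commutes, map_sub, AlgEquiv.commutes]
  exact c4

end Frame

end Fermat.Agent.S35
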