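import Fermat.Agent.S35.NormCong97
import Fermat.Agent.S35.Iface62

/-!
# S35 lab (helper86): the LITERAL package `s35i62_Pkg_Norm` of `Iface62` (P-NORM, (1b))

`Iface62` states the norm formula (1b) in the unbalanced form `s35i62_NormProps`:

* (N1) `N_β y = N_α (w y)`                              — `ng97_norm_beta` (helper97);
* (N2) `N_α (τ̂ y) = τ̂ (N_α y)` for every `τ : K ≃+* K`  — `pn86_norm_coeffEquiv`;
* (N3) if `w y = π^k · (unit of V_∞)` then
  `π⁻¹ · (α (N_α y) / (y · σ̂ (w y)) · (σ π / π^q)^k − 1) ∈ V_∞`  — `pn86_cong`.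

Proof of (N3): the case `k = 0` (`pn86_cong0_nonunits`) is the reduction argument of
`ng97_norm_cong_nonunits` run on the quotient `X = α (N_α y) / (y · σ̂ (w y))`: by `ng97_norm_gen`
`T(X) · T(σ̂ (w y)) = ∏_{b<q} (w y)(ζ^b Q)` in `ℚ̄((Q))` (the factor `T(y)` cancels, so NO
hypothesis on the valuation of `y` at `V_∞` is needed), and modulo a prime above `π` both
`T(σ̂ u)` and `∏_b u(ζ^b Q)` reduce to `ū^q`.  The general case follows by applying the case
`k = 0` to `π^(-k) y` (the norm of the constant `π` is `π^(q+1)`).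

`pn86_pkg_norm : s35i62_Pkg_Norm`.  All names are prefixed `pn86_`.
-/

set_option autoImplicit false
set_option linter.style.haveILetI false
set_option linter.style.longLine false
set_option linter.unusedSectionVars false
set_option linter.unusedVariables false

open ModularCurve AlgebraicCurve IntermediateField
open Fermat.Agent.S24 Fermat.Agent.S28 Fermat.Agent.S18 Fermat.Agent.S37 Fermat.Agent.S34
open Fermat.Agent.S42

namespace Fermat.Agent.S35

section pn86_main

variable {R K : Type} [CommRing R] [IsDomain R] [IsDiscreteValuationRing R] [Field K]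
  [Algebra R K] [IsFractionRing R K] [Algebra K Kbar]
  (M' q : ℕ) [NeZero M'] [NeZero q] (hq : q.Prime) (hM' : ¬ q ∣ M')

/-- **(N3), case `k = 0`, as membership in the maximal ideal.**  For `y ≠ 0` with `w y` a unit of
`V_∞` (no hypothesis on `y` itself): `α (N_α y) / (y · σ̂ (w y)) − 1 ∈ 𝔪_{V_∞}`. -/
theorem pn86_cong0_nonunits {π : R} (hπ : Irreducible π)
    (hqR : ¬ IsUnit (q : R)) (σ : K ≃+* K)
    (hσ : ∀ r : R, ∃ r' : R, σ (algebraMap R K r) = algebraMap R K r' ∧
      r' - r ^ q ∈ IsLocalRing.maximalIdeal R)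
    (y : ↥(modularFunctionFieldFullC K (M' * q))) (hy0 : y ≠ 0)
    (hu : al97L_w (algebraMap K Kbar) M' q hq hM' y ∈ cm85_Vinf (K := K) (M' * q) hπ)
    (hu' : (al97L_w (algebraMap K Kbar) M' q hq hM' y)⁻¹ ∈ cm85_Vinf (K := K) (M' * q) hπ) :
    letI := algebraAlong (al97L_alpha K M' q)
    al97L_alpha K M' q (Algebra.norm ↥(modularFunctionFieldFullC K M') y) /
        (y * s34i47_coeffEquiv σ (M' * q) (al97L_w (algebraMap K Kbar) M' q hq hM' y)) - 1 ∈
      (cm85_Vinf (K := K) (M' * q) hπ).nonunits := by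
  letI := algebraAlong (al97L_alpha K M' q)
  haveI : CharZero K := RingHom.charZero (algebraMap K Kbar)
  have hL : ((M' * q : ℕ) : K) ≠ 0 := Nat.cast_ne_zero.mpr (NeZero.ne (M' * q))
  obtain ⟨B, _, j, ι, k, _, _, ρ, ζB, hj, hjι, hρι, hζ, hρζ⟩ :=
    ng97_exists_red (R := R) (K := K) q hq hqR
  haveI : ExpChar k q := ExpChar.prime hq
  have hnorm := ng97_norm_gen (algebraMap K Kbar) M' q hq hM' hL _ hζ y
  set φ : K →+* Kbar := algebraMap K Kbar with hφ
  set ζ : Kbarˣ := Units.map (j : B →* Kbar) ζB with hζdef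
  set wy : ↥(modularFunctionFieldFullC K (M' * q)) := al97L_w φ M' q hq hM' y with hwy_def
  set Ny : ↥(modularFunctionFieldFullC K M') :=
    Algebra.norm ↥(modularFunctionFieldFullC K M') y with hNy
  have hwy0 : wy ≠ 0 := by
    rw [hwy_def]
    exact (EmbeddingLike.map_ne_zero_iff (f := al97L_w φ M' q hq hM')).mpr hy0
  have hswy0 : s34i47_coeffEquiv σ (M' * q) wy ≠ 0 :=
    (EmbeddingLike.map_ne_zero_iff (f := s34i47_coeffEquiv σ (M' * q))).mpr hwy0
  set X : ↥(modularFunctionFieldFullC K (M' * q)) :=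
    al97L_alpha K M' q Ny / (y * s34i47_coeffEquiv σ (M' * q) wy) with hX
  set D : ↥(modularFunctionFieldFullC K (M' * q)) := X - 1 with hD
  have hXmul : X * (y * s34i47_coeffEquiv σ (M' * q) wy) = al97L_alpha K M' q Ny :=
    div_mul_cancel₀ _ (mul_ne_zero hy0 hswy0)
  have hXcoe : (X : LaurentSeries K) *
      ((y : LaurentSeries K) * coeffMap (σ : K →+* K) (wy : LaurentSeries K)) =
      (Ny : LaurentSeries K) := by
    rw [← al97L_alpha_coe K M' q Ny, ← s34i47_coeffEquiv_coe σ (M' * q) wy, ← hXmul]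
    rfl
  have hDcoe : (D : LaurentSeries K) = (X : LaurentSeries K) - 1 := rfl
  by_contra hcon
  have hD0 : D ≠ 0 := fun h0 => hcon (by
    rw [h0, ValuationSubring.mem_nonunits_iff, map_zero]
    exact zero_lt_one)
  have hDinv : D⁻¹ ∈ cm85_Vinf (K := K) (M' * q) hπ := by
    rw [← ValuationSubring.valuation_le_one_iff, map_inv₀]
    have h1 : ¬ (cm85_Vinf (K := K) (M' * q) hπ).valuation D < 1 := fun h =>
      hcon ((ValuationSubring.mem_nonunits_iff _).mpr h)
    exact inv_le_one_of_one_le₀ (not_lt.mp h1)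
  obtain ⟨s, t, hs, hst⟩ := hDinv
  obtain ⟨s2, t2, hs2, hst2⟩ := hu
  obtain ⟨s3, t3, hs3, hst3⟩ := hu'
  have hinjRK : Function.Injective (algebraMap R K) := IsFractionRing.injective R K
  -- `t2` has nonzero reduction (`w y` is a unit of `V_∞`)
  have ht2 : coeffMap (IsLocalRing.residue R) t2 ≠ 0 := by
    have h1 : coeffMap (algebraMap R K) s3 =
        coeffMap (algebraMap R K) t3 * (wy : LaurentSeries K) := by
      have h2 : ((wy⁻¹ : ↥(modularFunctionFieldFullC K (M' * q))) : LaurentSeries K) *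
          (wy : LaurentSeries K) = 1 := by
        have h3 := congrArg (fun x : ↥(modularFunctionFieldFullC K (M' * q)) =>
          (x : LaurentSeries K)) (inv_mul_cancel₀ hwy0)
        exact h3
      rw [← hst3, mul_assoc, h2, mul_one]
    have h4 : s2 * s3 = t3 * t2 := by
      apply kn97_coeffMap_injective (algebraMap R K) hinjRK
      rw [map_mul, map_mul, h1, ← hst2]
      ring
    intro h0
    have h5 := congrArg (coeffMap (IsLocalRing.residue R)) h4
    rw [map_mul, map_mul, h0, mul_zero] at h5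
    exact mul_ne_zero hs2 hs3 h5
  obtain ⟨s2σ, hs2σ, hs2σ'⟩ := ng97_sigma_series q σ hσ s2
  obtain ⟨t2σ, ht2σ, ht2σ'⟩ := ng97_sigma_series q σ hσ t2
  -- `s = t * D`
  have hsD : coeffMap (algebraMap R K) s = coeffMap (algebraMap R K) t * (D : LaurentSeries K) := by
    have h1 : ((D⁻¹ : ↥(modularFunctionFieldFullC K (M' * q))) : LaurentSeries K) *
        (D : LaurentSeries K) = 1 := by
      have h2 := congrArg (fun x : ↥(modularFunctionFieldFullC K (M' * q)) =>
        (x : LaurentSeries K)) (inv_mul_cancel₀ hD0)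
      exact h2
    rw [← hst, mul_assoc, h1, mul_one]
  -- the `σ`-twisted relation
  have hst2σ : coeffMap (algebraMap R K) s2σ * coeffMap (σ : K →+* K) (wy : LaurentSeries K) =
      coeffMap (algebraMap R K) t2σ := by
    rw [hs2σ, ht2σ, ← map_mul, hst2]
  -- transfer to `ℚ̄((Q))`
  let T : LaurentSeries K →+* LaurentSeries Kbar := (qExpand Kbar q).comp (coeffMap φ)
  have hTinj : Function.Injective T := RingHom.injective T
  have hcomp : j.comp ι = φ.comp (algebraMap R K) := RingHom.ext hjι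
  have hT : ∀ x : LaurentSeries R, T (coeffMap (algebraMap R K) x) =
      coeffMap j (qExpand B q (coeffMap ι x)) := by
    intro x
    show qExpand Kbar q (coeffMap φ (coeffMap (algebraMap R K) x)) = _
    rw [coeffMap_qExpand, coeffMap_coeffMap, coeffMap_coeffMap, hcomp]
  have htw : ∀ (b : ℕ) (x : LaurentSeries R),
      twist (ζ ^ b) (coeffMap φ (coeffMap (algebraMap R K) x)) =
        coeffMap j (twist (ζB ^ b) (coeffMap ι x)) := by
    intro b x
    rw [coeffMap_twist, map_pow, coeffMap_coeffMap, coeffMap_coeffMap, hcomp]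
  have e2 : (∏ b : Fin q, twist (ζ ^ (b : ℕ)) (coeffMap φ (coeffMap (algebraMap R K) s2))) *
      (∏ b : Fin q, twist (ζ ^ (b : ℕ)) (coeffMap φ (wy : LaurentSeries K))) =
      ∏ b : Fin q, twist (ζ ^ (b : ℕ)) (coeffMap φ (coeffMap (algebraMap R K) t2)) := by
    rw [← Finset.prod_mul_distrib]
    refine Finset.prod_congr rfl fun b _ => ?_
    rw [← map_mul, ← map_mul, hst2]
  have e3 : T (coeffMap (algebraMap R K) s2σ) *
      T (coeffMap (σ : K →+* K) (wy : LaurentSeries K)) =
      T (coeffMap (algebraMap R K) t2σ) := by rw [← map_mul, hst2σ]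
  have e4 : T (Ny : LaurentSeries K) = T (y : LaurentSeries K) *
      ∏ b : Fin q, twist (ζ ^ (b : ℕ)) (coeffMap φ (wy : LaurentSeries K)) := hnorm
  have hTy0 : T (y : LaurentSeries K) ≠ 0 := by
    intro h0
    apply hy0
    apply Subtype.ext
    exact hTinj (h0.trans (map_zero T).symm)
  have e5 : T (X : LaurentSeries K) * T (coeffMap (σ : K →+* K) (wy : LaurentSeries K)) =
      ∏ b : Fin q, twist (ζ ^ (b : ℕ)) (coeffMap φ (wy : LaurentSeries K)) := by
    have h1 : T (X : LaurentSeries K) * (T (y : LaurentSeries K) *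
        T (coeffMap (σ : K →+* K) (wy : LaurentSeries K))) = T (Ny : LaurentSeries K) := by
      rw [← map_mul, ← map_mul, hXcoe]
    rw [e4] at h1
    apply mul_left_cancel₀ hTy0
    rw [← h1]
    ring
  have e6 : T (coeffMap (algebraMap R K) s) =
      T (coeffMap (algebraMap R K) t) * (T (X : LaurentSeries K) - 1) := by
    rw [hsD, map_mul, hDcoe, map_sub, map_one]
  have key : T (coeffMap (algebraMap R K) s) * (T (coeffMap (algebraMap R K) t2σ) *
      (∏ b : Fin q, twist (ζ ^ (b : ℕ)) (coeffMap φ (coeffMap (algebraMap R K) s2)))) =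
      T (coeffMap (algebraMap R K) t) *
      ((∏ b : Fin q, twist (ζ ^ (b : ℕ)) (coeffMap φ (coeffMap (algebraMap R K) t2))) *
        T (coeffMap (algebraMap R K) s2σ) -
       T (coeffMap (algebraMap R K) t2σ) *
        (∏ b : Fin q, twist (ζ ^ (b : ℕ)) (coeffMap φ (coeffMap (algebraMap R K) s2)))) := by
    rw [e6, ← e3, ← e2]
    linear_combination (T (coeffMap (algebraMap R K) t) * T (coeffMap (algebraMap R K) s2σ) *
      (∏ b : Fin q, twist (ζ ^ (b : ℕ)) (coeffMap φ (coeffMap (algebraMap R K) s2)))) * e5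
  -- over `B`
  have keyB : qExpand B q (coeffMap ι s) * (qExpand B q (coeffMap ι t2σ) *
      (∏ b : Fin q, twist (ζB ^ (b : ℕ)) (coeffMap ι s2))) =
      qExpand B q (coeffMap ι t) *
      ((∏ b : Fin q, twist (ζB ^ (b : ℕ)) (coeffMap ι t2)) * qExpand B q (coeffMap ι s2σ) -
       qExpand B q (coeffMap ι t2σ) * (∏ b : Fin q, twist (ζB ^ (b : ℕ)) (coeffMap ι s2))) := by
    apply kn97_coeffMap_injective j hj
    simp only [map_mul, map_sub, map_prod, ← hT, ← htw]
    exact key
  -- reduce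
  set r : R →+* k := ρ.comp ι with hr
  have hfrob : ∀ (x x' : LaurentSeries R),
      (∀ n, x'.coeff n - x.coeff n ^ q ∈ IsLocalRing.maximalIdeal R) →
      qExpand k q (coeffMap r x') = coeffMap r x ^ q := by
    intro x x' hx
    rw [kn97_frobenius]
    congr 1
    ext n
    rw [coeffMap_coeff, coeffMap_coeff, coeffMap_coeff, frobenius_def]
    have h1 := (hρι _).mpr (hx n)
    have h2 : r (x'.coeff n - x.coeff n ^ q) = 0 := h1
    rw [map_sub, map_pow] at h2
    exact sub_eq_zero.mp h2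
  have hprod : ∀ x : LaurentSeries R,
      coeffMap ρ (∏ b : Fin q, twist (ζB ^ (b : ℕ)) (coeffMap ι x)) = coeffMap r x ^ q := by
    intro x
    rw [map_prod]
    have h4 : ∀ b ∈ (Finset.univ : Finset (Fin q)),
        coeffMap ρ (twist (ζB ^ (b : ℕ)) (coeffMap ι x)) = coeffMap r x := by
      intro b _
      rw [coeffMap_twist, map_pow, hρζ, one_pow, twist_one, coeffMap_coeffMap]
    rw [Finset.prod_congr rfl h4, Finset.prod_const, Finset.card_univ, Fintype.card_fin]
  have hqe : ∀ x : LaurentSeries R,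
      coeffMap ρ (qExpand B q (coeffMap ι x)) = qExpand k q (coeffMap r x) := by
    intro x
    rw [coeffMap_qExpand, coeffMap_coeffMap]
  have hne : ∀ x : LaurentSeries R, coeffMap (IsLocalRing.residue R) x ≠ 0 →
      coeffMap r x ≠ 0 := by
    intro x hx h0
    apply hx
    ext n
    have h1 := congrArg (fun z : LaurentSeries k => z.coeff n) h0
    simp only [coeffMap_coeff, HahnSeries.coeff_zero] at h1
    rw [coeffMap_coeff, HahnSeries.coeff_zero, IsLocalRing.residue_eq_zero_iff]
    exact (hρι _).mp h1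
  have hqne : ∀ x : LaurentSeries R, coeffMap (IsLocalRing.residue R) x ≠ 0 →
      qExpand k q (coeffMap r x) ≠ 0 := by
    intro x hx h0
    exact hne x hx (qExpand_injective q (by rw [h0, map_zero]))
  have hred := congrArg (coeffMap ρ) keyB
  simp only [map_mul, map_sub, hprod, hqe, hfrob s2 s2σ hs2σ', hfrob t2 t2σ ht2σ'] at hred
  rw [sub_self, mul_zero] at hred
  exact mul_ne_zero (hqne s hs)
    (mul_ne_zero (pow_ne_zero q (hne t2 ht2)) (pow_ne_zero q (hne s2 hs2))) hred

/-- **(N3), case `k = 0`**: `π⁻¹ · (α (N_α y) / (y · σ̂ (w y)) − 1) ∈ V_∞` for `y ≠ 0` with `w y`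
a unit of `V_∞`. -/
theorem pn86_cong0 {π : R} (hπ : Irreducible π) (hqR : ¬ IsUnit (q : R)) (σ : K ≃+* K)
    (hσ : ∀ r : R, ∃ r' : R, σ (algebraMap R K r) = algebraMap R K r' ∧
      r' - r ^ q ∈ IsLocalRing.maximalIdeal R)
    (y : ↥(modularFunctionFieldFullC K (M' * q))) (hy0 : y ≠ 0)
    (hu : al97L_w (algebraMap K Kbar) M' q hq hM' y ∈ cm85_Vinf (K := K) (M' * q) hπ)
    (hu' : (al97L_w (algebraMap K Kbar) M' q hq hM' y)⁻¹ ∈ cm85_Vinf (K := K) (M' * q) hπ) :
    letI := algebraAlong (al97L_alpha K M' q)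
    (algebraMap K ↥(modularFunctionFieldFullC K (M' * q)) (algebraMap R K π))⁻¹ *
      (al97L_alpha K M' q (Algebra.norm ↥(modularFunctionFieldFullC K M') y) /
        (y * s34i47_coeffEquiv σ (M' * q) (al97L_w (algebraMap K Kbar) M' q hq hM' y)) - 1) ∈
        cm85_Vinf (K := K) (M' * q) hπ :=
  fi66_pi_inv_mul_mem (IsLocalRing.residue R) π (pk85_res_iff hπ) hπ.ne_zero _
    (pk85_HF K (M' * q) hπ) _ (pn86_cong0_nonunits M' q hq hM' hπ hqR σ hσ y hy0 hu hu')

omit [IsDomain R] [IsDiscreteValuationRing R] [IsFractionRing R K] [Algebra R K]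
  [Algebra K Kbar] in
/-- The coefficientwise action on constants. -/
theorem pn86_coeffEquiv_const (σ : K ≃+* K) (M : ℕ) (c : K) :
    s34i47_coeffEquiv σ M (algebraMap K ↥(modularFunctionFieldFullC K M) c) =
      algebraMap K ↥(modularFunctionFieldFullC K M) (σ c) := by
  apply Subtype.ext
  rw [s34i47_coeffEquiv_coe]
  exact cx_coeffMap_algebraMap (σ : K →+* K) c

omit [IsDomain R] [IsDiscreteValuationRing R] [IsFractionRing R K] [Algebra R K] in
include hq hM' in
/-- The norm along `α` of a constant `c ∈ K` is `c ^ (q + 1)`. -/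
theorem pn86_norm_const (c : K) :
    letI := algebraAlong (al97L_alpha K M' q)
    Algebra.norm ↥(modularFunctionFieldFullC K M')
      (algebraMap K ↥(modularFunctionFieldFullC K (M' * q)) c) =
      algebraMap K ↥(modularFunctionFieldFullC K M') c ^ (q + 1) := by
  letI := algebraAlong (al97L_alpha K M' q)
  haveI : CharZero K := RingHom.charZero (algebraMap K Kbar)
  have hL : ((M' * q : ℕ) : K) ≠ 0 := Nat.cast_ne_zero.mpr (NeZero.ne (M' * q))
  have hfr := ng97_finrank K M' q hq hM' hL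
  have h1 : algebraMap K ↥(modularFunctionFieldFullC K (M' * q)) c =
      algebraMap ↥(modularFunctionFieldFullC K M') ↥(modularFunctionFieldFullC K (M' * q))
        (algebraMap K ↥(modularFunctionFieldFullC K M') c) :=
    ((al97L_alpha K M' q).commutes c).symm
  rw [h1, Algebra.norm_algebraMap, hfr]

/-- **(N3), membership in the maximal ideal, general `k`.** -/
theorem pn86_cong_nonunits {π : R} (hπ : Irreducible π) (hqR : ¬ IsUnit (q : R)) (σ : K ≃+* K)
    (hσ : ∀ r : R, ∃ r' : R, σ (algebraMap R K r) = algebraMap R K r' ∧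
      r' - r ^ q ∈ IsLocalRing.maximalIdeal R)
    (y : ↥(modularFunctionFieldFullC K (M' * q))) (k : ℤ) (hy0 : y ≠ 0)
    (hu : (algebraMap K ↥(modularFunctionFieldFullC K (M' * q)) (algebraMap R K π)) ^ (-k) *
      al97L_w (algebraMap K Kbar) M' q hq hM' y ∈ cm85_Vinf (K := K) (M' * q) hπ)
    (hu' : ((algebraMap K ↥(modularFunctionFieldFullC K (M' * q)) (algebraMap R K π)) ^ (-k) *
      al97L_w (algebraMap K Kbar) M' q hq hM' y)⁻¹ ∈ cm85_Vinf (K := K) (M' * q) hπ) :
    letI := algebraAlong (al97L_alpha K M' q)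
    al97L_alpha K M' q (Algebra.norm ↥(modularFunctionFieldFullC K M') y) /
        (y * s34i47_coeffEquiv σ (M' * q) (al97L_w (algebraMap K Kbar) M' q hq hM' y)) *
      (algebraMap K ↥(modularFunctionFieldFullC K (M' * q))
        (σ (algebraMap R K π) / algebraMap R K π ^ q)) ^ k - 1 ∈
      (cm85_Vinf (K := K) (M' * q) hπ).nonunits := by
  letI := algebraAlong (al97L_alpha K M' q)
  haveI : CharZero K := RingHom.charZero (algebraMap K Kbar)
  have hL : ((M' * q : ℕ) : K) ≠ 0 := Nat.cast_ne_zero.mpr (NeZero.ne (M' * q))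
  have hfr := ng97_finrank K M' q hq hM' hL
  haveI : FiniteDimensional ↥(modularFunctionFieldFullC K M')
      ↥(modularFunctionFieldFullC K (M' * q)) :=
    Module.finite_of_finrank_pos (by rw [hfr]; omega)
  set ϖ : K := algebraMap R K π with hϖ
  have hϖ0 : ϖ ≠ 0 := by
    rw [hϖ]
    exact (map_ne_zero_iff _ (IsFractionRing.injective R K)).mpr hπ.ne_zero
  set a : ↥(modularFunctionFieldFullC K (M' * q)) :=
    algebraMap K ↥(modularFunctionFieldFullC K (M' * q)) ϖ with ha
  set b : ↥(modularFunctionFieldFullC K (M' * q)) :=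
    algebraMap K ↥(modularFunctionFieldFullC K (M' * q)) (σ ϖ) with hb
  have ha0 : a ≠ 0 := by
    rw [ha]
    exact (map_ne_zero_iff _ (algebraMap K ↥(modularFunctionFieldFullC K (M' * q))).injective).mpr
      hϖ0
  have hb0 : b ≠ 0 := by
    rw [hb]
    exact (map_ne_zero_iff _ (algebraMap K ↥(modularFunctionFieldFullC K (M' * q))).injective).mpr
      ((map_ne_zero_iff _ σ.injective).mpr hϖ0)
  set w := al97L_w (algebraMap K Kbar) M' q hq hM' with hw
  set sh := s34i47_coeffEquiv σ (M' * q) with hsh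
  -- the normalised element
  set y₀ : ↥(modularFunctionFieldFullC K (M' * q)) := a ^ (-k) * y with hy₀
  have hy₀0 : y₀ ≠ 0 := mul_ne_zero (zpow_ne_zero _ ha0) hy0
  have hwa : w a = a := by rw [ha]; exact w.commutes ϖ
  have hwy₀ : w y₀ = a ^ (-k) * w y := by
    rw [hy₀, map_mul, map_zpow₀, hwa]
  have hsa : sh a = b := by rw [ha, hb, hsh]; exact pn86_coeffEquiv_const σ (M' * q) ϖ
  have hshwy₀ : sh (w y₀) = b ^ (-k) * sh (w y) := by
    rw [hwy₀, map_mul, map_zpow₀, hsa]
  -- the norm of `y₀`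
  let N0 : ↥(modularFunctionFieldFullC K (M' * q)) →*₀ ↥(modularFunctionFieldFullC K M') :=
    { toFun := fun x => Algebra.norm ↥(modularFunctionFieldFullC K M') x
      map_zero' := Algebra.norm_zero
      map_one' := map_one _
      map_mul' := fun x x' => map_mul _ x x' }
  have hN0 : ∀ x, N0 x = Algebra.norm ↥(modularFunctionFieldFullC K M') x := fun _ => rfl
  have hNa : al97L_alpha K M' q (N0 a) = a ^ (q + 1) := by
    rw [hN0, ha, pn86_norm_const M' q hq hM' ϖ, map_pow, AlgHom.commutes]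
  have hNy₀ : al97L_alpha K M' q (Algebra.norm ↥(modularFunctionFieldFullC K M') y₀) =
      (a ^ (q + 1)) ^ (-k) *
        al97L_alpha K M' q (Algebra.norm ↥(modularFunctionFieldFullC K M') y) := by
    rw [← hN0, ← hN0, hy₀, map_mul, map_zpow₀, map_mul, map_zpow₀, hNa]
  have hmain := pn86_cong0_nonunits M' q hq hM' hπ hqR σ hσ y₀ hy₀0
    (by rw [← hw, hwy₀]; exact hu) (by rw [← hw, hwy₀]; exact hu')
  rw [← hw, ← hsh, hNy₀, hshwy₀] at hmain
  have hconst : algebraMap K ↥(modularFunctionFieldFullC K (M' * q)) (σ ϖ / ϖ ^ q) = b / a ^ q := by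
    rw [map_div₀, map_pow]
  rw [hconst]
  have hswy0 : sh (w y) ≠ 0 :=
    (EmbeddingLike.map_ne_zero_iff (f := sh)).mpr
      ((EmbeddingLike.map_ne_zero_iff (f := w)).mpr hy0)
  have hAk : a ^ k ≠ 0 := zpow_ne_zero _ ha0
  have hBk : b ^ k ≠ 0 := zpow_ne_zero _ hb0
  have hAq : (a ^ q) ^ k ≠ 0 := zpow_ne_zero _ (pow_ne_zero q ha0)
  have heq : (a ^ (q + 1)) ^ (-k) *
        al97L_alpha K M' q (Algebra.norm ↥(modularFunctionFieldFullC K M') y) /
        (y₀ * (b ^ (-k) * sh (w y))) =
      al97L_alpha K M' q (Algebra.norm ↥(modularFunctionFieldFullC K M') y) /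
        (y * sh (w y)) * (b / a ^ q) ^ k := by
    rw [hy₀, zpow_neg, zpow_neg, zpow_neg, div_zpow, pow_succ, mul_zpow]
    field_simp
  rw [← heq]
  exact hmain

/-- **(N3)** in the literal shape of `s35i62_NormProps`. -/
theorem pn86_cong {π : R} (hπ : Irreducible π) (hqR : ¬ IsUnit (q : R)) (σ : K ≃+* K)
    (hσ : ∀ r : R, ∃ r' : R, σ (algebraMap R K r) = algebraMap R K r' ∧
      r' - r ^ q ∈ IsLocalRing.maximalIdeal R)
    (y : ↥(modularFunctionFieldFullC K (M' * q))) (k : ℤ) (hy0 : y ≠ 0)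
    (hu : (algebraMap K ↥(modularFunctionFieldFullC K (M' * q)) (algebraMap R K π)) ^ (-k) *
      al97L_w (algebraMap K Kbar) M' q hq hM' y ∈ cm85_Vinf (K := K) (M' * q) hπ)
    (hu' : ((algebraMap K ↥(modularFunctionFieldFullC K (M' * q)) (algebraMap R K π)) ^ (-k) *
      al97L_w (algebraMap K Kbar) M' q hq hM' y)⁻¹ ∈ cm85_Vinf (K := K) (M' * q) hπ) :
    letI := algebraAlong (al97L_alpha K M' q)
    (algebraMap K ↥(modularFunctionFieldFullC K (M' * q)) (algebraMap R K π))⁻¹ *
      (al97L_alpha K M' q (Algebra.norm ↥(modularFunctionFieldFullC K M') y) /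
          (y * s34i47_coeffEquiv σ (M' * q) (al97L_w (algebraMap K Kbar) M' q hq hM' y)) *
        (algebraMap K ↥(modularFunctionFieldFullC K (M' * q))
          (σ (algebraMap R K π) / algebraMap R K π ^ q)) ^ k - 1) ∈
      cm85_Vinf (K := K) (M' * q) hπ :=
  fi66_pi_inv_mul_mem (IsLocalRing.residue R) π (pk85_res_iff hπ) hπ.ne_zero _
    (pk85_HF K (M' * q) hπ) _ (pn86_cong_nonunits M' q hq hM' hπ hqR σ hσ y k hy0 hu hu')

omit [IsDomain R] [IsDiscreteValuationRing R] [IsFractionRing R K] [Algebra R K]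
  [Algebra K Kbar] in
/-- **(N2)**: the norm along `α` commutes with the coefficientwise automorphisms. -/
theorem pn86_norm_coeffEquiv (τ : K ≃+* K) (y : ↥(modularFunctionFieldFullC K (M' * q))) :
    letI := algebraAlong (al97L_alpha K M' q)
    Algebra.norm ↥(modularFunctionFieldFullC K M') (s34i47_coeffEquiv τ (M' * q) y) =
      s34i47_coeffEquiv τ M' (Algebra.norm ↥(modularFunctionFieldFullC K M') y) := by
  letI := algebraAlong (al97L_alpha K M' q)
  have he : (algebraMap ↥(modularFunctionFieldFullC K M')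
        ↥(modularFunctionFieldFullC K (M' * q))).comp
      ((s34i47_coeffEquiv τ M' : ↥(modularFunctionFieldFullC K M') ≃+*
        ↥(modularFunctionFieldFullC K M')) : ↥(modularFunctionFieldFullC K M') →+*
        ↥(modularFunctionFieldFullC K M')) =
      ((s34i47_coeffEquiv τ (M' * q) : ↥(modularFunctionFieldFullC K (M' * q)) ≃+*
        ↥(modularFunctionFieldFullC K (M' * q))) : ↥(modularFunctionFieldFullC K (M' * q)) →+*
        ↥(modularFunctionFieldFullC K (M' * q))).comp
      (algebraMap ↥(modularFunctionFieldFullC K M') ↥(modularFunctionFieldFullC K (M' * q))) := by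
    ext1 x
    apply Subtype.ext
    show ((al97L_alpha K M' q (s34i47_coeffEquiv τ M' x) :
        ↥(modularFunctionFieldFullC K (M' * q))) : LaurentSeries K) =
      ((s34i47_coeffEquiv τ (M' * q) (al97L_alpha K M' q x) :
        ↥(modularFunctionFieldFullC K (M' * q))) : LaurentSeries K)
    rw [al97L_alpha_coe, s34i47_coeffEquiv_coe, s34i47_coeffEquiv_coe, al97L_alpha_coe]
  have h := Algebra.norm_eq_of_equiv_equiv (s34i47_coeffEquiv τ M')
    (s34i47_coeffEquiv τ (M' * q)) he y
  rw [h, RingEquiv.apply_symm_apply]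

end pn86_main

/-- **P-NORM**: the literal package `s35i62_Pkg_Norm` of `Iface62` (no hypothesis). -/
theorem pn86_pkg_norm : s35i62_Pkg_Norm := by
  intro M' q _ _ hq hM' R K _ _ _ _ _ _ _ _ _ _ π hπ hunit hqR hζ
  refine ⟨fun y => ?_, fun τ y => ?_, fun σ hσ y k hy0 hu hu' => ?_⟩
  · exact ng97_norm_beta M' q hq hM' y
  · exact pn86_norm_coeffEquiv M' q τ y
  · exact pn86_cong M' q hq hM' hπ hqR σ hσ y k hy0 hu hu'

end Fermat.Agent.S35
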