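import Mathlib
import Fermat.Agent.S35.NewToricInst98
import Fermat.Agent.S35.Iface62
import Fermat.Agent.S35.SplitElt66
import Fermat.Agent.S35.PkgNorm86

/-!
# S35 lab (helper98): step (1c) "new ⇒ toric" on the canonical frame, HYPOTHESIS-FREE

`NewToricInst98.nti98_main` bound to its three inputs, which are all proved:

* the norm properties (N1), (N2), (N3 at `k = 0`) of `s35i62_NormProps` (Iface62), proved by
  `pn86_pkg_norm` (helper86 / helper97);
* the splitting element `se66_e0` (helper66).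

* `ntf98_of_norm` : (1c) in the binder block of `s35i62_Core`, from `s35i62_NormProps`;
* `ntf98_main` : the same with `pn86_pkg_norm` plugged in (no hypothesis).

Statement: for `f ≠ 0` in `F_K(M' q)`, `a b ≠ 0` in `F_K(M')`, `ca cb : K` with
`N_α f = ca * a ^ m`, `N_β f = cb * b ^ m` there are `G ≠ 0`, a unit of `W`, and units `r1 r2` of
`R` such that `f3 := (f1 / ŝ² f1) / G ^ m` (`f1 = f / ŝ² f`) is a unit of `W`,
`π⁻¹ (f3 - r1) ∈ V_∞` and `π⁻¹ (f3 - r2) ∈ V_0`.
-/

set_option autoImplicit false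
set_option linter.unusedSectionVars false
set_option linter.unusedVariables false
set_option linter.style.haveILetI false
set_option linter.style.longLine false

open ModularCurve AlgebraicCurve IntermediateField

namespace Fermat.Agent.S35

open Fermat.Agent.S18 Fermat.Agent.S34 Fermat.Agent.S37

local notation "Q̄" => AlgebraicClosure ℚ

/-- The norm along `α` of `0` is `0` (the extension has degree `q + 1`). -/
theorem ntf98_normA_zero (K : Type) [Field K] [CharZero K] (M' q : ℕ) [NeZero M'] [NeZero q]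
    (hq : q.Prime) (hM' : ¬ q ∣ M') : s35i62_normA K M' q 0 = 0 := by
  letI := algebraAlong (al97L_alpha K M' q)
  have hfr := ng97_finrank K M' q hq hM' (Nat.cast_ne_zero.mpr (NeZero.ne (M' * q)))
  haveI : Module.Finite ↥(modularFunctionFieldFullC K M')
      ↥(modularFunctionFieldFullC K (M' * q)) :=
    Module.finite_of_finrank_pos (by rw [hfr]; omega)
  haveI : Module.Free ↥(modularFunctionFieldFullC K M')
      ↥(modularFunctionFieldFullC K (M' * q)) := Module.Free.of_divisionRing _ _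
  exact Algebra.norm_zero

/-- **Step (1c) on the canonical frame from the norm package** (binder block of `s35i62_Core`). -/
theorem ntf98_of_norm (M' q : ℕ) [NeZero M'] [NeZero q] (hq : q.Prime) (hM' : ¬ q ∣ M')
    (hNorm : s35i62_NormProps M' q hq hM')
    (R K : Type) [CommRing R] [IsDomain R] [IsDiscreteValuationRing R] [Field K] [NumberField K]
    [Algebra K Q̄] [Algebra R K] [IsFractionRing R K]
    [Algebra R ↥(modularFunctionFieldFullC K (M' * q))]
    [IsScalarTower R K ↥(modularFunctionFieldFullC K (M' * q))] (π : R) (hπ : Irreducible π)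
    (hunit : ∀ n : ℕ, Nat.Coprime n q → IsUnit (n : R)) (hqR : ¬ IsUnit (q : R))
    (hζ : ∃ ζ : K, IsPrimitiveRoot ζ q) (σ : K ≃+* K) (hσ : s35i62_Frobenial R q σ)
    (m : ℕ) (f : ↥(modularFunctionFieldFullC K (M' * q)))
    (a b : ↥(modularFunctionFieldFullC K M')) (ca cb : K) (hf : f ≠ 0) (ha : a ≠ 0)
    (hb : b ≠ 0)
    (hfα : s35i62_normA K M' q f = algebraMap K ↥(modularFunctionFieldFullC K M') ca * a ^ m)
    (hfβ : s35i62_normB K M' q f = algebraMap K ↥(modularFunctionFieldFullC K M') cb * b ^ m) :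
    ∃ G : ↥(modularFunctionFieldFullC K (M' * q)), G ≠ 0 ∧
      G ∈ s34i47c_W (K := K) M' q hq hM' hπ ∧ G⁻¹ ∈ s34i47c_W (K := K) M' q hq hM' hπ ∧
      ∃ r1 r2 : R, IsUnit r1 ∧ IsUnit r2 ∧
        f / s34i47_coeffEquiv σ (M' * q) (s34i47_coeffEquiv σ (M' * q) f) /
          s34i47_coeffEquiv σ (M' * q) (s34i47_coeffEquiv σ (M' * q)
            (f / s34i47_coeffEquiv σ (M' * q) (s34i47_coeffEquiv σ (M' * q) f))) / G ^ m ∈
          s34i47c_W (K := K) M' q hq hM' hπ ∧
        (f / s34i47_coeffEquiv σ (M' * q) (s34i47_coeffEquiv σ (M' * q) f) /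
          s34i47_coeffEquiv σ (M' * q) (s34i47_coeffEquiv σ (M' * q)
            (f / s34i47_coeffEquiv σ (M' * q) (s34i47_coeffEquiv σ (M' * q) f))) / G ^ m)⁻¹ ∈
          s34i47c_W (K := K) M' q hq hM' hπ ∧
        (algebraMap R ↥(modularFunctionFieldFullC K (M' * q)) π)⁻¹ *
          (f / s34i47_coeffEquiv σ (M' * q) (s34i47_coeffEquiv σ (M' * q) f) /
            s34i47_coeffEquiv σ (M' * q) (s34i47_coeffEquiv σ (M' * q)
              (f / s34i47_coeffEquiv σ (M' * q) (s34i47_coeffEquiv σ (M' * q) f))) / G ^ m -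
            algebraMap R ↥(modularFunctionFieldFullC K (M' * q)) r1) ∈
          cm85_Vinf (K := K) (M' * q) hπ ∧
        (algebraMap R ↥(modularFunctionFieldFullC K (M' * q)) π)⁻¹ *
          (f / s34i47_coeffEquiv σ (M' * q) (s34i47_coeffEquiv σ (M' * q) f) /
            s34i47_coeffEquiv σ (M' * q) (s34i47_coeffEquiv σ (M' * q)
              (f / s34i47_coeffEquiv σ (M' * q) (s34i47_coeffEquiv σ (M' * q) f))) / G ^ m -
            algebraMap R ↥(modularFunctionFieldFullC K (M' * q)) r2) ∈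
          s34i47c_V0 (K := K) M' q hq hM' hπ := by
  obtain ⟨hN1, hN2, hN3⟩ := hNorm R K π hπ hunit hqR hζ
  have hσ' : ff50_Frob R q σ := hσ
  have hconv : ∀ r : R, algebraMap R ↥(modularFunctionFieldFullC K (M' * q)) r =
      algebraMap K ↥(modularFunctionFieldFullC K (M' * q)) (algebraMap R K r) :=
    fun r => IsScalarTower.algebraMap_apply R K ↥(modularFunctionFieldFullC K (M' * q)) r
  -- equivariance of the two norms
  have hA_sh : ∀ x : ↥(modularFunctionFieldFullC K (M' * q)), x ≠ 0 →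
      s35i62_normA K M' q (s34i47_coeffEquiv σ (M' * q) x) =
        s34i47_coeffEquiv σ M' (s35i62_normA K M' q x) := fun x _ => hN2 σ x
  have hB_sh : ∀ x : ↥(modularFunctionFieldFullC K (M' * q)), x ≠ 0 →
      s35i62_normB K M' q (s34i47_coeffEquiv σ (M' * q) x) =
        s34i47_coeffEquiv σ M' (s35i62_normB K M' q x) := by
    intro x _
    rw [hN1, hN1, in87g_w_comm, hN2]
  -- the norm congruence on units of `W`
  have hA : ∀ y : ↥(modularFunctionFieldFullC K (M' * q)),
      y ∈ s34i47c_W (K := K) M' q hq hM' hπ → y⁻¹ ∈ s34i47c_W (K := K) M' q hq hM' hπ →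
      (algebraMap K ↥(modularFunctionFieldFullC K (M' * q)) (algebraMap R K π))⁻¹ *
        (al97L_alpha K M' q (s35i62_normA K M' q y) -
          y * s34i47_coeffEquiv σ (M' * q) (al97L_w (algebraMap K Q̄) M' q hq hM' y)) ∈
        cm85_Vinf (K := K) (M' * q) hπ := by
    intro y hy hyi
    by_cases hy0 : y = 0
    · subst hy0
      rw [ntf98_normA_zero K M' q hq hM', map_zero, zero_mul, sub_zero, mul_zero]
      exact zero_mem _
    · rw [s34i47c_mem_W] at hy hyi
      have hw1 : (algebraMap K ↥(modularFunctionFieldFullC K (M' * q)) (algebraMap R K π)) ^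
          (-(0 : ℤ)) * al97L_w (algebraMap K Q̄) M' q hq hM' y ∈
          cm85_Vinf (K := K) (M' * q) hπ := by
        rw [neg_zero, zpow_zero, one_mul]
        exact hy.2
      have hw2 : ((algebraMap K ↥(modularFunctionFieldFullC K (M' * q)) (algebraMap R K π)) ^
          (-(0 : ℤ)) * al97L_w (algebraMap K Q̄) M' q hq hM' y)⁻¹ ∈
          cm85_Vinf (K := K) (M' * q) hπ := by
        rw [neg_zero, zpow_zero, one_mul, ← map_inv₀]
        exact hyi.2
      have h3 := hN3 σ hσ y 0 hy0 hw1 hw2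
      rw [zpow_zero, mul_one] at h3
      have hu : y * s34i47_coeffEquiv σ (M' * q) (al97L_w (algebraMap K Q̄) M' q hq hM' y) ∈
          cm85_Vinf (K := K) (M' * q) hπ :=
        mul_mem hy.1 (ff50_mem_Vinf (M' * q) hq.ne_zero hπ σ hσ' _ hy.2)
      have hu0 : y * s34i47_coeffEquiv σ (M' * q) (al97L_w (algebraMap K Q̄) M' q hq hM' y) ≠ 0 :=
        mul_ne_zero hy0 ((map_ne_zero _).mpr ((map_ne_zero _).mpr hy0))
      have e : (algebraMap K ↥(modularFunctionFieldFullC K (M' * q)) (algebraMap R K π))⁻¹ *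
          (al97L_alpha K M' q (s35i62_normA K M' q y) -
            y * s34i47_coeffEquiv σ (M' * q) (al97L_w (algebraMap K Q̄) M' q hq hM' y)) =
          (algebraMap K ↥(modularFunctionFieldFullC K (M' * q)) (algebraMap R K π))⁻¹ *
            (al97L_alpha K M' q (s35i62_normA K M' q y) /
              (y * s34i47_coeffEquiv σ (M' * q) (al97L_w (algebraMap K Q̄) M' q hq hM' y)) - 1) *
            (y * s34i47_coeffEquiv σ (M' * q) (al97L_w (algebraMap K Q̄) M' q hq hM' y)) := by
        rw [mul_assoc, sub_mul, one_mul, div_mul_cancel₀ _ hu0]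
      rw [e]
      exact mul_mem h3 hu
  have hB := nti98_Nβ_of_w M' q hq hM' hπ σ (s35i62_normA K M' q) (s35i62_normB K M' q) hN1 hA
  -- the splitting element
  obtain ⟨e0, he0, he0'⟩ := se66_e0 (K := K) M' q hq hM' hπ hqR
  rw [hconv] at he0 he0'
  obtain ⟨G, hG0, hG, hGi, r1, r2, hr1, hr2, h3, h3i, c3, c4⟩ :=
    nti98_main M' q hq hM' hπ σ hσ' (s35i62_normA K M' q) (s35i62_normB K M' q) hA_sh hB_sh
      hA hB e0 he0 he0' m f a b ca cb hf ha hb hfα hfβ
  refine ⟨G, hG0, hG, hGi, r1, r2, hr1, hr2, h3, h3i, ?_, ?_⟩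
  · rw [hconv, hconv]
    exact c3
  · rw [hconv, hconv]
    exact c4

/-- **Step (1c) on the canonical frame, hypothesis-free** (binder block of `s35i62_Core`). -/
theorem ntf98_main (M' q : ℕ) [NeZero M'] [NeZero q] (hq : q.Prime) (hM' : ¬ q ∣ M')
    (R K : Type) [CommRing R] [IsDomain R] [IsDiscreteValuationRing R] [Field K] [NumberField K]
    [Algebra K Q̄] [Algebra R K] [IsFractionRing R K]
    [Algebra R ↥(modularFunctionFieldFullC K (M' * q))]
    [IsScalarTower R K ↥(modularFunctionFieldFullC K (M' * q))] (π : R) (hπ : Irreducible π)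
    (hunit : ∀ n : ℕ, Nat.Coprime n q → IsUnit (n : R)) (hqR : ¬ IsUnit (q : R))
    (hζ : ∃ ζ : K, IsPrimitiveRoot ζ q) (σ : K ≃+* K) (hσ : s35i62_Frobenial R q σ)
    (m : ℕ) (f : ↥(modularFunctionFieldFullC K (M' * q)))
    (a b : ↥(modularFunctionFieldFullC K M')) (ca cb : K) (hf : f ≠ 0) (ha : a ≠ 0)
    (hb : b ≠ 0)
    (hfα : s35i62_normA K M' q f = algebraMap K ↥(modularFunctionFieldFullC K M') ca * a ^ m)
    (hfβ : s35i62_normB K M' q f = algebraMap K ↥(modularFunctionFieldFullC K M') cb * b ^ m) :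
    ∃ G : ↥(modularFunctionFieldFullC K (M' * q)), G ≠ 0 ∧
      G ∈ s34i47c_W (K := K) M' q hq hM' hπ ∧ G⁻¹ ∈ s34i47c_W (K := K) M' q hq hM' hπ ∧
      ∃ r1 r2 : R, IsUnit r1 ∧ IsUnit r2 ∧
        f / s34i47_coeffEquiv σ (M' * q) (s34i47_coeffEquiv σ (M' * q) f) /
          s34i47_coeffEquiv σ (M' * q) (s34i47_coeffEquiv σ (M' * q)
            (f / s34i47_coeffEquiv σ (M' * q) (s34i47_coeffEquiv σ (M' * q) f))) / G ^ m ∈
          s34i47c_W (K := K) M' q hq hM' hπ ∧
        (f / s34i47_coeffEquiv σ (M' * q) (s34i47_coeffEquiv σ (M' * q) f) /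
          s34i47_coeffEquiv σ (M' * q) (s34i47_coeffEquiv σ (M' * q)
            (f / s34i47_coeffEquiv σ (M' * q) (s34i47_coeffEquiv σ (M' * q) f))) / G ^ m)⁻¹ ∈
          s34i47c_W (K := K) M' q hq hM' hπ ∧
        (algebraMap R ↥(modularFunctionFieldFullC K (M' * q)) π)⁻¹ *
          (f / s34i47_coeffEquiv σ (M' * q) (s34i47_coeffEquiv σ (M' * q) f) /
            s34i47_coeffEquiv σ (M' * q) (s34i47_coeffEquiv σ (M' * q)
              (f / s34i47_coeffEquiv σ (M' * q) (s34i47_coeffEquiv σ (M' * q) f))) / G ^ m -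
            algebraMap R ↥(modularFunctionFieldFullC K (M' * q)) r1) ∈
          cm85_Vinf (K := K) (M' * q) hπ ∧
        (algebraMap R ↥(modularFunctionFieldFullC K (M' * q)) π)⁻¹ *
          (f / s34i47_coeffEquiv σ (M' * q) (s34i47_coeffEquiv σ (M' * q) f) /
            s34i47_coeffEquiv σ (M' * q) (s34i47_coeffEquiv σ (M' * q)
              (f / s34i47_coeffEquiv σ (M' * q) (s34i47_coeffEquiv σ (M' * q) f))) / G ^ m -
            algebraMap R ↥(modularFunctionFieldFullC K (M' * q)) r2) ∈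
          s34i47c_V0 (K := K) M' q hq hM' hπ :=
  ntf98_of_norm M' q hq hM' (pn86_pkg_norm M' q hq hM') R K π hπ hunit hqR hζ σ hσ m f a b ca cb
    hf ha hb hfα hfβ

end Fermat.Agent.S35
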