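import Mathlib
import Fermat.Agent.S35.NewToric98
import Fermat.Agent.S35.FrobFrame50

/-!
# S35 lab (helper55): step (1c) of the proof text — the CANONICAL INSTANCE of `nt98_Frame`

`NewToric98` (helper98) proves "new ⇒ toric" for an abstract frame `nt98_Frame`.  This file
instantiates that frame on the canonical data of the S34/S35 lab:

* `F = F_K(M' q)`, `F' = F_K(M')`, `Λ = κ((Q))` (`κ` the residue field of `R`);
* `W = s34i47c_W` (`= V_∞ ⊓ V_0`), `V' = cm85_Vinf M'`;
* `rinf = nti55_red (M' q)` (the reduction `tv84_red` of the Gauss ring, extended by `0`),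
  `r0 = rinf ∘ w` (`w = al97L_w`), `r' = nti55_red M'`;
* `ŝ = s34i47_coeffEquiv σ` for a Frobenius lift `σ` (`ff50_Frob`), `sb` = the coefficientwise
  Frobenius of `κ((Q))`;
* `α = al97L_alpha`, `β = al97L_beta`, `Nα`, `Nβ` = the field norms along `α`, `β`
  (`nti55_norm`);
* `e0 = nti55_e0 = (β j - (α j) ^ q) / β (j - j ^ (q ^ 2))`.

Main results:

* `nti55_inv_mem`, `nti55_red_div` : unit criterion for the Gauss ring (nonzero reduction ⟹
  unit) and the reduction of a quotient;
* `nti55_const_of_mem`, `nti55_unit_const`, `nti55_red_const`, `nti55_red_eq_zero` :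
  `V_∞ ∩ K = R`, reduction of constants, kernel of the reduction `= π V_∞`;
* `nti55_norm_equiv` : the norm along `φ` is equivariant for automorphisms commuting with `φ`;
* `nti55_e0_mem`, `nti55_rinf_e0`, `nti55_r0_e0` : `e0 ∈ W`, `red_∞ e0 = 0`, `red_0 e0 = 1`;
* `nti55_frame` : **`nt98_Frame` holds on the canonical data**, given the two norm formulas (1b)
  (`hNα`, `hNβ`: registry row 543) as hypotheses;
* `nti55_toric` : **step (1c) without reductions in the conclusion**: if `N_α f = k₁ a ^ m`,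
  `N_β f = k₂ b ^ m` with constants `k₁, k₂ ∈ K`, then there are a unit `G` of `W` and units
  `c_∞, c_0` of `R` such that `f3 := (f1 / ŝ² f1) / G ^ m` (`f1 = f / ŝ² f`) is a unit of `W`
  with `π⁻¹ (f3 - c_∞) ∈ V_∞` and `π⁻¹ (f3 - c_0) ∈ V_0`.
-/

set_option autoImplicit false
set_option linter.unusedSectionVars false
set_option linter.style.haveILetI false

open ModularCurve IntermediateField

namespace Fermat.Agent.S35

open Fermat.Agent.S18 Fermat.Agent.S34 Fermat.Agent.S37

local notation "Q̄" => AlgebraicClosure ℚ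

/-! ## 1. Series level: the unit criterion -/

section Series

variable {R K κ : Type*} [CommRing R] [IsDomain R] [Field K] [Algebra R K] [IsFractionRing R K]
  [Field κ] (res : R →+* κ)

/-- A Gauss-integral series with nonzero reduction is a unit of `G`. -/
theorem nti55_inv_mem_G (x : tv84_G K res) (hx : tv84_red res x ≠ 0) :
    (x : LaurentSeries K)⁻¹ ∈ tv84_G K res := by
  have hx0 : (x : LaurentSeries K) ≠ 0 := by
    intro h
    apply hx
    have h0 : x = 0 := Subtype.ext h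
    rw [h0, map_zero]
  obtain ⟨s, t, hs, hst⟩ := (tv84_mem_G res x.1).mp x.2
  rw [tv84_red_eq res x s t hs hst] at hx
  have ht : coeffMap res t ≠ 0 := fun h => hx (by rw [h, zero_div])
  refine ⟨t, s, ht, ?_⟩
  rw [← hst]
  field_simp

end Series

/-! ## 2. The norm along a field embedding -/

section Norm

variable {F F' : Type*} [Field F] [Field F']

/-- The field norm of `F` over `φ(F')`, as a monoid homomorphism `F →* F'`. -/
noncomputable def nti55_norm (φ : F' →+* F) : F →* F' :=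
  @Algebra.norm F' F _ _ φ.toAlgebra

/-- The norm along `φ` is equivariant for a pair of automorphisms commuting with `φ`. -/
theorem nti55_norm_equiv (φ : F' →+* F) (s : F ≃+* F) (s' : F' ≃+* F')
    (h : ∀ x, s (φ x) = φ (s' x)) (x : F) :
    nti55_norm φ (s x) = s' (nti55_norm φ x) := by
  letI : Algebra F' F := φ.toAlgebra
  have h1 : Algebra.norm F' x = s'.symm (Algebra.norm F' (s x)) :=
    Algebra.norm_eq_of_equiv_equiv s' s (by
      ext y
      exact (h y).symm) x
  show Algebra.norm F' (s x) = s' (Algebra.norm F' x)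
  rw [h1, RingEquiv.apply_symm_apply]

end Norm

/-! ## 3. The total reduction at one level -/

section Level

variable {R K : Type} [CommRing R] [IsDomain R] [IsDiscreteValuationRing R] [Field K]
  [Algebra R K] [IsFractionRing R K] (M : ℕ) [NeZero M]

open Classical in
/-- The reduction `red : V_∞ → κ((Q))` of the Gauss ring at level `M`, extended by `0` to all
of `F_K(M)`. -/
noncomputable def nti55_red {π : R} (_hπ : Irreducible π)
    (x : ↥(modularFunctionFieldFullC K M)) : LaurentSeries (IsLocalRing.ResidueField R) :=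
  if hx : (x : LaurentSeries K) ∈ tv84_G K (IsLocalRing.residue R) then
    tv84_red (IsLocalRing.residue R) ⟨(x : LaurentSeries K), hx⟩
  else 0

theorem nti55_mem_iff {π : R} (hπ : Irreducible π) (x : ↥(modularFunctionFieldFullC K M)) :
    x ∈ cm85_Vinf (K := K) M hπ ↔ (x : LaurentSeries K) ∈ tv84_G K (IsLocalRing.residue R) :=
  Iff.rfl

theorem nti55_red_of_mem {π : R} (hπ : Irreducible π) (x : ↥(modularFunctionFieldFullC K M))
    (hx : (x : LaurentSeries K) ∈ tv84_G K (IsLocalRing.residue R)) :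
    nti55_red M hπ x = tv84_red (IsLocalRing.residue R) ⟨(x : LaurentSeries K), hx⟩ :=
  dif_pos hx

theorem nti55_red_one {π : R} (hπ : Irreducible π) :
    nti55_red (K := K) M hπ 1 = 1 := by
  have h1 : ((1 : ↥(modularFunctionFieldFullC K M)) : LaurentSeries K) ∈
      tv84_G K (IsLocalRing.residue R) := (tv84_G K (IsLocalRing.residue R)).one_mem
  rw [nti55_red_of_mem M hπ 1 h1]
  exact map_one (tv84_red (IsLocalRing.residue R))

theorem nti55_red_mul {π : R} (hπ : Irreducible π) (x y : ↥(modularFunctionFieldFullC K M))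
    (hx : x ∈ cm85_Vinf (K := K) M hπ) (hy : y ∈ cm85_Vinf (K := K) M hπ) :
    nti55_red M hπ (x * y) = nti55_red M hπ x * nti55_red M hπ y := by
  have hxy : ((x * y : ↥(modularFunctionFieldFullC K M)) : LaurentSeries K) ∈
      tv84_G K (IsLocalRing.residue R) := (tv84_G K (IsLocalRing.residue R)).mul_mem hx hy
  rw [nti55_red_of_mem M hπ _ hxy, nti55_red_of_mem M hπ x hx, nti55_red_of_mem M hπ y hy,
    ← map_mul]
  rfl

theorem nti55_red_add {π : R} (hπ : Irreducible π) (x y : ↥(modularFunctionFieldFullC K M))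
    (hx : x ∈ cm85_Vinf (K := K) M hπ) (hy : y ∈ cm85_Vinf (K := K) M hπ) :
    nti55_red M hπ (x + y) = nti55_red M hπ x + nti55_red M hπ y := by
  have hxy : ((x + y : ↥(modularFunctionFieldFullC K M)) : LaurentSeries K) ∈
      tv84_G K (IsLocalRing.residue R) := (tv84_G K (IsLocalRing.residue R)).add_mem hx hy
  rw [nti55_red_of_mem M hπ _ hxy, nti55_red_of_mem M hπ x hx, nti55_red_of_mem M hπ y hy,
    ← map_add]
  rfl

theorem nti55_red_sub {π : R} (hπ : Irreducible π) (x y : ↥(modularFunctionFieldFullC K M))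
    (hx : x ∈ cm85_Vinf (K := K) M hπ) (hy : y ∈ cm85_Vinf (K := K) M hπ) :
    nti55_red M hπ (x - y) = nti55_red M hπ x - nti55_red M hπ y := by
  have hxy : ((x - y : ↥(modularFunctionFieldFullC K M)) : LaurentSeries K) ∈
      tv84_G K (IsLocalRing.residue R) := (tv84_G K (IsLocalRing.residue R)).sub_mem hx hy
  rw [nti55_red_of_mem M hπ _ hxy, nti55_red_of_mem M hπ x hx, nti55_red_of_mem M hπ y hy,
    ← map_sub]
  rfl

theorem nti55_red_pow {π : R} (hπ : Irreducible π) (x : ↥(modularFunctionFieldFullC K M))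
    (hx : x ∈ cm85_Vinf (K := K) M hπ) (n : ℕ) :
    nti55_red M hπ (x ^ n) = nti55_red M hπ x ^ n := by
  induction n with
  | zero => rw [pow_zero, pow_zero, nti55_red_one]
  | succ k ih =>
    rw [pow_succ, nti55_red_mul M hπ _ _ ((cm85_Vinf (K := K) M hπ).toSubring.pow_mem hx k) hx,
      ih, pow_succ]

/-- **Unit criterion**: an element of the Gauss ring with nonzero reduction is a unit. -/
theorem nti55_inv_mem {π : R} (hπ : Irreducible π) (x : ↥(modularFunctionFieldFullC K M))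
    (hx : x ∈ cm85_Vinf (K := K) M hπ) (h : nti55_red M hπ x ≠ 0) :
    x⁻¹ ∈ cm85_Vinf (K := K) M hπ := by
  rw [nti55_red_of_mem M hπ x hx] at h
  have h1 := nti55_inv_mem_G (IsLocalRing.residue R) ⟨(x : LaurentSeries K), hx⟩ h
  show ((x⁻¹ : ↥(modularFunctionFieldFullC K M)) : LaurentSeries K) ∈
    tv84_G K (IsLocalRing.residue R)
  exact h1

/-- The reduction of a quotient by a unit. -/
theorem nti55_red_div {π : R} (hπ : Irreducible π) (x y : ↥(modularFunctionFieldFullC K M))
    (hx : x ∈ cm85_Vinf (K := K) M hπ) (hy : y ∈ cm85_Vinf (K := K) M hπ)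
    (h : nti55_red M hπ y ≠ 0) :
    x / y ∈ cm85_Vinf (K := K) M hπ ∧ nti55_red M hπ (x / y) = nti55_red M hπ x / nti55_red M hπ y := by
  have hyi := nti55_inv_mem M hπ y hy h
  have hy0 : y ≠ 0 := by
    rintro rfl
    apply h
    have h0 : ((0 : ↥(modularFunctionFieldFullC K M)) : LaurentSeries K) ∈
        tv84_G K (IsLocalRing.residue R) := (tv84_G K (IsLocalRing.residue R)).zero_mem
    rw [nti55_red_of_mem M hπ 0 h0]
    exact map_zero (tv84_red (IsLocalRing.residue R))
  have hxy : x / y ∈ cm85_Vinf (K := K) M hπ := by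
    rw [div_eq_mul_inv]
    exact (cm85_Vinf (K := K) M hπ).toSubring.mul_mem hx hyi
  refine ⟨hxy, ?_⟩
  rw [eq_div_iff h, ← nti55_red_mul M hπ _ _ hxy hy, div_mul_cancel₀ x hy0]

/-- Constants of `R` lie in the Gauss ring. -/
theorem nti55_const_mem {π : R} (hπ : Irreducible π) (r : R) :
    algebraMap K ↥(modularFunctionFieldFullC K M) (algebraMap R K r) ∈
      cm85_Vinf (K := K) M hπ := by
  refine gv85_mem_V_of_integral _ _ _ _ (HahnSeries.C r) ?_
  rw [gv85_coe_algebraMap, gv85_coeffMap_C]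

/-- The reduction of a constant of `R` is the constant series of its residue class. -/
theorem nti55_red_const {π : R} (hπ : Irreducible π) (r : R) :
    nti55_red M hπ (algebraMap K ↥(modularFunctionFieldFullC K M) (algebraMap R K r)) =
      HahnSeries.C (IsLocalRing.residue R r) := by
  rw [nti55_red_of_mem M hπ _ (nti55_const_mem M hπ r),
    tv84_red_of_integral (IsLocalRing.residue R) _ (HahnSeries.C r)
      (by rw [gv85_coe_algebraMap, gv85_coeffMap_C]), gv85_coeffMap_C]

/-- **`V_∞ ∩ K = R`**: a constant of the Gauss ring lies in `R`. -/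
theorem nti55_const_of_mem {π : R} (hπ : Irreducible π) (a : K)
    (ha : algebraMap K ↥(modularFunctionFieldFullC K M) a ∈ cm85_Vinf (K := K) M hπ) :
    ∃ r : R, algebraMap R K r = a := by
  rcases ValuationRing.isInteger_or_isInteger R a with ⟨r, hr⟩ | ⟨r, hr⟩
  · exact ⟨r, hr⟩
  · by_cases ha0 : a = 0
    · exact ⟨0, by rw [map_zero, ha0]⟩
    by_cases hu : IsUnit r
    · obtain ⟨u, rfl⟩ := hu
      refine ⟨((u⁻¹ : Rˣ) : R), ?_⟩
      have h1 : algebraMap R K ((u⁻¹ : Rˣ) : R) * algebraMap R K (u : R) = 1 := by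
        rw [← map_mul, Units.inv_mul, map_one]
      rw [hr] at h1
      exact (eq_inv_of_mul_eq_one_left h1).trans (inv_inv a)
    · exfalso
      have hmem : r ∈ IsLocalRing.maximalIdeal R := hu
      rw [hπ.maximalIdeal_eq, Ideal.mem_span_singleton] at hmem
      obtain ⟨r', rfl⟩ := hmem
      have hπK : algebraMap R K π ≠ 0 := fun h =>
        hπ.ne_zero (IsFractionRing.injective R K (by rw [h, map_zero]))
      have h2 : (algebraMap R K π)⁻¹ = a * algebraMap R K r' := by
        rw [map_mul] at hr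
        have h4 : a * (algebraMap R K π * algebraMap R K r') = 1 := by
          rw [hr, mul_inv_cancel₀ ha0]
        exact inv_eq_of_mul_eq_one_right (by rw [← h4]; ring)
      have h3 : (algebraMap K ↥(modularFunctionFieldFullC K M) (algebraMap R K π))⁻¹ ∈
          cm85_Vinf (K := K) M hπ := by
        rw [← map_inv₀, h2, map_mul]
        exact (cm85_Vinf (K := K) M hπ).toSubring.mul_mem ha (nti55_const_mem M hπ r')
      exact gv85_pi_inv_not_mem (IsLocalRing.residue R) π (pk85_res_iff hπ) hπ.ne_zero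
        (modularFunctionFieldFullC K M) (pk85_HF K M hπ) h3

/-- A unit constant of the Gauss ring is a unit of `R`. -/
theorem nti55_unit_const {π : R} (hπ : Irreducible π) (a : K) (ha0 : a ≠ 0)
    (ha : algebraMap K ↥(modularFunctionFieldFullC K M) a ∈ cm85_Vinf (K := K) M hπ)
    (hai : (algebraMap K ↥(modularFunctionFieldFullC K M) a)⁻¹ ∈ cm85_Vinf (K := K) M hπ) :
    ∃ u : R, IsUnit u ∧ algebraMap R K u = a := by
  obtain ⟨u, hu⟩ := nti55_const_of_mem M hπ a ha
  rw [← map_inv₀] at hai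
  obtain ⟨v, hv⟩ := nti55_const_of_mem M hπ a⁻¹ hai
  refine ⟨u, IsUnit.of_mul_eq_one v (IsFractionRing.injective R K ?_), hu⟩
  rw [map_mul, hu, hv, map_one, mul_inv_cancel₀ ha0]

/-- The kernel of the reduction is `π V_∞`. -/
theorem nti55_red_eq_zero {π : R} (hπ : Irreducible π) (x : ↥(modularFunctionFieldFullC K M))
    (hx : x ∈ cm85_Vinf (K := K) M hπ) (h : nti55_red M hπ x = 0) :
    (algebraMap K ↥(modularFunctionFieldFullC K M) (algebraMap R K π))⁻¹ * x ∈
      cm85_Vinf (K := K) M hπ := by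
  rw [nti55_red_of_mem M hπ x hx] at h
  have h1 := (tv84_red_eq_zero_iff (IsLocalRing.residue R) π (pk85_res_iff hπ) hπ.ne_zero
    ⟨(x : LaurentSeries K), hx⟩).mp h
  show (((algebraMap K ↥(modularFunctionFieldFullC K M) (algebraMap R K π))⁻¹ * x :
    ↥(modularFunctionFieldFullC K M)) : LaurentSeries K) ∈ tv84_G K (IsLocalRing.residue R)
  rw [gv85_coe_inv_mul]
  exact h1

end Level

/-! ## 4. The two levels: degeneracy maps, Atkin–Lehner, the separating element -/

section Degeneracy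

variable {R K : Type} [CommRing R] [IsDomain R] [IsDiscreteValuationRing R] [Field K]
  [Algebra R K] [IsFractionRing R K] (M' q : ℕ) [NeZero M'] [NeZero q]

/-- `red_∞ (α h) = red' h`. -/
theorem nti55_red_alpha {π : R} (hπ : Irreducible π) (h : ↥(modularFunctionFieldFullC K M')) :
    nti55_red (M' * q) hπ (al97L_alpha K M' q h) = nti55_red M' hπ h := by
  by_cases hh : (h : LaurentSeries K) ∈ tv84_G K (IsLocalRing.residue R)
  · have h1 : ((al97L_alpha K M' q h : ↥(modularFunctionFieldFullC K (M' * q))) :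
        LaurentSeries K) ∈ tv84_G K (IsLocalRing.residue R) := by
      rw [al97L_alpha_coe]
      exact hh
    rw [nti55_red_of_mem (M' * q) hπ _ h1, nti55_red_of_mem M' hπ _ hh]
    congr 1
  · have h1 : ¬ ((al97L_alpha K M' q h : ↥(modularFunctionFieldFullC K (M' * q))) :
        LaurentSeries K) ∈ tv84_G K (IsLocalRing.residue R) := by
      rw [al97L_alpha_coe]
      exact hh
    unfold nti55_red
    rw [dif_neg h1, dif_neg hh]

/-- `red_∞ (β h) = E (red' h)`, `E : Q ↦ Q ^ q`. -/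
theorem nti55_red_beta {π : R} (hπ : Irreducible π) (h : ↥(modularFunctionFieldFullC K M'))
    (hh : h ∈ cm85_Vinf (K := K) M' hπ) :
    nti55_red (M' * q) hπ (al97L_beta K M' q h) =
      qExpand (IsLocalRing.ResidueField R) q (nti55_red M' hπ h) := by
  have h1 : ((al97L_beta K M' q h : ↥(modularFunctionFieldFullC K (M' * q))) : LaurentSeries K) ∈
      tv84_G K (IsLocalRing.residue R) := tv84_beta_mem M' q hπ h hh
  rw [nti55_red_of_mem (M' * q) hπ _ h1, nti55_red_of_mem M' hπ h hh]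
  exact tv84_red_qExpand (IsLocalRing.residue R) q ⟨(h : LaurentSeries K), hh⟩ h1

/-- The `j`-function at level `M'`. -/
noncomputable def nti55_j : ↥(modularFunctionFieldFullC K M') :=
  ⟨jqModC K, jqModC_mem_full K M'⟩

theorem nti55_j_mem {π : R} (hπ : Irreducible π) :
    nti55_j (K := K) M' ∈ cm85_Vinf (K := K) M' hπ :=
  tv84_J_mem (K := K) (IsLocalRing.residue R)

theorem nti55_red_j {π : R} (hπ : Irreducible π) :
    nti55_red M' hπ (nti55_j (K := K) M') = jqModC (IsLocalRing.ResidueField R) := by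
  rw [nti55_red_of_mem M' hπ _ (nti55_j_mem M' hπ)]
  exact tv84_red_J (IsLocalRing.residue R) _

end Degeneracy

/-! ## 5. Two facts on the `j`-series in characteristic `q` -/

section JSeries

variable (κ : Type*) [Field κ] (q : ℕ) [NeZero q] [ExpChar κ q]

/-- `j(Q) ^ q = j(Q ^ q)` in characteristic `q`. -/
theorem nti55_j_pow : jqModC κ ^ q = qExpand κ q (jqModC κ) := by
  rw [kr50_pow_char q (jqModC κ), coeffMap_jqModC]

/-- `j ≠ j ^ (q ^ 2)` for `q ≥ 2`. -/
theorem nti55_j_sub_ne (hq : 2 ≤ q) : jqModC κ - jqModC κ ^ (q ^ 2) ≠ 0 := by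
  intro h
  have h1 : jqModC κ = jqModC κ ^ (q ^ 2) := sub_eq_zero.mp h
  have h2 : (jqModC κ).order = (jqModC κ ^ (q ^ 2)).order := by rw [← h1]
  rw [HahnSeries.order_pow, tv84_order_jqModC] at h2
  have h3 : (1 : ℤ) = (q : ℤ) ^ 2 := by
    have h4 : (q ^ 2) • (-1 : ℤ) = -((q : ℤ) ^ 2) := by
      rw [nsmul_eq_mul]
      push_cast
      ring
    rw [h4] at h2
    linarith
  have h5 : (2 : ℤ) ≤ q := by exact_mod_cast hq
  nlinarith

end JSeries

/-! ## 6. The separating element `e0` and the canonical frame -/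

section Frame

variable {R K : Type} [CommRing R] [IsDomain R] [IsDiscreteValuationRing R] [Field K]
  [Algebra R K] [IsFractionRing R K] [Algebra K Q̄] (M' q : ℕ) [NeZero M'] [NeZero q]
  (hq : q.Prime) (hM' : ¬ q ∣ M')

/-- The reduction along the second valuation: `red_0 := red_∞ ∘ w`. -/
noncomputable def nti55_red0 {π : R} (hπ : Irreducible π)
    (x : ↥(modularFunctionFieldFullC K (M' * q))) : LaurentSeries (IsLocalRing.ResidueField R) :=
  nti55_red (M' * q) hπ (al97L_w (algebraMap K Q̄) M' q hq hM' x)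

/-- The numerator of `e0`: `β j - (α j) ^ q`. -/
noncomputable def nti55_num : ↥(modularFunctionFieldFullC K (M' * q)) :=
  al97L_beta K M' q (nti55_j M') - al97L_alpha K M' q (nti55_j M') ^ q

/-- The denominator of `e0`: `β (j - j ^ (q ^ 2))`. -/
noncomputable def nti55_den : ↥(modularFunctionFieldFullC K (M' * q)) :=
  al97L_beta K M' q (nti55_j M' - nti55_j M' ^ (q ^ 2))

/-- The separating element `e0 = (β j - (α j) ^ q) / β (j - j ^ (q ^ 2))`. -/
noncomputable def nti55_e0 : ↥(modularFunctionFieldFullC K (M' * q)) :=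
  nti55_num (K := K) M' q / nti55_den (K := K) M' q

theorem nti55_jj_mem {π : R} (hπ : Irreducible π) :
    nti55_j (K := K) M' - nti55_j M' ^ (q ^ 2) ∈ cm85_Vinf (K := K) M' hπ :=
  (cm85_Vinf (K := K) M' hπ).toSubring.sub_mem (nti55_j_mem M' hπ)
    ((cm85_Vinf (K := K) M' hπ).toSubring.pow_mem (nti55_j_mem M' hπ) _)

theorem nti55_red_jj {π : R} (hπ : Irreducible π) :
    nti55_red M' hπ (nti55_j (K := K) M' - nti55_j M' ^ (q ^ 2)) =
      jqModC (IsLocalRing.ResidueField R) - jqModC (IsLocalRing.ResidueField R) ^ (q ^ 2) := by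
  rw [nti55_red_sub M' hπ _ _ (nti55_j_mem M' hπ)
    ((cm85_Vinf (K := K) M' hπ).toSubring.pow_mem (nti55_j_mem M' hπ) _),
    nti55_red_pow M' hπ _ (nti55_j_mem M' hπ), nti55_red_j]

theorem nti55_alpha_j_mem {π : R} (hπ : Irreducible π) :
    al97L_alpha K M' q (nti55_j M') ∈ cm85_Vinf (K := K) (M' * q) hπ :=
  (tv84_alpha_mem M' q hπ _).mpr (nti55_j_mem M' hπ)

theorem nti55_beta_j_mem {π : R} (hπ : Irreducible π) :
    al97L_beta K M' q (nti55_j M') ∈ cm85_Vinf (K := K) (M' * q) hπ :=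
  tv84_beta_mem M' q hπ _ (nti55_j_mem M' hπ)

theorem nti55_num_mem {π : R} (hπ : Irreducible π) :
    nti55_num (K := K) M' q ∈ cm85_Vinf (K := K) (M' * q) hπ :=
  (cm85_Vinf (K := K) (M' * q) hπ).toSubring.sub_mem (nti55_beta_j_mem M' q hπ)
    ((cm85_Vinf (K := K) (M' * q) hπ).toSubring.pow_mem (nti55_alpha_j_mem M' q hπ) _)

theorem nti55_den_mem {π : R} (hπ : Irreducible π) :
    nti55_den (K := K) M' q ∈ cm85_Vinf (K := K) (M' * q) hπ :=
  tv84_beta_mem M' q hπ _ (nti55_jj_mem M' q hπ)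

/-- `red_∞ (β j - (α j) ^ q) = 0` (the Kronecker congruence). -/
theorem nti55_red_num {π : R} (hπ : Irreducible π) [ExpChar (IsLocalRing.ResidueField R) q] :
    nti55_red (M' * q) hπ (nti55_num (K := K) M' q) = 0 := by
  unfold nti55_num
  rw [nti55_red_sub (M' * q) hπ _ _ (nti55_beta_j_mem M' q hπ)
    ((cm85_Vinf (K := K) (M' * q) hπ).toSubring.pow_mem (nti55_alpha_j_mem M' q hπ) _),
    nti55_red_pow (M' * q) hπ _ (nti55_alpha_j_mem M' q hπ), nti55_red_alpha,
    nti55_red_beta M' q hπ _ (nti55_j_mem M' hπ), nti55_red_j, nti55_j_pow, sub_self]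

include hq in
/-- `red_∞ (β (j - j ^ (q ^ 2))) ≠ 0`. -/
theorem nti55_red_den {π : R} (hπ : Irreducible π) [ExpChar (IsLocalRing.ResidueField R) q] :
    nti55_red (M' * q) hπ (nti55_den (K := K) M' q) ≠ 0 := by
  unfold nti55_den
  rw [nti55_red_beta M' q hπ _ (nti55_jj_mem M' q hπ), nti55_red_jj]
  intro h
  exact nti55_j_sub_ne (IsLocalRing.ResidueField R) q hq.two_le
    (qExpand_injective q (by rw [h, map_zero]))

/-- `w (β j - (α j) ^ q) = α j - (β j) ^ q`. -/
theorem nti55_w_num :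
    al97L_w (algebraMap K Q̄) M' q hq hM' (nti55_num (K := K) M' q) =
      al97L_alpha K M' q (nti55_j M') - al97L_beta K M' q (nti55_j M') ^ q := by
  unfold nti55_num
  rw [map_sub, map_pow, al97L_w_beta_apply, al97L_w_alpha_apply]

/-- `w (β (j - j ^ (q ^ 2))) = α (j - j ^ (q ^ 2))`. -/
theorem nti55_w_den :
    al97L_w (algebraMap K Q̄) M' q hq hM' (nti55_den (K := K) M' q) =
      al97L_alpha K M' q (nti55_j M' - nti55_j M' ^ (q ^ 2)) := by
  unfold nti55_den
  rw [al97L_w_beta_apply]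

theorem nti55_w_num_mem {π : R} (hπ : Irreducible π) :
    al97L_w (algebraMap K Q̄) M' q hq hM' (nti55_num (K := K) M' q) ∈
      cm85_Vinf (K := K) (M' * q) hπ := by
  rw [nti55_w_num]
  exact (cm85_Vinf (K := K) (M' * q) hπ).toSubring.sub_mem (nti55_alpha_j_mem M' q hπ)
    ((cm85_Vinf (K := K) (M' * q) hπ).toSubring.pow_mem (nti55_beta_j_mem M' q hπ) _)

theorem nti55_w_den_mem {π : R} (hπ : Irreducible π) :
    al97L_w (algebraMap K Q̄) M' q hq hM' (nti55_den (K := K) M' q) ∈
      cm85_Vinf (K := K) (M' * q) hπ := by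
  rw [nti55_w_den]
  exact (tv84_alpha_mem M' q hπ _).mpr (nti55_jj_mem M' q hπ)

/-- `red_∞ (w (β j - (α j) ^ q)) = j - j ^ (q ^ 2)`. -/
theorem nti55_red_w_num {π : R} (hπ : Irreducible π) [ExpChar (IsLocalRing.ResidueField R) q] :
    nti55_red (M' * q) hπ (al97L_w (algebraMap K Q̄) M' q hq hM' (nti55_num (K := K) M' q)) =
      jqModC (IsLocalRing.ResidueField R) - jqModC (IsLocalRing.ResidueField R) ^ (q ^ 2) := by
  rw [nti55_w_num, nti55_red_sub (M' * q) hπ _ _ (nti55_alpha_j_mem M' q hπ)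
    ((cm85_Vinf (K := K) (M' * q) hπ).toSubring.pow_mem (nti55_beta_j_mem M' q hπ) _),
    nti55_red_pow (M' * q) hπ _ (nti55_beta_j_mem M' q hπ), nti55_red_alpha,
    nti55_red_beta M' q hπ _ (nti55_j_mem M' hπ), nti55_red_j, ← nti55_j_pow, ← pow_mul, sq]

/-- `red_∞ (w (β (j - j ^ (q ^ 2)))) = j - j ^ (q ^ 2)`. -/
theorem nti55_red_w_den {π : R} (hπ : Irreducible π) :
    nti55_red (M' * q) hπ (al97L_w (algebraMap K Q̄) M' q hq hM' (nti55_den (K := K) M' q)) =
      jqModC (IsLocalRing.ResidueField R) - jqModC (IsLocalRing.ResidueField R) ^ (q ^ 2) := by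
  rw [nti55_w_den, nti55_red_alpha, nti55_red_jj]

include hq in
/-- `e0 ∈ V_∞` and `red_∞ e0 = 0`. -/
theorem nti55_rinf_e0 {π : R} (hπ : Irreducible π) [ExpChar (IsLocalRing.ResidueField R) q] :
    nti55_e0 (K := K) M' q ∈ cm85_Vinf (K := K) (M' * q) hπ ∧
      nti55_red (M' * q) hπ (nti55_e0 (K := K) M' q) = 0 := by
  obtain ⟨h1, h2⟩ := nti55_red_div (M' * q) hπ _ _ (nti55_num_mem M' q hπ) (nti55_den_mem M' q hπ)
    (nti55_red_den (K := K) M' q hq hπ)
  refine ⟨h1, ?_⟩
  unfold nti55_e0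
  rw [h2, nti55_red_num, zero_div]

/-- `w e0 ∈ V_∞` and `red_0 e0 = 1`. -/
theorem nti55_r0_e0 {π : R} (hπ : Irreducible π) [ExpChar (IsLocalRing.ResidueField R) q] :
    al97L_w (algebraMap K Q̄) M' q hq hM' (nti55_e0 (K := K) M' q) ∈
        cm85_Vinf (K := K) (M' * q) hπ ∧
      nti55_red0 M' q hq hM' hπ (nti55_e0 (K := K) M' q) = 1 := by
  have hne : nti55_red (M' * q) hπ
      (al97L_w (algebraMap K Q̄) M' q hq hM' (nti55_den (K := K) M' q)) ≠ 0 := by
    rw [nti55_red_w_den]
    exact nti55_j_sub_ne (IsLocalRing.ResidueField R) q hq.two_le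
  obtain ⟨h1, h2⟩ := nti55_red_div (M' * q) hπ _ _ (nti55_w_num_mem M' q hq hM' hπ)
    (nti55_w_den_mem M' q hq hM' hπ) hne
  have e : al97L_w (algebraMap K Q̄) M' q hq hM' (nti55_e0 (K := K) M' q) =
      al97L_w (algebraMap K Q̄) M' q hq hM' (nti55_num (K := K) M' q) /
        al97L_w (algebraMap K Q̄) M' q hq hM' (nti55_den (K := K) M' q) := by
    unfold nti55_e0
    rw [map_div₀]
  refine ⟨by rw [e]; exact h1, ?_⟩
  unfold nti55_red0
  rw [e, h2, nti55_red_w_num, nti55_red_w_den]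
  exact div_self (nti55_j_sub_ne (IsLocalRing.ResidueField R) q hq.two_le)

/-- `e0 ∈ W`. -/
theorem nti55_e0_mem {π : R} (hπ : Irreducible π) [ExpChar (IsLocalRing.ResidueField R) q] :
    nti55_e0 (K := K) M' q ∈ s34i47c_W (K := K) M' q hq hM' hπ := by
  rw [s34i47c_mem_W]
  exact ⟨(nti55_rinf_e0 (K := K) M' q hq hπ).1, (nti55_r0_e0 M' q hq hM' hπ).1⟩

/-- **The canonical frame of step (1c).**  For a Frobenius lift `σ` at `q` the abstract frame
`nt98_Frame` of `NewToric98` holds on the canonical data, given the two norm formulas (1b). -/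
theorem nti55_frame [NumberField K] {π : R} (hπ : Irreducible π)
    [ExpChar (IsLocalRing.ResidueField R) q] (σ : K ≃+* K) (hσ : ff50_Frob R q σ)
    (hNα : ∀ x : ↥(modularFunctionFieldFullC K (M' * q)),
      x ∈ s34i47c_W (K := K) M' q hq hM' hπ → x⁻¹ ∈ s34i47c_W (K := K) M' q hq hM' hπ →
      nti55_red M' hπ (nti55_norm (al97L_alpha K M' q :
          ↥(modularFunctionFieldFullC K M') →+* ↥(modularFunctionFieldFullC K (M' * q))) x) =
        nti55_red (M' * q) hπ x *
          coeffMap (frobenius (IsLocalRing.ResidueField R) q) (nti55_red0 M' q hq hM' hπ x))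
    (hNβ : ∀ x : ↥(modularFunctionFieldFullC K (M' * q)),
      x ∈ s34i47c_W (K := K) M' q hq hM' hπ → x⁻¹ ∈ s34i47c_W (K := K) M' q hq hM' hπ →
      nti55_red M' hπ (nti55_norm (al97L_beta K M' q :
          ↥(modularFunctionFieldFullC K M') →+* ↥(modularFunctionFieldFullC K (M' * q))) x) =
        nti55_red0 M' q hq hM' hπ x *
          coeffMap (frobenius (IsLocalRing.ResidueField R) q) (nti55_red (M' * q) hπ x)) :
    nt98_Frame (s34i47c_W (K := K) M' q hq hM' hπ) (cm85_Vinf (K := K) M' hπ).toSubring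
      (nti55_red (M' * q) hπ) (nti55_red0 M' q hq hM' hπ) (nti55_red M' hπ)
      (s34i47_coeffEquiv σ (M' * q)) (s34i47_coeffEquiv σ M')
      (coeffMap (frobenius (IsLocalRing.ResidueField R) q))
      (al97L_alpha K M' q :
        ↥(modularFunctionFieldFullC K M') →+* ↥(modularFunctionFieldFullC K (M' * q)))
      (al97L_beta K M' q :
        ↥(modularFunctionFieldFullC K M') →+* ↥(modularFunctionFieldFullC K (M' * q)))
      (nti55_norm (al97L_alpha K M' q :
        ↥(modularFunctionFieldFullC K M') →+* ↥(modularFunctionFieldFullC K (M' * q))))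
      (nti55_norm (al97L_beta K M' q :
        ↥(modularFunctionFieldFullC K M') →+* ↥(modularFunctionFieldFullC K (M' * q))))
      (nti55_e0 (K := K) M' q) where
  rinf_one := nti55_red_one (M' * q) hπ
  rinf_mul := fun x hx y hy =>
    nti55_red_mul (M' * q) hπ x y ((s34i47c_mem_W M' q hq hM' hπ x).mp hx).1
      ((s34i47c_mem_W M' q hq hM' hπ y).mp hy).1
  rinf_add := fun x hx y hy =>
    nti55_red_add (M' * q) hπ x y ((s34i47c_mem_W M' q hq hM' hπ x).mp hx).1
      ((s34i47c_mem_W M' q hq hM' hπ y).mp hy).1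
  r0_one := by
    unfold nti55_red0
    rw [map_one]
    exact nti55_red_one (M' * q) hπ
  r0_mul := fun x hx y hy => by
    unfold nti55_red0
    rw [map_mul]
    exact nti55_red_mul (M' * q) hπ _ _ ((s34i47c_mem_W M' q hq hM' hπ x).mp hx).2
      ((s34i47c_mem_W M' q hq hM' hπ y).mp hy).2
  r0_add := fun x hx y hy => by
    unfold nti55_red0
    rw [map_add]
    exact nti55_red_add (M' * q) hπ _ _ ((s34i47c_mem_W M' q hq hM' hπ x).mp hx).2
      ((s34i47c_mem_W M' q hq hM' hπ y).mp hy).2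
  r'_one := nti55_red_one M' hπ
  r'_mul := fun x hx y hy => nti55_red_mul M' hπ x y hx hy
  sh_mem := fun x hx => ff50_mem_W M' q hq hM' hπ σ hσ x hx
  sh_div := fun x hx =>
    ⟨ff50_div_mem_W M' q hq hM' hπ σ hσ x hx, ff50_inv_div_mem_W M' q hq hM' hπ σ hσ x hx⟩
  rinf_sh := fun x hx => by
    obtain ⟨h1, h2, h⟩ := ff50_red (M' * q) hq hπ σ hσ x ((s34i47c_mem_W M' q hq hM' hπ x).mp hx).1
    rw [nti55_red_of_mem (M' * q) hπ _ h2, nti55_red_of_mem (M' * q) hπ _ h1]
    exact h inferInstance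
  r0_sh := fun x hx => by
    unfold nti55_red0
    rw [in87g_w_comm]
    obtain ⟨h1, h2, h⟩ := ff50_red (M' * q) hq hπ σ hσ _ ((s34i47c_mem_W M' q hq hM' hπ x).mp hx).2
    rw [nti55_red_of_mem (M' * q) hπ _ h2, nti55_red_of_mem (M' * q) hπ _ h1]
    exact h inferInstance
  sh'_mem := fun x hx => ff50_mem_Vinf M' hq.ne_zero hπ σ hσ x hx
  sh'_div := fun x hx =>
    ⟨ff50_div_mem_Vinf M' hq.ne_zero hπ σ hσ x hx, ff50_inv_div_mem_Vinf M' hq.ne_zero hπ σ hσ x hx⟩
  r'_sh := fun x hx => by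
    obtain ⟨h1, h2, h⟩ := ff50_red M' hq hπ σ hσ x hx
    rw [nti55_red_of_mem M' hπ _ h2, nti55_red_of_mem M' hπ _ h1]
    exact h inferInstance
  α_mem := fun h hh => by
    rw [s34i47c_mem_W]
    refine ⟨(tv84_alpha_mem M' q hπ h).mpr hh, ?_⟩
    show al97L_w (algebraMap K Q̄) M' q hq hM' (al97L_alpha K M' q h) ∈ _
    rw [al97L_w_alpha_apply]
    exact tv84_beta_mem M' q hπ h hh
  β_mem := fun h hh => by
    rw [s34i47c_mem_W]
    refine ⟨tv84_beta_mem M' q hπ h hh, ?_⟩
    show al97L_w (algebraMap K Q̄) M' q hq hM' (al97L_beta K M' q h) ∈ _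
    rw [al97L_w_beta_apply]
    exact (tv84_alpha_mem M' q hπ h).mpr hh
  rinf_α := fun h _ => nti55_red_alpha M' q hπ h
  r0_β := fun h _ => by
    show nti55_red (M' * q) hπ (al97L_w (algebraMap K Q̄) M' q hq hM' (al97L_beta K M' q h)) = _
    rw [al97L_w_beta_apply]
    exact nti55_red_alpha M' q hπ h
  Nα_sh := fun x _ =>
    nti55_norm_equiv _ (s34i47_coeffEquiv σ (M' * q)) (s34i47_coeffEquiv σ M')
      (fun y => ff50_alpha_comm M' q σ y) x
  Nβ_sh := fun x _ =>
    nti55_norm_equiv _ (s34i47_coeffEquiv σ (M' * q)) (s34i47_coeffEquiv σ M')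
      (fun y => ff50_beta_comm M' q σ y) x
  Nα_red := hNα
  Nβ_red := hNβ
  e0_mem := nti55_e0_mem M' q hq hM' hπ
  rinf_e0 := (nti55_rinf_e0 (K := K) M' q hq hπ).2
  r0_e0 := (nti55_r0_e0 M' q hq hM' hπ).2
  unit_crit := fun x hx h1 h2 => by
    rw [s34i47c_mem_W] at hx ⊢
    refine ⟨nti55_inv_mem (M' * q) hπ x hx.1 h1, ?_⟩
    rw [map_inv₀]
    exact nti55_inv_mem (M' * q) hπ _ hx.2 h2

/-- The twist `c / ŝ'² c` of a nonzero constant is a unit constant of `R`. -/
theorem nti55_tw_const [NumberField K] {π : R} (hπ : Irreducible π) (σ : K ≃+* K)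
    (hσ : ff50_Frob R q σ) (k : K) (hk : k ≠ 0) :
    ∃ u : R, IsUnit u ∧
      nt98_tw (s34i47_coeffEquiv σ M') (algebraMap K ↥(modularFunctionFieldFullC K M') k) =
        algebraMap K ↥(modularFunctionFieldFullC K M') (algebraMap R K u) := by
  have hq0 : q ≠ 0 := NeZero.ne q
  have e : nt98_tw (s34i47_coeffEquiv σ M') (algebraMap K ↥(modularFunctionFieldFullC K M') k) =
      algebraMap K ↥(modularFunctionFieldFullC K M') (k / σ (σ k)) := by
    rw [nt98_tw, in87i_coeffEquiv_eq, in87_aut_algebraMap, in87_aut_algebraMap, map_div₀]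
  have hc0 : algebraMap K ↥(modularFunctionFieldFullC K M') k ≠ 0 :=
    (map_ne_zero _).mpr hk
  have hmem := nt98_tw_unit (cm85_Vinf (K := K) M' hπ).toSubring (s34i47_coeffEquiv σ M')
    (fun x hx => ⟨ff50_div_mem_Vinf M' hq0 hπ σ hσ x hx,
      ff50_inv_div_mem_Vinf M' hq0 hπ σ hσ x hx⟩) hc0
  have hk2 : k / σ (σ k) ≠ 0 :=
    div_ne_zero hk ((map_ne_zero σ).mpr ((map_ne_zero σ).mpr hk))
  change nt98_tw (s34i47_coeffEquiv σ M') (algebraMap K ↥(modularFunctionFieldFullC K M') k) ∈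
      cm85_Vinf (K := K) M' hπ ∧
    (nt98_tw (s34i47_coeffEquiv σ M') (algebraMap K ↥(modularFunctionFieldFullC K M') k))⁻¹ ∈
      cm85_Vinf (K := K) M' hπ at hmem
  rw [e] at hmem
  obtain ⟨u, hu, hua⟩ := nti55_unit_const M' hπ _ hk2 hmem.1 hmem.2
  exact ⟨u, hu, by rw [e, hua]⟩

/-- `C (res u1) / sb (C (res u2)) = C (res (u1 * u2⁻¹ ^ q))` for a unit `u2` of `R`. -/
theorem nti55_const_quot [ExpChar (IsLocalRing.ResidueField R) q] (u1 : R) (u2 : Rˣ) :
    (HahnSeries.C (IsLocalRing.residue R u1) : LaurentSeries (IsLocalRing.ResidueField R)) /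
        coeffMap (frobenius (IsLocalRing.ResidueField R) q)
          (HahnSeries.C (IsLocalRing.residue R (u2 : R))) =
      HahnSeries.C (IsLocalRing.residue R (u1 * ((u2⁻¹ : Rˣ) : R) ^ q)) := by
  have h1 : IsLocalRing.residue R (u2 : R) * IsLocalRing.residue R ((u2⁻¹ : Rˣ) : R) = 1 := by
    rw [← map_mul, Units.mul_inv, map_one]
  have h2 : IsLocalRing.residue R (u2 : R) ≠ 0 := left_ne_zero_of_mul_eq_one h1
  have h3 : (HahnSeries.C (IsLocalRing.residue R (u2 : R) ^ q) :
      LaurentSeries (IsLocalRing.ResidueField R)) ≠ 0 :=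
    HahnSeries.C_ne_zero (pow_ne_zero q h2)
  have key : IsLocalRing.residue R u1 =
      IsLocalRing.residue R (u1 * ((u2⁻¹ : Rˣ) : R) ^ q) * IsLocalRing.residue R (u2 : R) ^ q := by
    rw [map_mul, map_pow, mul_assoc, ← mul_pow,
      mul_comm (IsLocalRing.residue R ((u2⁻¹ : Rˣ) : R)), h1, one_pow, mul_one]
  rw [gv85_coeffMap_C, frobenius_def, div_eq_iff h3, ← map_mul, ← key]

/-- **Step (1c) on the canonical frame.**  Let `σ` be a Frobenius lift at `q`, `ŝ` its
coefficientwise action, and let `f ∈ F_K(M' q)`, `a, b ∈ F_K(M')` be nonzero with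
`N_α f = k₁ a ^ m`, `N_β f = k₂ b ^ m` (`k₁, k₂` constants).  Then there is a unit `G` of
`W = V_∞ ⊓ V_0` such that `f3 := (f1 / ŝ² f1) / G ^ m`, `f1 := f / ŝ² f`, is a unit of `W` which
is congruent to a unit constant of `R` modulo `π V_∞` and to a unit constant of `R` modulo
`π V_0`.  The two norm formulas (1b) are hypotheses (`hNα`, `hNβ`). -/
theorem nti55_toric [NumberField K] {π : R} (hπ : Irreducible π)
    [ExpChar (IsLocalRing.ResidueField R) q] (σ : K ≃+* K) (hσ : ff50_Frob R q σ)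
    (hNα : ∀ x : ↥(modularFunctionFieldFullC K (M' * q)),
      x ∈ s34i47c_W (K := K) M' q hq hM' hπ → x⁻¹ ∈ s34i47c_W (K := K) M' q hq hM' hπ →
      nti55_red M' hπ (nti55_norm (al97L_alpha K M' q :
          ↥(modularFunctionFieldFullC K M') →+* ↥(modularFunctionFieldFullC K (M' * q))) x) =
        nti55_red (M' * q) hπ x *
          coeffMap (frobenius (IsLocalRing.ResidueField R) q) (nti55_red0 M' q hq hM' hπ x))
    (hNβ : ∀ x : ↥(modularFunctionFieldFullC K (M' * q)),
      x ∈ s34i47c_W (K := K) M' q hq hM' hπ → x⁻¹ ∈ s34i47c_W (K := K) M' q hq hM' hπ →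
      nti55_red M' hπ (nti55_norm (al97L_beta K M' q :
          ↥(modularFunctionFieldFullC K M') →+* ↥(modularFunctionFieldFullC K (M' * q))) x) =
        nti55_red0 M' q hq hM' hπ x *
          coeffMap (frobenius (IsLocalRing.ResidueField R) q) (nti55_red (M' * q) hπ x))
    (m : ℕ) {f : ↥(modularFunctionFieldFullC K (M' * q))}
    {a b : ↥(modularFunctionFieldFullC K M')} {k1 k2 : K} (hf : f ≠ 0) (ha : a ≠ 0) (hb : b ≠ 0)
    (h1 : nti55_norm (al97L_alpha K M' q :
        ↥(modularFunctionFieldFullC K M') →+* ↥(modularFunctionFieldFullC K (M' * q))) f =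
      algebraMap K ↥(modularFunctionFieldFullC K M') k1 * a ^ m)
    (h2 : nti55_norm (al97L_beta K M' q :
        ↥(modularFunctionFieldFullC K M') →+* ↥(modularFunctionFieldFullC K (M' * q))) f =
      algebraMap K ↥(modularFunctionFieldFullC K M') k2 * b ^ m) :
    ∃ G : ↥(modularFunctionFieldFullC K (M' * q)), G ≠ 0 ∧
      G ∈ s34i47c_W (K := K) M' q hq hM' hπ ∧ G⁻¹ ∈ s34i47c_W (K := K) M' q hq hM' hπ ∧
      ∃ cinf c0 : R, IsUnit cinf ∧ IsUnit c0 ∧
        f / s34i47_coeffEquiv σ (M' * q) (s34i47_coeffEquiv σ (M' * q) f) /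
            s34i47_coeffEquiv σ (M' * q) (s34i47_coeffEquiv σ (M' * q)
              (f / s34i47_coeffEquiv σ (M' * q) (s34i47_coeffEquiv σ (M' * q) f))) / G ^ m ∈
          s34i47c_W (K := K) M' q hq hM' hπ ∧
        (f / s34i47_coeffEquiv σ (M' * q) (s34i47_coeffEquiv σ (M' * q) f) /
            s34i47_coeffEquiv σ (M' * q) (s34i47_coeffEquiv σ (M' * q)
              (f / s34i47_coeffEquiv σ (M' * q) (s34i47_coeffEquiv σ (M' * q) f))) / G ^ m)⁻¹ ∈
          s34i47c_W (K := K) M' q hq hM' hπ ∧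
        (algebraMap K ↥(modularFunctionFieldFullC K (M' * q)) (algebraMap R K π))⁻¹ *
            (f / s34i47_coeffEquiv σ (M' * q) (s34i47_coeffEquiv σ (M' * q) f) /
              s34i47_coeffEquiv σ (M' * q) (s34i47_coeffEquiv σ (M' * q)
                (f / s34i47_coeffEquiv σ (M' * q) (s34i47_coeffEquiv σ (M' * q) f))) / G ^ m -
              algebraMap K ↥(modularFunctionFieldFullC K (M' * q)) (algebraMap R K cinf)) ∈
          cm85_Vinf (K := K) (M' * q) hπ ∧
        (algebraMap K ↥(modularFunctionFieldFullC K (M' * q)) (algebraMap R K π))⁻¹ *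
            (f / s34i47_coeffEquiv σ (M' * q) (s34i47_coeffEquiv σ (M' * q) f) /
              s34i47_coeffEquiv σ (M' * q) (s34i47_coeffEquiv σ (M' * q)
                (f / s34i47_coeffEquiv σ (M' * q) (s34i47_coeffEquiv σ (M' * q) f))) / G ^ m -
              algebraMap K ↥(modularFunctionFieldFullC K (M' * q)) (algebraMap R K c0)) ∈
          s34i47c_V0 (K := K) M' q hq hM' hπ := by
  have H := nti55_frame M' q hq hM' hπ σ hσ hNα hNβ
  obtain ⟨hm, hmi, hri, hr0, hg1, hg2⟩ := nt98_main H m hf ha hb h1 h2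
  obtain ⟨hG, hGi, -, -, -, -⟩ := nt98_G_unit H ha hb
  have hG0 := nt98_G_ne_zero H ha hb
  -- the constants
  have hk1 : k1 ≠ 0 := by
    rintro rfl
    apply hg1
    rw [map_zero, nt98_tw, zero_div]
    have h0 : ((0 : ↥(modularFunctionFieldFullC K M')) : LaurentSeries K) ∈
        tv84_G K (IsLocalRing.residue R) := (tv84_G K (IsLocalRing.residue R)).zero_mem
    rw [nti55_red_of_mem M' hπ 0 h0]
    exact map_zero (tv84_red (IsLocalRing.residue R))
  have hk2 : k2 ≠ 0 := by
    rintro rfl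
    apply hg2
    rw [map_zero, nt98_tw, zero_div]
    have h0 : ((0 : ↥(modularFunctionFieldFullC K M')) : LaurentSeries K) ∈
        tv84_G K (IsLocalRing.residue R) := (tv84_G K (IsLocalRing.residue R)).zero_mem
    rw [nti55_red_of_mem M' hπ 0 h0]
    exact map_zero (tv84_red (IsLocalRing.residue R))
  obtain ⟨u1, hu1, e1⟩ := nti55_tw_const M' q hπ σ hσ k1 hk1
  obtain ⟨u2, hu2, e2⟩ := nti55_tw_const M' q hπ σ hσ k2 hk2
  obtain ⟨v1, rfl⟩ := hu1
  obtain ⟨v2, rfl⟩ := hu2
  rw [e1, e2, nti55_red_const, nti55_red_const, nti55_const_quot] at hri hr0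
  set f3 := nt98_f3 (s34i47_coeffEquiv σ (M' * q)) (s34i47_coeffEquiv σ M')
    (al97L_alpha K M' q :
      ↥(modularFunctionFieldFullC K M') →+* ↥(modularFunctionFieldFullC K (M' * q)))
    (al97L_beta K M' q :
      ↥(modularFunctionFieldFullC K M') →+* ↥(modularFunctionFieldFullC K (M' * q)))
    (nti55_e0 (K := K) M' q) m f a b with hf3
  have hW := (s34i47c_mem_W M' q hq hM' hπ f3).mp hm
  refine ⟨_, hG0, hG, hGi, (v1 : R) * ((v2⁻¹ : Rˣ) : R) ^ q, (v2 : R) * ((v1⁻¹ : Rˣ) : R) ^ q,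
    (v1 * v2⁻¹ ^ q).isUnit, (v2 * v1⁻¹ ^ q).isUnit, hm, hmi, ?_, ?_⟩
  · -- modulo `π V_∞`
    change (algebraMap K ↥(modularFunctionFieldFullC K (M' * q)) (algebraMap R K π))⁻¹ *
        (f3 - algebraMap K ↥(modularFunctionFieldFullC K (M' * q))
          (algebraMap R K ((v1 : R) * ((v2⁻¹ : Rˣ) : R) ^ q))) ∈ cm85_Vinf (K := K) (M' * q) hπ
    refine nti55_red_eq_zero (M' * q) hπ _
      ((cm85_Vinf (K := K) (M' * q) hπ).toSubring.sub_mem hW.1 (nti55_const_mem (M' * q) hπ _)) ?_
    rw [nti55_red_sub (M' * q) hπ _ _ hW.1 (nti55_const_mem (M' * q) hπ _), nti55_red_const]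
    exact sub_eq_zero.mpr hri
  · -- modulo `π V_0`
    change (algebraMap K ↥(modularFunctionFieldFullC K (M' * q)) (algebraMap R K π))⁻¹ *
        (f3 - algebraMap K ↥(modularFunctionFieldFullC K (M' * q))
          (algebraMap R K ((v2 : R) * ((v1⁻¹ : Rˣ) : R) ^ q))) ∈
      s34i47c_V0 (K := K) M' q hq hM' hπ
    rw [s34i47c_mem_V0, map_mul, map_inv₀, AlgEquiv.commutes, map_sub, AlgEquiv.commutes]
    refine nti55_red_eq_zero (M' * q) hπ _
      ((cm85_Vinf (K := K) (M' * q) hπ).toSubring.sub_mem hW.2 (nti55_const_mem (M' * q) hπ _)) ?_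
    rw [nti55_red_sub (M' * q) hπ _ _ hW.2 (nti55_const_mem (M' * q) hπ _), nti55_red_const]
    exact sub_eq_zero.mpr hr0

end Frame

end Fermat.Agent.S35
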