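/-
S35 lab, row N5 (concrete `Ω`-part, helper28): THE NEW EIGENVECTOR OVER AN ALGEBRAICALLY CLOSED
FIELD.

Data of the frozen statement S35: `g` a newform of level `M`, `S` a finite set containing the
primes dividing `M`, `chig : heckeAlgebra M 2 S →+* ℂ` with `chig T_ℓ = a_ℓ(g)` (`ℓ ∉ S`),
`iota : chig.range →+* O'` (`O'` a domain of characteristic `0`).  For every algebraically closed
field `Ω` containing `O'`:

`nvo28_exists` : there is `xbar ≠ 0` in `Ω ⊗ L(M)`, `L(M) = parabolicHoms ℤ (Gamma0 M) ℤ`, with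
  * `(hl42_act M S t) xbar = iota (chig t) • xbar` for every `t` of the Hecke algebra away from `S`;
  * `c xbar = 0` for every `ℤ`-linear map `c : L(M) → L(M')` to the lattice of a PROPER divisor
    level `M' ∣ M` which commutes with the Hecke operators at all primes `ℓ ∤ M`
    (in the application: the two corestrictions to the level `M / q`).

These are literally the hypotheses `xbar`, `hx0`, `heig`, `hc` of `ne34_descend` (helper34).

Proof.  `Ψ₀` := the eigencharacter of `g` on the FULL Hecke algebra away from the level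
(`nvo28_Psi`); `chig = Ψ₀ ∘ inclusion` (`nvo28_hom_ext`); `iota` is injective (an order mapping
to a domain of characteristic `0`) and extends to an injective `κ' : Ψ₀.range →+* Ω`
(`nvo28_extend`, `IsAlgClosed.lift`); `ec0_28_tensor` gives an eigenvector of `κ' ∘ Ψ₀` in
`Ω ⊗ L(M)`; its image under `c` is an eigenvector at level `M'` with the eigenvalues of `g` at all
primes `ℓ ∤ M`, so it vanishes by `nv28_newvec`.

All names are prefixed `nvo28_`.
-/
import Mathlib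
import Fermat.Agent.S35.NewVec28
import Fermat.Agent.S35.NewEigAbs34
import Fermat.Agent.S41.EigenBridge67

set_option autoImplicit false
set_option linter.unusedSectionVars false
set_option linter.unusedVariables false
set_option linter.style.longLine false
set_option linter.style.haveILetI false

open CongruenceSubgroup ModularCurve ModularCurve.Period
open scoped TensorProduct

namespace Fermat.Agent.S35

open Fermat.Agent.S16 Fermat.Agent.S31 Fermat.Agent.S41 Fermat.Agent.S30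

/-! ### Extension of a ring homomorphism into an algebraically closed field -/

/-- An injective ring homomorphism `κ : R₁ →+* Ω` into an algebraically closed field extends to
an injective ring homomorphism of any domain `R₂ ⊇ R₁` which is integral over `ℤ`. -/
theorem nvo28_extend {R₁ R₂ Ω : Type*} [CommRing R₁] [CommRing R₂] [IsDomain R₂] [Field Ω]
    [IsAlgClosed Ω] (inc : R₁ →+* R₂) (hinc : Function.Injective inc)
    (hint : ∀ x : R₂, IsIntegral ℤ x) (κ : R₁ →+* Ω) (hκ : Function.Injective κ) :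
    ∃ κ' : R₂ →+* Ω, (∀ r, κ' (inc r) = κ r) ∧ Function.Injective κ' := by
  letI : Algebra R₁ R₂ := inc.toAlgebra
  letI : Algebra R₁ Ω := κ.toAlgebra
  haveI : IsDomain R₁ := hinc.isDomain inc
  haveI : Module.IsTorsionFree R₁ R₂ := Module.isTorsionFree_iff_algebraMap_injective.mpr hinc
  haveI : Module.IsTorsionFree R₁ Ω := Module.isTorsionFree_iff_algebraMap_injective.mpr hκ
  haveI : Algebra.IsIntegral R₁ R₂ := ⟨fun x => (hint x).tower_top⟩
  haveI : Algebra.IsAlgebraic R₁ R₂ := inferInstance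
  let f : R₂ →ₐ[R₁] Ω := IsAlgClosed.lift
  refine ⟨f.toRingHom, fun r => f.commutes r, ?_⟩
  have hker : RingHom.ker f.toRingHom = ⊥ := by
    apply Ideal.eq_bot_of_comap_eq_bot (R := R₁)
    rw [eq_bot_iff]
    intro r hr
    rw [Ideal.mem_comap, RingHom.mem_ker] at hr
    have h1 : κ r = 0 := (f.commutes r).symm.trans hr
    exact (Ideal.mem_bot).mpr (hκ (h1.trans (map_zero κ).symm))
  exact (RingHom.injective_iff_ker_eq_bot _).mpr hker

/-! ### Characters of the Hecke algebra away from the level -/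

section Char

variable {M : ℕ} [NeZero M] (S : Set ℕ)

/-- Two ring homomorphisms of the Hecke algebra away from `S` (`S` containing the primes dividing
the level) which agree on the `T_ℓ` are equal. -/
theorem nvo28_hom_ext (hS : ∀ q : ℕ, q.Prime → q ∣ M → q ∈ S) {B : Type*} [Ring B]
    (φ₁ φ₂ : CuspForm.heckeAlgebra M 2 S →+* B)
    (h : ∀ (ℓ : ℕ) (hℓ : ℓ.Prime) (hℓM : ¬ ℓ ∣ M) (hℓS : ℓ ∉ S),
      φ₁ (CuspForm.heckeAlgebra.T hℓ hℓM hℓS) = φ₂ (CuspForm.heckeAlgebra.T hℓ hℓM hℓS))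
    (t : CuspForm.heckeAlgebra M 2 S) : φ₁ t = φ₂ t := by
  obtain ⟨t, ht⟩ := t
  induction ht using Algebra.adjoin_induction with
  | mem x hx =>
    rcases hx with ⟨ℓ, hℓ, hℓN, hℓS, rfl⟩ | ⟨q, hqN, hq, hqS, rfl⟩
    · exact h ℓ hℓ hℓN hℓS
    · exact absurd (hS q hq hqN) hqS
  | algebraMap r =>
    have h1 : (⟨algebraMap ℤ _ r, Subalgebra.algebraMap_mem _ r⟩ : CuspForm.heckeAlgebra M 2 S)
        = algebraMap ℤ (CuspForm.heckeAlgebra M 2 S) r := rfl
    rw [h1, eq_intCast, map_intCast, map_intCast]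
  | add x₁ x₂ h₁ h₂ ih₁ ih₂ =>
    have h1 : (⟨x₁ + x₂, Subalgebra.add_mem _ h₁ h₂⟩ : CuspForm.heckeAlgebra M 2 S)
        = ⟨x₁, h₁⟩ + ⟨x₂, h₂⟩ := rfl
    rw [h1, map_add, map_add, ih₁, ih₂]
  | mul x₁ x₂ h₁ h₂ ih₁ ih₂ =>
    have h1 : (⟨x₁ * x₂, Subalgebra.mul_mem _ h₁ h₂⟩ : CuspForm.heckeAlgebra M 2 S)
        = ⟨x₁, h₁⟩ * ⟨x₂, h₂⟩ := rfl
    rw [h1, map_mul, map_mul, ih₁, ih₂]

/-- Every element of the Hecke algebra away from `S` acts on a normalised eigenform through a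
scalar. -/
theorem nvo28_scalar (hS : ∀ q : ℕ, q.Prime → q ∣ M → q ∈ S)
    {g : CuspForm (Gamma0 M) 2} (hg : g.IsNormalizedEigenform)
    (t : CuspForm.heckeAlgebra M 2 S) :
    ∃ z : ℂ, (t : Module.End ℂ (CuspForm (Gamma0 M) 2)) g = z • g := by
  obtain ⟨t, ht⟩ := t
  show ∃ z : ℂ, t g = z • g
  induction ht using Algebra.adjoin_induction with
  | mem x hx =>
    rcases hx with ⟨ℓ, hℓ, hℓN, hℓS, rfl⟩ | ⟨q, hqN, hq, hqS, rfl⟩
    · exact ⟨_, eb67_heckeT_eq hg hℓ hℓN⟩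
    · exact absurd (hS q hq hqN) hqS
  | algebraMap r =>
    refine ⟨(r : ℂ), ?_⟩
    rw [Module.algebraMap_end_apply, Int.cast_smul_eq_zsmul]
  | add x₁ x₂ h₁ h₂ ih₁ ih₂ =>
    obtain ⟨z₁, hz₁⟩ := ih₁
    obtain ⟨z₂, hz₂⟩ := ih₂
    exact ⟨z₁ + z₂, by rw [LinearMap.add_apply, hz₁, hz₂, add_smul]⟩
  | mul x₁ x₂ h₁ h₂ ih₁ ih₂ =>
    obtain ⟨z₁, hz₁⟩ := ih₁
    obtain ⟨z₂, hz₂⟩ := ih₂
    exact ⟨z₁ * z₂, by rw [Module.End.mul_apply, hz₂, map_smul, hz₁, smul_smul, mul_comm]⟩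

/-- **The eigencharacter of a normalised eigenform** on the Hecke algebra away from `S`. -/
theorem nvo28_Psi (hS : ∀ q : ℕ, q.Prime → q ∣ M → q ∈ S)
    {g : CuspForm (Gamma0 M) 2} (hg : g.IsNormalizedEigenform) :
    ∃ Ψ : CuspForm.heckeAlgebra M 2 S →+* ℂ,
      ∀ (ℓ : ℕ) (hℓ : ℓ.Prime) (hℓM : ¬ ℓ ∣ M) (hℓS : ℓ ∉ S),
        Ψ (CuspForm.heckeAlgebra.T hℓ hℓM hℓS) = ModularFormClass.qCoeff g ℓ := by
  classical
  choose z hz using nvo28_scalar S hS hg
  have hg0 : g ≠ 0 := hg.ne_zero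
  have huniq : ∀ (t : CuspForm.heckeAlgebra M 2 S) (z' : ℂ),
      (t : Module.End ℂ (CuspForm (Gamma0 M) 2)) g = z' • g → z t = z' := fun t z' h =>
    smul_left_injective ℂ hg0 ((hz t).symm.trans h)
  refine ⟨{ toFun := z, map_one' := ?_, map_mul' := ?_, map_zero' := ?_, map_add' := ?_ }, ?_⟩
  · refine huniq 1 1 ?_
    rw [one_smul]
    rfl
  · intro s t
    refine huniq (s * t) (z s * z t) ?_
    show (s : Module.End ℂ (CuspForm (Gamma0 M) 2)) ((t : Module.End ℂ (CuspForm (Gamma0 M) 2)) g)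
      = (z s * z t) • g
    rw [hz t, map_smul, hz s, smul_smul, mul_comm]
  · refine huniq 0 0 ?_
    rw [zero_smul]
    rfl
  · intro s t
    refine huniq (s + t) (z s + z t) ?_
    show (s : Module.End ℂ (CuspForm (Gamma0 M) 2)) g
      + (t : Module.End ℂ (CuspForm (Gamma0 M) 2)) g = (z s + z t) • g
    rw [hz s, hz t, add_smul]
  · intro ℓ hℓ hℓM hℓS
    exact huniq _ _ (eb67_heckeT_eq hg hℓ hℓM)

/-- The values of a character of the Hecke algebra are algebraic integers. -/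
theorem nvo28_isIntegral (φ : CuspForm.heckeAlgebra M 2 S →+* ℂ) (x : φ.range) :
    IsIntegral ℤ x := by
  haveI := ee42_finite M
  obtain ⟨x, t, rfl⟩ := x
  have h1 : IsIntegral ℤ (hl42_act M S t) := Algebra.IsIntegral.isIntegral _
  have h2 : IsIntegral ℤ t :=
    (isIntegral_algHom_iff ((hl42_act M S).toIntAlgHom) (hl42_act_injective M S)).mp h1
  have h3 : IsIntegral ℤ (φ.rangeRestrict t) := map_isIntegral_int φ.rangeRestrict h2
  exact h3

end Char

/-! ### The new eigenvector over an algebraically closed field -/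

set_option maxHeartbeats 800000 in
/-- **The new eigenvector over `Ω`.**  For the data of the frozen statement S35 and an
algebraically closed field `Ω ⊇ O'`: a nonzero vector of `Ω ⊗ L(M)` which is an eigenvector of the
Hecke algebra away from `S` with the character `iota ∘ chig`, and which is killed by every
`ℤ`-linear map to the lattice of a proper divisor level commuting with the Hecke operators at the
primes `ℓ ∤ M`.  (Hypotheses `xbar`, `hx0`, `heig`, `hc` of `ne34_descend`.) -/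
theorem nvo28_exists {M : ℕ} [NeZero M] {g : CuspForm (Gamma0 M) 2} (hg : g.IsNewform)
    (S : Finset ℕ)
    (O' : Type*) [CommRing O'] [IsDomain O'] [CharZero O']
    (chig : CuspForm.heckeAlgebra M 2 (↑S : Set ℕ) →+* ℂ)
    (hchig : ∀ (ℓ : ℕ) (hℓ : ℓ.Prime) (hℓM : ¬ ℓ ∣ M) (hℓS : ℓ ∉ (↑S : Set ℕ)),
      chig (CuspForm.heckeAlgebra.T hℓ hℓM hℓS) = ModularFormClass.qCoeff g ℓ)
    (iota : chig.range →+* O')
    (hMS : ∀ q : ℕ, q.Prime → q ∣ M → q ∈ S)
    (Ω : Type*) [Field Ω] [IsAlgClosed Ω] [Algebra O' Ω]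
    (hinj : Function.Injective (algebraMap O' Ω)) :
    ∃ xbar : Ω ⊗[ℤ] ↥(parabolicHoms ℤ (Gamma0 M) ℤ), xbar ≠ 0 ∧
      (∀ t : CuspForm.heckeAlgebra M 2 (↑S : Set ℕ),
        (hl42_act M (↑S : Set ℕ) t).baseChange Ω xbar =
          algebraMap O' Ω ((iota.comp chig.rangeRestrict) t) • xbar) ∧
      ∀ (M' : ℕ) [NeZero M'], M' ∣ M → M' ≠ M →
        ∀ c : ↥(parabolicHoms ℤ (Gamma0 M) ℤ) →ₗ[ℤ] ↥(parabolicHoms ℤ (Gamma0 M') ℤ),
          (∀ ℓ : ℕ, ℓ.Prime → ¬ ℓ ∣ M → ∀ x, c (hl42_TL M ℓ x) = hl42_TL M' ℓ (c x)) →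
          c.baseChange Ω xbar = 0 := by
  classical
  haveI := ee42_finite M
  haveI := ee42_free M
  haveI : CharZero Ω := charZero_of_injective_algebraMap hinj
  -- the full Hecke algebra away from the level
  let S₀ : Set ℕ := {ℓ | ℓ.Prime ∧ ℓ ∣ M}
  have hS₀ : ∀ q : ℕ, q.Prime → q ∣ M → q ∈ S₀ := fun q hq hqM => ⟨hq, hqM⟩
  have hS : ∀ q : ℕ, q.Prime → q ∣ M → q ∈ (↑S : Set ℕ) := fun q hq hqM => hMS q hq hqM
  have hsub : S₀ ⊆ (↑S : Set ℕ) := fun ℓ hℓ => hMS ℓ hℓ.1 hℓ.2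
  have hnot : ∀ {ℓ : ℕ}, ¬ ℓ ∣ M → ℓ ∉ S₀ := fun hℓM hℓ => hℓM hℓ.2
  obtain ⟨Ψ₀, hΨ₀⟩ := nvo28_Psi S₀ hS₀ hg.1
  have hle : CuspForm.heckeAlgebra M 2 (↑S : Set ℕ) ≤ CuspForm.heckeAlgebra M 2 S₀ :=
    CuspForm.heckeAlgebra_mono hsub
  let inc : CuspForm.heckeAlgebra M 2 (↑S : Set ℕ) →+* CuspForm.heckeAlgebra M 2 S₀ :=
    (Subalgebra.inclusion hle).toRingHom
  have hincT : ∀ (ℓ : ℕ) (hℓ : ℓ.Prime) (hℓM : ¬ ℓ ∣ M) (hℓS : ℓ ∉ (↑S : Set ℕ)),
      inc (CuspForm.heckeAlgebra.T hℓ hℓM hℓS) = CuspForm.heckeAlgebra.T hℓ hℓM (hnot hℓM) :=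
    fun ℓ hℓ hℓM hℓS => rfl
  -- `chig = Ψ₀ ∘ inc`
  have hchi : ∀ t, chig t = Ψ₀ (inc t) := fun t =>
    nvo28_hom_ext (↑S : Set ℕ) hS chig (Ψ₀.comp inc) (fun ℓ hℓ hℓM hℓS => by
      rw [hchig ℓ hℓ hℓM hℓS, RingHom.comp_apply, hincT, hΨ₀]) t
  -- the two Hecke actions agree
  have hact : ∀ t, hl42_act M (↑S : Set ℕ) t = hl42_act M S₀ (inc t) := fun t =>
    nvo28_hom_ext (↑S : Set ℕ) hS (hl42_act M (↑S : Set ℕ)) ((hl42_act M S₀).comp inc)
      (fun ℓ hℓ hℓM hℓS => by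
        rw [RingHom.comp_apply, hincT, hl42_act_T, hl42_act_T]) t
  -- the rings of eigenvalues
  have hR : chig.range ≤ Ψ₀.range := by
    rintro x ⟨t, rfl⟩
    exact ⟨inc t, (hchi t).symm⟩
  let incR : chig.range →+* Ψ₀.range := Subring.inclusion hR
  have hincR : Function.Injective incR := Subring.inclusion_injective hR
  -- `iota` is injective
  have hiota : Function.Injective iota := by
    haveI : Algebra.IsIntegral ℤ chig.range := ⟨fun x => nvo28_isIntegral (↑S : Set ℕ) chig x⟩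
    have hker : RingHom.ker iota = ⊥ := by
      apply Ideal.eq_bot_of_comap_eq_bot (R := ℤ)
      rw [eq_bot_iff]
      intro n hn
      rw [Ideal.mem_comap, RingHom.mem_ker, eq_intCast, map_intCast] at hn
      exact (Ideal.mem_bot).mpr (by exact_mod_cast hn)
    exact (RingHom.injective_iff_ker_eq_bot _).mpr hker
  let κ : chig.range →+* Ω := (algebraMap O' Ω).comp iota
  have hκ : Function.Injective κ := hinj.comp hiota
  obtain ⟨κ', hκ', hκ'inj⟩ := nvo28_extend incR hincR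
    (fun x => nvo28_isIntegral S₀ Ψ₀ x) κ hκ
  -- the eigenvector
  obtain ⟨xbar, hx0, hxe⟩ := ec0_28_tensor (hl42_act M S₀) (hl42_act_injective M S₀)
    (κ'.comp Ψ₀.rangeRestrict)
  refine ⟨xbar, hx0, fun t => ?_, ?_⟩
  · rw [hact t, hxe (inc t)]
    congr 1
    have h1 : Ψ₀.rangeRestrict (inc t) = incR (chig.rangeRestrict t) :=
      Subtype.ext (hchi t).symm
    rw [RingHom.comp_apply, h1, hκ']
    rfl
  · intro M' _ hM' hne c hc
    obtain ⟨cfun, hcfun⟩ : ∃ cfun : ℕ → Ψ₀.range, ∀ (ℓ : ℕ) (hℓ : ℓ.Prime) (hℓM : ¬ ℓ ∣ M),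
        cfun ℓ = Ψ₀.rangeRestrict (CuspForm.heckeAlgebra.T hℓ hℓM (hnot hℓM)) :=
      ⟨fun ℓ => if h : ℓ.Prime ∧ ¬ ℓ ∣ M then
        Ψ₀.rangeRestrict (CuspForm.heckeAlgebra.T h.1 h.2 (hnot h.2)) else 0,
        fun ℓ hℓ hℓM => dif_pos ⟨hℓ, hℓM⟩⟩
    have key : ∀ (ℓ : ℕ) (hℓ : ℓ.Prime) (hℓM : ¬ ℓ ∣ M),
        (hl42_TL M' ℓ).baseChange Ω (c.baseChange Ω xbar) = κ' (cfun ℓ) • c.baseChange Ω xbar := by
      intro ℓ hℓ hℓM
      have h0 : (hl42_TL M' ℓ).comp c = c.comp (hl42_TL M ℓ) :=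
        LinearMap.ext fun x => (hc ℓ hℓ hℓM x).symm
      have h1 : (hl42_TL M' ℓ).baseChange Ω (c.baseChange Ω xbar)
          = c.baseChange Ω ((hl42_TL M ℓ).baseChange Ω xbar) := by
        have e1 : (hl42_TL M' ℓ).baseChange Ω (c.baseChange Ω xbar)
            = ((hl42_TL M' ℓ).comp c).baseChange Ω xbar := by
          rw [LinearMap.baseChange_comp]
          rfl
        have e2 : c.baseChange Ω ((hl42_TL M ℓ).baseChange Ω xbar)
            = (c.comp (hl42_TL M ℓ)).baseChange Ω xbar := by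
          rw [LinearMap.baseChange_comp]
          rfl
        rw [e1, e2, h0]
      have h2 : (hl42_TL M ℓ).baseChange Ω xbar = κ' (cfun ℓ) • xbar := by
        have h3 := hxe (CuspForm.heckeAlgebra.T hℓ hℓM (hnot hℓM))
        rw [hl42_act_T] at h3
        rw [hcfun ℓ hℓ hℓM]
        exact h3
      calc (hl42_TL M' ℓ).baseChange Ω (c.baseChange Ω xbar)
          = c.baseChange Ω ((hl42_TL M ℓ).baseChange Ω xbar) := h1
        _ = c.baseChange Ω (κ' (cfun ℓ) • xbar) := congrArg _ h2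
        _ = κ' (cfun ℓ) • c.baseChange Ω xbar := LinearMap.map_smul _ _ _
    have hkerκ : ∀ r : Ψ₀.range, κ' r = 0 → (Subring.subtype Ψ₀.range) r = 0 := by
      intro r hr
      rw [hκ'inj (hr.trans (map_zero κ').symm), map_zero]
    have hcj : ∀ ℓ : ℕ, ℓ.Prime → ¬ ℓ ∣ M →
        (Subring.subtype Ψ₀.range) (cfun ℓ) = ModularFormClass.qCoeff g ℓ := by
      intro ℓ hℓ hℓM
      have h4 : ((cfun ℓ : Ψ₀.range) : ℂ)
          = Ψ₀ (CuspForm.heckeAlgebra.T hℓ hℓM (hnot hℓM)) := by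
        rw [hcfun ℓ hℓ hℓM]
        rfl
      exact h4.trans (hΨ₀ ℓ hℓ hℓM (hnot hℓM))
    exact nv28_newvec hg M' hM' hne (Subring.subtype Ψ₀.range) κ' hkerκ cfun hcj
      (c.baseChange Ω xbar) key

/-- **The marked NEW eigenvector over `O'` itself** (`nvo28_exists` + the descent `ne34_descend`
of helper34).  Data of the frozen statement S35 (`O'` a discrete valuation ring of characteristic
`0`) and a finite family of `ℤ`-linear maps `c i : L(M) → L(lev i)` to lattices of PROPER divisor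
levels, commuting with the Hecke operators at the primes `ℓ ∤ M`: there is a PRIMITIVE
`x0 ∈ O' ⊗ L(M)`, eigenvector of the Hecke algebra away from `S` with the character
`iota ∘ chig`, killed by every `c i`, and lying in the `O'`-span of `1 ⊗ (⋂ ker c i)`. -/
theorem nvo28_exists_new {M : ℕ} [NeZero M] {g : CuspForm (Gamma0 M) 2} (hg : g.IsNewform)
    (S : Finset ℕ)
    (O' : Type*) [CommRing O'] [IsDomain O'] [IsDiscreteValuationRing O'] [CharZero O']
    (chig : CuspForm.heckeAlgebra M 2 (↑S : Set ℕ) →+* ℂ)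
    (hchig : ∀ (ℓ : ℕ) (hℓ : ℓ.Prime) (hℓM : ¬ ℓ ∣ M) (hℓS : ℓ ∉ (↑S : Set ℕ)),
      chig (CuspForm.heckeAlgebra.T hℓ hℓM hℓS) = ModularFormClass.qCoeff g ℓ)
    (iota : chig.range →+* O')
    (hMS : ∀ q : ℕ, q.Prime → q ∣ M → q ∈ S)
    {ι : Type*} [Finite ι] (lev : ι → ℕ) [∀ i, NeZero (lev i)]
    (hlev : ∀ i, lev i ∣ M ∧ lev i ≠ M)
    (c : ∀ i, ↥(parabolicHoms ℤ (Gamma0 M) ℤ) →ₗ[ℤ] ↥(parabolicHoms ℤ (Gamma0 (lev i)) ℤ))
    (hcomm : ∀ (i : ι) (ℓ : ℕ), ℓ.Prime → ¬ ℓ ∣ M → ∀ x,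
      c i (hl42_TL M ℓ x) = hl42_TL (lev i) ℓ (c i x)) :
    ∃ x0 : O' ⊗[ℤ] ↥(parabolicHoms ℤ (Gamma0 M) ℤ),
      x0 ∉ IsLocalRing.maximalIdeal O' •
        (⊤ : Submodule O' (O' ⊗[ℤ] ↥(parabolicHoms ℤ (Gamma0 M) ℤ))) ∧
      (∀ t : CuspForm.heckeAlgebra M 2 (↑S : Set ℕ),
        (hl42_act M (↑S : Set ℕ) t).baseChange O' x0 = (iota.comp chig.rangeRestrict) t • x0) ∧
      (∀ i, (c i).baseChange O' x0 = 0) ∧
      x0 ∈ Submodule.span O' ((fun l : ↥(parabolicHoms ℤ (Gamma0 M) ℤ) => (1 : O') ⊗ₜ[ℤ] l) ''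
        {l | ∀ i, c i l = 0}) := by
  haveI := ee42_finite M
  haveI := ee42_free M
  haveI : ∀ i, Module.Free ℤ ↥(parabolicHoms ℤ (Gamma0 (lev i)) ℤ) := fun i => ee42_free (lev i)
  have hinj : Function.Injective
      (algebraMap O' (AlgebraicClosure (FractionRing O'))) := by
    rw [IsScalarTower.algebraMap_eq O' (FractionRing O') (AlgebraicClosure (FractionRing O'))]
    exact (algebraMap (FractionRing O') (AlgebraicClosure (FractionRing O'))).injective.comp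
      (IsFractionRing.injective O' (FractionRing O'))
  obtain ⟨xbar, hx0, heig, hnew⟩ := nvo28_exists hg S O' chig hchig iota hMS
    (AlgebraicClosure (FractionRing O')) hinj
  exact ne34_descend hinj (hl42_act M (↑S : Set ℕ)) (iota.comp chig.rangeRestrict) c xbar hx0
    heig (fun i => hnew (lev i) (hlev i).1 (hlev i).2 (c i) (hcomm i))

end Fermat.Agent.S35
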