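import Mathlib
import Fermat.Agent.S34.Iface47
import Fermat.Agent.S34.SpecFibre79
import Fermat.Agent.S34.Transv66

/-!
# S35 lab, row L1d-node, variant 2 (helper74): the local datum at a node, abstract form

`B` a noetherian chart (a subalgebra of the field `F`), `V₁ V₂` the two vertical valuation rings
(as subrings of `F`), `n` a closed point of the special fibre lying on BOTH branches (a node),
`B_n = sf79_loc B n`.  `T : F ≃+* F` (in the application `T = ŝ²`, `Q = q²`) with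

* `T B ⊆ B`, `T (B ∖ n) ⊆ B ∖ n` (`T n = n`), and **(SS)** `T b - b ^ Q ∈ n` for `b ∈ B`;
* `T V_i ⊆ V_i`, `T (π V_i) ⊆ π V_i`.

`f = ε c^m` with `c` a unit of `V₁` and of `V₂` and `ε` a unit of `B_n`; on each branch `f` is
congruent modulo `π V_i` to a unit of `B_n` (e.g. to a constant).  Then

`nd74_datum` : there is `φ ≡ 1 mod π W` with `φ^m · (T f / f^Q) ∈ B_n`,

which is literally the hypothesis `hNode` of `sd89_localDatum` (row L1d-smooth) at `n`.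

Proof (helper14's variant of step (1d)/(1f) of the S35 proof text).  On each branch `c^m = f/ε`
is a unit of `B_n` modulo `π V_i`, and `(B/p_i)_n` is a valuation ring of the residue field of
`V_i` (`tv66_hval`), so `c ≡ x_i mod π V_i` with `x_i` a unit of `B_n` (`nd74_root`).  Then
`Ψ := T c / c^Q ≡ y_i := T x_i / x_i^Q mod π V_i`, and `y_i ≡ 1 mod n B_n` by (SS).  By
transversality `n B_n = p₁ B_n + p₂ B_n` the two units `y₁, y₂` glue to `η ∈ B_n` with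
`η ≡ Ψ mod π V₁` and `mod π V₂`; `φ := η / Ψ` and `φ^m · (T f / f^Q) = η^m · T ε / ε^Q`.

All names are prefixed `nd74_`.
-/

set_option autoImplicit false

namespace Fermat.Agent.S35

open Fermat.Agent.S34

section ND74

variable {R F : Type*} [CommRing R] [Field F] [Algebra R F]

/-- **Root extraction on a branch.**  `x ∈ V` whose `m`-th power is congruent modulo `π V` to a
unit `a` of `B_n` is itself congruent modulo `π V` to a unit of `B_n`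
(`(B/p_V)_n` is a valuation ring of the residue field of `V`). -/
theorem nd74_root (π : R) (B : Subalgebra R F) [IsNoetherianRing B] (V : Subring F)
    (hBV : ∀ x ∈ B, x ∈ V) (hπV : (algebraMap R F π)⁻¹ ∉ V)
    (hV : ∀ x ∈ V, (algebraMap R F π)⁻¹ * x ∉ V → x⁻¹ ∈ V)
    (n : Ideal B) [hn : n.IsMaximal] (hOn : sf79_OnBr π B V n)
    (z : B) (hz : sf79_Unif π B V n z)
    (hfr : ∀ x ∈ V, ∃ b b' : B, (algebraMap R F π)⁻¹ * (b' : F) ∉ V ∧ (b' : F) * x = (b : F))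
    (m : ℕ) (hm : 0 < m) (x : F) (hx : x ∈ V)
    (a : F) (ha0 : a ≠ 0) (ha : a ∈ sf79_loc B n) (hai : a⁻¹ ∈ sf79_loc B n)
    (hxa : (algebraMap R F π)⁻¹ * (x ^ m - a) ∈ V) :
    ∃ b₀ : F, b₀ ≠ 0 ∧ b₀ ∈ sf79_loc B n ∧ b₀⁻¹ ∈ sf79_loc B n ∧
      (algebraMap R F π)⁻¹ * (x - b₀) ∈ V := by
  have hnp : n.IsPrime := hn.isPrime
  obtain ⟨t, ht, hta⟩ := ha
  obtain ⟨t', ht', ht'a⟩ := hai
  have ha'n : (⟨(t : F) * a, hta⟩ : B) ∉ n := by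
    intro h
    have h1 : (⟨(t : F) * a, hta⟩ : B) * ⟨(t' : F) * a⁻¹, ht'a⟩ = t * t' := by
      apply Subtype.ext
      show (t : F) * a * ((t' : F) * a⁻¹) = (t : F) * (t' : F)
      field_simp
    have h2 : t * t' ∈ n := by rw [← h1]; exact n.mul_mem_right _ h
    exact (hnp.mem_or_mem h2).elim ht ht'
  have hdinv : ∀ d : B, d ∉ n → (d : F)⁻¹ ∈ V :=
    fun d hd => sf79_inv_mem π B V hBV hV n hOn d hd
  obtain ⟨b, b', hb', hbx⟩ := hfr x hx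
  have hbx' : (algebraMap R F π)⁻¹ * ((b' : F) * x - (b : F)) ∈ V := by
    rw [hbx, sub_self, mul_zero]; exact V.zero_mem
  rcases tv66_hval π B V hBV hπV hV n hOn z hz x hx b b' hb' hbx' with
    ⟨c, d, hd, hdc⟩ | ⟨c, d, hd, hdc⟩
  · -- `d x ≡ c`
    have hc : c ∉ n := by
      intro hcn
      have h1 := tv66_pow_cong π V ((d : F) * x) (c : F) (V.mul_mem (hBV _ d.2) hx)
        (hBV _ c.2) m hdc
      have h2 : (algebraMap R F π)⁻¹ *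
          (((d ^ m * ⟨(t : F) * a, hta⟩ - t * c ^ m : B) : B) : F) ∈ V := by
        have e : (algebraMap R F π)⁻¹ *
            (((d ^ m * ⟨(t : F) * a, hta⟩ - t * c ^ m : B) : B) : F) =
            (t : F) * ((algebraMap R F π)⁻¹ * (((d : F) * x) ^ m - (c : F) ^ m)) -
            (t : F) * (d : F) ^ m * ((algebraMap R F π)⁻¹ * (x ^ m - a)) := by
          push_cast
          ring
        rw [e]
        exact V.sub_mem (V.mul_mem (hBV _ t.2) h1)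
          (V.mul_mem (V.mul_mem (hBV _ t.2) (V.pow_mem (hBV _ d.2) m)) hxa)
      have h3 : d ^ m * ⟨(t : F) * a, hta⟩ - t * c ^ m ∈ n := hOn _ h2
      have h4 : d ^ m * (⟨(t : F) * a, hta⟩ : B) ∈ n := by
        have e : d ^ m * (⟨(t : F) * a, hta⟩ : B) =
            (d ^ m * ⟨(t : F) * a, hta⟩ - t * c ^ m) + t * c ^ m := by ring
        rw [e]
        exact n.add_mem h3 (n.mul_mem_left _ (n.pow_mem_of_mem hcn m hm))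
      rcases hnp.mem_or_mem h4 with h5 | h5
      · exact hd (hnp.mem_of_pow_mem m h5)
      · exact ha'n h5
    have hd0 : (d : F) ≠ 0 := sf79_ne_zero B n d hd
    have hc0 : (c : F) ≠ 0 := sf79_ne_zero B n c hc
    refine ⟨(d : F)⁻¹ * (c : F), mul_ne_zero (inv_ne_zero hd0) hc0,
      (sf79_loc B n).mul_mem (sf79_inv_mem_loc B n d hd) (sf79_le_loc B n _ c.2), ?_, ?_⟩
    · rw [mul_inv, inv_inv]
      exact (sf79_loc B n).mul_mem (sf79_le_loc B n _ d.2) (sf79_inv_mem_loc B n c hc)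
    · have e : (algebraMap R F π)⁻¹ * (x - (d : F)⁻¹ * (c : F)) =
          (d : F)⁻¹ * ((algebraMap R F π)⁻¹ * ((d : F) * x - (c : F))) := by
        field_simp
      rw [e]
      exact V.mul_mem (hdinv d hd) hdc
  · -- `d ≡ c x`
    have hc : c ∉ n := by
      intro hcn
      have h1 := tv66_pow_cong π V (d : F) ((c : F) * x) (hBV _ d.2)
        (V.mul_mem (hBV _ c.2) hx) m hdc
      have h2 : (algebraMap R F π)⁻¹ *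
          (((t * d ^ m - c ^ m * ⟨(t : F) * a, hta⟩ : B) : B) : F) ∈ V := by
        have e : (algebraMap R F π)⁻¹ *
            (((t * d ^ m - c ^ m * ⟨(t : F) * a, hta⟩ : B) : B) : F) =
            (t : F) * ((algebraMap R F π)⁻¹ * ((d : F) ^ m - ((c : F) * x) ^ m)) +
            (t : F) * (c : F) ^ m * ((algebraMap R F π)⁻¹ * (x ^ m - a)) := by
          push_cast
          ring
        rw [e]
        exact V.add_mem (V.mul_mem (hBV _ t.2) h1)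
          (V.mul_mem (V.mul_mem (hBV _ t.2) (V.pow_mem (hBV _ c.2) m)) hxa)
      have h3 : t * d ^ m - c ^ m * ⟨(t : F) * a, hta⟩ ∈ n := hOn _ h2
      have h4 : t * d ^ m ∈ n := by
        have e : t * d ^ m =
            (t * d ^ m - c ^ m * ⟨(t : F) * a, hta⟩) + c ^ m * ⟨(t : F) * a, hta⟩ := by ring
        rw [e]
        exact n.add_mem h3 (n.mul_mem_right _ (n.pow_mem_of_mem hcn m hm))
      rcases hnp.mem_or_mem h4 with h5 | h5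
      · exact ht h5
      · exact hd (hnp.mem_of_pow_mem m h5)
    have hd0 : (d : F) ≠ 0 := sf79_ne_zero B n d hd
    have hc0 : (c : F) ≠ 0 := sf79_ne_zero B n c hc
    refine ⟨(c : F)⁻¹ * (d : F), mul_ne_zero (inv_ne_zero hc0) hd0,
      (sf79_loc B n).mul_mem (sf79_inv_mem_loc B n c hc) (sf79_le_loc B n _ d.2), ?_, ?_⟩
    · rw [mul_inv, inv_inv]
      exact (sf79_loc B n).mul_mem (sf79_le_loc B n _ c.2) (sf79_inv_mem_loc B n d hd)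
    · have e : (algebraMap R F π)⁻¹ * (x - (c : F)⁻¹ * (d : F)) =
          -((c : F)⁻¹ * ((algebraMap R F π)⁻¹ * ((d : F) - (c : F) * x))) := by
        field_simp
        ring
      rw [e]
      exact V.neg_mem (V.mul_mem (hdinv c hc) hdc)

/-- `T` maps `B_n` into itself when it maps `B` into `B` and `B ∖ n` into `B ∖ n`. -/
theorem nd74_T_loc (B : Subalgebra R F) (T : F ≃+* F) (hTB : ∀ x ∈ B, T x ∈ B) (n : Ideal B)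
    [hn : n.IsPrime] (hfix : ∀ x : B, x ∉ n → (⟨T (x : F), hTB _ x.2⟩ : B) ∉ n)
    (x : F) (hx : x ∈ sf79_loc B n) : T x ∈ sf79_loc B n := by
  obtain ⟨s, hs, hsx⟩ := hx
  refine ⟨⟨T (s : F), hTB _ s.2⟩, hfix s hs, ?_⟩
  show T (s : F) * T x ∈ B
  rw [← map_mul]
  exact hTB _ hsx

/-- **(SS) on `B_n`**: `T x ≡ x ^ Q` modulo `n B_n` for `x ∈ B_n`. -/
theorem nd74_SS_loc (B : Subalgebra R F) (T : F ≃+* F) (hTB : ∀ x ∈ B, T x ∈ B) (n : Ideal B)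
    [hn : n.IsPrime] (hfix : ∀ x : B, x ∉ n → (⟨T (x : F), hTB _ x.2⟩ : B) ∉ n) (Q : ℕ)
    (hSS : ∀ x : B, (⟨T (x : F), hTB _ x.2⟩ : B) - x ^ Q ∈ n)
    (x : F) (hx : x ∈ sf79_loc B n) : sf79_nmem B n (T x - x ^ Q) := by
  obtain ⟨s, hs, hsx⟩ := hx
  have hTs : (⟨T (s : F), hTB _ s.2⟩ : B) ∉ n := hfix s hs
  refine ⟨⟨T (s : F), hTB _ s.2⟩ * s ^ Q, ?_,
    (⟨T ((s : F) * x), hTB _ hsx⟩ - (⟨(s : F) * x, hsx⟩ : B) ^ Q) * s ^ Q -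
      (⟨(s : F) * x, hsx⟩ : B) ^ Q * (⟨T (s : F), hTB _ s.2⟩ - s ^ Q), ?_, ?_⟩
  · intro h
    rcases hn.mem_or_mem h with h | h
    · exact hTs h
    · exact hs (hn.mem_of_pow_mem Q h)
  · exact n.sub_mem (n.mul_mem_right _ (hSS ⟨(s : F) * x, hsx⟩)) (n.mul_mem_left _ (hSS s))
  · push_cast
    rw [map_mul]
    ring

/-- **Transversality on `n B_n`**: every element of `n B_n` is a sum of an element of `B_n`
vanishing along `V₁` and one vanishing along `V₂`. -/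
theorem nd74_transv_loc (π : R) (B : Subalgebra R F) (V₁ V₂ : Subring F)
    (hB₁ : ∀ x ∈ B, x ∈ V₁) (hB₂ : ∀ x ∈ B, x ∈ V₂)
    (hV₁ : ∀ x ∈ V₁, (algebraMap R F π)⁻¹ * x ∉ V₁ → x⁻¹ ∈ V₁)
    (hV₂ : ∀ x ∈ V₂, (algebraMap R F π)⁻¹ * x ∉ V₂ → x⁻¹ ∈ V₂)
    (n : Ideal B) [hn : n.IsPrime] (h1 : sf79_OnBr π B V₁ n) (h2 : sf79_OnBr π B V₂ n)
    (hT : ∀ x ∈ n, ∃ s : B, s ∉ n ∧ ∃ y y' : B, s * x = y + y' ∧
      (algebraMap R F π)⁻¹ * (y : F) ∈ V₁ ∧ (algebraMap R F π)⁻¹ * (y' : F) ∈ V₂)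
    (y : F) (hy : sf79_nmem B n y) :
    ∃ a b : F, a ∈ sf79_loc B n ∧ b ∈ sf79_loc B n ∧ y = a + b ∧
      (algebraMap R F π)⁻¹ * a ∈ V₁ ∧ (algebraMap R F π)⁻¹ * b ∈ V₂ := by
  obtain ⟨s, hs, x, hx, e⟩ := hy
  obtain ⟨s', hs', y₁, y₂, e', hy₁, hy₂⟩ := hT x hx
  have hs0 := sf79_ne_zero B n s hs
  have hs'0 := sf79_ne_zero B n s' hs'
  have e'' : (s' : F) * (x : F) = (y₁ : F) + (y₂ : F) := by
    have := congrArg (fun t : B => (t : F)) e'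
    simpa using this
  have hinvA : ((s : F) * (s' : F))⁻¹ ∈ sf79_loc B n := by
    rw [mul_inv]
    exact (sf79_loc B n).mul_mem (sf79_inv_mem_loc B n s hs) (sf79_inv_mem_loc B n s' hs')
  have hinv₁ : ((s : F) * (s' : F))⁻¹ ∈ V₁ := by
    rw [mul_inv]
    exact V₁.mul_mem (sf79_inv_mem π B V₁ hB₁ hV₁ n h1 s hs)
      (sf79_inv_mem π B V₁ hB₁ hV₁ n h1 s' hs')
  have hinv₂ : ((s : F) * (s' : F))⁻¹ ∈ V₂ := by
    rw [mul_inv]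
    exact V₂.mul_mem (sf79_inv_mem π B V₂ hB₂ hV₂ n h2 s hs)
      (sf79_inv_mem π B V₂ hB₂ hV₂ n h2 s' hs')
  refine ⟨((s : F) * (s' : F))⁻¹ * y₁, ((s : F) * (s' : F))⁻¹ * y₂,
    (sf79_loc B n).mul_mem hinvA (sf79_le_loc B n _ y₁.2),
    (sf79_loc B n).mul_mem hinvA (sf79_le_loc B n _ y₂.2), ?_, ?_, ?_⟩
  · rw [← mul_add, ← e'', ← e]
    field_simp
  · have e3 : (algebraMap R F π)⁻¹ * (((s : F) * (s' : F))⁻¹ * (y₁ : F)) =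
        ((s : F) * (s' : F))⁻¹ * ((algebraMap R F π)⁻¹ * (y₁ : F)) := by ring
    rw [e3]
    exact V₁.mul_mem hinv₁ hy₁
  · have e3 : (algebraMap R F π)⁻¹ * (((s : F) * (s' : F))⁻¹ * (y₂ : F)) =
        ((s : F) * (s' : F))⁻¹ * ((algebraMap R F π)⁻¹ * (y₂ : F)) := by ring
    rw [e3]
    exact V₂.mul_mem hinv₂ hy₂

/-- `c ≡ x mod π V` (units of `V`) gives `T c / c^Q ≡ T x / x^Q mod π V`. -/
theorem nd74_cong (π : R) (V : Subring F) (T : F ≃+* F) (hTV : ∀ x ∈ V, T x ∈ V)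
    (hTπ : ∀ x : F, (algebraMap R F π)⁻¹ * x ∈ V → (algebraMap R F π)⁻¹ * T x ∈ V) (Q : ℕ)
    (c x : F) (hc0 : c ≠ 0) (hx0 : x ≠ 0) (hci : c⁻¹ ∈ V) (hx : x ∈ V)
    (hxi : x⁻¹ ∈ V) (h : (algebraMap R F π)⁻¹ * (c - x) ∈ V) :
    (algebraMap R F π)⁻¹ * (T c / c ^ Q - T x / x ^ Q) ∈ V := by
  have h1 : (algebraMap R F π)⁻¹ * (T c - T x) ∈ V := by
    rw [← map_sub]
    exact hTπ _ h
  have h2 : (algebraMap R F π)⁻¹ * (c⁻¹ - x⁻¹) ∈ V := by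
    have e : (algebraMap R F π)⁻¹ * (c⁻¹ - x⁻¹) =
        -(c⁻¹ * x⁻¹ * ((algebraMap R F π)⁻¹ * (c - x))) := by
      field_simp
      ring
    rw [e]
    exact V.neg_mem (V.mul_mem (V.mul_mem hci hxi) h)
  have h3 := tv66_pow_cong π V c⁻¹ x⁻¹ hci hxi Q h2
  have e : (algebraMap R F π)⁻¹ * (T c / c ^ Q - T x / x ^ Q) =
      c⁻¹ ^ Q * ((algebraMap R F π)⁻¹ * (T c - T x)) +
        T x * ((algebraMap R F π)⁻¹ * (c⁻¹ ^ Q - x⁻¹ ^ Q)) := by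
    rw [div_eq_mul_inv, div_eq_mul_inv, ← inv_pow, ← inv_pow]
    ring
  rw [e]
  exact V.add_mem (V.mul_mem (V.pow_mem hci Q) h1) (V.mul_mem (hTV x hx) h3)

/-- **Row L1d-node, variant 2: the local datum at a node.** -/
theorem nd74_datum (π : R) (m Q : ℕ) (hm : 0 < m) (B : Subalgebra R F) [IsNoetherianRing B]
    (V₁ V₂ W : Subring F) (hW : ∀ x : F, x ∈ V₁ → x ∈ V₂ → x ∈ W)
    (hB₁ : ∀ x ∈ B, x ∈ V₁) (hB₂ : ∀ x ∈ B, x ∈ V₂)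
    (hπ₁ : (algebraMap R F π)⁻¹ ∉ V₁) (hπ₂ : (algebraMap R F π)⁻¹ ∉ V₂)
    (hV₁ : ∀ x ∈ V₁, (algebraMap R F π)⁻¹ * x ∉ V₁ → x⁻¹ ∈ V₁)
    (hV₂ : ∀ x ∈ V₂, (algebraMap R F π)⁻¹ * x ∉ V₂ → x⁻¹ ∈ V₂)
    (T : F ≃+* F) (hTB : ∀ x ∈ B, T x ∈ B)
    (hTV₁ : ∀ x ∈ V₁, T x ∈ V₁) (hTV₂ : ∀ x ∈ V₂, T x ∈ V₂)
    (hTπ₁ : ∀ x : F, (algebraMap R F π)⁻¹ * x ∈ V₁ → (algebraMap R F π)⁻¹ * T x ∈ V₁)
    (hTπ₂ : ∀ x : F, (algebraMap R F π)⁻¹ * x ∈ V₂ → (algebraMap R F π)⁻¹ * T x ∈ V₂)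
    (n : Ideal B) [hn : n.IsMaximal] (h1 : sf79_OnBr π B V₁ n) (h2 : sf79_OnBr π B V₂ n)
    (hfix : ∀ x : B, x ∉ n → (⟨T (x : F), hTB _ x.2⟩ : B) ∉ n)
    (hSS : ∀ x : B, (⟨T (x : F), hTB _ x.2⟩ : B) - x ^ Q ∈ n)
    (z₁ : B) (hz₁ : sf79_Unif π B V₁ n z₁) (z₂ : B) (hz₂ : sf79_Unif π B V₂ n z₂)
    (hfr₁ : ∀ x ∈ V₁, ∃ b b' : B, (algebraMap R F π)⁻¹ * (b' : F) ∉ V₁ ∧
      (b' : F) * x = (b : F))
    (hfr₂ : ∀ x ∈ V₂, ∃ b b' : B, (algebraMap R F π)⁻¹ * (b' : F) ∉ V₂ ∧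
      (b' : F) * x = (b : F))
    (hT : ∀ x ∈ n, ∃ s : B, s ∉ n ∧ ∃ y y' : B, s * x = y + y' ∧
      (algebraMap R F π)⁻¹ * (y : F) ∈ V₁ ∧ (algebraMap R F π)⁻¹ * (y' : F) ∈ V₂)
    (f ε c : F) (hf : f = ε * c ^ m) (hc0 : c ≠ 0)
    (hc₁ : c ∈ V₁) (hc₁' : c⁻¹ ∈ V₁) (hc₂ : c ∈ V₂) (hc₂' : c⁻¹ ∈ V₂)
    (hε0 : ε ≠ 0) (hε : ε ∈ sf79_loc B n) (hε' : ε⁻¹ ∈ sf79_loc B n)
    (k₁ k₂ : F) (hk₁0 : k₁ ≠ 0) (hk₁ : k₁ ∈ sf79_loc B n) (hk₁' : k₁⁻¹ ∈ sf79_loc B n)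
    (hk₂0 : k₂ ≠ 0) (hk₂ : k₂ ∈ sf79_loc B n) (hk₂' : k₂⁻¹ ∈ sf79_loc B n)
    (hfk₁ : (algebraMap R F π)⁻¹ * (f - k₁) ∈ V₁)
    (hfk₂ : (algebraMap R F π)⁻¹ * (f - k₂) ∈ V₂) :
    ∃ φ : F, (algebraMap R F π)⁻¹ * (φ - 1) ∈ W ∧
      ∃ s : B, s ∉ n ∧ (s : F) * (φ ^ m * (T f / f ^ Q)) ∈ B := by
  have hnp : n.IsPrime := hn.isPrime
  have hA₁ : sf79_loc B n ≤ V₁ := sf79_loc_le π B V₁ hB₁ hV₁ n h1
  have hA₂ : sf79_loc B n ≤ V₂ := sf79_loc_le π B V₂ hB₂ hV₂ n h2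
  have hp0 : algebraMap R F π ≠ 0 := by
    intro h0
    apply hπ₁
    rw [h0, inv_zero]
    exact V₁.zero_mem
  -- `c^m = f / ε` is a unit of `B_n` modulo `π V_i`
  have hcm : c ^ m = f * ε⁻¹ := by
    rw [hf]
    field_simp
  have hca₁ : (algebraMap R F π)⁻¹ * (c ^ m - k₁ * ε⁻¹) ∈ V₁ := by
    have e : (algebraMap R F π)⁻¹ * (c ^ m - k₁ * ε⁻¹) =
        (algebraMap R F π)⁻¹ * (f - k₁) * ε⁻¹ := by
      rw [hcm]
      ring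
    rw [e]
    exact V₁.mul_mem hfk₁ (hA₁ hε')
  have hca₂ : (algebraMap R F π)⁻¹ * (c ^ m - k₂ * ε⁻¹) ∈ V₂ := by
    have e : (algebraMap R F π)⁻¹ * (c ^ m - k₂ * ε⁻¹) =
        (algebraMap R F π)⁻¹ * (f - k₂) * ε⁻¹ := by
      rw [hcm]
      ring
    rw [e]
    exact V₂.mul_mem hfk₂ (hA₂ hε')
  have hinv : ∀ k : F, k⁻¹ ∈ sf79_loc B n → (k * ε⁻¹)⁻¹ ∈ sf79_loc B n := by
    intro k hk
    rw [mul_inv, inv_inv]
    exact (sf79_loc B n).mul_mem hk hε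
  obtain ⟨x₁, hx₁0, hx₁, hx₁', hcx₁⟩ := nd74_root π B V₁ hB₁ hπ₁ hV₁ n h1 z₁ hz₁ hfr₁ m hm c
    hc₁ (k₁ * ε⁻¹) (mul_ne_zero hk₁0 (inv_ne_zero hε0))
    ((sf79_loc B n).mul_mem hk₁ hε') (hinv k₁ hk₁') hca₁
  obtain ⟨x₂, hx₂0, hx₂, hx₂', hcx₂⟩ := nd74_root π B V₂ hB₂ hπ₂ hV₂ n h2 z₂ hz₂ hfr₂ m hm c
    hc₂ (k₂ * ε⁻¹) (mul_ne_zero hk₂0 (inv_ne_zero hε0))
    ((sf79_loc B n).mul_mem hk₂ hε') (hinv k₂ hk₂') hca₂
  -- the two units `y_i = T x_i / x_i^Q` of `B_n`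
  have hTc0 : T c ≠ 0 := (map_ne_zero T).mpr hc0
  have hΨ₁ := nd74_cong π V₁ T hTV₁ hTπ₁ Q c x₁ hc0 hx₁0 hc₁' (hA₁ hx₁) (hA₁ hx₁') hcx₁
  have hΨ₂ := nd74_cong π V₂ T hTV₂ hTπ₂ Q c x₂ hc0 hx₂0 hc₂' (hA₂ hx₂) (hA₂ hx₂') hcx₂
  have hyA : ∀ x : F, x ∈ sf79_loc B n → x⁻¹ ∈ sf79_loc B n → T x / x ^ Q ∈ sf79_loc B n := by
    intro x hx hxi
    rw [div_eq_mul_inv, ← inv_pow]
    exact (sf79_loc B n).mul_mem (nd74_T_loc B T hTB n hfix x hx) ((sf79_loc B n).pow_mem hxi Q)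
  have hy1 : ∀ x : F, x ≠ 0 → x ∈ sf79_loc B n → x⁻¹ ∈ sf79_loc B n →
      sf79_nmem B n (T x / x ^ Q - 1) := by
    intro x hx0 hx hxi
    have e : T x / x ^ Q - 1 = x⁻¹ ^ Q * (T x - x ^ Q) := by
      have : x ^ Q ≠ 0 := pow_ne_zero _ hx0
      rw [inv_pow]
      field_simp
    rw [e]
    exact sf79_nmem_mul B n _ _ ((sf79_loc B n).pow_mem hxi Q)
      (nd74_SS_loc B T hTB n hfix Q hSS x hx)
  have hdiff : sf79_nmem B n (T x₁ / x₁ ^ Q - T x₂ / x₂ ^ Q) := by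
    have e : T x₁ / x₁ ^ Q - T x₂ / x₂ ^ Q =
        (T x₁ / x₁ ^ Q - 1) + (-1 : F) * (T x₂ / x₂ ^ Q - 1) := by ring
    rw [e]
    exact sf79_nmem_add B n _ _ (hy1 x₁ hx₁0 hx₁ hx₁')
      (sf79_nmem_mul B n _ _ ((sf79_loc B n).neg_mem (sf79_loc B n).one_mem)
        (hy1 x₂ hx₂0 hx₂ hx₂'))
  obtain ⟨a, b, ha, hb, hab, ha₁, hb₂⟩ :=
    nd74_transv_loc π B V₁ V₂ hB₁ hB₂ hV₁ hV₂ n h1 h2 hT _ hdiff
  -- the glued unit `η`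
  have hηA : T x₁ / x₁ ^ Q - a ∈ sf79_loc B n :=
    (sf79_loc B n).sub_mem (hyA x₁ hx₁ hx₁') ha
  have hη₂ : T x₁ / x₁ ^ Q - a = T x₂ / x₂ ^ Q + b := by linear_combination hab
  have hηΨ₁ : (algebraMap R F π)⁻¹ * ((T x₁ / x₁ ^ Q - a) - T c / c ^ Q) ∈ V₁ := by
    have e : (algebraMap R F π)⁻¹ * ((T x₁ / x₁ ^ Q - a) - T c / c ^ Q) =
        -((algebraMap R F π)⁻¹ * (T c / c ^ Q - T x₁ / x₁ ^ Q)) - (algebraMap R F π)⁻¹ * a := by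
      ring
    rw [e]
    exact V₁.sub_mem (V₁.neg_mem hΨ₁) ha₁
  have hηΨ₂ : (algebraMap R F π)⁻¹ * ((T x₁ / x₁ ^ Q - a) - T c / c ^ Q) ∈ V₂ := by
    have e : (algebraMap R F π)⁻¹ * ((T x₁ / x₁ ^ Q - a) - T c / c ^ Q) =
        -((algebraMap R F π)⁻¹ * (T c / c ^ Q - T x₂ / x₂ ^ Q)) + (algebraMap R F π)⁻¹ * b := by
      rw [hη₂]
      ring
    rw [e]
    exact V₂.add_mem (V₂.neg_mem hΨ₂) hb₂
  -- `Ψ⁻¹ = c^Q / T c` lies in both valuation rings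
  have hΨinv₁ : c ^ Q * (T c)⁻¹ ∈ V₁ := by
    rw [← map_inv₀]
    exact V₁.mul_mem (V₁.pow_mem hc₁ Q) (hTV₁ _ hc₁')
  have hΨinv₂ : c ^ Q * (T c)⁻¹ ∈ V₂ := by
    rw [← map_inv₀]
    exact V₂.mul_mem (V₂.pow_mem hc₂ Q) (hTV₂ _ hc₂')
  have hcQ : c ^ Q ≠ 0 := pow_ne_zero _ hc0
  have hφ : (algebraMap R F π)⁻¹ * ((T x₁ / x₁ ^ Q - a) * (c ^ Q * (T c)⁻¹) - 1) =
      (algebraMap R F π)⁻¹ * ((T x₁ / x₁ ^ Q - a) - T c / c ^ Q) * (c ^ Q * (T c)⁻¹) := by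
    field_simp
  refine ⟨(T x₁ / x₁ ^ Q - a) * (c ^ Q * (T c)⁻¹), hW _ ?_ ?_, ?_⟩
  · rw [hφ]
    exact V₁.mul_mem hηΨ₁ hΨinv₁
  · rw [hφ]
    exact V₂.mul_mem hηΨ₂ hΨinv₂
  · -- `φ^m · (T f / f^Q) = η^m · T ε / ε^Q ∈ B_n`
    have key : ((T x₁ / x₁ ^ Q - a) * (c ^ Q * (T c)⁻¹)) ^ m * (T f / f ^ Q) =
        (T x₁ / x₁ ^ Q - a) ^ m * (T ε * ε⁻¹ ^ Q) := by
      have h3 : T f = T ε * T c ^ m := by rw [hf, map_mul, map_pow]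
      have h4 : f ^ Q = ε ^ Q * (c ^ Q) ^ m := by
        rw [hf, mul_pow, ← pow_mul, ← pow_mul, mul_comm m Q]
      have hεQ : ε ^ Q ≠ 0 := pow_ne_zero _ hε0
      have hTcm : T c ^ m ≠ 0 := pow_ne_zero _ hTc0
      have hcQm : (c ^ Q) ^ m ≠ 0 := pow_ne_zero _ hcQ
      rw [h3, h4, inv_pow, mul_pow, mul_pow, inv_pow]
      field_simp
    have hmem : (T x₁ / x₁ ^ Q - a) ^ m * (T ε * ε⁻¹ ^ Q) ∈ sf79_loc B n :=
      (sf79_loc B n).mul_mem ((sf79_loc B n).pow_mem hηA m)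
        ((sf79_loc B n).mul_mem (nd74_T_loc B T hTB n hfix ε hε)
          ((sf79_loc B n).pow_mem hε' Q))
    rw [key]
    exact hmem

end ND74

end Fermat.Agent.S35
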