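import Mathlib
import Fermat.Agent.S35.PkgCoreA39
import Fermat.Agent.S35.NodeDatum14
import Fermat.Agent.S35.NodeFN93
import Fermat.Agent.S35.FrameTools99
import Fermat.Agent.S35.NewToricCanon35

/-!
# S35 lab, row 568 (helper89): the two claims of `PkgCoreA39` on the canonical frame

* `ndc89_nodeDatum : pc39_NodeDatum` — the local datum of `u = τ f₃ / f₃ ^ (q²)` at the closed
  points lying on both branches, from `nd14_hNode` (helper14), the Frobenius clauses at the nodes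
  `fn93c_FN` / `fn93c_fix` (helper93), the root shape `lpt3_node_shape` (helper3) and the chart
  toolkit `ft99_frame` (helper99).
* `ndc89_toricCong : pc39_ToricCong` — (1c) in congruence form, from `ntc35_toric` (helper35).
* `ndc89_pkg_core : s35i62_Pkg_Core` — chain A, via `pc39_core_of` (helper39).

All names are prefixed `ndc89_`.
-/

set_option autoImplicit false
set_option linter.style.longLine false
set_option linter.unusedVariables false
set_option linter.unusedSectionVars false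

open ModularCurve AlgebraicCurve

namespace Fermat.Agent.S35

open Fermat.Agent.S18 Fermat.Agent.S34

local notation "Q̄" => AlgebraicClosure ℚ

/-- If `τ p = p * r` with `r ∈ V` then `τ` maps `p V` into `p V`. -/
theorem ndc89_tau_pi {F : Type*} [Field F] (V : Subring F) (τ : F →+* F)
    (hτV : ∀ x ∈ V, τ x ∈ V) (p r : F) (hr : r ∈ V) (hp : τ p = p * r) (x : F)
    (hx : p⁻¹ * x ∈ V) : p⁻¹ * τ x ∈ V := by
  by_cases hp0 : p = 0
  · rw [hp0, inv_zero, zero_mul]
    exact V.zero_mem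
  have hτp : τ p ≠ 0 := (map_ne_zero τ).mpr hp0
  have h1 := hτV _ hx
  rw [map_mul, map_inv₀] at h1
  have e : p⁻¹ * τ x = r * ((τ p)⁻¹ * τ x) := by
    have hr0 : r ≠ 0 := by
      rintro rfl
      rw [mul_zero] at hp
      exact hτp hp
    rw [hp]
    field_simp
  rw [e]
  exact V.mul_mem hr h1

/-- **The local datum at the nodes** on the canonical frame: the literal `pc39_NodeDatum`. -/
theorem ndc89_nodeDatum : pc39_NodeDatum := by
  intro M' q m _ _ hq hM' hm hmq R K _ _ _ _ _ _ _ _ _ _ π hπ hunit hqR σ hσ h hh B hB f G hf hLP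
    hGW hGW' C₁ C₂ hC₁ hC₂ hc₁ hc₂
  have hσ' : ff50_Frob R q σ := hσ
  -- the chart toolkit
  obtain ⟨H₁, H₂⟩ := ft99_frame M' q hq hM' R K π hπ hunit hqR h hh
  have H : ft99_Chart K π B (cm85_Vinf (K := K) (M' * q) hπ).toSubring
      (s34i47c_V0 (K := K) M' q hq hM' hπ).toSubring := by
    rcases hB with rfl | rfl
    · exact H₁
    · exact H₂
  haveI : IsNoetherianRing B := H.hnoeth
  obtain ⟨-, hBW, hsatW, -, -, -, -⟩ := sd89c_chart_facts M' q hq hM' hπ hunit hqR h hh B hB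
  obtain ⟨hτB, hτB'⟩ := pc39_tau_chart M' q σ hσ' h hh B hB
  have hπ0 : algebraMap R ↥(modularFunctionFieldFullC K (M' * q)) π ≠ 0 := by
    rw [IsScalarTower.algebraMap_apply R K ↥(modularFunctionFieldFullC K (M' * q))]
    exact (map_ne_zero _).mpr
      ((map_ne_zero_iff _ (IsFractionRing.injective R K)).mpr hπ.ne_zero)
  -- `G ≠ 0`, `f₃ ≠ 0`
  have hG0 : G ≠ 0 := by
    rintro rfl
    apply fl7_pi_inv_not_mem_Vinf (K := K) M' q hπ
    have e0 : lpt3_f3 (pc39_tau σ (M' * q)) m f 0 = 0 := by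
      unfold lpt3_f3
      rw [zero_pow hm.ne', div_zero]
    rw [e0, zero_sub] at hc₁
    obtain ⟨d, hd⟩ := hC₁.exists_right_inv
    have h1 := (cm85_Vinf (K := K) (M' * q) hπ).mul_mem _ _ hc₁
      (pk85_hRV (M' * q) hπ (-d))
    have e1 : (algebraMap R ↥(modularFunctionFieldFullC K (M' * q)) π)⁻¹ *
        -(algebraMap R ↥(modularFunctionFieldFullC K (M' * q)) C₁) *
          algebraMap R ↥(modularFunctionFieldFullC K (M' * q)) (-d) =
        (algebraMap R ↥(modularFunctionFieldFullC K (M' * q)) π)⁻¹ := by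
      rw [map_neg, mul_assoc, neg_mul_neg, ← map_mul, hd, map_one, mul_one]
    rw [e1] at h1
    exact h1
  have hτf : ∀ x : ↥(modularFunctionFieldFullC K (M' * q)), x ≠ 0 →
      pc39_tau σ (M' * q) x ≠ 0 := fun x hx => (map_ne_zero _).mpr hx
  have hf3 : lpt3_f3 (pc39_tau σ (M' * q)) m f G ≠ 0 := by
    unfold lpt3_f3
    have h1 : f / pc39_tau σ (M' * q) f ≠ 0 := div_ne_zero hf (hτf f hf)
    exact div_ne_zero (div_ne_zero h1 (hτf _ h1)) (pow_ne_zero m hG0)
  -- constants of `R` in the two valuation rings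
  have hRV₁ : ∀ r : R, algebraMap R ↥(modularFunctionFieldFullC K (M' * q)) r ∈
      (cm85_Vinf (K := K) (M' * q) hπ).toSubring := fun r => pk85_hRV (M' * q) hπ r
  have hRV₂ : ∀ r : R, algebraMap R ↥(modularFunctionFieldFullC K (M' * q)) r ∈
      (s34i47c_V0 (K := K) M' q hq hM' hπ).toSubring := fun r => by
    show algebraMap R ↥(modularFunctionFieldFullC K (M' * q)) r ∈
      s34i47c_V0 (K := K) M' q hq hM' hπ
    rw [s34i47c_mem_V0, fl7_w_algebraMap]
    exact pk85_hRV (M' * q) hπ r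
  -- `τ` as a ring homomorphism
  set τ : ↥(modularFunctionFieldFullC K (M' * q)) →+* ↥(modularFunctionFieldFullC K (M' * q)) :=
    (s34i47_coeffEquiv σ (M' * q) : ↥(modularFunctionFieldFullC K (M' * q)) →+*
        ↥(modularFunctionFieldFullC K (M' * q))).comp
      (s34i47_coeffEquiv σ (M' * q) : ↥(modularFunctionFieldFullC K (M' * q)) →+*
        ↥(modularFunctionFieldFullC K (M' * q))) with hτ_def
  have hτ_apply : ∀ x : ↥(modularFunctionFieldFullC K (M' * q)),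
      τ x = pc39_tau σ (M' * q) x := fun x => rfl
  have hτV₁ : ∀ x ∈ (cm85_Vinf (K := K) (M' * q) hπ).toSubring,
      τ x ∈ (cm85_Vinf (K := K) (M' * q) hπ).toSubring :=
    fun x hx => ff50_mem_Vinf (M' * q) hq.ne_zero hπ σ hσ' _
      (ff50_mem_Vinf (M' * q) hq.ne_zero hπ σ hσ' x hx)
  have hτV₂ : ∀ x ∈ (s34i47c_V0 (K := K) M' q hq hM' hπ).toSubring,
      τ x ∈ (s34i47c_V0 (K := K) M' q hq hM' hπ).toSubring :=
    fun x hx => ff50_mem_V0 M' q hq hM' hπ σ hσ' _ (ff50_mem_V0 M' q hq hM' hπ σ hσ' x hx)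
  obtain ⟨r₀, hr₀⟩ := pc39_sq_pi (q := q) hπ (NeZero.ne q) σ hσ'
  have hτπ : τ (algebraMap R ↥(modularFunctionFieldFullC K (M' * q)) π) =
      algebraMap R ↥(modularFunctionFieldFullC K (M' * q)) π *
        algebraMap R ↥(modularFunctionFieldFullC K (M' * q)) r₀ := by
    rw [hτ_apply, pc39_tau_alg M' q σ hσ', hr₀, map_mul]
  have hτ₁ : ∀ x : ↥(modularFunctionFieldFullC K (M' * q)),
      (algebraMap R ↥(modularFunctionFieldFullC K (M' * q)) π)⁻¹ * x ∈
        (cm85_Vinf (K := K) (M' * q) hπ).toSubring →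
      (algebraMap R ↥(modularFunctionFieldFullC K (M' * q)) π)⁻¹ * τ x ∈
        (cm85_Vinf (K := K) (M' * q) hπ).toSubring :=
    fun x hx => ndc89_tau_pi _ τ hτV₁ _ _ (hRV₁ r₀) hτπ x hx
  have hτ₂ : ∀ x : ↥(modularFunctionFieldFullC K (M' * q)),
      (algebraMap R ↥(modularFunctionFieldFullC K (M' * q)) π)⁻¹ * x ∈
        (s34i47c_V0 (K := K) M' q hq hM' hπ).toSubring →
      (algebraMap R ↥(modularFunctionFieldFullC K (M' * q)) π)⁻¹ * τ x ∈
        (s34i47c_V0 (K := K) M' q hq hM' hπ).toSubring :=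
    fun x hx => ndc89_tau_pi _ τ hτV₂ _ _ (hRV₂ r₀) hτπ x hx
  -- (G1) for `τ`
  have hG1 : ∀ x : ↥(modularFunctionFieldFullC K (M' * q)), x ≠ 0 →
      pc39_tau σ (M' * q) x / x ∈ s34i47c_W (K := K) M' q hq hM' hπ := by
    intro x hx
    have hx' : s34i47_coeffEquiv σ (M' * q) x ≠ 0 := (map_ne_zero _).mpr hx
    have h1 := ff50_div_mem_W M' q hq hM' hπ σ hσ' x hx
    have h2 := ff50_div_mem_W M' q hq hM' hπ σ hσ' _ hx'
    have e : pc39_tau σ (M' * q) x / x =
        s34i47_coeffEquiv σ (M' * q) (s34i47_coeffEquiv σ (M' * q) x) /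
          s34i47_coeffEquiv σ (M' * q) x * (s34i47_coeffEquiv σ (M' * q) x / x) := by
      rw [pc39_tau_apply, div_mul_div_cancel₀ hx']
    rw [e]
    exact Subring.mul_mem _ h2 h1
  -- the abstract node lemma
  have key := nd14_hNode π m hm B (cm85_Vinf (K := K) (M' * q) hπ).toSubring
    (s34i47c_V0 (K := K) M' q hq hM' hπ).toSubring (s34i47c_W (K := K) M' q hq hM' hπ)
    (fun x h1 h2 => ft99_W_of M' q hq hM' hπ x h1 h2)
    H.hB₁ H.hB₂ H.hπ₁ H.hπ₂ H.hV₁ H.hV₂ H.hsat H.hFrac H.harch₁ H.harch₂ H.hS₁ H.hS₂ H.hT H.hUV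
    τ (q ^ 2) hτV₁ hτV₂ hτ₁ hτ₂ (lpt3_f3 (pc39_tau σ (M' * q)) m f G) hf3 C₁ C₂ hC₁ hC₂ hc₁ hc₂
    (by
      intro n hn hπn hn₁ hn₂
      refine ⟨fn93c_FN M' q hq hM' R K π hπ hunit hqR σ hσ h hh B hB n hn.isPrime hn₁ hn₂, ?_⟩
      obtain ⟨c, hc⟩ := hLP n hn hπn
      have hτn : ∀ d : B, d ∉ n →
          (⟨pc39_tau σ (M' * q) d, hτB d d.2⟩ : B) ∉ n :=
        fn93c_fix M' q hq hM' R K π hπ hunit hqR σ hσ h hh B hB hτB n hn.isPrime hn₁ hn₂
      obtain ⟨h1, h2, h3, h4, h5, h6, h7, h8⟩ := lpt3_node_shape (K := K) π hπ m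
        (s34i47c_W (K := K) M' q hq hM' hπ) B hBW hsatW (pc39_tau σ (M' * q))
        (pc39_tau_R M' q σ hσ') hτB hG1 n hτn (H.hKr n hn hπn) f c G hf hc hG0 hGW hGW'
      refine ⟨lpt3_c3 (pc39_tau σ (M' * q)) c G, h1, ft99_W_left M' q hq hM' hπ _ h2,
        ft99_W_left M' q hq hM' hπ _ h3, ft99_W_right M' q hq hM' hπ _ h2,
        ft99_W_right M' q hq hM' hπ _ h3, h6, ?_⟩
      rwa [inv_div] at h7)
  intro n hn hπn hn₁ hn₂
  exact key n hn hπn hn₁ hn₂

/-- **(1c) in congruence form** on the canonical frame: the literal `pc39_ToricCong`. -/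
theorem ndc89_toricCong : pc39_ToricCong := by
  intro M' q m _ _ hq hM' hm hmq R K _ _ _ _ _ _ _ _ _ _ π hπ hunit hqR hζ σ hσ f a b ca cb hf ha
    hb hca hcb hord hNa hNb
  obtain ⟨G, hG0, hGW, hGW', C₁, C₂, hC₁, hC₂, h1, h2, -, -, -⟩ :=
    ntc35_toric M' q hq hM' hπ hqR σ hσ m f a b ca cb hf ha hb hNa hNb
  exact ⟨G, hGW, hGW', C₁, C₂, hC₁, hC₂, h1, h2⟩

/-- **PKG-Core (chain A)**: the literal `s35i62_Pkg_Core` of `Iface62`. -/
theorem ndc89_pkg_core : s35i62_Pkg_Core :=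
  pc39_core_of ndc89_toricCong ndc89_nodeDatum

end Fermat.Agent.S35
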