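import Mathlib
import Fermat.Agent.S35.PkgCoreA39
import Fermat.Agent.S35.NodeDatum14
import Fermat.Agent.S35.NodeFN93
import Fermat.Agent.S35.FrameTools99

/-!
# S35 lab, row 568 (helper58): the node clause of chain A on the canonical frame

`nd58_nodeDatum : pc39_NodeDatum` — the second hypothesis of `pc39_core_of` (helper39), proved by
the coordinate-free node datum `nd14_hNode` (helper14) on the canonical frame:

* chart facts: `ft99_frame` (helper99), `sd89c_chart_facts` (helper89);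
* `τ = ŝ²` on `V_∞`, `V_0`, the charts: `ff50_*` (helper50), `pc39_tau_*` (helper39);
* (FN) at the nodes: `fn93c_node` (helper93);
* the root of `f₃` at a node: `lpt3_node_shape` (helper3) applied to an (LP)-root of `f`.

All names are prefixed `nd58_`.
-/

set_option autoImplicit false
set_option linter.unusedSectionVars false
set_option linter.unusedVariables false
set_option linter.style.longLine false
set_option linter.style.haveILetI false

open ModularCurve AlgebraicCurve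

namespace Fermat.Agent.S35

open Fermat.Agent.S18 Fermat.Agent.S34

local notation "Q̄" => AlgebraicClosure ℚ

/-- **The local datum at the nodes, on the canonical frame** (the literal `pc39_NodeDatum`). -/
theorem nd58_nodeDatum : pc39_NodeDatum := by
  intro M' q m _ _ hq hM' hm hmq R K _ _ _ _ _ _ _ _ _ _ π hπ hunit hqR σ hσ h hh B hB f G hf hLP
    hGW hGW' C₁ C₂ hC₁ hC₂ hc₁ hc₂ n hn hπn hn₁ hn₂
  -- chart facts
  have hCh : ft99_Chart K π B (cm85_Vinf (K := K) (M' * q) hπ).toSubring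
      (s34i47c_V0 (K := K) M' q hq hM' hπ).toSubring := by
    obtain ⟨h1, h2⟩ := ft99_frame M' q hq hM' R K π hπ hunit hqR h hh
    rcases hB with rfl | rfl
    · exact h1
    · exact h2
  haveI : IsNoetherianRing B := hCh.hnoeth
  obtain ⟨-, hBW, hsatW, -, -, -, -⟩ := sd89c_chart_facts M' q hq hM' hπ hunit hqR h hh B hB
  -- `τ = ŝ²`
  obtain ⟨hτB, -⟩ := pc39_tau_chart M' q σ hσ h hh B hB
  have hπ0 : algebraMap R ↥(modularFunctionFieldFullC K (M' * q)) π ≠ 0 := by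
    intro h0
    apply hCh.hπ₁
    rw [h0, inv_zero]
    exact Subring.zero_mem _
  have hτV₁ : ∀ x ∈ (cm85_Vinf (K := K) (M' * q) hπ).toSubring,
      pc39_tau σ (M' * q) x ∈ (cm85_Vinf (K := K) (M' * q) hπ).toSubring :=
    fun x hx => ff50_mem_Vinf (M' * q) hq.ne_zero hπ σ hσ _
      (ff50_mem_Vinf (M' * q) hq.ne_zero hπ σ hσ x hx)
  have hτV₂ : ∀ x ∈ (s34i47c_V0 (K := K) M' q hq hM' hπ).toSubring,
      pc39_tau σ (M' * q) x ∈ (s34i47c_V0 (K := K) M' q hq hM' hπ).toSubring :=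
    fun x hx => ff50_mem_V0 M' q hq hM' hπ σ hσ _ (ff50_mem_V0 M' q hq hM' hπ σ hσ x hx)
  -- `τ π = π r`
  obtain ⟨r, hr⟩ := pc39_sq_pi (q := q) hπ (NeZero.ne q) σ hσ
  have hτπ : pc39_tau σ (M' * q) (algebraMap R ↥(modularFunctionFieldFullC K (M' * q)) π) =
      algebraMap R ↥(modularFunctionFieldFullC K (M' * q)) π *
        algebraMap R ↥(modularFunctionFieldFullC K (M' * q)) r := by
    rw [pc39_tau_alg M' q σ hσ, hr, map_mul]
  have hτpi : ∀ (V : Subring ↥(modularFunctionFieldFullC K (M' * q))),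
      (∀ x ∈ B, x ∈ V) → (∀ x ∈ V, pc39_tau σ (M' * q) x ∈ V) →
      ∀ x : ↥(modularFunctionFieldFullC K (M' * q)),
        (algebraMap R ↥(modularFunctionFieldFullC K (M' * q)) π)⁻¹ * x ∈ V →
        (algebraMap R ↥(modularFunctionFieldFullC K (M' * q)) π)⁻¹ * pc39_tau σ (M' * q) x ∈ V := by
    intro V hBV hτV x hx
    have e : (algebraMap R ↥(modularFunctionFieldFullC K (M' * q)) π)⁻¹ * pc39_tau σ (M' * q) x =
        algebraMap R ↥(modularFunctionFieldFullC K (M' * q)) r *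
          pc39_tau σ (M' * q) ((algebraMap R ↥(modularFunctionFieldFullC K (M' * q)) π)⁻¹ * x) := by
      have hx' : x = algebraMap R ↥(modularFunctionFieldFullC K (M' * q)) π *
          ((algebraMap R ↥(modularFunctionFieldFullC K (M' * q)) π)⁻¹ * x) := by
        rw [mul_inv_cancel_left₀ hπ0]
      conv_lhs => rw [hx', map_mul, hτπ]
      rw [mul_assoc, inv_mul_cancel_left₀ hπ0]
    rw [e]
    exact V.mul_mem (hBV _ (B.algebraMap_mem r)) (hτV _ hx)
  -- `f₃ ≠ 0`, `G ≠ 0`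
  have hf3 : lpt3_f3 (pc39_tau σ (M' * q)) m f G ≠ 0 := by
    intro h0
    apply hCh.hπ₁
    obtain ⟨C', hC'⟩ := hC₁.exists_right_inv
    have h1 : (algebraMap R ↥(modularFunctionFieldFullC K (M' * q)) π)⁻¹ *
        (0 - algebraMap R ↥(modularFunctionFieldFullC K (M' * q)) C₁) ∈
        (cm85_Vinf (K := K) (M' * q) hπ).toSubring := by
      rw [← h0]; exact hc₁
    have h2 := Subring.mul_mem _ h1 (hCh.hB₁ _ (B.algebraMap_mem (-C')))
    have e : (algebraMap R ↥(modularFunctionFieldFullC K (M' * q)) π)⁻¹ *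
        (0 - algebraMap R ↥(modularFunctionFieldFullC K (M' * q)) C₁) *
          algebraMap R ↥(modularFunctionFieldFullC K (M' * q)) (-C') =
        (algebraMap R ↥(modularFunctionFieldFullC K (M' * q)) π)⁻¹ := by
      have e1 : algebraMap R ↥(modularFunctionFieldFullC K (M' * q)) C₁ *
          algebraMap R ↥(modularFunctionFieldFullC K (M' * q)) C' = 1 := by
        rw [← map_mul, hC', map_one]
      rw [map_neg]
      linear_combination (algebraMap R ↥(modularFunctionFieldFullC K (M' * q)) π)⁻¹ * e1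
    rwa [e] at h2
  have hG : G ≠ 0 := by
    rintro rfl
    apply hf3
    unfold lpt3_f3
    rw [zero_pow hm.ne', div_zero]
  -- (G1) for `τ`
  have hG1 : ∀ x : ↥(modularFunctionFieldFullC K (M' * q)), x ≠ 0 →
      pc39_tau σ (M' * q) x / x ∈ s34i47c_W (K := K) M' q hq hM' hπ := by
    intro x hx
    have hx' : s34i47_coeffEquiv σ (M' * q) x ≠ 0 := (map_ne_zero _).mpr hx
    have h1 := ff50_div_mem_W M' q hq hM' hπ σ hσ x hx
    have h2 := ff50_div_mem_W M' q hq hM' hπ σ hσ _ hx'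
    have e : pc39_tau σ (M' * q) x / x =
        s34i47_coeffEquiv σ (M' * q) (s34i47_coeffEquiv σ (M' * q) x) /
          s34i47_coeffEquiv σ (M' * q) x * (s34i47_coeffEquiv σ (M' * q) x / x) := by
      rw [pc39_tau_apply, div_mul_div_cancel₀ hx']
    rw [e]
    exact Subring.mul_mem _ h2 h1
  -- the node clause
  have key := nd14_hNode π m hm B (cm85_Vinf (K := K) (M' * q) hπ).toSubring
    (s34i47c_V0 (K := K) M' q hq hM' hπ).toSubring (s34i47c_W (K := K) M' q hq hM' hπ)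
    (fun x h1 h2 => ft99_W_of M' q hq hM' hπ x h1 h2)
    hCh.hB₁ hCh.hB₂ hCh.hπ₁ hCh.hπ₂ hCh.hV₁ hCh.hV₂ hCh.hsat hCh.hFrac hCh.harch₁ hCh.harch₂
    hCh.hS₁ hCh.hS₂ hCh.hT hCh.hUV
    ((pc39_tau σ (M' * q) : ↥(modularFunctionFieldFullC K (M' * q)) ≃+*
        ↥(modularFunctionFieldFullC K (M' * q))) : ↥(modularFunctionFieldFullC K (M' * q)) →+*
        ↥(modularFunctionFieldFullC K (M' * q)))
    (q ^ 2) hτV₁ hτV₂
    (hτpi _ hCh.hB₁ hτV₁) (hτpi _ hCh.hB₂ hτV₂)
    (lpt3_f3 (pc39_tau σ (M' * q)) m f G) hf3 C₁ C₂ hC₁ hC₂ hc₁ hc₂ ?_ n hn hπn hn₁ hn₂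
  · exact key
  · intro n' hn' hπn' hn₁' hn₂'
    obtain ⟨-, hSS, hS2⟩ := fn93c_node M' q hq hM' R K π hπ hunit hqR σ hσ h hh B hB n'
      hn'.isPrime hn₁' hn₂'
    refine ⟨fun b => ⟨⟨pc39_tau σ (M' * q) (b : _), hτB _ b.2⟩, rfl,
      hSS b ⟨pc39_tau σ (M' * q) (b : _), hτB _ b.2⟩ rfl⟩, ?_⟩
    have hτn : ∀ d : B, d ∉ n' → (⟨pc39_tau σ (M' * q) d, hτB d d.2⟩ : B) ∉ n' :=
      fun d hd hz => hd ((hS2 d ⟨pc39_tau σ (M' * q) d, hτB d d.2⟩ rfl).mp hz)
    obtain ⟨c, hc⟩ := hLP n' hn' hπn'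
    obtain ⟨h1, h2, h3, h4, h5, h6, h7, h8⟩ := lpt3_node_shape (K := K) π hπ m
      (s34i47c_W (K := K) M' q hq hM' hπ) B hBW hsatW (pc39_tau σ (M' * q))
      (pc39_tau_R M' q σ hσ) hτB hG1 n' hτn (hCh.hKr n' hn' hπn') f c G hf hc hG hGW hGW'
    refine ⟨lpt3_c3 (pc39_tau σ (M' * q)) c G, h1, ft99_W_left M' q hq hM' hπ _ h2,
      ft99_W_left M' q hq hM' hπ _ h3, ft99_W_right M' q hq hM' hπ _ h2,
      ft99_W_right M' q hq hM' hπ _ h3, h6, ?_⟩
    obtain ⟨s, hs, hs'⟩ := h7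
    refine ⟨s, hs, ?_⟩
    rwa [inv_div] at hs'

end Fermat.Agent.S35
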