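import Mathlib
import Fermat.Agent.S34.Iface47
import Fermat.Agent.S34.Iface47b

/-!
# S35 lab, row L1f (helper74, twin): the toric lemma, abstract core

Setting: `R → F` a field over a base ring with a distinguished element `π`, `W` a subring of `F`
(in the application `W = V_∞ ⊓ V_0`), `B` a chart (a subalgebra of `F`), `T` a ring automorphism
of `F` stabilising `B` (in the application `T = ŝ²`, the square of a coefficientwise Frobenius
lift), `Q` a natural number (`Q = q²`), `m` the exponent.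

For a function `f` (the toric Kummer function `f₃` of step (1c)) put `u := T f / f ^ Q`.

* `tl74_One` : the congruence class `1 + π W`, with `tl74_one_mul`, `tl74_one_inv`, `tl74_one_pow`,
  `tl74_one_div`;
* `tl74_UnitAt B n ε` : `ε` is a unit of `B_n`;
* `tl74_DatumAt` : the clause of `s34i47_LocalDatum` at one maximal ideal;
* `tl74_datum_core` : local shapes `f = ε ψ^m` at `n` and `f = ε' ψ'^m` at `n'`, with
  `T (B ∖ n) ⊆ B ∖ n'`, `ε` regular at `n`, `ε'⁻¹` regular at `n'` and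
  `ψ'^Q / T ψ ≡ 1 mod π W` give the local datum for `u` at `n'` (`φ := ψ'^Q / T ψ`,
  `φ^m u = T ε / ε'^Q`);
* `tl74_datum_of_node` : the case `n = n'` (a `T`-fixed point, e.g. a node: `ŝ² n = n`) with
  `T ψ / ψ^Q ≡ 1 mod π W`;
* `tl74_datum_of_smooth` : the case `ψ ≡ 1 ≡ ψ' mod π W` (one-branch points);
* `tl74_localDatum` : `s34i47_LocalDatum π m W B u` from a pointwise alternative;
* `tl74_main` : with `s34i47b_main` (the nodal two-chart lemma): `f₀ ^ m * u = c`.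
-/

set_option autoImplicit false

namespace Fermat.Agent.S35

open Fermat.Agent.S34 Fermat.Agent.S18

section TL74

variable {R F : Type*} [CommRing R] [Field F] [Algebra R F]

/-- `x ≡ 1 mod π W`. -/
def tl74_One (π : R) (W : Subring F) (x : F) : Prop :=
  (algebraMap R F π)⁻¹ * (x - 1) ∈ W

theorem tl74_one_iff (π : R) (W : Subring F) (hπ0 : algebraMap R F π ≠ 0) (x : F) :
    tl74_One π W x ↔ ∃ a ∈ W, x = 1 + algebraMap R F π * a := by
  constructor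
  · intro h
    refine ⟨_, h, ?_⟩
    field_simp
    ring
  · rintro ⟨a, ha, rfl⟩
    have : (algebraMap R F π)⁻¹ * (1 + algebraMap R F π * a - 1) = a := by
      field_simp
      ring
    rw [tl74_One, this]
    exact ha

theorem tl74_one_one (π : R) (W : Subring F) : tl74_One π W (1 : F) := by
  rw [tl74_One, sub_self, mul_zero]
  exact W.zero_mem

theorem tl74_one_mul (π : R) (W : Subring F) (hπ0 : algebraMap R F π ≠ 0)
    (hπW : algebraMap R F π ∈ W) {x y : F} (hx : tl74_One π W x) (hy : tl74_One π W y) :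
    tl74_One π W (x * y) := by
  obtain ⟨a, ha, rfl⟩ := (tl74_one_iff π W hπ0 x).mp hx
  obtain ⟨b, hb, rfl⟩ := (tl74_one_iff π W hπ0 y).mp hy
  refine (tl74_one_iff π W hπ0 _).mpr ⟨a + b + algebraMap R F π * (a * b), ?_, by ring⟩
  exact W.add_mem (W.add_mem ha hb) (W.mul_mem hπW (W.mul_mem ha hb))

theorem tl74_one_ne_zero (π : R) (W : Subring F) (hπW' : (algebraMap R F π)⁻¹ ∉ W) {x : F}
    (hx : tl74_One π W x) : x ≠ 0 := by
  rintro rfl
  apply hπW'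
  have h : (algebraMap R F π)⁻¹ * ((0 : F) - 1) = -(algebraMap R F π)⁻¹ := by ring
  rw [tl74_One, h] at hx
  simpa using W.neg_mem hx

theorem tl74_one_inv (π : R) (W : Subring F) (hπ0 : algebraMap R F π ≠ 0)
    (hWunit : ∀ x ∈ W, (1 + algebraMap R F π * x)⁻¹ ∈ W) {x : F} (hx : tl74_One π W x) :
    tl74_One π W x⁻¹ := by
  obtain ⟨a, ha, rfl⟩ := (tl74_one_iff π W hπ0 x).mp hx
  have hinv := hWunit a ha
  by_cases h0 : 1 + algebraMap R F π * a = 0
  · -- then `π a = -1`, so `π⁻¹ = -a`; the class of `0⁻¹ = 0` is `-π⁻¹ = a`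
    have h1 : (algebraMap R F π)⁻¹ * ((1 + algebraMap R F π * a)⁻¹ - 1) = a := by
      rw [h0, inv_zero]
      have h2 : algebraMap R F π * a = -1 := by linear_combination h0
      field_simp
      linear_combination -h2
    rw [tl74_One, h1]
    exact ha
  · have h1 : (algebraMap R F π)⁻¹ * ((1 + algebraMap R F π * a)⁻¹ - 1) =
        -(a * (1 + algebraMap R F π * a)⁻¹) := by
      field_simp
      ring
    rw [tl74_One, h1]
    exact W.neg_mem (W.mul_mem ha hinv)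

theorem tl74_one_pow (π : R) (W : Subring F) (hπ0 : algebraMap R F π ≠ 0)
    (hπW : algebraMap R F π ∈ W) {x : F} (hx : tl74_One π W x) (k : ℕ) :
    tl74_One π W (x ^ k) := by
  induction k with
  | zero => rw [pow_zero]; exact tl74_one_one π W
  | succ k ih => rw [pow_succ]; exact tl74_one_mul π W hπ0 hπW ih hx

theorem tl74_one_div (π : R) (W : Subring F) (hπ0 : algebraMap R F π ≠ 0)
    (hπW : algebraMap R F π ∈ W)
    (hWunit : ∀ x ∈ W, (1 + algebraMap R F π * x)⁻¹ ∈ W) {x y : F} (hx : tl74_One π W x)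
    (hy : tl74_One π W y) : tl74_One π W (x / y) := by
  rw [div_eq_mul_inv]
  exact tl74_one_mul π W hπ0 hπW hx (tl74_one_inv π W hπ0 hWunit hy)

/-- `ε` is a unit of the localisation `B_n` (inside `F`). -/
def tl74_UnitAt (B : Subalgebra R F) (n : Ideal B) (ε : F) : Prop :=
  (∃ s : B, s ∉ n ∧ (s : F) * ε ∈ B) ∧ (∃ s : B, s ∉ n ∧ (s : F) * ε⁻¹ ∈ B)

/-- The clause of `s34i47_LocalDatum` at one maximal ideal `n`. -/
def tl74_DatumAt (π : R) (m : ℕ) (W : Subring F) (B : Subalgebra R F) (n : Ideal B) (u : F) :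
    Prop :=
  ∃ φ : F, (algebraMap R F π)⁻¹ * (φ - 1) ∈ W ∧ ∃ s : B, s ∉ n ∧ (s : F) * (φ ^ m * u) ∈ B

theorem tl74_localDatum_iff (π : R) (m : ℕ) (W : Subring F) (B : Subalgebra R F) (u : F) :
    s34i47_LocalDatum π m W B u ↔
      ∀ n : Ideal B, n.IsMaximal → algebraMap R B π ∈ n → tl74_DatumAt π m W B n u :=
  Iff.rfl

/-- **Core of the toric lemma.**  Local shapes `f = ε ψ^m` (at `n`) and `f = ε' ψ'^m` (at `n'`),
`T` carrying `B ∖ n` into `B ∖ n'`, `ε` regular at `n`, `ε'⁻¹` regular at `n'`, and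
`φ := ψ'^Q / T ψ ≡ 1 mod π W`: then `φ^m · (T f / f^Q) = T ε / ε'^Q` is regular at `n'`. -/
theorem tl74_datum_core (π : R) (m Q : ℕ) (W : Subring F) (B : Subalgebra R F) (T : F ≃+* F)
    (hTB : ∀ x ∈ B, T x ∈ B) (n n' : Ideal B) [hn' : n'.IsPrime]
    (hnn' : ∀ x : B, x ∉ n → (⟨T (x : F), hTB _ x.2⟩ : B) ∉ n')
    (f ε ψ ε' ψ' : F) (hψ : ψ ≠ 0) (hψ' : ψ' ≠ 0) (hf : f = ε * ψ ^ m) (hf' : f = ε' * ψ' ^ m)
    (hε : ∃ s : B, s ∉ n ∧ (s : F) * ε ∈ B) (hε' : ∃ s : B, s ∉ n' ∧ (s : F) * ε'⁻¹ ∈ B)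
    (hΨ : tl74_One π W (ψ' ^ Q / T ψ)) :
    tl74_DatumAt π m W B n' (T f / f ^ Q) := by
  refine ⟨ψ' ^ Q / T ψ, hΨ, ?_⟩
  obtain ⟨s₁, hs₁, hs₁ε⟩ := hε
  obtain ⟨s₂, hs₂, hs₂ε⟩ := hε'
  have hTψ : T ψ ≠ 0 := (map_ne_zero T).mpr hψ
  have key : (ψ' ^ Q / T ψ) ^ m * (T f / f ^ Q) = T ε * (ε'⁻¹) ^ Q := by
    have h1 : T f = T ε * T ψ ^ m := by rw [hf, map_mul, map_pow]
    have h2 : f ^ Q = ε' ^ Q * (ψ' ^ Q) ^ m := by
      rw [hf', mul_pow, ← pow_mul, ← pow_mul, mul_comm m Q]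
    rw [h1, h2, inv_pow, div_pow]
    by_cases hε0 : ε' = 0
    · rcases Nat.eq_zero_or_pos Q with hQ | hQ
      · subst hQ
        simp only [pow_zero, one_pow, inv_one, mul_one, div_one]
        field_simp
      · rw [hε0, zero_pow hQ.ne', zero_mul, inv_zero, div_zero, mul_zero, mul_zero]
    · have hψQ : (ψ' ^ Q) ^ m ≠ 0 := pow_ne_zero _ (pow_ne_zero _ hψ')
      have hεQ : ε' ^ Q ≠ 0 := pow_ne_zero _ hε0
      have hTψm : T ψ ^ m ≠ 0 := pow_ne_zero _ hTψ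
      field_simp
  refine ⟨⟨T (s₁ : F), hTB _ s₁.2⟩ * s₂ ^ Q, ?_, ?_⟩
  · intro hmem
    rcases hn'.mem_or_mem hmem with h | h
    · exact hnn' s₁ hs₁ h
    · exact hs₂ (hn'.mem_of_pow_mem Q h)
  · rw [key]
    have h3 : ((⟨T (s₁ : F), hTB _ s₁.2⟩ * s₂ ^ Q : B) : F) * (T ε * (ε'⁻¹) ^ Q) =
        T ((s₁ : F) * ε) * ((s₂ : F) * ε'⁻¹) ^ Q := by
      push_cast
      rw [map_mul, mul_pow]
      ring
    rw [h3]
    exact B.mul_mem (hTB _ hs₁ε) (B.pow_mem hs₂ε Q)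

/-- **Fixed points (nodes).**  At a `T`-stable prime `n` (`T (B ∖ n) ⊆ B ∖ n`), a local shape
`f = ε ψ^m` with `ε` a unit of `B_n` and `T ψ / ψ^Q ≡ 1 mod π W` gives the local datum for
`u = T f / f^Q`. -/
theorem tl74_datum_of_node (π : R) (m Q : ℕ) (W : Subring F) (hπ0 : algebraMap R F π ≠ 0)
    (hWunit : ∀ x ∈ W, (1 + algebraMap R F π * x)⁻¹ ∈ W)
    (B : Subalgebra R F) (T : F ≃+* F) (hTB : ∀ x ∈ B, T x ∈ B) (n : Ideal B) [hn : n.IsPrime]
    (hfix : ∀ x : B, x ∉ n → (⟨T (x : F), hTB _ x.2⟩ : B) ∉ n)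
    (f ε ψ : F) (hψ : ψ ≠ 0) (hf : f = ε * ψ ^ m) (hε : tl74_UnitAt B n ε)
    (hΨ : tl74_One π W (T ψ / ψ ^ Q)) :
    tl74_DatumAt π m W B n (T f / f ^ Q) := by
  refine tl74_datum_core π m Q W B T hTB n n hfix f ε ψ ε ψ hψ hψ hf hf hε.1 hε.2 ?_
  have h := tl74_one_inv π W hπ0 hWunit hΨ
  rwa [inv_div] at h

/-- **One-branch points.**  Local shapes with `ψ ≡ 1 ≡ ψ' mod π W` at `n` and at `n'`
(`T (B ∖ n) ⊆ B ∖ n'`), `T` preserving `1 + π W`. -/
theorem tl74_datum_of_smooth (π : R) (m Q : ℕ) (W : Subring F) (hπ0 : algebraMap R F π ≠ 0)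
    (hπW : algebraMap R F π ∈ W)
    (hWunit : ∀ x ∈ W, (1 + algebraMap R F π * x)⁻¹ ∈ W)
    (B : Subalgebra R F) (T : F ≃+* F) (hTB : ∀ x ∈ B, T x ∈ B)
    (hTW : ∀ x : F, tl74_One π W x → tl74_One π W (T x))
    (n n' : Ideal B) [hn' : n'.IsPrime]
    (hnn' : ∀ x : B, x ∉ n → (⟨T (x : F), hTB _ x.2⟩ : B) ∉ n')
    (f ε ψ ε' ψ' : F) (hψ : ψ ≠ 0) (hψ' : ψ' ≠ 0) (hf : f = ε * ψ ^ m) (hf' : f = ε' * ψ' ^ m)
    (hε : ∃ s : B, s ∉ n ∧ (s : F) * ε ∈ B) (hε' : ∃ s : B, s ∉ n' ∧ (s : F) * ε'⁻¹ ∈ B)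
    (h1 : tl74_One π W ψ) (h1' : tl74_One π W ψ') :
    tl74_DatumAt π m W B n' (T f / f ^ Q) :=
  tl74_datum_core π m Q W B T hTB n n' hnn' f ε ψ ε' ψ' hψ hψ' hf hf' hε hε'
    (tl74_one_div π W hπ0 hπW hWunit (tl74_one_pow π W hπ0 hπW h1' Q) (hTW ψ h1))

/-- The preimage of a prime `n'` of `B` under an automorphism `T` of `F` stabilising `B`. -/
def tl74_pre (B : Subalgebra R F) (T : F ≃+* F) (hTB : ∀ x ∈ B, T x ∈ B) (n' : Ideal B) :
    Ideal B where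
  carrier := {x | (⟨T (x : F), hTB _ x.2⟩ : B) ∈ n'}
  add_mem' {a b} ha hb := by
    have h : (⟨T ((a + b : B) : F), hTB _ (a + b).2⟩ : B) =
        ⟨T (a : F), hTB _ a.2⟩ + ⟨T (b : F), hTB _ b.2⟩ := by
      apply Subtype.ext
      push_cast
      rw [map_add]
    show (⟨T ((a + b : B) : F), hTB _ (a + b).2⟩ : B) ∈ n'
    rw [h]
    exact n'.add_mem ha hb
  zero_mem' := by
    have h : (⟨T ((0 : B) : F), hTB _ (0 : B).2⟩ : B) = 0 := by
      apply Subtype.ext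
      push_cast
      rw [map_zero]
    show (⟨T ((0 : B) : F), hTB _ (0 : B).2⟩ : B) ∈ n'
    rw [h]
    exact n'.zero_mem
  smul_mem' c {x} hx := by
    have h : (⟨T ((c • x : B) : F), hTB _ (c • x).2⟩ : B) =
        ⟨T (c : F), hTB _ c.2⟩ * ⟨T (x : F), hTB _ x.2⟩ := by
      apply Subtype.ext
      rw [smul_eq_mul]
      push_cast
      rw [map_mul]
    show (⟨T ((c • x : B) : F), hTB _ (c • x).2⟩ : B) ∈ n'
    rw [h]
    exact n'.mul_mem_left _ hx

theorem tl74_mem_pre (B : Subalgebra R F) (T : F ≃+* F) (hTB : ∀ x ∈ B, T x ∈ B) (n' : Ideal B)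
    (x : B) : x ∈ tl74_pre B T hTB n' ↔ (⟨T (x : F), hTB _ x.2⟩ : B) ∈ n' :=
  Iff.rfl

/-- The preimage of a maximal ideal under an automorphism stabilising `B` in both directions is
maximal. -/
theorem tl74_pre_isMaximal (B : Subalgebra R F) (T : F ≃+* F) (hTB : ∀ x ∈ B, T x ∈ B)
    (hTB' : ∀ x ∈ B, T.symm x ∈ B) (n' : Ideal B) (hn' : n'.IsMaximal) :
    (tl74_pre B T hTB n').IsMaximal := by
  let e : B →+* B :=
    { toFun := fun x => ⟨T (x : F), hTB _ x.2⟩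
      map_one' := Subtype.ext (by simp)
      map_mul' := fun a b => Subtype.ext (by simp)
      map_zero' := Subtype.ext (by simp)
      map_add' := fun a b => Subtype.ext (by simp) }
  have hsurj : Function.Surjective e := by
    intro y
    refine ⟨⟨T.symm (y : F), hTB' _ y.2⟩, Subtype.ext ?_⟩
    show T (T.symm (y : F)) = y
    exact T.apply_symm_apply _
  have hcomap : tl74_pre B T hTB n' = Ideal.comap e n' := by
    ext x
    exact Iff.rfl
  rw [hcomap]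
  exact Ideal.comap_isMaximal_of_surjective e hsurj

/-- **(LD) on a chart from the pointwise alternative**: at every closed point `n'` of the special
fibre EITHER the local datum for `u = T f / f^Q` is known (one-branch points, row L1d-smooth)
OR `n'` is `T`-stable and `f` has a node shape there (row L1d-node + L1e). -/
theorem tl74_localDatum (π : R) (m Q : ℕ) (W : Subring F) (hπ0 : algebraMap R F π ≠ 0)
    (hWunit : ∀ x ∈ W, (1 + algebraMap R F π * x)⁻¹ ∈ W)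
    (B : Subalgebra R F) (T : F ≃+* F) (hTB : ∀ x ∈ B, T x ∈ B) (f : F)
    (hpt : ∀ n : Ideal B, n.IsMaximal → algebraMap R B π ∈ n →
      tl74_DatumAt π m W B n (T f / f ^ Q) ∨
      ((∀ x : B, x ∉ n → (⟨T (x : F), hTB _ x.2⟩ : B) ∉ n) ∧
        ∃ ε ψ : F, ψ ≠ 0 ∧ f = ε * ψ ^ m ∧ tl74_UnitAt B n ε ∧ tl74_One π W (T ψ / ψ ^ Q))) :
    s34i47_LocalDatum π m W B (T f / f ^ Q) := by
  intro n hn hπn
  rcases hpt n hn hπn with h | ⟨hfix, ε, ψ, hψ, hf, hε, hΨ⟩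
  · exact h
  · have : n.IsPrime := hn.isPrime
    exact tl74_datum_of_node π m Q W hπ0 hWunit B T hTB n hfix f ε ψ hψ hf hε hΨ

end TL74

section Main

/-- **The toric lemma, abstract form**: (W) + (C) + `u = T f / f^Q ≡ 1 mod π W` + the pointwise
alternative on both affine charts give `f₀ ^ m * u = c` (via `s34i47b_main`). -/
theorem tl74_main {R K F : Type} [CommRing R] [IsDomain R] [IsDiscreteValuationRing R] [Field K]
    [Field F] [Algebra R K] [IsFractionRing R K] [Algebra R F] [Algebra K F]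
    [IsScalarTower R K F] (π : R) (hπ : Irreducible π) (m Q : ℕ) (hm0 : 0 < m)
    (hm : IsUnit (m : R))
    (hK : ∀ y : F, IsAlgebraic K y → ∃ c : K, y = algebraMap K F c)
    (W : Subring F) (h : F) (hW : s34i47_WProps π W) (hC : s34i47_ChartProps K π W h)
    (T : F ≃+* F)
    (hTB₁ : ∀ x ∈ pk15_chart R ({h} : Set F), T x ∈ pk15_chart R ({h} : Set F))
    (hTB₂ : ∀ x ∈ pk15_chart R ({h⁻¹} : Set F), T x ∈ pk15_chart R ({h⁻¹} : Set F))
    (f : F) (hu : tl74_One π W (T f / f ^ Q))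
    (hpt₁ : ∀ n : Ideal (pk15_chart R ({h} : Set F)), n.IsMaximal →
      algebraMap R (pk15_chart R ({h} : Set F)) π ∈ n →
      tl74_DatumAt π m W (pk15_chart R ({h} : Set F)) n (T f / f ^ Q) ∨
      ((∀ x : pk15_chart R ({h} : Set F), x ∉ n →
          (⟨T (x : F), hTB₁ _ x.2⟩ : pk15_chart R ({h} : Set F)) ∉ n) ∧
        ∃ ε ψ : F, ψ ≠ 0 ∧ f = ε * ψ ^ m ∧ tl74_UnitAt (pk15_chart R ({h} : Set F)) n ε ∧
          tl74_One π W (T ψ / ψ ^ Q)))
    (hpt₂ : ∀ n : Ideal (pk15_chart R ({h⁻¹} : Set F)), n.IsMaximal →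
      algebraMap R (pk15_chart R ({h⁻¹} : Set F)) π ∈ n →
      tl74_DatumAt π m W (pk15_chart R ({h⁻¹} : Set F)) n (T f / f ^ Q) ∨
      ((∀ x : pk15_chart R ({h⁻¹} : Set F), x ∉ n →
          (⟨T (x : F), hTB₂ _ x.2⟩ : pk15_chart R ({h⁻¹} : Set F)) ∉ n) ∧
        ∃ ε ψ : F, ψ ≠ 0 ∧ f = ε * ψ ^ m ∧ tl74_UnitAt (pk15_chart R ({h⁻¹} : Set F)) n ε ∧
          tl74_One π W (T ψ / ψ ^ Q))) :
    ∃ (f₀ : F) (c : R), f₀ ≠ 0 ∧ f₀ ^ m * (T f / f ^ Q) = algebraMap R F c := by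
  have hπ0 : algebraMap R F π ≠ 0 := by
    rw [IsScalarTower.algebraMap_apply R K F]
    intro h0
    have h1 : algebraMap R K π = 0 := (map_eq_zero (algebraMap K F)).mp h0
    exact hπ.ne_zero ((map_eq_zero_iff _ (IsFractionRing.injective R K)).mp h1)
  exact s34i47b_main R K F π hπ m hm0 hm hK W h hW hC _ hu
    (tl74_localDatum π m Q W hπ0 hW.2.2.2 _ T hTB₁ f hpt₁)
    (tl74_localDatum π m Q W hπ0 hW.2.2.2 _ T hTB₂ f hpt₂)

end Main

end Fermat.Agent.S35
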