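import Mathlib
import Fermat.Agent.S35.NodeDatum74
import Fermat.Agent.S35.NodeDatum14
import Fermat.Agent.S35.ToricLemma74
import Fermat.Agent.S35.LPTransport3
import Fermat.Agent.S35.SmoothDatumInst89
import Fermat.Agent.S35.NodeFrob96
import Fermat.Agent.S34.FrameTransv49
import Fermat.Agent.S34.UVAtFrame22

/-!
# S35 lab, row 568 carve-off (N) (helper74): the node clause on the canonical frame

Canonical frame data of `Iface47c` at level `M' * q` under the binder block of `s35i62_Core`: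
`V_∞ = cm85_Vinf (M' * q) hπ`, `V_0 = s34i47c_V0 M' q hq hM' hπ`, `W = s34i47c_W M' q hq hM' hπ`,
charts `B = pk15_chart R {h}` or `pk15_chart R {h⁻¹}` of an admissible Hauptmodul `h`, a Frobenius
lift `σ` (`ff50_Frob R q σ`, literally the body of `s35i62_Frobenial R q σ`),
`ŝ = s34i47_coeffEquiv σ (M' * q)`, and any `τ : F ≃+* F` with `τ x = ŝ (ŝ x)`
(e.g. `ŝ.trans ŝ`, `hτ := fun _ => rfl`).

* `nd74c_u_cong_abs` (abstract): `f ≡ C mod π V` with `C` a unit constant, `τ C ≡ C ^ Q mod π`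
  ⟹ `τ f / f ^ Q ≡ 1 mod π V`.
* `nd74c_tau_val` : `τ R ⊆ R`, `τ V_∞ ⊆ V_∞`, `τ V_0 ⊆ V_0`, `τ (π V_∞) ⊆ π V_∞`,
  `τ (π V_0) ⊆ π V_0`, `τ x / x ∈ W`; `nd74c_tau_chart` : `τ B ⊆ B`; `nd74c_tau_const` :
  `τ C = C'` with `C' ≡ C ^ (q ^ 2)` modulo `π`.
* `nd74c_tau_node` : at a prime `n` of `B` on both branches: `τ (B ∖ n) ⊆ B ∖ n` and
  `τ b - b ^ (q ^ 2) ∈ n`.
* `nd74c_datum` : **the local datum at a node**, shape level: `f = ε * c ^ m`, `c` a unit of `W`,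
  `ε` a unit of `B_n`, `f ≡ C₁ mod π V_∞`, `f ≡ C₂ mod π V_0` (`C₁`, `C₂` units of `R`)
  ⟹ `∃ φ ≡ 1 mod π W, ∃ s ∉ n, s (φ ^ m (τ f / f ^ (q ^ 2))) ∈ B`.
* `nd74c_hNode` : **the literal `hNode` argument of `sd89c_localDatum`** for
  `u := lpt3_u τ m (q ^ 2) f G`, from `s34i47_LocPrin π m B f` for the ORIGINAL `f`, `G` a unit
  of `W` and the constant reductions of `f₃ = lpt3_f3 τ m f G` on the two branches.
* `nd74c_u_cong` : `π⁻¹ (lpt3_u τ m (q ^ 2) f G - 1) ∈ W` from the constant reductions of `f₃`.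
* `nd74c_localDatum` : `s34i47_LocalDatum π m W B (lpt3_u τ m (q ^ 2) f G)` on both charts, from
  (LP) for `f`, (LP) for `u`, and the constant reductions of `f₃`.
-/

set_option autoImplicit false
set_option linter.unusedSectionVars false
set_option linter.style.haveILetI false

namespace Fermat.Agent.S35

open ModularCurve AlgebraicCurve
open Fermat.Agent.S34 Fermat.Agent.S18 Fermat.Agent.S24

local notation "Q̄" => AlgebraicClosure ℚ

section ND74CAbs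

variable {R F : Type*} [CommRing R] [Field F] [Algebra R F]

/-- `(1 + π x)⁻¹ ∈ V` for a ring `V` with `𝔪_V = π V`. -/
theorem nd74c_one_add_inv (π : R) (V : Subring F) (hπV : (algebraMap R F π)⁻¹ ∉ V)
    (hpV : algebraMap R F π ∈ V)
    (hV : ∀ x ∈ V, (algebraMap R F π)⁻¹ * x ∉ V → x⁻¹ ∈ V) (x : F) (hx : x ∈ V) :
    (1 + algebraMap R F π * x)⁻¹ ∈ V := by
  have hp0 : algebraMap R F π ≠ 0 := by
    intro h0
    apply hπV
    rw [h0, inv_zero]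
    exact V.zero_mem
  apply hV _ (V.add_mem V.one_mem (V.mul_mem hpV hx))
  intro hcon
  apply hπV
  have e : (algebraMap R F π)⁻¹ = (algebraMap R F π)⁻¹ * (1 + algebraMap R F π * x) - x := by
    field_simp
    ring
  rw [e]
  exact V.sub_mem hcon hx

/-- **`u ≡ 1` along one branch.**  If `f ≡ C` modulo `π V` with `C` a unit of `R`, `T` maps
`π V` into itself and `T C = C'` with `C' ≡ C ^ Q` modulo `π`, then `T f / f ^ Q ≡ 1` modulo
`π V`. -/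
theorem nd74c_u_cong_abs (π : R) (V : Subring F) (hRV : ∀ r : R, algebraMap R F r ∈ V)
    (hπV : (algebraMap R F π)⁻¹ ∉ V)
    (hV : ∀ x ∈ V, (algebraMap R F π)⁻¹ * x ∉ V → x⁻¹ ∈ V)
    (T : F ≃+* F)
    (hTπ : ∀ x : F, (algebraMap R F π)⁻¹ * x ∈ V → (algebraMap R F π)⁻¹ * T x ∈ V)
    (Q : ℕ) (C C' : R) (hC : IsUnit C) (hTC : T (algebraMap R F C) = algebraMap R F C')
    (hCC' : π ∣ C' - C ^ Q) (f : F)
    (hf : (algebraMap R F π)⁻¹ * (f - algebraMap R F C) ∈ V) :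
    (algebraMap R F π)⁻¹ * (T f / f ^ Q - 1) ∈ V := by
  have hp0 : algebraMap R F π ≠ 0 := by
    intro h0
    apply hπV
    rw [h0, inv_zero]
    exact V.zero_mem
  have hpV : algebraMap R F π ∈ V := hRV π
  have hWu := nd74c_one_add_inv π V hπV hpV hV
  obtain ⟨D, hD⟩ := hC.exists_right_inv
  have hCD : algebraMap R F C * algebraMap R F D = 1 := by rw [← map_mul, hD, map_one]
  have hD0 : algebraMap R F D ≠ 0 := right_ne_zero_of_mul_eq_one hCD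
  -- `g := f / C ≡ 1`
  have hg : tl74_One π V (f * algebraMap R F D) := by
    have e : (algebraMap R F π)⁻¹ * (f * algebraMap R F D - 1) =
        (algebraMap R F π)⁻¹ * (f - algebraMap R F C) * algebraMap R F D := by
      rw [← hCD]
      ring
    rw [tl74_One, e]
    exact V.mul_mem hf (hRV D)
  have hTg : tl74_One π V (T (f * algebraMap R F D)) := by
    have h1 := hTπ _ hg
    rwa [map_sub, map_one] at h1
  have h2 : tl74_One π V (T (f * algebraMap R F D) / (f * algebraMap R F D) ^ Q) :=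
    tl74_one_div π V hp0 hpV hWu hTg (tl74_one_pow π V hp0 hpV hg Q)
  -- the constants
  obtain ⟨r, hr⟩ := hCC'
  have h3 : tl74_One π V (algebraMap R F C' * algebraMap R F D ^ Q) := by
    refine (tl74_one_iff π V hp0 _).mpr ⟨algebraMap R F (r * D ^ Q), hRV _, ?_⟩
    have e1 : C' * D ^ Q = 1 + π * (r * D ^ Q) := by
      have e2 : C' = C ^ Q + π * r := by linear_combination hr
      have e3 : C ^ Q * D ^ Q = 1 := by rw [← mul_pow, hD, one_pow]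
      rw [e2, add_mul, e3]
      ring
    rw [← map_pow, ← map_mul, e1, map_add, map_one, map_mul]
  have h4 := tl74_one_mul π V hp0 hpV h2 h3
  have hTD : T (algebraMap R F D) * algebraMap R F C' = 1 := by
    rw [← hTC, ← map_mul, mul_comm (algebraMap R F D), hCD, map_one]
  have hC'0 : algebraMap R F C' ≠ 0 := right_ne_zero_of_mul_eq_one hTD
  have hTD' : T (algebraMap R F D) = (algebraMap R F C')⁻¹ := eq_inv_of_mul_eq_one_left hTD
  have e : T f / f ^ Q = T (f * algebraMap R F D) / (f * algebraMap R F D) ^ Q *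
      (algebraMap R F C' * algebraMap R F D ^ Q) := by
    rw [map_mul, hTD', mul_pow]
    have hDQ : algebraMap R F D ^ Q ≠ 0 := pow_ne_zero Q hD0
    by_cases hf0 : f ^ Q = 0
    · rw [hf0, zero_mul, div_zero, div_zero, zero_mul]
    · field_simp
  show tl74_One π V (T f / f ^ Q)
  rw [e]
  exact h4

end ND74CAbs

section ND74CCanon

variable {R K : Type} [CommRing R] [IsDomain R] [IsDiscreteValuationRing R] [Field K]
  [NumberField K] [Algebra R K] [IsFractionRing R K] [Algebra K Q̄]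
  (M' q : ℕ) [NeZero M'] [NeZero q] (hq : q.Prime) (hM' : ¬ q ∣ M')
  [Algebra R ↥(modularFunctionFieldFullC K (M' * q))]
  [IsScalarTower R K ↥(modularFunctionFieldFullC K (M' * q))] {π : R} (hπ : Irreducible π)

/-- `ŝ (π V_0) ⊆ π V_0` for a Frobenius lift. -/
theorem nd74c_pi_mem_V0 (σ : K ≃+* K) (hσ : ff50_Frob R q σ)
    (x : ↥(modularFunctionFieldFullC K (M' * q)))
    (hx : (algebraMap R ↥(modularFunctionFieldFullC K (M' * q)) π)⁻¹ * x ∈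
      s34i47c_V0 (K := K) M' q hq hM' hπ) :
    (algebraMap R ↥(modularFunctionFieldFullC K (M' * q)) π)⁻¹ *
        s34i47_coeffEquiv σ (M' * q) x ∈ s34i47c_V0 (K := K) M' q hq hM' hπ := by
  haveI : Algebra.IsAlgebraic K Q̄ := fs85_isAlgebraic K
  rw [s34i47c_mem_V0, map_mul, map_inv₀,
    IsScalarTower.algebraMap_apply R K ↥(modularFunctionFieldFullC K (M' * q)),
    AlgEquiv.commutes,
    ← IsScalarTower.algebraMap_apply R K ↥(modularFunctionFieldFullC K (M' * q))] at hx ⊢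
  rw [in87g_w_comm]
  exact fn93_coeff_pi_mem (K := K) (M' * q) hπ q hq.ne_zero σ (ff50_sigmaR σ hσ)
    (ff50_sigmaR_spec σ hσ) (nf96_frob_dvd (q := q) hπ σ hσ) _ hx

/-- **The frame facts of `τ = ŝ²`** for a Frobenius lift on the canonical frame, chart-free
part: `τ R ⊆ R`, `τ` preserves `V_∞`, `V_0`, `π V_∞`, `π V_0`, and `τ x / x ∈ W`. -/
theorem nd74c_tau_val (σ : K ≃+* K) (hσ : ff50_Frob R q σ)
    (τ : ↥(modularFunctionFieldFullC K (M' * q)) ≃+* ↥(modularFunctionFieldFullC K (M' * q)))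
    (hτ : ∀ x, τ x = s34i47_coeffEquiv σ (M' * q) (s34i47_coeffEquiv σ (M' * q) x)) :
    (∀ r : R, ∃ r' : R, τ (algebraMap R ↥(modularFunctionFieldFullC K (M' * q)) r) =
      algebraMap R ↥(modularFunctionFieldFullC K (M' * q)) r') ∧
    (∀ x ∈ (cm85_Vinf (K := K) (M' * q) hπ).toSubring,
      τ x ∈ (cm85_Vinf (K := K) (M' * q) hπ).toSubring) ∧
    (∀ x ∈ (s34i47c_V0 (K := K) M' q hq hM' hπ).toSubring,
      τ x ∈ (s34i47c_V0 (K := K) M' q hq hM' hπ).toSubring) ∧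
    (∀ x : ↥(modularFunctionFieldFullC K (M' * q)),
      (algebraMap R ↥(modularFunctionFieldFullC K (M' * q)) π)⁻¹ * x ∈
        (cm85_Vinf (K := K) (M' * q) hπ).toSubring →
      (algebraMap R ↥(modularFunctionFieldFullC K (M' * q)) π)⁻¹ * τ x ∈
        (cm85_Vinf (K := K) (M' * q) hπ).toSubring) ∧
    (∀ x : ↥(modularFunctionFieldFullC K (M' * q)),
      (algebraMap R ↥(modularFunctionFieldFullC K (M' * q)) π)⁻¹ * x ∈
        (s34i47c_V0 (K := K) M' q hq hM' hπ).toSubring →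
      (algebraMap R ↥(modularFunctionFieldFullC K (M' * q)) π)⁻¹ * τ x ∈
        (s34i47c_V0 (K := K) M' q hq hM' hπ).toSubring) ∧
    (∀ x : ↥(modularFunctionFieldFullC K (M' * q)), x ≠ 0 →
      τ x / x ∈ s34i47c_W (K := K) M' q hq hM' hπ) := by
  haveI : Algebra.IsAlgebraic K Q̄ := fs85_isAlgebraic K
  refine ⟨?_, ?_, ?_, ?_, ?_, ?_⟩
  · intro r
    obtain ⟨r₁, hr₁⟩ := ff50_g0' (M' * q) σ hσ r
    obtain ⟨r₂, hr₂⟩ := ff50_g0' (M' * q) σ hσ r₁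
    exact ⟨r₂, by rw [hτ, hr₁, hr₂]⟩
  · intro x hx
    rw [hτ]
    exact ff50_mem_Vinf (M' * q) hq.ne_zero hπ σ hσ _
      (ff50_mem_Vinf (M' * q) hq.ne_zero hπ σ hσ _ hx)
  · intro x hx
    rw [hτ]
    exact ff50_mem_V0 M' q hq hM' hπ σ hσ _ (ff50_mem_V0 M' q hq hM' hπ σ hσ _ hx)
  · intro x hx
    rw [hτ]
    exact fn93_coeff_pi_mem (K := K) (M' * q) hπ q hq.ne_zero σ (ff50_sigmaR σ hσ)
      (ff50_sigmaR_spec σ hσ) (nf96_frob_dvd (q := q) hπ σ hσ) _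
      (fn93_coeff_pi_mem (K := K) (M' * q) hπ q hq.ne_zero σ (ff50_sigmaR σ hσ)
        (ff50_sigmaR_spec σ hσ) (nf96_frob_dvd (q := q) hπ σ hσ) _ hx)
  · intro x hx
    rw [hτ]
    exact nd74c_pi_mem_V0 M' q hq hM' hπ σ hσ _ (nd74c_pi_mem_V0 M' q hq hM' hπ σ hσ _ hx)
  · intro x hx
    rw [hτ]
    have hsx : s34i47_coeffEquiv σ (M' * q) x ≠ 0 := (map_ne_zero _).mpr hx
    have e : s34i47_coeffEquiv σ (M' * q) (s34i47_coeffEquiv σ (M' * q) x) / x =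
        s34i47_coeffEquiv σ (M' * q) (s34i47_coeffEquiv σ (M' * q) x) /
            s34i47_coeffEquiv σ (M' * q) x * (s34i47_coeffEquiv σ (M' * q) x / x) := by
      field_simp
    rw [e]
    exact Subring.mul_mem _ (ff50_div_mem_W M' q hq hM' hπ σ hσ _ hsx)
      (ff50_div_mem_W M' q hq hM' hπ σ hσ _ hx)

/-- `τ = ŝ²` preserves both affine charts of an admissible Hauptmodul. -/
theorem nd74c_tau_chart (σ : K ≃+* K) (hσ : ff50_Frob R q σ)
    (h : ↥(modularFunctionFieldFullC K (M' * q))) (hh : s34i47c_IsHaupt K (M' * q) q h)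
    (B : Subalgebra R ↥(modularFunctionFieldFullC K (M' * q)))
    (hB : B = pk15_chart R ({h} : Set ↥(modularFunctionFieldFullC K (M' * q))) ∨
      B = pk15_chart R ({h⁻¹} : Set ↥(modularFunctionFieldFullC K (M' * q))))
    (τ : ↥(modularFunctionFieldFullC K (M' * q)) ≃+* ↥(modularFunctionFieldFullC K (M' * q)))
    (hτ : ∀ x, τ x = s34i47_coeffEquiv σ (M' * q) (s34i47_coeffEquiv σ (M' * q) x)) :
    ∀ x ∈ B, τ x ∈ B := by
  obtain ⟨hc₁, hc₂, -⟩ := ff50_chart (R := R) M' q σ hσ h hh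
  intro x hx
  rw [hτ]
  rcases hB with rfl | rfl
  · exact hc₁ _ (hc₁ _ hx)
  · exact hc₂ _ (hc₂ _ hx)

include hπ in
/-- `τ = ŝ²` on the constants: `τ C = C'` with `C' ≡ C ^ (q ^ 2)` modulo `π`. -/
theorem nd74c_tau_const (σ : K ≃+* K) (hσ : ff50_Frob R q σ)
    (τ : ↥(modularFunctionFieldFullC K (M' * q)) ≃+* ↥(modularFunctionFieldFullC K (M' * q)))
    (hτ : ∀ x, τ x = s34i47_coeffEquiv σ (M' * q) (s34i47_coeffEquiv σ (M' * q) x)) (C : R) :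
    ∃ C' : R, τ (algebraMap R ↥(modularFunctionFieldFullC K (M' * q)) C) =
      algebraMap R ↥(modularFunctionFieldFullC K (M' * q)) C' ∧ π ∣ C' - C ^ (q ^ 2) := by
  haveI : Algebra.IsAlgebraic K Q̄ := fs85_isAlgebraic K
  refine ⟨ff50_sigmaR σ hσ (ff50_sigmaR σ hσ C), ?_, ?_⟩
  · rw [hτ, fn93_coeff_alg (K := K) (M' * q) σ (ff50_sigmaR σ hσ) (ff50_sigmaR_spec σ hσ),
      fn93_coeff_alg (K := K) (M' * q) σ (ff50_sigmaR σ hσ) (ff50_sigmaR_spec σ hσ)]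
  · have h1 := nf96_frob_dvd (q := q) hπ σ hσ (ff50_sigmaR σ hσ C)
    have h2 := nf96_frob_dvd (q := q) hπ σ hσ C
    have h3 : π ∣ ff50_sigmaR σ hσ C ^ q - (C ^ q) ^ q :=
      dvd_trans h2 (sub_dvd_pow_sub_pow _ _ q)
    have e : ff50_sigmaR σ hσ (ff50_sigmaR σ hσ C) - C ^ (q ^ 2) =
        (ff50_sigmaR σ hσ (ff50_sigmaR σ hσ C) - ff50_sigmaR σ hσ C ^ q) +
          (ff50_sigmaR σ hσ C ^ q - (C ^ q) ^ q) := by
      rw [pow_two, pow_mul]
      ring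
    rw [e]
    exact dvd_add h1 h3

/-- **`τ = ŝ²` at the nodes**: at every prime `n` of a canonical chart lying on both branches,
`τ (B ∖ n) ⊆ B ∖ n` and `τ b ≡ b ^ (q ^ 2)` modulo `n`. -/
theorem nd74c_tau_node (hunit : ∀ n : ℕ, Nat.Coprime n q → IsUnit (n : R))
    (hqR : ¬ IsUnit (q : R)) (σ : K ≃+* K) (hσ : ff50_Frob R q σ)
    (h : ↥(modularFunctionFieldFullC K (M' * q))) (hh : s34i47c_IsHaupt K (M' * q) q h)
    (B : Subalgebra R ↥(modularFunctionFieldFullC K (M' * q)))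
    (hB : B = pk15_chart R ({h} : Set ↥(modularFunctionFieldFullC K (M' * q))) ∨
      B = pk15_chart R ({h⁻¹} : Set ↥(modularFunctionFieldFullC K (M' * q))))
    (τ : ↥(modularFunctionFieldFullC K (M' * q)) ≃+* ↥(modularFunctionFieldFullC K (M' * q)))
    (hτ : ∀ x, τ x = s34i47_coeffEquiv σ (M' * q) (s34i47_coeffEquiv σ (M' * q) x))
    (hτB : ∀ x ∈ B, τ x ∈ B) (n : Ideal B) (hn : n.IsPrime)
    (h1 : sf79_OnBr π B (cm85_Vinf (K := K) (M' * q) hπ).toSubring n)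
    (h2 : sf79_OnBr π B (s34i47c_V0 (K := K) M' q hq hM' hπ).toSubring n) :
    (∀ x : B, x ∉ n →
      (⟨τ (x : ↥(modularFunctionFieldFullC K (M' * q))), hτB _ x.2⟩ : B) ∉ n) ∧
    (∀ x : B,
      (⟨τ (x : ↥(modularFunctionFieldFullC K (M' * q))), hτB _ x.2⟩ : B) - x ^ (q ^ 2) ∈ n) := by
  haveI : Algebra.IsAlgebraic K Q̄ := fs85_isAlgebraic K
  letI : Algebra R ↥(modularFunctionFieldFullC K M') :=
    ((algebraMap K ↥(modularFunctionFieldFullC K M')).comp (algebraMap R K)).toAlgebra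
  haveI : IsScalarTower R K ↥(modularFunctionFieldFullC K M') :=
    IsScalarTower.of_algebraMap_eq (fun _ => rfl)
  obtain ⟨hN₁, hN₂⟩ := nf96_node_frob (K := K) M' q hq hM' hπ hunit hqR σ hσ h hh
  rcases hB with rfl | rfl
  · obtain ⟨-, hSS, hS2⟩ := hN₁ n hn h1 h2
    exact ⟨fun x hx hmem => hx ((hS2 x _ (hτ _)).mp hmem), fun x => hSS x _ (hτ _)⟩
  · obtain ⟨-, hSS, hS2⟩ := hN₂ n hn h1 h2
    exact ⟨fun x hx hmem => hx ((hS2 x _ (hτ _)).mp hmem), fun x => hSS x _ (hτ _)⟩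

/-- **`u ≡ 1` modulo `π W`** for `u = τ f / f ^ (q ^ 2)`, `τ = ŝ²`, when `f` has unit constant
reductions on the two branches. -/
theorem nd74c_u_cong (σ : K ≃+* K) (hσ : ff50_Frob R q σ)
    (τ : ↥(modularFunctionFieldFullC K (M' * q)) ≃+* ↥(modularFunctionFieldFullC K (M' * q)))
    (hτ : ∀ x, τ x = s34i47_coeffEquiv σ (M' * q) (s34i47_coeffEquiv σ (M' * q) x))
    (f : ↥(modularFunctionFieldFullC K (M' * q))) (C₁ C₂ : R) (hC₁ : IsUnit C₁)
    (hC₂ : IsUnit C₂)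
    (hf₁ : (algebraMap R ↥(modularFunctionFieldFullC K (M' * q)) π)⁻¹ *
      (f - algebraMap R ↥(modularFunctionFieldFullC K (M' * q)) C₁) ∈
        cm85_Vinf (K := K) (M' * q) hπ)
    (hf₂ : (algebraMap R ↥(modularFunctionFieldFullC K (M' * q)) π)⁻¹ *
      (f - algebraMap R ↥(modularFunctionFieldFullC K (M' * q)) C₂) ∈
        s34i47c_V0 (K := K) M' q hq hM' hπ) :
    (algebraMap R ↥(modularFunctionFieldFullC K (M' * q)) π)⁻¹ * (τ f / f ^ (q ^ 2) - 1) ∈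
      s34i47c_W (K := K) M' q hq hM' hπ := by
  obtain ⟨-, -, -, hτπ₁, hτπ₂, -⟩ := nd74c_tau_val M' q hq hM' hπ σ hσ τ hτ
  obtain ⟨C₁', hC₁', hd₁⟩ := nd74c_tau_const M' q hπ σ hσ τ hτ C₁
  obtain ⟨C₂', hC₂', hd₂⟩ := nd74c_tau_const M' q hπ σ hσ τ hτ C₂
  refine (s34i47c_mem_W M' q hq hM' hπ _).mpr ⟨?_, ?_⟩
  · exact nd74c_u_cong_abs π (cm85_Vinf (K := K) (M' * q) hπ).toSubring
      (fun r => pk85_hRV (M' * q) hπ r) (fl7_pi_inv_not_mem_Vinf M' q hπ)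
      (fl7_hmax_Vinf M' q hπ) τ hτπ₁ (q ^ 2) C₁ C₁' hC₁ hC₁' hd₁ f hf₁
  · exact nd74c_u_cong_abs π (s34i47c_V0 (K := K) M' q hq hM' hπ).toSubring
      (fun r => al97C_algebraMap_mem_V0 M' q hq hM' hπ r) (fl7_pi_inv_not_mem_V0 M' q hq hM' hπ)
      (fl7_hmax_V0 M' q hq hM' hπ) τ hτπ₂ (q ^ 2) C₂ C₂' hC₂ hC₂' hd₂ f hf₂

/-- **The local datum at a node of the canonical frame, shape level.**  `n` a closed point of a
canonical chart `B` lying on both branches, `f = ε * c ^ m` with `c` a unit of `W` and `ε` a unit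
of `B_n`, and `f ≡ C₁` modulo `π V_∞`, `f ≡ C₂` modulo `π V_0` with `C₁`, `C₂` units of `R`.  Then
`u := τ f / f ^ (q ^ 2)` (`τ = ŝ²`) has a local datum at `n`. -/
theorem nd74c_datum (hunit : ∀ n : ℕ, Nat.Coprime n q → IsUnit (n : R))
    (hqR : ¬ IsUnit (q : R)) (σ : K ≃+* K) (hσ : ff50_Frob R q σ)
    (h : ↥(modularFunctionFieldFullC K (M' * q))) (hh : s34i47c_IsHaupt K (M' * q) q h)
    (B : Subalgebra R ↥(modularFunctionFieldFullC K (M' * q)))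
    (hB : B = pk15_chart R ({h} : Set ↥(modularFunctionFieldFullC K (M' * q))) ∨
      B = pk15_chart R ({h⁻¹} : Set ↥(modularFunctionFieldFullC K (M' * q))))
    (τ : ↥(modularFunctionFieldFullC K (M' * q)) ≃+* ↥(modularFunctionFieldFullC K (M' * q)))
    (hτ : ∀ x, τ x = s34i47_coeffEquiv σ (M' * q) (s34i47_coeffEquiv σ (M' * q) x))
    (m : ℕ) (hm : 0 < m) (n : Ideal B) (hn : n.IsMaximal) (hπn : algebraMap R B π ∈ n)
    (h1 : sf79_OnBr π B (cm85_Vinf (K := K) (M' * q) hπ).toSubring n)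
    (h2 : sf79_OnBr π B (s34i47c_V0 (K := K) M' q hq hM' hπ).toSubring n)
    (f ε c : ↥(modularFunctionFieldFullC K (M' * q))) (hf : f = ε * c ^ m) (hc0 : c ≠ 0)
    (hcW : c ∈ s34i47c_W (K := K) M' q hq hM' hπ)
    (hcW' : c⁻¹ ∈ s34i47c_W (K := K) M' q hq hM' hπ) (hε0 : ε ≠ 0)
    (hε : ∃ s : B, s ∉ n ∧ (s : ↥(modularFunctionFieldFullC K (M' * q))) * ε ∈ B)
    (hε' : ∃ s : B, s ∉ n ∧ (s : ↥(modularFunctionFieldFullC K (M' * q))) * ε⁻¹ ∈ B)
    (C₁ C₂ : R) (hC₁ : IsUnit C₁) (hC₂ : IsUnit C₂)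
    (hf₁ : (algebraMap R ↥(modularFunctionFieldFullC K (M' * q)) π)⁻¹ *
      (f - algebraMap R ↥(modularFunctionFieldFullC K (M' * q)) C₁) ∈
        cm85_Vinf (K := K) (M' * q) hπ)
    (hf₂ : (algebraMap R ↥(modularFunctionFieldFullC K (M' * q)) π)⁻¹ *
      (f - algebraMap R ↥(modularFunctionFieldFullC K (M' * q)) C₂) ∈
        s34i47c_V0 (K := K) M' q hq hM' hπ) :
    ∃ φ : ↥(modularFunctionFieldFullC K (M' * q)),
      (algebraMap R ↥(modularFunctionFieldFullC K (M' * q)) π)⁻¹ * (φ - 1) ∈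
        s34i47c_W (K := K) M' q hq hM' hπ ∧
      ∃ s : B, s ∉ n ∧
        (s : ↥(modularFunctionFieldFullC K (M' * q))) * (φ ^ m * (τ f / f ^ (q ^ 2))) ∈ B := by
  obtain ⟨hN, hBW, hsatW, hFrac, hKr, hS₁, hS₂⟩ :=
    sd89c_chart_facts M' q hq hM' hπ hunit hqR h hh B hB
  haveI := hN
  haveI : n.IsMaximal := hn
  obtain ⟨hτR, hτV₁, hτV₂, hτπ₁, hτπ₂, hG1⟩ := nd74c_tau_val M' q hq hM' hπ σ hσ τ hτ
  have hτB := nd74c_tau_chart M' q σ hσ h hh B hB τ hτ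
  obtain ⟨hfix, hSS⟩ := nd74c_tau_node M' q hq hM' hπ hunit hqR σ hσ h hh B hB τ hτ hτB n
    hn.isPrime h1 h2
  have hB₁ : ∀ x ∈ B, x ∈ (cm85_Vinf (K := K) (M' * q) hπ).toSubring :=
    fun x hx => ((s34i47c_mem_W M' q hq hM' hπ x).mp (hBW x hx)).1
  have hB₂ : ∀ x ∈ B, x ∈ (s34i47c_V0 (K := K) M' q hq hM' hπ).toSubring :=
    fun x hx => ((s34i47c_mem_W M' q hq hM' hπ x).mp (hBW x hx)).2
  have hTr : sf79_Transv π B (cm85_Vinf (K := K) (M' * q) hπ).toSubring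
      (s34i47c_V0 (K := K) M' q hq hM' hπ).toSubring := by
    obtain ⟨hT₁, hT₂⟩ := ft49_pkg_frameTransv M' q hq hM' R K π hπ hunit hqR h hh
    rcases hB with rfl | rfl
    · exact hT₁
    · exact hT₂
  have hUV : sf79_UVAt π B (cm85_Vinf (K := K) (M' * q) hπ).toSubring
      (s34i47c_V0 (K := K) M' q hq hM' hπ).toSubring := by
    obtain ⟨hU₁, hU₂⟩ := uvf22_UVAt M' q hq hM' hπ hunit hqR h hh
    rcases hB with rfl | rfl
    · exact hU₁
    · exact hU₂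
  obtain ⟨z₁, hz₁⟩ := hS₁ n hn hπn h1
  obtain ⟨z₂, hz₂⟩ := hS₂ n hn hπn h2
  obtain ⟨u, v, s₀, e, -, he, huv, hu, hv⟩ := hUV n hn hπn h1 h2
  obtain ⟨hFr₁, hFr₂⟩ := nd14_frac_of_UV π B (cm85_Vinf (K := K) (M' * q) hπ).toSubring
    (s34i47c_V0 (K := K) M' q hq hM' hπ).toSubring hB₁ hB₂
    (fl7_hmax_Vinf M' q hπ) (fl7_hmax_V0 M' q hq hM' hπ)
    (fun x hx a b => hsatW x hx ((s34i47c_mem_W M' q hq hM' hπ _).mpr ⟨a, b⟩)) hFrac
    (fun x _ hx0 => wi18_arch (M' * q) hπ x hx0)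
    (fun x _ hx0 => tv66_arch_V0 M' q hq hM' hπ x hx0) u v s₀ e he huv hu hv
  -- the constants are units of `B_n`
  have hconst : ∀ k : R, IsUnit k →
      algebraMap R ↥(modularFunctionFieldFullC K (M' * q)) k ≠ 0 ∧
      algebraMap R ↥(modularFunctionFieldFullC K (M' * q)) k ∈ sf79_loc B n ∧
      (algebraMap R ↥(modularFunctionFieldFullC K (M' * q)) k)⁻¹ ∈ sf79_loc B n := by
    intro k hk
    obtain ⟨k', hk'⟩ := hk.exists_right_inv
    have e1 : algebraMap R ↥(modularFunctionFieldFullC K (M' * q)) k *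
        algebraMap R ↥(modularFunctionFieldFullC K (M' * q)) k' = 1 := by
      rw [← map_mul, hk', map_one]
    have e2 : (algebraMap R ↥(modularFunctionFieldFullC K (M' * q)) k)⁻¹ =
        algebraMap R ↥(modularFunctionFieldFullC K (M' * q)) k' :=
      (eq_inv_of_mul_eq_one_right e1).symm
    refine ⟨left_ne_zero_of_mul_eq_one e1, sf79_le_loc B n _ (B.algebraMap_mem k), ?_⟩
    rw [e2]
    exact sf79_le_loc B n _ (B.algebraMap_mem k')
  obtain ⟨hk₁0, hk₁, hk₁'⟩ := hconst C₁ hC₁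
  obtain ⟨hk₂0, hk₂, hk₂'⟩ := hconst C₂ hC₂
  obtain ⟨hc₁, hc₂⟩ := (s34i47c_mem_W M' q hq hM' hπ c).mp hcW
  obtain ⟨hc₁', hc₂'⟩ := (s34i47c_mem_W M' q hq hM' hπ c⁻¹).mp hcW'
  exact nd74_datum π m (q ^ 2) hm B (cm85_Vinf (K := K) (M' * q) hπ).toSubring
    (s34i47c_V0 (K := K) M' q hq hM' hπ).toSubring (s34i47c_W (K := K) M' q hq hM' hπ)
    (fun x hx₁ hx₂ => (s34i47c_mem_W M' q hq hM' hπ x).mpr ⟨hx₁, hx₂⟩)
    hB₁ hB₂ (fl7_pi_inv_not_mem_Vinf M' q hπ) (fl7_pi_inv_not_mem_V0 M' q hq hM' hπ)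
    (fl7_hmax_Vinf M' q hπ) (fl7_hmax_V0 M' q hq hM' hπ)
    τ hτB hτV₁ hτV₂ hτπ₁ hτπ₂ n h1 h2 hfix hSS z₁ hz₁ z₂ hz₂ hFr₁ hFr₂ (hTr n hn hπn h1 h2)
    f ε c hf hc0 hc₁ hc₁' hc₂ hc₂' hε0 hε hε'
    (algebraMap R ↥(modularFunctionFieldFullC K (M' * q)) C₁)
    (algebraMap R ↥(modularFunctionFieldFullC K (M' * q)) C₂)
    hk₁0 hk₁ hk₁' hk₂0 hk₂ hk₂' hf₁ hf₂

/-- **The node clause on the canonical frame = the literal `hNode` argument of
`sd89c_localDatum`** for `u := lpt3_u τ m (q ^ 2) f G` (`τ = ŝ²`): from (LP) for the ORIGINAL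
`f` on the chart `B`, `G` a unit of `W`, and the constant unit reductions `C₁`, `C₂` of
`f₃ = lpt3_f3 τ m f G` on the two branches. -/
theorem nd74c_hNode (hunit : ∀ n : ℕ, Nat.Coprime n q → IsUnit (n : R))
    (hqR : ¬ IsUnit (q : R)) (σ : K ≃+* K) (hσ : ff50_Frob R q σ)
    (h : ↥(modularFunctionFieldFullC K (M' * q))) (hh : s34i47c_IsHaupt K (M' * q) q h)
    (B : Subalgebra R ↥(modularFunctionFieldFullC K (M' * q)))
    (hB : B = pk15_chart R ({h} : Set ↥(modularFunctionFieldFullC K (M' * q))) ∨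
      B = pk15_chart R ({h⁻¹} : Set ↥(modularFunctionFieldFullC K (M' * q))))
    (τ : ↥(modularFunctionFieldFullC K (M' * q)) ≃+* ↥(modularFunctionFieldFullC K (M' * q)))
    (hτ : ∀ x, τ x = s34i47_coeffEquiv σ (M' * q) (s34i47_coeffEquiv σ (M' * q) x))
    (m : ℕ) (hm : 0 < m) (f G : ↥(modularFunctionFieldFullC K (M' * q))) (hf : f ≠ 0)
    (hLP : s34i47_LocPrin π m B f) (hG : G ≠ 0)
    (hGW : G ∈ s34i47c_W (K := K) M' q hq hM' hπ)
    (hGW' : G⁻¹ ∈ s34i47c_W (K := K) M' q hq hM' hπ)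
    (C₁ C₂ : R) (hC₁ : IsUnit C₁) (hC₂ : IsUnit C₂)
    (hf₁ : (algebraMap R ↥(modularFunctionFieldFullC K (M' * q)) π)⁻¹ *
      (lpt3_f3 τ m f G - algebraMap R ↥(modularFunctionFieldFullC K (M' * q)) C₁) ∈
        cm85_Vinf (K := K) (M' * q) hπ)
    (hf₂ : (algebraMap R ↥(modularFunctionFieldFullC K (M' * q)) π)⁻¹ *
      (lpt3_f3 τ m f G - algebraMap R ↥(modularFunctionFieldFullC K (M' * q)) C₂) ∈
        s34i47c_V0 (K := K) M' q hq hM' hπ) :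
    ∀ n : Ideal B, n.IsMaximal → algebraMap R B π ∈ n →
      sf79_OnBr π B (cm85_Vinf (K := K) (M' * q) hπ).toSubring n →
      sf79_OnBr π B (s34i47c_V0 (K := K) M' q hq hM' hπ).toSubring n →
      ∃ φ : ↥(modularFunctionFieldFullC K (M' * q)),
        (algebraMap R ↥(modularFunctionFieldFullC K (M' * q)) π)⁻¹ * (φ - 1) ∈
          s34i47c_W (K := K) M' q hq hM' hπ ∧
        ∃ s : B, s ∉ n ∧
          (s : ↥(modularFunctionFieldFullC K (M' * q))) *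
            (φ ^ m * lpt3_u τ m (q ^ 2) f G) ∈ B := by
  intro n hn hπn h1 h2
  obtain ⟨hN, hBW, hsatW, hFrac, hKr, hS₁, hS₂⟩ :=
    sd89c_chart_facts M' q hq hM' hπ hunit hqR h hh B hB
  obtain ⟨hτR, hτV₁, hτV₂, hτπ₁, hτπ₂, hG1⟩ := nd74c_tau_val M' q hq hM' hπ σ hσ τ hτ
  have hτB := nd74c_tau_chart M' q σ hσ h hh B hB τ hτ
  obtain ⟨hfix, hSS⟩ := nd74c_tau_node M' q hq hM' hπ hunit hqR σ hσ h hh B hB τ hτ hτB n
    hn.isPrime h1 h2
  obtain ⟨c, hc⟩ := hLP n hn hπn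
  obtain ⟨hc3, hc3W, hc3W', -, -, hε, hε', hshape⟩ := lpt3_node_shape (K := K) π hπ m
    (s34i47c_W (K := K) M' q hq hM' hπ) B hBW hsatW τ hτR hτB hG1 n hfix (hKr n hn hπn)
    f c G hf hc hG hGW hGW'
  have hτf : τ f ≠ 0 := (map_ne_zero τ).mpr hf
  have hf1 : f / τ f ≠ 0 := div_ne_zero hf hτf
  have hf30 : lpt3_f3 τ m f G ≠ 0 := by
    unfold lpt3_f3
    exact div_ne_zero (div_ne_zero hf1 ((map_ne_zero τ).mpr hf1)) (pow_ne_zero m hG)
  have hε0 : lpt3_f3 τ m f G / lpt3_c3 τ c G ^ m ≠ 0 :=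
    div_ne_zero hf30 (pow_ne_zero m hc3)
  unfold lpt3_u
  exact nd74c_datum M' q hq hM' hπ hunit hqR σ hσ h hh B hB τ hτ m hm n hn hπn h1 h2
    (lpt3_f3 τ m f G) _ (lpt3_c3 τ c G) hshape hc3 hc3W hc3W' hε0 hε hε' C₁ C₂ hC₁ hC₂ hf₁ hf₂

/-- **`s34i47_LocalDatum` for `u = lpt3_u τ m (q ^ 2) f G` on both canonical charts**: from (LP)
for `f` and for `u` on the chart, `G` a unit of `W`, and the constant unit reductions of
`f₃ = lpt3_f3 τ m f G` on the two branches. -/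
theorem nd74c_localDatum (hunit : ∀ n : ℕ, Nat.Coprime n q → IsUnit (n : R))
    (hqR : ¬ IsUnit (q : R)) (σ : K ≃+* K) (hσ : ff50_Frob R q σ)
    (h : ↥(modularFunctionFieldFullC K (M' * q))) (hh : s34i47c_IsHaupt K (M' * q) q h)
    (B : Subalgebra R ↥(modularFunctionFieldFullC K (M' * q)))
    (hB : B = pk15_chart R ({h} : Set ↥(modularFunctionFieldFullC K (M' * q))) ∨
      B = pk15_chart R ({h⁻¹} : Set ↥(modularFunctionFieldFullC K (M' * q))))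
    (τ : ↥(modularFunctionFieldFullC K (M' * q)) ≃+* ↥(modularFunctionFieldFullC K (M' * q)))
    (hτ : ∀ x, τ x = s34i47_coeffEquiv σ (M' * q) (s34i47_coeffEquiv σ (M' * q) x))
    (m : ℕ) (hm : 0 < m) (f G : ↥(modularFunctionFieldFullC K (M' * q))) (hf : f ≠ 0)
    (hLP : s34i47_LocPrin π m B f)
    (hLPu : s34i47_LocPrin π m B (lpt3_u τ m (q ^ 2) f G)) (hG : G ≠ 0)
    (hGW : G ∈ s34i47c_W (K := K) M' q hq hM' hπ)
    (hGW' : G⁻¹ ∈ s34i47c_W (K := K) M' q hq hM' hπ)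
    (C₁ C₂ : R) (hC₁ : IsUnit C₁) (hC₂ : IsUnit C₂)
    (hf₁ : (algebraMap R ↥(modularFunctionFieldFullC K (M' * q)) π)⁻¹ *
      (lpt3_f3 τ m f G - algebraMap R ↥(modularFunctionFieldFullC K (M' * q)) C₁) ∈
        cm85_Vinf (K := K) (M' * q) hπ)
    (hf₂ : (algebraMap R ↥(modularFunctionFieldFullC K (M' * q)) π)⁻¹ *
      (lpt3_f3 τ m f G - algebraMap R ↥(modularFunctionFieldFullC K (M' * q)) C₂) ∈
        s34i47c_V0 (K := K) M' q hq hM' hπ) :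
    s34i47_LocalDatum π m (s34i47c_W (K := K) M' q hq hM' hπ) B
      (lpt3_u τ m (q ^ 2) f G) :=
  sd89c_localDatum M' q hq hM' hπ hunit hqR h hh B hB m hm _
    (nd74c_u_cong M' q hq hM' hπ σ hσ τ hτ _ C₁ C₂ hC₁ hC₂ hf₁ hf₂) hLPu
    (nd74c_hNode M' q hq hM' hπ hunit hqR σ hσ h hh B hB τ hτ m hm f G hf hLP hG hGW hGW'
      C₁ C₂ hC₁ hC₂ hf₁ hf₂)


end ND74CCanon

end Fermat.Agent.S35
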