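import Mathlib

/-!
# S35 lab (helper11): `w = Frob⁻¹` on the nodes (abstract, Mathlib only)

Step (1e) of the S35 proof text: for the charts `B'` (good level `M'`) and `B` (level `M' q`),
`α, β : B' → B` the two degeneracy maps, `w` the Atkin–Lehner involution of `B`, `ŝ`, `ŝ'` the
coefficientwise actions of a Frobenius lift on `B`, `B'`, and `P = p_∞` the branch ideal:
if `B = α(B') + P` ((3a)-surjectivity), `β b' ≡ (α (ŝ'⁻¹ b'))^q mod P` (Kronecker) and `ŝ P = P`,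
then for every prime `n ⊇ P` with `w P ⊆ n` (a node): `w x ∈ n ↔ ŝ⁻¹ x ∈ n`, i.e. `w(n) = ŝ(n)`
(`nf11_w_mem_iff`, `nf11_comap_eq`), and `ŝ² n = n` (`nf11_sq_mem_iff`).

Form (K): with the second Kronecker congruence `α (ŝ' b') ≡ (β b')^q mod P₀` (`P₀ = p_0 ⊆ n`),
`ŝ b ≡ (w b)^q mod n` for EVERY `b ∈ B` at a node `n` (`nf11_K`), hence `ŝ b ∈ n ↔ w b ∈ n`
(`nf11_s_mem_iff`, i.e. `ŝ⁻¹ n = w n`), and (SS) `ŝ² b ≡ b^(q²) mod n` (`nf11_SS`: the nodes are
`𝔽_{q²}`-rational, `ŝ²` is the `q²`-Frobenius on `B ⧸ n`).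

All names are prefixed `nf11_`.  Mathlib only.
-/

set_option autoImplicit false

namespace Fermat.Agent.S35

/-- **(1e), core**: `w x ∈ n ↔ ŝ⁻¹ x ∈ n` for a prime `n` containing `P` and `w P`. -/
theorem nf11_w_mem_iff {B' B : Type*} [CommRing B'] [CommRing B]
    (α β : B' →+* B) (w : B →+* B) (s : B ≃+* B) (s' : B' ≃+* B')
    (hwα : ∀ b', w (α b') = β b') (hsα : ∀ b', s (α b') = α (s' b'))
    (P : Ideal B) (hsurj : ∀ x : B, ∃ b' : B', x - α b' ∈ P)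
    (q : ℕ) (hq : q ≠ 0) (hkron : ∀ b' : B', β b' - α (s'.symm b') ^ q ∈ P)
    (hsP : ∀ x ∈ P, s.symm x ∈ P)
    (n : Ideal B) [hn : n.IsPrime] (hPn : P ≤ n) (hwP : ∀ x ∈ P, w x ∈ n) (x : B) :
    w x ∈ n ↔ s.symm x ∈ n := by
  obtain ⟨b', hb'⟩ := hsurj x
  have hsα' : s.symm (α b') = α (s'.symm b') := by
    rw [RingEquiv.symm_apply_eq, hsα, RingEquiv.apply_symm_apply]
  -- both sides are equivalent to `α (s'⁻¹ b') ∈ n`
  have h1 : w x ∈ n ↔ α (s'.symm b') ∈ n := by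
    have e : w x = w (x - α b') + (β b' - α (s'.symm b') ^ q) + α (s'.symm b') ^ q := by
      rw [map_sub, hwα]; ring
    have hA : w (x - α b') + (β b' - α (s'.symm b') ^ q) ∈ n :=
      n.add_mem (hwP _ hb') (hPn (hkron b'))
    constructor
    · intro h
      have h2 : α (s'.symm b') ^ q ∈ n := by
        have : α (s'.symm b') ^ q =
            w x - (w (x - α b') + (β b' - α (s'.symm b') ^ q)) := by rw [e]; ring
        rw [this]; exact n.sub_mem h hA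
      exact hn.mem_of_pow_mem q h2
    · intro h
      rw [e]
      exact n.add_mem hA (n.pow_mem_of_mem h q (Nat.pos_of_ne_zero hq))
  have h2 : s.symm x ∈ n ↔ α (s'.symm b') ∈ n := by
    have e : s.symm x = s.symm (x - α b') + α (s'.symm b') := by
      rw [map_sub, hsα']; ring
    have hA : s.symm (x - α b') ∈ n := hPn (hsP _ hb')
    constructor
    · intro h
      have : α (s'.symm b') = s.symm x - s.symm (x - α b') := by rw [e]; ring
      rw [this]; exact n.sub_mem h hA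
    · intro h
      rw [e]; exact n.add_mem hA h
  exact h1.trans h2.symm

/-- **(1e)**: at a node `n` (a prime containing `P` and `w P`), `w(n) = ŝ(n)` as comaps. -/
theorem nf11_comap_eq {B' B : Type*} [CommRing B'] [CommRing B]
    (α β : B' →+* B) (w : B →+* B) (s : B ≃+* B) (s' : B' ≃+* B')
    (hwα : ∀ b', w (α b') = β b') (hsα : ∀ b', s (α b') = α (s' b'))
    (P : Ideal B) (hsurj : ∀ x : B, ∃ b' : B', x - α b' ∈ P)
    (q : ℕ) (hq : q ≠ 0) (hkron : ∀ b' : B', β b' - α (s'.symm b') ^ q ∈ P)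
    (hsP : ∀ x ∈ P, s.symm x ∈ P)
    (n : Ideal B) [hn : n.IsPrime] (hPn : P ≤ n) (hwP : ∀ x ∈ P, w x ∈ n) :
    n.comap w = n.comap (s.symm : B →+* B) := by
  ext x
  exact nf11_w_mem_iff α β w s s' hwα hsα P hsurj q hq hkron hsP n hPn hwP x

/-- **(1e), consequence**: if moreover `w ∘ w = id`, `w` commutes with `ŝ`, and `w(n)` is again
a node, then `ŝ² n = n`: `ŝ⁻¹ (ŝ⁻¹ x) ∈ n ↔ x ∈ n`. -/
theorem nf11_sq_mem_iff {B' B : Type*} [CommRing B'] [CommRing B]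
    (α β : B' →+* B) (w : B →+* B) (s : B ≃+* B) (s' : B' ≃+* B')
    (hwα : ∀ b', w (α b') = β b') (hsα : ∀ b', s (α b') = α (s' b'))
    (hww : ∀ x, w (w x) = x) (hws : ∀ x, w (s.symm x) = s.symm (w x))
    (P : Ideal B) (hsurj : ∀ x : B, ∃ b' : B', x - α b' ∈ P)
    (q : ℕ) (hq : q ≠ 0) (hkron : ∀ b' : B', β b' - α (s'.symm b') ^ q ∈ P)
    (hsP : ∀ x ∈ P, s.symm x ∈ P)
    (n : Ideal B) [hn : n.IsPrime] (hPn : P ≤ n) (hwP : ∀ x ∈ P, w x ∈ n) (x : B) :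
    s.symm (s.symm x) ∈ n ↔ x ∈ n := by
  -- `ŝ⁻¹ y ∈ n ↔ w y ∈ n` for all `y`
  have key : ∀ y, s.symm y ∈ n ↔ w y ∈ n := fun y =>
    (nf11_w_mem_iff α β w s s' hwα hsα P hsurj q hq hkron hsP n hPn hwP y).symm
  rw [key (s.symm x), hws, key (w x), hww]

/-- **(K)** at a node: `ŝ b ≡ (w b)^q mod n` for every `b ∈ B`.  Inputs: `B = α(B') + P`,
`ŝ P ⊆ n`, `w P ⊆ n` (`P = p_∞`), the Kronecker congruence at the `0`-branch
`α (ŝ' b') - (β b')^q ∈ n`, and residue characteristic `q` (prime, `q ∈ n`). -/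
theorem nf11_K {B' B : Type*} [CommRing B'] [CommRing B]
    (α β : B' →+* B) (w : B →+* B) (s : B →+* B) (s' : B' →+* B')
    (hwα : ∀ b', w (α b') = β b') (hsα : ∀ b', s (α b') = α (s' b'))
    (P : Ideal B) (hsurj : ∀ x : B, ∃ b' : B', x - α b' ∈ P)
    (q : ℕ) (hq : q.Prime)
    (n : Ideal B) [hn : n.IsPrime] (hqn : (q : B) ∈ n)
    (hkron0 : ∀ b' : B', α (s' b') - β b' ^ q ∈ n)
    (hsP : ∀ x ∈ P, s x ∈ n) (hwP : ∀ x ∈ P, w x ∈ n) (b : B) :
    s b - w b ^ q ∈ n := by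
  have : Fact q.Prime := ⟨hq⟩
  have hq0 : ((q : ℕ) : B ⧸ n) = 0 := by
    have h1 : ((q : ℕ) : B ⧸ n) = Ideal.Quotient.mk n ((q : ℕ) : B) := by simp
    rw [h1, Ideal.Quotient.eq_zero_iff_mem]; exact hqn
  have hchar : CharP (B ⧸ n) q := by
    have hdvd : ringChar (B ⧸ n) ∣ q := (ringChar.spec (B ⧸ n) q).mp hq0
    have hne : ringChar (B ⧸ n) ≠ 1 := CharP.ringChar_ne_one
    have heq : ringChar (B ⧸ n) = q := by
      rcases (Nat.dvd_prime hq).mp hdvd with h | h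
      · exact absurd h hne
      · exact h
    rw [← heq]; exact ringChar.charP _
  obtain ⟨b', hb'⟩ := hsurj b
  rw [← Ideal.Quotient.eq_zero_iff_mem, map_sub, map_pow]
  set mk := Ideal.Quotient.mk n with hmk
  have h1 : mk (s b) = mk (α (s' b')) := by
    have : s b = s (b - α b') + α (s' b') := by
      rw [← hsα, ← map_add, sub_add_cancel]
    rw [this, map_add, (Ideal.Quotient.eq_zero_iff_mem).mpr (hsP _ hb'), zero_add]
  have h2 : mk (w b) = mk (β b') := by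
    have : w b = w (b - α b') + β b' := by
      rw [← hwα, ← map_add, sub_add_cancel]
    rw [this, map_add, (Ideal.Quotient.eq_zero_iff_mem).mpr (hwP _ hb'), zero_add]
  rw [h1, h2, ← map_pow, ← map_sub, Ideal.Quotient.eq_zero_iff_mem]
  exact hkron0 b'

/-- **(K), consequence**: at a node, `ŝ b ∈ n ↔ w b ∈ n` (i.e. `ŝ⁻¹ n = w n`). -/
theorem nf11_s_mem_iff {B' B : Type*} [CommRing B'] [CommRing B]
    (α β : B' →+* B) (w : B →+* B) (s : B →+* B) (s' : B' →+* B')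
    (hwα : ∀ b', w (α b') = β b') (hsα : ∀ b', s (α b') = α (s' b'))
    (P : Ideal B) (hsurj : ∀ x : B, ∃ b' : B', x - α b' ∈ P)
    (q : ℕ) (hq : q.Prime)
    (n : Ideal B) [hn : n.IsPrime] (hqn : (q : B) ∈ n)
    (hkron0 : ∀ b' : B', α (s' b') - β b' ^ q ∈ n)
    (hsP : ∀ x ∈ P, s x ∈ n) (hwP : ∀ x ∈ P, w x ∈ n) (b : B) :
    s b ∈ n ↔ w b ∈ n := by
  have hK := nf11_K α β w s s' hwα hsα P hsurj q hq n hqn hkron0 hsP hwP b
  constructor
  · intro h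
    have h2 : w b ^ q ∈ n := by
      have : w b ^ q = s b - (s b - w b ^ q) := by ring
      rw [this]; exact n.sub_mem h hK
    exact hn.mem_of_pow_mem q h2
  · intro h
    have : s b = (s b - w b ^ q) + w b ^ q := by ring
    rw [this]
    exact n.add_mem hK (n.pow_mem_of_mem h q hq.pos)

/-- **(SS)** at a node: `ŝ² b ≡ b^(q²) mod n` for every `b ∈ B` (from (K) twice, `w ∘ w = id`
and `w ŝ = ŝ w`). -/
theorem nf11_SS {B' B : Type*} [CommRing B'] [CommRing B]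
    (α β : B' →+* B) (w : B →+* B) (s : B →+* B) (s' : B' →+* B')
    (hwα : ∀ b', w (α b') = β b') (hsα : ∀ b', s (α b') = α (s' b'))
    (hww : ∀ x, w (w x) = x) (hws : ∀ x, w (s x) = s (w x))
    (P : Ideal B) (hsurj : ∀ x : B, ∃ b' : B', x - α b' ∈ P)
    (q : ℕ) (hq : q.Prime)
    (n : Ideal B) [hn : n.IsPrime] (hqn : (q : B) ∈ n)
    (hkron0 : ∀ b' : B', α (s' b') - β b' ^ q ∈ n)
    (hsP : ∀ x ∈ P, s x ∈ n) (hwP : ∀ x ∈ P, w x ∈ n) (b : B) :
    s (s b) - b ^ (q ^ 2) ∈ n := by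
  have h1 := nf11_K α β w s s' hwα hsα P hsurj q hq n hqn hkron0 hsP hwP (s b)
  have h2 := nf11_K α β w s s' hwα hsα P hsurj q hq n hqn hkron0 hsP hwP (w b)
  rw [hww] at h2
  rw [hws] at h1
  obtain ⟨c, hc⟩ := sub_dvd_pow_sub_pow (s (w b)) (b ^ q) q
  have h3 : s (w b) ^ q - (b ^ q) ^ q ∈ n := by
    rw [hc]; exact n.mul_mem_right c h2
  have e : s (s b) - b ^ (q ^ 2) = (s (s b) - s (w b) ^ q) + (s (w b) ^ q - (b ^ q) ^ q) := by
    rw [pow_two, pow_mul]; ring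
  rw [e]
  exact n.add_mem h1 h3

end Fermat.Agent.S35
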