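import Mathlib

/-!
# S35 lab (helper99): Frobenius and Atkin–Lehner on the closed points of a chart — abstract form

Abstract (Mathlib-only) form of step (1e) of the S35 proof text (`w = s⁻¹` on nodes) and of the
companion congruence `(K)`: `s b ≡ (w b)^q` modulo a node.

Setting.  `B'` is the chart of level `M'`, `B` the chart of level `M = M' q`, `α β : B' →+* B`
the two degeneracy maps, `w : B →+* B` the Atkin–Lehner involution (`w ∘ α = β`), `s : B →+* B`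
and `s' : B' →+* B'` the coefficientwise action of a Frobenius lift (`s ∘ α = α ∘ s'`).  `P₁`
(the `∞`-branch) and `P₂` (the `0`-branch) are the two vertical ideals of `B`: `s P₁ ⊆ P₁`,
`w P₁ ⊆ P₂`.  The two inputs are

* `(3a)`: `B = α(B') + P₁` (`hsurj`);
* Kronecker: `β (s' b') ≡ (α b')^q` modulo `P₁` (`hK`).

Conclusions for a prime `n` of `B`:

* `nf99_mem_iff`, `nf99_ext`: a prime above `P₁` is determined by its trace on `α(B')`;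
* `nf99_beta_iff` (`P₁ ≤ n`): `β (s' b') ∈ n ↔ α b' ∈ n`;
* `nf99_alpha_iff` (`P₂ ≤ n`): `α (s' b') ∈ n ↔ β b' ∈ n`;
* `nf99_ws_iff` (node: `P₁ ≤ n`, `P₂ ≤ n`): `w (s b) ∈ n ↔ b ∈ n`, i.e. `(w s)⁻¹ n = n`;
* `nf99_s_iff_w`, `nf99_comap_eq`: `s b ∈ n ↔ w b ∈ n` at a node, i.e. `s⁻¹ n = w⁻¹ n`;
* `nf99_ss_iff`, `nf99_comap_ss`: `s (s b) ∈ n ↔ b ∈ n` at a node;
* `nf99_K`: `s b - (w b)^q ∈ n` at a node.
-/

set_option autoImplicit false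

namespace Fermat.Agent.S35

section nf99

variable {B' B : Type*} [CommRing B'] [CommRing B]

/-- If `b ≡ α b'` modulo `P₁ ≤ m` then `b ∈ m ↔ α b' ∈ m`. -/
theorem nf99_mem_iff (α : B' →+* B) (P₁ m : Ideal B) (hm : P₁ ≤ m) (b : B) (b' : B')
    (hb : b - α b' ∈ P₁) : b ∈ m ↔ α b' ∈ m := by
  constructor
  · intro h
    have e : α b' = b - (b - α b') := by ring
    rw [e]; exact m.sub_mem h (hm hb)
  · intro h
    have e : b = α b' + (b - α b') := by ring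
    rw [e]; exact m.add_mem h (hm hb)

/-- **An ideal above `P₁` is determined by its trace on `α(B')`** when `B = α(B') + P₁`. -/
theorem nf99_ext (α : B' →+* B) (P₁ : Ideal B) (hsurj : ∀ b : B, ∃ b' : B', b - α b' ∈ P₁)
    (m₁ m₂ : Ideal B) (h₁ : P₁ ≤ m₁) (h₂ : P₁ ≤ m₂)
    (h : ∀ b' : B', α b' ∈ m₁ ↔ α b' ∈ m₂) : m₁ = m₂ := by
  ext b
  obtain ⟨b', hb⟩ := hsurj b
  rw [nf99_mem_iff α P₁ m₁ h₁ b b' hb, nf99_mem_iff α P₁ m₂ h₂ b b' hb]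
  exact h b'

/-- For a prime `n` and `q ≠ 0`: `x ^ q ∈ n ↔ x ∈ n`. -/
theorem nf99_pow_mem_iff (n : Ideal B) [n.IsPrime] (q : ℕ) (hq : q ≠ 0) (x : B) :
    x ^ q ∈ n ↔ x ∈ n :=
  ⟨fun h => Ideal.IsPrime.mem_of_pow_mem inferInstance q h, fun h => Ideal.pow_mem_of_mem n h q
    (Nat.pos_of_ne_zero hq)⟩

/-- If `x - y ∈ n` then `x ∈ n ↔ y ∈ n`. -/
theorem nf99_iff_of_sub (n : Ideal B) (x y : B) (h : x - y ∈ n) : x ∈ n ↔ y ∈ n := by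
  constructor
  · intro hx
    have e : y = x - (x - y) := by ring
    rw [e]; exact n.sub_mem hx h
  · intro hy
    have e : x = y + (x - y) := by ring
    rw [e]; exact n.add_mem hy h

/-- **`β⁻¹(n) = s'(α⁻¹(n))` above the `∞`-branch**: for a prime `n ⊇ P₁`,
`β (s' b') ∈ n ↔ α b' ∈ n`. -/
theorem nf99_beta_iff (α β : B' →+* B) (s' : B' →+* B') (q : ℕ) (hq : q ≠ 0) (P₁ : Ideal B)
    (hK : ∀ b' : B', β (s' b') - (α b') ^ q ∈ P₁)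
    (n : Ideal B) [n.IsPrime] (h₁ : P₁ ≤ n) (b' : B') : β (s' b') ∈ n ↔ α b' ∈ n := by
  rw [nf99_iff_of_sub n _ _ (h₁ (hK b')), nf99_pow_mem_iff n q hq]

/-- The Kronecker congruence on the `0`-branch, transported by `w`:
`α (s' b') ≡ (β b')^q` modulo `P₂`. -/
theorem nf99_K_zero (α β : B' →+* B) (w : B →+* B) (s' : B' →+* B') (q : ℕ) (P₁ P₂ : Ideal B)
    (hwα : ∀ b', w (α b') = β b') (hwβ : ∀ b', w (β b') = α b')
    (hwP : ∀ b, b ∈ P₁ → w b ∈ P₂)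
    (hK : ∀ b' : B', β (s' b') - (α b') ^ q ∈ P₁) (b' : B') :
    α (s' b') - (β b') ^ q ∈ P₂ := by
  have h := hwP _ (hK b')
  rwa [map_sub, map_pow, hwβ, hwα] at h

/-- **`α⁻¹(n) = s'(β⁻¹(n))` above the `0`-branch**: for a prime `n ⊇ P₂`,
`α (s' b') ∈ n ↔ β b' ∈ n`. -/
theorem nf99_alpha_iff (α β : B' →+* B) (w : B →+* B) (s' : B' →+* B') (q : ℕ) (hq : q ≠ 0)
    (P₁ P₂ : Ideal B)
    (hwα : ∀ b', w (α b') = β b') (hwβ : ∀ b', w (β b') = α b')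
    (hwP : ∀ b, b ∈ P₁ → w b ∈ P₂)
    (hK : ∀ b' : B', β (s' b') - (α b') ^ q ∈ P₁)
    (n : Ideal B) [n.IsPrime] (h₂ : P₂ ≤ n) (b' : B') : α (s' b') ∈ n ↔ β b' ∈ n := by
  rw [nf99_iff_of_sub n _ _ (h₂ (nf99_K_zero α β w s' q P₁ P₂ hwα hwβ hwP hK b')),
    nf99_pow_mem_iff n q hq]

/-- **`(w s)⁻¹ n = n` at a node** (step (1e)): for a prime `n` containing both vertical ideals,
`w (s b) ∈ n ↔ b ∈ n`. -/
theorem nf99_ws_iff (α β : B' →+* B) (s w : B →+* B) (s' : B' →+* B') (q : ℕ) (hq : q ≠ 0)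
    (P₁ P₂ : Ideal B)
    (hsα : ∀ b', s (α b') = α (s' b')) (hwα : ∀ b', w (α b') = β b')
    (hsP : ∀ b, b ∈ P₁ → s b ∈ P₁) (hwP : ∀ b, b ∈ P₁ → w b ∈ P₂)
    (hsurj : ∀ b : B, ∃ b' : B', b - α b' ∈ P₁)
    (hK : ∀ b' : B', β (s' b') - (α b') ^ q ∈ P₁)
    (n : Ideal B) [n.IsPrime] (h₁ : P₁ ≤ n) (h₂ : P₂ ≤ n) (b : B) :
    w (s b) ∈ n ↔ b ∈ n := by
  obtain ⟨b', hb⟩ := hsurj b
  have h1 : w (s b) - β (s' b') ∈ n := by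
    have h := h₂ (hwP _ (hsP _ hb))
    rwa [map_sub, map_sub, hsα, hwα] at h
  rw [nf99_iff_of_sub n _ _ h1, nf99_beta_iff α β s' q hq P₁ hK n h₁ b',
    ← nf99_mem_iff α P₁ n h₁ b b' hb]

/-- **`s⁻¹ n = w⁻¹ n` at a node**: `s b ∈ n ↔ w b ∈ n`. -/
theorem nf99_s_iff_w (α β : B' →+* B) (s w : B →+* B) (s' : B' →+* B') (q : ℕ) (hq : q ≠ 0)
    (P₁ P₂ : Ideal B)
    (hsα : ∀ b', s (α b') = α (s' b')) (hwα : ∀ b', w (α b') = β b')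
    (hsw : ∀ b, s (w b) = w (s b)) (hww : ∀ b, w (w b) = b)
    (hsP : ∀ b, b ∈ P₁ → s b ∈ P₁) (hwP : ∀ b, b ∈ P₁ → w b ∈ P₂)
    (hsurj : ∀ b : B, ∃ b' : B', b - α b' ∈ P₁)
    (hK : ∀ b' : B', β (s' b') - (α b') ^ q ∈ P₁)
    (n : Ideal B) [n.IsPrime] (h₁ : P₁ ≤ n) (h₂ : P₂ ≤ n) (b : B) :
    s b ∈ n ↔ w b ∈ n := by
  have h := nf99_ws_iff α β s w s' q hq P₁ P₂ hsα hwα hsP hwP hsurj hK n h₁ h₂ (w b)
  rw [hsw, hww] at h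
  exact h

/-- `s⁻¹ n = w⁻¹ n` at a node, as an equality of ideals. -/
theorem nf99_comap_eq (α β : B' →+* B) (s w : B →+* B) (s' : B' →+* B') (q : ℕ) (hq : q ≠ 0)
    (P₁ P₂ : Ideal B)
    (hsα : ∀ b', s (α b') = α (s' b')) (hwα : ∀ b', w (α b') = β b')
    (hsw : ∀ b, s (w b) = w (s b)) (hww : ∀ b, w (w b) = b)
    (hsP : ∀ b, b ∈ P₁ → s b ∈ P₁) (hwP : ∀ b, b ∈ P₁ → w b ∈ P₂)
    (hsurj : ∀ b : B, ∃ b' : B', b - α b' ∈ P₁)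
    (hK : ∀ b' : B', β (s' b') - (α b') ^ q ∈ P₁)
    (n : Ideal B) [n.IsPrime] (h₁ : P₁ ≤ n) (h₂ : P₂ ≤ n) :
    n.comap s = n.comap w := by
  ext b
  exact nf99_s_iff_w α β s w s' q hq P₁ P₂ hsα hwα hsw hww hsP hwP hsurj hK n h₁ h₂ b

/-- **`s⁻² n = n` at a node**: `s (s b) ∈ n ↔ b ∈ n`. -/
theorem nf99_ss_iff (α β : B' →+* B) (s w : B →+* B) (s' : B' →+* B') (q : ℕ) (hq : q ≠ 0)
    (P₁ P₂ : Ideal B)
    (hsα : ∀ b', s (α b') = α (s' b')) (hwα : ∀ b', w (α b') = β b')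
    (hsw : ∀ b, s (w b) = w (s b)) (hww : ∀ b, w (w b) = b)
    (hsP : ∀ b, b ∈ P₁ → s b ∈ P₁) (hwP : ∀ b, b ∈ P₁ → w b ∈ P₂)
    (hsurj : ∀ b : B, ∃ b' : B', b - α b' ∈ P₁)
    (hK : ∀ b' : B', β (s' b') - (α b') ^ q ∈ P₁)
    (n : Ideal B) [n.IsPrime] (h₁ : P₁ ≤ n) (h₂ : P₂ ≤ n) (b : B) :
    s (s b) ∈ n ↔ b ∈ n := by
  rw [nf99_s_iff_w α β s w s' q hq P₁ P₂ hsα hwα hsw hww hsP hwP hsurj hK n h₁ h₂ (s b)]
  exact nf99_ws_iff α β s w s' q hq P₁ P₂ hsα hwα hsP hwP hsurj hK n h₁ h₂ b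

/-- `s⁻² n = n` at a node, as an equality of ideals. -/
theorem nf99_comap_ss (α β : B' →+* B) (s w : B →+* B) (s' : B' →+* B') (q : ℕ) (hq : q ≠ 0)
    (P₁ P₂ : Ideal B)
    (hsα : ∀ b', s (α b') = α (s' b')) (hwα : ∀ b', w (α b') = β b')
    (hsw : ∀ b, s (w b) = w (s b)) (hww : ∀ b, w (w b) = b)
    (hsP : ∀ b, b ∈ P₁ → s b ∈ P₁) (hwP : ∀ b, b ∈ P₁ → w b ∈ P₂)
    (hsurj : ∀ b : B, ∃ b' : B', b - α b' ∈ P₁)
    (hK : ∀ b' : B', β (s' b') - (α b') ^ q ∈ P₁)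
    (n : Ideal B) [n.IsPrime] (h₁ : P₁ ≤ n) (h₂ : P₂ ≤ n) :
    (n.comap s).comap s = n := by
  ext b
  exact nf99_ss_iff α β s w s' q hq P₁ P₂ hsα hwα hsw hww hsP hwP hsurj hK n h₁ h₂ b

/-- **`(K)` at a node**: `s b ≡ (w b)^q` modulo a prime containing both vertical ideals. -/
theorem nf99_K (α β : B' →+* B) (s w : B →+* B) (s' : B' →+* B') (q : ℕ)
    (P₁ P₂ : Ideal B)
    (hsα : ∀ b', s (α b') = α (s' b')) (hwα : ∀ b', w (α b') = β b')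
    (hwβ : ∀ b', w (β b') = α b')
    (hsP : ∀ b, b ∈ P₁ → s b ∈ P₁) (hwP : ∀ b, b ∈ P₁ → w b ∈ P₂)
    (hsurj : ∀ b : B, ∃ b' : B', b - α b' ∈ P₁)
    (hK : ∀ b' : B', β (s' b') - (α b') ^ q ∈ P₁)
    (n : Ideal B) (h₁ : P₁ ≤ n) (h₂ : P₂ ≤ n) (b : B) :
    s b - (w b) ^ q ∈ n := by
  obtain ⟨b', hb⟩ := hsurj b
  have h1 : s b - α (s' b') ∈ n := by
    have h := h₁ (hsP _ hb)
    rwa [map_sub, hsα] at h
  have h2 : w b - β b' ∈ n := by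
    have h := h₂ (hwP _ hb)
    rwa [map_sub, hwα] at h
  have h3 : α (s' b') - (β b') ^ q ∈ n :=
    h₂ (nf99_K_zero α β w s' q P₁ P₂ hwα hwβ hwP hK b')
  rw [← Ideal.Quotient.eq] at h1 h2 h3 ⊢
  rw [h1, h3, map_pow, map_pow, h2]

end nf99

end Fermat.Agent.S35
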