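import Mathlib
import Fermat.Agent.S35.NodeFN93
import Fermat.Agent.S35.NodeDatum14
import Fermat.Agent.S35.SmoothDatumInst89
import Fermat.Agent.S34.PkgFrameTransv66
import Fermat.Agent.S34.UVAtFrame22

/-!
# S35 lab, row 568 carve-off (helper93): the node clause on the canonical frame

`nd14_hNode_LP` (helper14, row 547) bound to the canonical frame data of `Iface47c`, in the
LITERAL binder block of `s35i62_Core` (`R K : Type`, `[NumberField K]`, `hunit`, `hqR`, `σ` with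
`hσ : s35i62_Frobenial R q σ`), for an admissible Hauptmodul `h` and a chart
`B = pk15_chart R {h}` or `B = pk15_chart R {h⁻¹}`; `ŝ := s34i47_coeffEquiv σ (M' * q)`,
`V_∞ = cm85_Vinf`, `V_0 = s34i47c_V0`, `W = s34i47c_W`.

* `ni93_tau` : `ŝ ∘ ŝ` preserves `V_∞`, `V_0`, `π V_∞`, `π V_0`;
* `ni93_hNode` : **the node clause**.  If `f ≡ k₁` modulo `π V_∞` and `f ≡ k₂` modulo `π V_0` with
  `k₁, k₂` units of `R`, and at every closed point `n` of the special fibre of `B` lying on both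
  branches `f` has a root `c` (a unit of `V_∞` and of `V_0` with `f / c ^ m` a unit of every
  horizontal `O` through `n`), then at every such `n` there is `φ ≡ 1` modulo `π W` with
  `φ ^ m * (ŝ (ŝ f) / f ^ (q ^ 2))` a unit-multiple of an element of `B` at `n`
  (= the literal `hNode` of `sd89c_localDatum` for `u := ŝ (ŝ f) / f ^ (q ^ 2)`);
* `ni93_localDatum` : with `u ≡ 1` modulo `π W` and `s34i47_LocPrin π m B u`:
  `s34i47_LocalDatum π m W B u`, `u := ŝ (ŝ f) / f ^ (q ^ 2)`.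

All names are prefixed `ni93_`.
-/

set_option autoImplicit false
set_option linter.unusedSectionVars false
set_option linter.unusedVariables false
set_option linter.style.longLine false
set_option linter.style.haveILetI false

open ModularCurve AlgebraicCurve

namespace Fermat.Agent.S35

open Fermat.Agent.S18 Fermat.Agent.S34

local notation "Q̄" => AlgebraicClosure ℚ

section ni93

variable (M' q : ℕ) [NeZero M'] [NeZero q] (hq : q.Prime) (hM' : ¬ q ∣ M')
  (R K : Type) [CommRing R] [IsDomain R] [IsDiscreteValuationRing R] [Field K] [NumberField K]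
  [Algebra K Q̄] [Algebra R K] [IsFractionRing R K]
  [Algebra R ↥(modularFunctionFieldFullC K (M' * q))]
  [IsScalarTower R K ↥(modularFunctionFieldFullC K (M' * q))]

include hq hM' in
/-- `ŝ` preserves `π V_∞` and `π V_0`. -/
theorem ni93_pi (π : R) (hπ : Irreducible π) (σ : K ≃+* K) (hσ : s35i62_Frobenial R q σ) :
    (∀ x : ↥(modularFunctionFieldFullC K (M' * q)),
      (algebraMap R ↥(modularFunctionFieldFullC K (M' * q)) π)⁻¹ * x ∈
        (cm85_Vinf (K := K) (M' * q) hπ).toSubring →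
      (algebraMap R ↥(modularFunctionFieldFullC K (M' * q)) π)⁻¹ *
        s34i47_coeffEquiv σ (M' * q) x ∈ (cm85_Vinf (K := K) (M' * q) hπ).toSubring) ∧
    (∀ x : ↥(modularFunctionFieldFullC K (M' * q)),
      (algebraMap R ↥(modularFunctionFieldFullC K (M' * q)) π)⁻¹ * x ∈
        (s34i47c_V0 (K := K) M' q hq hM' hπ).toSubring →
      (algebraMap R ↥(modularFunctionFieldFullC K (M' * q)) π)⁻¹ *
        s34i47_coeffEquiv σ (M' * q) x ∈ (s34i47c_V0 (K := K) M' q hq hM' hπ).toSubring) := by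
  have h1 : ∀ x : ↥(modularFunctionFieldFullC K (M' * q)),
      (algebraMap R ↥(modularFunctionFieldFullC K (M' * q)) π)⁻¹ * x ∈
        cm85_Vinf (K := K) (M' * q) hπ →
      (algebraMap R ↥(modularFunctionFieldFullC K (M' * q)) π)⁻¹ *
        s34i47_coeffEquiv σ (M' * q) x ∈ cm85_Vinf (K := K) (M' * q) hπ :=
    fun x hx => fn93_coeff_pi_mem (K := K) (M' * q) hπ q hq.ne_zero σ (ff50_sigmaR σ hσ)
      (ff50_sigmaR_spec σ hσ) (fn93c_dvd q R K hπ σ hσ) x hx
  refine ⟨h1, fun x hx => ?_⟩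
  have hx' : (algebraMap R ↥(modularFunctionFieldFullC K (M' * q)) π)⁻¹ *
      al97L_w (algebraMap K Q̄) M' q hq hM' x ∈ cm85_Vinf (K := K) (M' * q) hπ := by
    have h2 : al97L_w (algebraMap K Q̄) M' q hq hM'
        ((algebraMap R ↥(modularFunctionFieldFullC K (M' * q)) π)⁻¹ * x) ∈
          cm85_Vinf (K := K) (M' * q) hπ := hx
    rwa [map_mul, map_inv₀, in87g_w_algebraMap] at h2
  have h3 := h1 _ hx'
  show al97L_w (algebraMap K Q̄) M' q hq hM'
      ((algebraMap R ↥(modularFunctionFieldFullC K (M' * q)) π)⁻¹ *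
        s34i47_coeffEquiv σ (M' * q) x) ∈ cm85_Vinf (K := K) (M' * q) hπ
  rw [map_mul, map_inv₀, in87g_w_algebraMap, in87g_w_comm]
  exact h3

include hq hM' in
/-- `τ := ŝ ∘ ŝ` preserves `V_∞`, `V_0`, `π V_∞`, `π V_0` (the `τ`-hypotheses of
`nd14_hNode_LP`). -/
theorem ni93_tau (π : R) (hπ : Irreducible π) (σ : K ≃+* K) (hσ : s35i62_Frobenial R q σ) :
    (∀ x ∈ (cm85_Vinf (K := K) (M' * q) hπ).toSubring,
      s34i47_coeffEquiv σ (M' * q) (s34i47_coeffEquiv σ (M' * q) x) ∈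
        (cm85_Vinf (K := K) (M' * q) hπ).toSubring) ∧
    (∀ x ∈ (s34i47c_V0 (K := K) M' q hq hM' hπ).toSubring,
      s34i47_coeffEquiv σ (M' * q) (s34i47_coeffEquiv σ (M' * q) x) ∈
        (s34i47c_V0 (K := K) M' q hq hM' hπ).toSubring) ∧
    (∀ x : ↥(modularFunctionFieldFullC K (M' * q)),
      (algebraMap R ↥(modularFunctionFieldFullC K (M' * q)) π)⁻¹ * x ∈
        (cm85_Vinf (K := K) (M' * q) hπ).toSubring →
      (algebraMap R ↥(modularFunctionFieldFullC K (M' * q)) π)⁻¹ *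
        s34i47_coeffEquiv σ (M' * q) (s34i47_coeffEquiv σ (M' * q) x) ∈
          (cm85_Vinf (K := K) (M' * q) hπ).toSubring) ∧
    (∀ x : ↥(modularFunctionFieldFullC K (M' * q)),
      (algebraMap R ↥(modularFunctionFieldFullC K (M' * q)) π)⁻¹ * x ∈
        (s34i47c_V0 (K := K) M' q hq hM' hπ).toSubring →
      (algebraMap R ↥(modularFunctionFieldFullC K (M' * q)) π)⁻¹ *
        s34i47_coeffEquiv σ (M' * q) (s34i47_coeffEquiv σ (M' * q) x) ∈
          (s34i47c_V0 (K := K) M' q hq hM' hπ).toSubring) := by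
  have hσ' : ff50_Frob R q σ := hσ
  obtain ⟨hp₁, hp₂⟩ := ni93_pi M' q hq hM' R K π hπ σ hσ
  have hV₁ : ∀ x ∈ (cm85_Vinf (K := K) (M' * q) hπ).toSubring,
      s34i47_coeffEquiv σ (M' * q) x ∈ (cm85_Vinf (K := K) (M' * q) hπ).toSubring :=
    fun x hx => ff50_mem_Vinf (M' * q) hq.ne_zero hπ σ hσ' x hx
  have hV₂ : ∀ x ∈ (s34i47c_V0 (K := K) M' q hq hM' hπ).toSubring,
      s34i47_coeffEquiv σ (M' * q) x ∈ (s34i47c_V0 (K := K) M' q hq hM' hπ).toSubring :=
    fun x hx => ff50_mem_V0 M' q hq hM' hπ σ hσ' x hx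
  exact ⟨fun x hx => hV₁ _ (hV₁ x hx), fun x hx => hV₂ _ (hV₂ x hx),
    fun x hx => hp₁ _ (hp₁ x hx), fun x hx => hp₂ _ (hp₂ x hx)⟩

include hq hM' in
/-- **The node clause on the canonical frame** (binding of `nd14_hNode_LP`): the literal `hNode`
hypothesis of `sd89c_localDatum` for `u := ŝ (ŝ f) / f ^ (q ^ 2)`. -/
theorem ni93_hNode (π : R) (hπ : Irreducible π)
    (hunit : ∀ n : ℕ, Nat.Coprime n q → IsUnit (n : R)) (hqR : ¬ IsUnit (q : R))
    (σ : K ≃+* K) (hσ : s35i62_Frobenial R q σ)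
    (h : ↥(modularFunctionFieldFullC K (M' * q))) (hh : s34i47c_IsHaupt K (M' * q) q h)
    (B : Subalgebra R ↥(modularFunctionFieldFullC K (M' * q)))
    (hB : B = pk15_chart R ({h} : Set ↥(modularFunctionFieldFullC K (M' * q))) ∨
      B = pk15_chart R ({h⁻¹} : Set ↥(modularFunctionFieldFullC K (M' * q))))
    (m : ℕ) (hm : 0 < m)
    (f : ↥(modularFunctionFieldFullC K (M' * q))) (hf0 : f ≠ 0)
    (k₁ k₂ : R) (hk₁ : IsUnit k₁) (hk₂ : IsUnit k₂)
    (hf₁ : (algebraMap R ↥(modularFunctionFieldFullC K (M' * q)) π)⁻¹ *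
      (f - algebraMap R ↥(modularFunctionFieldFullC K (M' * q)) k₁) ∈
        (cm85_Vinf (K := K) (M' * q) hπ).toSubring)
    (hf₂ : (algebraMap R ↥(modularFunctionFieldFullC K (M' * q)) π)⁻¹ *
      (f - algebraMap R ↥(modularFunctionFieldFullC K (M' * q)) k₂) ∈
        (s34i47c_V0 (K := K) M' q hq hM' hπ).toSubring)
    (hRoot : ∀ n : Ideal B, n.IsMaximal → algebraMap R B π ∈ n →
      sf79_OnBr π B (cm85_Vinf (K := K) (M' * q) hπ).toSubring n →
      sf79_OnBr π B (s34i47c_V0 (K := K) M' q hq hM' hπ).toSubring n →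
      ∃ c : ↥(modularFunctionFieldFullC K (M' * q)), c ≠ 0 ∧
        c ∈ (cm85_Vinf (K := K) (M' * q) hπ).toSubring ∧
        c⁻¹ ∈ (cm85_Vinf (K := K) (M' * q) hπ).toSubring ∧
        c ∈ (s34i47c_V0 (K := K) M' q hq hM' hπ).toSubring ∧
        c⁻¹ ∈ (s34i47c_V0 (K := K) M' q hq hM' hπ).toSubring ∧
        ∀ O : ValuationSubring ↥(modularFunctionFieldFullC K (M' * q)),
          s34i47_IsHoriz π O → s34i47_Through B n O → f / c ^ m ∈ O ∧ c ^ m / f ∈ O) :
    ∀ n : Ideal B, n.IsMaximal → algebraMap R B π ∈ n →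
      sf79_OnBr π B (cm85_Vinf (K := K) (M' * q) hπ).toSubring n →
      sf79_OnBr π B (s34i47c_V0 (K := K) M' q hq hM' hπ).toSubring n →
      ∃ φ : ↥(modularFunctionFieldFullC K (M' * q)),
        (algebraMap R ↥(modularFunctionFieldFullC K (M' * q)) π)⁻¹ * (φ - 1) ∈
          s34i47c_W (K := K) M' q hq hM' hπ ∧
        ∃ s : B, s ∉ n ∧ (s : ↥(modularFunctionFieldFullC K (M' * q))) *
          (φ ^ m * (s34i47_coeffEquiv σ (M' * q) (s34i47_coeffEquiv σ (M' * q) f) /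
            f ^ (q ^ 2))) ∈ B := by
  obtain ⟨hN, hBW, hsatW, hFrac, hKr, hS₁, hS₂⟩ :=
    sd89c_chart_facts M' q hq hM' hπ hunit hqR h hh B hB
  haveI := hN
  obtain ⟨hT₁, hT₂⟩ := tv66_pkg_frameTransv M' q hq hM' R K π hπ hunit hqR h hh
  obtain ⟨hUV₁, hUV₂⟩ := uvf22_UVAt (R := R) (K := K) M' q hq hM' hπ hunit hqR h hh
  have hT : sf79_Transv π B (cm85_Vinf (K := K) (M' * q) hπ).toSubring
      (s34i47c_V0 (K := K) M' q hq hM' hπ).toSubring := by
    rcases hB with rfl | rfl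
    · exact hT₁
    · exact hT₂
  have hUV : sf79_UVAt π B (cm85_Vinf (K := K) (M' * q) hπ).toSubring
      (s34i47c_V0 (K := K) M' q hq hM' hπ).toSubring := by
    rcases hB with rfl | rfl
    · exact hUV₁
    · exact hUV₂
  obtain ⟨hτV₁, hτV₂, hτ₁, hτ₂⟩ := ni93_tau M' q hq hM' R K π hπ σ hσ
  exact nd14_hNode_LP π m hm B
    (cm85_Vinf (K := K) (M' * q) hπ).toSubring (s34i47c_V0 (K := K) M' q hq hM' hπ).toSubring
    (s34i47c_W (K := K) M' q hq hM' hπ)
    (fun x h1 h2 => (s34i47c_mem_W M' q hq hM' hπ x).mpr ⟨h1, h2⟩)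
    (fun x hx => ((s34i47c_mem_W M' q hq hM' hπ x).mp (hBW x hx)).1)
    (fun x hx => ((s34i47c_mem_W M' q hq hM' hπ x).mp (hBW x hx)).2)
    (fl7_pi_inv_not_mem_Vinf M' q hπ) (fl7_pi_inv_not_mem_V0 M' q hq hM' hπ)
    (fl7_hmax_Vinf M' q hπ) (fl7_hmax_V0 M' q hq hM' hπ)
    (fun x hx h1 h2 => hsatW x hx ((s34i47c_mem_W M' q hq hM' hπ _).mpr ⟨h1, h2⟩))
    hFrac
    (fun x _ hx0 => wi18_arch (M' * q) hπ x hx0)
    (fun x _ hx0 => tv66_arch_V0 M' q hq hM' hπ x hx0)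
    hKr hS₁ hS₂ hT hUV
    ((s34i47_coeffEquiv σ (M' * q) : ↥(modularFunctionFieldFullC K (M' * q)) →+*
        ↥(modularFunctionFieldFullC K (M' * q))).comp
      (s34i47_coeffEquiv σ (M' * q) : ↥(modularFunctionFieldFullC K (M' * q)) →+*
        ↥(modularFunctionFieldFullC K (M' * q))))
    (q ^ 2) hτV₁ hτV₂ hτ₁ hτ₂ f hf0 k₁ k₂ hk₁ hk₂ hf₁ hf₂
    (fun n hn hπn h1 h2 =>
      ⟨fn93c_FN M' q hq hM' R K π hπ hunit hqR σ hσ h hh B hB n hn.isPrime h1 h2,
        hRoot n hn hπn h1 h2⟩)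

include hq hM' in
/-- **`s34i47_LocalDatum` for `u := ŝ (ŝ f) / f ^ (q ^ 2)` on both charts of the canonical
frame**, from `u ≡ 1` modulo `π W`, (LP) for `u`, the constant reductions of `f` and the roots of
`f` at the nodes. -/
theorem ni93_localDatum (π : R) (hπ : Irreducible π)
    (hunit : ∀ n : ℕ, Nat.Coprime n q → IsUnit (n : R)) (hqR : ¬ IsUnit (q : R))
    (σ : K ≃+* K) (hσ : s35i62_Frobenial R q σ)
    (h : ↥(modularFunctionFieldFullC K (M' * q))) (hh : s34i47c_IsHaupt K (M' * q) q h)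
    (B : Subalgebra R ↥(modularFunctionFieldFullC K (M' * q)))
    (hB : B = pk15_chart R ({h} : Set ↥(modularFunctionFieldFullC K (M' * q))) ∨
      B = pk15_chart R ({h⁻¹} : Set ↥(modularFunctionFieldFullC K (M' * q))))
    (m : ℕ) (hm : 0 < m)
    (f : ↥(modularFunctionFieldFullC K (M' * q))) (hf0 : f ≠ 0)
    (k₁ k₂ : R) (hk₁ : IsUnit k₁) (hk₂ : IsUnit k₂)
    (hf₁ : (algebraMap R ↥(modularFunctionFieldFullC K (M' * q)) π)⁻¹ *
      (f - algebraMap R ↥(modularFunctionFieldFullC K (M' * q)) k₁) ∈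
        (cm85_Vinf (K := K) (M' * q) hπ).toSubring)
    (hf₂ : (algebraMap R ↥(modularFunctionFieldFullC K (M' * q)) π)⁻¹ *
      (f - algebraMap R ↥(modularFunctionFieldFullC K (M' * q)) k₂) ∈
        (s34i47c_V0 (K := K) M' q hq hM' hπ).toSubring)
    (hRoot : ∀ n : Ideal B, n.IsMaximal → algebraMap R B π ∈ n →
      sf79_OnBr π B (cm85_Vinf (K := K) (M' * q) hπ).toSubring n →
      sf79_OnBr π B (s34i47c_V0 (K := K) M' q hq hM' hπ).toSubring n →
      ∃ c : ↥(modularFunctionFieldFullC K (M' * q)), c ≠ 0 ∧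
        c ∈ (cm85_Vinf (K := K) (M' * q) hπ).toSubring ∧
        c⁻¹ ∈ (cm85_Vinf (K := K) (M' * q) hπ).toSubring ∧
        c ∈ (s34i47c_V0 (K := K) M' q hq hM' hπ).toSubring ∧
        c⁻¹ ∈ (s34i47c_V0 (K := K) M' q hq hM' hπ).toSubring ∧
        ∀ O : ValuationSubring ↥(modularFunctionFieldFullC K (M' * q)),
          s34i47_IsHoriz π O → s34i47_Through B n O → f / c ^ m ∈ O ∧ c ^ m / f ∈ O)
    (hu : (algebraMap R ↥(modularFunctionFieldFullC K (M' * q)) π)⁻¹ *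
      (s34i47_coeffEquiv σ (M' * q) (s34i47_coeffEquiv σ (M' * q) f) / f ^ (q ^ 2) - 1) ∈
        s34i47c_W (K := K) M' q hq hM' hπ)
    (hLP : s34i47_LocPrin π m B
      (s34i47_coeffEquiv σ (M' * q) (s34i47_coeffEquiv σ (M' * q) f) / f ^ (q ^ 2))) :
    s34i47_LocalDatum π m (s34i47c_W (K := K) M' q hq hM' hπ) B
      (s34i47_coeffEquiv σ (M' * q) (s34i47_coeffEquiv σ (M' * q) f) / f ^ (q ^ 2)) :=
  sd89c_localDatum M' q hq hM' hπ hunit hqR h hh B hB m hm _ hu hLP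
    (ni93_hNode M' q hq hM' R K π hπ hunit hqR σ hσ h hh B hB m hm f hf0 k₁ k₂ hk₁ hk₂ hf₁ hf₂
      hRoot)

end ni93

end Fermat.Agent.S35
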