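import Mathlib
import Fermat.Agent.S34.Iface47
import Fermat.Agent.S34.UniqueZero43

/-!
# S35 lab, row L1d-node, VARIANT 1 (helper43): the local shape of a toric function at a node

Abstract (Mathlib + `Iface47` + `UniqueZero43`).  `R` a discrete valuation ring with uniformiser
`π` and fraction field `K`, `F ⊇ K` a field, `B ⊆ F` a noetherian chart with fraction field `F`,
`V₁` (`= V_∞`), `V₂` (`= V_0`) two valuation rings of `F` containing `B` with maximal ideals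
`π V₁`, `π V₂`, `B` saturated in `V₁ ⊓ V₂`, `n ∋ π` a NODE of `B` (a maximal ideal containing both
branches `B ∩ π V₁`, `B ∩ π V₂`) with labelled good coordinates `z, z'` (`s z z' = π ^ κ s'`,
`π⁻¹ z ∉ V₁`, `π⁻¹ z' ∉ V₂`: the node clause of `nl79_LocStr`) and the Krull property at `n`.

* `ns43_node_unif` : a `K`-rational horizontal `O` through `n` has the unique-zero uniformiser
  `z - a`, `a ∈ π R` the value of `z` at `O`, and `r_s a b = π ^ κ r_{s'}` with `b ∈ π R`.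
* `ns43_ord` : orders at a uniformiser.
* `ns43_U` : the subgroup `1 + π V` of `Fˣ`;  `ns43_cong_mul`, `ns43_cong_inv`, `ns43_cong_pow`,
  `ns43_cong_val` : congruences to constants modulo `π V`.
* `ns43_reg` : regular along the horizontals through `n` and along `V₂`, congruent to a unit
  constant along `V₁`  ⟹  unit of `B_n` (Krull + saturation).
* `ns43_balance` : the balancing contradiction.
* `ns43_node_data` : the data `(a_O, k_O)` of a zero or pole `O` of `f` through `n`.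
* `ns43_node_shape` : **(1d), node case.**  If `f ≠ 0` has all horizontal orders divisible by
  `m`, `K`-rational finitely many zeros and poles, and CONSTANT reductions `c₁`, `c₂` (units of
  `R`) at `V₁`, `V₂`, then `f = ε ψ ^ m` with `ε` a unit of `B_n` (`t ε = t'`, `t, t' ∉ n`),
  `ψ ≡ 1 mod π V₁` and `ψ ≡ l mod π V₂` for a unit CONSTANT `l ∈ Rˣ`
  (`ψ = ∏ (1 - a_O / z) ^ k_O` over the zeros and poles `O` of `f` through `n`; the constancy of
  the reduction along `V₂` forces `∑ k_O = 0`).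

All names are prefixed `ns43_`.
-/

set_option autoImplicit false

namespace Fermat.Agent.S35

open Fermat.Agent.S34

section ns43_unif

/-- **The unique-zero uniformiser at a node**, with its constants. -/
theorem ns43_node_unif (K : Type*) {R F : Type*} [CommRing R] [IsDomain R]
    [IsDiscreteValuationRing R] [Field K] [Field F] [Algebra R K] [IsFractionRing R K]
    [Algebra R F] [Algebra K F] [IsScalarTower R K F] (π : R) (hπ : Irreducible π)
    (B : Subalgebra R F) [IsNoetherianRing B]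
    (hfrac : ∀ x : F, ∃ a ∈ B, ∃ b ∈ B, b ≠ 0 ∧ x * b = a)
    (n : Ideal B) (hn : n.IsMaximal) (hπn : algebraMap R B π ∈ n)
    (z z' : B) (hz : z ∈ n) (hz' : z' ∈ n)
    (hgen : ∀ x ∈ n, ∃ s : B, s ∉ n ∧
      ∃ a b c : B, s * x = a * z + b * z' + c * algebraMap R B π)
    (κ : ℕ) (s s' : B) (hs : s ∉ n) (hs' : s' ∉ n)
    (hrel : s * z * z' = algebraMap R B π ^ κ * s')
    (O : ValuationSubring F) (hH : s34i47_IsHoriz π O) (hT : s34i47_Through B n O)
    (hRat : s34i47_IsRat K O) :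
    ∃ a b rs rs' : R, π ∣ a ∧ π ∣ b ∧ IsUnit rs' ∧ rs * a * b = π ^ κ * rs' ∧ a ≠ 0 ∧
      ((z : F) - algebraMap R F a) ≠ 0 ∧ ((z : F) - algebraMap R F a) ∈ O ∧
      ((z : F) - algebraMap R F a)⁻¹ ∉ O ∧
      (∀ x ∈ O, x⁻¹ ∉ O → x * ((z : F) - algebraMap R F a)⁻¹ ∈ O) ∧
      ∀ O' : ValuationSubring F, s34i47_IsHoriz π O' → s34i47_Through B n O' → O' ≠ O →
        ((z : F) - algebraMap R F a) ∈ O' ∧ ((z : F) - algebraMap R F a)⁻¹ ∈ O' := by
  obtain ⟨hOtop, hPIR, hRO, hπO⟩ := hH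
  have hconst : ∀ r : R, r ≠ 0 → O.valuation (algebraMap R F r) = 1 :=
    fun r hr => uz43_val_const K π hπ O hRO hπO r hr
  have hπ1 : O.valuation (algebraMap R F π) = 1 := hconst π hπ.ne_zero
  have hval : ∀ x : B, ∃ r : R, O.valuation ((x : F) - algebraMap R F r) < 1 :=
    uz43_value K π hπ B n hn hπn O hRO hT hRat
  have hleO : ∀ x : B, O.valuation (x : F) ≤ 1 := uz43_le_one B n O hT
  have hconst_le : ∀ r : R, O.valuation (algebraMap R F r) ≤ 1 :=
    fun r => (O.valuation_le_one_iff _).mpr (hRO r)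
  have hconst_n : ∀ r : R, algebraMap R B r ∈ n → π ∣ r := by
    intro r hr
    by_contra hnd
    have hru : IsUnit r := by
      by_contra hnu
      have h1 : r ∈ IsLocalRing.maximalIdeal R := (IsLocalRing.mem_maximalIdeal r).mpr hnu
      rw [hπ.maximalIdeal_eq, Ideal.mem_span_singleton] at h1
      exact hnd h1
    exact hn.ne_top (Ideal.eq_top_of_isUnit_mem _ hr (hru.map _))
  have hdvd : ∀ (x : B) (r : R), x ∈ n → O.valuation ((x : F) - algebraMap R F r) < 1 →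
      π ∣ r := by
    intro x r hx hr
    have h1 : x - algebraMap R B r ∈ n := uz43_mem_of_lt_one B n O hT _ hr
    have h2 : algebraMap R B r ∈ n := by
      have h3 := n.sub_mem hx h1
      rw [sub_sub_cancel] at h3
      exact h3
    exact hconst_n r h2
  obtain ⟨a, ha⟩ := hval z
  obtain ⟨a₁, rfl⟩ := hdvd z a hz ha
  obtain ⟨b, hb⟩ := hval z'
  obtain ⟨b₁, rfl⟩ := hdvd z' b hz' hb
  obtain ⟨r₀, hr₀, hK⟩ := uz43_nakayama π B n hn hπn O hT hπ1 z z' hgen a₁ b₁ ha hb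
  obtain ⟨rs, hrs⟩ := hval s
  obtain ⟨rs', hrs'⟩ := hval s'
  have hrs'n : algebraMap R B rs' ∉ n := by
    intro h
    apply hs'
    have h1 : s' - algebraMap R B rs' ∈ n := uz43_mem_of_lt_one B n O hT _ hrs'
    have h2 := n.add_mem h1 h
    rw [sub_add_cancel] at h2
    exact h2
  have hrs'u : IsUnit rs' := by
    by_contra hnu
    have h1 : rs' ∈ IsLocalRing.maximalIdeal R := (IsLocalRing.mem_maximalIdeal rs').mpr hnu
    rw [hπ.maximalIdeal_eq, Ideal.mem_span_singleton] at h1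
    obtain ⟨c, rfl⟩ := h1
    apply hrs'n
    rw [map_mul]
    exact n.mul_mem_right _ hπn
  have hrelF : (s : F) * (z : F) * (z' : F) = algebraMap R F π ^ κ * (s' : F) :=
    congrArg Subtype.val hrel
  have h2R : rs * (π * a₁) * (π * b₁) = π ^ κ * rs' := by
    by_contra hne
    have h0 : rs * (π * a₁) * (π * b₁) - π ^ κ * rs' ≠ 0 := sub_ne_zero.mpr hne
    have h1 := hconst _ h0
    have e : algebraMap R F (rs * (π * a₁) * (π * b₁) - π ^ κ * rs') =
        algebraMap R F (π ^ κ) * ((s' : F) - algebraMap R F rs') -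
          ((s : F) - algebraMap R F rs) * ((z : F) * (z' : F)) -
          algebraMap R F rs * (z' : F) * ((z : F) - algebraMap R F (π * a₁)) -
          algebraMap R F (rs * (π * a₁)) * ((z' : F) - algebraMap R F (π * b₁)) := by
      simp only [map_sub, map_mul, map_pow]
      linear_combination hrelF
    have h3 : O.valuation (algebraMap R F (rs * (π * a₁) * (π * b₁) - π ^ κ * rs')) < 1 := by
      rw [e]
      refine O.valuation.map_sub_lt (O.valuation.map_sub_lt (O.valuation.map_sub_lt ?_ ?_) ?_) ?_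
      · exact uz43_mul_lt_one' O _ _ (hconst_le _) hrs'
      · refine uz43_mul_lt_one O _ _ hrs ?_
        rw [map_mul]
        exact mul_le_one' (hleO z) (hleO z')
      · refine uz43_mul_lt_one' O _ _ ?_ ha
        rw [map_mul]
        exact mul_le_one' (hconst_le _) (hleO z')
      · exact uz43_mul_lt_one' O _ _ (hconst_le _) hb
    rw [h1] at h3
    exact lt_irrefl _ h3
  have h2B : algebraMap R B rs * algebraMap R B (π * a₁) * algebraMap R B (π * b₁) =
      algebraMap R B π ^ κ * algebraMap R B rs' := by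
    rw [← map_mul, ← map_mul, ← map_pow, ← map_mul, h2R]
  obtain ⟨A₁, C₁, h3⟩ := hK (s - algebraMap R B rs) hrs
  obtain ⟨A₂, C₂, h4⟩ := hK (s' - algebraMap R B rs') hrs'
  have ha0 : π * a₁ ≠ 0 := by
    intro h0
    rw [h0, mul_zero, zero_mul] at h2R
    have h5 : rs' = 0 := by
      rcases mul_eq_zero.mp h2R.symm with h | h
      · exact absurd h (pow_ne_zero _ hπ.ne_zero)
      · exact h
    apply hrs'n
    rw [h5, map_zero]
    exact n.zero_mem
  set w₀ : B := algebraMap R B rs' * r₀ * s +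
    algebraMap R B (π * b₁) * (algebraMap R B rs' * C₁ - algebraMap R B rs * C₂) with hw₀
  have hw₀n : w₀ ∉ n := by
    intro h
    have h5 : algebraMap R B (π * b₁) * (algebraMap R B rs' * C₁ - algebraMap R B rs * C₂) ∈ n := by
      rw [map_mul, mul_assoc]
      exact n.mul_mem_right _ hπn
    have h6 : algebraMap R B rs' * r₀ * s ∈ n := by
      have h7 := n.sub_mem h h5
      rw [hw₀, add_sub_cancel_right] at h7
      exact h7
    rcases hn.isPrime.mem_or_mem h6 with h7 | h7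
    · rcases hn.isPrime.mem_or_mem h7 with h8 | h8
      · exact hrs'n h8
      · exact hr₀ h8
    · exact hs h7
  have hrelB : algebraMap R B (π * a₁) * w₀ * (z' - algebraMap R B (π * b₁)) =
      (-(algebraMap R B rs' * (algebraMap R B (π * a₁) * algebraMap R B (π * b₁) * A₁ +
        r₀ * s * z' - algebraMap R B π ^ κ * A₂))) * (z - algebraMap R B (π * a₁)) := by
    rw [hw₀]
    linear_combination (algebraMap R B rs' * r₀) * hrel -
      (algebraMap R B rs' * algebraMap R B (π * a₁) * algebraMap R B (π * b₁)) * h3 -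
      (algebraMap R B rs' * r₀ + (z' - algebraMap R B (π * b₁)) * C₂) * h2B +
      (algebraMap R B rs' * algebraMap R B π ^ κ) * h4
  obtain ⟨h1, h2, h3', h4', h5⟩ := uz43_final B hfrac n O hOtop hPIR hT hval hconst
    (z - algebraMap R B (π * a₁)) (z' - algebraMap R B (π * b₁)) ha r₀ hr₀ hK
    (π * a₁) ha0 w₀ _ hw₀n hrelB
  refine ⟨π * a₁, π * b₁, rs, rs', dvd_mul_right _ _, dvd_mul_right _ _, hrs'u, h2R, ha0,
    h1, h2, h3', h4', ?_⟩
  intro O' hH' hT' hne
  exact h5 O' hT' (fun r hr => uz43_val_const K π hπ O' hH'.2.2.1 hH'.2.2.2 r hr) hne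

end ns43_unif

section ns43_val

variable {F : Type*} [Field F]

/-- **Orders at a uniformiser**: the value of every `w ≠ 0` is an integral power of the value of
a uniformiser `p` of the principal valuation ring `O`. -/
theorem ns43_ord (O : ValuationSubring F) (hPIR : IsPrincipalIdealRing O) (p : F) (hp0 : p ≠ 0)
    (hp' : p⁻¹ ∉ O) (hunif : ∀ x ∈ O, x⁻¹ ∉ O → x * p⁻¹ ∈ O) (w : F) (hw : w ≠ 0) :
    ∃ k : ℤ, O.valuation w = O.valuation p ^ k := by
  have hvp0 : 0 < O.valuation p := zero_lt_iff.mpr ((Valuation.ne_zero_iff _).mpr hp0)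
  have hvp1 : O.valuation p < 1 := (uz43_lt_one_iff O p).mpr (Or.inr hp')
  have hpO : p ∈ O := (O.valuation_le_one_iff p).mp hvp1.le
  have hle : ∀ x : F, O.valuation x < 1 → O.valuation x ≤ O.valuation p := by
    intro x hx
    rcases (uz43_lt_one_iff O x).mp hx with rfl | hx'
    · simp
    · have h1 := hunif x ((O.valuation_le_one_iff x).mp hx.le) hx'
      have h2 := (O.valuation_le_one_iff _).mpr h1
      rw [map_mul, map_inv₀, mul_inv_le_iff₀ hvp0, one_mul] at h2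
      exact h2
  have key : ∀ w : F, w ≠ 0 → O.valuation w ≤ 1 →
      ∃ k : ℕ, O.valuation w = O.valuation p ^ k := by
    intro w hw hw1
    by_contra hno
    have hno' : ∀ k : ℕ, O.valuation w ≠ O.valuation p ^ k := fun k hk => hno ⟨k, hk⟩
    have hlt : ∀ k : ℕ, O.valuation w < O.valuation p ^ k := by
      intro k
      induction k with
      | zero =>
        rw [pow_zero]
        exact lt_of_le_of_ne hw1 (by simpa using hno' 0)
      | succ k ih =>
        have hpk : 0 < O.valuation p ^ k := pow_pos hvp0 k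
        have h1 : O.valuation (w * (p ^ k)⁻¹) < 1 := by
          rw [map_mul, map_inv₀, map_pow, mul_inv_lt_iff₀ hpk, one_mul]
          exact ih
        have h2 := hle _ h1
        rw [map_mul, map_inv₀, map_pow, mul_inv_le_iff₀ hpk, ← pow_succ'] at h2
        exact lt_of_le_of_ne h2 (hno' (k + 1))
    -- Krull intersection in the noetherian domain `O`
    have hwO : w ∈ O := (O.valuation_le_one_iff w).mp hw1
    set I : Ideal O := Ideal.span {(⟨p, hpO⟩ : O)} with hI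
    have hItop : I ≠ ⊤ := by
      rw [hI, Ne, Ideal.span_singleton_eq_top]
      intro hu
      obtain ⟨u, hu'⟩ := hu
      apply hp'
      have h1 : ((u⁻¹ : Oˣ) : O) * (⟨p, hpO⟩ : O) = 1 := by
        rw [← hu', Units.inv_mul]
      have h2 : (((u⁻¹ : Oˣ) : O) : F) * p = 1 := congrArg Subtype.val h1
      have h3 : p⁻¹ = (((u⁻¹ : Oˣ) : O) : F) := by
        rw [eq_comm, ← mul_one (((u⁻¹ : Oˣ) : O) : F), ← mul_inv_cancel₀ hp0, ← mul_assoc, h2,
          one_mul]
      rw [h3]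
      exact ((u⁻¹ : Oˣ) : O).2
    have hmem : ∀ k : ℕ, (⟨w, hwO⟩ : O) ∈ I ^ k := by
      intro k
      rw [hI, Ideal.span_singleton_pow, Ideal.mem_span_singleton]
      have h1 : w * (p ^ k)⁻¹ ∈ O := by
        rw [← O.valuation_le_one_iff, map_mul, map_inv₀, map_pow,
          mul_inv_le_iff₀ (pow_pos hvp0 k), one_mul]
        exact (hlt k).le
      refine ⟨⟨w * (p ^ k)⁻¹, h1⟩, ?_⟩
      apply Subtype.ext
      show w = p ^ k * (w * (p ^ k)⁻¹)
      field_simp
    have hbot : (⟨w, hwO⟩ : O) ∈ (⨅ i : ℕ, I ^ i) := by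
      rw [Ideal.mem_iInf]
      exact hmem
    rw [Ideal.iInf_pow_eq_bot_of_isDomain I hItop, Ideal.mem_bot] at hbot
    exact hw (congrArg Subtype.val hbot)
  rcases le_total (O.valuation w) 1 with h | h
  · obtain ⟨k, hk⟩ := key w hw h
    exact ⟨k, by rw [hk, zpow_natCast]⟩
  · have hw0 : 0 < O.valuation w := zero_lt_iff.mpr ((Valuation.ne_zero_iff _).mpr hw)
    have h1 : O.valuation w⁻¹ ≤ 1 := by
      rw [map_inv₀]
      exact inv_le_one_of_one_le₀ h
    obtain ⟨k, hk⟩ := key w⁻¹ (inv_ne_zero hw) h1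
    refine ⟨-(k : ℤ), ?_⟩
    rw [zpow_neg, zpow_natCast, ← hk, map_inv₀, inv_inv]

end ns43_val

section ns43_U

variable {R F : Type*} [CommRing R] [Field F] [Algebra R F]

/-- The subgroup `1 + π V` of `Fˣ`. -/
def ns43_U (π : R) (V : ValuationSubring F) (hπV : algebraMap R F π ∈ V)
    (hπ' : (algebraMap R F π)⁻¹ ∉ V) : Subgroup Fˣ where
  carrier := {u | (algebraMap R F π)⁻¹ * ((u : F) - 1) ∈ V}
  mul_mem' := by
    intro u v hu hv
    have hπ0 : algebraMap R F π ≠ 0 := by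
      intro h0
      apply hπ'
      rw [h0, inv_zero]
      exact V.zero_mem
    have hvV : (v : F) ∈ V := by
      have e : (v : F) = 1 + algebraMap R F π * ((algebraMap R F π)⁻¹ * ((v : F) - 1)) := by
        field_simp
        ring
      rw [e]
      exact V.add_mem _ _ V.one_mem (V.mul_mem _ _ hπV hv)
    show (algebraMap R F π)⁻¹ * (((u * v : Fˣ) : F) - 1) ∈ V
    have e : (algebraMap R F π)⁻¹ * (((u * v : Fˣ) : F) - 1) =
        (algebraMap R F π)⁻¹ * ((u : F) - 1) * (v : F) +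
          (algebraMap R F π)⁻¹ * ((v : F) - 1) := by
      rw [Units.val_mul]
      ring
    rw [e]
    exact V.add_mem _ _ (V.mul_mem _ _ hu hvV) hv
  one_mem' := by
    show (algebraMap R F π)⁻¹ * (((1 : Fˣ) : F) - 1) ∈ V
    rw [Units.val_one, sub_self, mul_zero]
    exact V.zero_mem
  inv_mem' := by
    intro u hu
    have hπ0 : algebraMap R F π ≠ 0 := by
      intro h0
      apply hπ'
      rw [h0, inv_zero]
      exact V.zero_mem
    have hπ1 : V.valuation (algebraMap R F π) < 1 := (uz43_lt_one_iff V _).mpr (Or.inr hπ')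
    have e : (u : F) = 1 + algebraMap R F π * ((algebraMap R F π)⁻¹ * ((u : F) - 1)) := by
      field_simp
      ring
    have h1 : V.valuation (u : F) = 1 := by
      rw [e]
      apply Valuation.map_one_add_of_lt
      exact uz43_mul_lt_one V _ _ hπ1 ((V.valuation_le_one_iff _).mpr hu)
    have huinv : ((u : F))⁻¹ ∈ V := by
      rw [← V.valuation_le_one_iff, map_inv₀, h1, inv_one]
    show (algebraMap R F π)⁻¹ * (((u⁻¹ : Fˣ) : F) - 1) ∈ V
    have e2 : (algebraMap R F π)⁻¹ * (((u⁻¹ : Fˣ) : F) - 1) =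
        -((algebraMap R F π)⁻¹ * ((u : F) - 1) * ((u : F))⁻¹) := by
      rw [Units.val_inv_eq_inv_val]
      have hu0 : (u : F) ≠ 0 := u.ne_zero
      field_simp
      ring
    rw [e2]
    exact V.neg_mem _ (V.mul_mem _ _ hu huinv)

theorem ns43_mem_U (π : R) (V : ValuationSubring F) (hπV : algebraMap R F π ∈ V)
    (hπ' : (algebraMap R F π)⁻¹ ∉ V) (u : Fˣ) :
    u ∈ ns43_U π V hπV hπ' ↔ (algebraMap R F π)⁻¹ * ((u : F) - 1) ∈ V := Iff.rfl

/-- elements of `1 + π V` are units of `V`. -/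
theorem ns43_U_le_unitGroup (π : R) (V : ValuationSubring F) (hπV : algebraMap R F π ∈ V)
    (hπ' : (algebraMap R F π)⁻¹ ∉ V) (u : Fˣ) (hu : u ∈ ns43_U π V hπV hπ') :
    V.valuation (u : F) = 1 := by
  have hπ0 : algebraMap R F π ≠ 0 := by
    intro h0
    apply hπ'
    rw [h0, inv_zero]
    exact V.zero_mem
  have hπ1 : V.valuation (algebraMap R F π) < 1 := (uz43_lt_one_iff V _).mpr (Or.inr hπ')
  have e : (u : F) = 1 + algebraMap R F π * ((algebraMap R F π)⁻¹ * ((u : F) - 1)) := by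
    field_simp
    ring
  rw [e]
  apply Valuation.map_one_add_of_lt
  exact uz43_mul_lt_one V _ _ hπ1 ((V.valuation_le_one_iff _).mpr hu)

end ns43_U

section ns43_small

variable {R F : Type*} [CommRing R] [Field F] [Algebra R F]

/-- closure of `1 + π V` under products of integral powers. -/
theorem ns43_U_prod {ι : Type*} (π : R) (V : ValuationSubring F)
    (hπV : algebraMap R F π ∈ V) (hπ' : (algebraMap R F π)⁻¹ ∉ V) (T : Finset ι) (x : ι → F)
    (k : ι → ℤ)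
    (h : ∀ i ∈ T, x i ≠ 0 ∧ (algebraMap R F π)⁻¹ * (x i - 1) ∈ V) :
    ∃ u : Fˣ, u ∈ ns43_U π V hπV hπ' ∧ (u : F) = ∏ i ∈ T, x i ^ k i := by
  apply Finset.prod_induction (fun i => x i ^ k i)
    (fun y => ∃ u : Fˣ, u ∈ ns43_U π V hπV hπ' ∧ (u : F) = y)
  · rintro _ _ ⟨u, hu, rfl⟩ ⟨v, hv, rfl⟩
    exact ⟨u * v, Subgroup.mul_mem _ hu hv, Units.val_mul u v⟩
  · exact ⟨1, Subgroup.one_mem _, Units.val_one⟩
  · intro i hi
    obtain ⟨h0, h1⟩ := h i hi
    refine ⟨(Units.mk0 (x i) h0) ^ k i, Subgroup.zpow_mem _ ?_ _, ?_⟩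
    · exact h1
    · rw [Units.val_zpow_eq_zpow_val, Units.val_mk0]

/-- products of integral powers: the value at a valuation which sees at most one factor. -/
theorem ns43_prod_val {ι : Type*} [DecidableEq ι] {Γ : Type*}
    [LinearOrderedCommGroupWithZero Γ] (v : Valuation F Γ) (T : Finset ι) (x : ι → F)
    (k : ι → ℤ) (j : ι) (h : ∀ i ∈ T, i ≠ j → v (x i) = 1) :
    v (∏ i ∈ T, x i ^ k i) = if j ∈ T then v (x j) ^ k j else 1 := by
  rw [map_prod]
  split_ifs with hj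
  · rw [Finset.prod_eq_single j]
    · rw [map_zpow₀]
    · intro i hi hij
      rw [map_zpow₀, h i hi hij, one_zpow]
    · intro hj'
      exact absurd hj hj'
  · apply Finset.prod_eq_one
    intro i hi
    have hij : i ≠ j := fun e => hj (e ▸ hi)
    rw [map_zpow₀, h i hi hij, one_zpow]

/-- `∏ θ ^ k i = θ ^ ∑ k i`. -/
theorem ns43_prod_zpow {ι : Type*} [DecidableEq ι] (T : Finset ι) (θ : F) (hθ : θ ≠ 0)
    (k : ι → ℤ) : ∏ i ∈ T, θ ^ k i = θ ^ ∑ i ∈ T, k i := by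
  induction T using Finset.induction_on with
  | empty => simp
  | insert i T hi ih =>
    rw [Finset.prod_insert hi, Finset.sum_insert hi, ih, zpow_add₀ hθ]

/-- products of integral powers of constants are constants. -/
theorem ns43_prod_const (K : Type*) [Field K] [Algebra K F] {ι : Type*} (T : Finset ι)
    (x : ι → F) (k : ι → ℤ) (h : ∀ i ∈ T, ∃ c : K, algebraMap K F c = x i) :
    ∃ c : K, algebraMap K F c = ∏ i ∈ T, x i ^ k i := by
  apply Finset.prod_induction (fun i => x i ^ k i) (fun y => ∃ c : K, algebraMap K F c = y)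
  · rintro _ _ ⟨c, rfl⟩ ⟨d, rfl⟩
    exact ⟨c * d, map_mul _ _ _⟩
  · exact ⟨1, map_one _⟩
  · intro i hi
    obtain ⟨c, hc⟩ := h i hi
    exact ⟨c ^ k i, by rw [map_zpow₀, hc]⟩

/-- value `1` from the maximal-ideal shape `m_V = π V`. -/
theorem ns43_val_one (π : R) (V : ValuationSubring F)
    (hV : ∀ x ∈ V, (algebraMap R F π)⁻¹ * x ∉ V → x⁻¹ ∈ V) (x : F) (hx : x ∈ V)
    (hx' : (algebraMap R F π)⁻¹ * x ∉ V) : V.valuation x = 1 := by
  have hx0 : x ≠ 0 := by
    rintro rfl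
    apply hx'
    rw [mul_zero]
    exact V.zero_mem
  exact uz43_eq_one_of_mem V x hx0 hx (hV x hx hx')

/-- elements of the chart outside a point of the branch `V` are units of `V`. -/
theorem ns43_val_one_of_notMem (π : R) (B : Subalgebra R F) (V : ValuationSubring F)
    (hB : ∀ x ∈ B, x ∈ V) (hV : ∀ x ∈ V, (algebraMap R F π)⁻¹ * x ∉ V → x⁻¹ ∈ V)
    (n : Ideal B) (hbr : ∀ x : B, (algebraMap R F π)⁻¹ * (x : F) ∈ V → x ∈ n)
    (x : B) (hx : x ∉ n) : V.valuation (x : F) = 1 :=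
  ns43_val_one π V hV _ (hB _ x.2) (fun h => hx (hbr x h))

/-- inverses of unit constants. -/
theorem ns43_unit_inv_mem (V : ValuationSubring F) (hRV : ∀ r : R, algebraMap R F r ∈ V)
    (r : R) (hr : IsUnit r) : (algebraMap R F r)⁻¹ ∈ V := by
  obtain ⟨u, rfl⟩ := hr
  have h1 : algebraMap R F ↑u * algebraMap R F ↑u⁻¹ = 1 := by
    rw [← map_mul, Units.mul_inv, map_one]
  rw [inv_eq_of_mul_eq_one_right h1]
  exact hRV _

/-- unit constants have value `1`. -/
theorem ns43_unit_val (V : ValuationSubring F) (hRV : ∀ r : R, algebraMap R F r ∈ V)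
    (r : R) (hr : IsUnit r) : V.valuation (algebraMap R F r) = 1 := by
  have h1 := ns43_unit_inv_mem V hRV r hr
  have h0 : algebraMap R F r ≠ 0 := by
    obtain ⟨u, rfl⟩ := hr
    intro h0
    have h2 : algebraMap R F ↑u * algebraMap R F ↑u⁻¹ = 1 := by
      rw [← map_mul, Units.mul_inv, map_one]
    rw [h0, zero_mul] at h2
    exact zero_ne_one h2
  exact uz43_eq_one_of_mem V _ h0 (hRV r) h1

/-- congruence to a constant modulo `π V`: products. -/
theorem ns43_cong_mul (π : R) (V : ValuationSubring F) (hRV : ∀ r : R, algebraMap R F r ∈ V)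
    (x y : F) (c d : R) (hx : (algebraMap R F π)⁻¹ * (x - algebraMap R F c) ∈ V)
    (hy : (algebraMap R F π)⁻¹ * (y - algebraMap R F d) ∈ V)
    (hyV : y ∈ V) :
    (algebraMap R F π)⁻¹ * (x * y - algebraMap R F (c * d)) ∈ V := by
  have e : (algebraMap R F π)⁻¹ * (x * y - algebraMap R F (c * d)) =
      (algebraMap R F π)⁻¹ * (x - algebraMap R F c) * y +
        algebraMap R F c * ((algebraMap R F π)⁻¹ * (y - algebraMap R F d)) := by
    rw [map_mul]
    ring
  rw [e]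
  exact V.add_mem _ _ (V.mul_mem _ _ hx hyV) (V.mul_mem _ _ (hRV c) hy)

/-- an element congruent to a constant modulo `π V` lies in `V`. -/
theorem ns43_cong_mem (π : R) (V : ValuationSubring F) (hRV : ∀ r : R, algebraMap R F r ∈ V)
    (hπ' : (algebraMap R F π)⁻¹ ∉ V)
    (x : F) (c : R) (hx : (algebraMap R F π)⁻¹ * (x - algebraMap R F c) ∈ V) : x ∈ V := by
  have hπ0 : algebraMap R F π ≠ 0 := by
    intro h0
    apply hπ'
    rw [h0, inv_zero]
    exact V.zero_mem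
  have e : x = algebraMap R F c +
      algebraMap R F π * ((algebraMap R F π)⁻¹ * (x - algebraMap R F c)) := by
    field_simp
    ring
  rw [e]
  exact V.add_mem _ _ (hRV c) (V.mul_mem _ _ (hRV π) hx)

/-- an element congruent to a unit constant modulo `π V` is a unit of `V`. -/
theorem ns43_cong_val (π : R) (V : ValuationSubring F) (hRV : ∀ r : R, algebraMap R F r ∈ V)
    (hπ' : (algebraMap R F π)⁻¹ ∉ V)
    (x : F) (c : R) (hc : IsUnit c) (hx : (algebraMap R F π)⁻¹ * (x - algebraMap R F c) ∈ V) :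
    V.valuation x = 1 := by
  have hπ0 : algebraMap R F π ≠ 0 := by
    intro h0
    apply hπ'
    rw [h0, inv_zero]
    exact V.zero_mem
  have hπ1 : V.valuation (algebraMap R F π) < 1 := (uz43_lt_one_iff V _).mpr (Or.inr hπ')
  have e : x = algebraMap R F c +
      algebraMap R F π * ((algebraMap R F π)⁻¹ * (x - algebraMap R F c)) := by
    field_simp
    ring
  have h1 : V.valuation (algebraMap R F π * ((algebraMap R F π)⁻¹ * (x - algebraMap R F c)))
      < V.valuation (algebraMap R F c) := by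
    rw [ns43_unit_val V hRV c hc]
    exact uz43_mul_lt_one V _ _ hπ1 ((V.valuation_le_one_iff _).mpr hx)
  rw [e, Valuation.map_add_eq_of_lt_left _ h1]
  exact ns43_unit_val V hRV c hc

/-- congruence to a unit constant modulo `π V`: inverses. -/
theorem ns43_cong_inv (π : R) (V : ValuationSubring F) (hRV : ∀ r : R, algebraMap R F r ∈ V)
    (hπ' : (algebraMap R F π)⁻¹ ∉ V)
    (x : F) (c c' : R) (hcc' : c * c' = 1)
    (hx : (algebraMap R F π)⁻¹ * (x - algebraMap R F c) ∈ V) :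
    (algebraMap R F π)⁻¹ * (x⁻¹ - algebraMap R F c') ∈ V := by
  have hc : IsUnit c := IsUnit.of_mul_eq_one _ hcc'
  have hv : V.valuation x = 1 := ns43_cong_val π V hRV hπ' x c hc hx
  have hx0 : x ≠ 0 := by
    rintro rfl
    rw [map_zero] at hv
    exact zero_ne_one hv
  have hxinv : x⁻¹ ∈ V := by
    rw [← V.valuation_le_one_iff, map_inv₀, hv, inv_one]
  have hcc'F : algebraMap R F c * algebraMap R F c' = 1 := by
    rw [← map_mul, hcc', map_one]
  have e : (algebraMap R F π)⁻¹ * (x⁻¹ - algebraMap R F c') =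
      -(algebraMap R F c' * ((algebraMap R F π)⁻¹ * (x - algebraMap R F c)) * x⁻¹) := by
    have e1 : x⁻¹ - algebraMap R F c' = -(algebraMap R F c' * (x - algebraMap R F c) * x⁻¹) := by
      field_simp
      linear_combination (-1 : F) * hcc'F
    rw [e1]
    ring
  rw [e]
  exact V.neg_mem _ (V.mul_mem _ _ (V.mul_mem _ _ (hRV c') hx) hxinv)

/-- congruence to a constant modulo `π V`: powers. -/
theorem ns43_cong_pow (π : R) (V : ValuationSubring F) (hRV : ∀ r : R, algebraMap R F r ∈ V)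
    (hπ' : (algebraMap R F π)⁻¹ ∉ V)
    (x : F) (c : R) (hx : (algebraMap R F π)⁻¹ * (x - algebraMap R F c) ∈ V) (m : ℕ) :
    (algebraMap R F π)⁻¹ * (x ^ m - algebraMap R F (c ^ m)) ∈ V := by
  have hxV : x ∈ V := ns43_cong_mem π V hRV hπ' x c hx
  induction m with
  | zero =>
    rw [pow_zero, pow_zero, map_one, sub_self, mul_zero]
    exact V.zero_mem
  | succ m ih =>
    rw [pow_succ, pow_succ]
    exact ns43_cong_mul π V hRV _ _ _ _ ih hx hxV

/-- saturation: removing a power of `π`. -/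
theorem ns43_sat (π : R) (B : Subalgebra R F) (V₁ V₂ : ValuationSubring F)
    (hπ₁ : (algebraMap R F π)⁻¹ ∉ V₁) (hπ₂ : (algebraMap R F π)⁻¹ ∉ V₂)
    (hsat : ∀ x ∈ B, (algebraMap R F π)⁻¹ * x ∈ V₁ → (algebraMap R F π)⁻¹ * x ∈ V₂ →
      (algebraMap R F π)⁻¹ * x ∈ B) :
    ∀ (k : ℕ) (y : F), y ∈ V₁ → y ∈ V₂ → algebraMap R F π ^ k * y ∈ B → y ∈ B := by
  have hπ0 : algebraMap R F π ≠ 0 := by
    intro h0
    apply hπ₁
    rw [h0, inv_zero]
    exact V₁.zero_mem
  have hpV₁ : algebraMap R F π ∈ V₁ := (V₁.mem_or_inv_mem _).resolve_right hπ₁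
  have hpV₂ : algebraMap R F π ∈ V₂ := (V₂.mem_or_inv_mem _).resolve_right hπ₂
  intro k
  induction k with
  | zero =>
    intro y _ _ h
    simpa using h
  | succ k ih =>
    intro y h1 h2 h
    apply ih y h1 h2
    have e : algebraMap R F π ^ k * y =
        (algebraMap R F π)⁻¹ * (algebraMap R F π ^ (k + 1) * y) := by
      rw [pow_succ]
      field_simp
    rw [e]
    apply hsat _ h
    · rw [← e]
      exact V₁.mul_mem _ _ (pow_mem hpV₁ k) h1
    · rw [← e]
      exact V₂.mul_mem _ _ (pow_mem hpV₂ k) h2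

/-- **Regularity at a node**: a function which is regular along every horizontal through `n`
and along `V₂`, and congruent to a unit constant along `V₁`, is a unit of `B_n`. -/
theorem ns43_reg (π : R) (B : Subalgebra R F) (V₁ V₂ : ValuationSubring F)
    (hB₁ : ∀ x ∈ B, x ∈ V₁) (hB₂ : ∀ x ∈ B, x ∈ V₂)
    (hπ₁ : (algebraMap R F π)⁻¹ ∉ V₁) (hπ₂ : (algebraMap R F π)⁻¹ ∉ V₂)
    (hsat : ∀ x ∈ B, (algebraMap R F π)⁻¹ * x ∈ V₁ → (algebraMap R F π)⁻¹ * x ∈ V₂ →
      (algebraMap R F π)⁻¹ * x ∈ B)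
    (hKr : s34i47_Krull π B)
    (n : Ideal B) (hn : n.IsMaximal) (hπn : algebraMap R B π ∈ n)
    (hbr₁ : ∀ x : B, (algebraMap R F π)⁻¹ * (x : F) ∈ V₁ → x ∈ n)
    (c : R) (hc : IsUnit c) (x : F)
    (hx₁ : (algebraMap R F π)⁻¹ * (x - algebraMap R F c) ∈ V₁) (hx₂ : x ∈ V₂)
    (hxO : ∀ O : ValuationSubring F, s34i47_IsHoriz π O → s34i47_Through B n O → x ∈ O) :
    ∃ t t' : B, t ∉ n ∧ t' ∉ n ∧ (t : F) * x = (t' : F) := by
  have hRV₁ : ∀ r : R, algebraMap R F r ∈ V₁ := fun r => hB₁ _ (algebraMap R B r).2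
  have hxV₁ : x ∈ V₁ := ns43_cong_mem π V₁ hRV₁ hπ₁ x c hx₁
  obtain ⟨t, ht, k, hk⟩ := hKr n hn hπn x hxO
  have hb : (t : F) * x ∈ B :=
    ns43_sat π B V₁ V₂ hπ₁ hπ₂ hsat k _ (V₁.mul_mem _ _ (hB₁ _ t.2) hxV₁)
      (V₂.mul_mem _ _ (hB₂ _ t.2) hx₂) hk
  refine ⟨t, ⟨(t : F) * x, hb⟩, ht, ?_, rfl⟩
  intro hbn
  have h1 : (⟨(t : F) * x, hb⟩ : B) - algebraMap R B c * t ∈ n := by
    apply hbr₁
    have e : (algebraMap R F π)⁻¹ *
        (((⟨(t : F) * x, hb⟩ : B) - algebraMap R B c * t : B) : F) =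
        (t : F) * ((algebraMap R F π)⁻¹ * (x - algebraMap R F c)) := by
      show (algebraMap R F π)⁻¹ * ((t : F) * x - algebraMap R F c * (t : F)) = _
      ring
    rw [e]
    exact V₁.mul_mem _ _ (hB₁ _ t.2) hx₁
  have h2 : algebraMap R B c * t ∈ n := by
    have h3 := n.sub_mem hbn h1
    rw [sub_sub_cancel] at h3
    exact h3
  rcases hn.isPrime.mem_or_mem h2 with h3 | h3
  · exact hn.ne_top (Ideal.eq_top_of_isUnit_mem _ h3 (hc.map _))
  · exact ht h3

/-- **The balancing contradiction** at a point of the branch `V`: with `X ∈ n`, `Y ∉ n`,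
`g ≡ c` and `Υ ≡ 1` modulo `π V` (`c`, `l` unit constants) neither `t g Y = t' l X Υ` nor
`t g X = t' l Y Υ` can hold with `t, t' ∉ n`. -/
theorem ns43_balance (π : R) (B : Subalgebra R F) (V : ValuationSubring F)
    (hB : ∀ x ∈ B, x ∈ V) (n : Ideal B) (hn : n.IsMaximal)
    (hbr : ∀ x : B, (algebraMap R F π)⁻¹ * (x : F) ∈ V → x ∈ n)
    (X Y : B) (hX : X ∈ n) (hY : Y ∉ n) (g Υ : F) (c l : R) (hc : IsUnit c) (hl : IsUnit l)
    (hg : (algebraMap R F π)⁻¹ * (g - algebraMap R F c) ∈ V)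
    (hΥ : (algebraMap R F π)⁻¹ * (Υ - 1) ∈ V) (t t' : B) (ht : t ∉ n) (ht' : t' ∉ n) :
    (t : F) * g * (Y : F) ≠ (t' : F) * algebraMap R F l * (X : F) * Υ ∧
      (t : F) * g * (X : F) ≠ (t' : F) * algebraMap R F l * (Y : F) * Υ := by
  have hRV : ∀ r : R, algebraMap R F r ∈ V := fun r => hB _ (algebraMap R B r).2
  have hcn : ∀ r : R, IsUnit r → algebraMap R B r ∉ n := fun r hr h =>
    hn.ne_top (Ideal.eq_top_of_isUnit_mem _ h (hr.map _))
  constructor
  · intro h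
    have h1 : algebraMap R B c * t * Y - algebraMap R B l * t' * X ∈ n := by
      apply hbr
      have e : (algebraMap R F π)⁻¹ *
          ((algebraMap R B c * t * Y - algebraMap R B l * t' * X : B) : F) =
          -((algebraMap R F π)⁻¹ * (g - algebraMap R F c) * ((t : F) * (Y : F))) +
            algebraMap R F l * (t' : F) * (X : F) * ((algebraMap R F π)⁻¹ * (Υ - 1)) := by
        show (algebraMap R F π)⁻¹ *
          (algebraMap R F c * (t : F) * (Y : F) - algebraMap R F l * (t' : F) * (X : F)) = _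
        linear_combination (algebraMap R F π)⁻¹ * h
      rw [e]
      exact V.add_mem _ _ (V.neg_mem _ (V.mul_mem _ _ hg (V.mul_mem _ _ (hB _ t.2) (hB _ Y.2))))
        (V.mul_mem _ _ (V.mul_mem _ _ (V.mul_mem _ _ (hRV l) (hB _ t'.2)) (hB _ X.2)) hΥ)
    have h2 : algebraMap R B c * t * Y ∈ n := by
      have h3 := n.add_mem h1 (n.mul_mem_left (algebraMap R B l * t') hX)
      rw [sub_add_cancel] at h3
      exact h3
    rcases hn.isPrime.mem_or_mem h2 with h3 | h3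
    · rcases hn.isPrime.mem_or_mem h3 with h4 | h4
      · exact hcn c hc h4
      · exact ht h4
    · exact hY h3
  · intro h
    have h1 : algebraMap R B c * t * X - algebraMap R B l * t' * Y ∈ n := by
      apply hbr
      have e : (algebraMap R F π)⁻¹ *
          ((algebraMap R B c * t * X - algebraMap R B l * t' * Y : B) : F) =
          -((algebraMap R F π)⁻¹ * (g - algebraMap R F c) * ((t : F) * (X : F))) +
            algebraMap R F l * (t' : F) * (Y : F) * ((algebraMap R F π)⁻¹ * (Υ - 1)) := by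
        show (algebraMap R F π)⁻¹ *
          (algebraMap R F c * (t : F) * (X : F) - algebraMap R F l * (t' : F) * (Y : F)) = _
        linear_combination (algebraMap R F π)⁻¹ * h
      rw [e]
      exact V.add_mem _ _ (V.neg_mem _ (V.mul_mem _ _ hg (V.mul_mem _ _ (hB _ t.2) (hB _ X.2))))
        (V.mul_mem _ _ (V.mul_mem _ _ (V.mul_mem _ _ (hRV l) (hB _ t'.2)) (hB _ Y.2)) hΥ)
    have h2 : algebraMap R B l * t' * Y ∈ n := by
      have h3 := n.sub_mem (n.mul_mem_left (algebraMap R B c * t) hX) h1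
      rw [sub_sub_cancel] at h3
      exact h3
    rcases hn.isPrime.mem_or_mem h2 with h3 | h3
    · rcases hn.isPrime.mem_or_mem h3 with h4 | h4
      · exact hcn l hl h4
      · exact ht' h4
    · exact hY h3

end ns43_small

section ns43_const

/-- a constant of value `1` along a vertical valuation is a unit of `R`. -/
theorem ns43_const_unit (K : Type*) {R F : Type*} [CommRing R] [IsDomain R]
    [IsDiscreteValuationRing R] [Field K] [Field F] [Algebra R K] [IsFractionRing R K]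
    [Algebra R F] [Algebra K F] [IsScalarTower R K F] (π : R) (hπ : Irreducible π)
    (V : ValuationSubring F) (hRV : ∀ r : R, algebraMap R F r ∈ V)
    (hπ' : (algebraMap R F π)⁻¹ ∉ V) (c : K) (hc : V.valuation (algebraMap K F c) = 1) :
    ∃ l : R, IsUnit l ∧ algebraMap R F l = algebraMap K F c := by
  have hπ1 : V.valuation (algebraMap R F π) < 1 := (uz43_lt_one_iff V _).mpr (Or.inr hπ')
  have hunit : ∀ r : R, V.valuation (algebraMap R F r) = 1 → IsUnit r := by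
    intro r hr
    by_contra hnu
    have h1 : r ∈ IsLocalRing.maximalIdeal R := (IsLocalRing.mem_maximalIdeal r).mpr hnu
    rw [hπ.maximalIdeal_eq, Ideal.mem_span_singleton] at h1
    obtain ⟨r', rfl⟩ := h1
    have h2 : V.valuation (algebraMap R F (π * r')) < 1 := by
      rw [map_mul]
      exact uz43_mul_lt_one V _ _ hπ1 ((V.valuation_le_one_iff _).mpr (hRV r'))
    rw [hr] at h2
    exact lt_irrefl _ h2
  rcases ValuationRing.isInteger_or_isInteger R c with ⟨r, hr⟩ | ⟨r, hr⟩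
  · have e : algebraMap R F r = algebraMap K F c := by
      rw [IsScalarTower.algebraMap_apply R K F, hr]
    exact ⟨r, hunit r (by rw [e]; exact hc), e⟩
  · have e : algebraMap R F r = (algebraMap K F c)⁻¹ := by
      rw [IsScalarTower.algebraMap_apply R K F, hr, map_inv₀]
    have hru : IsUnit r := hunit r (by rw [e, map_inv₀, hc, inv_one])
    obtain ⟨u, rfl⟩ := hru
    refine ⟨↑u⁻¹, Units.isUnit _, ?_⟩
    have h1 : algebraMap R F ↑u * algebraMap R F ↑u⁻¹ = 1 := by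
      rw [← map_mul, Units.mul_inv, map_one]
    rw [e] at h1
    have hc0 : algebraMap K F c ≠ 0 := by
      intro h0
      rw [h0, map_zero] at hc
      exact zero_ne_one hc
    calc algebraMap R F ↑u⁻¹ = algebraMap K F c * ((algebraMap K F c)⁻¹ * algebraMap R F ↑u⁻¹) := by
          rw [← mul_assoc, mul_inv_cancel₀ hc0, one_mul]
      _ = algebraMap K F c := by rw [h1, mul_one]

end ns43_const

section ns43_main

/-- **The data of a zero or pole through a node**: its value `a = z(O) ∈ π R`, with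
`a / z ∈ π V₁`, `z / a ∈ π V₂`, and the order `k` of the `m`-th root of `f` at `O`. -/
theorem ns43_node_data (K : Type*) {R F : Type*} [CommRing R] [IsDomain R]
    [IsDiscreteValuationRing R] [Field K] [Field F] [Algebra R K] [IsFractionRing R K]
    [Algebra R F] [Algebra K F] [IsScalarTower R K F] (π : R) (hπ : Irreducible π)
    (B : Subalgebra R F) [IsNoetherianRing B]
    (hfrac : ∀ x : F, ∃ a ∈ B, ∃ b ∈ B, b ≠ 0 ∧ x * b = a)
    (V₁ V₂ : ValuationSubring F)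
    (hB₁ : ∀ x ∈ B, x ∈ V₁) (hB₂ : ∀ x ∈ B, x ∈ V₂)
    (hπ₂ : (algebraMap R F π)⁻¹ ∉ V₂)
    (hV₁ : ∀ x ∈ V₁, (algebraMap R F π)⁻¹ * x ∉ V₁ → x⁻¹ ∈ V₁)
    (hV₂ : ∀ x ∈ V₂, (algebraMap R F π)⁻¹ * x ∉ V₂ → x⁻¹ ∈ V₂)
    (n : Ideal B) (hn : n.IsMaximal) (hπn : algebraMap R B π ∈ n)
    (hbr₂ : ∀ x : B, (algebraMap R F π)⁻¹ * (x : F) ∈ V₂ → x ∈ n)
    (z z' : B) (hz : z ∈ n) (hz' : z' ∈ n)
    (hgen : ∀ x ∈ n, ∃ s : B, s ∉ n ∧
      ∃ a b c : B, s * x = a * z + b * z' + c * algebraMap R B π)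
    (hl₁ : (algebraMap R F π)⁻¹ * (z : F) ∉ V₁) (hl₂ : (algebraMap R F π)⁻¹ * (z' : F) ∉ V₂)
    (κ : ℕ) (s s' : B) (hs : s ∉ n) (hs' : s' ∉ n)
    (hrel : s * z * z' = algebraMap R B π ^ κ * s')
    (m : ℕ) (hm : 0 < m) (f : F) (hf : f ≠ 0)
    (hOrd : s34i47_Ord π m f) (hRat : s34i47_Rat K π f)
    (O : ValuationSubring F) (hH : s34i47_IsHoriz π O) (hT : s34i47_Through B n O)
    (hnu : ¬ (f ∈ O ∧ f⁻¹ ∈ O)) :
    ∃ (a : R) (k : ℤ), a ≠ 0 ∧ ((z : F) - algebraMap R F a) ≠ 0 ∧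
      (algebraMap R F π)⁻¹ * (algebraMap R F a * (z : F)⁻¹) ∈ V₁ ∧
      (algebraMap R F π)⁻¹ * ((z : F) * (algebraMap R F a)⁻¹) ∈ V₂ ∧
      O.valuation f = O.valuation ((z : F) - algebraMap R F a) ^ (k * (m : ℤ)) ∧
      ∀ O' : ValuationSubring F, s34i47_IsHoriz π O' → s34i47_Through B n O' → O' ≠ O →
        O'.valuation ((z : F) - algebraMap R F a) = 1 := by
  have hRatO : s34i47_IsRat K O := (hRat O hH).resolve_left hnu
  have hRV₁ : ∀ r : R, algebraMap R F r ∈ V₁ := fun r => hB₁ _ (algebraMap R B r).2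
  have hRV₂ : ∀ r : R, algebraMap R F r ∈ V₂ := fun r => hB₂ _ (algebraMap R B r).2
  have hp0 : algebraMap R F π ≠ 0 := by
    intro h0
    apply hπ₂
    rw [h0, inv_zero]
    exact V₂.zero_mem
  obtain ⟨a, b, rs, rs', ⟨a₁, rfl⟩, ⟨b₁, rfl⟩, hrs'u, h2R, ha0, hp0', hpO, hpO', hunif, hothers⟩ :=
    ns43_node_unif K π hπ B hfrac n hn hπn z z' hz hz' hgen κ s s' hs hs' hrel O hH hT hRatO
  obtain ⟨ε₀, w, hε₀, hε₀', hfw⟩ := hOrd O hH
  have hw0 : w ≠ 0 := by
    rintro rfl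
    apply hf
    rw [hfw, zero_pow hm.ne', mul_zero]
  have hε₀0 : ε₀ ≠ 0 := by
    rintro rfl
    apply hf
    rw [hfw, zero_mul]
  obtain ⟨k, hk⟩ := ns43_ord O hH.2.1 _ hp0' hpO' hunif w hw0
  have hz0 : (z : F) ≠ 0 := by
    intro h0
    apply hl₁
    rw [h0, mul_zero]
    exact V₁.zero_mem
  have hz'0 : (z' : F) ≠ 0 := by
    intro h0
    apply hl₂
    rw [h0, mul_zero]
    exact V₂.zero_mem
  have hs0 : (s : F) ≠ 0 := by
    intro h0
    apply hs
    have h1 : s = 0 := Subtype.ext h0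
    rw [h1]
    exact n.zero_mem
  have hrelF : (s : F) * (z : F) * (z' : F) = algebraMap R F π ^ κ * (s' : F) :=
    congrArg Subtype.val hrel
  have h2F : algebraMap R F rs * (algebraMap R F π * algebraMap R F a₁) *
      (algebraMap R F π * algebraMap R F b₁) = algebraMap R F π ^ κ * algebraMap R F rs' := by
    have h1 := congrArg (algebraMap R F) h2R
    simpa only [map_mul, map_pow] using h1
  have ha₁0 : algebraMap R F a₁ ≠ 0 := by
    intro h0
    apply uz43_algebraMap_ne_zero K (π * a₁) ha0 (F := F)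
    rw [map_mul, h0, mul_zero]
  have hrs'0 : algebraMap R F rs' ≠ 0 := by
    have h1 := ns43_unit_val V₂ hRV₂ rs' hrs'u
    intro h0
    rw [h0, map_zero] at h1
    exact zero_ne_one h1
  refine ⟨π * a₁, k, ha0, hp0', ?_, ?_, ?_, ?_⟩
  · have e : (algebraMap R F π)⁻¹ * (algebraMap R F (π * a₁) * (z : F)⁻¹) =
        algebraMap R F a₁ * (z : F)⁻¹ := by
      rw [map_mul]
      field_simp
    rw [e]
    exact V₁.mul_mem _ _ (hRV₁ a₁) (hV₁ _ (hB₁ _ z.2) hl₁)
  · have e : (algebraMap R F π)⁻¹ * ((z : F) * (algebraMap R F (π * a₁))⁻¹) =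
        (s' : F) * algebraMap R F rs * algebraMap R F b₁ * (s : F)⁻¹ * (z' : F)⁻¹ *
          (algebraMap R F rs')⁻¹ := by
      rw [map_mul]
      field_simp
      linear_combination (algebraMap R F rs') * hrelF - (s' : F) * h2F
    rw [e]
    have hsinv : (s : F)⁻¹ ∈ V₂ := by
      have h1 := ns43_val_one_of_notMem π B V₂ hB₂ hV₂ n hbr₂ s hs
      rw [← V₂.valuation_le_one_iff, map_inv₀, h1, inv_one]
    exact V₂.mul_mem _ _ (V₂.mul_mem _ _ (V₂.mul_mem _ _ (V₂.mul_mem _ _ (V₂.mul_mem _ _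
      (hB₂ _ s'.2) (hRV₂ rs)) (hRV₂ b₁)) hsinv) (hV₂ _ (hB₂ _ z'.2) hl₂))
      (ns43_unit_inv_mem V₂ hRV₂ rs' hrs'u)
  · have h1 : O.valuation ε₀ = 1 := uz43_eq_one_of_mem O ε₀ hε₀0 hε₀ hε₀'
    rw [hfw, map_mul, map_pow, h1, one_mul, hk, zpow_mul, zpow_natCast]
  · intro O' hH' hT' hne
    obtain ⟨h1, h2⟩ := hothers O' hH' hT' hne
    exact uz43_eq_one_of_mem O' _ hp0' h1 h2

/-- **(1d), node case: the local shape of a toric function at a node.**  `f = ε ψ ^ m` with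
`ε` a unit of `B_n`, `ψ ≡ 1` modulo `π V₁` and `ψ ≡ l` modulo `π V₂` for a unit constant `l`. -/
theorem ns43_node_shape (K : Type*) {R F : Type*} [CommRing R] [IsDomain R]
    [IsDiscreteValuationRing R] [Field K] [Field F] [Algebra R K] [IsFractionRing R K]
    [Algebra R F] [Algebra K F] [IsScalarTower R K F] (π : R) (hπ : Irreducible π)
    (B : Subalgebra R F) [IsNoetherianRing B]
    (hfrac : ∀ x : F, ∃ a ∈ B, ∃ b ∈ B, b ≠ 0 ∧ x * b = a)
    (V₁ V₂ : ValuationSubring F)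
    (hB₁ : ∀ x ∈ B, x ∈ V₁) (hB₂ : ∀ x ∈ B, x ∈ V₂)
    (hπ₁ : (algebraMap R F π)⁻¹ ∉ V₁) (hπ₂ : (algebraMap R F π)⁻¹ ∉ V₂)
    (hV₁ : ∀ x ∈ V₁, (algebraMap R F π)⁻¹ * x ∉ V₁ → x⁻¹ ∈ V₁)
    (hV₂ : ∀ x ∈ V₂, (algebraMap R F π)⁻¹ * x ∉ V₂ → x⁻¹ ∈ V₂)
    (hsat : ∀ x ∈ B, (algebraMap R F π)⁻¹ * x ∈ V₁ → (algebraMap R F π)⁻¹ * x ∈ V₂ →
      (algebraMap R F π)⁻¹ * x ∈ B)
    (hKr : s34i47_Krull π B)
    (n : Ideal B) (hn : n.IsMaximal) (hπn : algebraMap R B π ∈ n)
    (hbr₁ : ∀ x : B, (algebraMap R F π)⁻¹ * (x : F) ∈ V₁ → x ∈ n)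
    (hbr₂ : ∀ x : B, (algebraMap R F π)⁻¹ * (x : F) ∈ V₂ → x ∈ n)
    (z z' : B) (hz : z ∈ n) (hz' : z' ∈ n)
    (hgen : ∀ x ∈ n, ∃ s : B, s ∉ n ∧
      ∃ a b c : B, s * x = a * z + b * z' + c * algebraMap R B π)
    (hl₁ : (algebraMap R F π)⁻¹ * (z : F) ∉ V₁) (hl₂ : (algebraMap R F π)⁻¹ * (z' : F) ∉ V₂)
    (κ : ℕ) (s s' : B) (hs : s ∉ n) (hs' : s' ∉ n)
    (hrel : s * z * z' = algebraMap R B π ^ κ * s')
    (m : ℕ) (hm : 0 < m) (f : F) (hf : f ≠ 0)
    (hOrd : s34i47_Ord π m f) (hRat : s34i47_Rat K π f) (hFin : s34i47_Fin π f)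
    (c₁ c₂ : R) (hc₁ : IsUnit c₁) (hc₂ : IsUnit c₂)
    (hf₁ : (algebraMap R F π)⁻¹ * (f - algebraMap R F c₁) ∈ V₁)
    (hf₂ : (algebraMap R F π)⁻¹ * (f - algebraMap R F c₂) ∈ V₂) :
    ∃ (ψ ε : F) (l : R), IsUnit l ∧ ψ ≠ 0 ∧ f = ε * ψ ^ m ∧
      (∃ t t' : B, t ∉ n ∧ t' ∉ n ∧ (t : F) * ε = (t' : F)) ∧
      (algebraMap R F π)⁻¹ * (ψ - 1) ∈ V₁ ∧
      (algebraMap R F π)⁻¹ * (ψ - algebraMap R F l) ∈ V₂ := by
  classical
  have hRV₁ : ∀ r : R, algebraMap R F r ∈ V₁ := fun r => hB₁ _ (algebraMap R B r).2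
  have hRV₂ : ∀ r : R, algebraMap R F r ∈ V₂ := fun r => hB₂ _ (algebraMap R B r).2
  have hp0 : algebraMap R F π ≠ 0 := by
    intro h0
    apply hπ₂
    rw [h0, inv_zero]
    exact V₂.zero_mem
  have hpV₁ : algebraMap R F π ∈ V₁ := hRV₁ π
  have hpV₂ : algebraMap R F π ∈ V₂ := hRV₂ π
  have hz0 : (z : F) ≠ 0 := by
    intro h0
    apply hl₁
    rw [h0, mul_zero]
    exact V₁.zero_mem
  have hz'0 : (z' : F) ≠ 0 := by
    intro h0
    apply hl₂
    rw [h0, mul_zero]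
    exact V₂.zero_mem
  have hne0 : ∀ y : B, y ∉ n → (y : F) ≠ 0 := by
    intro y hy h0
    apply hy
    have h1 : y = 0 := Subtype.ext h0
    rw [h1]
    exact n.zero_mem
  have hs0 : (s : F) ≠ 0 := hne0 s hs
  have hs'0 : (s' : F) ≠ 0 := hne0 s' hs'
  have hrelF : (s : F) * (z : F) * (z' : F) = algebraMap R F π ^ κ * (s' : F) :=
    congrArg Subtype.val hrel
  -- the finite set of zeros and poles of `f` through `n`
  obtain ⟨T, hTmem⟩ : ∃ T : Finset (ValuationSubring F), ∀ O : ValuationSubring F, O ∈ T ↔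
      (s34i47_IsHoriz π O ∧ ¬ (f ∈ O ∧ f⁻¹ ∈ O)) ∧ s34i47_Through B n O := by
    have hFin' : {O : ValuationSubring F |
        s34i47_IsHoriz π O ∧ ¬ (f ∈ O ∧ f⁻¹ ∈ O)}.Finite := hFin
    refine ⟨hFin'.toFinset.filter (fun O => s34i47_Through B n O), ?_⟩
    intro O
    rw [Finset.mem_filter, Set.Finite.mem_toFinset]
    rfl
  have hdata : ∀ O : ValuationSubring F, ∃ (a : R) (k : ℤ), O ∈ T →
      (a ≠ 0 ∧ ((z : F) - algebraMap R F a) ≠ 0 ∧
      (algebraMap R F π)⁻¹ * (algebraMap R F a * (z : F)⁻¹) ∈ V₁ ∧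
      (algebraMap R F π)⁻¹ * ((z : F) * (algebraMap R F a)⁻¹) ∈ V₂ ∧
      O.valuation f = O.valuation ((z : F) - algebraMap R F a) ^ (k * (m : ℤ)) ∧
      ∀ O' : ValuationSubring F, s34i47_IsHoriz π O' → s34i47_Through B n O' → O' ≠ O →
        O'.valuation ((z : F) - algebraMap R F a) = 1) := by
    intro O
    by_cases hO : O ∈ T
    · obtain ⟨⟨hH, hnu⟩, hTh⟩ := (hTmem O).mp hO
      obtain ⟨a, k, h⟩ := ns43_node_data K π hπ B hfrac V₁ V₂ hB₁ hB₂ hπ₂ hV₁ hV₂ n hn hπn hbr₂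
        z z' hz hz' hgen hl₁ hl₂ κ s s' hs hs' hrel m hm f hf hOrd hRat O hH hTh hnu
      exact ⟨a, k, fun _ => h⟩
    · exact ⟨0, 0, fun h => absurd h hO⟩
  choose a k hak using hdata
  obtain ⟨x, hxO⟩ : ∃ x : ValuationSubring F → F,
      ∀ O, x O = ((z : F) - algebraMap R F (a O)) / (z : F) := ⟨_, fun _ => rfl⟩
  have hx0 : ∀ O ∈ T, x O ≠ 0 := by
    intro O hO
    rw [hxO]
    exact div_ne_zero (hak O hO).2.1 hz0
  have haF0 : ∀ O ∈ T, algebraMap R F (a O) ≠ 0 := fun O hO =>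
    uz43_algebraMap_ne_zero K (a O) (hak O hO).1
  -- `ψ`
  obtain ⟨ψ, hψdef⟩ : ∃ ψ : F, ψ = ∏ O ∈ T, x O ^ k O := ⟨_, rfl⟩
  -- `ψ ∈ 1 + π V₁`
  obtain ⟨u₁, hu₁, hu₁ψ⟩ := ns43_U_prod π V₁ hpV₁ hπ₁ T x k (by
    intro O hO
    refine ⟨hx0 O hO, ?_⟩
    have e : (algebraMap R F π)⁻¹ * (x O - 1) =
        -((algebraMap R F π)⁻¹ * (algebraMap R F (a O) * (z : F)⁻¹)) := by
      rw [hxO]
      field_simp
      ring
    rw [e]
    exact V₁.neg_mem _ (hak O hO).2.2.1)
  rw [← hψdef] at hu₁ψ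
  have hψ0 : ψ ≠ 0 := by
    rw [← hu₁ψ]
    exact u₁.ne_zero
  have hψ₁ : (algebraMap R F π)⁻¹ * (ψ - 1) ∈ V₁ := by
    rw [← hu₁ψ]
    exact hu₁
  -- `ε`
  obtain ⟨ε, hεdef⟩ : ∃ ε : F, ε = f / ψ ^ m := ⟨_, rfl⟩
  have hfε : f = ε * ψ ^ m := by
    rw [hεdef]
    field_simp
  -- `ε` is a unit of every horizontal through `n`
  have hεO : ∀ O' : ValuationSubring F, s34i47_IsHoriz π O' → s34i47_Through B n O' →
      O'.valuation ε = 1 := by
    intro O' hH' hT'
    have hvz : O'.valuation (z : F) = 1 := by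
      have hzinv : (z : F)⁻¹ ∈ O' := by
        have e : (z : F)⁻¹ =
            (s : F) * (z' : F) * ((algebraMap R F π)⁻¹) ^ κ * (s' : F)⁻¹ := by
          rw [inv_pow]
          field_simp
          linear_combination (-1 : F) * hrelF
        rw [e]
        exact O'.mul_mem _ _ (O'.mul_mem _ _ (O'.mul_mem _ _ (hT'.1 _ s.2) (hT'.1 _ z'.2))
          (pow_mem hH'.2.2.2 κ)) (hT'.2 s' hs')
      exact uz43_eq_one_of_mem O' _ hz0 (hT'.1 _ z.2) hzinv
    have hvx : ∀ O ∈ T, O ≠ O' → O'.valuation (x O) = 1 := by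
      intro O hO hne
      rw [hxO, map_div₀, hvz, div_one]
      exact (hak O hO).2.2.2.2.2 O' hH' hT' (Ne.symm hne)
    have hvψ := ns43_prod_val O'.valuation T x k O' hvx
    rw [← hψdef] at hvψ
    by_cases hO' : O' ∈ T
    · rw [if_pos hO'] at hvψ
      have h1 : O'.valuation (x O') = O'.valuation ((z : F) - algebraMap R F (a O')) := by
        rw [hxO, map_div₀, hvz, div_one]
      have h2 := (hak O' hO').2.2.2.2.1
      have h3 : O'.valuation ((z : F) - algebraMap R F (a O')) ≠ 0 :=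
        (Valuation.ne_zero_iff _).mpr (hak O' hO').2.1
      rw [hεdef, map_div₀, map_pow, hvψ, h1, h2, zpow_mul, zpow_natCast]
      exact div_self (pow_ne_zero _ (zpow_ne_zero _ h3))
    · rw [if_neg hO'] at hvψ
      have hfu : f ∈ O' ∧ f⁻¹ ∈ O' := by
        by_contra hnu
        exact hO' ((hTmem O').mpr ⟨⟨hH', hnu⟩, hT'⟩)
      rw [hεdef, map_div₀, map_pow, hvψ, one_pow, div_one]
      exact uz43_eq_one_of_mem O' f hf hfu.1 hfu.2
  -- `ε ≡ c₁` modulo `π V₁`
  have hψ₁' : (algebraMap R F π)⁻¹ * (ψ - algebraMap R F 1) ∈ V₁ := by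
    rw [map_one]
    exact hψ₁
  have hψm₁ : (algebraMap R F π)⁻¹ * (ψ ^ m - algebraMap R F (1 ^ m)) ∈ V₁ :=
    ns43_cong_pow π V₁ hRV₁ hπ₁ ψ 1 hψ₁' m
  have hψminv₁ : (algebraMap R F π)⁻¹ * ((ψ ^ m)⁻¹ - algebraMap R F 1) ∈ V₁ :=
    ns43_cong_inv π V₁ hRV₁ hπ₁ (ψ ^ m) (1 ^ m) 1 (by rw [one_pow, one_mul]) hψm₁
  have hε₁ : (algebraMap R F π)⁻¹ * (ε - algebraMap R F c₁) ∈ V₁ := by
    have h1 := ns43_cong_mul π V₁ hRV₁ f (ψ ^ m)⁻¹ c₁ 1 hf₁ hψminv₁
      (ns43_cong_mem π V₁ hRV₁ hπ₁ _ 1 hψminv₁)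
    rw [mul_one] at h1
    rw [hεdef, div_eq_mul_inv]
    exact h1
  obtain ⟨c₁', hc₁'⟩ : ∃ c₁' : R, c₁ * c₁' = 1 := hc₁.exists_right_inv
  have hεinv₁ : (algebraMap R F π)⁻¹ * (ε⁻¹ - algebraMap R F c₁') ∈ V₁ :=
    ns43_cong_inv π V₁ hRV₁ hπ₁ ε c₁ c₁' hc₁' hε₁
  have hc₁'u : IsUnit c₁' := IsUnit.of_mul_eq_one c₁ (by rw [mul_comm]; exact hc₁')
  have hε0 : ε ≠ 0 := by
    intro h0
    apply hf
    rw [hfε, h0, zero_mul]
  -- `ε` is a unit of `B_n`
  obtain ⟨t, t', ht, ht', hte⟩ : ∃ t t' : B, t ∉ n ∧ t' ∉ n ∧ (t : F) * ε = (t' : F) := by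
    rcases V₂.mem_or_inv_mem ε with h | h
    · exact ns43_reg π B V₁ V₂ hB₁ hB₂ hπ₁ hπ₂ hsat hKr n hn hπn hbr₁ c₁ hc₁ ε hε₁ h
        (fun O' hH' hT' => (O'.valuation_le_one_iff _).mp (hεO O' hH' hT').le)
    · obtain ⟨t, t', ht, ht', hte⟩ := ns43_reg π B V₁ V₂ hB₁ hB₂ hπ₁ hπ₂ hsat hKr n hn hπn
        hbr₁ c₁' hc₁'u ε⁻¹ hεinv₁ h
        (fun O' hH' hT' => (O'.valuation_le_one_iff _).mp
          (by rw [map_inv₀, hεO O' hH' hT', inv_one]))
      refine ⟨t', t, ht', ht, ?_⟩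
      rw [← hte]
      field_simp
  -- values along `V₂`
  have hvt : V₂.valuation (t : F) = 1 := ns43_val_one_of_notMem π B V₂ hB₂ hV₂ n hbr₂ t ht
  have hvt' : V₂.valuation (t' : F) = 1 := ns43_val_one_of_notMem π B V₂ hB₂ hV₂ n hbr₂ t' ht'
  have hvε : V₂.valuation ε = 1 := by
    have h1 := congrArg V₂.valuation hte
    rw [map_mul, hvt, hvt', one_mul] at h1
    exact h1
  have hvf : V₂.valuation f = 1 := ns43_cong_val π V₂ hRV₂ hπ₂ f c₂ hc₂ hf₂
  have hvψ : V₂.valuation ψ = 1 := by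
    have h1 := congrArg V₂.valuation hfε
    rw [map_mul, map_pow, hvf, hvε, one_mul] at h1
    exact (pow_eq_one_iff_of_nonneg zero_le hm.ne').mp h1.symm
  -- the decomposition of `ψ` along `V₂`
  obtain ⟨θ, hθdef⟩ : ∃ θ : F, θ = (s : F) * (z' : F) / (s' : F) := ⟨_, rfl⟩
  have hθ0 : θ ≠ 0 := by
    rw [hθdef]
    exact div_ne_zero (mul_ne_zero hs0 hz'0) hs'0
  have hvθ : V₂.valuation θ = 1 := by
    rw [hθdef, map_div₀, map_mul, ns43_val_one_of_notMem π B V₂ hB₂ hV₂ n hbr₂ s hs,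
      ns43_val_one_of_notMem π B V₂ hB₂ hV₂ n hbr₂ s' hs',
      ns43_val_one π V₂ hV₂ _ (hB₂ _ z'.2) hl₂, one_mul, div_one]
  obtain ⟨d, hd⟩ : ∃ d : ValuationSubring F → F,
      ∀ O, d O = -(algebraMap R F (a O)) / algebraMap R F π ^ κ := ⟨_, fun _ => rfl⟩
  obtain ⟨υ, hυ⟩ : ∃ υ : ValuationSubring F → F,
      ∀ O, υ O = 1 - (z : F) * (algebraMap R F (a O))⁻¹ := ⟨_, fun _ => rfl⟩
  have hfac : ∀ O ∈ T, x O = d O * θ * υ O := by
    intro O hO
    have ha0 := haF0 O hO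
    rw [hxO, hd, hυ, hθdef]
    field_simp
    linear_combination (-((z : F) - algebraMap R F (a O))) * hrelF
  have hψfac : ψ = (∏ O ∈ T, d O ^ k O) * θ ^ (∑ O ∈ T, k O) * ∏ O ∈ T, υ O ^ k O := by
    rw [hψdef, ← ns43_prod_zpow T θ hθ0 k, ← Finset.prod_mul_distrib, ← Finset.prod_mul_distrib]
    apply Finset.prod_congr rfl
    intro O hO
    rw [hfac O hO, mul_zpow, mul_zpow]
  obtain ⟨u₂, hu₂, hu₂Υ⟩ := ns43_U_prod π V₂ hpV₂ hπ₂ T υ k (by
    intro O hO
    have hυ0 : υ O ≠ 0 := by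
      intro h0
      apply hx0 O hO
      rw [hfac O hO, h0, mul_zero]
    refine ⟨hυ0, ?_⟩
    have e : (algebraMap R F π)⁻¹ * (υ O - 1) =
        -((algebraMap R F π)⁻¹ * ((z : F) * (algebraMap R F (a O))⁻¹)) := by
      rw [hυ]
      ring
    rw [e]
    exact V₂.neg_mem _ (hak O hO).2.2.2.1)
  obtain ⟨cK, hcK⟩ := ns43_prod_const K T d k (by
    intro O _
    refine ⟨-(algebraMap R K (a O)) / algebraMap R K π ^ κ, ?_⟩
    rw [hd, map_div₀, map_neg, map_pow, ← IsScalarTower.algebraMap_apply,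
      ← IsScalarTower.algebraMap_apply])
  have hvΥ : V₂.valuation (u₂ : F) = 1 := ns43_U_le_unitGroup π V₂ hpV₂ hπ₂ u₂ hu₂
  obtain ⟨N, hN⟩ : ∃ N : ℤ, N = ∑ O ∈ T, k O := ⟨_, rfl⟩
  rw [← hcK, ← hu₂Υ, ← hN] at hψfac
  have hvD : V₂.valuation (algebraMap K F cK) = 1 := by
    have h1 := congrArg V₂.valuation hψfac
    rw [map_mul, map_mul, map_zpow₀, hvψ, hvθ, one_zpow, mul_one, hvΥ, mul_one] at h1
    exact h1.symm
  obtain ⟨l, hl, hlD⟩ := ns43_const_unit K π hπ V₂ hRV₂ hπ₂ cK hvD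
  rw [← hlD] at hψfac
  have hΥm : (algebraMap R F π)⁻¹ * ((u₂ : F) ^ m - 1) ∈ V₂ := by
    have h1 : u₂ ^ m ∈ ns43_U π V₂ hpV₂ hπ₂ := Subgroup.pow_mem _ hu₂ m
    have h2 := (ns43_mem_U π V₂ hpV₂ hπ₂ (u₂ ^ m)).mp h1
    rw [Units.val_pow_eq_pow_val] at h2
    exact h2
  have hlm : IsUnit (l ^ m) := hl.pow m
  have htf : (t : F) * f =
      (t' : F) * algebraMap R F (l ^ m) * (θ ^ N) ^ m * (u₂ : F) ^ m := by
    rw [hfε, ← mul_assoc, hte, hψfac, mul_pow, mul_pow, map_pow]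
    ring
  have hN0 : N = 0 := by
    rcases lt_trichotomy N 0 with hlt | heq | hgt
    · exfalso
      obtain ⟨N', hN'⟩ : ∃ N' : ℕ, N = -(N' : ℤ) := ⟨(-N).toNat, by omega⟩
      have hN'pos : 0 < N' := by omega
      have hX : (s * z') ^ (N' * m) ∈ n :=
        Ideal.pow_mem_of_mem n (n.mul_mem_left s hz') _ (Nat.mul_pos hN'pos hm)
      have hY : s' ^ (N' * m) ∉ n := fun h => hs' (hn.isPrime.mem_of_pow_mem _ h)
      apply (ns43_balance π B V₂ hB₂ n hn hbr₂ _ _ hX hY f ((u₂ : F) ^ m) c₂ (l ^ m) hc₂ hlm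
        hf₂ hΥm t t' ht ht').2
      have hXF : (((s * z') ^ (N' * m) : B) : F) = ((s : F) * (z' : F)) ^ (N' * m) := by
        push_cast
        ring
      have hYF : ((s' ^ (N' * m) : B) : F) = (s' : F) ^ (N' * m) := by
        push_cast
        ring
      have key : (θ ^ (-(N' : ℤ))) ^ m * ((s : F) * (z' : F)) ^ (N' * m) =
          (s' : F) ^ (N' * m) := by
        rw [zpow_neg, zpow_natCast, hθdef, div_pow, inv_div, div_pow, ← pow_mul, ← pow_mul,
          div_mul_cancel₀ _ (pow_ne_zero _ (mul_ne_zero hs0 hz'0))]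
      rw [hXF, hYF, htf, hN']
      linear_combination ((t' : F) * algebraMap R F (l ^ m) * (u₂ : F) ^ m) * key
    · exact heq
    · exfalso
      obtain ⟨N', hN'⟩ : ∃ N' : ℕ, N = (N' : ℤ) := ⟨N.toNat, by omega⟩
      have hN'pos : 0 < N' := by omega
      have hX : (s * z') ^ (N' * m) ∈ n :=
        Ideal.pow_mem_of_mem n (n.mul_mem_left s hz') _ (Nat.mul_pos hN'pos hm)
      have hY : s' ^ (N' * m) ∉ n := fun h => hs' (hn.isPrime.mem_of_pow_mem _ h)
      apply (ns43_balance π B V₂ hB₂ n hn hbr₂ _ _ hX hY f ((u₂ : F) ^ m) c₂ (l ^ m) hc₂ hlm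
        hf₂ hΥm t t' ht ht').1
      have hXF : (((s * z') ^ (N' * m) : B) : F) = ((s : F) * (z' : F)) ^ (N' * m) := by
        push_cast
        ring
      have hYF : ((s' ^ (N' * m) : B) : F) = (s' : F) ^ (N' * m) := by
        push_cast
        ring
      have key : (θ ^ ((N' : ℕ) : ℤ)) ^ m * (s' : F) ^ (N' * m) =
          ((s : F) * (z' : F)) ^ (N' * m) := by
        rw [zpow_natCast, hθdef, div_pow, div_pow, ← pow_mul, ← pow_mul,
          div_mul_cancel₀ _ (pow_ne_zero _ hs'0)]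
      rw [hXF, hYF, htf, hN']
      linear_combination ((t' : F) * algebraMap R F (l ^ m) * (u₂ : F) ^ m) * key
  refine ⟨ψ, ε, l, hl, hψ0, hfε, ⟨t, t', ht, ht', hte⟩, hψ₁, ?_⟩
  rw [hψfac, hN0, zpow_zero, mul_one]
  have e : (algebraMap R F π)⁻¹ * (algebraMap R F l * (u₂ : F) - algebraMap R F l) =
      algebraMap R F l * ((algebraMap R F π)⁻¹ * ((u₂ : F) - 1)) := by
    ring
  rw [e]
  exact V₂.mul_mem _ _ (hRV₂ l) hu₂

end ns43_main

end Fermat.Agent.S35
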