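import Fermat.Agent.S34.AtkinLehnerL97
import Fermat.Agent.S37.KroneckerNorm97
import Fermat.Agent.S42.GaloisK1_41

/-!
# S35 lab (helper97): the norm along `α : F(N)_L → F(Nℓ)_L` as a product of `q`-expansions,
over a general coefficient field `L` (with a homomorphism `φ : L → ℚ̄`)

`ng97_norm_gen`: for `h ∈ F(Nℓ)_L`, `ℓ` prime, `ℓ ∤ N`, `ζ` a primitive `ℓ`-th root of unity
of `ℚ̄`, `w = al97L_w` the Atkin-Lehner involution over `L`:

  `(Nm_α h)^φ (q^ℓ) = h^φ (q^ℓ) · ∏_{b<ℓ} (w h)^φ (ζ^b q)`   in `ℚ̄((q))`.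

This is `kn97_norm_gen` (S37, over `ℚ̄`) for the function fields `modularFunctionFieldFullC L`.
All names are prefixed `ng97_`.
-/

set_option autoImplicit false

open ModularCurve AlgebraicCurve IntermediateField
open Fermat.Agent.S24 Fermat.Agent.S28 Fermat.Agent.S18 Fermat.Agent.S37 Fermat.Agent.S34
open Fermat.Agent.S42

namespace Fermat.Agent.S35

section ng97_norm

variable {L : Type} [Field L] (φ : L →+* Kbar)
variable (N ℓ : ℕ) [NeZero N] [NeZero ℓ] (hℓ : ℓ.Prime) (hN : ¬ ℓ ∣ N)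

/-- `[F(Nℓ)_L : α F(N)_L] = ℓ + 1`. -/
theorem ng97_finrank (L : Type) [Field L] (N ℓ : ℕ) [NeZero N] [NeZero ℓ] (hℓ : ℓ.Prime)
    (hN : ¬ ℓ ∣ N) (hL : ((N * ℓ : ℕ) : L) ≠ 0) :
    letI := algebraAlong (al97L_alpha L N ℓ)
    Module.finrank ↥(modularFunctionFieldFullC L N) ↥(modularFunctionFieldFullC L (N * ℓ)) =
      ℓ + 1 := by
  letI := algebraAlong (al97L_alpha L N ℓ)
  have hle : modularFunctionFieldFullC L N ≤ modularFunctionFieldFullC L (N * ℓ) :=
    full_degeneracyC_le L (dvd_mul_right N ℓ)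
  have h1 := gi41_relfinrank_prime L N ℓ hℓ hN hL
  rw [IntermediateField.relfinrank_eq_finrank_of_le hle] at h1
  rw [← h1]
  let e : ↥(modularFunctionFieldFullC L (N * ℓ)) ≃ₗ[↥(modularFunctionFieldFullC L N)]
      ↥(IntermediateField.extendScalars hle) :=
    { toFun := fun x => ⟨x.1, x.2⟩
      invFun := fun x => ⟨x.1, x.2⟩
      map_add' := fun _ _ => rfl
      map_smul' := fun _ _ => rfl
      left_inv := fun _ => rfl
      right_inv := fun _ => rfl }
  exact e.finrank_eq

/-- **The norm along `α` over `L` as a product of `q`-expansions**: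
`(Nm h)^φ(q^ℓ) = h^φ(q^ℓ) · ∏_{b<ℓ} (w h)^φ(ζ^b q)`. -/
theorem ng97_norm_gen (hL : ((N * ℓ : ℕ) : L) ≠ 0) (ζ : Kbarˣ) (hζ : IsPrimitiveRoot ζ ℓ)
    (h : ↥(modularFunctionFieldFullC L (N * ℓ))) :
    letI := algebraAlong (al97L_alpha L N ℓ)
    qExpand Kbar ℓ (coeffMap φ ((Algebra.norm ↥(modularFunctionFieldFullC L N) h :
        ↥(modularFunctionFieldFullC L N)) : LaurentSeries L)) =
      qExpand Kbar ℓ (coeffMap φ (h : LaurentSeries L)) *
        ∏ b : Fin ℓ, twist (ζ ^ (b : ℕ))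
          (coeffMap φ ((al97L_w φ N ℓ hℓ hN h : ↥(modularFunctionFieldFullC L (N * ℓ))) :
            LaurentSeries L)) := by
  letI := algebraAlong (al97L_alpha L N ℓ)
  have hfr := ng97_finrank L N ℓ hℓ hN hL
  haveI : FiniteDimensional ↥(modularFunctionFieldFullC L N)
      ↥(modularFunctionFieldFullC L (N * ℓ)) :=
    Module.finite_of_finrank_pos (by rw [hfr]; omega)
  haveI : CharZero L := RingHom.charZero φ
  haveI : CharZero ↥(modularFunctionFieldFullC L N) :=
    charZero_of_injective_algebraMap (algebraMap L ↥(modularFunctionFieldFullC L N)).injective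
  haveI : Algebra.IsSeparable ↥(modularFunctionFieldFullC L N)
      ↥(modularFunctionFieldFullC L (N * ℓ)) :=
    Algebra.IsAlgebraic.isSeparable_of_perfectField
  let val : ↥(modularFunctionFieldFullC L (N * ℓ)) →+* LaurentSeries Kbar :=
    (coeffMap φ).comp (modularFunctionFieldFullC L (N * ℓ)).val.toRingHom
  let ι : ↥(modularFunctionFieldFullC L N) →+* LaurentSeries Kbar :=
    (qExpand Kbar ℓ).comp ((coeffMap φ).comp (modularFunctionFieldFullC L N).val.toRingHom)
  let σ : Option (Fin ℓ) → (↥(modularFunctionFieldFullC L (N * ℓ)) →+* LaurentSeries Kbar) :=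
    fun i =>
    match i with
    | none => (qExpand Kbar ℓ).comp val
    | some b => (twist (ζ ^ (b : ℕ))).comp
        (val.comp (al97L_w φ N ℓ hℓ hN : ↥(modularFunctionFieldFullC L (N * ℓ)) →+*
          ↥(modularFunctionFieldFullC L (N * ℓ))))
  have hσ : ∀ i, (σ i).comp (algebraMap ↥(modularFunctionFieldFullC L N)
      ↥(modularFunctionFieldFullC L (N * ℓ))) = ι := by
    intro i
    ext1 x
    have hx : algebraMap ↥(modularFunctionFieldFullC L N) ↥(modularFunctionFieldFullC L (N * ℓ)) x =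
        al97L_alpha L N ℓ x := rfl
    rw [RingHom.comp_apply, hx]
    cases i with
    | none =>
      show qExpand Kbar ℓ (coeffMap φ ((al97L_alpha L N ℓ x :
        ↥(modularFunctionFieldFullC L (N * ℓ))) : LaurentSeries L)) =
          qExpand Kbar ℓ (coeffMap φ (x : LaurentSeries L))
      rw [al97L_alpha_coe]
    | some b =>
      show twist (ζ ^ (b : ℕ)) (coeffMap φ ((al97L_w φ N ℓ hℓ hN (al97L_alpha L N ℓ x) :
        ↥(modularFunctionFieldFullC L (N * ℓ))) : LaurentSeries L)) =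
          qExpand Kbar ℓ (coeffMap φ (x : LaurentSeries L))
      rw [al97L_w_alpha_apply, al97L_beta_coe, coeffMap_qExpand]
      exact twist_qExpand_of_pow_eq_one _ ℓ
        (by rw [← pow_mul, mul_comm, pow_mul, hζ.pow_eq_one, one_pow]) _
  have hinj : Function.Injective σ := by
    have hℓ2 : ¬ ((ℓ : ℤ) ∣ (-1 : ℤ)) := by
      intro hd
      have h1 : (ℓ : ℤ) ∣ 1 := (dvd_neg).mp hd
      have h2 : ℓ ∣ 1 := by exact_mod_cast h1
      exact hℓ.one_lt.ne' (Nat.dvd_one.mp h2)
    have hsw : al97_swap ℓ ℓ = 1 := by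
      rw [al97_swap_of_dvd dvd_rfl, Nat.div_self hℓ.pos]
    haveI : NeZero (al97_swap ℓ ℓ) := ⟨by rw [hsw]; exact one_ne_zero⟩
    let x0 : ↥(modularFunctionFieldFullC L (N * ℓ)) :=
      ⟨qExpand L ℓ (jqModC L), jqModCd_mem_full L (N * ℓ) (dvd_mul_left ℓ N)⟩
    have hnone : (σ none x0).coeff (-1) = 0 := by
      show (qExpand Kbar ℓ (coeffMap φ (qExpand L ℓ (jqModC L)))).coeff (-1) = 0
      exact qExpand_coeff_of_not_dvd ℓ _ hℓ2
    have hw0 : coeffMap φ ((al97L_w φ N ℓ hℓ hN x0 : ↥(modularFunctionFieldFullC L (N * ℓ))) :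
        LaurentSeries L) = JJ 1 := by
      rw [al97L_w_gen φ N ℓ hℓ hN ℓ (dvd_mul_left ℓ N) x0 rfl]
      have h1 : ∀ (d : ℕ) [NeZero d], d = 1 →
          qExpand L d (jqModC L) = qExpand L 1 (jqModC L) := by
        intro d _ hd
        subst hd
        rfl
      rw [h1 _ hsw]
      exact al97L_coeffMap_gen φ 1
    have hsome : ∀ b : Fin ℓ, (σ (some b) x0).coeff (-1) =
        (((ζ ^ (b : ℕ)) ^ (-1 : ℤ) : Kbarˣ) : Kbar) := by
      intro b
      show (twist (ζ ^ (b : ℕ)) (coeffMap φ ((al97L_w φ N ℓ hℓ hN x0 :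
        ↥(modularFunctionFieldFullC L (N * ℓ))) : LaurentSeries L))).coeff (-1) = _
      rw [hw0, twist_coeff, kn97_JJ_one_coeff, mul_one]
    intro i j hij
    have hc : (σ i x0).coeff (-1) = (σ j x0).coeff (-1) := by rw [hij]
    cases i with
    | none =>
      cases j with
      | none => rfl
      | some b =>
        rw [hnone, hsome] at hc
        exact absurd hc.symm (Units.ne_zero _)
    | some a =>
      cases j with
      | none =>
        rw [hnone, hsome] at hc
        exact absurd hc (Units.ne_zero _)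
      | some b =>
        rw [hsome, hsome] at hc
        have h1 : (ζ ^ (a : ℕ)) ^ (-1 : ℤ) = (ζ ^ (b : ℕ)) ^ (-1 : ℤ) := Units.ext hc
        have h2 : ζ ^ (a : ℕ) = ζ ^ (b : ℕ) := by
          simpa using h1
        have h3 : (a : ℕ) = (b : ℕ) := hζ.pow_inj a.2 b.2 h2
        exact congrArg some (Fin.ext h3)
  have hn : Module.finrank ↥(modularFunctionFieldFullC L N)
      ↥(modularFunctionFieldFullC L (N * ℓ)) = Fintype.card (Option (Fin ℓ)) := by
    rw [hfr, Fintype.card_option, Fintype.card_fin]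
  have hmain := kn97_norm_eq_prod ι σ hσ hinj hn h
  rw [Fintype.prod_option] at hmain
  exact hmain

end ng97_norm

end Fermat.Agent.S35
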