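import Mathlib

/-!
# S35 lab (helper25): the norm formula modulo `π` (abstract, Mathlib only)

Step (1b) of the S35 proof text: `W = ⊕_{i ≤ q} V' yⁱ`, `Φ_q(y, j) ≡ (y - j^q)(y^q - j) mod π`
(Kronecker), hence `red'(N_α x) = red_∞(x) · sb(red_0 x)`.

Abstract form proved here:

* `nr25_mat Φ P n` : the matrix of multiplication by `P` on `A[X]/(Φ)` in the monomial basis;
* `nr25_norm_eq_det` : for an `A`-algebra `S` with a basis `1, y, ..., y^(n-1)` and a monic
  `Φ` of degree `n` killing `y`: `Algebra.norm A (aeval y P) = det (nr25_mat Φ P n)`;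
* `nr25_norm_base_change` : the norm of `aeval y P` lies in the image of the coefficient ring
  and its image under any ring hom `red` to a field is the norm of `P` in `k[X]/(Φ̄)`;
* `nr25_norm_mul_coprime`, `nr25_norm_linear`, `nr25_norm_insep` : the norm on
  `k[X]/(f g)` (coprime), on `k[X]/(X - a)` and on `k[X]/(X^q - b)` in characteristic `q`;
* `nr25_norm_kronecker` : `N_{k[X]/((X - a)(X^q - b))}(P) = P(a) · P^{(q)}(b)`;
* `nr25_norm_red`, `nr25_norm_red_sum` : the norm formula modulo `π`.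
-/

set_option autoImplicit false

namespace Fermat.Agent.S35

open Polynomial

section General

variable {A : Type*} [CommRing A]

/-- The matrix of multiplication by `P` on `A[X]/(Φ)` in the basis `1, X, ..., X^(n-1)`. -/
noncomputable def nr25_mat (Φ P : A[X]) (n : ℕ) : Matrix (Fin n) (Fin n) A :=
  Matrix.of fun i j => ((P * X ^ (j : ℕ)) %ₘ Φ).coeff (i : ℕ)

theorem nr25_mat_map {B : Type*} [CommRing B] (φ : A →+* B) {Φ : A[X]} (hΦ : Φ.Monic)
    (P : A[X]) (n : ℕ) :
    (nr25_mat Φ P n).map φ = nr25_mat (Φ.map φ) (P.map φ) n := by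
  ext i j
  simp only [nr25_mat, Matrix.map_apply, Matrix.of_apply]
  rw [← Polynomial.coeff_map, Polynomial.map_modByMonic _ hΦ, Polynomial.map_mul,
    Polynomial.map_pow, Polynomial.map_X]

/-- The norm of `P(y)` as the determinant of the multiplication matrix of `P` modulo `Φ`. -/
theorem nr25_norm_eq_det {S : Type*} [CommRing S] [Algebra A S] (y : S) (n : ℕ)
    (b : Module.Basis (Fin n) A S) (hb : ∀ i, b i = y ^ (i : ℕ))
    (Φ : A[X]) (hΦ : Φ.Monic) (hn : Φ.natDegree = n) (hy : aeval y Φ = 0) (P : A[X]) :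
    Algebra.norm A (aeval y P) = (nr25_mat Φ P n).det := by
  classical
  rcases subsingleton_or_nontrivial A with hA | hA
  · exact Subsingleton.elim _ _
  rw [Algebra.norm_eq_matrix_det b]
  congr 1
  ext i j
  rw [Algebra.leftMulMatrix_eq_repr_mul]
  show _ = ((P * X ^ (j : ℕ)) %ₘ Φ).coeff (i : ℕ)
  set G : A[X] := P * X ^ (j : ℕ) with hG
  set r : A[X] := G %ₘ Φ with hr
  have h1 : aeval y P * b j = aeval y r := by
    have h2 : aeval y G = aeval y r := by
      conv_lhs => rw [← Polynomial.modByMonic_add_div G Φ]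
      rw [map_add, map_mul, hy, zero_mul, add_zero]
    rw [← h2, hG, map_mul, map_pow, aeval_X, hb]
  have hdeg : r.natDegree < n := by
    rw [← hn]
    have hΦ1 : Φ ≠ 1 := by
      intro h
      have h0 : n = 0 := by rw [← hn, h, natDegree_one]
      exact absurd i.pos (by omega)
    exact Polynomial.natDegree_modByMonic_lt G hΦ hΦ1
  have h3 : aeval y r = ∑ i : Fin n, r.coeff (i : ℕ) • b i := by
    conv_lhs => rw [Polynomial.as_sum_range' r n hdeg]
    rw [map_sum, Finset.sum_range]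
    refine Finset.sum_congr rfl fun i _ => ?_
    rw [Polynomial.aeval_monomial, hb, Algebra.smul_def]
  rw [h1, h3, Module.Basis.repr_sum_self]

/-- **Base change of the norm**: if `S` has the `A'`-basis `1, y, ..., y^(n-1)`, `Φ` is a monic
polynomial of degree `n` over a ring `A` mapping to `A'` with `Φ(y) = 0`, then the norm of
`P(y)` (`P ∈ A[X]`) is the image of an element `N ∈ A`, and for every ring hom `red : A → k`
into a nontrivial ring, `red N` is the norm of `P` in `k[X]/(Φ̄)`. -/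
theorem nr25_norm_base_change {A' S : Type*} [CommRing A'] [CommRing S] [Algebra A' S]
    (y : S) (n : ℕ) (b : Module.Basis (Fin n) A' S) (hb : ∀ i, b i = y ^ (i : ℕ))
    (ι : A →+* A') (Φ : A[X]) (hΦ : Φ.Monic) (hn : Φ.natDegree = n)
    (hy : aeval y (Φ.map ι) = 0)
    {k : Type*} [CommRing k] [Nontrivial k] (red : A →+* k) (P : A[X]) :
    ∃ N : A, Algebra.norm A' (aeval y (P.map ι)) = ι N ∧
      red N = Algebra.norm k (AdjoinRoot.mk (Φ.map red) (P.map red)) := by
  refine ⟨(nr25_mat Φ P n).det, ?_, ?_⟩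
  · rcases subsingleton_or_nontrivial A' with hA | hA
    · exact Subsingleton.elim _ _
    rw [nr25_norm_eq_det y n b hb (Φ.map ι) (hΦ.map ι) (by rw [hΦ.natDegree_map, hn]) hy,
      RingHom.map_det, RingHom.mapMatrix_apply, nr25_mat_map ι hΦ]
  · have hΦ' : (Φ.map red).Monic := hΦ.map red
    have hn' : (Φ.map red).natDegree = n := by rw [hΦ.natDegree_map, hn]
    have h := nr25_norm_eq_det (AdjoinRoot.root (Φ.map red)) (Φ.map red).natDegree
      (AdjoinRoot.powerBasisAux' hΦ') (fun i => (AdjoinRoot.powerBasis' hΦ').basis_eq_pow i)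
      (Φ.map red) hΦ' rfl
      (by rw [AdjoinRoot.aeval_eq, AdjoinRoot.mk_self]) (P.map red)
    rw [AdjoinRoot.aeval_eq] at h
    rw [h, RingHom.map_det, RingHom.mapMatrix_apply, nr25_mat_map red hΦ]
    subst hn
    rw [hΦ.natDegree_map]

end General

section Field

variable {k : Type*} [Field k]

/-- The norm on `k[X]/(X - a)` is evaluation at `a`. -/
theorem nr25_norm_linear (a : k) (P : k[X]) :
    Algebra.norm k (AdjoinRoot.mk (X - C a) P) = P.eval a := by
  have hm : (X - C a).Monic := monic_X_sub_C a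
  have h1 : AdjoinRoot.mk (X - C a) P = algebraMap k (AdjoinRoot (X - C a)) (P.eval a) := by
    rw [AdjoinRoot.algebraMap_eq, ← AdjoinRoot.mk_C, AdjoinRoot.mk_eq_mk]
    exact Polynomial.X_sub_C_dvd_sub_C_eval
  have : Module.Free k (AdjoinRoot (X - C a)) := hm.free_adjoinRoot
  have : Module.Finite k (AdjoinRoot (X - C a)) := hm.finite_adjoinRoot
  rw [h1, Algebra.norm_algebraMap, (AdjoinRoot.powerBasis' hm).finrank]
  simp

/-- The norm on `k[X]/(X^q - b)` in characteristic `q` is `P ↦ P^{(q)}(b)`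
(coefficients raised to the `q`-th power, evaluated at `b`). -/
theorem nr25_norm_insep (q : ℕ) [hq : Fact q.Prime] [CharP k q] (b : k) (P : k[X]) :
    Algebra.norm k (AdjoinRoot.mk (X ^ q - C b) P) = (P.map (frobenius k q)).eval b := by
  have hm : (X ^ q - C b : k[X]).Monic := monic_X_pow_sub_C b hq.out.ne_zero
  have hdeg : (X ^ q - C b : k[X]).natDegree = q := natDegree_X_pow_sub_C
  have : Module.Free k (AdjoinRoot (X ^ q - C b)) := hm.free_adjoinRoot
  have : Module.Finite k (AdjoinRoot (X ^ q - C b)) := hm.finite_adjoinRoot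
  have hfr : Module.finrank k (AdjoinRoot (X ^ q - C b)) = q := by
    rw [(AdjoinRoot.powerBasis' hm).finrank]
    exact hdeg
  have hXq : AdjoinRoot.mk (X ^ q - C b) (X ^ q) = AdjoinRoot.mk (X ^ q - C b) (C b) := by
    rw [AdjoinRoot.mk_eq_mk]
  have h1 : AdjoinRoot.mk (X ^ q - C b) P ^ q =
      algebraMap k (AdjoinRoot (X ^ q - C b)) ((P.map (frobenius k q)).eval b) := by
    have hPq : P ^ q = (P.map (frobenius k q)).comp (X ^ q) := by
      rw [← map_frobenius_expand (p := q) P, Polynomial.map_expand, expand_eq_comp_X_pow]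
    rw [← map_pow, hPq, AdjoinRoot.algebraMap_eq, ← AdjoinRoot.mk_C, AdjoinRoot.mk_eq_mk]
    obtain ⟨R, hR⟩ := Polynomial.X_sub_C_dvd_sub_C_eval (a := b) (p := P.map (frobenius k q))
    refine ⟨R.comp (X ^ q), ?_⟩
    have h := congrArg (fun t : k[X] => t.comp (X ^ q)) hR
    simp only [sub_comp, mul_comp, X_comp, C_comp] at h
    exact h
  have h2 : Algebra.norm k (AdjoinRoot.mk (X ^ q - C b) P) ^ q =
      ((P.map (frobenius k q)).eval b) ^ q := by
    rw [← map_pow, h1, Algebra.norm_algebraMap, hfr]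
  exact frobenius_inj k q h2

/-- The norm on a product of algebras. -/
theorem nr25_norm_prod {S₁ S₂ : Type*} [CommRing S₁] [CommRing S₂] [Algebra k S₁] [Algebra k S₂]
    [Module.Finite k S₁] [Module.Finite k S₂] (x₁ : S₁) (x₂ : S₂) :
    Algebra.norm k ((x₁, x₂) : S₁ × S₂) = Algebra.norm k x₁ * Algebra.norm k x₂ := by
  rw [Algebra.norm_apply, Algebra.norm_apply, Algebra.norm_apply, ← LinearMap.det_prodMap]
  congr 1

/-- The norm on `k[X]/(f g)` for coprime monic `f`, `g`. -/
theorem nr25_norm_mul_coprime (f g : k[X]) (hf : f.Monic) (hg : g.Monic) (hfg : IsCoprime f g)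
    (P : k[X]) :
    Algebra.norm k (AdjoinRoot.mk (f * g) P) =
      Algebra.norm k (AdjoinRoot.mk f P) * Algebra.norm k (AdjoinRoot.mk g P) := by
  have hfgm : (f * g).Monic := hf.mul hg
  have : Module.Free k (AdjoinRoot f) := hf.free_adjoinRoot
  have : Module.Finite k (AdjoinRoot f) := hf.finite_adjoinRoot
  have : Module.Free k (AdjoinRoot g) := hg.free_adjoinRoot
  have : Module.Finite k (AdjoinRoot g) := hg.finite_adjoinRoot
  have : Module.Free k (AdjoinRoot (f * g)) := hfgm.free_adjoinRoot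
  have : Module.Finite k (AdjoinRoot (f * g)) := hfgm.finite_adjoinRoot
  let ψ₁ : AdjoinRoot (f * g) →ₐ[k] AdjoinRoot f :=
    AdjoinRoot.liftAlgHom (f * g) (Algebra.ofId k (AdjoinRoot f)) (AdjoinRoot.root f) (by
      have h : aeval (AdjoinRoot.root f) (f * g) = 0 := by
        rw [map_mul, AdjoinRoot.aeval_eq, AdjoinRoot.mk_self, zero_mul]
      exact h)
  let ψ₂ : AdjoinRoot (f * g) →ₐ[k] AdjoinRoot g :=
    AdjoinRoot.liftAlgHom (f * g) (Algebra.ofId k (AdjoinRoot g)) (AdjoinRoot.root g) (by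
      have h : aeval (AdjoinRoot.root g) (f * g) = 0 := by
        rw [map_mul, AdjoinRoot.aeval_eq (f := g) g, AdjoinRoot.mk_self, mul_zero]
      exact h)
  have hψ₁ : ∀ Q : k[X], ψ₁ (AdjoinRoot.mk (f * g) Q) = AdjoinRoot.mk f Q := fun Q => by
    show eval₂ _ _ Q = _
    exact AdjoinRoot.aeval_eq Q
  have hψ₂ : ∀ Q : k[X], ψ₂ (AdjoinRoot.mk (f * g) Q) = AdjoinRoot.mk g Q := fun Q => by
    show eval₂ _ _ Q = _
    exact AdjoinRoot.aeval_eq Q
  let ψ : AdjoinRoot (f * g) →ₐ[k] AdjoinRoot f × AdjoinRoot g := ψ₁.prod ψ₂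
  have hinj : Function.Injective ψ := by
    rw [injective_iff_map_eq_zero]
    intro z hz
    obtain ⟨Q, rfl⟩ := AdjoinRoot.mk_surjective z
    have h1 : ψ₁ (AdjoinRoot.mk (f * g) Q) = 0 := congrArg Prod.fst hz
    have h2 : ψ₂ (AdjoinRoot.mk (f * g) Q) = 0 := congrArg Prod.snd hz
    rw [hψ₁, AdjoinRoot.mk_eq_zero] at h1
    rw [hψ₂, AdjoinRoot.mk_eq_zero] at h2
    rw [AdjoinRoot.mk_eq_zero]
    exact hfg.mul_dvd h1 h2
  have hfin : Module.finrank k (AdjoinRoot (f * g)) =
      Module.finrank k (AdjoinRoot f × AdjoinRoot g) := by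
    rw [Module.finrank_prod, (AdjoinRoot.powerBasis' hf).finrank,
      (AdjoinRoot.powerBasis' hg).finrank, (AdjoinRoot.powerBasis' hfgm).finrank]
    show (f * g).natDegree = f.natDegree + g.natDegree
    exact natDegree_mul hf.ne_zero hg.ne_zero
  have hsurj : Function.Surjective ψ :=
    (LinearMap.injective_iff_surjective_of_finrank_eq_finrank (f := ψ.toLinearMap) hfin).mp hinj
  let e : AdjoinRoot (f * g) ≃ₐ[k] AdjoinRoot f × AdjoinRoot g :=
    AlgEquiv.ofBijective ψ ⟨hinj, hsurj⟩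
  have he : e (AdjoinRoot.mk (f * g) P) = (AdjoinRoot.mk f P, AdjoinRoot.mk g P) := by
    show ψ _ = _
    exact Prod.ext (hψ₁ P) (hψ₂ P)
  rw [← Algebra.norm_eq_of_algEquiv e, he, nr25_norm_prod]

/-- **Kronecker shape**: the norm on `k[X]/((X - a)(X^q - b))` in characteristic `q`. -/
theorem nr25_norm_kronecker (q : ℕ) [hq : Fact q.Prime] [CharP k q] (a b : k) (hab : a ^ q ≠ b)
    (P : k[X]) :
    Algebra.norm k (AdjoinRoot.mk ((X - C a) * (X ^ q - C b)) P) =
      P.eval a * (P.map (frobenius k q)).eval b := by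
  have hcop : IsCoprime (X - C a) (X ^ q - C b : k[X]) := by
    have hirr : Irreducible (X - C a) := irreducible_X_sub_C a
    refine (EuclideanDomain.dvd_or_coprime _ _ hirr).resolve_left ?_
    rw [dvd_iff_isRoot]
    simp [hab, sub_eq_zero]
  rw [nr25_norm_mul_coprime _ _ (monic_X_sub_C a) (monic_X_pow_sub_C b hq.out.ne_zero) hcop,
    nr25_norm_linear, nr25_norm_insep]

end Field

section Main

variable {A A' S k : Type*} [CommRing A] [CommRing A'] [CommRing S] [Algebra A' S] [Field k]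

/-- **The norm formula modulo `π`** (step (1b), abstract form).  `S` has the `A'`-basis
`1, y, ..., y^q`; `Φ ∈ A[X]` is monic with `Φ(y) = 0` and reduces under `red : A → k`
(`k` a field of characteristic `q`) to `(X - a)(X^q - b₀)` with `a^q ≠ b₀`.  Then for every
`P ∈ A[X]` the norm of `P(y)` is (the image of) an element `N` of `A` and
`red N = P̄(a) · P̄^{(q)}(b₀)`. -/
theorem nr25_norm_red (q : ℕ) [hq : Fact q.Prime] [CharP k q]
    (y : S) (b : Module.Basis (Fin (q + 1)) A' S) (hb : ∀ i, b i = y ^ (i : ℕ))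
    (ι : A →+* A') (Φ : A[X]) (hΦ : Φ.Monic) (hy : aeval y (Φ.map ι) = 0)
    (red : A →+* k) (a b₀ : k) (hab : a ^ q ≠ b₀)
    (hΦred : Φ.map red = (X - C a) * (X ^ q - C b₀)) (P : A[X]) :
    ∃ N : A, Algebra.norm A' (aeval y (P.map ι)) = ι N ∧
      red N = (P.map red).eval a * ((P.map red).map (frobenius k q)).eval b₀ := by
  have hn : Φ.natDegree = q + 1 := by
    rw [← hΦ.natDegree_map red, hΦred,
      natDegree_mul (X_sub_C_ne_zero a) (monic_X_pow_sub_C b₀ hq.out.ne_zero).ne_zero,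
      natDegree_X_sub_C, natDegree_X_pow_sub_C, add_comm]
  obtain ⟨N, h1, h2⟩ := nr25_norm_base_change y (q + 1) b hb ι Φ hΦ hn hy red P
  refine ⟨N, h1, ?_⟩
  rw [h2, hΦred, nr25_norm_kronecker q a b₀ hab]

/-- The same for `x = ∑_{i ≤ q} c_i y^i` with `c_i ∈ A`:
`red (N x) = (∑ c̄_i a^i) · (∑ c̄_i^q b₀^i)`. -/
theorem nr25_norm_red_sum (q : ℕ) [hq : Fact q.Prime] [CharP k q]
    (y : S) (b : Module.Basis (Fin (q + 1)) A' S) (hb : ∀ i, b i = y ^ (i : ℕ))
    (ι : A →+* A') (Φ : A[X]) (hΦ : Φ.Monic) (hy : aeval y (Φ.map ι) = 0)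
    (red : A →+* k) (a b₀ : k) (hab : a ^ q ≠ b₀)
    (hΦred : Φ.map red = (X - C a) * (X ^ q - C b₀)) (c : Fin (q + 1) → A) :
    ∃ N : A, Algebra.norm A' (∑ i, algebraMap A' S (ι (c i)) * y ^ (i : ℕ)) = ι N ∧
      red N = (∑ i, red (c i) * a ^ (i : ℕ)) * (∑ i, red (c i) ^ q * b₀ ^ (i : ℕ)) := by
  obtain ⟨N, h1, h2⟩ := nr25_norm_red q y b hb ι Φ hΦ hy red a b₀ hab hΦred
    (∑ i : Fin (q + 1), monomial (i : ℕ) (c i))
  refine ⟨N, ?_, ?_⟩
  · rw [← h1]
    congr 1
    rw [Polynomial.map_sum, map_sum]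
    refine Finset.sum_congr rfl fun i _ => ?_
    rw [Polynomial.map_monomial, aeval_monomial]
  · rw [h2]
    congr 1
    · rw [Polynomial.map_sum, eval_finsetSum]
      refine Finset.sum_congr rfl fun i _ => ?_
      rw [Polynomial.map_monomial, eval_monomial]
    · rw [Polynomial.map_sum, Polynomial.map_sum, eval_finsetSum]
      refine Finset.sum_congr rfl fun i _ => ?_
      rw [Polynomial.map_monomial, Polynomial.map_monomial, eval_monomial, frobenius_def]

end Main

end Fermat.Agent.S35
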