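import Fermat.Agent.S34.TwoValInst84
import Fermat.Agent.S34.ModPolyShape78
import Fermat.Agent.S37.KroneckerFrob50
import Fermat.Agent.S35.NormRed25

/-!
# S35 lab, row 543 `L1b-inst` (helper78): the norm formula modulo `π` on `W = V_∞ ⊓ V_0`

Level `M = M' q` (`q` prime, `q ∤ M'`), `R` a discrete valuation ring of residue characteristic
`q` with fraction field `K`, `F = F(M' q)_K`, `E = F(M')_K`, `α, β : E → F` the two degeneracy
maps (`al97L_alpha`, `al97L_beta`), `w` the Atkin–Lehner involution (`al97L_w`), `V' ⊆ E` and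
`V_∞ ⊆ F` the Gauss valuation rings (`cm85_Vinf`), `red = tv84_red` the reduction of
Gauss-integral series to `κ((Q))`.

For `x ∈ W = V_∞ ⊓ w⁻¹ V_∞`:

* `ni78_norm_alpha` : the norm `N_α x` of `x` along `α` (`Algebra.norm` for `algebraAlong α`) lies
  in `V'` and `red (N_α x) = red x * sb (red (w x))`, `sb` the coefficientwise Frobenius;
* `ni78_norm_beta` : the norm `N_β x` along `β` lies in `V'` and
  `red (N_β x) = red (w x) * sb (red x)`;
* `ni78_norm_beta_eq` : `N_β x = N_α (w x)`.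

This binds the abstract `nr25_norm_red_sum` (NormRed25) to `tv84_main` (`W = ⊕ V' y^i`,
`y = j(Q^q)`) and to the Kronecker congruence `kc87_exists`.
-/

set_option autoImplicit false
set_option linter.style.haveILetI false
set_option linter.unusedSectionVars false

open ModularCurve AlgebraicCurve Polynomial

namespace Fermat.Agent.S35

open Fermat.Agent.S18 Fermat.Agent.S28 Fermat.Agent.S34 Fermat.Agent.S37

section ni78_basis

variable {R K : Type} [CommRing R] [IsDomain R] [IsDiscreteValuationRing R] [Field K]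
  [Algebra R K] [IsFractionRing R K]
variable (M' q : ℕ) [NeZero M'] [NeZero q]

/-- The element `y = β(j) = j(Q^q)` of `F(M' q)_K`. -/
noncomputable def ni78_y (K : Type) [Field K] (M' q : ℕ) [NeZero M'] [NeZero q] :
    ↥(modularFunctionFieldFullC K (M' * q)) :=
  al97L_beta K M' q ⟨jqModC K, jqModC_mem_full K M'⟩

theorem ni78_y_coe (K : Type) [Field K] (M' q : ℕ) [NeZero M'] [NeZero q] :
    ((ni78_y K M' q : ↥(modularFunctionFieldFullC K (M' * q))) : LaurentSeries K) =
      qExpand K q (jqModC K) := rfl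

/-- The coercion `F(M' q)_K → K((Q))` as an `F(M')_K`-linear map (`F(M' q)_K` being an
`F(M')_K`-module along `α`). -/
noncomputable def ni78_coeLin (K : Type) [Field K] (M' q : ℕ) [NeZero M'] [NeZero q] :
    letI := algebraAlong (al97L_alpha K M' q)
    ↥(modularFunctionFieldFullC K (M' * q)) →ₗ[↥(modularFunctionFieldFullC K M')]
      LaurentSeries K :=
  letI := algebraAlong (al97L_alpha K M' q)
  { toFun := fun s => (s : LaurentSeries K)
    map_add' := fun _ _ => rfl
    map_smul' := fun a s => by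
      show ((al97L_alpha K M' q a * s : ↥(modularFunctionFieldFullC K (M' * q))) :
        LaurentSeries K) = (a : LaurentSeries K) * (s : LaurentSeries K)
      rw [MulMemClass.coe_mul, al97L_alpha_coe] }

/-- **`1, y, …, y^q` is a basis of `F(M' q)_K` over `F(M')_K` along `α`.** -/
theorem ni78_exists_basis (φ : K →+* Fermat.Agent.S24.Kbar) (hq : q.Prime)
    (hqM' : ¬ q ∣ M') {π : R} (hπ : Irreducible π) (hqR : ¬ IsUnit (q : R))
    (hK : ((M' * q : ℕ) : K) ≠ 0) :
    letI := algebraAlong (al97L_alpha K M' q)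
    ∃ b : Module.Basis (Fin (q + 1)) ↥(modularFunctionFieldFullC K M')
        ↥(modularFunctionFieldFullC K (M' * q)),
      ∀ i, b i = ni78_y K M' q ^ (i : ℕ) := by
  letI := algebraAlong (al97L_alpha K M' q)
  have hLI0 := tv84_linearIndependent M' q φ hq hqM' hπ hqR
  have hLI : LinearIndependent ↥(modularFunctionFieldFullC K M')
      (fun i : Fin (q + 1) => ni78_y K M' q ^ (i : ℕ)) := by
    refine LinearIndependent.of_comp (ni78_coeLin K M' q) ?_
    exact hLI0
  have hsp : ⊤ ≤ Submodule.span ↥(modularFunctionFieldFullC K M')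
      (Set.range fun i : Fin (q + 1) => ni78_y K M' q ^ (i : ℕ)) := by
    intro s _
    obtain ⟨c, hc⟩ := tv84_span M' q φ hq hqM' hπ hqR hK (s : LaurentSeries K) s.2
    have hs : s = ∑ i, c i • ni78_y K M' q ^ (i : ℕ) := by
      apply Subtype.ext
      rw [hc]
      simp only [AddSubmonoidClass.coe_finsetSum]
      refine Finset.sum_congr rfl fun i _ => ?_
      show _ = ((al97L_alpha K M' q (c i) * ni78_y K M' q ^ (i : ℕ) :
        ↥(modularFunctionFieldFullC K (M' * q))) : LaurentSeries K)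
      rw [MulMemClass.coe_mul, SubmonoidClass.coe_pow, al97L_alpha_coe, ni78_y_coe]
    rw [hs]
    exact Submodule.sum_mem _ fun i _ =>
      Submodule.smul_mem _ (c i) (Submodule.subset_span ⟨i, rfl⟩)
  exact ⟨Module.Basis.mk hLI hsp, fun i => by rw [Module.Basis.mk_apply]⟩

end ni78_basis

section ni78_main

variable {R K : Type} [CommRing R] [IsDomain R] [IsDiscreteValuationRing R] [Field K]
  [Algebra R K] [IsFractionRing R K]
variable (M' q : ℕ) [NeZero M'] [NeZero q]

variable (K) in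
/-- The inclusion of the Gauss valuation ring `cm85_Vinf M` of `F(M)_K` into the ring `tv84_G` of
Gauss-integral Laurent series. -/
noncomputable def ni78_incl (M : ℕ) [NeZero M] {π : R} (hπ : Irreducible π) :
    ↥(cm85_Vinf (K := K) M hπ) →+* ↥(tv84_G K (IsLocalRing.residue R)) where
  toFun a := ⟨((a : ↥(modularFunctionFieldFullC K M)) : LaurentSeries K), a.2⟩
  map_one' := rfl
  map_mul' _ _ := rfl
  map_zero' := rfl
  map_add' _ _ := rfl

/-- The residue characteristic is `q`. -/
theorem ni78_charP (hq : q.Prime) (hqR : ¬ IsUnit (q : R)) :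
    CharP (IsLocalRing.ResidueField R) q := by
  have hchar : (q : IsLocalRing.ResidueField R) = 0 := by
    have h1 : IsLocalRing.residue R (q : R) = 0 :=
      (IsLocalRing.residue_eq_zero_iff _).mpr ((IsLocalRing.mem_maximalIdeal _).mpr hqR)
    rwa [map_natCast] at h1
  exact (CharP.charP_iff_prime_eq_zero hq).mpr hchar

/-- `E (sb g) = g ^ q`: for a ring endomorphism `Fr` of a ring of characteristic `q` with
`Fr c = c ^ q`. -/
theorem ni78_qExpand_frob {κ : Type*} [CommRing κ] (hq : q.Prime) [CharP κ q]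
    (Fr : κ →+* κ) (hFr : ∀ c, Fr c = c ^ q) (g : LaurentSeries κ) :
    qExpand κ q (coeffMap Fr g) = g ^ q := by
  haveI : ExpChar κ q := ExpChar.prime hq
  have h : Fr = frobenius κ q := RingHom.ext fun c => by rw [hFr, frobenius_def]
  rw [h, ← kr50_pow_char]

variable (K) in
/-- The element `j` of the Gauss ring `V'` of level `M'`. -/
noncomputable def ni78_jA {π : R} (hπ : Irreducible π) : ↥(cm85_Vinf (K := K) M' hπ) :=
  ⟨⟨jqModC K, jqModC_mem_full K M'⟩, tv84_J_mem (K := K) (IsLocalRing.residue R)⟩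

variable (K) in
/-- Evaluation `ℤ[Y] → V'`, `Y ↦ j`. -/
noncomputable def ni78_evA {π : R} (hπ : Irreducible π) :
    Polynomial ℤ →+* ↥(cm85_Vinf (K := K) M' hπ) :=
  Polynomial.eval₂RingHom (Int.castRingHom ↥(cm85_Vinf (K := K) M' hπ)) (ni78_jA K M' hπ)

theorem ni78_evA_X {π : R} (hπ : Irreducible π) :
    ni78_evA K M' hπ Polynomial.X = ni78_jA K M' hπ := by
  simp [ni78_evA]

variable (K) in
/-- The reduction `V' → κ((Q))`. -/
noncomputable def ni78_red (M : ℕ) [NeZero M] {π : R} (hπ : Irreducible π) :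
    ↥(cm85_Vinf (K := K) M hπ) →+* LaurentSeries (IsLocalRing.ResidueField R) :=
  (tv84_red (IsLocalRing.residue R)).comp (ni78_incl K M hπ)

theorem ni78_red_jA {π : R} (hπ : Irreducible π) :
    ni78_red K M' hπ (ni78_jA K M' hπ) = jqModC (IsLocalRing.ResidueField R) :=
  tv84_red_J (K := K) (IsLocalRing.residue R) _

/-- The relation `Φ(y; j) = 0` over `V'`, along `α`. -/
theorem ni78_rel {π : R} (hπ : Irreducible π) (Φ : Polynomial (Polynomial ℤ))
    (hrel : Φ.eval₂ (evJ ℤ) (JdC ℤ q) = 0) :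
    letI := algebraAlong (al97L_alpha K M' q)
    Polynomial.aeval (ni78_y K M' q)
      ((Φ.map (ni78_evA K M' hπ)).map (cm85_Vinf (K := K) M' hπ).subtype) = 0 := by
  letI := algebraAlong (al97L_alpha K M' q)
  have hq0 : q ≠ 0 := NeZero.ne q
  have h1 := mps78_rel_of_emb q hq0 Φ hrel
    (modularFunctionFieldFullC K (M' * q)).val.toRingHom Subtype.val_injective 1 one_ne_zero
    (al97L_alpha K M' q ⟨jqModC K, jqModC_mem_full K M'⟩) (ni78_y K M' q)
    (by
      show ((al97L_alpha K M' q ⟨jqModC K, jqModC_mem_full K M'⟩ :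
        ↥(modularFunctionFieldFullC K (M' * q))) : LaurentSeries K) = JdC K 1
      rw [al97L_alpha_coe, JdC_one])
    (by
      show ((ni78_y K M' q : ↥(modularFunctionFieldFullC K (M' * q))) :
        LaurentSeries K) = JdC K (1 * q)
      rw [ni78_y_coe, one_mul, JdC_of_neZero])
  rw [Polynomial.map_map, Polynomial.aeval_def, Polynomial.eval₂_map]
  have h2 : (algebraMap ↥(modularFunctionFieldFullC K M')
      ↥(modularFunctionFieldFullC K (M' * q))).comp
        ((cm85_Vinf (K := K) M' hπ).subtype.comp (ni78_evA K M' hπ)) =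
      ((Polynomial.aeval (al97L_alpha K M' q ⟨jqModC K, jqModC_mem_full K M'⟩) :
        Polynomial ℤ →ₐ[ℤ] ↥(modularFunctionFieldFullC K (M' * q))) :
        Polynomial ℤ →+* ↥(modularFunctionFieldFullC K (M' * q))) := by
    refine Polynomial.ringHom_ext' (RingHom.ext_int _ _) ?_
    rw [RingHom.comp_apply, RingHom.comp_apply, ni78_evA_X]
    simp only [RingHom.coe_coe, Polynomial.aeval_X]
    rfl
  rw [h2]
  exact h1

/-- The Kronecker factorisation of the reduced modular equation. -/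
theorem ni78_red_Phi (hq : q.Prime) {π : R} (hπ : Irreducible π) (hqR : ¬ IsUnit (q : R))
    (Φ Ψ : Polynomial (Polynomial ℤ))
    (hΨ : Φ = (Polynomial.X - Polynomial.C (Polynomial.X ^ q)) *
        (Polynomial.X ^ q - Polynomial.C Polynomial.X) +
      Polynomial.C (Polynomial.C (q : ℤ)) * Ψ) :
    (Φ.map (ni78_evA K M' hπ)).map (ni78_red K M' hπ) =
      (Polynomial.X - Polynomial.C (jqModC (IsLocalRing.ResidueField R) ^ q)) *
        (Polynomial.X ^ q - Polynomial.C (jqModC (IsLocalRing.ResidueField R))) := by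
  haveI hcharP : CharP (IsLocalRing.ResidueField R) q := ni78_charP q hq hqR
  haveI hcharL : CharP (LaurentSeries (IsLocalRing.ResidueField R)) q :=
    charP_of_injective_ringHom
      (f := (HahnSeries.C : IsLocalRing.ResidueField R →+*
        LaurentSeries (IsLocalRing.ResidueField R))) HahnSeries.C_injective q
  have hX : (ni78_red K M' hπ).comp (ni78_evA K M' hπ) Polynomial.X =
      jqModC (IsLocalRing.ResidueField R) := by
    rw [RingHom.comp_apply, ni78_evA_X, ni78_red_jA]
  have hC : (ni78_red K M' hπ).comp (ni78_evA K M' hπ) (Polynomial.C (q : ℤ)) = 0 := by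
    have h1 : (Polynomial.C (q : ℤ) : Polynomial ℤ) = ((q : ℕ) : Polynomial ℤ) := by simp
    rw [h1, map_natCast, CharP.cast_eq_zero]
  rw [Polynomial.map_map, hΨ]
  simp only [Polynomial.map_add, Polynomial.map_mul, Polynomial.map_sub, Polynomial.map_pow,
    Polynomial.map_X, Polynomial.map_C, map_pow, hX, hC, Polynomial.C_0, zero_mul, add_zero]

/-- `red x = ∑ red(c_i) (j̄^q)^i` for `x = ∑ c_i y^i`, `c_i ∈ V'`. -/
theorem ni78_red_x (hq : q.Prime) {π : R} (hπ : Irreducible π) (hqR : ¬ IsUnit (q : R))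
    (c : Fin (q + 1) → ↥(cm85_Vinf (K := K) M' hπ))
    (x : ↥(modularFunctionFieldFullC K (M' * q))) (hx : x ∈ cm85_Vinf (M' * q) hπ)
    (hc : (x : LaurentSeries K) = ∑ i, ((c i : ↥(modularFunctionFieldFullC K M')) :
      LaurentSeries K) * qExpand K q (jqModC K) ^ (i : ℕ)) :
    tv84_red (IsLocalRing.residue R) (ni78_incl K (M' * q) hπ ⟨x, hx⟩) =
      ∑ i, ni78_red K M' hπ (c i) * (jqModC (IsLocalRing.ResidueField R) ^ q) ^ (i : ℕ) := by
  haveI : Fact q.Prime := ⟨hq⟩
  haveI hcharP : CharP (IsLocalRing.ResidueField R) q := ni78_charP q hq hqR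
  have hJ : jqModC K ∈ tv84_G K (IsLocalRing.residue R) :=
    tv84_J_mem (K := K) (IsLocalRing.residue R)
  have hY : qExpand K q (jqModC K) ∈ tv84_G K (IsLocalRing.residue R) :=
    tv84_qExpand_mem_G _ q _ hJ
  have h1 : ni78_incl K (M' * q) hπ ⟨x, hx⟩ = ∑ i, ni78_incl K M' hπ (c i) *
      (⟨qExpand K q (jqModC K), hY⟩ : ↥(tv84_G K (IsLocalRing.residue R))) ^ (i : ℕ) := by
    apply Subtype.ext
    show (x : LaurentSeries K) = _
    rw [hc]
    simp only [AddSubmonoidClass.coe_finsetSum, MulMemClass.coe_mul, SubmonoidClass.coe_pow]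
    rfl
  have h2 : tv84_red (IsLocalRing.residue R) ⟨qExpand K q (jqModC K), hY⟩ =
      jqModC (IsLocalRing.ResidueField R) ^ q := by
    rw [tv84_red_qExpand (IsLocalRing.residue R) q ⟨jqModC K, hJ⟩ hY, tv84_red_J]
    exact (kc87_jqModC_pow_char (IsLocalRing.ResidueField R) q).symm
  rw [h1, map_sum]
  refine Finset.sum_congr rfl fun i _ => ?_
  rw [map_mul, map_pow, h2]
  rfl

/-- `sb (red (w x)) = ∑ red(c_i)^q j̄^i` for `x = ∑ c_i y^i`, `c_i ∈ V'`. -/
theorem ni78_red_wx (φ : K →+* Fermat.Agent.S24.Kbar) (hq : q.Prime) (hqM' : ¬ q ∣ M')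
    {π : R} (hπ : Irreducible π) (hqR : ¬ IsUnit (q : R))
    (c : Fin (q + 1) → ↥(cm85_Vinf (K := K) M' hπ))
    (x : ↥(modularFunctionFieldFullC K (M' * q)))
    (hwx : al97L_w φ M' q hq hqM' x ∈ cm85_Vinf (M' * q) hπ)
    (hc : (x : LaurentSeries K) = ∑ i, ((c i : ↥(modularFunctionFieldFullC K M')) :
      LaurentSeries K) * qExpand K q (jqModC K) ^ (i : ℕ))
    (Fr : IsLocalRing.ResidueField R →+* IsLocalRing.ResidueField R) (hFr : ∀ c, Fr c = c ^ q) :
    coeffMap Fr (tv84_red (IsLocalRing.residue R)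
        (ni78_incl K (M' * q) hπ ⟨al97L_w φ M' q hq hqM' x, hwx⟩)) =
      ∑ i, ni78_red K M' hπ (c i) ^ q * jqModC (IsLocalRing.ResidueField R) ^ (i : ℕ) := by
  haveI hcharP : CharP (IsLocalRing.ResidueField R) q := ni78_charP q hq hqR
  have hJ : jqModC K ∈ tv84_G K (IsLocalRing.residue R) :=
    tv84_J_mem (K := K) (IsLocalRing.residue R)
  have hD : ∀ i, qExpand K q ((c i : ↥(modularFunctionFieldFullC K M')) : LaurentSeries K) ∈
      tv84_G K (IsLocalRing.residue R) := fun i => tv84_qExpand_mem_G _ q _ (c i).2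
  have hx' : x = ∑ i, al97L_alpha K M' q (c i : ↥(modularFunctionFieldFullC K M')) *
      ni78_y K M' q ^ (i : ℕ) := by
    apply Subtype.ext
    rw [hc]
    simp only [AddSubmonoidClass.coe_finsetSum, MulMemClass.coe_mul, SubmonoidClass.coe_pow,
      al97L_alpha_coe, ni78_y_coe]
  have hw : al97L_w φ M' q hq hqM' x =
      ∑ i, al97L_beta K M' q (c i : ↥(modularFunctionFieldFullC K M')) *
        al97L_alpha K M' q ⟨jqModC K, jqModC_mem_full K M'⟩ ^ (i : ℕ) := by
    conv_lhs => rw [hx']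
    rw [map_sum]
    refine Finset.sum_congr rfl fun i _ => ?_
    rw [map_mul, map_pow, al97L_w_alpha_apply, ni78_y, al97L_w_beta_apply]
  have h1 : ni78_incl K (M' * q) hπ ⟨al97L_w φ M' q hq hqM' x, hwx⟩ =
      ∑ i, (⟨qExpand K q ((c i : ↥(modularFunctionFieldFullC K M')) : LaurentSeries K), hD i⟩ :
          ↥(tv84_G K (IsLocalRing.residue R))) *
        (⟨jqModC K, hJ⟩ : ↥(tv84_G K (IsLocalRing.residue R))) ^ (i : ℕ) := by
    apply Subtype.ext
    show ((al97L_w φ M' q hq hqM' x : ↥(modularFunctionFieldFullC K (M' * q))) :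
      LaurentSeries K) = _
    rw [hw]
    simp only [AddSubmonoidClass.coe_finsetSum, MulMemClass.coe_mul, SubmonoidClass.coe_pow,
      al97L_alpha_coe, al97L_beta_coe]
  rw [h1, map_sum, map_sum]
  refine Finset.sum_congr rfl fun i _ => ?_
  have h3 : tv84_red (IsLocalRing.residue R)
      ⟨qExpand K q ((c i : ↥(modularFunctionFieldFullC K M')) : LaurentSeries K), hD i⟩ =
      qExpand (IsLocalRing.ResidueField R) q (ni78_red K M' hπ (c i)) :=
    tv84_red_qExpand (IsLocalRing.residue R) q (ni78_incl K M' hπ (c i)) (hD i)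
  rw [map_mul, map_pow, map_mul, map_pow, tv84_red_J, coeffMap_jqModC, h3,
    tv84_coeffMap_qExpand, ni78_qExpand_frob q hq Fr hFr]

/-- `(j̄^q)^q ≠ j̄` in `κ((Q))`. -/
theorem ni78_hab {κ : Type*} [Field κ] (hq : q.Prime) : (jqModC κ ^ q) ^ q ≠ jqModC κ := by
  intro h
  have h1 := congrArg HahnSeries.order h
  rw [HahnSeries.order_pow, HahnSeries.order_pow, tv84_order_jqModC] at h1
  simp only [nsmul_eq_mul] at h1
  have h2 : (q : ℤ) * q = 1 := by linarith
  have h3 : q * q = 1 := by exact_mod_cast h2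
  have := hq.two_le
  nlinarith

/-- **The norm formula modulo `π` along `α`** (step (1b) of the S35 proof text, instance).
For `x ∈ V_∞` with `w x ∈ V_∞`, the norm `N_α x` (`Algebra.norm` along `α = al97L_alpha`) lies in
the Gauss ring `V'` of level `M'`, and `red (N_α x) = red x * sb (red (w x))` in `κ((Q))`, for
every ring endomorphism `Fr` of `κ` with `Fr c = c ^ q` (`sb = coeffMap Fr`). -/
theorem ni78_norm_alpha (φ : K →+* Fermat.Agent.S24.Kbar) (hq : q.Prime)
    (hqM' : ¬ q ∣ M') {π : R} (hπ : Irreducible π) (hqR : ¬ IsUnit (q : R))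
    (hK : ((M' * q : ℕ) : K) ≠ 0)
    (x : ↥(modularFunctionFieldFullC K (M' * q))) (hx : x ∈ cm85_Vinf (M' * q) hπ)
    (hwx : al97L_w φ M' q hq hqM' x ∈ cm85_Vinf (M' * q) hπ) :
    ∃ N : ↥(cm85_Vinf (K := K) M' hπ),
      (letI := algebraAlong (al97L_alpha K M' q)
       Algebra.norm ↥(modularFunctionFieldFullC K M') x) =
        (N : ↥(modularFunctionFieldFullC K M')) ∧
      ∀ Fr : IsLocalRing.ResidueField R →+* IsLocalRing.ResidueField R, (∀ c, Fr c = c ^ q) →
        tv84_red (IsLocalRing.residue R) (ni78_incl K M' hπ N) =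
          tv84_red (IsLocalRing.residue R) (ni78_incl K (M' * q) hπ ⟨x, hx⟩) *
            coeffMap Fr (tv84_red (IsLocalRing.residue R)
              (ni78_incl K (M' * q) hπ ⟨al97L_w φ M' q hq hqM' x, hwx⟩)) := by
  classical
  haveI : Fact q.Prime := ⟨hq⟩
  haveI hcharP : CharP (IsLocalRing.ResidueField R) q := ni78_charP q hq hqR
  haveI hcharL : CharP (LaurentSeries (IsLocalRing.ResidueField R)) q :=
    charP_of_injective_ringHom
      (f := (HahnSeries.C : IsLocalRing.ResidueField R →+*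
        LaurentSeries (IsLocalRing.ResidueField R))) HahnSeries.C_injective q
  letI := algebraAlong (al97L_alpha K M' q)
  obtain ⟨Φ, hmon, hdeg, hrel, -, Ψ, hΨ⟩ := kc87_exists q hq
  obtain ⟨b, hb⟩ := ni78_exists_basis M' q φ hq hqM' hπ hqR hK
  obtain ⟨c0, hcV, hc⟩ := tv84_main M' q φ hq hqM' hπ hqR hK x hx hwx
  obtain ⟨N, hN1, hN2⟩ := nr25_norm_red_sum q (ni78_y K M' q) b hb
    (cm85_Vinf (K := K) M' hπ).subtype
    (Φ.map (ni78_evA K M' hπ)) (hmon.map _) (ni78_rel M' q hπ Φ hrel) (ni78_red K M' hπ)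
    (jqModC (IsLocalRing.ResidueField R) ^ q) (jqModC (IsLocalRing.ResidueField R))
    (ni78_hab q hq) (ni78_red_Phi M' q hq hπ hqR Φ Ψ hΨ) (fun i => ⟨c0 i, hcV i⟩)
  refine ⟨N, ?_, ?_⟩
  · show Algebra.norm ↥(modularFunctionFieldFullC K M') x = _
    rw [← ValuationSubring.subtype_apply, ← hN1]
    congr 1
    apply Subtype.ext
    rw [hc]
    simp only [AddSubmonoidClass.coe_finsetSum, MulMemClass.coe_mul, SubmonoidClass.coe_pow,
      ni78_y_coe]
    rfl
  · intro Fr hFr
    rw [ni78_red_x M' q hq hπ hqR (fun i => ⟨c0 i, hcV i⟩) x hx hc,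
      ni78_red_wx M' q φ hq hqM' hπ hqR (fun i => ⟨c0 i, hcV i⟩) x hwx hc Fr hFr]
    exact hN2

/-- **The norm along `β` is the norm along `α` of `w x`** (`w ∘ β = α`). -/
theorem ni78_norm_beta_eq (φ : K →+* Fermat.Agent.S24.Kbar) (hq : q.Prime) (hqM' : ¬ q ∣ M')
    (x : ↥(modularFunctionFieldFullC K (M' * q))) :
    (letI := algebraAlong (al97L_beta K M' q)
     Algebra.norm ↥(modularFunctionFieldFullC K M') x) =
    (letI := algebraAlong (al97L_alpha K M' q)
     Algebra.norm ↥(modularFunctionFieldFullC K M') (al97L_w φ M' q hq hqM' x)) := by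
  let e : @AlgEquiv ↥(modularFunctionFieldFullC K M') ↥(modularFunctionFieldFullC K (M' * q))
      ↥(modularFunctionFieldFullC K (M' * q)) _ _ _ (algebraAlong (al97L_beta K M' q))
      (algebraAlong (al97L_alpha K M' q)) :=
    @AlgEquiv.mk ↥(modularFunctionFieldFullC K M') ↥(modularFunctionFieldFullC K (M' * q))
      ↥(modularFunctionFieldFullC K (M' * q)) _ _ _ (algebraAlong (al97L_beta K M' q))
      (algebraAlong (al97L_alpha K M' q)) (al97L_w φ M' q hq hqM').toEquiv
      (fun a b => map_mul (al97L_w φ M' q hq hqM') a b)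
      (fun a b => map_add (al97L_w φ M' q hq hqM') a b)
      (fun a => al97L_w_beta_apply φ M' q hq hqM' a)
  exact (@Algebra.norm_eq_of_algEquiv ↥(modularFunctionFieldFullC K M')
    ↥(modularFunctionFieldFullC K (M' * q)) ↥(modularFunctionFieldFullC K (M' * q)) _ _
    (algebraAlong (al97L_beta K M' q)) _ (algebraAlong (al97L_alpha K M' q)) e x).symm

/-- **The norm formula modulo `π` along `β`**: for `x ∈ V_∞` with `w x ∈ V_∞`, the norm `N_β x`
lies in `V'` and `red (N_β x) = red (w x) * sb (red x)`. -/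
theorem ni78_norm_beta (φ : K →+* Fermat.Agent.S24.Kbar) (hq : q.Prime)
    (hqM' : ¬ q ∣ M') {π : R} (hπ : Irreducible π) (hqR : ¬ IsUnit (q : R))
    (hK : ((M' * q : ℕ) : K) ≠ 0)
    (x : ↥(modularFunctionFieldFullC K (M' * q))) (hx : x ∈ cm85_Vinf (M' * q) hπ)
    (hwx : al97L_w φ M' q hq hqM' x ∈ cm85_Vinf (M' * q) hπ) :
    ∃ N : ↥(cm85_Vinf (K := K) M' hπ),
      (letI := algebraAlong (al97L_beta K M' q)
       Algebra.norm ↥(modularFunctionFieldFullC K M') x) =
        (N : ↥(modularFunctionFieldFullC K M')) ∧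
      ∀ Fr : IsLocalRing.ResidueField R →+* IsLocalRing.ResidueField R, (∀ c, Fr c = c ^ q) →
        tv84_red (IsLocalRing.residue R) (ni78_incl K M' hπ N) =
          tv84_red (IsLocalRing.residue R)
              (ni78_incl K (M' * q) hπ ⟨al97L_w φ M' q hq hqM' x, hwx⟩) *
            coeffMap Fr (tv84_red (IsLocalRing.residue R)
              (ni78_incl K (M' * q) hπ ⟨x, hx⟩)) := by
  have hwwx : al97L_w φ M' q hq hqM' (al97L_w φ M' q hq hqM' x) ∈ cm85_Vinf (M' * q) hπ := by
    rw [al97L_w_w]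
    exact hx
  obtain ⟨N, hN1, hN2⟩ := ni78_norm_alpha M' q φ hq hqM' hπ hqR hK
    (al97L_w φ M' q hq hqM' x) hwx hwwx
  refine ⟨N, ?_, ?_⟩
  · rw [ni78_norm_beta_eq M' q φ hq hqM' x]
    exact hN1
  · intro Fr hFr
    have h := hN2 Fr hFr
    have he : (⟨al97L_w φ M' q hq hqM' (al97L_w φ M' q hq hqM' x), hwwx⟩ :
        ↥(cm85_Vinf (K := K) (M' * q) hπ)) = ⟨x, hx⟩ :=
      Subtype.ext (al97L_w_w φ M' q hq hqM' x)
    rw [he] at h
    exact h

/-- **Norm formula along `α`, raw form** (only `tv84_G` / `tv84_red`, no subtype of `V'`):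
the `Q`-expansion of `N_α x` is Gauss-integral and
`red (N_α x) = red x * sb (red (w x))`. -/
theorem ni78_norm_alpha_raw (φ : K →+* Fermat.Agent.S24.Kbar) (hq : q.Prime)
    (hqM' : ¬ q ∣ M') {π : R} (hπ : Irreducible π) (hqR : ¬ IsUnit (q : R))
    (hK : ((M' * q : ℕ) : K) ≠ 0)
    (x : ↥(modularFunctionFieldFullC K (M' * q)))
    (hx : (x : LaurentSeries K) ∈ tv84_G K (IsLocalRing.residue R))
    (hwx : ((al97L_w φ M' q hq hqM' x : ↥(modularFunctionFieldFullC K (M' * q))) :
      LaurentSeries K) ∈ tv84_G K (IsLocalRing.residue R)) :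
    ∃ hN : (((letI := algebraAlong (al97L_alpha K M' q)
        Algebra.norm ↥(modularFunctionFieldFullC K M') x) :
        ↥(modularFunctionFieldFullC K M')) : LaurentSeries K) ∈
          tv84_G K (IsLocalRing.residue R),
      ∀ Fr : IsLocalRing.ResidueField R →+* IsLocalRing.ResidueField R, (∀ c, Fr c = c ^ q) →
        tv84_red (IsLocalRing.residue R) ⟨_, hN⟩ =
          tv84_red (IsLocalRing.residue R) ⟨_, hx⟩ *
            coeffMap Fr (tv84_red (IsLocalRing.residue R) ⟨_, hwx⟩) := by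
  obtain ⟨N, hN1, hN2⟩ := ni78_norm_alpha M' q φ hq hqM' hπ hqR hK x hx hwx
  have hN : (((letI := algebraAlong (al97L_alpha K M' q)
      Algebra.norm ↥(modularFunctionFieldFullC K M') x) :
      ↥(modularFunctionFieldFullC K M')) : LaurentSeries K) ∈
        tv84_G K (IsLocalRing.residue R) := by
    rw [hN1]
    exact N.2
  refine ⟨hN, fun Fr hFr => ?_⟩
  have h := hN2 Fr hFr
  have he : (⟨_, hN⟩ : ↥(tv84_G K (IsLocalRing.residue R))) = ni78_incl K M' hπ N :=
    Subtype.ext (congrArg (fun z : ↥(modularFunctionFieldFullC K M') => (z : LaurentSeries K)) hN1)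
  rw [he]
  exact h

/-- **Norm formula along `β`, raw form**: `red (N_β x) = red (w x) * sb (red x)`. -/
theorem ni78_norm_beta_raw (φ : K →+* Fermat.Agent.S24.Kbar) (hq : q.Prime)
    (hqM' : ¬ q ∣ M') {π : R} (hπ : Irreducible π) (hqR : ¬ IsUnit (q : R))
    (hK : ((M' * q : ℕ) : K) ≠ 0)
    (x : ↥(modularFunctionFieldFullC K (M' * q)))
    (hx : (x : LaurentSeries K) ∈ tv84_G K (IsLocalRing.residue R))
    (hwx : ((al97L_w φ M' q hq hqM' x : ↥(modularFunctionFieldFullC K (M' * q))) :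
      LaurentSeries K) ∈ tv84_G K (IsLocalRing.residue R)) :
    ∃ hN : (((letI := algebraAlong (al97L_beta K M' q)
        Algebra.norm ↥(modularFunctionFieldFullC K M') x) :
        ↥(modularFunctionFieldFullC K M')) : LaurentSeries K) ∈
          tv84_G K (IsLocalRing.residue R),
      ∀ Fr : IsLocalRing.ResidueField R →+* IsLocalRing.ResidueField R, (∀ c, Fr c = c ^ q) →
        tv84_red (IsLocalRing.residue R) ⟨_, hN⟩ =
          tv84_red (IsLocalRing.residue R) ⟨_, hwx⟩ *
            coeffMap Fr (tv84_red (IsLocalRing.residue R) ⟨_, hx⟩) := by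
  obtain ⟨N, hN1, hN2⟩ := ni78_norm_beta M' q φ hq hqM' hπ hqR hK x hx hwx
  have hN : (((letI := algebraAlong (al97L_beta K M' q)
      Algebra.norm ↥(modularFunctionFieldFullC K M') x) :
      ↥(modularFunctionFieldFullC K M')) : LaurentSeries K) ∈
        tv84_G K (IsLocalRing.residue R) := by
    rw [hN1]
    exact N.2
  refine ⟨hN, fun Fr hFr => ?_⟩
  have h := hN2 Fr hFr
  have he : (⟨_, hN⟩ : ↥(tv84_G K (IsLocalRing.residue R))) = ni78_incl K M' hπ N :=
    Subtype.ext (congrArg (fun z : ↥(modularFunctionFieldFullC K M') => (z : LaurentSeries K)) hN1)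
  rw [he]
  exact h

/-- **Norm formula along `α`, Frobenius-free form**:
`E (red (N_α x)) = E (red x) * red (w x) ^ q`, `E = (Q ↦ Q^q)`. -/
theorem ni78_norm_alpha_E (φ : K →+* Fermat.Agent.S24.Kbar) (hq : q.Prime)
    (hqM' : ¬ q ∣ M') {π : R} (hπ : Irreducible π) (hqR : ¬ IsUnit (q : R))
    (hK : ((M' * q : ℕ) : K) ≠ 0)
    (x : ↥(modularFunctionFieldFullC K (M' * q)))
    (hx : (x : LaurentSeries K) ∈ tv84_G K (IsLocalRing.residue R))
    (hwx : ((al97L_w φ M' q hq hqM' x : ↥(modularFunctionFieldFullC K (M' * q))) :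
      LaurentSeries K) ∈ tv84_G K (IsLocalRing.residue R)) :
    ∃ hN : (((letI := algebraAlong (al97L_alpha K M' q)
        Algebra.norm ↥(modularFunctionFieldFullC K M') x) :
        ↥(modularFunctionFieldFullC K M')) : LaurentSeries K) ∈
          tv84_G K (IsLocalRing.residue R),
      qExpand (IsLocalRing.ResidueField R) q (tv84_red (IsLocalRing.residue R) ⟨_, hN⟩) =
        qExpand (IsLocalRing.ResidueField R) q (tv84_red (IsLocalRing.residue R) ⟨_, hx⟩) *
          tv84_red (IsLocalRing.residue R) ⟨_, hwx⟩ ^ q := by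
  haveI hcharP : CharP (IsLocalRing.ResidueField R) q := ni78_charP q hq hqR
  haveI : ExpChar (IsLocalRing.ResidueField R) q := ExpChar.prime hq
  obtain ⟨hN, h⟩ := ni78_norm_alpha_raw M' q φ hq hqM' hπ hqR hK x hx hwx
  refine ⟨hN, ?_⟩
  rw [h (frobenius (IsLocalRing.ResidueField R) q) (fun c => frobenius_def q c), map_mul,
    ni78_qExpand_frob q hq _ (fun c => frobenius_def q c)]

/-- **Norm formula along `β`, Frobenius-free form**:
`E (red (N_β x)) = E (red (w x)) * red x ^ q`. -/
theorem ni78_norm_beta_E (φ : K →+* Fermat.Agent.S24.Kbar) (hq : q.Prime)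
    (hqM' : ¬ q ∣ M') {π : R} (hπ : Irreducible π) (hqR : ¬ IsUnit (q : R))
    (hK : ((M' * q : ℕ) : K) ≠ 0)
    (x : ↥(modularFunctionFieldFullC K (M' * q)))
    (hx : (x : LaurentSeries K) ∈ tv84_G K (IsLocalRing.residue R))
    (hwx : ((al97L_w φ M' q hq hqM' x : ↥(modularFunctionFieldFullC K (M' * q))) :
      LaurentSeries K) ∈ tv84_G K (IsLocalRing.residue R)) :
    ∃ hN : (((letI := algebraAlong (al97L_beta K M' q)
        Algebra.norm ↥(modularFunctionFieldFullC K M') x) :
        ↥(modularFunctionFieldFullC K M')) : LaurentSeries K) ∈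
          tv84_G K (IsLocalRing.residue R),
      qExpand (IsLocalRing.ResidueField R) q (tv84_red (IsLocalRing.residue R) ⟨_, hN⟩) =
        qExpand (IsLocalRing.ResidueField R) q (tv84_red (IsLocalRing.residue R) ⟨_, hwx⟩) *
          tv84_red (IsLocalRing.residue R) ⟨_, hx⟩ ^ q := by
  haveI hcharP : CharP (IsLocalRing.ResidueField R) q := ni78_charP q hq hqR
  haveI : ExpChar (IsLocalRing.ResidueField R) q := ExpChar.prime hq
  obtain ⟨hN, h⟩ := ni78_norm_beta_raw M' q φ hq hqM' hπ hqR hK x hx hwx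
  refine ⟨hN, ?_⟩
  rw [h (frobenius (IsLocalRing.ResidueField R) q) (fun c => frobenius_def q c), map_mul,
    ni78_qExpand_frob q hq _ (fun c => frobenius_def q c)]

end ni78_main

end Fermat.Agent.S35
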