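import Mathlib

/-!
# S35 lab, abstract norm formula (1b) (helper56) — Mathlib only

Proof text #2519 (1b): `W = ⊕_{i ≤ q} V' y^i` is free of rank `q + 1` over `A = V'`, and
`W / π W = κ' × κ'(j^{1/q})` (Kronecker: one factor of residue degree one, one purely inseparable
factor of degree `q`).  Hence for `x ∈ W`

  `red'(N_α x) = red_∞(x) * sb(red_0 x)`,      `sb` = coefficientwise Frobenius.

Abstract form, with NO polynomial / Kronecker input: `A → W` finite free of rank `q + 1`,
`k` a field with `A → k` surjective (the residue field of `A`), `ι : k → L` (`L` a field of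
characteristic `q`; think `L = κ((Q))`), `E : L → L` (think `Q ↦ Q ^ q`), ring homs
`rinf r0 : W → L` with

* `h1`  `rinf ∘ algebraMap = ι ∘ res`               (`red_∞ (α h) = red' h`);
* `h2`  `r0 ∘ algebraMap = E ∘ ι ∘ res`             (`red_0 (α h) = E (red' h)`);
* `h3`  `rinf y = 0 → r0 y = 0 → y ∈ (ker res) W`   (`π V_∞ ∩ π V_0 ∩ W = π W`);
* `h4`  `rinf x ∈ ι (k)`                            (residue degree one at `∞`);
* `h5`  `r0 x ^ q ∈ E (ι (k))`                      (purely inseparable at `0`).

Then `nr56_norm_red` : `E (ι (res (N x))) = E (rinf x) * r0 x ^ q`, and with a coefficientwise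
Frobenius `sb` (`E (sb g) = g ^ q`) `nr56_norm_red_sb` : `ι (res (N x)) = rinf x * sb (r0 x)`.
-/

set_option autoImplicit false
set_option linter.unusedSectionVars false
set_option linter.unusedVariables false
set_option linter.style.longLine false

open Module

namespace Fermat.Agent.S35

section nr56

variable {A W k L : Type*} [CommRing A] [CommRing W] [Algebra A W] [Module.Free A W]
  [Module.Finite A W] [Field k] [Algebra A k] [Field L]

/-- **Norm formula (1b), abstract form.** -/
theorem nr56_norm_red (q : ℕ) [hq : Fact q.Prime] [CharP L q] (ι : k →+* L) (E : L →+* L)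
    (rinf r0 : W →+* L)
    (hsurj : Function.Surjective (algebraMap A k))
    (hrank : Module.finrank A W = q + 1)
    (h1 : ∀ a : A, rinf (algebraMap A W a) = ι (algebraMap A k a))
    (h2 : ∀ a : A, r0 (algebraMap A W a) = E (ι (algebraMap A k a)))
    (h3 : ∀ y : W, rinf y = 0 → r0 y = 0 →
      ∃ (p : A) (y' : W), algebraMap A k p = 0 ∧ y = p • y')
    (h4 : ∀ x : W, ∃ a : A, rinf x = ι (algebraMap A k a))
    (h5 : ∀ x : W, ∃ a : A, r0 x ^ q = E (ι (algebraMap A k a)))
    (x : W) :
    E (ι (algebraMap A k (Algebra.norm A x))) = E (rinf x) * r0 x ^ q := by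
  classical
  have : Nontrivial A := (algebraMap A k).domain_nontrivial
  have : CharP k q := RingHom.charP ι ι.injective q
  set n := Module.Free.ChooseBasisIndex A W with hn
  let b : Basis n A W := Module.Free.chooseBasis A W
  have hcard : Fintype.card n = q + 1 := by
    rw [← hrank]; exact (Module.finrank_eq_card_chooseBasisIndex A W).symm
  -- the reduction of coordinates
  let c : W → (n → k) := fun z i => algebraMap A k (b.repr z i)
  have c_add : ∀ z z' : W, c (z + z') = c z + c z' := by
    intro z z'; funext i; simp [c]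
  have c_sub : ∀ z z' : W, c (z - z') = c z - c z' := by
    intro z z'; funext i; simp [c]
  have c_smul : ∀ (a : A) (z : W), c (a • z) = algebraMap A k a • c z := by
    intro a z; funext i; simp [c]
  have c_surj : ∀ v : n → k, ∃ z : W, c z = v := by
    intro v
    choose a ha using fun i => hsurj (v i)
    refine ⟨∑ i, a i • b i, ?_⟩
    funext i
    simp only [c]
    rw [b.repr_sum_self]
    exact ha i
  have c_rinf : ∀ z : W, ∑ i, ι (c z i) * rinf (b i) = rinf z := by
    intro z
    conv_rhs => rw [← b.sum_repr z]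
    rw [map_sum]
    refine Finset.sum_congr rfl fun i _ => ?_
    rw [Algebra.smul_def, map_mul, h1]
  -- the matrix of multiplication by `x`, reduced
  set M : Matrix n n A := Algebra.leftMulMatrix b x with hM
  set Mb : Matrix n n k := (algebraMap A k).mapMatrix M with hMb
  have hdetM : algebraMap A k (Algebra.norm A x) = Mb.det := by
    rw [Algebra.norm_eq_matrix_det b x, RingHom.map_det]
  set e : (n → k) →ₗ[k] (n → k) := Matrix.toLin' Mb with he_def
  have hdete : LinearMap.det e = Mb.det := LinearMap.det_toLin' Mb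
  have e_c : ∀ z : W, e (c z) = c (x * z) := by
    intro z
    funext i
    rw [he_def, Matrix.toLin'_apply]
    have h := congrFun (Algebra.leftMulMatrix_mulVec_repr b x z) i
    simp only [c]
    rw [← h]
    simp only [Matrix.mulVec, dotProduct, hMb, RingHom.mapMatrix_apply, Matrix.map_apply, map_sum,
      map_mul, hM]
  have e_pow_c : ∀ (m : ℕ) (z : W), (e ^ m) (c z) = c (x ^ m * z) := by
    intro m
    induction m with
    | zero => intro z; simp
    | succ m ih =>
      intro z
      rw [pow_succ, Module.End.mul_apply, e_c, ih, pow_succ, mul_assoc]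
  -- the hyperplane `rinf = 0`
  let I : Submodule k (n → k) :=
    { carrier := {v | ∑ i, ι (v i) * rinf (b i) = 0}
      add_mem' := by
        intro v v' hv hv'
        change ∑ i, ι (v i) * rinf (b i) = 0 at hv
        change ∑ i, ι (v' i) * rinf (b i) = 0 at hv'
        show ∑ i, ι ((v + v') i) * rinf (b i) = 0
        simp only [Pi.add_apply, map_add, add_mul, Finset.sum_add_distrib, hv, hv', add_zero]
      zero_mem' := by simp
      smul_mem' := by
        intro t v hv
        change ∑ i, ι (v i) * rinf (b i) = 0 at hv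
        show ∑ i, ι ((t • v) i) * rinf (b i) = 0
        simp only [Pi.smul_apply, smul_eq_mul, map_mul, mul_assoc]
        rw [← Finset.mul_sum, hv, mul_zero] }
  have mem_I : ∀ z : W, c z ∈ I ↔ rinf z = 0 := by
    intro z
    show ∑ i, ι (c z i) * rinf (b i) = 0 ↔ _
    rw [c_rinf]
  have heI : I ≤ I.comap e := by
    intro v hv
    obtain ⟨z, rfl⟩ := c_surj v
    rw [Submodule.mem_comap, e_c, mem_I, map_mul, (mem_I z).mp hv, mul_zero]
  have hdet := LinearMap.det_eq_det_mul_det I e heI
  -- the quotient: dimension one, scalar `rinf x`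
  obtain ⟨ainf, hainf⟩ := h4 x
  have hQ : I.mapQ I e heI = algebraMap A k ainf • LinearMap.id := by
    refine LinearMap.ext fun w => ?_
    obtain ⟨v, rfl⟩ := Submodule.Quotient.mk_surjective I w
    obtain ⟨z, rfl⟩ := c_surj v
    rw [Submodule.mapQ_apply, LinearMap.smul_apply, LinearMap.id_apply,
      ← Submodule.Quotient.mk_smul, Submodule.Quotient.eq, e_c, ← c_smul, ← c_sub, mem_I,
      map_sub, map_mul, Algebra.smul_def, map_mul, h1, hainf, sub_self]
  have hfrQ : Module.finrank k ((n → k) ⧸ I) = 1 := by
    rw [finrank_eq_one_iff']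
    refine ⟨Submodule.Quotient.mk (c 1), ?_, fun w => ?_⟩
    · intro h0
      rw [Submodule.Quotient.mk_eq_zero, mem_I, map_one] at h0
      exact one_ne_zero h0
    · obtain ⟨v, rfl⟩ := Submodule.Quotient.mk_surjective I w
      obtain ⟨z, rfl⟩ := c_surj v
      obtain ⟨a, ha⟩ := h4 z
      refine ⟨algebraMap A k a, ?_⟩
      rw [← Submodule.Quotient.mk_smul, Submodule.Quotient.eq, ← c_smul, ← c_sub, mem_I,
        map_sub, Algebra.smul_def, map_mul, h1, map_one, mul_one, ha, sub_self]
  have hfrI : Module.finrank k I = q := by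
    have h := Submodule.finrank_quotient_add_finrank I
    rw [hfrQ, Module.finrank_fintype_fun_eq_card, hcard] at h
    omega
  have hdetQ : LinearMap.det (I.mapQ I e heI) = algebraMap A k ainf := by
    rw [hQ, LinearMap.det_smul, hfrQ, pow_one, LinearMap.det_id, mul_one]
  -- the hyperplane: `x ^ q` is a scalar
  obtain ⟨a0, ha0⟩ := h5 x
  have hR : (e.restrict heI) ^ q = algebraMap A k a0 • (1 : Module.End k I) := by
    refine LinearMap.ext fun v => ?_
    apply Subtype.ext
    rw [LinearMap.smul_apply, Module.End.one_apply, Submodule.coe_smul]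
    have hpow : ∀ (m : ℕ) (u : I),
        ((((e.restrict heI : Module.End k I)) ^ m) u : n → k) = (e ^ m) (u : n → k) := by
      intro m
      induction m with
      | zero => intro u; simp
      | succ m ih =>
        intro u
        rw [pow_succ, Module.End.mul_apply, ih, pow_succ, Module.End.mul_apply,
          LinearMap.restrict_apply]
    rw [hpow]
    obtain ⟨z, hz⟩ := c_surj (v : n → k)
    have hzI : rinf z = 0 := (mem_I z).mp (by rw [hz]; exact v.2)
    rw [← hz, e_pow_c, ← c_smul, ← sub_eq_zero, ← c_sub]
    obtain ⟨p, y', hp, hy'⟩ := h3 (x ^ q * z - a0 • z)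
      (by rw [map_sub, map_mul, hzI, mul_zero, Algebra.smul_def, map_mul, hzI, mul_zero, sub_zero])
      (by rw [map_sub, map_mul, map_pow, ha0, Algebra.smul_def, map_mul, h2, sub_self])
    rw [hy', c_smul, hp, zero_smul]
  have hdetR : LinearMap.det (e.restrict heI) = algebraMap A k a0 := by
    have h := congrArg LinearMap.det hR
    rw [map_pow, LinearMap.det_smul, hfrI, map_one, mul_one] at h
    exact frobenius_inj k q h
  rw [hdetM, ← hdete, hdet, hdetR, hdetQ, map_mul, map_mul, ← ha0, ← hainf, mul_comm]

/-- **Norm formula (1b) with the coefficientwise Frobenius** `sb` (`E (sb g) = g ^ q`):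
`red'(N x) = red_∞ x * sb (red_0 x)`. -/
theorem nr56_norm_red_sb (q : ℕ) [hq : Fact q.Prime] [CharP L q] (ι : k →+* L) (E sb : L →+* L)
    (rinf r0 : W →+* L)
    (hE : ∀ g : L, E (sb g) = g ^ q)
    (hsurj : Function.Surjective (algebraMap A k))
    (hrank : Module.finrank A W = q + 1)
    (h1 : ∀ a : A, rinf (algebraMap A W a) = ι (algebraMap A k a))
    (h2 : ∀ a : A, r0 (algebraMap A W a) = E (ι (algebraMap A k a)))
    (h3 : ∀ y : W, rinf y = 0 → r0 y = 0 →
      ∃ (p : A) (y' : W), algebraMap A k p = 0 ∧ y = p • y')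
    (h4 : ∀ x : W, ∃ a : A, rinf x = ι (algebraMap A k a))
    (h5 : ∀ x : W, ∃ a : A, r0 x ^ q = E (ι (algebraMap A k a)))
    (x : W) :
    ι (algebraMap A k (Algebra.norm A x)) = rinf x * sb (r0 x) := by
  apply E.injective
  rw [nr56_norm_red q ι E rinf r0 hsurj hrank h1 h2 h3 h4 h5 x, map_mul, hE]

end nr56

end Fermat.Agent.S35
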