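import Mathlib

/-!
# S35 lab, row L1b-abs (twin, helper61): the abstract norm formula

`V` a local ring with maximal ideal `p`, `W` a finite free `V`-algebra of rank `q + 1`
(`q` a prime, zero in the residue field), `r₁ : W →+* L₁`, `r₂ : W →+* L₂` two "reductions"
killing `p` with `ker r₁ ∩ ker r₂ ⊆ p W` and `r₁ W = r₁ V`.  Then for `x : W` and `v₁ v₂ : V`
with `r₁ x = r₁ v₁` and `(r₂ x) ^ q = r₂ v₂`:

  `Algebra.norm V x ≡ v₁ * v₂  (mod p)`.

No explicit basis, no CRT, no theory of purely inseparable extensions: on `C = W / p W` the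
kernel `C₀` of `r₁` has codimension one and dimension `q`; multiplication by `x` is the scalar
`v₁` on `C / C₀`, and its `q`-th power is the scalar `v₂` on `C₀`, so its determinant `d` on
`C₀` satisfies `d ^ q = v₂ ^ q`, i.e. `d = v₂` (Frobenius is injective on the residue field).
-/

set_option autoImplicit false

namespace Fermat.Agent.S35

open IsLocalRing Module

section NormRed

variable {V W : Type*} [CommRing V] [IsLocalRing V] [CommRing W] [Algebra V W]
  [Module.Free V W] [Module.Finite V W]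

attribute [local instance] Ideal.Quotient.field

/-- The norm commutes with reduction modulo the maximal ideal (norm analogue of Mathlib's
`Algebra.trace_quotient_mk`). -/
theorem nr61_norm_quotient_mk (x : W) :
    Algebra.norm (V ⧸ maximalIdeal V)
        (Ideal.Quotient.mk (Ideal.map (algebraMap V W) (maximalIdeal V)) x) =
      Ideal.Quotient.mk (maximalIdeal V) (Algebra.norm V x) := by
  classical
  let ι := Module.Free.ChooseBasisIndex V W
  let b : Module.Basis ι V W := Module.Free.chooseBasis V W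
  rw [Algebra.norm_eq_matrix_det b, Algebra.norm_eq_matrix_det (basisQuotient b),
    RingHom.map_det]
  congr 1
  ext i j
  simp only [Algebra.leftMulMatrix_apply, Algebra.coe_lmul_eq_mul, LinearMap.toMatrix_apply,
    basisQuotient_apply, LinearMap.mul_apply', RingHom.mapMatrix_apply, Matrix.map_apply,
    ← map_mul, basisQuotient_repr]

end NormRed

section Main

variable {V W L₁ L₂ : Type*} [CommRing V] [IsLocalRing V] [CommRing W] [Algebra V W]
  [Module.Free V W] [Module.Finite V W] [CommRing L₁] [Nontrivial L₁] [CommRing L₂]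

attribute [local instance] Ideal.Quotient.field

/-- **Abstract norm formula** (row L1b-abs).  See the file header. -/
theorem nr61_norm_sub_mem (q : ℕ) (hq : q.Prime) (hqV : (q : V) ∈ maximalIdeal V)
    (hrank : Module.finrank V W = q + 1) (r₁ : W →+* L₁) (r₂ : W →+* L₂)
    (h₁p : ∀ a ∈ maximalIdeal V, r₁ (algebraMap V W a) = 0)
    (h₂p : ∀ a ∈ maximalIdeal V, r₂ (algebraMap V W a) = 0)
    (hker : ∀ y : W, r₁ y = 0 → r₂ y = 0 → y ∈ Ideal.map (algebraMap V W) (maximalIdeal V))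
    (hsurj : ∀ y : W, ∃ v : V, r₁ y = r₁ (algebraMap V W v))
    (x : W) (v₁ v₂ : V) (hx₁ : r₁ x = r₁ (algebraMap V W v₁))
    (hx₂ : r₂ x ^ q = r₂ (algebraMap V W v₂)) :
    Algebra.norm V x - v₁ * v₂ ∈ maximalIdeal V := by
  classical
  -- notation
  set pW : Ideal W := Ideal.map (algebraMap V W) (maximalIdeal V) with hpW
  let k := V ⧸ maximalIdeal V
  let C := W ⧸ pW
  have hle₁ : pW ≤ RingHom.ker r₁ := by
    rw [hpW, Ideal.map_le_iff_le_comap]
    intro a ha
    exact h₁p a ha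
  have hle₂ : pW ≤ RingHom.ker r₂ := by
    rw [hpW, Ideal.map_le_iff_le_comap]
    intro a ha
    exact h₂p a ha
  let ρ₁ : C →+* L₁ := Ideal.Quotient.lift pW r₁ fun a ha => hle₁ ha
  let ρ₂ : C →+* L₂ := Ideal.Quotient.lift pW r₂ fun a ha => hle₂ ha
  have hρ₁ : ∀ y : W, ρ₁ (Ideal.Quotient.mk pW y) = r₁ y := fun y => Ideal.Quotient.lift_mk _ _ _
  have hρ₂ : ∀ y : W, ρ₂ (Ideal.Quotient.mk pW y) = r₂ y := fun y => Ideal.Quotient.lift_mk _ _ _
  have hmk : Function.Surjective (Ideal.Quotient.mk pW) := Ideal.Quotient.mk_surjective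
  -- scalars of `k` in `C`
  have halg : ∀ v : V, algebraMap k C (Ideal.Quotient.mk (maximalIdeal V) v) =
      Ideal.Quotient.mk pW (algebraMap V W v) := fun v => rfl
  -- the two kernels meet trivially
  have hmeet : ∀ z : C, ρ₁ z = 0 → ρ₂ z = 0 → z = 0 := by
    intro z h1 h2
    obtain ⟨y, rfl⟩ := hmk z
    rw [hρ₁] at h1
    rw [hρ₂] at h2
    exact Ideal.Quotient.eq_zero_iff_mem.mpr (hker y h1 h2)
  -- the submodule `C₀ = ker ρ₁`
  let C₀ : Submodule k C := (RingHom.ker ρ₁).restrictScalars k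
  have hC₀ : ∀ z : C, z ∈ C₀ ↔ ρ₁ z = 0 := fun z => Iff.rfl
  let xb : C := Ideal.Quotient.mk pW x
  let f : C →ₗ[k] C := LinearMap.mul k C xb
  have hf : ∀ z : C, f z = xb * z := fun z => rfl
  have he : C₀ ≤ C₀.comap f := by
    intro z hz
    rw [Submodule.mem_comap, hf, hC₀, map_mul, (hC₀ z).mp hz, mul_zero]
  have hfin : Module.Finite k C := Module.Finite.of_restrictScalars_finite V _ _
  have hrankC : Module.finrank k C = q + 1 := by
    rw [← hrank]
    exact finrank_quotient_map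
  -- `C / C₀` is a line
  have hone : (C₀.mkQ (1 : C)) ≠ 0 := by
    intro h0
    have h1 : (1 : C) ∈ C₀ := (Submodule.Quotient.mk_eq_zero C₀).mp h0
    rw [hC₀, map_one] at h1
    exact one_ne_zero h1
  have hline : Module.finrank k (C ⧸ C₀) = 1 := by
    rw [finrank_eq_one_iff_of_nonzero' _ hone]
    intro w
    obtain ⟨z, rfl⟩ := C₀.mkQ_surjective w
    obtain ⟨y, rfl⟩ := hmk z
    obtain ⟨v, hv⟩ := hsurj y
    refine ⟨Ideal.Quotient.mk (maximalIdeal V) v, ?_⟩
    rw [← map_smul, Submodule.mkQ_apply, Submodule.mkQ_apply, Submodule.Quotient.eq, hC₀,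
      Algebra.smul_def, mul_one, halg, map_sub, hρ₁, hρ₁, hv, sub_self]
  have hdim₀ : Module.finrank k C₀ = q := by
    have := C₀.finrank_quotient_add_finrank
    omega
  -- multiplication by `x` is the scalar `v₁` on `C / C₀`
  have hQ : C₀.mapQ C₀ f he =
      (Ideal.Quotient.mk (maximalIdeal V) v₁) • (LinearMap.id : (C ⧸ C₀) →ₗ[k] (C ⧸ C₀)) := by
    apply LinearMap.ext
    intro w
    obtain ⟨z, rfl⟩ := C₀.mkQ_surjective w
    rw [Submodule.mkQ_apply, Submodule.mapQ_apply, LinearMap.smul_apply, LinearMap.id_apply,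
      ← Submodule.Quotient.mk_smul, Submodule.Quotient.eq, hC₀, hf, Algebra.smul_def, ← sub_mul,
      map_mul, map_sub, halg, hρ₁, hρ₁, hx₁, sub_self, zero_mul]
  have hdetQ : LinearMap.det (C₀.mapQ C₀ f he) = Ideal.Quotient.mk (maximalIdeal V) v₁ := by
    rw [hQ, LinearMap.det_smul, hline, pow_one, LinearMap.det_id, mul_one]
  -- the `q`-th power of multiplication by `x` is the scalar `v₂` on `C₀`
  have hR : (f.restrict he) ^ q =
      (Ideal.Quotient.mk (maximalIdeal V) v₂) • (LinearMap.id : C₀ →ₗ[k] C₀) := by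
    apply LinearMap.ext
    intro z
    apply Subtype.ext
    have hpow : ∀ n : ℕ, ((((f.restrict he) ^ n) z : C₀) : C) = xb ^ n * (z : C) := by
      intro n
      induction n with
      | zero => simp
      | succ n ih =>
        rw [pow_succ', Module.End.mul_apply, LinearMap.coe_restrict_apply, hf, ih, pow_succ']
        ring
    rw [hpow, LinearMap.smul_apply, LinearMap.id_apply, Submodule.coe_smul, Algebra.smul_def,
      ← sub_eq_zero, ← sub_mul]
    apply hmeet
    · rw [map_mul, (hC₀ z).mp z.2, mul_zero]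
    · rw [map_mul, map_sub, map_pow, halg, hρ₂, hρ₂, hx₂, sub_self, zero_mul]
  have hq0 : ((q : ℕ) : k) = 0 := by
    have : ((q : ℕ) : k) = Ideal.Quotient.mk (maximalIdeal V) (q : V) := (map_natCast _ q).symm
    rw [this]
    exact Ideal.Quotient.eq_zero_iff_mem.mpr hqV
  have : Fact q.Prime := ⟨hq⟩
  have : CharP k q := (CharP.charP_iff_prime_eq_zero hq).mpr hq0
  have hdetR : LinearMap.det (f.restrict he) = Ideal.Quotient.mk (maximalIdeal V) v₂ := by
    apply frobenius_inj k q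
    show LinearMap.det (f.restrict he) ^ q = (Ideal.Quotient.mk (maximalIdeal V) v₂) ^ q
    rw [← map_pow, hR, LinearMap.det_smul, hdim₀, LinearMap.det_id, mul_one]
  -- assemble
  have hdet : LinearMap.det f = LinearMap.det (f.restrict he) * LinearMap.det (C₀.mapQ C₀ f he) :=
    LinearMap.det_eq_det_mul_det C₀ f he
  have hnorm : Algebra.norm k xb = LinearMap.det f := rfl
  have key : Ideal.Quotient.mk (maximalIdeal V) (Algebra.norm V x) =
      Ideal.Quotient.mk (maximalIdeal V) (v₁ * v₂) := by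
    rw [← nr61_norm_quotient_mk x]
    show Algebra.norm k xb = _
    rw [hnorm, hdet, hdetR, hdetQ, map_mul, mul_comm]
  exact Ideal.Quotient.eq.mp key


/-- **Abstract norm formula, `π`-form** (the literal shape of row L1b-abs): the maximal ideal of
`V` is `(π)`, the reductions kill `π`, and `ker r₁ ∩ ker r₂ ⊆ π W`.  Then
`π ∣ Algebra.norm V x - v₁ * v₂`. -/
theorem nr61_norm_dvd (π : V) (hπ : maximalIdeal V = Ideal.span {π})
    (q : ℕ) (hq : q.Prime) (hqV : π ∣ (q : V))
    (hrank : Module.finrank V W = q + 1) (r₁ : W →+* L₁) (r₂ : W →+* L₂)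
    (h₁π : r₁ (algebraMap V W π) = 0) (h₂π : r₂ (algebraMap V W π) = 0)
    (hker : ∀ y : W, r₁ y = 0 → r₂ y = 0 → ∃ w : W, y = algebraMap V W π * w)
    (hsurj : ∀ y : W, ∃ v : V, r₁ y = r₁ (algebraMap V W v))
    (x : W) (v₁ v₂ : V) (hx₁ : r₁ x = r₁ (algebraMap V W v₁))
    (hx₂ : r₂ x ^ q = r₂ (algebraMap V W v₂)) :
    π ∣ Algebra.norm V x - v₁ * v₂ := by
  have hmem : ∀ a : V, a ∈ maximalIdeal V ↔ π ∣ a := fun a => by
    rw [hπ, Ideal.mem_span_singleton]
  rw [← hmem]
  refine nr61_norm_sub_mem q hq ((hmem _).mpr hqV) hrank r₁ r₂ ?_ ?_ ?_ hsurj x v₁ v₂ hx₁ hx₂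
  · intro a ha
    obtain ⟨c, rfl⟩ := (hmem a).mp ha
    rw [map_mul, map_mul, h₁π, zero_mul]
  · intro a ha
    obtain ⟨c, rfl⟩ := (hmem a).mp ha
    rw [map_mul, map_mul, h₂π, zero_mul]
  · intro y h1 h2
    obtain ⟨w, rfl⟩ := hker y h1 h2
    exact Ideal.mul_mem_right _ _ (Ideal.mem_map_of_mem _ ((hmem π).mpr dvd_rfl))

/-- Existence form: if moreover every `(r₂ y) ^ q` is the reduction of an element of `V`, the
norm of `x` is congruent to a product `v₁ * v₂` of two such lifts. -/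
theorem nr61_norm_exists (π : V) (hπ : maximalIdeal V = Ideal.span {π})
    (q : ℕ) (hq : q.Prime) (hqV : π ∣ (q : V))
    (hrank : Module.finrank V W = q + 1) (r₁ : W →+* L₁) (r₂ : W →+* L₂)
    (h₁π : r₁ (algebraMap V W π) = 0) (h₂π : r₂ (algebraMap V W π) = 0)
    (hker : ∀ y : W, r₁ y = 0 → r₂ y = 0 → ∃ w : W, y = algebraMap V W π * w)
    (hsurj : ∀ y : W, ∃ v : V, r₁ y = r₁ (algebraMap V W v))
    (hpow : ∀ y : W, ∃ v : V, r₂ y ^ q = r₂ (algebraMap V W v)) (x : W) :
    ∃ v₁ v₂ : V, r₁ x = r₁ (algebraMap V W v₁) ∧ r₂ x ^ q = r₂ (algebraMap V W v₂) ∧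
      π ∣ Algebra.norm V x - v₁ * v₂ := by
  obtain ⟨v₁, hv₁⟩ := hsurj x
  obtain ⟨v₂, hv₂⟩ := hpow x
  exact ⟨v₁, v₂, hv₁, hv₂,
    nr61_norm_dvd π hπ q hq hqV hrank r₁ r₂ h₁π h₂π hker hsurj x v₁ v₂ hv₁ hv₂⟩

end Main

end Fermat.Agent.S35
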