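import Mathlib

/-!
# S35 lab, (1b): the norm formula modulo `π`, abstract form (helper79; Mathlib only)

`A` a commutative ring, `π ∈ A` with `A / π` a field, `W` an `A`-algebra which is a free module of
rank `q + 1` (`q` prime), `L` a field of characteristic `q`, `r₁ r₂ : W →+* L` two ring
homomorphisms killing `π` with

* `r₁ (W) = r₁ (A)`                       (residue degree one along the first branch),
* `r₂ (w) ^ q ∈ r₂ (A)` for all `w`       (the second branch is purely inseparable of degree `q`),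
* `r₂ (W) ≠ r₂ (A)`.

Then `N_{W/A}(x) ≡ v₁ · v₂ mod π` whenever `r₁ x = r₁ v₁` and `r₂ x ^ q = r₂ v₂`
(`nr79_norm`, `nr79_norm_dvd`).

In the lab: `A = V'` (Gauss valuation ring at level `M'`), `W = V_∞ ⊓ V_0` at level `M' q` (free
of rank `q + 1` over `α(V')`), `r₁ = red_∞`, `r₂ = red_0`, so that
`red'(N_α x) = red_∞(x) · sb(red_0 x)`.

The proof uses only Cayley–Hamilton: the characteristic polynomial of `x` modulo `π` has the root
`v₁` and, when `r₂ x ∉ r₂ (A)`, is divisible by the irreducible polynomial `X ^ q - v₂`; the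
remaining `x` are reached by multiplicativity of the norm.
-/

set_option autoImplicit false

namespace Fermat.Agent.S35

open Polynomial

section NR79

variable {A W L : Type*} [CommRing A] [CommRing W] [Algebra A W] [Field L]

/-- Cayley–Hamilton in the algebra `W`: `x` is a root of the characteristic polynomial of the
multiplication by `x`. -/
theorem nr79_aeval_charpoly [Module.Free A W] [Module.Finite A W] (x : W) :
    aeval x (LinearMap.charpoly (Algebra.lmul A W x)) = 0 := by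
  have h := LinearMap.aeval_self_charpoly (Algebra.lmul A W x)
  rw [Polynomial.aeval_algHom_apply] at h
  have h1 := congrArg (fun f : Module.End A W => f 1) h
  simpa using h1

/-- A ring homomorphism `r : W →+* L` sends `x` to a root of its characteristic polynomial. -/
theorem nr79_eval₂_charpoly [Module.Free A W] [Module.Finite A W] (r : W →+* L) (x : W) :
    (LinearMap.charpoly (Algebra.lmul A W x)).eval₂ (r.comp (algebraMap A W)) (r x) = 0 := by
  have h := nr79_aeval_charpoly (A := A) x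
  rw [Polynomial.aeval_def] at h
  rw [← Polynomial.hom_eval₂, h, map_zero]

variable (π : A)

/-- The residue homomorphism `A / π → L` induced by `r`. -/
noncomputable def nr79_bar (r : W →+* L) (hr : r (algebraMap A W π) = 0) :
    A ⧸ Ideal.span ({π} : Set A) →+* L :=
  Ideal.Quotient.lift (Ideal.span ({π} : Set A)) (r.comp (algebraMap A W)) (by
    intro a ha
    obtain ⟨c, rfl⟩ := Ideal.mem_span_singleton'.mp ha
    rw [RingHom.comp_apply, map_mul, map_mul, hr, mul_zero])

theorem nr79_bar_mk (r : W →+* L) (hr : r (algebraMap A W π) = 0) (a : A) :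
    nr79_bar π r hr (Ideal.Quotient.mk _ a) = r (algebraMap A W a) := by
  simp [nr79_bar]

theorem nr79_bar_injective [hπ : (Ideal.span ({π} : Set A)).IsMaximal] (r : W →+* L)
    (hr : r (algebraMap A W π) = 0) :
    Function.Injective (nr79_bar π r hr) := by
  letI := Ideal.Quotient.field (Ideal.span ({π} : Set A))
  exact (nr79_bar π r hr).injective

/-- If `r x = r a` then the class of `a` is a root of the characteristic polynomial modulo `π`. -/
theorem nr79_root [hπ : (Ideal.span ({π} : Set A)).IsMaximal] [Module.Free A W]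
    [Module.Finite A W] (r : W →+* L) (hr : r (algebraMap A W π) = 0) (x : W) (a : A)
    (ha : r x = r (algebraMap A W a)) :
    ((LinearMap.charpoly (Algebra.lmul A W x)).map
      (Ideal.Quotient.mk (Ideal.span ({π} : Set A)))).eval (Ideal.Quotient.mk _ a) = 0 := by
  apply nr79_bar_injective π r hr
  rw [map_zero, Polynomial.eval_map, Polynomial.hom_eval₂, nr79_bar_mk, ← ha]
  have hcomp : (nr79_bar π r hr).comp (Ideal.Quotient.mk (Ideal.span ({π} : Set A))) =
      r.comp (algebraMap A W) := by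
    ext a
    simp [nr79_bar]
  rw [hcomp]
  exact nr79_eval₂_charpoly r x

variable {q : ℕ}

section Main

variable [hπ : (Ideal.span ({π} : Set A)).IsMaximal] [Module.Free A W] [Module.Finite A W]

/-- **Generic case**: if `r₂ x ∉ r₂ (A)`, the characteristic polynomial of `x` modulo `π` is
`(X - v₁) (X ^ q - v₂)`. -/
theorem nr79_generic (hq : q.Prime) [CharP L q] (hrank : Module.finrank A W = q + 1)
    (r₁ r₂ : W →+* L) (h₁π : r₁ (algebraMap A W π) = 0) (h₂π : r₂ (algebraMap A W π) = 0)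
    (x : W) (v₁ v₂ : A) (hv₁ : r₁ x = r₁ (algebraMap A W v₁))
    (hv₂ : r₂ x ^ q = r₂ (algebraMap A W v₂))
    (hgen : ∀ a : A, r₂ x ≠ r₂ (algebraMap A W a)) :
    (LinearMap.charpoly (Algebra.lmul A W x)).map
        (Ideal.Quotient.mk (Ideal.span ({π} : Set A))) =
      (X - C (Ideal.Quotient.mk (Ideal.span ({π} : Set A)) v₁)) *
        (X ^ q - C (Ideal.Quotient.mk (Ideal.span ({π} : Set A)) v₂)) := by
  letI := Ideal.Quotient.field (Ideal.span ({π} : Set A))
  haveI : Fact q.Prime := ⟨hq⟩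
  haveI : Nontrivial A := (Ideal.Quotient.mk (Ideal.span ({π} : Set A))).domain_nontrivial
  have hPmonic : ((LinearMap.charpoly (Algebra.lmul A W x)).map
      (Ideal.Quotient.mk (Ideal.span ({π} : Set A)))).Monic :=
    (LinearMap.charpoly_monic _).map _
  have hPdeg : ((LinearMap.charpoly (Algebra.lmul A W x)).map
      (Ideal.Quotient.mk (Ideal.span ({π} : Set A)))).natDegree = q + 1 := by
    rw [(LinearMap.charpoly_monic _).natDegree_map, LinearMap.charpoly_natDegree, hrank]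
  have hroot1 := nr79_root π r₁ h₁π x v₁ hv₁
  have hX1 : (X - C (Ideal.Quotient.mk (Ideal.span ({π} : Set A)) v₁)) ∣
      (LinearMap.charpoly (Algebra.lmul A W x)).map
        (Ideal.Quotient.mk (Ideal.span ({π} : Set A))) :=
    Polynomial.dvd_iff_isRoot.mpr hroot1
  have hQirr : Irreducible
      (X ^ q - C (Ideal.Quotient.mk (Ideal.span ({π} : Set A)) v₂) :
        (A ⧸ Ideal.span ({π} : Set A))[X]) := by
    apply X_pow_sub_C_irreducible_of_prime hq
    intro b hb
    obtain ⟨b', rfl⟩ := Ideal.Quotient.mk_surjective b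
    have h1 : r₂ (algebraMap A W b') ^ q = r₂ x ^ q := by
      rw [hv₂, ← nr79_bar_mk π r₂ h₂π, ← nr79_bar_mk π r₂ h₂π, ← map_pow, hb]
    have h2 : (r₂ x - r₂ (algebraMap A W b')) ^ q = 0 := by
      rw [sub_pow_char, h1, sub_self]
    exact hgen b' (sub_eq_zero.mp (pow_eq_zero_iff hq.ne_zero |>.mp h2))
  have hQdvd : (X ^ q - C (Ideal.Quotient.mk (Ideal.span ({π} : Set A)) v₂)) ∣
      (LinearMap.charpoly (Algebra.lmul A W x)).map
        (Ideal.Quotient.mk (Ideal.span ({π} : Set A))) := by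
    by_contra hnd
    obtain ⟨a, b, hab⟩ := hQirr.coprime_iff_not_dvd.mpr hnd
    have h3 := congrArg (fun p : (A ⧸ Ideal.span ({π} : Set A))[X] =>
      p.eval₂ (nr79_bar π r₂ h₂π) (r₂ x)) hab
    have hcomp : (nr79_bar π r₂ h₂π).comp (Ideal.Quotient.mk (Ideal.span ({π} : Set A))) =
        r₂.comp (algebraMap A W) := by
      ext a
      simp [nr79_bar]
    have hP0 : ((LinearMap.charpoly (Algebra.lmul A W x)).map
        (Ideal.Quotient.mk (Ideal.span ({π} : Set A)))).eval₂ (nr79_bar π r₂ h₂π) (r₂ x) = 0 := by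
      rw [Polynomial.eval₂_map, hcomp]
      exact nr79_eval₂_charpoly r₂ x
    have hQ0 : (X ^ q - C (Ideal.Quotient.mk (Ideal.span ({π} : Set A)) v₂) :
        (A ⧸ Ideal.span ({π} : Set A))[X]).eval₂ (nr79_bar π r₂ h₂π) (r₂ x) = 0 := by
      rw [eval₂_sub, eval₂_pow, eval₂_X, eval₂_C, nr79_bar_mk, hv₂, sub_self]
    simp only [eval₂_add, eval₂_mul, eval₂_one, hP0, hQ0, mul_zero, add_zero] at h3
    exact zero_ne_one h3
  obtain ⟨P1, hP1⟩ := hX1
  have hQ1 : (X ^ q - C (Ideal.Quotient.mk (Ideal.span ({π} : Set A)) v₂)) ∣ P1 := by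
    rw [hP1] at hQdvd
    rcases hQirr.prime.dvd_or_dvd hQdvd with h | h
    · exfalso
      have hle := Polynomial.natDegree_le_of_dvd h (Polynomial.X_sub_C_ne_zero _)
      rw [natDegree_X_pow_sub_C, natDegree_X_sub_C] at hle
      have := hq.two_le
      omega
    · exact h
  obtain ⟨S, hS⟩ := hQ1
  have hdvd : (X - C (Ideal.Quotient.mk (Ideal.span ({π} : Set A)) v₁)) *
      (X ^ q - C (Ideal.Quotient.mk (Ideal.span ({π} : Set A)) v₂)) ∣
      (LinearMap.charpoly (Algebra.lmul A W x)).map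
        (Ideal.Quotient.mk (Ideal.span ({π} : Set A))) :=
    ⟨S, by rw [hP1, hS, mul_assoc]⟩
  have hmonic2 : ((X - C (Ideal.Quotient.mk (Ideal.span ({π} : Set A)) v₁)) *
      (X ^ q - C (Ideal.Quotient.mk (Ideal.span ({π} : Set A)) v₂))).Monic :=
    (monic_X_sub_C _).mul (monic_X_pow_sub_C _ hq.ne_zero)
  refine Polynomial.eq_of_monic_of_dvd_of_natDegree_le hmonic2 hPmonic hdvd ?_
  rw [hPdeg, (monic_X_sub_C _).natDegree_mul (monic_X_pow_sub_C _ hq.ne_zero),
    natDegree_X_sub_C, natDegree_X_pow_sub_C]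
  omega

omit hπ [Module.Free A W] [Module.Finite A W] [CommRing A] [CommRing W] [Algebra A W]
  [Field L] in
/-- The sign `(-1) ^ (q + 1)` is `1` in a ring in which the prime `q` vanishes. -/
theorem nr79_sign {k : Type*} [CommRing k] (hq : q.Prime) (hqk : (q : k) = 0) :
    ((-1 : k)) ^ (q + 1) = 1 := by
  rcases hq.eq_two_or_odd' with rfl | hodd
  · have h2 : (2 : k) = 0 := by exact_mod_cast hqk
    have h3 : (-1 : k) = 1 := by linear_combination -h2
    rw [h3, one_pow]
  · exact Even.neg_one_pow (Odd.add_one hodd)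

/-- The norm modulo `π` in terms of the constant coefficient of the characteristic polynomial. -/
theorem nr79_norm_mk (hq : q.Prime) [CharP L q] (hrank : Module.finrank A W = q + 1)
    (r₁ : W →+* L) (h₁π : r₁ (algebraMap A W π) = 0) (x : W) :
    Ideal.Quotient.mk (Ideal.span ({π} : Set A)) (Algebra.norm A x) =
      ((LinearMap.charpoly (Algebra.lmul A W x)).map
        (Ideal.Quotient.mk (Ideal.span ({π} : Set A)))).coeff 0 := by
  have hqk : ((q : ℕ) : A ⧸ Ideal.span ({π} : Set A)) = 0 := by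
    apply nr79_bar_injective π r₁ h₁π
    rw [map_natCast, map_zero]
    exact CharP.cast_eq_zero L q
  rw [Algebra.norm_apply, LinearMap.det_eq_sign_charpoly_coeff, hrank, map_mul, map_pow, map_neg,
    map_one, nr79_sign hq hqk, one_mul, Polynomial.coeff_map]

/-- **Generic case of the norm formula.** -/
theorem nr79_norm_generic (hq : q.Prime) [CharP L q] (hrank : Module.finrank A W = q + 1)
    (r₁ r₂ : W →+* L) (h₁π : r₁ (algebraMap A W π) = 0) (h₂π : r₂ (algebraMap A W π) = 0)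
    (x : W) (v₁ v₂ : A) (hv₁ : r₁ x = r₁ (algebraMap A W v₁))
    (hv₂ : r₂ x ^ q = r₂ (algebraMap A W v₂))
    (hgen : ∀ a : A, r₂ x ≠ r₂ (algebraMap A W a)) :
    Ideal.Quotient.mk (Ideal.span ({π} : Set A)) (Algebra.norm A x) =
      Ideal.Quotient.mk (Ideal.span ({π} : Set A)) v₁ *
        Ideal.Quotient.mk (Ideal.span ({π} : Set A)) v₂ := by
  rw [nr79_norm_mk π hq hrank r₁ h₁π x,
    nr79_generic π hq hrank r₁ r₂ h₁π h₂π x v₁ v₂ hv₁ hv₂ hgen,
    Polynomial.coeff_zero_eq_eval_zero]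
  simp only [eval_mul, eval_sub, eval_X, eval_C, eval_pow, zero_pow hq.ne_zero]
  ring

/-- **(1b) The norm formula modulo `π`** (quotient form). -/
theorem nr79_norm_eq (hq : q.Prime) [CharP L q] (hrank : Module.finrank A W = q + 1)
    (r₁ r₂ : W →+* L) (h₁π : r₁ (algebraMap A W π) = 0) (h₂π : r₂ (algebraMap A W π) = 0)
    (h₁ : ∀ w : W, ∃ a : A, r₁ w = r₁ (algebraMap A W a))
    (h₂ : ∀ w : W, ∃ a : A, r₂ w ^ q = r₂ (algebraMap A W a))
    (h₃ : ∃ y : W, ∀ a : A, r₂ y ≠ r₂ (algebraMap A W a))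
    (x : W) (v₁ v₂ : A) (hv₁ : r₁ x = r₁ (algebraMap A W v₁))
    (hv₂ : r₂ x ^ q = r₂ (algebraMap A W v₂)) :
    Ideal.Quotient.mk (Ideal.span ({π} : Set A)) (Algebra.norm A x) =
      Ideal.Quotient.mk (Ideal.span ({π} : Set A)) v₁ *
        Ideal.Quotient.mk (Ideal.span ({π} : Set A)) v₂ := by
  letI := Ideal.Quotient.field (Ideal.span ({π} : Set A))
  by_cases hgen : ∀ a : A, r₂ x ≠ r₂ (algebraMap A W a)
  · exact nr79_norm_generic π hq hrank r₁ r₂ h₁π h₂π x v₁ v₂ hv₁ hv₂ hgen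
  · obtain ⟨a, ha⟩ : ∃ a : A, r₂ x = r₂ (algebraMap A W a) := by
      by_contra hne
      exact hgen (fun a ha => hne ⟨a, ha⟩)
    by_cases h0 : r₂ x = 0
    · -- both sides vanish
      have hv₂0 : Ideal.Quotient.mk (Ideal.span ({π} : Set A)) v₂ = 0 := by
        apply nr79_bar_injective π r₂ h₂π
        rw [nr79_bar_mk, ← hv₂, h0, zero_pow hq.ne_zero, map_zero]
      have hroot := nr79_root π r₂ h₂π x 0 (by rw [h0, map_zero, map_zero])
      rw [nr79_norm_mk π hq hrank r₁ h₁π x, Polynomial.coeff_zero_eq_eval_zero, hv₂0, mul_zero]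
      simpa using hroot
    · -- multiply by a generic element
      obtain ⟨y₀, hy₀⟩ := h₃
      obtain ⟨y, hy, hy1⟩ : ∃ y : W, (∀ a : A, r₂ y ≠ r₂ (algebraMap A W a)) ∧ r₁ y ≠ 0 := by
        by_cases h10 : r₁ y₀ = 0
        · refine ⟨y₀ + 1, ?_, ?_⟩
          · intro b hb
            apply hy₀ (b - 1)
            rw [map_sub, map_sub, map_one, map_one, ← hb, map_add, map_one, add_sub_cancel_right]
          · rw [map_add, h10, zero_add, map_one]
            exact one_ne_zero
        · exact ⟨y₀, hy₀, h10⟩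
      obtain ⟨w₁, hw₁⟩ := h₁ y
      obtain ⟨w₂, hw₂⟩ := h₂ y
      have hw₁0 : Ideal.Quotient.mk (Ideal.span ({π} : Set A)) w₁ ≠ 0 := by
        intro h
        apply hy1
        rw [hw₁, ← nr79_bar_mk π r₁ h₁π, h, map_zero]
      have hw₂0 : Ideal.Quotient.mk (Ideal.span ({π} : Set A)) w₂ ≠ 0 := by
        intro h
        apply hy 0
        have h4 : r₂ y ^ q = 0 := by rw [hw₂, ← nr79_bar_mk π r₂ h₂π, h, map_zero]
        rw [map_zero, map_zero]
        exact pow_eq_zero_iff hq.ne_zero |>.mp h4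
      have hxy : ∀ b : A, r₂ (x * y) ≠ r₂ (algebraMap A W b) := by
        intro b hb
        have ha0 : Ideal.Quotient.mk (Ideal.span ({π} : Set A)) a ≠ 0 := by
          intro h
          apply h0
          rw [ha, ← nr79_bar_mk π r₂ h₂π, h, map_zero]
        obtain ⟨c, hc⟩ := Ideal.Quotient.mk_surjective
          (Ideal.Quotient.mk (Ideal.span ({π} : Set A)) b *
            (Ideal.Quotient.mk (Ideal.span ({π} : Set A)) a)⁻¹)
        apply hy c
        have h5 : r₂ x * r₂ y = r₂ (algebraMap A W b) := by rw [← map_mul, hb]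
        have h6 : r₂ x ≠ 0 := h0
        rw [← nr79_bar_mk π r₂ h₂π, hc, map_mul, map_inv₀, nr79_bar_mk, nr79_bar_mk, ← ha, ← h5]
        field_simp
      have e1 := nr79_norm_generic π hq hrank r₁ r₂ h₁π h₂π y w₁ w₂ hw₁ hw₂ hy
      have e2 := nr79_norm_generic π hq hrank r₁ r₂ h₁π h₂π (x * y) (v₁ * w₁) (v₂ * w₂)
        (by rw [map_mul, map_mul, map_mul, hv₁, hw₁])
        (by rw [map_mul, map_mul, map_mul, mul_pow, hv₂, hw₂]) hxy
      rw [map_mul, map_mul, map_mul, map_mul, e1] at e2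
      have hne : Ideal.Quotient.mk (Ideal.span ({π} : Set A)) w₁ *
          Ideal.Quotient.mk (Ideal.span ({π} : Set A)) w₂ ≠ 0 := mul_ne_zero hw₁0 hw₂0
      apply mul_right_cancel₀ hne
      rw [e2]
      ring

/-- **(1b) The norm formula modulo `π`**: `N_{W/A}(x) - v₁ v₂ ∈ (π)`. -/
theorem nr79_norm (hq : q.Prime) [CharP L q] (hrank : Module.finrank A W = q + 1)
    (r₁ r₂ : W →+* L) (h₁π : r₁ (algebraMap A W π) = 0) (h₂π : r₂ (algebraMap A W π) = 0)
    (h₁ : ∀ w : W, ∃ a : A, r₁ w = r₁ (algebraMap A W a))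
    (h₂ : ∀ w : W, ∃ a : A, r₂ w ^ q = r₂ (algebraMap A W a))
    (h₃ : ∃ y : W, ∀ a : A, r₂ y ≠ r₂ (algebraMap A W a))
    (x : W) (v₁ v₂ : A) (hv₁ : r₁ x = r₁ (algebraMap A W v₁))
    (hv₂ : r₂ x ^ q = r₂ (algebraMap A W v₂)) :
    Algebra.norm A x - v₁ * v₂ ∈ Ideal.span ({π} : Set A) := by
  rw [← Ideal.Quotient.eq, map_mul]
  exact nr79_norm_eq π hq hrank r₁ r₂ h₁π h₂π h₁ h₂ h₃ x v₁ v₂ hv₁ hv₂

/-- **(1b)**, divisibility form: `π ∣ N_{W/A}(x) - v₁ v₂`. -/
theorem nr79_norm_dvd (hq : q.Prime) [CharP L q] (hrank : Module.finrank A W = q + 1)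
    (r₁ r₂ : W →+* L) (h₁π : r₁ (algebraMap A W π) = 0) (h₂π : r₂ (algebraMap A W π) = 0)
    (h₁ : ∀ w : W, ∃ a : A, r₁ w = r₁ (algebraMap A W a))
    (h₂ : ∀ w : W, ∃ a : A, r₂ w ^ q = r₂ (algebraMap A W a))
    (h₃ : ∃ y : W, ∀ a : A, r₂ y ≠ r₂ (algebraMap A W a))
    (x : W) (v₁ v₂ : A) (hv₁ : r₁ x = r₁ (algebraMap A W v₁))
    (hv₂ : r₂ x ^ q = r₂ (algebraMap A W v₂)) :
    π ∣ Algebra.norm A x - v₁ * v₂ :=
  Ideal.mem_span_singleton.mp
    (nr79_norm π hq hrank r₁ r₂ h₁π h₂π h₁ h₂ h₃ x v₁ v₂ hv₁ hv₂)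

end Main

end NR79

end Fermat.Agent.S35
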