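import Mathlib

/-!
# S35 lab, tool T-NormRes (helper64): the norm of `P(y)` as a resultant and its reduction modulo
the Kronecker factorisation (step (1b) of the S35 proof text; abstract, Mathlib only)

* `nr64_res_frob` : in characteristic `q`, `Res(X ^ q - b, P) = P^{(q)}(b)`, where `P^{(q)}` is
  `P` with its coefficients raised to the `q`-th power (`P.map (frobenius k q)`).
* `nr64_res_kronecker` : `Res((X - a)(X ^ q - b), P) = P(a) * P^{(q)}(b)` in characteristic `q`.
* `nr64_norm_eq_resultant` : for a finite separable field extension `F / E` generated by `y`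
  (`Algebra.adjoin E {y} = ⊤`), `N_{F/E}(P(y)) = Res(minpoly_E(y), P)`.
* `nr64_main` : `A ⊆ E` a subring, `φ : A →+* k` a ring homomorphism into a field of
  characteristic `q`, `Φ ∈ A[X]` with `Φ = minpoly_E(y)` and
  `φ(Φ) = (X - φ a)(X ^ q - φ b)`.  Then for every `P ∈ A[X]` the norm `N_{F/E}(P(y))` lies in
  `A` and `φ(N_{F/E}(P(y))) = φ(P(a)) * φ(P)^{(q)}(φ b)`.

Intended instance: `E = F_K(M')`, `F = F_K(M' q)` (via `α`), `A = V'` the Gauss valuation ring,
`φ` its reduction, `y = j(Q^q)`, `Φ = Φ_q(Y, j)`, `a = j ^ q`, `b = j` (Kronecker congruence).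

All names are prefixed `nr64_`.
-/

set_option autoImplicit false

open Polynomial

namespace Fermat.Agent.S35

section nr64_res

variable {k : Type*} [Field k] (q : ℕ) [hq : Fact q.Prime] [CharP k q]

/-- In characteristic `q`: `Res(X ^ q - b, P) = P^{(q)}(b)`. -/
theorem nr64_res_frob (b : k) (P : k[X]) (n : ℕ) (hn : P.natDegree ≤ n) :
    resultant (X ^ q - C b) P q n = (P.map (frobenius k q)).eval b := by
  obtain ⟨β, hβ⟩ := IsAlgClosed.exists_pow_nat_eq (algebraMap k (AlgebraicClosure k) b)
    hq.out.pos
  apply (algebraMap k (AlgebraicClosure k)).injective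
  have : CharP (AlgebraicClosure k) q := charP_of_injective_algebraMap
    (algebraMap k (AlgebraicClosure k)).injective q
  have h1 : (X ^ q - C b : k[X]).map (algebraMap k (AlgebraicClosure k)) = (X - C β) ^ q := by
    rw [sub_pow_char, ← C_pow, hβ]
    simp
  rw [← resultant_map_map, h1,
    resultant_X_sub_C_pow_left _ _ _ _ (natDegree_map_le.trans hn)]
  have h2 : eval β (P.map (algebraMap k (AlgebraicClosure k))) ^ q =
      frobenius (AlgebraicClosure k) q (eval β (P.map (algebraMap k (AlgebraicClosure k)))) :=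
    rfl
  rw [h2, eval_map, eval_map, hom_eval₂, hom_eval₂, frobenius_def, hβ]
  congr 1
  ext x
  simp [frobenius_def]

/-- In characteristic `q`: `Res((X - a) (X ^ q - b), P) = P(a) * P^{(q)}(b)`. -/
theorem nr64_res_kronecker (a b : k) (P : k[X]) (n : ℕ) (hn : P.natDegree ≤ n) :
    resultant ((X - C a) * (X ^ q - C b)) P (1 + q) n =
      P.eval a * (P.map (frobenius k q)).eval b := by
  have h := resultant_mul_left (X - C a) (X ^ q - C b) P n hn
  rw [natDegree_X_sub_C, natDegree_X_pow_sub_C] at h
  rw [h, resultant_X_sub_C_left P n a hn, nr64_res_frob q b P n hn]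

end nr64_res

section nr64_norm

variable {E F : Type*} [Field E] [Field F] [Algebra E F] [FiniteDimensional E F]
  [Algebra.IsSeparable E F]

/-- **Norm as a resultant**: if `F = E[y]`, then `N_{F/E}(P(y)) = Res(minpoly_E(y), P)`. -/
theorem nr64_norm_eq_resultant (y : F) (hy : Algebra.adjoin E {y} = ⊤) (P : E[X]) (n : ℕ)
    (hn : P.natDegree ≤ n) :
    Algebra.norm E (aeval y P) =
      resultant (minpoly E y) P (minpoly E y).natDegree n := by
  classical
  have hint : IsIntegral E y := Algebra.IsIntegral.isIntegral y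
  let pb : PowerBasis E F := PowerBasis.ofAdjoinEqTop' hint hy
  have hgen : pb.gen = y := PowerBasis.ofAdjoinEqTop'_gen hint hy
  let L := AlgebraicClosure F
  apply (algebraMap E L).injective
  have hsplit : ((minpoly E y).map (algebraMap E L)).Splits := IsAlgClosed.splits _
  have hmonic : ((minpoly E y).map (algebraMap E L)).Monic := (minpoly.monic hint).map _
  have hdeg : ((minpoly E y).map (algebraMap E L)).natDegree = (minpoly E y).natDegree :=
    natDegree_map _
  rw [Algebra.norm_eq_prod_embeddings E L, ← resultant_map_map, ← hdeg,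
    resultant_eq_prod_eval _ _ n (natDegree_map_le.trans hn) hsplit, hmonic.leadingCoeff,
    one_pow, one_mul]
  have hsep : IsSeparable E pb.gen := Algebra.IsSeparable.isSeparable E pb.gen
  have hnd : ((minpoly E pb.gen).aroots L).Nodup := nodup_roots (.map hsep)
  have key : ∀ g : L → L, (∏ σ : F →ₐ[E] L, g (σ pb.gen)) =
      (((minpoly E pb.gen).aroots L).map g).prod := by
    intro g
    rw [Fintype.prod_equiv pb.liftEquiv' (fun σ => g (σ pb.gen)) (fun x => g x.1)
      (fun σ => by simp only [PowerBasis.liftEquiv'_apply_coe])]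
    rw [Finset.prod_mem_multiset _ (fun x => g x.1) (fun x => g x) (fun _ => rfl),
      Finset.prod_eq_multiset_prod, Multiset.toFinset_val, Multiset.dedup_eq_self.mpr hnd]
  have h3 := key (fun z => eval z (P.map (algebraMap E L)))
  rw [hgen] at h3
  rw [← aroots_def, ← h3]
  refine Finset.prod_congr rfl fun σ _ => ?_
  rw [eval_map_algebraMap, aeval_algHom_apply]

end nr64_norm

section nr64_main

variable {E F k : Type*} [Field E] [Field F] [Algebra E F] [FiniteDimensional E F]
  [Algebra.IsSeparable E F] [Field k] (q : ℕ) [hq : Fact q.Prime] [CharP k q]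

/-- **The norm formula modulo the Kronecker factorisation.**  `A ⊆ E` a subring,
`φ : A →+* k` with `k` a field of characteristic `q`, `F = E[y]`, `Φ ∈ A[X]` the minimal
polynomial of `y` over `E`, `φ(Φ) = (X - φ a) (X ^ q - φ b)`.  Then for `P ∈ A[X]` the norm of
`P(y)` lies in `A` and `φ (N (P(y))) = φ (P(a)) * (φ P)^{(q)}(φ b)`. -/
theorem nr64_main (A : Subring E) (φ : A →+* k) (y : F) (hy : Algebra.adjoin E {y} = ⊤)
    (Φ : A[X]) (hΦ : Φ.map A.subtype = minpoly E y) (a b : A)
    (hfac : Φ.map φ = (X - C (φ a)) * (X ^ q - C (φ b))) (P : A[X]) :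
    ∃ N : A, (N : E) = Algebra.norm E (aeval y (P.map A.subtype)) ∧
      φ N = φ (P.eval a) * ((P.map φ).map (frobenius k q)).eval (φ b) := by
  have hint : IsIntegral E y := Algebra.IsIntegral.isIntegral y
  have hinj : Function.Injective A.subtype := Subtype.val_injective
  have hΦm : Φ.Monic := by
    apply monic_of_injective hinj
    rw [hΦ]
    exact minpoly.monic hint
  have hd1 : (minpoly E y).natDegree = Φ.natDegree := by
    rw [← hΦ, natDegree_map_eq_of_injective hinj]
  have hd2 : Φ.natDegree = 1 + q := by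
    rw [← hΦm.natDegree_map φ, hfac, natDegree_mul (X_sub_C_ne_zero _)
      (X_pow_sub_C_ne_zero hq.out.pos _), natDegree_X_sub_C, natDegree_X_pow_sub_C]
  refine ⟨resultant Φ P Φ.natDegree P.natDegree, ?_, ?_⟩
  · rw [nr64_norm_eq_resultant y hy _ P.natDegree natDegree_map_le, ← hΦ,
      natDegree_map_eq_of_injective hinj]
    exact (resultant_map_map Φ P Φ.natDegree P.natDegree A.subtype).symm
  · rw [← resultant_map_map Φ P Φ.natDegree P.natDegree φ, hfac, hd2,
      nr64_res_kronecker q (φ a) (φ b) (P.map φ) P.natDegree natDegree_map_le, eval_map_apply]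

end nr64_main

end Fermat.Agent.S35
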