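import Fermat.Agent.S35.PkgNorm86
import Fermat.Agent.S35.THOneAbs49

/-!
# S35 lab, chain B (helper86): the unbalanced norm congruence B1 in the `hB1` shape of
`tho49_TH_one`, on the canonical frame

`THOneAbs49` (helper49) proves `TH x ≡ 1 mod ϖ W` abstractly from the hypothesis

`hB1 : x ≠ 0 → x/ϖ^a, w x/ϖ^b units of V →
   N x/(ϖ'^a ϖ'^(b q)) unit of V' ∧ ϖ⁻¹ (α (N x)/(ϖ^a ϖ^(b q)) − (x/ϖ^a) · s (w x/ϖ^b)) ∈ V`.

Here this clause is proved on the canonical frame (`V = cm85_Vinf (M' q)`, `V' = cm85_Vinf M'`,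
`ϖ`, `ϖ'` the images of the uniformiser `π`, `α = al97L_alpha`, `w = al97L_w`,
`s = s34i47_coeffEquiv σ` for a Frobenius lift `σ`, `N` = the norm along `α`), as a corollary of
`pn86_cong_nonunits` (the literal (N3) of `Iface62`, `PkgNorm86`):

* `pn86b_alpha_mem`   : `α y ∈ V_∞(M' q) → y ∈ V_∞(M')`;
* `pn86b_sigma_isU`   : `σ̂` maps units of `V_∞` to units;
* `pn86b_B1`          : the clause, in the unfolded membership form;
* `pn86b_hB1`         : literally the hypothesis `hB1` of `tho49_TH_one` / `tho49_TH_Vinf`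
  (`tho49_IsU`, `Subring`s `(cm85_Vinf _ hπ).toSubring`, `α`, `w`, `s` as coerced maps).

All names are prefixed `pn86b_`.
-/

set_option autoImplicit false
set_option linter.style.haveILetI false
set_option linter.style.longLine false
set_option linter.unusedSectionVars false
set_option linter.unusedVariables false

open ModularCurve AlgebraicCurve IntermediateField
open Fermat.Agent.S24 Fermat.Agent.S28 Fermat.Agent.S18 Fermat.Agent.S37 Fermat.Agent.S34
open Fermat.Agent.S42

namespace Fermat.Agent.S35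

section pn86b_main

variable {R K : Type} [CommRing R] [IsDomain R] [IsDiscreteValuationRing R] [Field K]
  [Algebra R K] [IsFractionRing R K] [Algebra K Kbar]
  (M' q : ℕ) [NeZero M'] [NeZero q] (hq : q.Prime) (hM' : ¬ q ∣ M')

omit [Algebra K Kbar] in
/-- The Gauss ring of level `M'` is the preimage under `α` of the Gauss ring of level `M' q`. -/
theorem pn86b_alpha_mem {π : R} (hπ : Irreducible π) (y : ↥(modularFunctionFieldFullC K M'))
    (h : al97L_alpha K M' q y ∈ cm85_Vinf (K := K) (M' * q) hπ) :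
    y ∈ cm85_Vinf (K := K) M' hπ := by
  obtain ⟨s, t, hs, hst⟩ := h
  refine ⟨s, t, hs, ?_⟩
  rw [← al97L_alpha_coe K M' q]
  exact hst

omit [Algebra K Kbar] in
/-- A Frobenius lift maps units of `V_∞` to units of `V_∞`. -/
theorem pn86b_sigma_isU (M : ℕ) [NeZero M] {π : R} (hπ : Irreducible π) (σ : K ≃+* K)
    (hσ : ∀ r : R, ∃ r' : R, σ (algebraMap R K r) = algebraMap R K r' ∧
      r' - r ^ q ∈ IsLocalRing.maximalIdeal R)
    (x : ↥(modularFunctionFieldFullC K M)) (hx : x ∈ cm85_Vinf (K := K) M hπ)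
    (hx' : x⁻¹ ∈ cm85_Vinf (K := K) M hπ) :
    s34i47_coeffEquiv σ M x ∈ cm85_Vinf (K := K) M hπ ∧
      (s34i47_coeffEquiv σ M x)⁻¹ ∈ cm85_Vinf (K := K) M hπ := by
  refine ⟨ng97_sigma_mem q M hπ σ hσ x hx, ?_⟩
  rw [← map_inv₀]
  exact ng97_sigma_mem q M hπ σ hσ x⁻¹ hx'

/-- **B1 on the canonical frame**, membership form: for `x ≠ 0` with `x / π^a` and `w x / π^b`
units of `V_∞`: `N_α x / (π^a π^(b q))` is a unit of `V'` and
`π⁻¹ (α (N_α x) / (π^a π^(b q)) − (x / π^a) · σ̂ (w x / π^b)) ∈ V_∞`. -/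
theorem pn86b_B1 {π : R} (hπ : Irreducible π) (hqR : ¬ IsUnit (q : R)) (σ : K ≃+* K)
    (hσ : ∀ r : R, ∃ r' : R, σ (algebraMap R K r) = algebraMap R K r' ∧
      r' - r ^ q ∈ IsLocalRing.maximalIdeal R)
    (x : ↥(modularFunctionFieldFullC K (M' * q))) (hx : x ≠ 0) (a b : ℤ)
    (ha : x / (algebraMap K ↥(modularFunctionFieldFullC K (M' * q)) (algebraMap R K π)) ^ a ∈
      cm85_Vinf (K := K) (M' * q) hπ)
    (ha' : (x / (algebraMap K ↥(modularFunctionFieldFullC K (M' * q)) (algebraMap R K π)) ^ a)⁻¹ ∈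
      cm85_Vinf (K := K) (M' * q) hπ)
    (hb : al97L_w (algebraMap K Kbar) M' q hq hM' x /
        (algebraMap K ↥(modularFunctionFieldFullC K (M' * q)) (algebraMap R K π)) ^ b ∈
      cm85_Vinf (K := K) (M' * q) hπ)
    (hb' : (al97L_w (algebraMap K Kbar) M' q hq hM' x /
        (algebraMap K ↥(modularFunctionFieldFullC K (M' * q)) (algebraMap R K π)) ^ b)⁻¹ ∈
      cm85_Vinf (K := K) (M' * q) hπ) :
    letI := algebraAlong (al97L_alpha K M' q)
    (Algebra.norm ↥(modularFunctionFieldFullC K M') x /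
        ((algebraMap K ↥(modularFunctionFieldFullC K M') (algebraMap R K π)) ^ a *
          (algebraMap K ↥(modularFunctionFieldFullC K M') (algebraMap R K π)) ^ (b * (q : ℤ))) ∈
        cm85_Vinf (K := K) M' hπ ∧
      (Algebra.norm ↥(modularFunctionFieldFullC K M') x /
        ((algebraMap K ↥(modularFunctionFieldFullC K M') (algebraMap R K π)) ^ a *
          (algebraMap K ↥(modularFunctionFieldFullC K M') (algebraMap R K π)) ^ (b * (q : ℤ))))⁻¹ ∈
        cm85_Vinf (K := K) M' hπ) ∧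
    (algebraMap K ↥(modularFunctionFieldFullC K (M' * q)) (algebraMap R K π))⁻¹ *
      (al97L_alpha K M' q (Algebra.norm ↥(modularFunctionFieldFullC K M') x) /
          ((algebraMap K ↥(modularFunctionFieldFullC K (M' * q)) (algebraMap R K π)) ^ a *
            (algebraMap K ↥(modularFunctionFieldFullC K (M' * q)) (algebraMap R K π)) ^
              (b * (q : ℤ))) -
        x / (algebraMap K ↥(modularFunctionFieldFullC K (M' * q)) (algebraMap R K π)) ^ a *
          s34i47_coeffEquiv σ (M' * q) (al97L_w (algebraMap K Kbar) M' q hq hM' x /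
            (algebraMap K ↥(modularFunctionFieldFullC K (M' * q)) (algebraMap R K π)) ^ b)) ∈
      cm85_Vinf (K := K) (M' * q) hπ := by
  letI := algebraAlong (al97L_alpha K M' q)
  set V := cm85_Vinf (K := K) (M' * q) hπ with hV
  set ϖ : K := algebraMap R K π with hϖ
  have hϖ0 : ϖ ≠ 0 := by
    rw [hϖ]
    exact (map_ne_zero_iff _ (IsFractionRing.injective R K)).mpr hπ.ne_zero
  set c : ↥(modularFunctionFieldFullC K (M' * q)) :=
    algebraMap K ↥(modularFunctionFieldFullC K (M' * q)) ϖ with hc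
  set c' : ↥(modularFunctionFieldFullC K M') :=
    algebraMap K ↥(modularFunctionFieldFullC K M') ϖ with hc'
  set d : ↥(modularFunctionFieldFullC K (M' * q)) :=
    algebraMap K ↥(modularFunctionFieldFullC K (M' * q)) (σ ϖ) with hd
  have hc0 : c ≠ 0 := by
    rw [hc]
    exact (map_ne_zero_iff _ (algebraMap K ↥(modularFunctionFieldFullC K (M' * q))).injective).mpr
      hϖ0
  have hd0 : d ≠ 0 := by
    rw [hd]
    exact (map_ne_zero_iff _ (algebraMap K ↥(modularFunctionFieldFullC K (M' * q))).injective).mpr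
      ((map_ne_zero_iff _ σ.injective).mpr hϖ0)
  have hαc : al97L_alpha K M' q c' = c := (al97L_alpha K M' q).commutes ϖ
  set w := al97L_w (algebraMap K Kbar) M' q hq hM' with hw
  set sh := s34i47_coeffEquiv σ (M' * q) with hsh
  set Nx : ↥(modularFunctionFieldFullC K M') :=
    Algebra.norm ↥(modularFunctionFieldFullC K M') x with hNx
  have hsc : sh c = d := by rw [hc, hd, hsh]; exact pn86_coeffEquiv_const σ (M' * q) ϖ
  have hwx0 : w x ≠ 0 := (EmbeddingLike.map_ne_zero_iff (f := w)).mpr hx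
  have hswx0 : sh (w x) ≠ 0 := (EmbeddingLike.map_ne_zero_iff (f := sh)).mpr hwx0
  -- (N3) for `x` with `k = b`
  have hub : c ^ (-b) * w x = w x / c ^ b := by
    rw [zpow_neg, div_eq_inv_mul]
  have hN3 := pn86_cong_nonunits M' q hq hM' hπ hqR σ hσ x b hx
    (by rw [← hϖ, ← hc, ← hw, hub]; exact hb) (by rw [← hϖ, ← hc, ← hw, hub]; exact hb')
  rw [← hϖ, ← hw, ← hsh, ← hNx, ← hV] at hN3
  have hconst : algebraMap K ↥(modularFunctionFieldFullC K (M' * q)) (σ ϖ / ϖ ^ q) = d / c ^ q := by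
    rw [map_div₀, map_pow]
  rw [hconst] at hN3
  set Z : ↥(modularFunctionFieldFullC K (M' * q)) :=
    al97L_alpha K M' q Nx / (x * sh (w x)) * (d / c ^ q) ^ b with hZ
  -- `Z` is a principal unit
  have hZv : V.valuation (Z - 1) < 1 := (ValuationSubring.mem_nonunits_iff _).mp hN3
  have hZ1 : V.valuation Z = 1 := by
    have h1 : Z = 1 + (Z - 1) := by ring
    rw [h1]
    exact V.valuation.map_one_add_of_lt hZv
  have hZmem : Z ∈ V := by
    rw [← ValuationSubring.valuation_le_one_iff, hZ1]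
  have hZinv : Z⁻¹ ∈ V := by
    rw [← ValuationSubring.valuation_le_one_iff, map_inv₀, hZ1, inv_one]
  -- the unit `U`
  set U : ↥(modularFunctionFieldFullC K (M' * q)) := x / c ^ a * sh (w x / c ^ b) with hU
  obtain ⟨hs1, hs2⟩ := pn86b_sigma_isU q (M' * q) hπ σ hσ (w x / c ^ b) hb hb'
  have hUmem : U ∈ V := V.mul_mem _ _ ha hs1
  have hUinv : U⁻¹ ∈ V := by
    rw [hU, mul_inv]
    exact V.mul_mem _ _ ha' hs2
  have hcb : c ^ (b * (q : ℤ)) = (c ^ q) ^ b := by
    rw [show b * (q : ℤ) = (q : ℤ) * b from mul_comm _ _, zpow_mul, zpow_natCast]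
  have hkey : al97L_alpha K M' q Nx / (c ^ a * c ^ (b * (q : ℤ))) = Z * U := by
    rw [hZ, hU, map_div₀, map_zpow₀, hsc, hcb, div_zpow]
    have h1 : c ^ a ≠ 0 := zpow_ne_zero _ hc0
    have h2 : d ^ b ≠ 0 := zpow_ne_zero _ hd0
    have h3 : (c ^ q) ^ b ≠ 0 := zpow_ne_zero _ (pow_ne_zero q hc0)
    field_simp
  refine ⟨⟨?_, ?_⟩, ?_⟩
  · apply pn86b_alpha_mem M' q hπ
    rw [map_div₀, map_mul, map_zpow₀, map_zpow₀, hαc, hkey]
    exact V.mul_mem _ _ hZmem hUmem
  · apply pn86b_alpha_mem M' q hπ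
    rw [map_inv₀, map_div₀, map_mul, map_zpow₀, map_zpow₀, hαc, hkey, mul_inv]
    exact V.mul_mem _ _ hZinv hUinv
  · rw [hkey]
    have h4 : c⁻¹ * (Z * U - U) = c⁻¹ * (Z - 1) * U := by ring
    rw [h4]
    refine V.mul_mem _ _ ?_ hUmem
    exact fi66_pi_inv_mul_mem (IsLocalRing.residue R) π (pk85_res_iff hπ) hπ.ne_zero _
      (pk85_HF K (M' * q) hπ) _ hN3

/-- **`hB1` of `tho49_TH_one` on the canonical frame**, literally: `V = (cm85_Vinf (M' q)).toSubring`,
`V' = (cm85_Vinf M').toSubring`, `ϖ`, `ϖ'` the images of `π`, `α = al97L_alpha`, `w = al97L_w`,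
`s = s34i47_coeffEquiv σ`, `N` = the norm along `α`. -/
theorem pn86b_hB1 {π : R} (hπ : Irreducible π) (hqR : ¬ IsUnit (q : R)) (σ : K ≃+* K)
    (hσ : ∀ r : R, ∃ r' : R, σ (algebraMap R K r) = algebraMap R K r' ∧
      r' - r ^ q ∈ IsLocalRing.maximalIdeal R) :
    letI := algebraAlong (al97L_alpha K M' q)
    ∀ x : ↥(modularFunctionFieldFullC K (M' * q)), x ≠ 0 → ∀ a b : ℤ,
      tho49_IsU (cm85_Vinf (K := K) (M' * q) hπ).toSubring
        (x / (algebraMap K ↥(modularFunctionFieldFullC K (M' * q)) (algebraMap R K π)) ^ a) →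
      tho49_IsU (cm85_Vinf (K := K) (M' * q) hπ).toSubring
        ((al97L_w (algebraMap K Kbar) M' q hq hM').toRingEquiv x /
          (algebraMap K ↥(modularFunctionFieldFullC K (M' * q)) (algebraMap R K π)) ^ b) →
      tho49_IsU (cm85_Vinf (K := K) M' hπ).toSubring
        ((fun z => Algebra.norm ↥(modularFunctionFieldFullC K M') z) x /
          ((algebraMap K ↥(modularFunctionFieldFullC K M') (algebraMap R K π)) ^ a *
            (algebraMap K ↥(modularFunctionFieldFullC K M') (algebraMap R K π)) ^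
              (b * (q : ℤ)))) ∧
      (algebraMap K ↥(modularFunctionFieldFullC K (M' * q)) (algebraMap R K π))⁻¹ *
        ((al97L_alpha K M' q : ↥(modularFunctionFieldFullC K M') →+*
            ↥(modularFunctionFieldFullC K (M' * q)))
            ((fun z => Algebra.norm ↥(modularFunctionFieldFullC K M') z) x) /
            ((algebraMap K ↥(modularFunctionFieldFullC K (M' * q)) (algebraMap R K π)) ^ a *
              (algebraMap K ↥(modularFunctionFieldFullC K (M' * q)) (algebraMap R K π)) ^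
                (b * (q : ℤ))) -
          x / (algebraMap K ↥(modularFunctionFieldFullC K (M' * q)) (algebraMap R K π)) ^ a *
            s34i47_coeffEquiv σ (M' * q)
              ((al97L_w (algebraMap K Kbar) M' q hq hM').toRingEquiv x /
                (algebraMap K ↥(modularFunctionFieldFullC K (M' * q)) (algebraMap R K π)) ^ b)) ∈
        (cm85_Vinf (K := K) (M' * q) hπ).toSubring := by
  intro x hx a b ha hb
  exact pn86b_B1 M' q hq hM' hπ hqR σ hσ x hx a b ha.1 ha.2 hb.1 hb.2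

end pn86b_main

end Fermat.Agent.S35
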