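import Mathlib

/-!
# S35 lab, chain B, row 561 (B3a-NormUnit, twin; helper57): norms and valuation rings

Mathlib only.  `F / F'` a finite extension of fields, `O'` a discrete valuation subring of `F'`
(`O' ≠ ⊤`, principal).

* `nu57_overring` : a valuation subring of `F'` containing `O'` is `O'` or `⊤`;
* `nu57_eq_top` : a valuation subring of `F` containing the image of `F'` is `⊤`;
* `nu57_isIntegral` : if `y : F` lies in EVERY valuation subring `O''` of `F` with
  `O''.comap (algebraMap F' F) = O'`, then `y` is integral over `O'`;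
* `nu57_norm_mem` : ... and then `Algebra.norm F' y ∈ O'` (**the statement of row 561**);
* `nu57_norm_unit` : the unit form (`y`, `y⁻¹` in every `O''` ⟹ `N y`, `(N y)⁻¹ ∈ O'`).

All names are prefixed `nu57_`.
-/

set_option autoImplicit false

namespace Fermat.Agent.S35

section nu57

variable {F' F : Type*} [Field F'] [Field F] [Algebra F' F]

/-- A valuation subring of `F'` containing a discrete valuation subring `O'` is `O'` or `⊤`. -/
theorem nu57_overring (O' : ValuationSubring F') [IsPrincipalIdealRing O']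
    (A : ValuationSubring F') (hA : O' ≤ A) : A = O' ∨ A = ⊤ := by
  by_cases hO : O' = ⊤
  · right
    exact top_unique (hO ▸ hA)
  by_cases hAO : A ≤ O'
  · exact Or.inl (le_antisymm hAO hA)
  right
  -- `O'` is a discrete valuation ring
  have hdvr : IsDiscreteValuationRing O' := by
    have hnf : ¬ IsField O' := by
      intro hf
      apply hO
      refine top_unique fun x _ => ?_
      by_cases hx0 : x = 0
      · rw [hx0]; exact O'.zero_mem
      rcases O'.mem_or_inv_mem x with hx | hx
      · exact hx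
      · have hne : (⟨x⁻¹, hx⟩ : O') ≠ 0 := by
          intro h0
          exact inv_ne_zero hx0 (congrArg Subtype.val h0)
        obtain ⟨b, hb⟩ := hf.mul_inv_cancel hne
        have hb' : x⁻¹ * (b : F') = 1 := congrArg Subtype.val hb
        have hxb : x = (b : F') := by
          field_simp at hb'
          exact hb'.symm
        rw [hxb]
        exact b.2
    exact { not_a_field' := fun h => hnf (IsLocalRing.isField_iff_maximalIdeal_eq.mpr h) }
  obtain ⟨ϖ, hϖ⟩ := IsDiscreteValuationRing.exists_irreducible O'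
  -- an element of `A` outside `O'`
  obtain ⟨x, hxA, hxO⟩ := SetLike.not_le_iff_exists.mp hAO
  have hx0 : x ≠ 0 := fun h => hxO (h ▸ O'.zero_mem)
  have hxi : x⁻¹ ∈ O' := (O'.mem_or_inv_mem x).resolve_left hxO
  have hxi0 : (⟨x⁻¹, hxi⟩ : O') ≠ 0 := fun h0 => inv_ne_zero hx0 (congrArg Subtype.val h0)
  obtain ⟨k, u, hu⟩ := IsDiscreteValuationRing.eq_unit_mul_pow_irreducible hxi0 hϖ
  have hu' : x⁻¹ = (u : O') * (ϖ : F') ^ k := by
    have := congrArg Subtype.val hu
    simpa using this
  have hϖ0 : (ϖ : F') ≠ 0 := fun h => hϖ.ne_zero (Subtype.ext h)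
  have hui : ((u⁻¹ : (O')ˣ) : O') * (u : O') = 1 := Units.inv_mul u
  have hui' : (((u⁻¹ : (O')ˣ) : O') : F') * ((u : O') : F') = 1 := congrArg Subtype.val hui
  have hk : k ≠ 0 := by
    rintro rfl
    apply hxO
    have h1 : x = (((u⁻¹ : (O')ˣ) : O') : F') := by
      rw [pow_zero, mul_one] at hu'
      have h2 : x * ((u : O') : F') = 1 := by rw [← hu', mul_inv_cancel₀ hx0]
      calc x = x * (((u : O') : F') * (((u⁻¹ : (O')ˣ) : O') : F')) := by
              rw [mul_comm ((u : O') : F'), hui', mul_one]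
        _ = (((u⁻¹ : (O')ˣ) : O') : F') := by rw [← mul_assoc, h2, one_mul]
    rw [h1]
    exact SetLike.coe_mem _
  -- `ϖ⁻¹ ∈ A`
  have hϖA : (ϖ : F')⁻¹ ∈ A := by
    have h1 : (ϖ : F')⁻¹ = x * ((u : O') : F') * (ϖ : F') ^ (k - 1) := by
      have h2 : x * (((u : O') : F') * (ϖ : F') ^ k) = 1 := by
        rw [← hu', mul_inv_cancel₀ hx0]
      have h3 : (ϖ : F') ^ k = (ϖ : F') ^ (k - 1) * ϖ := by
        rw [← pow_succ, Nat.sub_add_cancel (Nat.pos_of_ne_zero hk)]
      rw [h3] at h2
      exact (eq_inv_of_mul_eq_one_left (by rw [← h2]; ring)).symm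
    rw [h1]
    exact A.mul_mem _ _ (A.mul_mem _ _ hxA (hA (SetLike.coe_mem _)))
      (pow_mem (hA (SetLike.coe_mem _)) _)
  -- every element lies in `A`
  refine top_unique fun z _ => ?_
  by_cases hz0 : z = 0
  · rw [hz0]; exact A.zero_mem
  rcases O'.mem_or_inv_mem z with hz | hz
  · exact hA hz
  · have hzi0 : (⟨z⁻¹, hz⟩ : O') ≠ 0 := fun h0 => inv_ne_zero hz0 (congrArg Subtype.val h0)
    obtain ⟨j, v, hv⟩ := IsDiscreteValuationRing.eq_unit_mul_pow_irreducible hzi0 hϖ
    have hv' : z⁻¹ = (v : O') * (ϖ : F') ^ j := by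
      have := congrArg Subtype.val hv
      simpa using this
    have hvi : (((v⁻¹ : (O')ˣ) : O') : F') * ((v : O') : F') = 1 :=
      congrArg Subtype.val (Units.inv_mul v)
    have h1 : z = (((v⁻¹ : (O')ˣ) : O') : F') * ((ϖ : F')⁻¹) ^ j := by
      have h2 : z * (((v : O') : F') * (ϖ : F') ^ j) = 1 := by
        rw [← hv', mul_inv_cancel₀ hz0]
      have h3 : z * ((v : O') : F') = ((ϖ : F') ^ j)⁻¹ :=
        eq_inv_of_mul_eq_one_left (by rw [← h2]; ring)
      rw [inv_pow, ← h3]
      calc z = z * ((((v⁻¹ : (O')ˣ) : O') : F') * ((v : O') : F')) := by rw [hvi, mul_one]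
        _ = (((v⁻¹ : (O')ˣ) : O') : F') * (z * ((v : O') : F')) := by ring
    rw [h1]
    exact A.mul_mem _ _ (hA (SetLike.coe_mem _)) (pow_mem hϖA j)

/-- A valuation subring of `F` containing the image of `F'` is `⊤` (`F / F'` algebraic). -/
theorem nu57_eq_top [Algebra.IsAlgebraic F' F] (V : ValuationSubring F)
    (hV : ∀ a : F', algebraMap F' F a ∈ V) : V = ⊤ := by
  refine top_unique fun y _ => ?_
  have hint : IsIntegral F' y := (Algebra.IsAlgebraic.isAlgebraic y).isIntegral
  obtain ⟨p, hp, hpy⟩ := hint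
  -- `y` is integral over `V`
  have hyV : IsIntegral V y := by
    refine ⟨p.map ((algebraMap F' F).codRestrict V.toSubring hV), hp.map _, ?_⟩
    rw [Polynomial.eval₂_map]
    have hcomp : (algebraMap V F).comp ((algebraMap F' F).codRestrict V.toSubring hV) =
        algebraMap F' F := by
      ext a
      rfl
    rw [hcomp]
    exact hpy
  obtain ⟨z, hz⟩ := (IsIntegrallyClosed.isIntegral_iff (R := V) (K := F)).mp hyV
  rw [← hz]
  exact z.2

/-- If `y` lies in every valuation subring of `F` over the discrete valuation subring `O'` of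
`F'`, then `y` is integral over `O'`. -/
theorem nu57_isIntegral [Algebra.IsAlgebraic F' F] (O' : ValuationSubring F')
    [IsPrincipalIdealRing O'] (y : F)
    (hy : ∀ O'' : ValuationSubring F, O''.comap (algebraMap F' F) = O' → y ∈ O'') :
    IsIntegral O' y := by
  -- the image of `O'` in `F`
  let s : Set F := (algebraMap F' F) '' (O' : Set F')
  have hmem : y ∈ (⨅ V : {V : ValuationSubring F // s ⊆ V.toSubring}, V.1.toSubring) := by
    rw [Subring.mem_iInf]
    rintro ⟨V, hV⟩
    show y ∈ V
    have hle : O' ≤ V.comap (algebraMap F' F) := by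
      intro a ha
      rw [ValuationSubring.mem_comap]
      exact hV ⟨a, ha, rfl⟩
    rcases nu57_overring O' _ hle with h | h
    · exact hy V h
    · have hV' : ∀ a : F', algebraMap F' F a ∈ V := by
        intro a
        have : a ∈ V.comap (algebraMap F' F) := by rw [h]; trivial
        exact ValuationSubring.mem_comap.mp this
      rw [nu57_eq_top V hV']
      trivial
  rw [iInf_valuationSubring_superset] at hmem
  -- integral over the closure of the image, hence over `O'`
  have hint : IsIntegral (Subring.closure s) y := hmem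
  obtain ⟨p, hp, hpy⟩ := hint
  have hcl : ∀ x ∈ Subring.closure s, ∃ a : O', algebraMap O' F a = x := by
    intro x hx
    induction hx using Subring.closure_induction with
    | mem x hx =>
      obtain ⟨a, ha, rfl⟩ := hx
      exact ⟨⟨a, ha⟩, rfl⟩
    | zero => exact ⟨0, map_zero _⟩
    | one => exact ⟨1, map_one _⟩
    | add x y _ _ hx hy =>
      obtain ⟨a, rfl⟩ := hx
      obtain ⟨b, rfl⟩ := hy
      exact ⟨a + b, map_add _ _ _⟩
    | neg x _ hx =>
      obtain ⟨a, rfl⟩ := hx
      exact ⟨-a, map_neg _ _⟩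
    | mul x y _ _ hx hy =>
      obtain ⟨a, rfl⟩ := hx
      obtain ⟨b, rfl⟩ := hy
      exact ⟨a * b, map_mul _ _ _⟩
  -- lift the coefficients
  have hlift : ∀ i : ℕ, ∃ a : O', algebraMap O' F a = ((p.coeff i : Subring.closure s) : F) :=
    fun i => hcl _ (p.coeff i).2
  choose c hc using hlift
  classical
  let P : Polynomial O' := ∑ i ∈ Finset.range (p.natDegree), Polynomial.C (c i) * Polynomial.X ^ i
    + Polynomial.X ^ p.natDegree
  have hPdeg : (∑ i ∈ Finset.range (p.natDegree), Polynomial.C (c i) * Polynomial.X ^ i :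
      Polynomial O').degree < (p.natDegree : WithBot ℕ) := by
    refine (Polynomial.degree_sum_le _ _).trans_lt ?_
    rw [Finset.sup_lt_iff (by exact WithBot.bot_lt_coe _)]
    intro i hi
    refine (Polynomial.degree_C_mul_X_pow_le i (c i)).trans_lt ?_
    exact_mod_cast Finset.mem_range.mp hi
  have hPm : P.Monic := by
    have h := Polynomial.monic_X_pow_add (n := p.natDegree) hPdeg
    rwa [add_comm] at h
  refine ⟨P, hPm, ?_⟩
  have h1 : Polynomial.eval₂ (algebraMap O' F) y P =
      ∑ i ∈ Finset.range (p.natDegree), ((p.coeff i : Subring.closure s) : F) * y ^ i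
        + y ^ p.natDegree := by
    simp only [P, Polynomial.eval₂_add, Polynomial.eval₂_finsetSum, Polynomial.eval₂_mul,
      Polynomial.eval₂_C, Polynomial.eval₂_pow, Polynomial.eval₂_X, hc]
  rw [h1]
  have h2 : Polynomial.eval₂ (algebraMap (Subring.closure s) F) y p =
      ∑ i ∈ Finset.range (p.natDegree + 1), ((p.coeff i : Subring.closure s) : F) * y ^ i := by
    rw [Polynomial.eval₂_eq_sum_range]
    rfl
  rw [Finset.sum_range_succ, hp.coeff_natDegree] at h2
  rw [← hpy, h2]
  simp

/-- **Row 561 (B3a).**  `F / F'` finite, `O'` a discrete valuation subring of `F'`.  If `y : F`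
lies in every valuation subring `O''` of `F` with `O''.comap (algebraMap F' F) = O'`, then
`Algebra.norm F' y ∈ O'`. -/
theorem nu57_norm_mem [FiniteDimensional F' F] (O' : ValuationSubring F')
    [IsPrincipalIdealRing O'] (y : F)
    (hy : ∀ O'' : ValuationSubring F, O''.comap (algebraMap F' F) = O' → y ∈ O'') :
    Algebra.norm F' y ∈ O' := by
  have hint : IsIntegral O' y := nu57_isIntegral O' y hy
  have hN : IsIntegral O' (Algebra.norm F' y) := Algebra.isIntegral_norm F' hint
  obtain ⟨z, hz⟩ := (IsIntegrallyClosed.isIntegral_iff (R := O') (K := F')).mp hN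
  rw [← hz]
  exact z.2

/-- **Row 561 (B3a), unit form.**  If `y ≠ 0` and `y`, `y⁻¹` lie in every valuation subring of
`F` over `O'`, then `Algebra.norm F' y` and its inverse lie in `O'`. -/
theorem nu57_norm_unit [FiniteDimensional F' F] (O' : ValuationSubring F')
    [IsPrincipalIdealRing O'] (y : F)
    (hy : ∀ O'' : ValuationSubring F, O''.comap (algebraMap F' F) = O' → y ∈ O'' ∧ y⁻¹ ∈ O'') :
    Algebra.norm F' y ∈ O' ∧ (Algebra.norm F' y)⁻¹ ∈ O' := by
  refine ⟨nu57_norm_mem O' y fun O'' h => (hy O'' h).1, ?_⟩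
  rw [← Algebra.norm_inv]
  exact nu57_norm_mem O' y⁻¹ fun O'' h => (hy O'' h).2

end nu57

end Fermat.Agent.S35
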