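import Mathlib
import Fermat.Agent.S35.PkgToricCong35
import Fermat.Agent.S35.PkgCoreNode39

/-!
# S35 lab (helper35): the LITERAL package `s35i62_Pkg_Core` (chain A), closed

`pc39_core_of_toric : pc39_ToricCong → s35i62_Pkg_Core` (helper39, `PkgCoreNode39`: assembly +
node datum) applied to `ntc35_pc39_toricCong : pc39_ToricCong` (helper35, `PkgToricCong35`:
step (1c), new ⇒ toric).
-/

set_option autoImplicit false

namespace Fermat.Agent.S35

/-- **P-CORE** (Iface62): CORE35 at every level `M' q` with `p₀ ∣ M'` — chain A, no hypotheses. -/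
theorem ntc35_pkg_core : s35i62_Pkg_Core :=
  pc39_core_of_toric ntc35_pc39_toricCong

end Fermat.Agent.S35
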