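import Mathlib
import Fermat.Agent.S35.PkgCoreNode39
import Fermat.Agent.S35.NewToricCanon35

/-!
# S35 lab, row 568 (PKG-Core-A, helper39): the literal package `s35i62_Pkg_Core`

`pc39_pkg_core : s35i62_Pkg_Core` — chain A of the S35 lab, closed:

* `pc39_toricCong : pc39_ToricCong` — step (1c) "new ⟹ toric" in congruence form
  (`ntc35_toric`, helper35; norm formula helper97, split element helper66, abstract core
  helper98);
* `pc39_nodeDatum : pc39_NodeDatum` — the local datum at the nodes (`PkgCoreNode39`);
* `pc39_core_of` — the assembly (`PkgCoreA39`).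
-/

set_option autoImplicit false
set_option linter.style.longLine false
set_option linter.unusedVariables false

open ModularCurve AlgebraicCurve

namespace Fermat.Agent.S35

open Fermat.Agent.S18 Fermat.Agent.S34

local notation "Q̄" => AlgebraicClosure ℚ

/-- **(1c) in congruence form**, from `ntc35_toric`. -/
theorem pc39_toricCong : pc39_ToricCong := by
  intro M' q m _ _ hq hM' hm hmq R K _ _ _ _ _ _ _ _ _ _ π hπ hunit hqR hζ σ hσ f a b ca cb hf ha
    hb hca hcb hord hNa hNb
  obtain ⟨G, hG0, hGW, hGW', C₁, C₂, hC₁, hC₂, h1, h2, -, -, -⟩ :=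
    ntc35_toric M' q hq hM' hπ hqR σ hσ m f a b ca cb hf ha hb hNa hNb
  exact ⟨G, hGW, hGW', C₁, C₂, hC₁, hC₂, h1, h2⟩

/-- **P-CORE** (chain A): the literal package `s35i62_Pkg_Core` of the interface. -/
theorem pc39_pkg_core : s35i62_Pkg_Core :=
  pc39_core_of_toric pc39_toricCong

end Fermat.Agent.S35
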