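import Fermat.Agent.S35.THOneAbs49
import Fermat.Agent.S35.NormUnbalB86
import Fermat.Agent.S35.FrobFrame50
import Fermat.Agent.S34.AtkinLehnerCanon97
import Fermat.Agent.S34.InertiaIface87

/-!
# S35 lab, chain B (helper54): the operator `TH` on the canonical frame and `TH x ≡ 1 mod π W`

Canonical frame data (as `Iface47c` / `Iface62`): `R` a discrete valuation ring with fraction
field `K` (a number field, `Algebra K ℚ̄`), level `M' * q`, `q` prime, `q ∤ M'`, residue
characteristic `q`, `F = F_K(M' q)`, `F' = F_K(M')`, `α = al97L_alpha`, `β = al97L_beta`,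
`w = al97L_w`, `σ` a Frobenius lift (`ff50_Frob R q σ`), `ŝ = s34i47_coeffEquiv σ _`,
`N_α = Algebra.norm F'` along `α`, `V_∞ = cm85_Vinf (M' q)`, `W = s34i47c_W = V_∞ ⊓ V_0`.

* `thb54_T M' q hq hM' σ : F →*₀ F`, helper22's operator
  `TH x = ŝ² x · (w ŝ x)^(q+1) · x^q / (α (N_α (w ŝ x)) · β (N_α (ŝ x)))`
  (`N_β = N_α ∘ w`), as a multiplicative map; `thb54_T_apply` (the formula, `rfl`),
  `thb54_T_eq_tho49` (`= tho49_TH`, helper49's abstract operator).
* `thb54_T_isU1` : for `x ≠ 0`, `TH x` and `w (TH x)` are units of `V_∞` congruent to `1`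
  modulo `π V_∞` (`tho49_TH_one` + `pn86b_hB1` + `ff50_*`).
* `thb54_T_one` : `(algebraMap R F π)⁻¹ * (TH x - 1) ∈ W` for every `x ≠ 0` — literally the
  hypothesis `hT1` of `ldo54_localDatum_of_transport`.
* `thb54_T_mem_W`, `thb54_T_inv_mem_W` : `TH x` is a unit of `W`.
* tools: `thb54_pow_R`, `thb54_symm_R` (`σ⁻¹ R ⊆ R`), `thb54_exists_zpow` (every `x ≠ 0` is
  `π^a ·` unit of `V_∞`, any level).

All names are prefixed `thb54_`.
-/

set_option autoImplicit false
set_option linter.style.haveILetI false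
set_option linter.unusedSectionVars false

open ModularCurve AlgebraicCurve IntermediateField
open Fermat.Agent.S24 Fermat.Agent.S28 Fermat.Agent.S18 Fermat.Agent.S37 Fermat.Agent.S34
open Fermat.Agent.S42

namespace Fermat.Agent.S35

section thb54_tools

variable {R K : Type} [CommRing R] [IsDomain R] [IsDiscreteValuationRing R] [Field K]
  [Algebra R K] [IsFractionRing R K]

omit [IsDomain R] [IsDiscreteValuationRing R] [IsFractionRing R K] in
/-- Powers of an automorphism preserving `R` preserve `R`. -/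
theorem thb54_pow_R (σ : K ≃+* K)
    (hσ : ∀ r : R, ∃ r' : R, σ (algebraMap R K r) = algebraMap R K r') (j : ℕ) :
    ∀ r : R, ∃ r' : R, (σ ^ j) (algebraMap R K r) = algebraMap R K r' := by
  induction j with
  | zero => intro r; exact ⟨r, by rw [pow_zero]; rfl⟩
  | succ j ih =>
    intro r
    obtain ⟨r1, h1⟩ := hσ r
    obtain ⟨r2, h2⟩ := ih r1
    exact ⟨r2, by rw [pow_succ, RingAut.mul_apply, h1, h2]⟩

omit [IsDomain R] [IsDiscreteValuationRing R] [IsFractionRing R K] in
/-- Over a number field, the inverse of an automorphism preserving `R` preserves `R`. -/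
theorem thb54_symm_R [NumberField K] (σ : K ≃+* K)
    (hσ : ∀ r : R, ∃ r' : R, σ (algebraMap R K r) = algebraMap R K r') (r : R) :
    ∃ r' : R, σ.symm (algebraMap R K r) = algebraMap R K r' := by
  obtain ⟨k, hk0, hk⟩ := in87i_finOrder σ
  obtain ⟨r', hr'⟩ := thb54_pow_R σ hσ (k - 1) r
  refine ⟨r', ?_⟩
  rw [← hr', RingEquiv.symm_apply_eq]
  have h1 : σ * σ ^ (k - 1) = 1 := by rw [← pow_succ', Nat.sub_add_cancel hk0, hk]
  have h2 := congrArg (fun τ : K ≃+* K => τ (algebraMap R K r)) h1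
  exact h2.symm

/-- Discreteness of the Gauss valuation: every nonzero function is `π^a` times a unit of
`V_∞` (any level). -/
theorem thb54_exists_zpow {π : R} (hπ : Irreducible π) (M : ℕ) [NeZero M]
    (x : ↥(modularFunctionFieldFullC K M)) (hx : x ≠ 0) :
    ∃ a : ℤ, tho49_IsU (cm85_Vinf (K := K) M hπ).toSubring
      (x / (algebraMap K ↥(modularFunctionFieldFullC K M) (algebraMap R K π)) ^ a) := by
  obtain ⟨a, b, c, hc, ha, hb, hab⟩ := pk85_HF K M hπ x hx
  have hC : (HahnSeries.C c : LaurentSeries K) ≠ 0 := by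
    intro h0
    apply hc
    have h1 := congrArg (fun z : LaurentSeries K => z.coeff 0) h0
    simpa using h1
  have hxL : (x : LaurentSeries K) ≠ 0 := fun h => hx (Subtype.ext h)
  have hX : (algebraMap K ↥(modularFunctionFieldFullC K M) c)⁻¹ * x ∈
      cm85_Vinf (K := K) M hπ := by
    refine ⟨b, a, hb, ?_⟩
    rw [gv85_coe_inv_mul, mul_left_comm, mul_comm (coeffMap (algebraMap R K) b), hab,
      inv_mul_cancel_left₀ hC]
  have hX' : ((algebraMap K ↥(modularFunctionFieldFullC K M) c)⁻¹ * x)⁻¹ ∈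
      cm85_Vinf (K := K) M hπ := by
    refine ⟨a, b, ha, ?_⟩
    have h1 : ((((algebraMap K ↥(modularFunctionFieldFullC K M) c)⁻¹ * x)⁻¹ :
        ↥(modularFunctionFieldFullC K M)) : LaurentSeries K) =
        ((HahnSeries.C c)⁻¹ * (x : LaurentSeries K))⁻¹ := by
      rw [← gv85_coe_inv_mul]; rfl
    rw [h1, mul_inv, inv_inv, ← mul_assoc, mul_comm (coeffMap (algebraMap R K) a), ← hab,
      mul_comm (x : LaurentSeries K), mul_assoc, mul_inv_cancel₀ hxL, mul_one]
  -- `c = unit * π ^ j`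
  obtain ⟨r₁, r₂, hr₂, hr⟩ := IsFractionRing.div_surjective (A := R) c
  have hr₂0 : r₂ ≠ 0 := nonZeroDivisors.ne_zero hr₂
  have hr₁0 : r₁ ≠ 0 := by
    rintro rfl
    rw [map_zero, zero_div] at hr
    exact hc hr.symm
  obtain ⟨n₁, u₁, h₁⟩ := IsDiscreteValuationRing.eq_unit_mul_pow_irreducible hr₁0 hπ
  obtain ⟨n₂, u₂, h₂⟩ := IsDiscreteValuationRing.eq_unit_mul_pow_irreducible hr₂0 hπ
  have hP0 : algebraMap R K π ≠ 0 :=
    (map_ne_zero_iff _ (IsFractionRing.injective R K)).mpr hπ.ne_zero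
  have hu₂ : algebraMap R K (u₂ : R) ≠ 0 :=
    (map_ne_zero_iff _ (IsFractionRing.injective R K)).mpr u₂.ne_zero
  have hinv : algebraMap R K ((u₂⁻¹ : Rˣ) : R) = (algebraMap R K (u₂ : R))⁻¹ :=
    eq_inv_of_mul_eq_one_left (by rw [← map_mul, Units.inv_mul, map_one])
  have hc' : c = algebraMap R K ((u₁ * u₂⁻¹ : Rˣ) : R) *
      (algebraMap R K π) ^ ((n₁ : ℤ) - n₂) := by
    rw [← hr, h₁, h₂, map_mul, map_mul, map_pow, map_pow, zpow_sub₀ hP0, zpow_natCast,
      zpow_natCast, Units.val_mul, map_mul, hinv]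
    have h3 : algebraMap R K π ^ n₂ ≠ 0 := pow_ne_zero _ hP0
    field_simp
  refine ⟨(n₁ : ℤ) - n₂, ?_⟩
  have hcF : algebraMap K ↥(modularFunctionFieldFullC K M) c ≠ 0 := (map_ne_zero _).mpr hc
  have hPF : algebraMap K ↥(modularFunctionFieldFullC K M) (algebraMap R K π) ≠ 0 :=
    (map_ne_zero _).mpr hP0
  have hzp : (algebraMap K ↥(modularFunctionFieldFullC K M) (algebraMap R K π)) ^
      ((n₁ : ℤ) - n₂) ≠ 0 := zpow_ne_zero _ hPF
  have e : x / (algebraMap K ↥(modularFunctionFieldFullC K M) (algebraMap R K π)) ^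
        ((n₁ : ℤ) - n₂) =
      ((algebraMap K ↥(modularFunctionFieldFullC K M) c)⁻¹ * x) *
        algebraMap K ↥(modularFunctionFieldFullC K M)
          (algebraMap R K ((u₁ * u₂⁻¹ : Rˣ) : R)) := by
    have h4 : algebraMap K ↥(modularFunctionFieldFullC K M) c =
        algebraMap K ↥(modularFunctionFieldFullC K M) (algebraMap R K ((u₁ * u₂⁻¹ : Rˣ) : R)) *
          (algebraMap K ↥(modularFunctionFieldFullC K M) (algebraMap R K π)) ^
            ((n₁ : ℤ) - n₂) := by
      conv_lhs => rw [hc']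
      rw [map_mul, map_zpow₀]
    have h5 : algebraMap K ↥(modularFunctionFieldFullC K M)
        (algebraMap R K ((u₁ * u₂⁻¹ : Rˣ) : R)) ≠ 0 := by
      intro h0
      rw [h0, zero_mul] at h4
      exact hcF h4
    rw [h4]
    field_simp
  have hunit : ∀ u : Rˣ, tho49_IsU (cm85_Vinf (K := K) M hπ).toSubring
      (algebraMap K ↥(modularFunctionFieldFullC K M) (algebraMap R K (u : R))) := by
    intro u
    have hmem : ∀ r : R, algebraMap K ↥(modularFunctionFieldFullC K M) (algebraMap R K r) ∈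
        cm85_Vinf (K := K) M hπ := fun r =>
      gv85_mem_V_of_integral _ _ _ _ (HahnSeries.C r) (by rw [gv85_coe_algebraMap, gv85_coeffMap_C])
    refine ⟨hmem _, ?_⟩
    have hu0 : algebraMap R K (u : R) ≠ 0 :=
      (map_ne_zero_iff _ (IsFractionRing.injective R K)).mpr u.ne_zero
    have hinv' : algebraMap R K ((u⁻¹ : Rˣ) : R) = (algebraMap R K (u : R))⁻¹ :=
      eq_inv_of_mul_eq_one_left (by rw [← map_mul, Units.inv_mul, map_one])
    rw [← map_inv₀, ← hinv']
    exact hmem _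
  rw [e]
  exact tho49_IsU_mul ⟨hX, hX'⟩ (hunit _)

end thb54_tools

section thb54_main

variable {R K : Type} [CommRing R] [IsDomain R] [IsDiscreteValuationRing R] [Field K]
  [Algebra R K] [IsFractionRing R K] [Algebra K Kbar]
  (M' q : ℕ) [NeZero M'] [NeZero q] (hq : q.Prime) (hM' : ¬ q ∣ M')

/-- **helper22's operator `TH`** on `F = F_K(M' q)`, as a multiplicative map:
`TH x = ŝ² x · (w ŝ x)^(q+1) · x^q / (α (N_α (w ŝ x)) · β (N_α (ŝ x)))`. -/
noncomputable def thb54_T (σ : K ≃+* K) :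
    ↥(modularFunctionFieldFullC K (M' * q)) →*₀ ↥(modularFunctionFieldFullC K (M' * q)) :=
  letI := algebraAlong (al97L_alpha K M' q)
  { toFun := fun x =>
      s34i47_coeffEquiv σ (M' * q) (s34i47_coeffEquiv σ (M' * q) x) *
          (al97L_w (algebraMap K Kbar) M' q hq hM' (s34i47_coeffEquiv σ (M' * q) x)) ^ (q + 1) *
          x ^ q /
        (al97L_alpha K M' q (Algebra.norm ↥(modularFunctionFieldFullC K M')
            (al97L_w (algebraMap K Kbar) M' q hq hM' (s34i47_coeffEquiv σ (M' * q) x))) *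
          al97L_beta K M' q (Algebra.norm ↥(modularFunctionFieldFullC K M')
            (s34i47_coeffEquiv σ (M' * q) x)))
    map_zero' := by simp only [map_zero, zero_mul, zero_div]
    map_one' := by simp only [map_one, one_pow, mul_one, div_one]
    map_mul' := fun x y => by
      simp only [map_mul, mul_pow]
      ring }

/-- The formula for `TH`. -/
theorem thb54_T_apply (σ : K ≃+* K) (x : ↥(modularFunctionFieldFullC K (M' * q))) :
    letI := algebraAlong (al97L_alpha K M' q)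
    thb54_T M' q hq hM' σ x =
      s34i47_coeffEquiv σ (M' * q) (s34i47_coeffEquiv σ (M' * q) x) *
          (al97L_w (algebraMap K Kbar) M' q hq hM' (s34i47_coeffEquiv σ (M' * q) x)) ^ (q + 1) *
          x ^ q /
        (al97L_alpha K M' q (Algebra.norm ↥(modularFunctionFieldFullC K M')
            (al97L_w (algebraMap K Kbar) M' q hq hM' (s34i47_coeffEquiv σ (M' * q) x))) *
          al97L_beta K M' q (Algebra.norm ↥(modularFunctionFieldFullC K M')
            (s34i47_coeffEquiv σ (M' * q) x))) :=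
  rfl

/-- `TH` is helper49's abstract operator `tho49_TH` on the canonical data. -/
theorem thb54_T_eq_tho49 (σ : K ≃+* K) (x : ↥(modularFunctionFieldFullC K (M' * q))) :
    letI := algebraAlong (al97L_alpha K M' q)
    thb54_T M' q hq hM' σ x =
      tho49_TH (al97L_alpha K M' q : ↥(modularFunctionFieldFullC K M') →+*
          ↥(modularFunctionFieldFullC K (M' * q)))
        (al97L_beta K M' q : ↥(modularFunctionFieldFullC K M') →+*
          ↥(modularFunctionFieldFullC K (M' * q)))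
        (al97L_w (algebraMap K Kbar) M' q hq hM').toRingEquiv (s34i47_coeffEquiv σ (M' * q))
        (fun z => Algebra.norm ↥(modularFunctionFieldFullC K M') z) q x :=
  rfl

/-- **B2 on the canonical frame**: for `x ≠ 0`, `TH x` and `w (TH x)` are units of `V_∞`
congruent to `1` modulo `π V_∞`. -/
theorem thb54_T_isU1 [NumberField K] {π : R} (hπ : Irreducible π) (hqR : ¬ IsUnit (q : R))
    (σ : K ≃+* K) (hσ : ff50_Frob R q σ)
    (x : ↥(modularFunctionFieldFullC K (M' * q))) (hx : x ≠ 0) :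
    tho49_IsU1 (cm85_Vinf (K := K) (M' * q) hπ).toSubring
        (algebraMap K ↥(modularFunctionFieldFullC K (M' * q)) (algebraMap R K π))
        (thb54_T M' q hq hM' σ x) ∧
      tho49_IsU1 (cm85_Vinf (K := K) (M' * q) hπ).toSubring
        (algebraMap K ↥(modularFunctionFieldFullC K (M' * q)) (algebraMap R K π))
        (al97L_w (algebraMap K Kbar) M' q hq hM' (thb54_T M' q hq hM' σ x)) := by
  letI := algebraAlong (al97L_alpha K M' q)
  have hq0 : q ≠ 0 := hq.ne_zero
  have hL : ((M' * q : ℕ) : K) ≠ 0 := Nat.cast_ne_zero.mpr (NeZero.ne (M' * q))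
  have hfr := ng97_finrank K M' q hq hM' hL
  haveI : FiniteDimensional ↥(modularFunctionFieldFullC K M')
      ↥(modularFunctionFieldFullC K (M' * q)) :=
    Module.finite_of_finrank_pos (by rw [hfr]; omega)
  have hchar : (q : IsLocalRing.ResidueField R) = 0 := by
    have h1 := (IsLocalRing.residue_eq_zero_iff (q : R)).mpr hqR
    rwa [map_natCast] at h1
  set P : K := algebraMap R K π with hP
  have hP0 : P ≠ 0 := (map_ne_zero_iff _ (IsFractionRing.injective R K)).mpr hπ.ne_zero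
  have hϖ0 : algebraMap K ↥(modularFunctionFieldFullC K (M' * q)) P ≠ 0 :=
    (map_ne_zero _).mpr hP0
  -- `σ π = π t`, `σ⁻¹ t = t₁`, `t - t₁ ^ q = π d`
  obtain ⟨rπ, hrπ, hrπ'⟩ := hσ π
  have hπm : π ∈ IsLocalRing.maximalIdeal R := by
    rw [hπ.maximalIdeal_eq]
    exact Ideal.mem_span_singleton_self π
  have hrπm : rπ ∈ IsLocalRing.maximalIdeal R := by
    have h1 : π ^ q ∈ IsLocalRing.maximalIdeal R := Ideal.pow_mem_of_mem _ hπm q hq.pos
    have h2 := add_mem hrπ' h1
    rwa [sub_add_cancel] at h2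
  obtain ⟨t, ht⟩ : π ∣ rπ := by
    rw [hπ.maximalIdeal_eq, Ideal.mem_span_singleton] at hrπm
    exact hrπm
  obtain ⟨t₁, ht₁⟩ := thb54_symm_R σ (fun r => ⟨_, (hσ r).choose_spec.1⟩) t
  obtain ⟨t₂, ht₂, ht₂'⟩ := hσ t₁
  have htt : t₂ = t := IsFractionRing.injective R K (by
    rw [← ht₂, ← ht₁, RingEquiv.apply_symm_apply])
  rw [htt] at ht₂'
  obtain ⟨d, hd⟩ : π ∣ t - t₁ ^ q := by
    rw [hπ.maximalIdeal_eq, Ideal.mem_span_singleton] at ht₂'
    exact ht₂'
  have hmemR : ∀ r : R, algebraMap K ↥(modularFunctionFieldFullC K (M' * q)) (algebraMap R K r) ∈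
      cm85_Vinf (K := K) (M' * q) hπ := fun r =>
    gv85_mem_V_of_integral _ _ _ _ (HahnSeries.C r) (by rw [gv85_coe_algebraMap, gv85_coeffMap_C])
  have hsϖ : s34i47_coeffEquiv σ (M' * q)
      (algebraMap K ↥(modularFunctionFieldFullC K (M' * q)) P) =
      algebraMap K ↥(modularFunctionFieldFullC K (M' * q)) P *
        algebraMap K ↥(modularFunctionFieldFullC K (M' * q)) (algebraMap R K t) := by
    rw [pn86_coeffEquiv_const, hP, hrπ, ht, map_mul, map_mul]
  have hε : tho49_IsU (cm85_Vinf (K := K) (M' * q) hπ).toSubring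
      (algebraMap K ↥(modularFunctionFieldFullC K (M' * q)) (algebraMap R K t)) := by
    have h1 := ff50_div_mem_Vinf (M' * q) hq0 hπ σ hσ _ hϖ0
    have h2 := ff50_inv_div_mem_Vinf (M' * q) hq0 hπ σ hσ _ hϖ0
    rw [hsϖ, mul_div_cancel_left₀ _ hϖ0] at h1
    rw [hsϖ, div_mul_cancel_left₀ hϖ0] at h2
    exact ⟨h1, h2⟩
  have hsε : (s34i47_coeffEquiv σ (M' * q)).symm
      (algebraMap K ↥(modularFunctionFieldFullC K (M' * q)) (algebraMap R K t)) =
      algebraMap K ↥(modularFunctionFieldFullC K (M' * q)) (algebraMap R K t₁) := by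
    rw [RingEquiv.symm_apply_eq, pn86_coeffEquiv_const, ← ht₁, RingEquiv.apply_symm_apply]
  have hεq : (algebraMap K ↥(modularFunctionFieldFullC K (M' * q)) P)⁻¹ *
      (algebraMap K ↥(modularFunctionFieldFullC K (M' * q)) (algebraMap R K t) -
        ((s34i47_coeffEquiv σ (M' * q)).symm
          (algebraMap K ↥(modularFunctionFieldFullC K (M' * q)) (algebraMap R K t))) ^ q) ∈
      (cm85_Vinf (K := K) (M' * q) hπ).toSubring := by
    rw [hsε]
    have e : algebraMap K ↥(modularFunctionFieldFullC K (M' * q)) (algebraMap R K t) -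
        (algebraMap K ↥(modularFunctionFieldFullC K (M' * q)) (algebraMap R K t₁)) ^ q =
        algebraMap K ↥(modularFunctionFieldFullC K (M' * q)) P *
          algebraMap K ↥(modularFunctionFieldFullC K (M' * q)) (algebraMap R K d) := by
      rw [← map_pow, ← map_pow, ← map_sub, ← map_sub, hd, map_mul, map_mul]
    rw [e, inv_mul_cancel_left₀ hϖ0]
    exact hmemR d
  have hsV : ∀ y : ↥(modularFunctionFieldFullC K (M' * q)),
      s34i47_coeffEquiv σ (M' * q) y ∈ (cm85_Vinf (K := K) (M' * q) hπ).toSubring ↔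
        y ∈ (cm85_Vinf (K := K) (M' * q) hπ).toSubring := by
    intro y
    refine ⟨fun h => ?_, fun h => ff50_mem_Vinf (M' * q) hq0 hπ σ hσ y h⟩
    by_cases hy : y = 0
    · rw [hy]; exact zero_mem _
    have h1 := ff50_inv_div_mem_Vinf (M' * q) hq0 hπ σ hσ y hy
    have h2 := mul_mem h1 h
    rwa [div_mul_cancel₀ _ ((map_ne_zero _).mpr hy)] at h2
  have hs'V : ∀ y : ↥(modularFunctionFieldFullC K M'),
      s34i47_coeffEquiv σ M' y ∈ (cm85_Vinf (K := K) M' hπ).toSubring ↔
        y ∈ (cm85_Vinf (K := K) M' hπ).toSubring := by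
    intro y
    refine ⟨fun h => ?_, fun h => ff50_mem_Vinf M' hq0 hπ σ hσ y h⟩
    by_cases hy : y = 0
    · rw [hy]; exact zero_mem _
    have h1 := ff50_inv_div_mem_Vinf M' hq0 hπ σ hσ y hy
    have h2 := mul_mem h1 h
    rwa [div_mul_cancel₀ _ ((map_ne_zero _).mpr hy)] at h2
  have hmain := tho49_TH_one (cm85_Vinf (K := K) (M' * q) hπ).toSubring
    (cm85_Vinf (K := K) M' hπ).toSubring
    (algebraMap K ↥(modularFunctionFieldFullC K (M' * q)) P)
    (algebraMap K ↥(modularFunctionFieldFullC K M') P)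
    (algebraMap K ↥(modularFunctionFieldFullC K (M' * q)) (algebraMap R K t))
    (al97L_alpha K M' q : ↥(modularFunctionFieldFullC K M') →+*
      ↥(modularFunctionFieldFullC K (M' * q)))
    (al97L_beta K M' q : ↥(modularFunctionFieldFullC K M') →+*
      ↥(modularFunctionFieldFullC K (M' * q)))
    (al97L_w (algebraMap K Kbar) M' q hq hM').toRingEquiv (s34i47_coeffEquiv σ (M' * q))
    (s34i47_coeffEquiv σ M')
    (fun z => Algebra.norm ↥(modularFunctionFieldFullC K M') z) q hϖ0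
    ((al97L_alpha K M' q).commutes P) ((al97L_beta K M' q).commutes P) hsϖ hε hεq hsV hs'V
    (fun y hy => (al97C_alpha_mem_Vinf M' q hπ y).mpr hy)
    (fun y hy => (al97C_beta_mem_Vinf M' q hπ y).mpr hy)
    (fun y => ff50_alpha_comm M' q σ y)
    (fun y => (ng97_w_sigma M' q hq hM' σ y).symm)
    (fun y => al97L_w_w (algebraMap K Kbar) M' q hq hM' y)
    (fun y => al97L_w_alpha_apply (algebraMap K Kbar) M' q hq hM' y)
    (fun y => al97L_w_beta_apply (algebraMap K Kbar) M' q hq hM' y)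
    (fun y hy => ff50_frob_Vinf M' q hπ hq hchar σ hσ y hy)
    (fun y hy => Algebra.norm_ne_zero_iff.mpr hy)
    (fun y hy => thb54_exists_zpow hπ (M' * q) y hy)
    (pn86b_hB1 M' q hq hM' hπ hqR σ hσ) x hx
  exact hmain

/-- **`TH x ≡ 1` modulo `π W`** for every `x ≠ 0`: literally the hypothesis `hT1` of
`ldo54_localDatum_of_transport` for `T = thb54_T` and `W = s34i47c_W`. -/
theorem thb54_T_one [NumberField K] [Algebra R ↥(modularFunctionFieldFullC K (M' * q))]
    [IsScalarTower R K ↥(modularFunctionFieldFullC K (M' * q))]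
    {π : R} (hπ : Irreducible π) (hqR : ¬ IsUnit (q : R))
    (σ : K ≃+* K) (hσ : ff50_Frob R q σ)
    (x : ↥(modularFunctionFieldFullC K (M' * q))) (hx : x ≠ 0) :
    (algebraMap R ↥(modularFunctionFieldFullC K (M' * q)) π)⁻¹ *
        (thb54_T M' q hq hM' σ x - 1) ∈ s34i47c_W (K := K) M' q hq hM' hπ := by
  obtain ⟨h1, h2⟩ := thb54_T_isU1 M' q hq hM' hπ hqR σ hσ x hx
  rw [IsScalarTower.algebraMap_apply R K ↥(modularFunctionFieldFullC K (M' * q)),
    s34i47c_mem_W]
  refine ⟨h1.2, ?_⟩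
  rw [map_mul, map_inv₀, AlgEquiv.commutes, map_sub, map_one]
  exact h2.2

/-- `TH x ∈ W` for `x ≠ 0`. -/
theorem thb54_T_mem_W [NumberField K] {π : R} (hπ : Irreducible π) (hqR : ¬ IsUnit (q : R))
    (σ : K ≃+* K) (hσ : ff50_Frob R q σ)
    (x : ↥(modularFunctionFieldFullC K (M' * q))) (hx : x ≠ 0) :
    thb54_T M' q hq hM' σ x ∈ s34i47c_W (K := K) M' q hq hM' hπ := by
  obtain ⟨h1, h2⟩ := thb54_T_isU1 M' q hq hM' hπ hqR σ hσ x hx
  rw [s34i47c_mem_W]
  exact ⟨h1.1.1, h2.1.1⟩

/-- `(TH x)⁻¹ ∈ W` for `x ≠ 0`. -/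
theorem thb54_T_inv_mem_W [NumberField K] {π : R} (hπ : Irreducible π) (hqR : ¬ IsUnit (q : R))
    (σ : K ≃+* K) (hσ : ff50_Frob R q σ)
    (x : ↥(modularFunctionFieldFullC K (M' * q))) (hx : x ≠ 0) :
    (thb54_T M' q hq hM' σ x)⁻¹ ∈ s34i47c_W (K := K) M' q hq hM' hπ := by
  obtain ⟨h1, h2⟩ := thb54_T_isU1 M' q hq hM' hπ hqR σ hσ x hx
  rw [s34i47c_mem_W, map_inv₀]
  exact ⟨h1.1.2, h2.1.2⟩

end thb54_main

end Fermat.Agent.S35
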