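import Fermat.Agent.S35.ChainBCore85
import Fermat.Agent.S35.THOne54

/-!
# S35 lab, chain B (helper85): the LITERAL package `s35i62_Pkg_Core`, hypothesis-free

`cb85_pkg_core_closed : s35i62_Pkg_Core`  (P-CORE of `Iface62`).

* `cb85_THOne_holds` : (B2) in the literal shape `cb85_THOne` of `ChainBCore85`, from helper54's
  `thb54_T_one` (`THOne54`: `tho49_TH_one` + the unbalanced norm congruence `pn86b_hB1`).
* `cb85_pkg_core_closed` : `cb85_pkg_core` applied to it.

Route (independent of the unit-transport route `PkgCoreB90`): one-branch points by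
`sd89c_localDatum` for `u = TH g`, nodes by `nt85_datum` + `cb85_node_tr`, (LP) by `lpt70`
transport, `cm85_pkg_main`, and the algebra `cb85_alg_main`.  No unit transport through conjugate
places, no fibre analysis, no semi-local (LP).
-/

set_option autoImplicit false

open ModularCurve AlgebraicCurve

namespace Fermat.Agent.S35

open Fermat.Agent.S18 Fermat.Agent.S34

/-- **(B2) on the canonical frame**, in the literal shape consumed by `cb85_core`. -/
theorem cb85_THOne_holds (M' q : ℕ) [NeZero M'] [NeZero q] (hq : q.Prime) (hM' : ¬ q ∣ M') :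
    cb85_THOne M' q hq hM' := by
  intro R K _ _ _ _ _ _ _ _ _ _ π hπ hunit hqR hζ σ hσ x hx
  exact thb54_T_one M' q hq hM' hπ hqR σ hσ x hx

/-- **P-CORE (`Iface62`), hypothesis-free, by chain B.** -/
theorem cb85_pkg_core_closed : s35i62_Pkg_Core :=
  cb85_pkg_core cb85_THOne_holds

end Fermat.Agent.S35
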