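import Fermat.Agent.S35.UnitTransport90
import Fermat.Agent.S35.FibresInst76
import Fermat.Agent.S35.CoreTHAsm84
import Fermat.Agent.S34.BetaChart95
import Fermat.Agent.S34.BranchInf46

/-!
# S35 lab, chain B, row B3 (helper90): unit transport for `TH` ON THE CANONICAL FRAME

Binding of the abstract core `UnitTransport90` (`ut90_TH_unit`) to the canonical frame through
helper76's `fbi76_frame` (the hypotheses `fb76_Hyp` of the fibre lemma on both affine charts of
every admissible Hauptmodul), the integrality of the level-`M' q` chart over the image of the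
level-`M'` chart (`bc95_alpha`) and the finiteness of `F_K(M' q)` over `α F_K(M')`
(`bi46_finiteDimensional`).

* `ut90_frame_TH` : on a chart `B` over `B'` carrying an `fbi76_Frame`, integral over `α(B')`:
  if `y` is a unit of every horizontal valuation ring through the points of
  `Σ n = {n, ŝ⁻² n, ŝ⁻¹ w n}`, then `TH y = cth84_TH K M' q hq hM' σ y` and its inverse lie in
  every horizontal valuation ring through `n`.
* `ut90_nodeTr` : **the literal `cth84_NodeTr M' q hq hM'`** of `CoreTHAsm84` (unit transport at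
  the nodes, where `Σ n = {n}`).
-/

set_option autoImplicit false
set_option linter.unusedSectionVars false
set_option linter.style.haveILetI false
set_option linter.style.longLine false

open ModularCurve AlgebraicCurve

namespace Fermat.Agent.S35

open Fermat.Agent.S18 Fermat.Agent.S24 Fermat.Agent.S34

local notation "Q̄" => AlgebraicClosure ℚ

section ut90_inst

variable {R K : Type} [CommRing R] [IsDomain R] [IsDiscreteValuationRing R] [Field K]
  [NumberField K] [Algebra R K] [IsFractionRing R K] [Algebra K Q̄]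
  (M' q : ℕ) [NeZero M'] [NeZero q] (hq : q.Prime) (hM' : ¬ q ∣ M')
  [Algebra R ↥(modularFunctionFieldFullC K M')]
  [IsScalarTower R K ↥(modularFunctionFieldFullC K M')]
  [Algebra R ↥(modularFunctionFieldFullC K (M' * q))]
  [IsScalarTower R K ↥(modularFunctionFieldFullC K (M' * q))]

include hq hM' in
/-- **Unit transport for `TH` on a chart of the canonical frame.** -/
theorem ut90_frame_TH {π : R} (hπ : Irreducible π) (σ : K ≃+* K) (hσ : ff50_Frob R q σ)
    (B : Subalgebra R ↥(modularFunctionFieldFullC K (M' * q)))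
    (B' : Subalgebra R ↥(modularFunctionFieldFullC K M'))
    (D : fbi76_Frame π B B' (cm85_Vinf (K := K) (M' * q) hπ).toSubring
      (s34i47c_V0 (K := K) M' q hq hM' hπ).toSubring
      (al97L_alpha K M' q : ↥(modularFunctionFieldFullC K M') →+*
        ↥(modularFunctionFieldFullC K (M' * q)))
      (al97L_beta K M' q : ↥(modularFunctionFieldFullC K M') →+*
        ↥(modularFunctionFieldFullC K (M' * q)))
      (s34i47_coeffEquiv σ (M' * q)) (bz13_w M' q hq hM') (s34i47_coeffEquiv σ M') q)
    (hint : (fbi76_hom B' B (al97L_alpha K M' q : ↥(modularFunctionFieldFullC K M') →+*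
        ↥(modularFunctionFieldFullC K (M' * q))) D.hαB).IsIntegral)
    (n : Ideal B) (hn : n.IsPrime) (hπn : algebraMap R B π ∈ n)
    (y : ↥(modularFunctionFieldFullC K (M' * q)))
    (hy : ∀ n' ∈ ut90_SigB (fbi76_equiv B (s34i47_coeffEquiv σ (M' * q)) D.hsB D.hsB')
        (fbi76_equiv B (bz13_w M' q hq hM') D.hwB D.hwB') n,
      ∀ O : ValuationSubring ↥(modularFunctionFieldFullC K (M' * q)),
        s34i47_IsHoriz π O → s34i47_Through B n' O → y ∈ O ∧ y⁻¹ ∈ O)
    (O : ValuationSubring ↥(modularFunctionFieldFullC K (M' * q)))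
    (hO : s34i47_IsHoriz π O) (hOn : s34i47_Through B n O) :
    cth84_TH K M' q hq hM' σ y ∈ O ∧ (cth84_TH K M' q hq hM' σ y)⁻¹ ∈ O := by
  letI : Algebra ↥(modularFunctionFieldFullC K M') ↥(modularFunctionFieldFullC K (M' * q)) :=
    algebraAlong (al97L_alpha K M' q)
  haveI : FiniteDimensional ↥(modularFunctionFieldFullC K M')
      ↥(modularFunctionFieldFullC K (M' * q)) := bi46_finiteDimensional K M' q hq
  haveI : IsScalarTower R ↥(modularFunctionFieldFullC K M')
      ↥(modularFunctionFieldFullC K (M' * q)) := by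
    refine IsScalarTower.of_algebraMap_eq (fun r => ?_)
    show algebraMap R ↥(modularFunctionFieldFullC K (M' * q)) r =
      al97L_alpha K M' q (algebraMap R ↥(modularFunctionFieldFullC K M') r)
    rw [IsScalarTower.algebraMap_apply R K ↥(modularFunctionFieldFullC K M'),
      IsScalarTower.algebraMap_apply R K ↥(modularFunctionFieldFullC K (M' * q)),
      AlgHom.commutes]
  have hsR : ∀ r : R, ∃ r' : R, s34i47_coeffEquiv σ (M' * q)
      (algebraMap R ↥(modularFunctionFieldFullC K (M' * q)) r) =
        algebraMap R ↥(modularFunctionFieldFullC K (M' * q)) r' :=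
    fun r => ff50_g0' (M' * q) σ hσ r
  have hwR : ∀ r : R, bz13_w M' q hq hM'
      (algebraMap R ↥(modularFunctionFieldFullC K (M' * q)) r) =
        algebraMap R ↥(modularFunctionFieldFullC K (M' * q)) r :=
    fun r => bz13_w_algebraMap M' q hq hM' r
  have hP : ∀ m : Ideal B, m.IsPrime → algebraMap R B π ∈ m →
      fbi76_P π B _ D.hBV₁ ≤ m ∨ fbi76_P π B _ D.hBV₂ ≤ m :=
    fun m hm hπm => by
      haveI := hm
      exact D.branch m hπm
  have key := ut90_TH_unit π hπ B' B
    (fbi76_hom B' B (al97L_alpha K M' q : ↥(modularFunctionFieldFullC K M') →+*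
        ↥(modularFunctionFieldFullC K (M' * q))) D.hαB)
    (fbi76_hom B' B (al97L_beta K M' q : ↥(modularFunctionFieldFullC K M') →+*
        ↥(modularFunctionFieldFullC K (M' * q))) D.hβB)
    (fbi76_equiv B (s34i47_coeffEquiv σ (M' * q)) D.hsB D.hsB')
    (fbi76_equiv B (bz13_w M' q hq hM') D.hwB D.hwB')
    (fbi76_equiv B' (s34i47_coeffEquiv σ M') D.hs'B D.hs'B')
    (fbi76_P π B _ D.hBV₁) (fbi76_P π B _ D.hBV₂) q D.hyp
    (s34i47_coeffEquiv σ (M' * q)) (bz13_w M' q hq hM')
    (fun _ => rfl) (fun _ => rfl) (fun _ => rfl) hint hsR hwR hP n hn hπn y hy O hO hOn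
    (q + 1) q
  have e : cth84_TH K M' q hq hM' σ y =
      s34i47_coeffEquiv σ (M' * q) (s34i47_coeffEquiv σ (M' * q) y) *
          bz13_w M' q hq hM' (s34i47_coeffEquiv σ (M' * q) y) ^ (q + 1) * y ^ q /
        (algebraMap ↥(modularFunctionFieldFullC K M') ↥(modularFunctionFieldFullC K (M' * q))
            (Algebra.norm ↥(modularFunctionFieldFullC K M')
              (bz13_w M' q hq hM' (s34i47_coeffEquiv σ (M' * q) y))) *
          bz13_w M' q hq hM'
            (algebraMap ↥(modularFunctionFieldFullC K M') ↥(modularFunctionFieldFullC K (M' * q))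
              (Algebra.norm ↥(modularFunctionFieldFullC K M')
                (s34i47_coeffEquiv σ (M' * q) y)))) := by
    have e1 : bz13_w M' q hq hM'
        (algebraMap ↥(modularFunctionFieldFullC K M') ↥(modularFunctionFieldFullC K (M' * q))
          (Algebra.norm ↥(modularFunctionFieldFullC K M') (s34i47_coeffEquiv σ (M' * q) y))) =
        al97L_beta K M' q (s35i62_normA K M' q (s34i47_coeffEquiv σ (M' * q) y)) :=
      al97L_w_alpha_apply (algebraMap K Q̄) M' q hq hM' _
    rw [e1]
    rfl
  rw [e]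
  exact key

include hq hM' in
/-- **Unit transport for `TH` at a node of a chart of the canonical frame** (`Σ n = {n}`). -/
theorem ut90_node_chart {π : R} (hπ : Irreducible π) (σ : K ≃+* K) (hσ : ff50_Frob R q σ)
    (B : Subalgebra R ↥(modularFunctionFieldFullC K (M' * q)))
    (B' : Subalgebra R ↥(modularFunctionFieldFullC K M'))
    (D : fbi76_Frame π B B' (cm85_Vinf (K := K) (M' * q) hπ).toSubring
      (s34i47c_V0 (K := K) M' q hq hM' hπ).toSubring
      (al97L_alpha K M' q : ↥(modularFunctionFieldFullC K M') →+*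
        ↥(modularFunctionFieldFullC K (M' * q)))
      (al97L_beta K M' q : ↥(modularFunctionFieldFullC K M') →+*
        ↥(modularFunctionFieldFullC K (M' * q)))
      (s34i47_coeffEquiv σ (M' * q)) (bz13_w M' q hq hM') (s34i47_coeffEquiv σ M') q)
    (hint : (fbi76_hom B' B (al97L_alpha K M' q : ↥(modularFunctionFieldFullC K M') →+*
        ↥(modularFunctionFieldFullC K (M' * q))) D.hαB).IsIntegral)
    (n : Ideal B) (hn : n.IsMaximal) (hπn : algebraMap R B π ∈ n)
    (hn₁ : sf79_OnBr π B (cm85_Vinf (K := K) (M' * q) hπ).toSubring n)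
    (hn₂ : sf79_OnBr π B (s34i47c_V0 (K := K) M' q hq hM' hπ).toSubring n)
    (y : ↥(modularFunctionFieldFullC K (M' * q)))
    (hy : ∀ O : ValuationSubring ↥(modularFunctionFieldFullC K (M' * q)),
      s34i47_IsHoriz π O → s34i47_Through B n O → y ∈ O ∧ y⁻¹ ∈ O)
    (O : ValuationSubring ↥(modularFunctionFieldFullC K (M' * q)))
    (hO : s34i47_IsHoriz π O) (hOn : s34i47_Through B n O) :
    cth84_TH K M' q hq hM' σ y ∈ O ∧ (cth84_TH K M' q hq hM' σ y)⁻¹ ∈ O := by
  have h₁ : fbi76_P π B _ D.hBV₁ ≤ n := fun b hb => hn₁ b hb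
  have h₂ : fbi76_P π B _ D.hBV₂ ≤ n := fun b hb => hn₂ b hb
  refine ut90_frame_TH M' q hq hM' hπ σ hσ B B' D hint n hn.isPrime hπn y ?_ O hO hOn
  intro n' hn' O' hO' hOn'
  have e := ut90_sigB_node D.hyp n hn.isPrime n (Or.inl rfl) h₁ h₂ n' hn'
  rw [e] at hOn'
  exact hy O' hO' hOn'

end ut90_inst

/-- **(T3) at the nodes, the literal input `cth84_NodeTr` of `CoreTHAsm84`**: on both affine
charts of every admissible Hauptmodul of the canonical frame, at every closed point `n ∋ π` on
both branches, `TH` maps the functions which are units along every horizontal valuation ring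
through `n` to functions regular along every horizontal valuation ring through `n`. -/
theorem ut90_nodeTr (M' q : ℕ) [NeZero M'] [NeZero q] (hq : q.Prime) (hM' : ¬ q ∣ M') :
    cth84_NodeTr M' q hq hM' := by
  intro R K _ _ _ _ _ _ _ _ _ _ π hπ hunit hqR hζ σ hσ h hh B hB n hn hπn hn₁ hn₂ y hy0 hy O hO
    hOn
  letI : Algebra R ↥(modularFunctionFieldFullC K M') :=
    ((algebraMap K ↥(modularFunctionFieldFullC K M')).comp (algebraMap R K)).toAlgebra
  haveI : IsScalarTower R K ↥(modularFunctionFieldFullC K M') :=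
    IsScalarTower.of_algebraMap_eq (fun _ => rfl)
  have hσ' : ff50_Frob R q σ := hσ
  obtain ⟨h', hh', -, D₁, D₂⟩ := fbi76_frame (K := K) M' q hq hM' hπ hunit hqR σ hσ' h hh
  obtain ⟨⟨f₁, hf₁, hf₁int⟩, ⟨f₂, hf₂, hf₂int⟩⟩ := bc95_alpha (R := R) M' q h' h hh'
  rcases hB with rfl | rfl
  · have hint : (fbi76_hom _ _ (al97L_alpha K M' q : ↥(modularFunctionFieldFullC K M') →+*
        ↥(modularFunctionFieldFullC K (M' * q))) D₁.hαB).IsIntegral := by
      have e : fbi76_hom _ _ (al97L_alpha K M' q : ↥(modularFunctionFieldFullC K M') →+*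
          ↥(modularFunctionFieldFullC K (M' * q))) D₁.hαB = f₁ :=
        RingHom.ext fun x => Subtype.ext (hf₁ x).symm
      rw [e]
      exact hf₁int
    exact (ut90_node_chart M' q hq hM' hπ σ hσ' _ _ D₁ hint n hn hπn hn₁ hn₂ y hy O hO hOn).1
  · have hint : (fbi76_hom _ _ (al97L_alpha K M' q : ↥(modularFunctionFieldFullC K M') →+*
        ↥(modularFunctionFieldFullC K (M' * q))) D₂.hαB).IsIntegral := by
      have e : fbi76_hom _ _ (al97L_alpha K M' q : ↥(modularFunctionFieldFullC K M') →+*
          ↥(modularFunctionFieldFullC K (M' * q))) D₂.hαB = f₂ :=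
        RingHom.ext fun x => Subtype.ext (hf₂ x).symm
      rw [e]
      exact hf₂int
    exact (ut90_node_chart M' q hq hM' hπ σ hσ' _ _ D₂ hint n hn hπn hn₁ hn₂ y hy O hO hOn).1

end Fermat.Agent.S35
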