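import Fermat.Agent.S35.CoreTHBind84
import Fermat.Agent.S35.UnitTransportInst90

/-!
# S35 lab, chain B (helper90): P-CORE, hypothesis-free

The literal package `s35i62_Pkg_Core` of `Iface62`, through chain B:
`cth84_pkg_core_of_nodeTr` (helper84: (T2) from `tho49_pkg_THOne` + `ng97_pkg_norm`, the hybrid
assembly of `CoreTHAsm84`) applied to the node unit transport `ut90_nodeTr`
(`UnitTransportInst90`: `ut90_TH_unit` + `fbi76_frame` + `bc95_alpha`).
-/

set_option autoImplicit false

namespace Fermat.Agent.S35

/-- **P-CORE** — the literal `s35i62_Pkg_Core` of `Iface62` (chain B), no hypothesis. -/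
theorem pc90_pkg_core : s35i62_Pkg_Core :=
  cth84_pkg_core_of_nodeTr (fun M' q _ _ hq hM' => ut90_nodeTr M' q hq hM')

end Fermat.Agent.S35
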