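import Mathlib
import Fermat.Agent.S35.Iface62
import Fermat.Agent.S35.Marked60
import Fermat.Agent.S35.FlatKer70

/-!
# S35 lab (helper60): the package (ET35) of `Iface62`, with `CharZero`

The literal `s35i62_Pkg_ET` of `Iface62` quantifies over ALL complete discrete valuation rings
`O` with `p ∈ 𝔪`, including those of characteristic `p`, for which the eigen-Tate module of S30
vanishes; it cannot be proved as stated.  This file proves the row for every `O` of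
characteristic zero, which is all the endgame needs:

* `s35x60_M8`      : the clause (M8) of `s35i62_ET` for the concrete eigen-Tate module `ea21_M`
  (on the marked vector `ts35_theta x0`);
* `s35x60_ETClaim` : `s35i62_ETClaim p N S O hp` for `[CharZero O]` (the LITERAL claim of
  `Iface62` at one ring `O`; module `ea21_M`, (M1)-(M7) = `ea21_M1` ... `ea21_M7`);
* `s35x60_Pkg_ET`  : the corrected package `Prop` (`s35i62_Pkg_ET` with `[CharZero O]`);
* `s35x60_pkg_ET`  : its proof.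

All names are prefixed `s35x60_`.
-/

set_option autoImplicit false
set_option linter.unusedSectionVars false
set_option linter.unusedVariables false
set_option linter.style.longLine false
set_option linter.style.haveILetI false

open CongruenceSubgroup ModularCurve ModularCurve.Period AlgebraicCurve TensorProduct

namespace Fermat.Agent.S35

open Fermat.Agent.S30 Fermat.Agent.S42 Fermat.Agent.S16

local notation "Qb" => AlgebraicClosure ℚ
local notation "GQ" => AlgebraicClosure ℚ ≃ₐ[ℚ] AlgebraicClosure ℚ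

section s35x60_abs

variable (O : Type) [CommRing O] {J L : Type} [AddCommGroup J] [AddCommGroup L]

/-- An integral relation `c₀ + c₁ g₂ + c₂ g₄ + c₃ g₆ = 0` valid on `θ k`, `k ∈ K`, holds after
base change on `(O ⊗ θ) v` for every `v` in the `O`-span of the pure tensors `1 ⊗ k`, `k ∈ K`. -/
theorem s35x60_comp_kill (θ : L →+ J) (g₂ g₄ g₆ : Module.End ℤ J) (K : Set L) (c₀ c₁ c₂ c₃ : ℤ)
    (hrel : ∀ k ∈ K, c₀ • θ k + c₁ • g₂ (θ k) + c₂ • g₄ (θ k) + c₃ • g₆ (θ k) = 0)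
    (v : O ⊗[ℤ] L) (hv : v ∈ Submodule.span O ((fun k : L => (1 : O) ⊗ₜ[ℤ] k) '' K)) :
    (c₀ : O) • θ.toIntLinearMap.baseChange O v
      + (c₁ : O) • g₂.baseChange O (θ.toIntLinearMap.baseChange O v)
      + (c₂ : O) • g₄.baseChange O (θ.toIntLinearMap.baseChange O v)
      + (c₃ : O) • g₆.baseChange O (θ.toIntLinearMap.baseChange O v) = 0 := by
  induction hv using Submodule.span_induction with
  | mem y hy =>
    obtain ⟨k, hk, rfl⟩ := hy
    show (c₀ : O) • θ.toIntLinearMap.baseChange O ((1 : O) ⊗ₜ[ℤ] k)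
      + (c₁ : O) • g₂.baseChange O (θ.toIntLinearMap.baseChange O ((1 : O) ⊗ₜ[ℤ] k))
      + (c₂ : O) • g₄.baseChange O (θ.toIntLinearMap.baseChange O ((1 : O) ⊗ₜ[ℤ] k))
      + (c₃ : O) • g₆.baseChange O (θ.toIntLinearMap.baseChange O ((1 : O) ⊗ₜ[ℤ] k)) = 0
    rw [LinearMap.baseChange_tmul, LinearMap.baseChange_tmul, LinearMap.baseChange_tmul,
      LinearMap.baseChange_tmul,
      tl35_intCast_smul, tl35_intCast_smul, tl35_intCast_smul, tl35_intCast_smul,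
      ← TensorProduct.tmul_smul, ← TensorProduct.tmul_smul, ← TensorProduct.tmul_smul,
      ← TensorProduct.tmul_smul, ← TensorProduct.tmul_add, ← TensorProduct.tmul_add,
      ← TensorProduct.tmul_add]
    show (1 : O) ⊗ₜ[ℤ] (c₀ • θ k + c₁ • g₂ (θ k) + c₂ • g₄ (θ k) + c₃ • g₆ (θ k)) = 0
    rw [hrel k hk, TensorProduct.tmul_zero]
  | zero => simp only [map_zero, smul_zero, add_zero]
  | add y z _ _ hy hz =>
    simp only [map_add, smul_add]
    have e : ∀ (a1 a2 b1 b2 c1 c2 d1 d2 : O ⊗[ℤ] J), a1 + a2 + (b1 + b2) + (c1 + c2) + (d1 + d2)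
        = (a1 + b1 + c1 + d1) + (a2 + b2 + c2 + d2) := by
      intros; abel
    rw [e, hy, hz, add_zero]
  | smul r y _ hy =>
    simp only [map_smul]
    rw [smul_comm (c₀ : O) r, smul_comm (c₁ : O) r, smul_comm (c₂ : O) r, smul_comm (c₃ : O) r,
      ← smul_add, ← smul_add, ← smul_add, hy, smul_zero]
end s35x60_abs

section s35x60_main

variable (p : ℕ) [Fact p.Prime] (N : ℕ) [NeZero N] (S : Finset ℕ)
  (O : Type) [CommRing O] [IsDomain O] [IsDiscreteValuationRing O]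
  [IsAdicComplete (IsLocalRing.maximalIdeal O) O] [CharZero O] (a : ℕ → O)

/-- Components of a linear combination of Galois translates in the eigen-Tate module. -/
theorem s35x60_comp_lin (g₂ g₄ g₆ : GQ) (d₀ d₁ d₂ d₃ : O) (w : ea21_M p N S O a) (n : ℕ)
    (y : tt21_B O N) (hy : ea21_comp p N S O a w n = y) :
    ea21_comp p N S O a (d₀ • w + d₁ • ea21_rho p N S O a g₂ w + d₂ • ea21_rho p N S O a g₄ w
      + d₃ • ea21_rho p N S O a g₆ w) n
    = d₀ • y + d₁ • (tt21_galZ N g₂).baseChange O y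
      + d₂ • (tt21_galZ N g₄).baseChange O y
      + d₃ • (tt21_galZ N g₆).baseChange O y := by
  subst hy
  rfl

/-- **(M8)** of `s35i62_ET` for the eigen-Tate module `ea21_M`: the marked vector. -/
theorem s35x60_M8 (hp : (p : O) ∈ IsLocalRing.maximalIdeal O)
    (hpS : p ∈ S) (hNS : ∀ q : ℕ, q.Prime → q ∣ N → q ∈ S)
    (TL : ℕ → Module.End ℤ ↥(parabolicHoms ℤ (Gamma0 N) ℤ))
    (x0 : O ⊗[ℤ] ↥(parabolicHoms ℤ (Gamma0 N) ℤ))
    (Θ : ℕ → (↥(parabolicHoms ℤ (Gamma0 N) ℤ) →+ JZero N))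
    (hTL : ∀ ℓ : ℕ, ℓ.Prime → ℓ ∉ S → ∀ x : ↥(parabolicHoms ℤ (Gamma0 N) ℤ),
      ((TL ℓ x : ↥(parabolicHoms ℤ (Gamma0 N) ℤ)) : Additive ↥(Gamma0 N) →+ ℤ) =
        heckeHom N ℓ ℤ (x : Additive ↥(Gamma0 N) →+ ℤ))
    (hx0 : x0 ∉ IsLocalRing.maximalIdeal O •
      (⊤ : Submodule O (O ⊗[ℤ] ↥(parabolicHoms ℤ (Gamma0 N) ℤ))))
    (hx0a : ∀ ℓ : ℕ, ℓ.Prime → ℓ ∉ S → (TL ℓ).baseChange O x0 = a ℓ • x0)
    (hΘ : s30i37_ThetaFamily N p Θ)
    (K : AddSubgroup ↥(parabolicHoms ℤ (Gamma0 N) ℤ))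
    (hK : x0 ∈ Submodule.span O ((fun k : ↥(parabolicHoms ℤ (Gamma0 N) ℤ) => (1 : O) ⊗ₜ[ℤ] k) ''
      (K : Set ↥(parabolicHoms ℤ (Gamma0 N) ℤ))))
    (σ : GQ) (c₀ c₁ c₂ c₃ : ℤ)
    (hrel : ∀ (n : ℕ) (k : ↥(parabolicHoms ℤ (Gamma0 N) ℤ)), k ∈ K →
      c₀ • Θ n k + c₁ • (σ ^ 2) • Θ n k + c₂ • (σ ^ 4) • Θ n k + c₃ • (σ ^ 6) • Θ n k = 0) :
    ∃ w : ea21_M p N S O a, w ≠ 0 ∧
      (c₀ : O) • w + (c₁ : O) • ea21_rho p N S O a (σ ^ 2) w +
        (c₂ : O) • ea21_rho p N S O a (σ ^ 4) w + (c₃ : O) • ea21_rho p N S O a (σ ^ 6) w = 0 := by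
  have hpp : p.Prime := Fact.out
  have h1 : ∀ x, (p : ℤ) • Θ 1 x = 0 := by
    intro x
    have := hΘ.1 1 x
    rwa [pow_one] at this
  have hc : ∀ n, 1 ≤ n → ∀ x, (p : ℤ) • Θ (n + 1) x = Θ n x := fun n _ x => hΘ.2.2.2 n x
  have hmem := s35v60_theta_mem p N S O a hpS hNS TL x0 Θ hTL hx0a hΘ h1 hc
  have hne := s35v60_theta_ne p N O hp x0 Θ hx0 hΘ h1 hc
  refine ⟨⟨_, hmem⟩, fun h0 => hne (congrArg Subtype.val h0), ?_⟩
  refine ea21_ext p N S O a _ _ fun n => ?_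
  show _ = (0 : tt21_B O N)
  cases n with
  | zero =>
    refine (s35x60_comp_lin p N S O a (σ ^ 2) (σ ^ 4) (σ ^ 6) (c₀ : O) (c₁ : O) (c₂ : O) (c₃ : O)
      ⟨ts35_theta O p Θ h1 hc x0, hmem⟩ 0 0 (ea21_comp_zero p N S O a _)).trans ?_
    simp only [map_zero, smul_zero, add_zero]
  | succ n =>
    refine (s35x60_comp_lin p N S O a (σ ^ 2) (σ ^ 4) (σ ^ 6) (c₀ : O) (c₁ : O) (c₂ : O) (c₃ : O)
      ⟨ts35_theta O p Θ h1 hc x0, hmem⟩ (n + 1) _
      (ts35_theta_apply_succ O p Θ h1 hc x0 n)).trans ?_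
    exact s35x60_comp_kill O (Θ (n + 1)) (tt21_galZ N (σ ^ 2)) (tt21_galZ N (σ ^ 4))
      (tt21_galZ N (σ ^ 6)) (K : Set ↥(parabolicHoms ℤ (Gamma0 N) ℤ)) c₀ c₁ c₂ c₃
      (fun k hk => hrel (n + 1) k hk) x0 hK

/-- **Row (ET35) of `Iface62` at a ring of characteristic zero**: the literal
`s35i62_ETClaim p N S O hp`. -/
theorem s35x60_ETClaim (hp : (p : O) ∈ IsLocalRing.maximalIdeal O) :
    s35i62_ETClaim p N S O hp := by
  intro hpS hNS a TL x0 Θ hTL hx0 hx0a hΘ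
  exact ⟨↥(ea21_M p N S O a), inferInstance, inferInstance, ea21_rho p N S O a,
    ea21_M1 p N S O a hp, ea21_M2 p N S O a,
    ea21_M3 p N S O a hp hpS hNS TL x0 Θ hTL hx0 hx0a hΘ,
    ea21_M4 p N S O a hp hpS hNS,
    ea21_M5 p N S O a,
    ea21_M6 p N S O a hp,
    fun ℓ hℓ hℓN hℓS A hA τ hτ w => ea21_M7 p N S O a hpS ℓ hℓ hℓN hℓS A hA τ hτ w,
    fun K hK σ c₀ c₁ c₂ c₃ hrel =>
      s35x60_M8 p N S O a hp hpS hNS TL x0 Θ hTL hx0 hx0a hΘ K hK σ c₀ c₁ c₂ c₃ hrel⟩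

end s35x60_main

/-- **P-ET, corrected**: `s35i62_Pkg_ET` of `Iface62` with the hypothesis `[CharZero O]` (the
literal `s35i62_Pkg_ET` also covers rings of characteristic `p`, where it is not available). -/
def s35x60_Pkg_ET : Prop :=
  ∀ (p : ℕ) [Fact p.Prime] (N : ℕ) [NeZero N] (S : Finset ℕ)
    (O : Type) [CommRing O] [IsDomain O] [IsDiscreteValuationRing O]
    [IsAdicComplete (IsLocalRing.maximalIdeal O) O] [CharZero O]
    (hp : (p : O) ∈ IsLocalRing.maximalIdeal O), s35i62_ETClaim p N S O hp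

/-- The corrected package (ET35) holds. -/
theorem s35x60_pkg_ET : s35x60_Pkg_ET :=
  fun p _ N _ S O _ _ _ _ _ hp => s35x60_ETClaim p N S O hp

end Fermat.Agent.S35
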