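import Mathlib
import Fermat.Agent.S35.Iface62
import Fermat.Agent.S35.LevelNorm52
import Fermat.Agent.S34.FieldDef45
import Fermat.Agent.S34.AtkinLehnerVal73
import Fermat.Agent.S37.KroneckerNorm97

/-!
# S35 lab (helper27): the package `s35i62_Pkg_FieldDef` of the interface `Iface62` (twin)

`pfd27_pkg_fieldDef : s35i62_Pkg_FieldDef`, i.e. CORE35 at level `M' q` ⟹ FFA at level `M' q`.
All names are prefixed `pfd27_`.
-/

set_option autoImplicit false
set_option linter.style.haveILetI false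
set_option linter.unusedSectionVars false
set_option linter.unusedVariables false
set_option linter.style.longLine false

open ModularCurve AlgebraicCurve IntermediateField

namespace Fermat.Agent.S35

open Fermat.Agent.S18 Fermat.Agent.S24 Fermat.Agent.S28 Fermat.Agent.S37 Fermat.Agent.S42
open Fermat.Agent.S34

local notation "Qb" => AlgebraicClosure ℚ

/-! ## 1. Frobenius lifts -/

/-- A Frobenius lift at `A` preserves `A` and induces `x ↦ x ^ q` on the residue field. -/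
theorem pfd27_frob {E : Type*} [Field E] (K : Type*) [Field K] [Algebra K E]
    (A : ValuationSubring E) {σ : E ≃ₐ[K] E} {q : ℕ} (hσ : A.IsFrobeniusAt σ q) :
    (∀ x : E, x ∈ A → σ x ∈ A) ∧ ∀ x : E, x ∈ A → σ x - x ^ q ∈ A.nonunits := by
  obtain ⟨hdec, hfr⟩ := hσ
  refine ⟨fun x hx => ?_, fun x hx => ?_⟩
  · exact (A.subMulAction K).smul_mem ⟨σ, hdec⟩ (x := x) hx
  · have h2 := hfr (IsLocalRing.residue A ⟨x, hx⟩)
    rw [← IsLocalRing.ResidueField.residue_smul, ← map_pow] at h2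
    have h3 : IsLocalRing.residue A
        ((⟨σ, hdec⟩ : A.decompositionSubgroup K) • (⟨x, hx⟩ : A) - ⟨x, hx⟩ ^ q) = 0 := by
      rw [map_sub, h2, sub_self]
    rw [IsLocalRing.residue_eq_zero_iff] at h3
    exact ValuationSubring.coe_mem_nonunits_iff.mpr h3

/-- The restriction to a normal subfield `L` of a Frobenius lift at `A` is Frobenial for the
valuation ring `A ∩ L`. -/
theorem pfd27_frobenial (A : ValuationSubring Qb) (L : IntermediateField ℚ Qb) [Normal ℚ L]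
    {σ : Qb ≃ₐ[ℚ] Qb} {q : ℕ} (hσ : A.IsFrobeniusAt σ q) :
    s35i62_Frobenial (↥(A.comap (algebraMap (↥L) Qb))) (K := ↥L) q
      (σ.restrictNormal L).toRingEquiv := by
  obtain ⟨hdec, hin⟩ := pfd27_frob ℚ A hσ
  intro r
  have hcomm : ∀ a : ↥L, algebraMap (↥L) Qb (σ.restrictNormal L a) = σ (algebraMap (↥L) Qb a) :=
    fun a => AlgEquiv.restrictNormal_commutes σ L a
  have hr : algebraMap (↥L) Qb (r : ↥L) ∈ A := r.2
  have hmem : σ.restrictNormal L (r : ↥L) ∈ A.comap (algebraMap (↥L) Qb) := by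
    rw [ValuationSubring.mem_comap, hcomm]
    exact hdec _ hr
  refine ⟨⟨σ.restrictNormal L (r : ↥L), hmem⟩, rfl, ?_⟩
  rw [← ValuationSubring.coe_mem_nonunits_iff, nf23_mem_nonunits_comap]
  have h1 : algebraMap (↥L) Qb
      (((⟨σ.restrictNormal L (r : ↥L), hmem⟩ - r ^ q : ↥(A.comap (algebraMap (↥L) Qb))) : ↥L)) =
      σ (algebraMap (↥L) Qb (r : ↥L)) - algebraMap (↥L) Qb (r : ↥L) ^ q := by
    rw [← hcomm, ← map_pow, ← map_sub]
    rfl
  rw [h1]
  exact hin _ hr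

/-! ## 2. The base change `ι` and the degeneracy maps -/

section Compat

variable {L : Type} [Field L] (φ : L →+* Qb)

theorem pfd27_iota_eq (M : ℕ) (x : ↥(modularFunctionFieldFullC L M)) :
    al97L_iota φ M x = fd27_iota φ M x := Subtype.ext rfl

theorem pfd27_iota_alpha (N ℓ : ℕ) [NeZero N] [NeZero ℓ] (y : ↥(modularFunctionFieldFullC L N)) :
    fd27_iota φ (N * ℓ) (al97L_alpha L N ℓ y) = heckeAlphaBar Qb N ℓ (fd27_iota φ N y) := by
  apply Subtype.ext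
  rw [coe_heckeAlphaBar, fd27_iota_coe, fd27_iota_coe, al97L_alpha_coe]

theorem pfd27_iota_beta (N ℓ : ℕ) [NeZero N] [NeZero ℓ] (y : ↥(modularFunctionFieldFullC L N)) :
    fd27_iota φ (N * ℓ) (al97L_beta L N ℓ y) = heckeBetaBar Qb N ℓ (fd27_iota φ N y) := by
  apply Subtype.ext
  rw [coe_heckeBetaBar, fd27_iota_coe, fd27_iota_coe, al97L_beta_coe, coeffMap_qExpand]

theorem pfd27_iota_w (N ℓ : ℕ) [NeZero N] [NeZero ℓ] (hℓ : ℓ.Prime) (hN : ¬ ℓ ∣ N)
    (x : ↥(modularFunctionFieldFullC L (N * ℓ))) :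
    fd27_iota φ (N * ℓ) (al97L_w φ N ℓ hℓ hN x) =
      al97L_wBar N ℓ hℓ hN (fd27_iota φ (N * ℓ) x) := by
  rw [← pfd27_iota_eq, ← pfd27_iota_eq, al97L_w_iota]

/-- **Base change of the norm along `α`** from `L` to `ℚ̄`. -/
theorem pfd27_norm_alpha [CharZero L] (N ℓ : ℕ) [NeZero N] [NeZero ℓ] (hℓ : ℓ.Prime)
    (hN : ¬ ℓ ∣ N) (h : ↥(modularFunctionFieldFullC L (N * ℓ))) :
    fd27_iota φ N (s35i62_normA L N ℓ h) = s35i62_normABar N ℓ (fd27_iota φ (N * ℓ) h) := by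
  obtain ⟨ζ, hζ⟩ : ∃ ζ : Kbar, IsPrimitiveRoot ζ ℓ :=
    HasEnoughRootsOfUnity.exists_primitiveRoot Kbar ℓ
  have hζ0 : ζ ≠ 0 := hζ.ne_zero hℓ.ne_zero
  have hζu : IsPrimitiveRoot (Units.mk0 ζ hζ0) ℓ := by
    rw [← IsPrimitiveRoot.coe_units_iff]
    exact hζ
  have hJ : ∀ x : ↥(modularFunctionFieldBar (N * ℓ)), (x : LaurentSeries Kbar) = JJ ℓ →
      ((al97L_wBar N ℓ hℓ hN x : ↥(modularFunctionFieldBar (N * ℓ))) :
        LaurentSeries Kbar) = JJ 1 := by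
    intro x hx
    have := al97L_wBar_gen N ℓ hℓ hN ℓ (dvd_mul_left ℓ N) x hx
    rwa [al97_swap_of_dvd dvd_rfl, Nat.div_self hℓ.pos] at this
  have h1 := kn97_norm_gen N ℓ hℓ hN (Units.mk0 ζ hζ0) hζu (al97L_wBar N ℓ hℓ hN)
    (al97L_wBar_alpha N ℓ hℓ hN) hJ (fd27_iota φ (N * ℓ) h)
  -- the `L`-side
  letI := algebraAlong (al97L_alpha L N ℓ)
  have hfr : Module.finrank ↥(modularFunctionFieldFullC L N)
      ↥(modularFunctionFieldFullC L (N * ℓ)) = ℓ + 1 := alv73_finrank L N ℓ hℓ hN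
  haveI : FiniteDimensional ↥(modularFunctionFieldFullC L N)
      ↥(modularFunctionFieldFullC L (N * ℓ)) :=
    Module.finite_of_finrank_pos (by rw [hfr]; omega)
  haveI : CharZero ↥(modularFunctionFieldFullC L N) :=
    charZero_of_injective_algebraMap (algebraMap L ↥(modularFunctionFieldFullC L N)).injective
  haveI : Algebra.IsSeparable ↥(modularFunctionFieldFullC L N)
      ↥(modularFunctionFieldFullC L (N * ℓ)) :=
    Algebra.IsAlgebraic.isSeparable_of_perfectField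
  let val : ↥(modularFunctionFieldBar (N * ℓ)) →+* LaurentSeries Kbar :=
    (modularFunctionFieldBar (N * ℓ)).val.toRingHom
  let ι : ↥(modularFunctionFieldFullC L N) →+* LaurentSeries Kbar :=
    ((qExpand Kbar ℓ).comp (modularFunctionFieldBar N).val.toRingHom).comp (fd27_iota φ N)
  let σ : Option (Fin ℓ) → (↥(modularFunctionFieldFullC L (N * ℓ)) →+* LaurentSeries Kbar) :=
    fun i =>
    match i with
    | none => ((qExpand Kbar ℓ).comp val).comp (fd27_iota φ (N * ℓ))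
    | some b => ((twist ((Units.mk0 ζ hζ0) ^ (b : ℕ))).comp
        (val.comp (al97L_wBar N ℓ hℓ hN).toRingHom)).comp (fd27_iota φ (N * ℓ))
  have hσ : ∀ i, (σ i).comp (algebraMap ↥(modularFunctionFieldFullC L N)
      ↥(modularFunctionFieldFullC L (N * ℓ))) = ι := by
    intro i
    ext1 x
    have hx : algebraMap ↥(modularFunctionFieldFullC L N)
        ↥(modularFunctionFieldFullC L (N * ℓ)) x = al97L_alpha L N ℓ x := rfl
    rw [RingHom.comp_apply, hx]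
    cases i with
    | none =>
      show qExpand Kbar ℓ ((fd27_iota φ (N * ℓ) (al97L_alpha L N ℓ x) :
        ↥(modularFunctionFieldBar (N * ℓ))) : LaurentSeries Kbar) =
          qExpand Kbar ℓ ((fd27_iota φ N x : ↥(modularFunctionFieldBar N)) : LaurentSeries Kbar)
      rw [pfd27_iota_alpha, coe_heckeAlphaBar]
    | some b =>
      show twist ((Units.mk0 ζ hζ0) ^ (b : ℕ)) ((al97L_wBar N ℓ hℓ hN
          (fd27_iota φ (N * ℓ) (al97L_alpha L N ℓ x)) :
        ↥(modularFunctionFieldBar (N * ℓ))) : LaurentSeries Kbar) =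
          qExpand Kbar ℓ ((fd27_iota φ N x : ↥(modularFunctionFieldBar N)) : LaurentSeries Kbar)
      rw [pfd27_iota_alpha]
      have h2 : al97L_wBar N ℓ hℓ hN (heckeAlphaBar Kbar N ℓ (fd27_iota φ N x)) =
          heckeBetaBar Kbar N ℓ (fd27_iota φ N x) :=
        AlgHom.congr_fun (al97L_wBar_alpha N ℓ hℓ hN) _
      rw [h2, coe_heckeBetaBar]
      exact twist_qExpand_of_pow_eq_one _ ℓ
        (by rw [← pow_mul, mul_comm, pow_mul, hζu.pow_eq_one, one_pow]) _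
  have hinj : Function.Injective σ := by
    have hℓ2 : ¬ ((ℓ : ℤ) ∣ (-1 : ℤ)) := by
      intro hd
      have h1 : (ℓ : ℤ) ∣ 1 := (dvd_neg).mp hd
      have h2 : ℓ ∣ 1 := by exact_mod_cast h1
      exact hℓ.one_lt.ne' (Nat.dvd_one.mp h2)
    let x0 : ↥(modularFunctionFieldFullC L (N * ℓ)) :=
      ⟨qExpand L ℓ (jqModC L), jqModCd_mem_full L (N * ℓ) (dvd_mul_left ℓ N)⟩
    have hx0 : ((fd27_iota φ (N * ℓ) x0 : ↥(modularFunctionFieldBar (N * ℓ))) :
        LaurentSeries Kbar) = JJ ℓ := by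
      rw [fd27_iota_coe]
      exact al97L_coeffMap_gen φ ℓ
    have hnone : (σ none x0).coeff (-1) = 0 := by
      show (qExpand Kbar ℓ ((fd27_iota φ (N * ℓ) x0 : ↥(modularFunctionFieldBar (N * ℓ))) :
        LaurentSeries Kbar)).coeff (-1) = 0
      exact qExpand_coeff_of_not_dvd ℓ _ hℓ2
    have hsome : ∀ b : Fin ℓ, (σ (some b) x0).coeff (-1) =
        ((((Units.mk0 ζ hζ0) ^ (b : ℕ)) ^ (-1 : ℤ) : Kbarˣ) : Kbar) := by
      intro b
      show (twist ((Units.mk0 ζ hζ0) ^ (b : ℕ)) ((al97L_wBar N ℓ hℓ hN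
          (fd27_iota φ (N * ℓ) x0) : ↥(modularFunctionFieldBar (N * ℓ))) :
        LaurentSeries Kbar)).coeff (-1) = _
      rw [hJ _ hx0, twist_coeff, kn97_JJ_one_coeff, mul_one]
    intro i j hij
    have hc : (σ i x0).coeff (-1) = (σ j x0).coeff (-1) := by rw [hij]
    cases i with
    | none =>
      cases j with
      | none => rfl
      | some b =>
        rw [hnone, hsome] at hc
        exact absurd hc.symm (Units.ne_zero _)
    | some a =>
      cases j with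
      | none =>
        rw [hnone, hsome] at hc
        exact absurd hc (Units.ne_zero _)
      | some b =>
        rw [hsome, hsome] at hc
        have h1 : (Units.mk0 ζ hζ0 ^ (a : ℕ)) ^ (-1 : ℤ) = (Units.mk0 ζ hζ0 ^ (b : ℕ)) ^ (-1 : ℤ) :=
          Units.ext hc
        have h2 : Units.mk0 ζ hζ0 ^ (a : ℕ) = Units.mk0 ζ hζ0 ^ (b : ℕ) := by
          simpa using h1
        have h3 : (a : ℕ) = (b : ℕ) := hζu.pow_inj a.2 b.2 h2
        exact congrArg some (Fin.ext h3)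
  have hn : Module.finrank ↥(modularFunctionFieldFullC L N)
      ↥(modularFunctionFieldFullC L (N * ℓ)) = Fintype.card (Option (Fin ℓ)) := by
    rw [hfr, Fintype.card_option, Fintype.card_fin]
  have hmain := kn97_norm_eq_prod ι σ hσ hinj hn h
  rw [Fintype.prod_option] at hmain
  apply Subtype.ext
  apply qExpand_injective (R := Kbar) (N := ℓ)
  exact hmain.trans h1.symm

end Compat

section CompatB

variable {L : Type} [Field L] (φ : L →+* Qb)

/-- Over `L`: the norm along `β` is the norm along `α` after the Atkin-Lehner involution. -/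
theorem pfd27_normB_eq (N ℓ : ℕ) [NeZero N] [NeZero ℓ] (hℓ : ℓ.Prime) (hN : ¬ ℓ ∣ N)
    (f : ↥(modularFunctionFieldFullC L (N * ℓ))) :
    s35i62_normB L N ℓ f = s35i62_normA L N ℓ (al97L_w φ N ℓ hℓ hN f) := by
  have he : RingHom.comp (@algebraMap ↥(modularFunctionFieldFullC L N)
        ↥(modularFunctionFieldFullC L (N * ℓ)) _ _ (algebraAlong (al97L_alpha L N ℓ)))
        ((RingEquiv.refl ↥(modularFunctionFieldFullC L N) : ↥(modularFunctionFieldFullC L N) ≃+*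
          ↥(modularFunctionFieldFullC L N)) : ↥(modularFunctionFieldFullC L N) →+*
          ↥(modularFunctionFieldFullC L N)) =
      RingHom.comp (((al97L_w φ N ℓ hℓ hN).toRingEquiv : ↥(modularFunctionFieldFullC L (N * ℓ)) ≃+*
          ↥(modularFunctionFieldFullC L (N * ℓ))) : ↥(modularFunctionFieldFullC L (N * ℓ)) →+*
          ↥(modularFunctionFieldFullC L (N * ℓ)))
        (@algebraMap ↥(modularFunctionFieldFullC L N) ↥(modularFunctionFieldFullC L (N * ℓ)) _ _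
          (algebraAlong (al97L_beta L N ℓ))) := by
    ext1 x
    show al97L_alpha L N ℓ x = al97L_w φ N ℓ hℓ hN (al97L_beta L N ℓ x)
    rw [al97L_w_beta_apply]
  have h := @Algebra.norm_eq_of_equiv_equiv ↥(modularFunctionFieldFullC L N)
    ↥(modularFunctionFieldFullC L (N * ℓ)) ↥(modularFunctionFieldFullC L N)
    ↥(modularFunctionFieldFullC L (N * ℓ)) _ _ _ _ (algebraAlong (al97L_beta L N ℓ))
    (algebraAlong (al97L_alpha L N ℓ)) (RingEquiv.refl _) (al97L_w φ N ℓ hℓ hN).toRingEquiv he f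
  exact h

/-- **Base change of the norm along `β`** from `L` to `ℚ̄`. -/
theorem pfd27_norm_beta [CharZero L] (N ℓ : ℕ) [NeZero N] [NeZero ℓ] (hℓ : ℓ.Prime)
    (hN : ¬ ℓ ∣ N) (h : ↥(modularFunctionFieldFullC L (N * ℓ))) :
    fd27_iota φ N (s35i62_normB L N ℓ h) = s35i62_normBBar N ℓ (fd27_iota φ (N * ℓ) h) := by
  rw [pfd27_normB_eq φ N ℓ hℓ hN, pfd27_norm_alpha φ N ℓ hℓ hN, pfd27_iota_w]
  exact (lv52_norm_beta_eq hℓ hN _).symm

end CompatB

/-! ## 3. The Kummer operator, fields of definition, rational places -/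

/-- `ι` maps the Kummer operator over `L` to the Kummer operator over `ℚ̄`. -/
theorem pfd27_iota_op (M q : ℕ) (L : IntermediateField ℚ Qb) [Normal ℚ L]
    (t : Qb ≃ₐ[ℚ] Qb) (x : ↥(modularFunctionFieldFullC (↥L) M)) :
    fd27_iota (algebraMap (↥L) Qb) M
        (s35i62_op q (s34i47_coeffEquiv (t.restrictNormal L).toRingEquiv M) x) =
      s35i62_op q (arithmeticRingAut (modularFunctionFieldFull M) t)
        (fd27_iota (algebraMap (↥L) Qb) M x) := by
  unfold s35i62_op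
  simp only [map_div₀, map_mul, map_pow, fd45_iota_coeffEquiv]

/-- Enlarging the field of definition of an element of `F̄`. -/
theorem pfd27_lift {L0 L : IntermediateField ℚ Qb} (h : L0 ≤ L) (M : ℕ)
    (x : ↥(modularFunctionFieldBar M))
    (hx : ∃ y : ↥(modularFunctionFieldFullC (↥L0) M), fd27_iota (algebraMap (↥L0) Qb) M y = x) :
    ∃ y : ↥(modularFunctionFieldFullC (↥L) M), fd27_iota (algebraMap (↥L) Qb) M y = x := by
  obtain ⟨y, rfl⟩ := hx
  obtain ⟨z, hz, hzy⟩ := fd27_lift h M y.1 y.2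
  exact ⟨⟨z, hz⟩, Subtype.ext (by rw [fd27_iota_coe, fd27_iota_coe]; exact hzy)⟩

/-- Rationality of a place is monotone in the field. -/
theorem pfd27_ratPlace_mono {L0 L : IntermediateField ℚ Qb} (h : L0 ≤ L) (M : ℕ)
    {P : Place Qb ↥(modularFunctionFieldBar M)} (hP : rs45_RatPlace M L0 P) :
    rs45_RatPlace M L P :=
  fun σ hσ => hP σ (fun a ha => hσ a (h ha))

/-- A place of `F_L` is outside the support of `y` or `L`-rational, as soon as the support of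
`ι y` consists of `L`-rational places. -/
theorem pfd27_rat (M : ℕ) [NeZero M] (L : IntermediateField ℚ Qb)
    (y : ↥(modularFunctionFieldFullC (↥L) M))
    (hrat : ∀ P' : Place Qb ↥(modularFunctionFieldBar M),
      P'.ord (fd27_iota (algebraMap (↥L) Qb) M y) ≠ 0 → rs45_RatPlace M L P')
    (P : Place (↥L) ↥(modularFunctionFieldFullC (↥L) M)) :
    (y ∈ P.toValuationSubring ∧ y⁻¹ ∈ P.toValuationSubring) ∨
      s34i47_IsRat (↥L) P.toValuationSubring := by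
  obtain ⟨P', hP'⟩ := cx_modular_place_exists (K0 := ↥L) (fd27_iota (algebraMap (↥L) Qb) M)
    (fun u => fd27_iota_coe _ _ u) P
  by_cases h0 : P.ord y = 0
  · left
    refine ⟨(wp1_mem_iff_ord_nonneg P y).mpr (by rw [h0]), ?_⟩
    rw [wp1_mem_iff_ord_nonneg, Place.ord_inv, h0]
    simp
  · right
    refine fd45_isRat M L P P' hP' (hrat P' ?_)
    rw [hP']
    exact h0

/-- One finite Galois field for `f`, `a`, `b`, a finite set `T` of algebraic numbers and the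
supports of `f`, `α a`, `β a`, `α b`, `β b`. -/
theorem pfd27_exists (M' q : ℕ) [NeZero M'] [NeZero q]
    (f : ↥(modularFunctionFieldBar (M' * q))) (a b : ↥(modularFunctionFieldBar M'))
    (T : Finset Qb) :
    ∃ L : IntermediateField ℚ Qb, FiniteDimensional ℚ L ∧ Normal ℚ L ∧ (∀ t ∈ T, t ∈ L) ∧
      (∃ fL : ↥(modularFunctionFieldFullC (↥L) (M' * q)),
        fd27_iota (algebraMap (↥L) Qb) (M' * q) fL = f) ∧
      (∃ aL : ↥(modularFunctionFieldFullC (↥L) M'), fd27_iota (algebraMap (↥L) Qb) M' aL = a) ∧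
      (∃ bL : ↥(modularFunctionFieldFullC (↥L) M'), fd27_iota (algebraMap (↥L) Qb) M' bL = b) ∧
      ∀ y : ↥(modularFunctionFieldBar (M' * q)),
        (y = f ∨ y = heckeAlphaBar Qb M' q a ∨ y = heckeBetaBar Qb M' q a ∨
          y = heckeAlphaBar Qb M' q b ∨ y = heckeBetaBar Qb M' q b) →
        ∀ P : Place Qb ↥(modularFunctionFieldBar (M' * q)), P.ord y ≠ 0 →
          rs45_RatPlace (M' * q) L P := by
  obtain ⟨L1, hfd1, hgal1, hT1, hf1, hrat1⟩ := rs45_exists (M' * q) f T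
  obtain ⟨L2, hfd2, hgal2, -, -, hrat2⟩ := rs45_exists (M' * q) (heckeAlphaBar Qb M' q a) ∅
  obtain ⟨L3, hfd3, hgal3, -, -, hrat3⟩ := rs45_exists (M' * q) (heckeBetaBar Qb M' q a) ∅
  obtain ⟨L4, hfd4, hgal4, -, -, hrat4⟩ := rs45_exists (M' * q) (heckeAlphaBar Qb M' q b) ∅
  obtain ⟨L5, hfd5, hgal5, -, -, hrat5⟩ := rs45_exists (M' * q) (heckeBetaBar Qb M' q b) ∅
  obtain ⟨L6, hfd6, hgal6, -, ha6, -⟩ := rs45_exists M' a ∅
  obtain ⟨L7, hfd7, hgal7, -, hb7, -⟩ := rs45_exists M' b ∅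
  haveI := hfd1; haveI := hfd2; haveI := hfd3; haveI := hfd4; haveI := hfd5; haveI := hfd6
  haveI := hfd7
  haveI := hgal1; haveI := hgal2; haveI := hgal3; haveI := hgal4; haveI := hgal5; haveI := hgal6
  haveI := hgal7
  have h1 : L1 ≤ L1 ⊔ L2 ⊔ L3 ⊔ L4 ⊔ L5 ⊔ L6 ⊔ L7 :=
    le_sup_left.trans (le_sup_left.trans (le_sup_left.trans (le_sup_left.trans
      (le_sup_left.trans le_sup_left))))
  have h2 : L2 ≤ L1 ⊔ L2 ⊔ L3 ⊔ L4 ⊔ L5 ⊔ L6 ⊔ L7 :=
    le_sup_right.trans (le_sup_left.trans (le_sup_left.trans (le_sup_left.trans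
      (le_sup_left.trans le_sup_left))))
  have h3 : L3 ≤ L1 ⊔ L2 ⊔ L3 ⊔ L4 ⊔ L5 ⊔ L6 ⊔ L7 :=
    le_sup_right.trans (le_sup_left.trans (le_sup_left.trans (le_sup_left.trans le_sup_left)))
  have h4 : L4 ≤ L1 ⊔ L2 ⊔ L3 ⊔ L4 ⊔ L5 ⊔ L6 ⊔ L7 :=
    le_sup_right.trans (le_sup_left.trans (le_sup_left.trans le_sup_left))
  have h5 : L5 ≤ L1 ⊔ L2 ⊔ L3 ⊔ L4 ⊔ L5 ⊔ L6 ⊔ L7 :=
    le_sup_right.trans (le_sup_left.trans le_sup_left)
  have h6 : L6 ≤ L1 ⊔ L2 ⊔ L3 ⊔ L4 ⊔ L5 ⊔ L6 ⊔ L7 := le_sup_right.trans le_sup_left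
  have h7 : L7 ≤ L1 ⊔ L2 ⊔ L3 ⊔ L4 ⊔ L5 ⊔ L6 ⊔ L7 := le_sup_right
  haveI n1 : Normal ℚ ↥L1 := IsGalois.to_normal
  haveI n2 : Normal ℚ ↥L2 := IsGalois.to_normal
  haveI n3 : Normal ℚ ↥L3 := IsGalois.to_normal
  haveI n4 : Normal ℚ ↥L4 := IsGalois.to_normal
  haveI n5 : Normal ℚ ↥L5 := IsGalois.to_normal
  haveI n6 : Normal ℚ ↥L6 := IsGalois.to_normal
  haveI n7 : Normal ℚ ↥L7 := IsGalois.to_normal
  haveI n12 : Normal ℚ ↥(L1 ⊔ L2) := @IntermediateField.normal_sup ℚ Qb _ _ _ L1 L2 n1 n2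
  haveI n13 : Normal ℚ ↥(L1 ⊔ L2 ⊔ L3) := @IntermediateField.normal_sup ℚ Qb _ _ _ _ L3 n12 n3
  haveI n14 : Normal ℚ ↥(L1 ⊔ L2 ⊔ L3 ⊔ L4) := @IntermediateField.normal_sup ℚ Qb _ _ _ _ L4 n13 n4
  haveI n15 : Normal ℚ ↥(L1 ⊔ L2 ⊔ L3 ⊔ L4 ⊔ L5) := @IntermediateField.normal_sup ℚ Qb _ _ _ _ L5 n14 n5
  haveI n16 : Normal ℚ ↥(L1 ⊔ L2 ⊔ L3 ⊔ L4 ⊔ L5 ⊔ L6) := @IntermediateField.normal_sup ℚ Qb _ _ _ _ L6 n15 n6
  haveI n17 : Normal ℚ ↥(L1 ⊔ L2 ⊔ L3 ⊔ L4 ⊔ L5 ⊔ L6 ⊔ L7) := @IntermediateField.normal_sup ℚ Qb _ _ _ _ L7 n16 n7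
  haveI f12 : FiniteDimensional ℚ ↥(L1 ⊔ L2) := IntermediateField.finiteDimensional_sup L1 L2
  haveI f13 : FiniteDimensional ℚ ↥(L1 ⊔ L2 ⊔ L3) := IntermediateField.finiteDimensional_sup _ L3
  haveI f14 : FiniteDimensional ℚ ↥(L1 ⊔ L2 ⊔ L3 ⊔ L4) :=
    IntermediateField.finiteDimensional_sup _ L4
  haveI f15 : FiniteDimensional ℚ ↥(L1 ⊔ L2 ⊔ L3 ⊔ L4 ⊔ L5) :=
    IntermediateField.finiteDimensional_sup _ L5
  haveI f16 : FiniteDimensional ℚ ↥(L1 ⊔ L2 ⊔ L3 ⊔ L4 ⊔ L5 ⊔ L6) :=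
    IntermediateField.finiteDimensional_sup _ L6
  haveI f17 : FiniteDimensional ℚ ↥(L1 ⊔ L2 ⊔ L3 ⊔ L4 ⊔ L5 ⊔ L6 ⊔ L7) :=
    IntermediateField.finiteDimensional_sup _ L7
  refine ⟨L1 ⊔ L2 ⊔ L3 ⊔ L4 ⊔ L5 ⊔ L6 ⊔ L7, f17, n17,
    fun t ht => h1 (hT1 t ht), pfd27_lift h1 _ f hf1, pfd27_lift h6 _ a ha6,
    pfd27_lift h7 _ b hb7, ?_⟩
  rintro y (rfl | rfl | rfl | rfl | rfl) P hP
  · exact pfd27_ratPlace_mono h1 _ (hrat1 P hP)
  · exact pfd27_ratPlace_mono h2 _ (hrat2 P hP)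
  · exact pfd27_ratPlace_mono h3 _ (hrat3 P hP)
  · exact pfd27_ratPlace_mono h4 _ (hrat4 P hP)
  · exact pfd27_ratPlace_mono h5 _ (hrat5 P hP)

/-! ## 4. The package -/

theorem pfd27_normABar_ne_zero (N ℓ : ℕ) [NeZero N] [NeZero ℓ] (hℓ : ℓ.Prime) (hN : ¬ ℓ ∣ N)
    {f : ↥(modularFunctionFieldBar (N * ℓ))} (hf : f ≠ 0) : s35i62_normABar N ℓ f ≠ 0 := by
  letI := algebraAlong (heckeAlphaBar Kbar N ℓ)
  have hfr := kn97_finrank N ℓ hℓ hN
  haveI : FiniteDimensional ↥(modularFunctionFieldBar N) ↥(modularFunctionFieldBar (N * ℓ)) :=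
    Module.finite_of_finrank_pos (by rw [hfr]; omega)
  exact Algebra.norm_ne_zero_iff.mpr hf

theorem pfd27_normBBar_ne_zero (N ℓ : ℕ) [NeZero N] [NeZero ℓ] (hℓ : ℓ.Prime) (hN : ¬ ℓ ∣ N)
    {f : ↥(modularFunctionFieldBar (N * ℓ))} (hf : f ≠ 0) : s35i62_normBBar N ℓ f ≠ 0 := by
  have h : s35i62_normBBar N ℓ f = s35i62_normABar N ℓ (al97L_wBar N ℓ hℓ hN f) :=
    lv52_norm_beta_eq hℓ hN f
  rw [h]
  exact pfd27_normABar_ne_zero N ℓ hℓ hN
    ((map_ne_zero_iff _ (al97L_wBar N ℓ hℓ hN).toRingHom.injective).mpr hf)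

/-- **`s35i62_Pkg_FieldDef`**: CORE35 at level `M' q` ⟹ FFA at level `M' q`. -/
theorem pfd27_pkg_fieldDef : s35i62_Pkg_FieldDef := by
  intro M' q m _ _ hq hqM' hm hcop hcore A hA σ hσ f hf hord ⟨a, ha⟩ ⟨b, hb⟩
  haveI hMq : NeZero (M' * q) := ⟨Nat.mul_ne_zero (NeZero.ne M') (NeZero.ne q)⟩
  obtain ⟨ζ, hζ⟩ := fd27_exists_primitiveRoot q hq.ne_zero
  obtain ⟨L, hfd, hnorm, hT, ⟨fL, hfL⟩, ⟨aL, haL⟩, ⟨bL, hbL⟩, hrat⟩ :=
    pfd27_exists M' q f a b {ζ}
  haveI := hfd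
  haveI := hnorm
  haveI hnf : NumberField (↥L) := fd27_numberField L hfd
  haveI hdvr : IsDiscreteValuationRing (A.comap (algebraMap (↥L) Qb)) :=
    nf23_comap_isDVR_of_liesOverPrime (algebraMap (↥L) Qb) A hq.ne_zero hA
  obtain ⟨π, hπ⟩ := IsDiscreteValuationRing.exists_irreducible (A.comap (algebraMap (↥L) Qb))
  letI alg : Algebra (A.comap (algebraMap (↥L) Qb))
      ↥(modularFunctionFieldFullC (↥L) (M' * q)) :=
    ((algebraMap (↥L) ↥(modularFunctionFieldFullC (↥L) (M' * q))).comp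
      (algebraMap (A.comap (algebraMap (↥L) Qb)) (↥L))).toAlgebra
  haveI htower : IsScalarTower (A.comap (algebraMap (↥L) Qb)) (↥L)
      ↥(modularFunctionFieldFullC (↥L) (M' * q)) :=
    IsScalarTower.of_algebraMap_eq (fun _ => rfl)
  have hunit : ∀ n : ℕ, Nat.Coprime n q → IsUnit ((n : ℕ) : A.comap (algebraMap (↥L) Qb)) := by
    intro n hn
    obtain ⟨μ, hμ⟩ := nf23_exists_natCast_mul_eq_one (algebraMap (↥L) Qb) A hA hn
    exact IsUnit.of_mul_eq_one _ hμ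
  have hqnu : ¬ IsUnit ((q : ℕ) : A.comap (algebraMap (↥L) Qb)) := by
    intro hu
    have h1 : ((q : ↥L)) ∈ (A.comap (algebraMap (↥L) Qb)).nonunits := by
      rw [nf23_mem_nonunits_comap, map_natCast]
      exact hA
    have h2 : ((q : ℕ) : A.comap (algebraMap (↥L) Qb)) ∈
        IsLocalRing.maximalIdeal (A.comap (algebraMap (↥L) Qb)) := by
      rw [← ValuationSubring.coe_mem_nonunits_iff]
      exact h1
    exact h2 hu
  have hσ' := pfd27_frobenial A L hσ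
  have hζL : ∃ ζ' : ↥L, IsPrimitiveRoot ζ' q :=
    ⟨⟨ζ, hT ζ (Finset.mem_singleton_self ζ)⟩,
      IsPrimitiveRoot.of_map_of_injective (f := algebraMap (↥L) Qb) hζ
        (algebraMap (↥L) Qb).injective⟩
  have hfL0 : fL ≠ 0 := by
    rintro rfl
    apply hf
    rw [← hfL, map_zero]
  have ha0 : a ≠ 0 := by
    rintro rfl
    rw [zero_pow hm.ne'] at ha
    exact pfd27_normABar_ne_zero M' q hq hqM' hf ha
  have hb0 : b ≠ 0 := by
    rintro rfl
    rw [zero_pow hm.ne'] at hb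
    exact pfd27_normBBar_ne_zero M' q hq hqM' hf hb
  have haL0 : aL ≠ 0 := by
    rintro rfl
    apply ha0
    rw [← haL, map_zero]
  have hbL0 : bL ≠ 0 := by
    rintro rfl
    apply hb0
    rw [← hbL, map_zero]
  have hNA : s35i62_normA (↥L) M' q fL =
      algebraMap (↥L) ↥(modularFunctionFieldFullC (↥L) M') 1 * aL ^ m := by
    apply fd27_iota_injective (algebraMap (↥L) Qb) M'
    rw [pfd27_norm_alpha (algebraMap (↥L) Qb) M' q hq hqM', hfL, ha, map_one, one_mul, map_pow,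
      haL]
  have hNB : s35i62_normB (↥L) M' q fL =
      algebraMap (↥L) ↥(modularFunctionFieldFullC (↥L) M') 1 * bL ^ m := by
    apply fd27_iota_injective (algebraMap (↥L) Qb) M'
    rw [pfd27_norm_beta (algebraMap (↥L) Qb) M' q hq hqM', hfL, hb, map_one, one_mul, map_pow,
      hbL]
  have hdiv : ∀ P : Place (↥L) ↥(modularFunctionFieldFullC (↥L) (M' * q)),
      (m : ℤ) ∣ P.ord fL := by
    intro P
    refine cx_modular_place_dvd (K0 := ↥L) (fd27_iota (algebraMap (↥L) Qb) (M' * q))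
      (fun u => fd27_iota_coe _ _ u) (m : ℤ) _ ?_ P
    intro P'
    rw [hfL]
    exact hord P'
  have hratL : ∀ y : ↥(modularFunctionFieldFullC (↥L) (M' * q)),
      (y = fL ∨ y = al97L_alpha (↥L) M' q aL ∨ y = al97L_beta (↥L) M' q aL ∨
        y = al97L_alpha (↥L) M' q bL ∨ y = al97L_beta (↥L) M' q bL) →
      ∀ P : Place (↥L) ↥(modularFunctionFieldFullC (↥L) (M' * q)),
        (y ∈ P.toValuationSubring ∧ y⁻¹ ∈ P.toValuationSubring) ∨
          s34i47_IsRat (↥L) P.toValuationSubring := by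
    intro y hy P
    refine pfd27_rat (M' * q) L y (fun P' hP' => hrat _ ?_ P' hP') P
    rcases hy with rfl | rfl | rfl | rfl | rfl
    · left; exact hfL
    · right; left; rw [pfd27_iota_alpha, haL]
    · right; right; left; rw [pfd27_iota_beta, haL]
    · right; right; right; left; rw [pfd27_iota_alpha, hbL]
    · right; right; right; right; rw [pfd27_iota_beta, hbL]
  obtain ⟨f₀, c, hf0, -, hfc⟩ := hcore (↥(A.comap (algebraMap (↥L) Qb))) (↥L) π hπ hunit hqnu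
    hζL (σ.restrictNormal L).toRingEquiv hσ' fL aL bL 1 1 hfL0 haL0 hbL0 one_ne_zero one_ne_zero
    hdiv hNA hNB hratL
  have hι := congrArg (fd27_iota (algebraMap (↥L) Qb) (M' * q)) hfc
  rw [map_mul, map_pow, pfd27_iota_op, hfL, fd27_iota_algebraMap] at hι
  obtain ⟨γ, hγ⟩ := IsAlgClosed.exists_pow_nat_eq (algebraMap (↥L) Qb c) hm
  have hf0' : fd27_iota (algebraMap (↥L) Qb) (M' * q) f₀ ≠ 0 :=
    (map_ne_zero_iff _ (fd27_iota_injective (algebraMap (↥L) Qb) (M' * q))).mpr hf0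
  refine ⟨algebraMap Qb ↥(modularFunctionFieldBar (M' * q)) γ *
    (fd27_iota (algebraMap (↥L) Qb) (M' * q) f₀)⁻¹, ?_⟩
  rw [mul_pow, ← map_pow, hγ, ← hι, inv_pow, mul_right_comm,
    mul_inv_cancel₀ (pow_ne_zero m hf0'), one_mul]

end Fermat.Agent.S35
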