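import Fermat.Agent.S35.Iface62
import Fermat.Agent.S35.ThetaAlphaPush22
import Fermat.Agent.S35.PushJac40
import Fermat.Agent.S35.HeckeTransfer69
import Fermat.Agent.S35.NewEigAbs34

/-!
# S35 lab (helper32), registry row 569: the interface package `s35i62_Pkg_New`

`pn32_pkg_new : pn32_BetaCompat → pn32_N5 → s35i62_Pkg_New`.

The two hypotheses are the outputs of the rows which are not yet on `main`:

* `pn32_BetaCompat` (row 537, (2a)-β): for `q ∤ N` there is an additive map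
  `cor : Hom_par(Γ₀(N q), ℤ) → Hom_par(Γ₀(N), ℤ)` with `β_* (Θ n c) = Θ' n (cor c)` for all
  families `Θ`, `Θ'` with the existence / evaluation clauses of `te22_family` (`pn32_Eval`), at
  every prime modulus `p`.  (The `α`-twin is `taf22_compat_alpha_push`, on `main`.)
* `pn32_N5` (row 557): for the data of the frozen statement and every FINITE family of `ℤ`-linear
  maps `c i : L(M) → L(M' i)` (`M' i` a proper divisor of `M`) commuting with the `T_ℓ`, `ℓ ∤ M`,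
  there is a primitive `χ`-eigenvector `x0 ∈ O' ⊗ L(M)` killed by every `c i`.

The assembly:

* `Θ` := the family of `te22_family M lam`;
* the family `c` := all `cor_α ∘ cast`, `cor_β ∘ cast` over all factorisations `M = M' * q`,
  `q` prime, `q ≠ lam`, `q ∤ M'` (`pn32_c`); they commute with the `T_ℓ` by
  `ht69_cores_hecke_two` (row 539) at the primes `2`, `3` (`pn32_comm_of_compat`);
* `K` := the common kernel of the `c i` (`pn32_K`); `x0 ∈ O' ⊗ K` by flatness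
  (`ne34_mem_span_ker_family`);
* for `k ∈ K`: `α_* (Θ n k) = Θ' n (cor_α k) = 0` and the same for `β`, i.e. `Θ n k` is `q`-new
  (`pn32_isNew`, `pn32_isNewAt_aux`).

All names are prefixed `pn32_`.
-/

set_option autoImplicit false
set_option linter.unusedSectionVars false
set_option linter.unusedVariables false
set_option linter.style.longLine false
set_option linter.style.haveILetI false

open CongruenceSubgroup ModularCurve ModularCurve.Period AlgebraicCurve UpperHalfPlane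
open scoped MatrixGroups TensorProduct

namespace Fermat.Agent.S35

open Fermat.Agent.S16 Fermat.Agent.S24 Fermat.Agent.S42 Fermat.Agent.S41 Fermat.Agent.S37
open Fermat.Agent.S30 Fermat.Agent.S31

local notation "Qb" => AlgebraicClosure ℚ
local notation "GQ" => AlgebraicClosure ℚ ≃ₐ[ℚ] AlgebraicClosure ℚ

/-! ## 0. The hypotheses -/

/-- The existence and evaluation clauses of `te22_family` for a family `Θ` at level `N` and
modulus `p`: every `χ` has an admissible pair at modulus `p ^ n`, and `Θ n χ` is the class of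
`D` for every admissible pair `(h, f)` of `χ` and every `D` with `p ^ n • D = div f`. -/
def pn32_Eval (N : ℕ) [NeZero N] (p : ℕ)
    (Θ : ℕ → (↥(parabolicHoms ℤ (Gamma0 N) ℤ) →+ JZero N)) : Prop :=
  (∀ (n : ℕ) (χ : ↥(parabolicHoms ℤ (Gamma0 N) ℤ)),
    ∃ (h : mer95_MER) (f : ↥(modularFunctionFieldBar N)),
      thz31_AdmZ Qb (ff79_ev0 phi N) (p ^ n) (th70_zeta (p ^ n))
        (χ : Additive (Gamma0 N) →+ ℤ) h f) ∧
  (∀ (n : ℕ) (χ : ↥(parabolicHoms ℤ (Gamma0 N) ℤ)) (h : mer95_MER)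
    (f : ↥(modularFunctionFieldBar N)),
    thz31_AdmZ Qb (ff79_ev0 phi N) (p ^ n) (th70_zeta (p ^ n))
      (χ : Additive (Gamma0 N) →+ ℤ) h f →
    ∀ D : Divisor.degZero (K := Qb) (F := ↥(modularFunctionFieldBar N)),
      th70_IsDivOf (p ^ n) f (D : Divisor Qb ↥(modularFunctionFieldBar N)) →
        Θ n χ = Pic0.mk D)

/-- **Hypothesis (2a)-β** (row 537): `β_* ∘ Θ_n = Θ'_n ∘ cor` for ONE additive map `cor` of the
lattices, for all evaluated THETA-Z families at every prime modulus. -/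
def pn32_BetaCompat : Prop :=
  ∀ (N q : ℕ) [NeZero N] [NeZero q], q.Prime → ¬ q ∣ N →
    ∃ cor : ↥(parabolicHoms ℤ (Gamma0 (N * q)) ℤ) →+ ↥(parabolicHoms ℤ (Gamma0 N) ℤ),
      ∀ p : ℕ, p.Prime →
        ∀ (Θ : ℕ → (↥(parabolicHoms ℤ (Gamma0 (N * q)) ℤ) →+ JZero (N * q)))
          (Θ' : ℕ → (↥(parabolicHoms ℤ (Gamma0 N) ℤ) →+ JZero N)),
          s30i37_ThetaFamily (N * q) p Θ → pn32_Eval (N * q) p Θ →
          s30i37_ThetaFamily N p Θ' → pn32_Eval N p Θ' →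
          ∀ (n : ℕ) (c : ↥(parabolicHoms ℤ (Gamma0 (N * q)) ℤ)),
            pj40_betaPush N q (Θ n c) = Θ' n (cor c)

/-- **Hypothesis (N5)** (row 557): the primitive eigenvector killed by a finite family of
Hecke-equivariant maps to the lattices of proper divisor levels. -/
def pn32_N5 : Prop :=
  ∀ (M : ℕ) [NeZero M] (g : CuspForm (Gamma0 M) 2), g.IsNewform →
    ∀ (lam : ℕ) [Fact lam.Prime] (S : Finset ℕ)
      (O' : Type) [CommRing O'] [IsDomain O'] [IsDiscreteValuationRing O']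
      [IsAdicComplete (IsLocalRing.maximalIdeal O') O'] [Finite (IsLocalRing.ResidueField O')]
      [CharZero O'], (lam : O') ∈ IsLocalRing.maximalIdeal O' →
      ∀ (chig : CuspForm.heckeAlgebra M 2 (↑S : Set ℕ) →+* ℂ),
        (∀ (ℓ : ℕ) (hℓ : ℓ.Prime) (hℓM : ¬ ℓ ∣ M) (hℓS : ℓ ∉ (↑S : Set ℕ)),
          chig (CuspForm.heckeAlgebra.T hℓ hℓM hℓS) = ModularFormClass.qCoeff g ℓ) →
        ∀ iota : chig.range →+* O', lam ∈ S → (∀ q : ℕ, q.Prime → q ∣ M → q ∈ S) →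
          ∀ (ι : Type) [Finite ι] (M' : ι → ℕ) [∀ i, NeZero (M' i)],
            (∀ i, M' i ∣ M) → (∀ i, M' i ≠ M) →
            ∀ c : ∀ i, ↥(parabolicHoms ℤ (Gamma0 M) ℤ) →ₗ[ℤ]
                ↥(parabolicHoms ℤ (Gamma0 (M' i)) ℤ),
              (∀ (i : ι) (ℓ : ℕ), ℓ.Prime → ¬ ℓ ∣ M → ∀ x : ↥(parabolicHoms ℤ (Gamma0 M) ℤ),
                c i (hl42_TL M ℓ x) = hl42_TL (M' i) ℓ (c i x)) →
              ∃ Φ : CuspForm.heckeAlgebra M 2 (↑S : Set ℕ) →+*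
                  Module.End ℤ ↥(parabolicHoms ℤ (Gamma0 M) ℤ),
                (∀ (ℓ : ℕ) (hℓ : ℓ.Prime) (hℓN : ¬ ℓ ∣ M) (hℓS : ℓ ∉ (↑S : Set ℕ))
                    (x : ↥(parabolicHoms ℤ (Gamma0 M) ℤ)),
                  ((Φ (CuspForm.heckeAlgebra.T hℓ hℓN hℓS) x : ↥(parabolicHoms ℤ (Gamma0 M) ℤ)) :
                    Additive ↥(Gamma0 M) →+ ℤ) =
                      heckeHom M ℓ ℤ (x : Additive ↥(Gamma0 M) →+ ℤ)) ∧
                ∃ x0 : O' ⊗[ℤ] ↥(parabolicHoms ℤ (Gamma0 M) ℤ),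
                  x0 ∉ IsLocalRing.maximalIdeal O' •
                    (⊤ : Submodule O' (O' ⊗[ℤ] ↥(parabolicHoms ℤ (Gamma0 M) ℤ))) ∧
                  (∀ t : CuspForm.heckeAlgebra M 2 (↑S : Set ℕ),
                    (Φ t).baseChange O' x0 = (iota.comp chig.rangeRestrict) t • x0) ∧
                  ∀ i, (c i).baseChange O' x0 = 0

/-! ## 1. Families -/

/-- The THETA-Z family of `te22_family`, with its clauses regrouped. -/
theorem pn32_family (N : ℕ) [NeZero N] (p : ℕ) (hp : p ≠ 0) :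
    ∃ Θ : ℕ → (↥(parabolicHoms ℤ (Gamma0 N) ℤ) →+ JZero N),
      s30i37_ThetaFamily N p Θ ∧ pn32_Eval N p Θ := by
  obtain ⟨Θ, h1, h2, h3, h4, h5, h6⟩ := te22_family N p hp
  exact ⟨Θ, ⟨h1, h2, h3, h4⟩, h5, h6⟩

/-- (2a)-α in the shape of `pn32_BetaCompat` (from `taf22_compat_alpha_push`). -/
theorem pn32_alphaCompat (N q : ℕ) [NeZero N] [NeZero q] (hq : q.Prime) (hqN : ¬ q ∣ N)
    (p : ℕ) (hp : p.Prime)
    (Θ : ℕ → (↥(parabolicHoms ℤ (Gamma0 (N * q)) ℤ) →+ JZero (N * q)))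
    (Θ' : ℕ → (↥(parabolicHoms ℤ (Gamma0 N) ℤ) →+ JZero N))
    (hΘ : pn32_Eval (N * q) p Θ) (hΘ' : pn32_Eval N p Θ')
    (n : ℕ) (c : ↥(parabolicHoms ℤ (Gamma0 (N * q)) ℤ)) :
    pj40_alphaPush N q (Θ n c) = Θ' n (taf22_corPar N q c) :=
  taf22_compat_alpha_push N q hq hqN p hp.ne_zero Θ hΘ.1 hΘ.2 Θ' hΘ'.2 (pj40_alphaPush N q)
    (fun D => rfl) n c

/-- **Row 539 bound to the evaluated families**: an additive `cor` which is compatible with a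
Galois-equivariant push-forward `π` on all evaluated families commutes with `T_ℓ`, `ℓ ∤ N q`. -/
theorem pn32_comm_of_compat (N q : ℕ) [NeZero N] [NeZero q]
    (π : JZero (N * q) →+ JZero N) (hπ : ∀ (g : GQ) (x : JZero (N * q)), π (g • x) = g • π x)
    (cor : ↥(parabolicHoms ℤ (Gamma0 (N * q)) ℤ) →+ ↥(parabolicHoms ℤ (Gamma0 N) ℤ))
    (h2a : ∀ p : ℕ, p.Prime →
      ∀ (Θ : ℕ → (↥(parabolicHoms ℤ (Gamma0 (N * q)) ℤ) →+ JZero (N * q)))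
        (Θ' : ℕ → (↥(parabolicHoms ℤ (Gamma0 N) ℤ) →+ JZero N)),
        s30i37_ThetaFamily (N * q) p Θ → pn32_Eval (N * q) p Θ →
        s30i37_ThetaFamily N p Θ' → pn32_Eval N p Θ' →
        ∀ (n : ℕ) (c : ↥(parabolicHoms ℤ (Gamma0 (N * q)) ℤ)), π (Θ n c) = Θ' n (cor c))
    (ℓ : ℕ) (hℓ : ℓ.Prime) (hN : ¬ ℓ ∣ N * q) (c : ↥(parabolicHoms ℤ (Gamma0 (N * q)) ℤ)) :
    cor (hl42_TL (N * q) ℓ c) = hl42_TL N ℓ (cor c) := by
  obtain ⟨Θ₁, hΘ₁, hE₁⟩ := pn32_family (N * q) 2 two_ne_zero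
  obtain ⟨Θ₂, hΘ₂, hE₂⟩ := pn32_family (N * q) 3 three_ne_zero
  obtain ⟨Θ₁', hΘ₁', hE₁'⟩ := pn32_family N 2 two_ne_zero
  obtain ⟨Θ₂', hΘ₂', hE₂'⟩ := pn32_family N 3 three_ne_zero
  have hN' : ¬ ℓ ∣ N := fun h => hN (Dvd.dvd.mul_right h q)
  exact ht69_cores_hecke_two (N * q) N 2 3 Nat.prime_two Nat.prime_three (by norm_num)
    Θ₁ Θ₂ Θ₁' Θ₂' hΘ₁ hΘ₁' hΘ₂ hΘ₂' π hπ cor
    (h2a 2 Nat.prime_two Θ₁ Θ₁' hΘ₁ hE₁ hΘ₁' hE₁')
    (h2a 3 Nat.prime_three Θ₂ Θ₂' hΘ₂ hE₂ hΘ₂' hE₂') ℓ hℓ hN hN' c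

/-! ## 2. Newness of the Kummer classes of the common kernel (no casts) -/

/-- If both corestrictions of `k` vanish, then `Θ n k` is `q`-new. -/
theorem pn32_isNew (N q : ℕ) [NeZero N] [NeZero q] (hq : q.Prime) (hqN : ¬ q ∣ N)
    (p : ℕ) (hp : p.Prime)
    (Θ : ℕ → (↥(parabolicHoms ℤ (Gamma0 (N * q)) ℤ) →+ JZero (N * q)))
    (hΘ : s30i37_ThetaFamily (N * q) p Θ) (hE : pn32_Eval (N * q) p Θ)
    (corβ : ↥(parabolicHoms ℤ (Gamma0 (N * q)) ℤ) →+ ↥(parabolicHoms ℤ (Gamma0 N) ℤ))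
    (hβ : ∀ Θ' : ℕ → (↥(parabolicHoms ℤ (Gamma0 N) ℤ) →+ JZero N),
      s30i37_ThetaFamily N p Θ' → pn32_Eval N p Θ' →
      ∀ (n : ℕ) (c : ↥(parabolicHoms ℤ (Gamma0 (N * q)) ℤ)),
        pj40_betaPush N q (Θ n c) = Θ' n (corβ c))
    (n : ℕ) (k : ↥(parabolicHoms ℤ (Gamma0 (N * q)) ℤ))
    (hkα : taf22_corPar N q k = 0) (hkβ : corβ k = 0) :
    s35i62_IsNew N q (Θ n k) := by
  obtain ⟨Θ', hΘ', hE'⟩ := pn32_family N p hp.ne_zero
  have hα0 : pj40_alphaPush N q (Θ n k) = 0 := by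
    rw [pn32_alphaCompat N q hq hqN p hp Θ Θ' hE hE' n k, hkα, map_zero]
  have hβ0 : pj40_betaPush N q (Θ n k) = 0 := by
    rw [hβ Θ' hΘ' hE' n k, hkβ, map_zero]
  obtain ⟨D, hD⟩ := Pic0.mk_surjective (Θ n k)
  refine ⟨hx63_heckeAlphaBarIntegral N q, hx63_heckeBetaBarIntegral N q, D, hD.symm, ?_, ?_⟩
  · rw [← hD] at hα0
    exact (pj40_alphaPush_mk_eq_zero_iff N q (hx63_heckeAlphaBarIntegral N q) D).mp hα0
  · rw [← hD] at hβ0
    exact (pj40_betaPush_mk_eq_zero_iff N q (hx63_heckeBetaBarIntegral N q) D).mp hβ0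

/-! ## 3. Transport along an equality of levels -/

/-- Transport of the lattice along an equality of levels. -/
def pn32_castL {N N' : ℕ} (h : N = N') :
    ↥(parabolicHoms ℤ (Gamma0 N) ℤ) →ₗ[ℤ] ↥(parabolicHoms ℤ (Gamma0 N') ℤ) :=
  h ▸ LinearMap.id

theorem pn32_castL_rfl {N : ℕ} (k : ↥(parabolicHoms ℤ (Gamma0 N) ℤ)) :
    pn32_castL (rfl : N = N) k = k := rfl

theorem pn32_castL_TL {N N' : ℕ} [NeZero N] [NeZero N'] (h : N = N') (ℓ : ℕ)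
    (x : ↥(parabolicHoms ℤ (Gamma0 N) ℤ)) :
    pn32_castL h (hl42_TL N ℓ x) = hl42_TL N' ℓ (pn32_castL h x) := by
  subst h
  rfl

/-- The cast form of `pn32_isNew`: the statement consumed by `s35i62_IsNewAt`. -/
theorem pn32_isNewAt_aux (M : ℕ) [NeZero M] (p : ℕ) (hp : p.Prime)
    (Θ : ℕ → (↥(parabolicHoms ℤ (Gamma0 M) ℤ) →+ JZero M))
    (hΘ : s30i37_ThetaFamily M p Θ) (hE : pn32_Eval M p Θ)
    (M' q : ℕ) [NeZero M'] [NeZero q] (h : M = M' * q) (hq : q.Prime) (hqM' : ¬ q ∣ M')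
    (corβ : ↥(parabolicHoms ℤ (Gamma0 (M' * q)) ℤ) →+ ↥(parabolicHoms ℤ (Gamma0 M') ℤ))
    (hβ : ∀ (Θ₁ : ℕ → (↥(parabolicHoms ℤ (Gamma0 (M' * q)) ℤ) →+ JZero (M' * q)))
        (Θ' : ℕ → (↥(parabolicHoms ℤ (Gamma0 M') ℤ) →+ JZero M')),
      s30i37_ThetaFamily (M' * q) p Θ₁ → pn32_Eval (M' * q) p Θ₁ →
      s30i37_ThetaFamily M' p Θ' → pn32_Eval M' p Θ' →
      ∀ (n : ℕ) (c : ↥(parabolicHoms ℤ (Gamma0 (M' * q)) ℤ)),
        pj40_betaPush M' q (Θ₁ n c) = Θ' n (corβ c))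
    (n : ℕ) (k : ↥(parabolicHoms ℤ (Gamma0 M) ℤ))
    (hkα : taf22_corPar M' q (pn32_castL h k) = 0) (hkβ : corβ (pn32_castL h k) = 0) :
    s35i62_IsNew M' q (h ▸ Θ n k) := by
  subst h
  exact pn32_isNew M' q hq hqM' p hp Θ hΘ hE corβ (fun Θ' hΘ' hE' => hβ Θ Θ' hΘ hE hΘ' hE')
    n k hkα hkβ

/-! ## 4. The family of corestrictions -/

/-- The factorisations `M = M' * q` with `q` prime, `q ≠ lam`, `q ∤ M'`. -/
abbrev pn32_Idx (M lam : ℕ) : Type :=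
  {t : ℕ × ℕ // M = t.1 * t.2 ∧ t.2.Prime ∧ t.2 ≠ lam ∧ ¬ t.2 ∣ t.1}

theorem pn32_Idx_finite (M lam : ℕ) [NeZero M] : Finite (pn32_Idx M lam) := by
  have hfin : {t : ℕ × ℕ | M = t.1 * t.2 ∧ t.2.Prime ∧ t.2 ≠ lam ∧ ¬ t.2 ∣ t.1}.Finite := by
    refine Set.Finite.subset (Finset.finite_toSet (Nat.divisorsAntidiagonal M)) ?_
    intro t ht
    simp only [Finset.mem_coe, Nat.mem_divisorsAntidiagonal]
    exact ⟨ht.1.symm, NeZero.ne M⟩
  exact hfin.to_subtype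

theorem pn32_Idx_neZero_fst {M lam : ℕ} [NeZero M] (t : pn32_Idx M lam) : NeZero t.1.1 :=
  ⟨fun h0 => NeZero.ne M (by rw [t.2.1, h0, zero_mul])⟩

theorem pn32_Idx_neZero_snd {M lam : ℕ} (t : pn32_Idx M lam) : NeZero t.1.2 :=
  ⟨t.2.2.1.ne_zero⟩

/-- The corestriction along `β` chosen from `pn32_BetaCompat`. -/
noncomputable def pn32_corB (hβ : pn32_BetaCompat) (N q : ℕ) [NeZero N] [NeZero q]
    (hq : q.Prime) (hqN : ¬ q ∣ N) :
    ↥(parabolicHoms ℤ (Gamma0 (N * q)) ℤ) →+ ↥(parabolicHoms ℤ (Gamma0 N) ℤ) :=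
  Classical.choose (hβ N q hq hqN)

theorem pn32_corB_spec (hβ : pn32_BetaCompat) (N q : ℕ) [NeZero N] [NeZero q]
    (hq : q.Prime) (hqN : ¬ q ∣ N) (p : ℕ) (hp : p.Prime)
    (Θ : ℕ → (↥(parabolicHoms ℤ (Gamma0 (N * q)) ℤ) →+ JZero (N * q)))
    (Θ' : ℕ → (↥(parabolicHoms ℤ (Gamma0 N) ℤ) →+ JZero N))
    (hΘ : s30i37_ThetaFamily (N * q) p Θ) (hE : pn32_Eval (N * q) p Θ)
    (hΘ' : s30i37_ThetaFamily N p Θ') (hE' : pn32_Eval N p Θ')
    (n : ℕ) (c : ↥(parabolicHoms ℤ (Gamma0 (N * q)) ℤ)) :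
    pj40_betaPush N q (Θ n c) = Θ' n (pn32_corB hβ N q hq hqN c) :=
  Classical.choose_spec (hβ N q hq hqN) p hp Θ Θ' hΘ hE hΘ' hE' n c

/-- The two corestrictions at level `N q`, indexed by a Boolean (`true` = `α`, `false` = `β`). -/
noncomputable def pn32_cor (hβ : pn32_BetaCompat) (N q : ℕ) [NeZero N] [NeZero q]
    (hq : q.Prime) (hqN : ¬ q ∣ N) (b : Bool) :
    ↥(parabolicHoms ℤ (Gamma0 (N * q)) ℤ) →+ ↥(parabolicHoms ℤ (Gamma0 N) ℤ) :=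
  cond b (taf22_corPar N q) (pn32_corB hβ N q hq hqN)

/-- Both corestrictions commute with `T_ℓ`, `ℓ ∤ N q`. -/
theorem pn32_cor_comm (hβ : pn32_BetaCompat) (N q : ℕ) [NeZero N] [NeZero q]
    (hq : q.Prime) (hqN : ¬ q ∣ N) (b : Bool) (ℓ : ℕ) (hℓ : ℓ.Prime) (hN : ¬ ℓ ∣ N * q)
    (c : ↥(parabolicHoms ℤ (Gamma0 (N * q)) ℤ)) :
    pn32_cor hβ N q hq hqN b (hl42_TL (N * q) ℓ c) =
      hl42_TL N ℓ (pn32_cor hβ N q hq hqN b c) := by
  cases b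
  · exact pn32_comm_of_compat N q (pj40_betaPush N q) (fun g x => pj40_betaPush_smul N q g x)
      (pn32_corB hβ N q hq hqN)
      (fun p hp Θ Θ' hΘ hE hΘ' hE' n c => pn32_corB_spec hβ N q hq hqN p hp Θ Θ' hΘ hE hΘ' hE' n c)
      ℓ hℓ hN c
  · exact pn32_comm_of_compat N q (pj40_alphaPush N q) (fun g x => pj40_alphaPush_smul N q g x)
      (taf22_corPar N q)
      (fun p hp Θ Θ' hΘ hE hΘ' hE' n c => pn32_alphaCompat N q hq hqN p hp Θ Θ' hE hE' n c)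
      ℓ hℓ hN c

/-- The family of all corestrictions from level `M`: for every factorisation `M = M' * q`
(`q` prime, `q ≠ lam`, `q ∤ M'`) and both degeneracy maps. -/
noncomputable def pn32_c (hβ : pn32_BetaCompat) (M lam : ℕ) [NeZero M]
    (i : pn32_Idx M lam × Bool) :
    ↥(parabolicHoms ℤ (Gamma0 M) ℤ) →ₗ[ℤ] ↥(parabolicHoms ℤ (Gamma0 i.1.1.1) ℤ) :=
  haveI := pn32_Idx_neZero_fst i.1
  haveI := pn32_Idx_neZero_snd i.1
  (pn32_cor hβ i.1.1.1 i.1.1.2 i.1.2.2.1 i.1.2.2.2.2 i.2).toIntLinearMap ∘ₗ pn32_castL i.1.2.1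

theorem pn32_c_apply (hβ : pn32_BetaCompat) (M lam : ℕ) [NeZero M] (M' q : ℕ) [NeZero M']
    [NeZero q] (h : M = M' * q) (hq : q.Prime) (hql : q ≠ lam) (hqM' : ¬ q ∣ M') (b : Bool)
    (k : ↥(parabolicHoms ℤ (Gamma0 M) ℤ)) :
    pn32_c hβ M lam (⟨(M', q), h, hq, hql, hqM'⟩, b) k =
      pn32_cor hβ M' q hq hqM' b (pn32_castL h k) := rfl

theorem pn32_c_comm (hβ : pn32_BetaCompat) (M lam : ℕ) [NeZero M] (i : pn32_Idx M lam × Bool)
    (ℓ : ℕ) (hℓ : ℓ.Prime) (hℓM : ¬ ℓ ∣ M) (x : ↥(parabolicHoms ℤ (Gamma0 M) ℤ)) :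
    haveI := pn32_Idx_neZero_fst i.1
    pn32_c hβ M lam i (hl42_TL M ℓ x) = hl42_TL i.1.1.1 ℓ (pn32_c hβ M lam i x) := by
  obtain ⟨⟨⟨M', q⟩, h, hq, hql, hqM'⟩, b⟩ := i
  haveI : NeZero M' := pn32_Idx_neZero_fst (⟨(M', q), h, hq, hql, hqM'⟩ : pn32_Idx M lam)
  haveI : NeZero q := ⟨hq.ne_zero⟩
  show pn32_cor hβ M' q hq hqM' b (pn32_castL h (hl42_TL M ℓ x)) =
    hl42_TL M' ℓ (pn32_cor hβ M' q hq hqM' b (pn32_castL h x))
  rw [pn32_castL_TL h]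
  exact pn32_cor_comm hβ M' q hq hqM' b ℓ hℓ (fun hd => hℓM (h ▸ hd)) _

/-! ## 5. The common kernel -/

/-- The common kernel of a family of `ℤ`-linear maps, as an additive subgroup. -/
def pn32_K {ι : Type*} {L : Type*} [AddCommGroup L] {L' : ι → Type*}
    [∀ i, AddCommGroup (L' i)] (c : ∀ i, L →ₗ[ℤ] L' i) : AddSubgroup L where
  carrier := {k | ∀ i, c i k = 0}
  zero_mem' := fun i => map_zero _
  add_mem' := fun ha hb i => by rw [map_add, ha i, hb i, add_zero]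
  neg_mem' := fun ha i => by rw [map_neg, ha i, neg_zero]

theorem pn32_K_coe {ι : Type*} {L : Type*} [AddCommGroup L] {L' : ι → Type*}
    [∀ i, AddCommGroup (L' i)] (c : ∀ i, L →ₗ[ℤ] L' i) :
    ((pn32_K c : AddSubgroup L) : Set L) = {k | ∀ i, c i k = 0} := rfl

/-! ## 6. The package -/

/-- **P-NEW** (Iface62 §4/§5) from (2a)-β and (N5). -/
theorem pn32_pkg_new (hβ : pn32_BetaCompat) (hN5 : pn32_N5) : s35i62_Pkg_New := by
  intro M _ g hg lam _ S O' _ _ _ _ _ _ hlam chig hchig iota hlamS hMS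
  have hlamP : lam.Prime := Fact.out
  obtain ⟨Θ, hΘ, hE⟩ := pn32_family M lam hlamP.ne_zero
  haveI : Finite (pn32_Idx M lam) := pn32_Idx_finite M lam
  haveI : ∀ i : pn32_Idx M lam × Bool, NeZero i.1.1.1 := fun i => pn32_Idx_neZero_fst i.1
  obtain ⟨Φ, hΦ, x0, hx0, hx0e, hx0c⟩ := hN5 M g hg lam S O' hlam chig hchig iota hlamS hMS
    (pn32_Idx M lam × Bool) (fun i => i.1.1.1)
    (fun i => ⟨i.1.1.2, i.1.2.1⟩)
    (fun i h => i.1.2.2.1.one_lt.ne' (by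
      have h1 : i.1.1.1 * i.1.1.2 = i.1.1.1 * 1 := by rw [mul_one, ← i.1.2.1, h]
      exact Nat.eq_of_mul_eq_mul_left (Nat.pos_of_ne_zero (NeZero.ne i.1.1.1)) h1))
    (pn32_c hβ M lam) (fun i ℓ hℓ hℓM x => pn32_c_comm hβ M lam i ℓ hℓ hℓM x)
  haveI : Module.Flat ℤ O' := fk56_flat_int O'
  refine ⟨Θ, hΘ, Φ, hΦ, x0, pn32_K (pn32_c hβ M lam), hx0, hx0e, ?_, ?_⟩
  · rw [pn32_K_coe]
    exact ne34_mem_span_ker_family (pn32_c hβ M lam) x0 hx0c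
  · intro k hk n q hq hql hqM hq2 M' _ _ h
    have hqM' : ¬ q ∣ M' := by
      rintro ⟨d, rfl⟩
      exact hq2 ⟨d, by rw [h]; ring⟩
    have hkα : taf22_corPar M' q (pn32_castL h k) = 0 :=
      hk (⟨(M', q), h, hq, hql, hqM'⟩, true)
    have hkβ : pn32_corB hβ M' q hq hqM' (pn32_castL h k) = 0 :=
      hk (⟨(M', q), h, hq, hql, hqM'⟩, false)
    exact pn32_isNewAt_aux M lam hlamP Θ hΘ hE M' q h hq hqM' (pn32_corB hβ M' q hq hqM')
      (fun Θ₁ Θ' hΘ₁ hE₁ hΘ' hE' n c =>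
        pn32_corB_spec hβ M' q hq hqM' lam hlamP Θ₁ Θ' hΘ₁ hE₁ hΘ' hE' n c)
      n k hkα hkβ

end Fermat.Agent.S35
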