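import Fermat.Agent.S35.PushAlpha22

/-!
# S35 lab, package (2a) (helper22): the THETA-Z family with its evaluation clause, and the
pushforward along `α` on Kummer presentations

* `te22_family N p` : the compatible family `Θ_n` of `thz31_closed_family` (same four clauses,
  verbatim) TOGETHER WITH the existence of admissible pairs and the evaluation clause
  (`Θ n χ = Pic0.mk D` for every admissible pair `(h, f)` of `χ` at modulus `p ^ n` and every
  `D` with `p ^ n • D = div f`);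
* `te22_adm_alpha` : an admissible pair `(h, f)` of `χ` at level `N q` gives the admissible pair
  `(H, Nm_α f)` of the transfer `cor22 χ` at level `N`, and `m • α_* D = div (Nm_α f)`;
* `te22_kummer_alpha` : Kummer presentation of `Θ n χ` whose norm along `α` is a constant times
  a `p ^ n`-th power as soon as the transfer of `χ` vanishes.
-/

set_option autoImplicit false
set_option linter.unusedSectionVars false
set_option linter.unusedVariables false
set_option linter.style.longLine false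
set_option linter.style.haveILetI false

open CongruenceSubgroup ModularCurve ModularCurve.Period AlgebraicCurve UpperHalfPlane
open scoped MatrixGroups

namespace Fermat.Agent.S35

open Fermat.Agent.S16 Fermat.Agent.S24 Fermat.Agent.S42 Fermat.Agent.S41 Fermat.Agent.S37

local notation "Qb" => AlgebraicClosure ℚ

/-- **THETA-Z with the evaluation clause**, hypothesis-free: the compatible family at the moduli
`p ^ n`, the existence of admissible pairs, and the evaluation of `Θ n` on ANY admissible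
pair. -/
theorem te22_family (N : ℕ) [NeZero N] (p : ℕ) (hp : p ≠ 0) :
    ∃ Θ : ℕ → (↥(parabolicHoms ℤ (Gamma0 N) ℤ) →+ JZero N),
      (∀ n χ, ((p ^ n : ℕ) : ℤ) • Θ n χ = 0) ∧
      (∀ n χ, Θ n χ = 0 → ∃ χ' : ↥(parabolicHoms ℤ (Gamma0 N) ℤ), χ = (p ^ n) • χ') ∧
      (∀ (n : ℕ) (ℓ : Nat.Primes), ¬ (ℓ : ℕ) ∣ N * p ^ n →
        ∀ χ : ↥(parabolicHoms ℤ (Gamma0 N) ℤ),
          ∃ hχ : heckeHom N ℓ ℤ χ ∈ parabolicHoms ℤ (Gamma0 N) ℤ,
            heckeOperatorBar N ℓ (Θ n χ) = Θ n ⟨heckeHom N ℓ ℤ χ, hχ⟩) ∧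
      (∀ n χ, (p : ℤ) • Θ (n + 1) χ = Θ n χ) ∧
      (∀ (n : ℕ) (χ : ↥(parabolicHoms ℤ (Gamma0 N) ℤ)),
        ∃ (h : mer95_MER) (f : ↥(modularFunctionFieldBar N)),
          thz31_AdmZ Qb (ff79_ev0 phi N) (p ^ n) (th70_zeta (p ^ n))
            (χ : Additive (Gamma0 N) →+ ℤ) h f) ∧
      (∀ (n : ℕ) (χ : ↥(parabolicHoms ℤ (Gamma0 N) ℤ)) (h : mer95_MER)
        (f : ↥(modularFunctionFieldBar N)),
        thz31_AdmZ Qb (ff79_ev0 phi N) (p ^ n) (th70_zeta (p ^ n))
          (χ : Additive (Gamma0 N) →+ ℤ) h f →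
        ∀ D : Divisor.degZero (K := Qb) (F := ↥(modularFunctionFieldBar N)),
          th70_IsDivOf (p ^ n) f (D : Divisor Qb ↥(modularFunctionFieldBar N)) →
            Θ n χ = Pic0.mk D) := by
  have hne : ∀ n : ℕ, NeZero (p ^ n) := fun n => ⟨pow_ne_zero n hp⟩
  have hex : ∀ n : ℕ, ∀ χ ∈ thz31_L N, ∃ (h : mer95_MER) (f : ↥(modularFunctionFieldBar N)),
      thz31_AdmZ Qb (ff79_ev0 phi N) (p ^ n) (th70_zeta (p ^ n)) χ h f := fun n =>
    @thz31_final_hex phi N _ (p ^ n) (hne n) (@thz31_X_holds N _ (p ^ n) (hne n))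
  choose Θ h1 h2 h3 h4 using fun n : ℕ =>
    @thz31_final_I_Theta_Z_eval phi N _ (p ^ n) (hne n) (@thz31_X_holds N _ (p ^ n) (hne n))
  haveI := hi63_hasPrincipalDivisors_bar N
  refine ⟨Θ, h1, h2, h3, fun n χ => ?_, fun n χ => hex n χ.1 χ.2, h4⟩
  exact thz31_level' (K := Qb) (L := (thz31_L N).toAddSubgroup)
    (pow_succ' p n) (pow_ne_zero n hp) hp
    (by rw [pow_succ']; exact thz31_zeta_pow p (p ^ n) hp (pow_ne_zero n hp))
    (Θ n) (Θ (n + 1)) (h4 n) (h4 (n + 1)) (hex (n + 1)) χ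

section te22_alpha

variable (N q : ℕ) [NeZero N] [NeZero q]

/-- **Pushforward of an admissible pair along `α`.**  If `(h, f)` is admissible for `χ` at level
`N q`, modulus `m`, then `(H, Nm_α f)` is admissible for the transfer of `χ` at level `N`, for a
suitable `H`; and `m • α_* D = div (Nm_α f)` whenever `m • D = div f`. -/
theorem te22_adm_alpha (hq : q.Prime) (hqN : ¬ q ∣ N) (m : ℕ) (hm : m ≠ 0)
    (χ : Additive (Gamma0 (N * q)) →+ ℤ) (h : mer95_MER) (f : ↥(modularFunctionFieldBar (N * q)))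
    (H : thz31_AdmZ Qb (ff79_ev0 phi (N * q)) m (th70_zeta m) χ h f) :
    (∃ H' : mer95_MER, thz31_AdmZ Qb (ff79_ev0 phi N) m (th70_zeta m)
      (cor22 (Gamma0 N) (Gamma0 (N * q)) χ) H' (ht45_normAlong (heckeAlphaBar Qb N q) f)) ∧
    ∀ D : Divisor Qb ↥(modularFunctionFieldBar (N * q)), th70_IsDivOf m f D →
      th70_IsDivOf m (ht45_normAlong (heckeAlphaBar Qb N q) f)
        (Divisor.pushforwardAlong (heckeAlphaBar Qb N q) (hx63_heckeAlphaBarIntegral N q) D) := by
  obtain ⟨h0, f0, hchar, hpow, hdvd⟩ := H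
  haveI := hi63_hasPrincipalDivisors_bar (N * q)
  have hα := hx63_heckeAlphaBarIntegral N q
  obtain ⟨-, hfin, hNF⟩ := hx63_inputs_gen (φ := heckeAlphaBar Qb N q) hα
  have hdiv : ∀ D : Divisor Qb ↥(modularFunctionFieldBar (N * q)), th70_IsDivOf m f D →
      th70_IsDivOf m (ht45_normAlong (heckeAlphaBar Qb N q) f)
        (Divisor.pushforwardAlong (heckeAlphaBar Qb N q) hα D) := fun D hD v =>
    hd63_pushforwardAlong_div (heckeAlphaBar Qb N q) hα hfin hNF D (m : ℤ) f f0 hD v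
  refine ⟨?_, hdiv⟩
  obtain ⟨H', H'0, H'char, H'pow⟩ := pa22_push_alpha phi N q hq hqN m χ h f h0 hchar hpow
  obtain ⟨D, hD, -⟩ := th70_exists_div (K := Qb) hm f0 hdvd
  exact ⟨H', H'0, ht45_normAlong_ne_zero _ hfin f0, H'char, H'pow,
    fun v => ⟨_, (hdiv D hD v).symm⟩⟩

/-- **Kummer presentations along `α`.**  For the family `Θ` of `te22_family` at level `N q`
(any family with the existence + evaluation clauses): every `Θ n χ` has a Kummer presentation
`Θ n χ = [D]`, `p ^ n • D = div f`, such that `Nm_α f` is a constant times a `p ^ n`-th power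
as soon as the transfer of `χ` to `Γ₀(N)` vanishes. -/
theorem te22_kummer_alpha (hq : q.Prime) (hqN : ¬ q ∣ N) (p : ℕ) (hp : p ≠ 0)
    (Θ : ℕ → (↥(parabolicHoms ℤ (Gamma0 (N * q)) ℤ) →+ JZero (N * q)))
    (hex : ∀ (n : ℕ) (χ : ↥(parabolicHoms ℤ (Gamma0 (N * q)) ℤ)),
      ∃ (h : mer95_MER) (f : ↥(modularFunctionFieldBar (N * q))),
        thz31_AdmZ Qb (ff79_ev0 phi (N * q)) (p ^ n) (th70_zeta (p ^ n))
          (χ : Additive (Gamma0 (N * q)) →+ ℤ) h f)
    (heval : ∀ (n : ℕ) (χ : ↥(parabolicHoms ℤ (Gamma0 (N * q)) ℤ)) (h : mer95_MER)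
      (f : ↥(modularFunctionFieldBar (N * q))),
      thz31_AdmZ Qb (ff79_ev0 phi (N * q)) (p ^ n) (th70_zeta (p ^ n))
        (χ : Additive (Gamma0 (N * q)) →+ ℤ) h f →
      ∀ D : Divisor.degZero (K := Qb) (F := ↥(modularFunctionFieldBar (N * q))),
        th70_IsDivOf (p ^ n) f (D : Divisor Qb ↥(modularFunctionFieldBar (N * q))) →
          Θ n χ = Pic0.mk D)
    (n : ℕ) (χ : ↥(parabolicHoms ℤ (Gamma0 (N * q)) ℤ)) :
    ∃ (D : Divisor.degZero (K := Qb) (F := ↥(modularFunctionFieldBar (N * q))))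
      (f : ↥(modularFunctionFieldBar (N * q))), f ≠ 0 ∧ Θ n χ = Pic0.mk D ∧
      (∀ v, ((p ^ n : ℕ) : ℤ) * (D : Divisor Qb ↥(modularFunctionFieldBar (N * q))) v
        = v.ord f) ∧
      (cor22 (Gamma0 N) (Gamma0 (N * q)) (χ : Additive (Gamma0 (N * q)) →+ ℤ) = 0 →
        ∃ (g : ↥(modularFunctionFieldBar N)) (a : Qb),
          ht45_normAlong (heckeAlphaBar Qb N q) f
            = algebraMap Qb ↥(modularFunctionFieldBar N) a * g ^ (p ^ n)) := by
  haveI := hi63_hasPrincipalDivisors_bar (N * q)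
  have hm : p ^ n ≠ 0 := pow_ne_zero n hp
  obtain ⟨h, f, H⟩ := hex n χ
  obtain ⟨h0, f0, hchar, hpow, hdvd⟩ := id H
  obtain ⟨D, hD, hdeg⟩ := th70_exists_div (K := Qb) hm f0 hdvd
  refine ⟨⟨D, Divisor.mem_degZero.mpr hdeg⟩, f, f0, heval n χ h f H _ hD, hD, fun hcor => ?_⟩
  exact pa22_norm_alpha_pow phi N q hq hqN (p ^ n) (Nat.pos_of_ne_zero hm)
    (χ : Additive (Gamma0 (N * q)) →+ ℤ) h f h0 hchar hpow hcor

end te22_alpha

end Fermat.Agent.S35
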