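import Fermat.Agent.S35.Iface62
import Fermat.Agent.S35.ThetaEval22
import Fermat.Agent.S35.FlatKerFam56

/-!
# S35 lab, package P-NEW, assembly skeleton (helper56, twin of registry row 569)

`s35i62_NewClaim` (Iface62 §4) from its ingredients, each an explicit hypothesis in a cast-free
shape:

* `pn56_principal_of_norm` : if `m • E = div f` and `Nm_ψ f = a · g ^ m`, then `ψ_* E = div g`
  is principal (generic function fields; the norm formula along `ψ`);
* `pn56_isNew_of_norm` : at level `M' q`: a degree-zero `D` with `m • D = div f`, `Nm_α f` and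
  `Nm_β f` both of the form constant × `m`-th power, gives `s35i62_IsNew M' q (Pic0.mk D)`
  (the norm forms are the outputs of (2a): `pa22_norm_alpha_pow` and its `β` twin, for a class
  whose two transfers vanish);
* `pn56_newClaim_of` : **the assembly** — a Θ-family, the Hecke lattice `Φ`, a primitive
  `χ`-eigenvector `x0`, a FINITE family of `ℤ`-linear maps `c i` on the lattice with
  `(c i).baseChange O' x0 = 0`, and "common kernel ⟹ new" give `s35i62_NewClaim`, with
  `K := fkf56_K c` (flatness of `O'` over `ℤ`: `FlatKerFam56`).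
-/

set_option autoImplicit false
set_option linter.unusedSectionVars false
set_option linter.unusedVariables false
set_option linter.style.longLine false
set_option linter.style.haveILetI false

open CongruenceSubgroup ModularCurve ModularCurve.Period AlgebraicCurve
open scoped TensorProduct

namespace Fermat.Agent.S35

open Fermat.Agent.S16 Fermat.Agent.S24 Fermat.Agent.S42 Fermat.Agent.S41 Fermat.Agent.S37
open Fermat.Agent.S30

local notation "Qb" => AlgebraicClosure ℚ

/-! ## 1. Principal pushforwards from norm forms -/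

section pn56_generic

variable {K F F' : Type*} [Field K] [Field F] [Field F'] [Algebra K F] [Algebra K F']

/-- If `m • E = div f` and `Nm_ψ f = a · g ^ m`, then `ψ_* E = div g`. -/
theorem pn56_principal_of_norm (ψ : F →ₐ[K] F') (hψ : ψ.toRingHom.IsIntegral)
    (hfin : FiniteAlong K ψ) (hN : NormFormulaAlong K ψ hfin) (E : Divisor K F') (m : ℕ)
    (hm : m ≠ 0) (f : F') (hf : f ≠ 0) (hE : th70_IsDivOf m f E) (g : F) (a : K)
    (hnorm : ht45_normAlong ψ f = algebraMap K F a * g ^ m) :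
    (Divisor.pushforwardAlong ψ hψ E).IsPrincipal := by
  have hNf : ht45_normAlong ψ f ≠ 0 := ht45_normAlong_ne_zero ψ hfin hf
  have ha : algebraMap K F a ≠ 0 := by
    intro h
    rw [hnorm, h, zero_mul] at hNf
    exact hNf rfl
  have hg : g ≠ 0 := by
    rintro rfl
    rw [hnorm, zero_pow hm, mul_zero] at hNf
    exact hNf rfl
  have hm' : (m : ℤ) ≠ 0 := by exact_mod_cast hm
  refine ⟨g, hg, fun v => ?_⟩
  have h1 := hd63_pushforwardAlong_div ψ hψ hfin hN E (m : ℤ) f hf hE v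
  have h2 : v.ord (letI := algebraAlong ψ; Algebra.norm F f) = (m : ℤ) * v.ord g := by
    have h3 : (letI := algebraAlong ψ; Algebra.norm F f) = algebraMap K F a * g ^ m := hnorm
    rw [h3, v.ord_mul ha (pow_ne_zero m hg), th70_ord_algebraMap, zero_add, th70_ord_pow]
  rw [h2] at h1
  exact mul_left_cancel₀ hm' h1

end pn56_generic

/-! ## 2. `q`-new classes from the two norm forms -/

/-- **New from norms**: a degree-zero divisor `D` at level `M' q` with `m • D = div f` and both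
`Nm_α f`, `Nm_β f` of the form constant × `m`-th power has a `q`-new class. -/
theorem pn56_isNew_of_norm (M' q : ℕ) [NeZero M'] [NeZero q] (m : ℕ) (hm : m ≠ 0)
    (D : ↥(Divisor.degZero (K := Qb) (F := ↥(modularFunctionFieldBar (M' * q)))))
    (f : ↥(modularFunctionFieldBar (M' * q))) (hf : f ≠ 0)
    (hD : th70_IsDivOf m f (D : Divisor Qb ↥(modularFunctionFieldBar (M' * q))))
    (hα : ∃ (g : ↥(modularFunctionFieldBar M')) (a : Qb),
      ht45_normAlong (heckeAlphaBar Qb M' q) f =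
        algebraMap Qb ↥(modularFunctionFieldBar M') a * g ^ m)
    (hβ : ∃ (g : ↥(modularFunctionFieldBar M')) (a : Qb),
      ht45_normAlong (heckeBetaBar Qb M' q) f =
        algebraMap Qb ↥(modularFunctionFieldBar M') a * g ^ m) :
    s35i62_IsNew M' q (Pic0.mk D) := by
  haveI := hi63_hasPrincipalDivisors_bar (M' * q)
  have hαi := hx63_heckeAlphaBarIntegral M' q
  have hβi := hx63_heckeBetaBarIntegral M' q
  obtain ⟨-, hfinα, hNFα⟩ := hx63_inputs_gen (φ := heckeAlphaBar Qb M' q) hαi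
  obtain ⟨-, hfinβ, hNFβ⟩ := hx63_inputs_gen (φ := heckeBetaBar Qb M' q) hβi
  obtain ⟨gα, aα, hgα⟩ := hα
  obtain ⟨gβ, aβ, hgβ⟩ := hβ
  exact ⟨hαi, hβi, D, rfl,
    pn56_principal_of_norm (heckeAlphaBar Qb M' q) hαi hfinα hNFα _ m hm f hf hD gα aα hgα,
    pn56_principal_of_norm (heckeBetaBar Qb M' q) hβi hfinβ hNFβ _ m hm f hf hD gβ aβ hgβ⟩

/-! ## 3. The assembly -/

/-- **P-NEW, assembly skeleton.**  The claim `s35i62_NewClaim` from: a Θ-family, the Hecke
lattice `Φ`, a primitive `χ`-eigenvector `x0`, a finite family `c i` of `ℤ`-linear maps on the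
lattice killing `x0` after base change, and the implication "common kernel ⟹ `Θ n k` is `q`-new
for every `q ∥ M`, `q ≠ lam`". -/
theorem pn56_newClaim_of (M : ℕ) [NeZero M] (lam : ℕ) (S : Finset ℕ)
    (O' : Type) [CommRing O'] [IsDomain O'] [IsDiscreteValuationRing O'] [CharZero O']
    (χ : CuspForm.heckeAlgebra M 2 (↑S : Set ℕ) →+* O')
    (Θ : ℕ → (↥(parabolicHoms ℤ (Gamma0 M) ℤ) →+ JZero M))
    (hΘ : s30i37_ThetaFamily M lam Θ)
    (Φ : CuspForm.heckeAlgebra M 2 (↑S : Set ℕ) →+*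
      Module.End ℤ ↥(parabolicHoms ℤ (Gamma0 M) ℤ))
    (hΦ : ∀ (ℓ : ℕ) (hℓ : ℓ.Prime) (hℓN : ¬ ℓ ∣ M) (hℓS : ℓ ∉ (↑S : Set ℕ))
        (x : ↥(parabolicHoms ℤ (Gamma0 M) ℤ)),
      ((Φ (CuspForm.heckeAlgebra.T hℓ hℓN hℓS) x : ↥(parabolicHoms ℤ (Gamma0 M) ℤ)) :
        Additive ↥(Gamma0 M) →+ ℤ) = heckeHom M ℓ ℤ (x : Additive ↥(Gamma0 M) →+ ℤ))
    (x0 : O' ⊗[ℤ] ↥(parabolicHoms ℤ (Gamma0 M) ℤ))
    (hx0 : x0 ∉ IsLocalRing.maximalIdeal O' •
      (⊤ : Submodule O' (O' ⊗[ℤ] ↥(parabolicHoms ℤ (Gamma0 M) ℤ))))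
    (hx0e : ∀ t : CuspForm.heckeAlgebra M 2 (↑S : Set ℕ), (Φ t).baseChange O' x0 = χ t • x0)
    {ι : Type*} [Finite ι] {L' : ι → Type*} [∀ i, AddCommGroup (L' i)]
    (c : ∀ i, ↥(parabolicHoms ℤ (Gamma0 M) ℤ) →ₗ[ℤ] L' i)
    (hc : ∀ i, (c i).baseChange O' x0 = 0)
    (hnew : ∀ k : ↥(parabolicHoms ℤ (Gamma0 M) ℤ), (∀ i, c i k = 0) →
      ∀ (n q : ℕ), q.Prime → q ≠ lam → q ∣ M → ¬ q ^ 2 ∣ M → s35i62_IsNewAt M q (Θ n k)) :
    s35i62_NewClaim M lam S O' χ := by
  haveI : Module.Flat ℤ O' := fk56_flat_int O'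
  exact ⟨Θ, hΘ, Φ, hΦ, x0, fkf56_K c, hx0, hx0e, fkf56_mem_span_K c x0 hc,
    fun k hk n q hq hql hqM hq2 => hnew k ((fkf56_mem_K c k).mp hk) n q hq hql hqM hq2⟩

end Fermat.Agent.S35
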