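import Fermat.Agent.S35.Iface62
import Fermat.Agent.S35.ThetaAlphaPush22
import Fermat.Agent.S35.PushJac40
import Fermat.Agent.S35.HeckeTransfer69
import Fermat.Agent.S35.NewEigAbs34

/-!
# S35 lab, row 569 (PKG-New), TWIN (helper83): the literal `s35i62_Pkg_New` from two inputs

`pn83_pkg_new_of corB hB h5 : s35i62_Pkg_New`, where the only hypotheses are

* `hB : pn83_BetaCompatFor corB` : (2a) for `β` (row 537) for a family of additive maps
  `corB N q : Hom_par(Γ₀(N q), ℤ) →+ Hom_par(Γ₀(N), ℤ)`: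
  `pj40_betaPush N q (Θ n c) = Θ' n (corB N q c)` for all THETA-Z families `Θ`, `Θ'` with the
  evaluation clause (`pn83_IsTE`, the six clauses of `te22_family`) — the `β`-twin of
  `taf22_compat_alpha_push` at `π := pj40_betaPush N q`;
* `h5 : pn83_N5` : (N5) (row 557) for the frozen S35 data and an arbitrary finite family of
  `ℤ`-linear maps `c i : L(M) → L(M' i)` (`M' i ∣ M`, `M' i ≠ M`) commuting with `hl42_TL` at all
  primes `ℓ ∤ M`: a primitive `χ`-eigenvector `x0` (for `hl42_act M S`) with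
  `(c i).baseChange O' x0 = 0` for all `i`.

Everything else is proved here from main:

* `pn83_isNew_iff` : `s35i62_IsNew M' q x ↔ pj40_alphaPush M' q x = 0 ∧ pj40_betaPush M' q x = 0`;
* `pn83_IsTE`, `pn83_exists_TE` : the families of `te22_family`;
* `pn83_alpha_compat` : (2a) for `α` at `π := pj40_alphaPush`, `cor := taf22_corPar`;
* `pn83_cor_hecke` : (N3) for every compatible pair `(π, cor)`, at ALL primes `ℓ` prime to the
  two levels (families at `p = 2` and `p = 3`, `ht69_cores_hecke_two`);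
* `pn83_castCor`, `pn83_castCor_hecke` : transport of the corestrictions along `M = M' * q`;
* `pn83_isNewAt_cast` : `k` killed by the two corestrictions at `q` ⟹ `s35i62_IsNewAt M q (Θ n k)`;
* the assembly: `Θ := te22_family M lam`, `Φ := hl42_act M S`, the family of corestrictions
  indexed by the primes `q ∥ M`, `q ≠ lam` and `α` / `β`, `K :=` their common kernel,
  `x0 ∈ span (1 ⊗ K)` by flatness (`ne34_mem_span_ker_family`).
-/

set_option autoImplicit false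
set_option linter.unusedSectionVars false
set_option linter.unusedVariables false
set_option linter.style.longLine false
set_option linter.style.haveILetI false

open CongruenceSubgroup ModularCurve ModularCurve.Period AlgebraicCurve UpperHalfPlane
open scoped TensorProduct MatrixGroups

namespace Fermat.Agent.S35

open Fermat.Agent.S16 Fermat.Agent.S24 Fermat.Agent.S42 Fermat.Agent.S41 Fermat.Agent.S37
  Fermat.Agent.S31 Fermat.Agent.S30

local notation "Qb" => AlgebraicClosure ℚ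
local notation "GQ" => AlgebraicClosure ℚ ≃ₐ[ℚ] AlgebraicClosure ℚ

/-- `q`-new classes are exactly the classes killed by `α_*` and `β_*`. -/
theorem pn83_isNew_iff (M' q : ℕ) [NeZero M'] [NeZero q] (x : JZero (M' * q)) :
    s35i62_IsNew M' q x ↔ pj40_alphaPush M' q x = 0 ∧ pj40_betaPush M' q x = 0 := by
  constructor
  · rintro ⟨hα, hβ, D, rfl, h1, h2⟩
    exact ⟨(pj40_alphaPush_mk_eq_zero_iff M' q hα D).mpr h1,
      (pj40_betaPush_mk_eq_zero_iff M' q hβ D).mpr h2⟩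
  · rintro ⟨h1, h2⟩
    obtain ⟨D, rfl⟩ := Pic0.mk_surjective x
    exact ⟨hx63_heckeAlphaBarIntegral M' q, hx63_heckeBetaBarIntegral M' q, D, rfl,
      (pj40_alphaPush_mk_eq_zero_iff M' q _ D).mp h1,
      (pj40_betaPush_mk_eq_zero_iff M' q _ D).mp h2⟩

/-! ### The THETA-Z families with the evaluation clause -/

/-- The six clauses of `te22_family`: THETA-Z + existence of admissible pairs + evaluation. -/
def pn83_IsTE (N : ℕ) [NeZero N] (p : ℕ)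
    (Θ : ℕ → (↥(parabolicHoms ℤ (Gamma0 N) ℤ) →+ JZero N)) : Prop :=
  s30i37_ThetaFamily N p Θ ∧
  (∀ (n : ℕ) (χ : ↥(parabolicHoms ℤ (Gamma0 N) ℤ)),
    ∃ (h : mer95_MER) (f : ↥(modularFunctionFieldBar N)),
      thz31_AdmZ Qb (ff79_ev0 phi N) (p ^ n) (th70_zeta (p ^ n))
        (χ : Additive (Gamma0 N) →+ ℤ) h f) ∧
  (∀ (n : ℕ) (χ : ↥(parabolicHoms ℤ (Gamma0 N) ℤ)) (h : mer95_MER)
    (f : ↥(modularFunctionFieldBar N)),
    thz31_AdmZ Qb (ff79_ev0 phi N) (p ^ n) (th70_zeta (p ^ n))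
      (χ : Additive (Gamma0 N) →+ ℤ) h f →
    ∀ D : Divisor.degZero (K := Qb) (F := ↥(modularFunctionFieldBar N)),
      th70_IsDivOf (p ^ n) f (D : Divisor Qb ↥(modularFunctionFieldBar N)) →
        Θ n χ = Pic0.mk D)

theorem pn83_exists_TE (N : ℕ) [NeZero N] (p : ℕ) (hp : p ≠ 0) :
    ∃ Θ : ℕ → (↥(parabolicHoms ℤ (Gamma0 N) ℤ) →+ JZero N), pn83_IsTE N p Θ := by
  obtain ⟨Θ, h1, h2, h3, h4, h5, h6⟩ := te22_family N p hp
  exact ⟨Θ, ⟨h1, h2, h3, h4⟩, h5, h6⟩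

/-- (2a) for `α`, in the shape used below: `α_* ∘ Θ_n = Θ'_n ∘ cor_α`. -/
theorem pn83_alpha_compat (N q : ℕ) [NeZero N] [NeZero q] (hq : q.Prime) (hqN : ¬ q ∣ N)
    (p : ℕ) (hp : p ≠ 0)
    (Θ : ℕ → (↥(parabolicHoms ℤ (Gamma0 (N * q)) ℤ) →+ JZero (N * q)))
    (hΘ : pn83_IsTE (N * q) p Θ)
    (Θ' : ℕ → (↥(parabolicHoms ℤ (Gamma0 N) ℤ) →+ JZero N)) (hΘ' : pn83_IsTE N p Θ')
    (n : ℕ) (c : ↥(parabolicHoms ℤ (Gamma0 (N * q)) ℤ)) :
    pj40_alphaPush N q (Θ n c) = Θ' n (taf22_corPar N q c) :=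
  taf22_compat_alpha_push N q hq hqN p hp Θ hΘ.2.1 hΘ.2.2 Θ' hΘ'.2.2 (pj40_alphaPush N q)
    (fun D => rfl) n c

/-- (N3) for any compatible pair `(π, cor)`: `cor` commutes with the Hecke operators at ALL
primes `ℓ` not dividing the two levels. -/
theorem pn83_cor_hecke (N N' : ℕ) [NeZero N] [NeZero N']
    (π : JZero N →+ JZero N') (hπ : ∀ (g : GQ) (x : JZero N), π (g • x) = g • π x)
    (cor : ↥(parabolicHoms ℤ (Gamma0 N) ℤ) →+ ↥(parabolicHoms ℤ (Gamma0 N') ℤ))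
    (h2a : ∀ p : ℕ, p.Prime →
      ∀ (Θ : ℕ → (↥(parabolicHoms ℤ (Gamma0 N) ℤ) →+ JZero N))
        (Θ' : ℕ → (↥(parabolicHoms ℤ (Gamma0 N') ℤ) →+ JZero N')),
        pn83_IsTE N p Θ → pn83_IsTE N' p Θ' → ∀ n c, π (Θ n c) = Θ' n (cor c))
    (ℓ : ℕ) (hℓ : ℓ.Prime) (hN : ¬ ℓ ∣ N) (hN' : ¬ ℓ ∣ N')
    (c : ↥(parabolicHoms ℤ (Gamma0 N) ℤ)) :
    cor (hl42_TL N ℓ c) = hl42_TL N' ℓ (cor c) := by
  obtain ⟨Θ₁, hΘ₁⟩ := pn83_exists_TE N 2 two_ne_zero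
  obtain ⟨Θ₁', hΘ₁'⟩ := pn83_exists_TE N' 2 two_ne_zero
  obtain ⟨Θ₂, hΘ₂⟩ := pn83_exists_TE N 3 three_ne_zero
  obtain ⟨Θ₂', hΘ₂'⟩ := pn83_exists_TE N' 3 three_ne_zero
  exact ht69_cores_hecke_two N N' 2 3 Nat.prime_two Nat.prime_three (by decide)
    Θ₁ Θ₂ Θ₁' Θ₂' hΘ₁.1 hΘ₁'.1 hΘ₂.1 hΘ₂'.1 π hπ cor
    (h2a 2 Nat.prime_two Θ₁ Θ₁' hΘ₁ hΘ₁') (h2a 3 Nat.prime_three Θ₂ Θ₂' hΘ₂ hΘ₂') ℓ hℓ hN hN' c

/-! ### Level casts -/

/-- Transport of an additive map out of the lattice at level `N₁` to the level `N = N₁`. -/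
noncomputable def pn83_castCor {N N₁ : ℕ} (h : N = N₁) {X : Type*} [AddCommGroup X]
    (f : ↥(parabolicHoms ℤ (Gamma0 N₁) ℤ) →+ X) : ↥(parabolicHoms ℤ (Gamma0 N) ℤ) →ₗ[ℤ] X := by
  subst h
  exact f.toIntLinearMap

theorem pn83_castCor_hecke {N N₁ N' : ℕ} (h : N = N₁)
    (cor : ↥(parabolicHoms ℤ (Gamma0 N₁) ℤ) →+ ↥(parabolicHoms ℤ (Gamma0 N') ℤ)) (ℓ : ℕ)
    (hcor : ∀ c, cor (hl42_TL N₁ ℓ c) = hl42_TL N' ℓ (cor c))
    (k : ↥(parabolicHoms ℤ (Gamma0 N) ℤ)) :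
    pn83_castCor h cor (hl42_TL N ℓ k) = hl42_TL N' ℓ (pn83_castCor h cor k) := by
  subst h
  exact hcor k

/-! ### The two pending inputs, as explicit hypotheses -/

/-- **(2a) for `β`** (row 537), for a given family `corB` of corestriction maps on the lattices:
`β_* ∘ Θ_n = Θ'_n ∘ corB` for all THETA-Z families with the evaluation clause. -/
def pn83_BetaCompatFor (corB : ∀ (N q : ℕ) [NeZero N] [NeZero q],
    ↥(parabolicHoms ℤ (Gamma0 (N * q)) ℤ) →+ ↥(parabolicHoms ℤ (Gamma0 N) ℤ)) : Prop :=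
  ∀ (N q : ℕ) [NeZero N] [NeZero q], q.Prime → ¬ q ∣ N → ∀ p : ℕ, p.Prime →
    ∀ (Θ : ℕ → (↥(parabolicHoms ℤ (Gamma0 (N * q)) ℤ) →+ JZero (N * q)))
      (Θ' : ℕ → (↥(parabolicHoms ℤ (Gamma0 N) ℤ) →+ JZero N)),
      pn83_IsTE (N * q) p Θ → pn83_IsTE N p Θ' →
        ∀ n c, pj40_betaPush N q (Θ n c) = Θ' n (corB N q c)

/-- **(N5)** (row 557): for the data of the frozen statement S35 and every finite family of
`ℤ`-linear maps `c i` from the lattice of level `M` to the lattices of proper divisor levels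
`M' i` commuting with the Hecke operators at all primes `ℓ ∤ M`: a primitive `χ`-eigenvector
killed by all the `c i`. -/
def pn83_N5 : Prop :=
  ∀ (M : ℕ) [NeZero M] (g : CuspForm (Gamma0 M) 2), g.IsNewform →
    ∀ (lam : ℕ) [Fact lam.Prime] (S : Finset ℕ)
      (O' : Type) [CommRing O'] [IsDomain O'] [IsDiscreteValuationRing O']
      [IsAdicComplete (IsLocalRing.maximalIdeal O') O'] [Finite (IsLocalRing.ResidueField O')]
      [CharZero O'], (lam : O') ∈ IsLocalRing.maximalIdeal O' →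
      ∀ (chig : CuspForm.heckeAlgebra M 2 (↑S : Set ℕ) →+* ℂ),
        (∀ (ℓ : ℕ) (hℓ : ℓ.Prime) (hℓM : ¬ ℓ ∣ M) (hℓS : ℓ ∉ (↑S : Set ℕ)),
          chig (CuspForm.heckeAlgebra.T hℓ hℓM hℓS) = ModularFormClass.qCoeff g ℓ) →
        ∀ iota : chig.range →+* O', lam ∈ S → (∀ q : ℕ, q.Prime → q ∣ M → q ∈ S) →
          ∀ (ι : Type) [Finite ι] (M' : ι → ℕ), (∀ i, NeZero (M' i)) → (∀ i, M' i ∣ M) →
            (∀ i, M' i ≠ M) →
            ∀ c : ∀ i, ↥(parabolicHoms ℤ (Gamma0 M) ℤ) →ₗ[ℤ]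
                ↥(parabolicHoms ℤ (Gamma0 (M' i)) ℤ),
              (∀ (i : ι) (ℓ : ℕ), ℓ.Prime → ¬ ℓ ∣ M → ∀ k,
                c i (hl42_TL M ℓ k) = hl42_TL (M' i) ℓ (c i k)) →
              ∃ x0 : O' ⊗[ℤ] ↥(parabolicHoms ℤ (Gamma0 M) ℤ),
                x0 ∉ IsLocalRing.maximalIdeal O' •
                  (⊤ : Submodule O' (O' ⊗[ℤ] ↥(parabolicHoms ℤ (Gamma0 M) ℤ))) ∧
                (∀ t : CuspForm.heckeAlgebra M 2 (↑S : Set ℕ),
                  (hl42_act M (↑S : Set ℕ) t).baseChange O' x0 =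
                    (iota.comp chig.rangeRestrict) t • x0) ∧
                ∀ i, (c i).baseChange O' x0 = 0

/-! ### Newness of the Kummer images -/

/-- If `k` is killed by the two corestrictions at `q` (through every way of writing the level as
`M' * q`), then `Θ n k` is `q`-new. -/
theorem pn83_isNewAt_cast
    (corB : ∀ (N q : ℕ) [NeZero N] [NeZero q],
      ↥(parabolicHoms ℤ (Gamma0 (N * q)) ℤ) →+ ↥(parabolicHoms ℤ (Gamma0 N) ℤ))
    (hB : pn83_BetaCompatFor corB)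
    (N : ℕ) [NeZero N] (p : ℕ) (hp : p.Prime)
    (Θ : ℕ → (↥(parabolicHoms ℤ (Gamma0 N) ℤ) →+ JZero N)) (hΘ : pn83_IsTE N p Θ)
    (q : ℕ) (hq : q.Prime) (hq2 : ¬ q ^ 2 ∣ N) (n : ℕ) (k : ↥(parabolicHoms ℤ (Gamma0 N) ℤ))
    (hk : ∀ (M' : ℕ) [NeZero M'] [NeZero q] (h : N = M' * q),
      pn83_castCor h (taf22_corPar M' q) k = 0 ∧ pn83_castCor h (corB M' q) k = 0) :
    s35i62_IsNewAt N q (Θ n k) := by
  intro M' _ _ h
  obtain ⟨hka, hkb⟩ := hk M' h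
  have hqM' : ¬ q ∣ M' := by
    rintro ⟨c, rfl⟩
    exact hq2 ⟨c, by rw [h]; ring⟩
  subst h
  obtain ⟨Θ', hΘ'⟩ := pn83_exists_TE M' p hp.ne_zero
  rw [pn83_isNew_iff]
  constructor
  · show pj40_alphaPush M' q (Θ n k) = 0
    rw [pn83_alpha_compat M' q hq hqM' p hp.ne_zero Θ hΘ Θ' hΘ' n k]
    have h0 : taf22_corPar M' q k = 0 := hka
    rw [h0, map_zero]
  · show pj40_betaPush M' q (Θ n k) = 0
    rw [hB M' q hq hqM' p hp Θ Θ' hΘ hΘ' n k]
    have h0 : corB M' q k = 0 := hkb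
    rw [h0, map_zero]

/-! ### The package, from the two pending inputs -/

/-- **PKG-New from (2a)-β and (N5).** -/
theorem pn83_pkg_new_of
    (corB : ∀ (N q : ℕ) [NeZero N] [NeZero q],
      ↥(parabolicHoms ℤ (Gamma0 (N * q)) ℤ) →+ ↥(parabolicHoms ℤ (Gamma0 N) ℤ))
    (hB : pn83_BetaCompatFor corB) (h5 : pn83_N5) : s35i62_Pkg_New := by
  intro M _ g hg lam _ S O' _ _ _ _ _ _ hlam chig hchig iota hlamS hMS
  have hlamp : lam.Prime := Fact.out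
  obtain ⟨Θ, hΘ⟩ := pn83_exists_TE M lam hlamp.ne_zero
  refine ⟨Θ, hΘ.1, hl42_act M (↑S : Set ℕ),
    fun ℓ hℓ hℓN hℓS x => hl42_act_apply_coe M _ hℓ hℓN hℓS x, ?_⟩
  -- the index type of the corestrictions: the primes `q ∥ M`, `q ≠ lam`, and `α` / `β`
  let ι : Type := {q : ℕ // q.Prime ∧ q ≠ lam ∧ q ∣ M ∧ ¬ q ^ 2 ∣ M} × Bool
  have hMpos : 0 < M := Nat.pos_of_ne_zero (NeZero.ne M)
  have hfin : Finite ι := by
    have : Finite {q : ℕ // q.Prime ∧ q ≠ lam ∧ q ∣ M ∧ ¬ q ^ 2 ∣ M} := by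
      apply Set.Finite.to_subtype
      refine Set.Finite.subset (Finset.finite_toSet (Nat.divisors M)) ?_
      intro q hq
      exact Finset.mem_coe.mpr (Nat.mem_divisors.mpr ⟨hq.2.2.1, NeZero.ne M⟩)
    infer_instance
  have hMi : ∀ i : ι, M = M / i.1.1 * i.1.1 := fun i => (Nat.div_mul_cancel i.1.2.2.2.1).symm
  have hne : ∀ i : ι, NeZero (M / i.1.1) := fun i =>
    ⟨fun h0 => NeZero.ne M (by rw [hMi i, h0, zero_mul])⟩
  have hneq : ∀ i : ι, NeZero i.1.1 := fun i => ⟨i.1.2.1.ne_zero⟩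
  have hqM' : ∀ i : ι, ¬ i.1.1 ∣ M / i.1.1 := by
    rintro i ⟨c, hc⟩
    refine i.1.2.2.2.2 ⟨c, ?_⟩
    have h1 := hMi i
    rw [hc] at h1
    exact h1.trans (by ring)
  have hdvd : ∀ i : ι, M / i.1.1 ∣ M := fun i => Nat.div_dvd_of_dvd i.1.2.2.2.1
  have hneM : ∀ i : ι, M / i.1.1 ≠ M := fun i =>
    (Nat.div_lt_self hMpos i.1.2.1.one_lt).ne
  let c : ∀ i : ι, ↥(parabolicHoms ℤ (Gamma0 M) ℤ) →ₗ[ℤ]
      ↥(parabolicHoms ℤ (Gamma0 (M / i.1.1)) ℤ) := fun i =>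
    haveI := hne i
    haveI := hneq i
    cond i.2 (pn83_castCor (hMi i) (taf22_corPar (M / i.1.1) i.1.1))
      (pn83_castCor (hMi i) (corB (M / i.1.1) i.1.1))
  have hcomm : ∀ (i : ι) (ℓ : ℕ), ℓ.Prime → ¬ ℓ ∣ M → ∀ k,
      c i (hl42_TL M ℓ k) = hl42_TL (M / i.1.1) ℓ (c i k) := by
    rintro ⟨⟨q, hq, hql, hqM, hq2⟩, b⟩ ℓ hℓ hℓM k
    haveI := hne (⟨q, hq, hql, hqM, hq2⟩, b)
    haveI := hneq (⟨q, hq, hql, hqM, hq2⟩, b)
    have h1 : M = M / q * q := hMi (⟨q, hq, hql, hqM, hq2⟩, b)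
    have hℓ1 : ¬ ℓ ∣ M / q * q := fun h => hℓM (h1 ▸ h)
    have hℓ2 : ¬ ℓ ∣ M / q := fun h => hℓM (h.trans (Nat.div_dvd_of_dvd hqM))
    have hq' : ¬ q ∣ M / q := hqM' (⟨q, hq, hql, hqM, hq2⟩, b)
    cases b with
    | true =>
      exact pn83_castCor_hecke h1 (taf22_corPar (M / q) q) ℓ
        (fun c' => pn83_cor_hecke (M / q * q) (M / q) (pj40_alphaPush (M / q) q)
          (pj40_alphaPush_smul (M / q) q) (taf22_corPar (M / q) q)
          (fun p hp Θ₁ Θ₁' hΘ₁ hΘ₁' n c'' =>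
            pn83_alpha_compat (M / q) q hq hq' p hp.ne_zero Θ₁ hΘ₁ Θ₁' hΘ₁' n c'')
          ℓ hℓ hℓ1 hℓ2 c') k
    | false =>
      exact pn83_castCor_hecke h1 (corB (M / q) q) ℓ
        (fun c' => pn83_cor_hecke (M / q * q) (M / q) (pj40_betaPush (M / q) q)
          (pj40_betaPush_smul (M / q) q) (corB (M / q) q)
          (fun p hp Θ₁ Θ₁' hΘ₁ hΘ₁' n c'' => hB (M / q) q hq hq' p hp Θ₁ Θ₁' hΘ₁ hΘ₁' n c'')
          ℓ hℓ hℓ1 hℓ2 c') k
  obtain ⟨x0, hx0, heig, hker⟩ := h5 M g hg lam S O' hlam chig hchig iota hlamS hMS ι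
    (fun i => M / i.1.1) hne hdvd hneM c hcomm
  let K : AddSubgroup ↥(parabolicHoms ℤ (Gamma0 M) ℤ) :=
    (LinearMap.ker (LinearMap.pi c)).toAddSubgroup
  have hKmem : ∀ k, k ∈ K ↔ ∀ i, c i k = 0 := by
    intro k
    show LinearMap.pi c k = 0 ↔ _
    exact funext_iff
  refine ⟨x0, K, hx0, heig, ?_, ?_⟩
  · have hset : (K : Set ↥(parabolicHoms ℤ (Gamma0 M) ℤ)) = {l | ∀ i, c i l = 0} := by
      ext k
      exact hKmem k
    rw [hset]
    exact ne34_mem_span_ker_family c x0 hker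
  · intro k hk n q hq hql hqM hq2
    have hk' := (hKmem k).mp hk
    refine pn83_isNewAt_cast corB hB M lam hlamp Θ hΘ q hq hq2 n k ?_
    intro M' _ _ h
    obtain rfl : M' = M / q := by
      rw [h, Nat.mul_div_cancel _ hq.pos]
    exact ⟨hk' (⟨q, hq, hql, hqM, hq2⟩, true), hk' (⟨q, hq, hql, hqM, hq2⟩, false)⟩

end Fermat.Agent.S35
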