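import Fermat.Agent.S35.PkgNew32
import Fermat.Agent.S35.NewBeta87

/-!
# S35 lab (helper32), registry row 569: the `β` hypothesis of `pn32_pkg_new` is a theorem

* `pn32_betaCompat : pn32_BetaCompat` — from `tb87_compat_beta_pj40` (helper87, `NewBeta87`,
  row 537), with `cor := tb87_corBpar N q`;
* `pn32_pkg_new_of_N5 : pn32_N5 → s35i62_Pkg_New` — the interface package P-NEW from the single
  remaining input (N5) (row 557: the primitive eigenvector killed by a finite family of
  Hecke-equivariant maps to the lattices of proper divisor levels).

All names are prefixed `pn32_`.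
-/

set_option autoImplicit false
set_option linter.unusedSectionVars false
set_option linter.unusedVariables false
set_option linter.style.longLine false

open CongruenceSubgroup ModularCurve ModularCurve.Period AlgebraicCurve

namespace Fermat.Agent.S35

/-- **(2a)-β** in the shape consumed by `pn32_pkg_new`. -/
theorem pn32_betaCompat : pn32_BetaCompat := by
  intro N q _ _ hq hqN
  exact ⟨tb87_corBpar N q, fun p hp Θ Θ' hΘ hE hΘ' hE' n c =>
    tb87_compat_beta_pj40 N q hq hqN p hp.ne_zero Θ hE.1 hE.2 Θ' hE'.2 n c⟩

/-- **P-NEW from (N5) alone.** -/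
theorem pn32_pkg_new_of_N5 (hN5 : pn32_N5) : s35i62_Pkg_New :=
  pn32_pkg_new pn32_betaCompat hN5

end Fermat.Agent.S35
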