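import Fermat.Agent.S35.PkgNew83
import Fermat.Agent.S35.NewBeta87
import Fermat.Agent.S35.NewEigC88

/-!
# S35 lab, row 569 (PKG-New), TWIN (helper83): the literal package `s35i62_Pkg_New`

The two inputs of `pn83_pkg_new_of` (`PkgNew83`) are theorems on main:

* `pn83_betaCompat` : (2a) for `β`, from `tb87_compat_beta_pj40` (helper87, `NewBeta87`), with
  `corB := tb87_corBpar`;
* `pn83_n5` : (N5), from `ne88_exists` (helper88, `NewEigC88`, the period-vector route);
* **`pn83_pkg_new : s35i62_Pkg_New`**.
-/

set_option autoImplicit false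
set_option linter.unusedSectionVars false
set_option linter.unusedVariables false
set_option linter.style.longLine false
set_option linter.style.haveILetI false

open CongruenceSubgroup ModularCurve ModularCurve.Period AlgebraicCurve
open scoped TensorProduct

namespace Fermat.Agent.S35

/-- **(2a) for `β`** in the shape consumed by `pn83_pkg_new_of`. -/
theorem pn83_betaCompat : pn83_BetaCompatFor (fun N q _ _ => tb87_corBpar N q) := by
  intro N q _ _ hq hqN p hp Θ Θ' hΘ hΘ' n c
  exact tb87_compat_beta_pj40 N q hq hqN p hp.ne_zero Θ hΘ.2.1 hΘ.2.2 Θ' hΘ'.2.2 n c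

/-- **(N5)** in the shape consumed by `pn83_pkg_new_of`. -/
theorem pn83_n5 : pn83_N5 := by
  intro M _ g hg lam _ S O' _ _ _ _ _ _ hlam chig hchig iota hlamS hMS ι _ M' hM'0 hM' hne c hcomm
  haveI := hM'0
  obtain ⟨x0, h1, h2, h3, -⟩ :=
    ne88_exists M hg (↑S : Set ℕ) hMS O' chig hchig iota M' hM' hne c hcomm
  exact ⟨x0, h1, h2, h3⟩

/-- **P-NEW**: the literal interface package `s35i62_Pkg_New`. -/
theorem pn83_pkg_new : s35i62_Pkg_New :=
  pn83_pkg_new_of (fun N q _ _ => tb87_corBpar N q) pn83_betaCompat pn83_n5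

end Fermat.Agent.S35
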