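import Fermat.Agent.S35.PkgNewB32
import Fermat.Agent.S30.EigE4_42

/-!
# S35 lab (helper32), registry row 569: (N5) from the `Ω`-eigenvector

* `pn32_Omega` : the statement of the concrete `Ω`-part of row 557 (the shape announced for
  `nvo28_exists`): for the data of the frozen statement and an algebraically closed field `Ω`
  containing `O'`, there is a nonzero `χ`-eigenvector `x̄ ∈ Ω ⊗ L(M)` killed by every
  Hecke-equivariant `ℤ`-linear map to the lattice of a proper divisor level;
* `pn32_N5_of_omega : pn32_Omega → pn32_N5` — the descent `ne34_descend` (helper34) with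
  `Ω := AlgebraicClosure (FractionRing O')`, `act := hl42_act M S`;
* `pn32_pkg_new_of_omega : pn32_Omega → s35i62_Pkg_New`.

All names are prefixed `pn32_`.
-/

set_option autoImplicit false
set_option linter.unusedSectionVars false
set_option linter.unusedVariables false
set_option linter.style.longLine false
set_option linter.style.haveILetI false

open CongruenceSubgroup ModularCurve ModularCurve.Period AlgebraicCurve
open scoped TensorProduct

namespace Fermat.Agent.S35

open Fermat.Agent.S16 Fermat.Agent.S30 Fermat.Agent.S31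

/-- **The `Ω`-part of (N5)**: a nonzero eigenvector over an algebraically closed field, killed by
every Hecke-equivariant map to a proper divisor level. -/
def pn32_Omega : Prop :=
  ∀ (M : ℕ) [NeZero M] (g : CuspForm (Gamma0 M) 2), g.IsNewform →
    ∀ (S : Finset ℕ) (O' : Type) [CommRing O'] [IsDomain O'] [CharZero O']
      (chig : CuspForm.heckeAlgebra M 2 (↑S : Set ℕ) →+* ℂ),
      (∀ (ℓ : ℕ) (hℓ : ℓ.Prime) (hℓM : ¬ ℓ ∣ M) (hℓS : ℓ ∉ (↑S : Set ℕ)),
        chig (CuspForm.heckeAlgebra.T hℓ hℓM hℓS) = ModularFormClass.qCoeff g ℓ) →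
      ∀ iota : chig.range →+* O', (∀ q : ℕ, q.Prime → q ∣ M → q ∈ S) →
        ∀ (Ω : Type) [Field Ω] [IsAlgClosed Ω] [Algebra O' Ω],
          Function.Injective (algebraMap O' Ω) →
          ∃ xbar : Ω ⊗[ℤ] ↥(parabolicHoms ℤ (Gamma0 M) ℤ), xbar ≠ 0 ∧
            (∀ t : CuspForm.heckeAlgebra M 2 (↑S : Set ℕ),
              (hl42_act M (↑S : Set ℕ) t).baseChange Ω xbar =
                algebraMap O' Ω ((iota.comp chig.rangeRestrict) t) • xbar) ∧
            ∀ (M' : ℕ) [NeZero M'], M' ∣ M → M' ≠ M →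
              ∀ c : ↥(parabolicHoms ℤ (Gamma0 M) ℤ) →ₗ[ℤ] ↥(parabolicHoms ℤ (Gamma0 M') ℤ),
                (∀ ℓ : ℕ, ℓ.Prime → ¬ ℓ ∣ M → ∀ x : ↥(parabolicHoms ℤ (Gamma0 M) ℤ),
                  c (hl42_TL M ℓ x) = hl42_TL M' ℓ (c x)) →
                c.baseChange Ω xbar = 0

/-- **(N5) from its `Ω`-part**, by the abstract descent `ne34_descend`. -/
theorem pn32_N5_of_omega (hΩ : pn32_Omega) : pn32_N5 := by
  intro M _ g hg lam _ S O' _ _ _ _ _ _ hlam chig hchig iota hlamS hMS ι _ M' _ hM' hne c hcomm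
  have hinj : Function.Injective
      (algebraMap O' (AlgebraicClosure (FractionRing O'))) := by
    rw [IsScalarTower.algebraMap_eq O' (FractionRing O') (AlgebraicClosure (FractionRing O'))]
    exact (algebraMap (FractionRing O') (AlgebraicClosure (FractionRing O'))).injective.comp
      (IsFractionRing.injective O' (FractionRing O'))
  obtain ⟨xbar, hx0, heig, hkill⟩ := hΩ M g hg S O' chig hchig iota hMS
    (AlgebraicClosure (FractionRing O')) hinj
  haveI := ee42_finite M
  haveI := ee42_free M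
  haveI : ∀ i, Module.Free ℤ ↥(parabolicHoms ℤ (Gamma0 (M' i)) ℤ) := fun i => ee42_free (M' i)
  obtain ⟨x0, h1, h2, h3, -⟩ := ne34_descend hinj (hl42_act M (↑S : Set ℕ))
    (iota.comp chig.rangeRestrict) c xbar hx0 heig
    (fun i => hkill (M' i) (hM' i) (hne i) (c i) (hcomm i))
  exact ⟨hl42_act M (↑S : Set ℕ),
    fun ℓ hℓ hℓN hℓS x => hl42_act_apply_coe M (↑S : Set ℕ) hℓ hℓN hℓS x, x0, h1, h2, h3⟩

/-- **P-NEW from the `Ω`-part of (N5).** -/
theorem pn32_pkg_new_of_omega (hΩ : pn32_Omega) : s35i62_Pkg_New :=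
  pn32_pkg_new_of_N5 (pn32_N5_of_omega hΩ)

end Fermat.Agent.S35
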