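import Fermat.Agent.S35.PkgNewB32
import Fermat.Agent.S35.NewEig34

/-!
# S35 lab (helper32), registry row 569: the interface package `s35i62_Pkg_New`, CLOSED

* `pn32_n5 : pn32_N5` — from `ne34_exists_hE4` (helper34, `NewEig34`, row 557);
* **`pn32_pkg_new_final : s35i62_Pkg_New`** — the literal package P-NEW of `Iface62`, without
  hypotheses (`pn32_pkg_new_of_N5` applied to `pn32_n5`).

Inputs of the whole package: `te22_family` / `taf22_compat_alpha_push` (helper22),
`tb87_compat_beta_pj40` (helper87), `pj40_alphaPush` / `pj40_betaPush` (helper40),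
`ht69_cores_hecke_two` (helper69), `ne34_descend` / `ne34_exists_hE4` (helper34, on
`nl42_newvec`, helper42).

All names are prefixed `pn32_`.
-/

set_option autoImplicit false
set_option linter.unusedSectionVars false
set_option linter.unusedVariables false
set_option linter.style.longLine false

open CongruenceSubgroup ModularCurve ModularCurve.Period AlgebraicCurve
open scoped TensorProduct

namespace Fermat.Agent.S35

/-- **(N5)** in the shape consumed by `pn32_pkg_new`. -/
theorem pn32_n5 : pn32_N5 := by
  intro M _ g hg lam _ S O' _ _ _ _ _ _ hlam chig hchig iota hlamS hMS ι _ M' _ hM' hne c hcomm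
  obtain ⟨Φ, hΦ, x0, h1, h2, h3, -⟩ := ne34_exists_hE4 hg (↑S : Set ℕ) hMS O' chig hchig iota
    M' hM' hne c (fun i ℓ hℓ hℓM x => (hcomm i ℓ hℓ hℓM x).symm)
  exact ⟨Φ, hΦ, x0, h1, h2, h3⟩

/-- **P-NEW**: the literal interface package `s35i62_Pkg_New` of `Iface62`. -/
theorem pn32_pkg_new_final : s35i62_Pkg_New :=
  pn32_pkg_new_of_N5 pn32_n5

end Fermat.Agent.S35
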