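import Mathlib
import Fermat.Agent.S35.NodeInst93
import Fermat.Agent.S35.PkgCoreA39
import Fermat.Agent.S35.PkgToricCong35

/-!
# S35 lab, row 568 (helper93): the node datum of chain A and the literal `s35i62_Pkg_Core`

* `pn93_nodeDatum : pc39_NodeDatum` — the LITERAL second input of `pc39_core_of`
  (`PkgCoreA39`, helper39): on the canonical frame, for `f` with (LP) on the chart `B`, `G` a
  unit of `W` and `f₃ = lpt3_f3 τ m f G` (`τ = ŝ²`) with constant reductions on both branches,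
  the clause of `s34i47_LocalDatum` for `u = τ f₃ / f₃ ^ (q²)` at every closed point of the
  special fibre lying on both branches.
  Proof: `lpt3_node_shape` (helper3) turns an (LP)-root of `f` at the node into a root `c₃` of
  `f₃` which is a unit of `W`; `ni93_hNode` (`NodeInst93` = `nd14_hNode_LP` of helper14 bound on
  the canonical frame, with the Frobenius clauses `fn93c_*`) gives the datum.
* `pn93_pkg_core : s35i62_Pkg_Core` — the LITERAL package P-CORE of `Iface62` via chain A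
  (`ntc35_pkg_core_of_node`, helper35).

All names are prefixed `pn93_`.
-/

set_option autoImplicit false
set_option linter.unusedSectionVars false
set_option linter.unusedVariables false
set_option linter.style.longLine false
set_option linter.style.haveILetI false

open ModularCurve AlgebraicCurve

namespace Fermat.Agent.S35

open Fermat.Agent.S18 Fermat.Agent.S34

local notation "Q̄" => AlgebraicClosure ℚ

/-- **The node datum of chain A** (literal `pc39_NodeDatum`). -/
theorem pn93_nodeDatum : pc39_NodeDatum := by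
  intro M' q m _ _ hq hM' hm hmq R K _ _ _ _ _ _ _ _ _ _ π hπ hunit hqR σ hσ h hh B hB f G hf
    hLP hGW hGW' C₁ C₂ hC₁ hC₂ hc₁ hc₂
  have hσ' : ff50_Frob R q σ := hσ
  obtain ⟨hN, hBW, hsatW, hFrac, hKr, hS₁, hS₂⟩ :=
    sd89c_chart_facts M' q hq hM' hπ hunit hqR h hh B hB
  haveI := hN
  obtain ⟨hτB, hτB'⟩ := pc39_tau_chart M' q σ hσ' h hh B hB
  -- `G ≠ 0`
  have hG0 : G ≠ 0 := by
    rintro rfl
    apply fl7_pi_inv_not_mem_Vinf (K := K) M' q hπ
    have e0 : lpt3_f3 (pc39_tau σ (M' * q)) m f 0 = 0 := by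
      unfold lpt3_f3
      rw [zero_pow hm.ne', div_zero]
    rw [e0, zero_sub] at hc₁
    obtain ⟨d, hd⟩ := hC₁.exists_right_inv
    have h1 := (cm85_Vinf (K := K) (M' * q) hπ).mul_mem _ _ hc₁
      (pk85_hRV (M' * q) hπ (-d))
    have e1 : (algebraMap R ↥(modularFunctionFieldFullC K (M' * q)) π)⁻¹ *
        -(algebraMap R ↥(modularFunctionFieldFullC K (M' * q)) C₁) *
          algebraMap R ↥(modularFunctionFieldFullC K (M' * q)) (-d) =
        (algebraMap R ↥(modularFunctionFieldFullC K (M' * q)) π)⁻¹ := by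
      rw [map_neg, mul_assoc, neg_mul_neg, ← map_mul, hd, map_one, mul_one]
    rw [e1] at h1
    exact h1
  have hτf : ∀ x : ↥(modularFunctionFieldFullC K (M' * q)), x ≠ 0 →
      pc39_tau σ (M' * q) x ≠ 0 := fun x hx => (map_ne_zero _).mpr hx
  have hf3 : lpt3_f3 (pc39_tau σ (M' * q)) m f G ≠ 0 := by
    unfold lpt3_f3
    have h1 : f / pc39_tau σ (M' * q) f ≠ 0 := div_ne_zero hf (hτf f hf)
    exact div_ne_zero (div_ne_zero h1 (hτf _ h1)) (pow_ne_zero m hG0)
  -- (G1) for `τ`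
  have hG1 : ∀ x : ↥(modularFunctionFieldFullC K (M' * q)), x ≠ 0 →
      pc39_tau σ (M' * q) x / x ∈ s34i47c_W (K := K) M' q hq hM' hπ := by
    intro x hx
    have hsx : s34i47_coeffEquiv σ (M' * q) x ≠ 0 := (map_ne_zero _).mpr hx
    have h1 := ff50_div_mem_W M' q hq hM' hπ σ hσ' x hx
    have h2 := ff50_div_mem_W M' q hq hM' hπ σ hσ' _ hsx
    have e : pc39_tau σ (M' * q) x / x =
        s34i47_coeffEquiv σ (M' * q) (s34i47_coeffEquiv σ (M' * q) x) /
            s34i47_coeffEquiv σ (M' * q) x * (s34i47_coeffEquiv σ (M' * q) x / x) := by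
      rw [pc39_tau_apply]
      field_simp
    rw [e]
    exact (s34i47c_W (K := K) M' q hq hM' hπ).mul_mem h2 h1
  -- the roots of `f₃` at the nodes
  have hRoot : ∀ n : Ideal B, n.IsMaximal → algebraMap R B π ∈ n →
      sf79_OnBr π B (cm85_Vinf (K := K) (M' * q) hπ).toSubring n →
      sf79_OnBr π B (s34i47c_V0 (K := K) M' q hq hM' hπ).toSubring n →
      ∃ c : ↥(modularFunctionFieldFullC K (M' * q)), c ≠ 0 ∧
        c ∈ (cm85_Vinf (K := K) (M' * q) hπ).toSubring ∧
        c⁻¹ ∈ (cm85_Vinf (K := K) (M' * q) hπ).toSubring ∧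
        c ∈ (s34i47c_V0 (K := K) M' q hq hM' hπ).toSubring ∧
        c⁻¹ ∈ (s34i47c_V0 (K := K) M' q hq hM' hπ).toSubring ∧
        ∀ O : ValuationSubring ↥(modularFunctionFieldFullC K (M' * q)),
          s34i47_IsHoriz π O → s34i47_Through B n O →
          lpt3_f3 (pc39_tau σ (M' * q)) m f G / c ^ m ∈ O ∧
            c ^ m / lpt3_f3 (pc39_tau σ (M' * q)) m f G ∈ O := by
    intro n hn hπn h1 h2
    obtain ⟨c, hc⟩ := hLP n hn hπn
    have hτn : ∀ d : B, d ∉ n → (⟨pc39_tau σ (M' * q) d, hτB d d.2⟩ : B) ∉ n :=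
      fn93c_fix M' q hq hM' R K π hπ hunit hqR σ hσ h hh B hB hτB n hn.isPrime h1 h2
    obtain ⟨hc3, hc3W, hc3W', -, -, ⟨s, hs, hsε⟩, ⟨s', hs', hsε'⟩, -⟩ :=
      lpt3_node_shape (K := K) π hπ m (s34i47c_W (K := K) M' q hq hM' hπ) B hBW hsatW
        (pc39_tau σ (M' * q)) (pc39_tau_R M' q σ hσ') hτB hG1 n hτn (hKr n hn hπn) f c G hf hc
        hG0 hGW hGW'
    obtain ⟨hc3₁, hc3₂⟩ := (s34i47c_mem_W M' q hq hM' hπ _).mp hc3W
    obtain ⟨hc3₁', hc3₂'⟩ := (s34i47c_mem_W M' q hq hM' hπ _).mp hc3W'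
    refine ⟨lpt3_c3 (pc39_tau σ (M' * q)) c G, hc3, hc3₁, hc3₁', hc3₂, hc3₂', ?_⟩
    intro O hO hthr
    have hs0 : (s : ↥(modularFunctionFieldFullC K (M' * q))) ≠ 0 := sf79_ne_zero B n s hs
    have hs0' : (s' : ↥(modularFunctionFieldFullC K (M' * q))) ≠ 0 := sf79_ne_zero B n s' hs'
    constructor
    · have e : lpt3_f3 (pc39_tau σ (M' * q)) m f G / lpt3_c3 (pc39_tau σ (M' * q)) c G ^ m =
          (s : ↥(modularFunctionFieldFullC K (M' * q)))⁻¹ *
            ((s : ↥(modularFunctionFieldFullC K (M' * q))) *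
              (lpt3_f3 (pc39_tau σ (M' * q)) m f G /
                lpt3_c3 (pc39_tau σ (M' * q)) c G ^ m)) := by
        rw [← mul_assoc, inv_mul_cancel₀ hs0, one_mul]
      rw [e]
      exact O.mul_mem _ _ (hthr.2 s hs) (hthr.1 _ hsε)
    · have e : lpt3_c3 (pc39_tau σ (M' * q)) c G ^ m / lpt3_f3 (pc39_tau σ (M' * q)) m f G =
          (s' : ↥(modularFunctionFieldFullC K (M' * q)))⁻¹ *
            ((s' : ↥(modularFunctionFieldFullC K (M' * q))) *
              (lpt3_f3 (pc39_tau σ (M' * q)) m f G /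
                lpt3_c3 (pc39_tau σ (M' * q)) c G ^ m)⁻¹) := by
        rw [← mul_assoc, inv_mul_cancel₀ hs0', one_mul, inv_div]
      rw [e]
      exact O.mul_mem _ _ (hthr.2 s' hs') (hthr.1 _ hsε')
  exact ni93_hNode M' q hq hM' R K π hπ hunit hqR σ hσ h hh B hB m hm
    (lpt3_f3 (pc39_tau σ (M' * q)) m f G) hf3 C₁ C₂ hC₁ hC₂ hc₁ hc₂ hRoot

/-- **P-CORE** (literal `s35i62_Pkg_Core` of `Iface62`) via chain A. -/
theorem pn93_pkg_core : s35i62_Pkg_Core :=
  ntc35_pkg_core_of_node pn93_nodeDatum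

end Fermat.Agent.S35
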