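import Fermat.Agent.S35.Iface62
import Fermat.Agent.S35.JacFormInst36

/-!
# S35 lab (helper36), row 551 (LJ): the interface package `s35i62_Pkg_Pic`, literally

`lj36_pkg_pic : s35i62_Pkg_Pic` : the function-field form `s35i62_FFA M' q (p ^ n)` for all `n`
gives the class form `s35i62_AStar M' q p` on `J₀(M' q)`.

Thin adapter over `lj36_jac_x` (JacFormInst36): `s35i62_FFA` is `lj36_FFx` for every Frobenius
lift (`lj36_FFx_of_FFA`: the Kummer operator `s35i62_op` written with the powers `σ^2, σ^4, σ^6`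
of the arithmetic Galois action), and the nested relation
`σ⁶x - (2+q²) σ⁴x + (1+2q²) σ²x - q² x = 0` is the relation of `s35i62_AStar`.
Independent of the twin `jf17_pkg_pic` (helper17).
-/

set_option autoImplicit false
set_option linter.style.haveILetI false

open AlgebraicCurve ModularCurve

namespace Fermat.Agent.S35

local notation "Q̄" => AlgebraicClosure ℚ
local notation "GQ" => AlgebraicClosure ℚ ≃ₐ[ℚ] AlgebraicClosure ℚ

/-- The arithmetic Galois action of `σ ^ k` is the `k`-fold iterate of `arithmeticRingAut σ`. -/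
theorem lj36_arith_two (N : ℕ) (σ : GQ) (f : ↥(modularFunctionFieldBar N)) :
    arithmeticGalois (modularFunctionFieldFull N) (σ ^ 2) • f =
      arithmeticRingAut (modularFunctionFieldFull N) σ
        (arithmeticRingAut (modularFunctionFieldFull N) σ f) := by
  rw [pow_succ, pow_one, map_mul, mul_smul]
  rfl

theorem lj36_arith_four (N : ℕ) (σ : GQ) (f : ↥(modularFunctionFieldBar N)) :
    arithmeticGalois (modularFunctionFieldFull N) (σ ^ 4) • f =
      arithmeticRingAut (modularFunctionFieldFull N) σ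
        (arithmeticRingAut (modularFunctionFieldFull N) σ
          (arithmeticRingAut (modularFunctionFieldFull N) σ
            (arithmeticRingAut (modularFunctionFieldFull N) σ f))) := by
  rw [show σ ^ 4 = σ ^ 2 * σ ^ 2 by rw [← pow_add], map_mul, mul_smul, lj36_arith_two,
    lj36_arith_two]

theorem lj36_arith_six (N : ℕ) (σ : GQ) (f : ↥(modularFunctionFieldBar N)) :
    arithmeticGalois (modularFunctionFieldFull N) (σ ^ 6) • f =
      arithmeticRingAut (modularFunctionFieldFull N) σ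
        (arithmeticRingAut (modularFunctionFieldFull N) σ
          (arithmeticRingAut (modularFunctionFieldFull N) σ
            (arithmeticRingAut (modularFunctionFieldFull N) σ
              (arithmeticRingAut (modularFunctionFieldFull N) σ
                (arithmeticRingAut (modularFunctionFieldFull N) σ f))))) := by
  rw [show σ ^ 6 = σ ^ 2 * σ ^ 4 by rw [← pow_add], map_mul, mul_smul, lj36_arith_two,
    lj36_arith_four]

/-- `s35i62_FFA` gives `lj36_FFx` for every Frobenius lift. -/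
theorem lj36_FFx_of_FFA (M' q m : ℕ) [NeZero M'] [NeZero q] (h : s35i62_FFA M' q m)
    (A : ValuationSubring Q̄) (hA : A.LiesOverPrime q) (σ : GQ) (hσ : A.IsFrobeniusAt σ q) :
    lj36_FFx M' q m σ := by
  intro f hf0 hord ha hb
  obtain ⟨a, -, ha⟩ := ha
  obtain ⟨b, -, hb⟩ := hb
  obtain ⟨g, hg⟩ := h A hA σ hσ f hf0 hord ⟨a, ha⟩ ⟨b, hb⟩
  refine ⟨g, ?_⟩
  rw [hg, lj36_arith_two, lj36_arith_four, lj36_arith_six]
  unfold s35i62_op
  rw [show 2 * q ^ 2 + 1 = 1 + 2 * q ^ 2 from Nat.add_comm _ _,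
    show q ^ 2 + 2 = 2 + q ^ 2 from Nat.add_comm _ _]

/-- **P-PIC, literally.** -/
theorem lj36_pkg_pic : s35i62_Pkg_Pic := by
  intro M' q p _ _ hq hqM' hp hpq hFFA n A hA σ hσ x hx hnew
  obtain ⟨hα, hβ, D, rfl, h₁, h₂⟩ := hnew
  have hm0 : p ^ n ≠ 0 := pow_ne_zero n hp.ne_zero
  have key := lj36_jac_x M' q (p ^ n) hm0 σ (lj36_FFx_of_FFA M' q (p ^ n) (hFFA n) A hA σ hσ)
    D hx h₁ h₂
  have e2 : (σ ^ 2) • (Pic0.mk D : JZero (M' * q)) = σ • σ • (Pic0.mk D : JZero (M' * q)) := by
    simp only [pow_succ, pow_zero, one_mul, mul_smul]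
  have e4 : (σ ^ 4) • (Pic0.mk D : JZero (M' * q))
      = σ • σ • σ • σ • (Pic0.mk D : JZero (M' * q)) := by
    simp only [pow_succ, pow_zero, one_mul, mul_smul]
  have e6 : (σ ^ 6) • (Pic0.mk D : JZero (M' * q))
      = σ • σ • σ • σ • σ • σ • (Pic0.mk D : JZero (M' * q)) := by
    simp only [pow_succ, pow_zero, one_mul, mul_smul]
  rw [e2, e4, e6]
  generalize σ • σ • σ • σ • σ • σ • (Pic0.mk D : JZero (M' * q)) = x6 at key ⊢
  generalize σ • σ • σ • σ • (Pic0.mk D : JZero (M' * q)) = x4 at key ⊢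
  generalize σ • σ • (Pic0.mk D : JZero (M' * q)) = x2 at key ⊢
  generalize (Pic0.mk D : JZero (M' * q)) = x0 at key ⊢
  have h1 : (2 * q ^ 2 + 1) • x2 = (1 + 2 * (q : ℤ) ^ 2) • x2 := by
    rw [← natCast_zsmul]; push_cast; congr 1; ring
  have h2 : (q ^ 2 + 2) • x4 = (2 + (q : ℤ) ^ 2) • x4 := by
    rw [← natCast_zsmul]; push_cast; congr 1; ring
  have h3 : (q ^ 2) • x0 = ((q : ℤ) ^ 2) • x0 := by
    rw [← natCast_zsmul]; push_cast; rfl
  rw [h1, h2, h3]
  have h4 : x6 + (1 + 2 * (q : ℤ) ^ 2) • x2 - ((2 + (q : ℤ) ^ 2) • x4 + ((q : ℤ) ^ 2) • x0) = 0 := by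
    rw [← key]; abel
  exact sub_eq_zero.mp h4

end Fermat.Agent.S35
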