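import Fermat.Agent.S42.ThetaClosedZ31

/-!
# S35 lab, package (2a), part alpha (helper22): the Kummer root of a pushed-forward class

Levels `N q → N` (`q` prime, `q ∤ N`), `α = heckeAlphaBar` the inclusion `F(N) → F(N q)`.

* `cor22 Γ K` : the transfer `Hom(K, A) → Hom(Γ, A)` for subgroups `K`, `Γ` of a group `S` with
  `Γ ⧸ (K ∩ Γ)` finite, written with the cocycle `ct77_h` of the section `Quotient.out`
  (the shape of `hc45_heckeHom_cd`);
* `cor22_char` : if `h` has character `ζ ^ χ` under `K`, then `∏ c, c.out • h` has character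
  `ζ ^ (cor22 χ)` under `Γ`;
* `pa22_push_alpha` : if `h ^ m = ev_{N q} f` and `h` has character `ζ_m ^ χ` under `Γ₀(N q)`, then
  `H := ∏ c, c.out • h` is nonzero, has character `ζ_m ^ (cor χ)` under `Γ₀(N)` and
  `H ^ m = ev_N (Nm_α f)`;
* `pa22_norm_alpha_pow` : if moreover `cor χ = 0`, then `Nm_α f = a * g ^ m`.
-/

set_option autoImplicit false
set_option linter.unusedSectionVars false
set_option linter.unusedVariables false
set_option linter.style.longLine false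
set_option linter.style.haveILetI false

open CongruenceSubgroup ModularCurve ModularCurve.Period AlgebraicCurve UpperHalfPlane
open scoped MatrixGroups

namespace Fermat.Agent.S35

open Fermat.Agent.S16 Fermat.Agent.S24 Fermat.Agent.S42 Fermat.Agent.S41 Fermat.Agent.S37

local notation "Qb" => AlgebraicClosure ℚ

section cor22_abstract

variable {S : Type*} [Group S] (Γ K : Subgroup S) {A : Type*} [AddCommGroup A]

/-- The element `h(g, c) ∈ K` of the transfer cocycle. -/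
noncomputable def cor22_elt (g : Γ) (c : Γ ⧸ K.subgroupOf Γ) : K :=
  ⟨((ct77_h (K.subgroupOf Γ) g c : Γ) : S),
    Subgroup.mem_subgroupOf.mp (ct77_h_mem (K.subgroupOf Γ) g c)⟩

theorem cor22_elt_coe (g : Γ) (c : Γ ⧸ K.subgroupOf Γ) :
    ((cor22_elt Γ K g c : K) : S) = ((ct77_h (K.subgroupOf Γ) g c : Γ) : S) := rfl

theorem cor22_elt_mul (g g' : Γ) (c : Γ ⧸ K.subgroupOf Γ) :
    cor22_elt Γ K (g * g') c = cor22_elt Γ K g (g' • c) * cor22_elt Γ K g' c := by
  apply Subtype.ext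
  rw [Subgroup.coe_mul, cor22_elt_coe, cor22_elt_coe, cor22_elt_coe, ct77_h_mul, Subgroup.coe_mul]

/-- `g * s(c) = s(g • c) * h(g, c)`. -/
theorem cor22_elt_spec (g : Γ) (c : Γ ⧸ K.subgroupOf Γ) :
    (g : S) * ((c.out : Γ) : S) = (((g • c).out : Γ) : S) * ((cor22_elt Γ K g c : K) : S) := by
  rw [cor22_elt_coe, ← Subgroup.coe_mul, ← Subgroup.coe_mul]
  congr 1
  simp [ct77_h, mul_assoc]

/-- The transfer of `χ : K → A` to `Γ`, as a function. -/
noncomputable def cor22_fun (χ : Additive K →+ A) (g : Γ) : A :=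
  ∑ᶠ c : Γ ⧸ K.subgroupOf Γ, χ (Additive.ofMul (cor22_elt Γ K g c))

theorem cor22_fun_eq_sum [Fintype (Γ ⧸ K.subgroupOf Γ)] (χ : Additive K →+ A) (g : Γ) :
    cor22_fun Γ K χ g = ∑ c : Γ ⧸ K.subgroupOf Γ, χ (Additive.ofMul (cor22_elt Γ K g c)) :=
  finsum_eq_sum_of_fintype _

theorem cor22_fun_mul [Finite (Γ ⧸ K.subgroupOf Γ)] (χ : Additive K →+ A) (g g' : Γ) :
    cor22_fun Γ K χ (g * g') = cor22_fun Γ K χ g + cor22_fun Γ K χ g' := by
  classical
  letI : Fintype (Γ ⧸ K.subgroupOf Γ) := Fintype.ofFinite _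
  rw [cor22_fun_eq_sum, cor22_fun_eq_sum, cor22_fun_eq_sum]
  have h1 : ∀ c : Γ ⧸ K.subgroupOf Γ,
      χ (Additive.ofMul (cor22_elt Γ K (g * g') c))
        = χ (Additive.ofMul (cor22_elt Γ K g (g' • c)))
          + χ (Additive.ofMul (cor22_elt Γ K g' c)) := by
    intro c
    rw [cor22_elt_mul, ofMul_mul, map_add]
  rw [Finset.sum_congr rfl fun c _ => h1 c, Finset.sum_add_distrib]
  congr 1
  exact Equiv.sum_comp (MulAction.toPerm g')
    (fun c => χ (Additive.ofMul (cor22_elt Γ K g c)))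

/-- **The transfer** `Hom(K, A) → Hom(Γ, A)`. -/
noncomputable def cor22 [Finite (Γ ⧸ K.subgroupOf Γ)] :
    (Additive K →+ A) →+ (Additive Γ →+ A) where
  toFun χ := AddMonoidHom.mk' (fun g => cor22_fun Γ K χ g.toMul)
    (fun g g' => cor22_fun_mul Γ K χ g.toMul g'.toMul)
  map_zero' := by
    refine DFunLike.ext _ _ fun g => ?_
    show cor22_fun Γ K (0 : Additive K →+ A) g.toMul = 0
    unfold cor22_fun
    simp
  map_add' χ χ' := by
    classical
    letI : Fintype (Γ ⧸ K.subgroupOf Γ) := Fintype.ofFinite _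
    refine DFunLike.ext _ _ fun g => ?_
    show cor22_fun Γ K (χ + χ') g.toMul = cor22_fun Γ K χ g.toMul + cor22_fun Γ K χ' g.toMul
    rw [cor22_fun_eq_sum, cor22_fun_eq_sum, cor22_fun_eq_sum, ← Finset.sum_add_distrib]
    rfl

theorem cor22_apply [Finite (Γ ⧸ K.subgroupOf Γ)] (χ : Additive K →+ A) (g : Γ) :
    cor22 Γ K χ (Additive.ofMul g) = cor22_fun Γ K χ g := rfl

theorem cor22_prod_zpow {MM : Type*} [Field MM] {ζ : MM} (hζ0 : ζ ≠ 0) {ι : Type*}
    (s : Finset ι) (n : ι → ℤ) : ∏ i ∈ s, ζ ^ n i = ζ ^ ∑ i ∈ s, n i := by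
  classical
  induction s using Finset.induction_on with
  | empty => simp
  | insert a s ha ih => rw [Finset.prod_insert ha, Finset.sum_insert ha, ih, zpow_add₀ hζ0]

/-- **The character of the transferred root.**  If `k • h = ζ ^ χ(k) * h` for `k ∈ K`, then
`H := ∏ c : Γ ⧸ K, c.out • h` satisfies `γ • H = ζ ^ (cor χ)(γ) * H` for `γ ∈ Γ`. -/
theorem cor22_char {MM : Type*} [Field MM] [MulSemiringAction S MM]
    [Fintype (Γ ⧸ K.subgroupOf Γ)] (ζ : MM) (hζ0 : ζ ≠ 0) (hζfix : ∀ g : S, g • ζ = ζ)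
    (χ : Additive K →+ ℤ) (h : MM)
    (hchar : ∀ k : K, (k : S) • h = ζ ^ (χ (Additive.ofMul k)) * h) (γ : Γ) :
    (γ : S) • (∏ c : Γ ⧸ K.subgroupOf Γ, ((c.out : Γ) : S) • h)
      = ζ ^ (cor22_fun Γ K χ γ) * ∏ c : Γ ⧸ K.subgroupOf Γ, ((c.out : Γ) : S) • h := by
  classical
  have key := hc45_char_fam (fun c : Γ ⧸ K.subgroupOf Γ => ((c.out : Γ) : S)) h
    (fun c => ζ ^ (χ (Additive.ofMul (cor22_elt Γ K γ c)))) (γ : S) (MulAction.toPerm γ)
    (fun c => ((cor22_elt Γ K γ c : K) : S))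
    (fun c => by rw [MulAction.toPerm_apply]; exact cor22_elt_spec Γ K γ c)
    (fun c => hchar (cor22_elt Γ K γ c))
    (fun g c => by
      have h1 := map_zpow₀ (MulSemiringAction.toRingHom S MM g) ζ
        (χ (Additive.ofMul (cor22_elt Γ K γ c)))
      rw [MulSemiringAction.toRingHom_apply, MulSemiringAction.toRingHom_apply, hζfix] at h1
      exact h1)
  rw [key, cor22_fun_eq_sum]
  congr 1
  exact cor22_prod_zpow hζ0 _ _

end cor22_abstract

section pa22_modular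

variable (φ : Qb →+* ℂ) (N q : ℕ) [NeZero N] [NeZero q]

theorem pa22_zeta_ne_zero (m : ℕ) : th70_zeta m ≠ 0 := by
  unfold th70_zeta
  simpa using Complex.exp_ne_zero _

/-- **The root of the norm along `α` and its character.** -/
theorem pa22_push_alpha (hq : q.Prime) (hqN : ¬ q ∣ N) (m : ℕ)
    (χ : Additive (Gamma0 (N * q)) →+ ℤ) (h : mer95_MER) (f : ↥(modularFunctionFieldBar (N * q)))
    (h0 : h ≠ 0) (hchar : thz31_IsCharZ (th70_zeta m) χ h)
    (hpow : h ^ m = ff79_ev0 φ (N * q) f) :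
    ∃ H : mer95_MER, H ≠ 0 ∧
      thz31_IsCharZ (th70_zeta m) (cor22 (Gamma0 N) (Gamma0 (N * q)) χ) H ∧
      H ^ m = ff79_ev0 φ N (ht45_normAlong (heckeAlphaBar Qb N q) f) := by
  classical
  letI : Fintype (↥(Gamma0 N) ⧸ (Gamma0 (N * q)).subgroupOf (Gamma0 N)) := Fintype.ofFinite _
  have hnorm := nm49_hecke_hnorm N q hq hqN (Gamma0 N).subtype
    (ff79_ev0 φ N) (ff79_ev0 φ (N * q)) (ff79_ev0_alpha φ N q)
    (fun γ x => ff79_ev0_fix φ N γ x)
    (fun γ hγ => hk10_stab φ (N * q) (γ : SL(2, ℤ)) hγ) f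
  refine ⟨∏ c : ↥(Gamma0 N) ⧸ (Gamma0 (N * q)).subgroupOf (Gamma0 N),
    ((c.out : Gamma0 N) : SL(2, ℤ)) • h, ht45_prod_ne_zero _ h0, ?_, ?_⟩
  · intro γ
    exact cor22_char (Gamma0 N) (Gamma0 (N * q)) (th70_zeta m) (pa22_zeta_ne_zero m)
      (fun g => mer95_smul_C_SL g _) χ h (fun k => hchar k) γ
  · rw [hnorm, ← Finset.prod_pow]
    refine Finset.prod_congr rfl fun c _ => ?_
    rw [← smul_pow', hpow]
    rfl

/-- If the transfer of `χ` vanishes, the norm along `α` of a Kummer function of `χ` is a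
constant times an `m`-th power. -/
theorem pa22_norm_alpha_pow (hq : q.Prime) (hqN : ¬ q ∣ N) (m : ℕ) (hm : 0 < m)
    (χ : Additive (Gamma0 (N * q)) →+ ℤ) (h : mer95_MER) (f : ↥(modularFunctionFieldBar (N * q)))
    (h0 : h ≠ 0) (hchar : thz31_IsCharZ (th70_zeta m) χ h)
    (hpow : h ^ m = ff79_ev0 φ (N * q) f)
    (hcor : cor22 (Gamma0 N) (Gamma0 (N * q)) χ = 0) :
    ∃ (g : ↥(modularFunctionFieldBar N)) (a : Qb),
      ht45_normAlong (heckeAlphaBar Qb N q) f
        = algebraMap Qb ↥(modularFunctionFieldBar N) a * g ^ m := by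
  obtain ⟨H, H0, Hchar, Hpow⟩ := pa22_push_alpha φ N q hq hqN m χ h f h0 hchar hpow
  refine gi41_hK2 φ N hm H H0 (fun γ => ?_) _ Hpow
  have h1 := Hchar γ
  rw [hcor] at h1
  simpa using h1

end pa22_modular

end Fermat.Agent.S35
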