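import Fermat.Agent.S35.PushAlpha22
import Fermat.Agent.S37.AtkinLehner47

/-!
# S35 lab, package (2a), part beta (helper53): the Kummer root of a class pushed forward along `β`

Levels `N q → N` (`q` prime, `q ∤ N`), `β = heckeBetaBar` (`q ↦ q^q`, i.e. `τ ↦ q τ`).
Route "B-AL": everything is reduced to helper22's `pa22_push_alpha` (the `α`-case) through the
Atkin–Lehner involution, so that NO stabiliser of non-integral translates is needed.

* `pb53_W D` : the Atkin–Lehner matrix `W = [[q x, y], [N q z, q t]]` (`tr43_Data`) in `GL(2, ℝ)⁺`;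
* `pb53_ev_w` : `ev_{N q} (w y) = W⁻¹ • ev_{N q} y` for every `ℚ̄`-automorphism `w` of `F(N q)`
  exchanging `α` and `β` (`al47_exists`);
* `pb53_norm_beta` : `Nm_β y = Nm_α (w y)`;
* `pb53_kappa D` : conjugation by `W` as an endomorphism of `Γ₀(N q)`, `W k = κ(k) W`;
* `pb53_corB D` : the transfer for `β`, `χ ↦ cor22 (χ ∘ κ)`;
* `pb53_push_beta` : if `h ^ m = ev_{N q} f` and `h` has character `ζ_m ^ χ` under `Γ₀(N q)`, there
  is `H ≠ 0` with character `ζ_m ^ (corB χ)` under `Γ₀(N)` and `H ^ m = ev_N (Nm_β f)`;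
* `pb53_norm_beta_pow` : if moreover `corB χ = 0`, then `Nm_β f = a * g ^ m`.

The twins of `te22_adm_alpha`, `te22_kummer_alpha` (one Kummer presentation serving `α` and `β`)
and the parabolicity of the transfers are in `PushBetaAdm53`.
-/

set_option autoImplicit false
set_option linter.unusedSectionVars false
set_option linter.unusedVariables false
set_option linter.style.longLine false
set_option linter.style.haveILetI false

open CongruenceSubgroup ModularCurve ModularCurve.Period AlgebraicCurve UpperHalfPlane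
open scoped MatrixGroups

namespace Fermat.Agent.S35

open Fermat.Agent.S16 Fermat.Agent.S24 Fermat.Agent.S42 Fermat.Agent.S41 Fermat.Agent.S37

local notation "Qb" => AlgebraicClosure ℚ

/-! ### Elements of `GL(2, ℝ)⁺` with the same action on the upper half plane -/

theorem pb53_inv_smul_O {g g' : GL(2, ℝ)⁺} (h : ∀ τ : ℍ, g • τ = g' • τ) (f : mer95_O) :
    g⁻¹ • f = g'⁻¹ • f := by
  apply Subtype.ext
  funext τ
  rw [mer95_smul_apply, mer95_smul_apply, inv_inv, inv_inv, h τ]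

theorem pb53_inv_smul {g g' : GL(2, ℝ)⁺} (h : ∀ τ : ℍ, g • τ = g' • τ) (x : mer95_MER) :
    g⁻¹ • x = g'⁻¹ • x := by
  obtain ⟨a, b, hb, hx⟩ := mer95_exists_rep x
  have hB : algebraMap mer95_O mer95_MER b ≠ 0 := mer95_algebraMap_ne_zero hb
  have hx' : x = algebraMap mer95_O mer95_MER a / algebraMap mer95_O mer95_MER b := by
    rw [eq_div_iff hB]
    exact hx
  have h1 : ∀ k : GL(2, ℝ)⁺, k • x
      = algebraMap mer95_O mer95_MER (k • a) / algebraMap mer95_O mer95_MER (k • b) := by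
    intro k
    rw [hx', ← mer95_smul_algebraMap, ← mer95_smul_algebraMap]
    exact map_div₀ (MulSemiringAction.toRingHom GL(2, ℝ)⁺ mer95_MER k) _ _
  rw [h1, h1, pb53_inv_smul_O h a, pb53_inv_smul_O h b]

/-- Scalar integer matrices act trivially on the upper half plane. -/
theorem pb53_gl_smul_tau (c : ℤ) (hc : c ≠ 0) (A : Matrix (Fin 2) (Fin 2) ℤ) (hA : 0 < A.det)
    (hcA : 0 < (c • A).det) (τ : ℍ) : mer95_gl (c • A) hcA • τ = mer95_gl A hA • τ := by
  apply UpperHalfPlane.ext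
  rw [mer95_gl_smul_coe, mer95_gl_smul_coe]
  simp only [Matrix.smul_apply, smul_eq_mul]
  push_cast
  have hc' : (c : ℂ) ≠ 0 := by exact_mod_cast hc
  rw [show (c : ℂ) * (A 0 0 : ℂ) * (τ : ℂ) + (c : ℂ) * (A 0 1 : ℂ)
      = (c : ℂ) * ((A 0 0 : ℂ) * (τ : ℂ) + (A 0 1 : ℂ)) by ring,
    show (c : ℂ) * (A 1 0 : ℂ) * (τ : ℂ) + (c : ℂ) * (A 1 1 : ℂ)
      = (c : ℂ) * ((A 1 0 : ℂ) * (τ : ℂ) + (A 1 1 : ℂ)) by ring,
    mul_div_mul_left _ _ hc']

/-! ### The Atkin–Lehner matrix in `GL(2, ℝ)⁺` -/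

section pb53_W

variable {N q : ℕ} [NeZero N] [NeZero q] (D : tr43_Data N q)

theorem pb53_w_det_pos : 0 < D.w.det := by
  rw [D.w_det]
  exact_mod_cast Nat.pos_of_ne_zero (NeZero.ne q)

/-- The Atkin–Lehner matrix as an element of `GL(2, ℝ)⁺`. -/
noncomputable def pb53_W : GL(2, ℝ)⁺ := mer95_gl D.w (pb53_w_det_pos D)

theorem pb53_W_eq : pb53_W D = mer95_slToGL (D.gam' : SL(2, ℤ)) * ff79_diag q := by
  have h1 : D.w = ((D.gam' : SL(2, ℤ)) : Matrix (Fin 2) (Fin 2) ℤ) * !![(q : ℤ), 0; 0, 1] :=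
    D.w_eq
  unfold pb53_W ff79_diag
  rw [hc45_slToGL_eq, hc45_gl_mul _ _ _ _ (by rw [← h1]; exact pb53_w_det_pos D)]
  exact hc45_gl_congr h1 _ _

/-- `g₁ = [[q x, y], [N z, t]] ∈ Γ₀(N)`, with `diag(q, 1) W = q g₁`. -/
def pb53_g1 : Gamma0 N :=
  lbMk N ((q : ℤ) * D.x) D.y ((N : ℤ) * D.z) D.t (by linear_combination D.det)
    (dvd_mul_right _ _)

theorem pb53_diag_mul_w :
    (!![(q : ℤ), 0; 0, 1] : Matrix (Fin 2) (Fin 2) ℤ) * D.w
      = (q : ℤ) • ((pb53_g1 D : SL(2, ℤ)) : Matrix (Fin 2) (Fin 2) ℤ) := by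
  rw [tr43_Data.w, pb53_g1, lbMk_coe, tr43_smul_of, tr43_mul_of]
  exact lb_mk_eq (by ring) (by ring) (by ring) (by ring)

theorem pb53_diagW_smul (τ : ℍ) :
    (ff79_diag q * pb53_W D) • τ = mer95_slToGL (pb53_g1 D : SL(2, ℤ)) • τ := by
  have hq0 : (q : ℤ) ≠ 0 := by exact_mod_cast NeZero.ne q
  have hdet1 : 0 < (((pb53_g1 D : SL(2, ℤ)) : Matrix (Fin 2) (Fin 2) ℤ)).det := by
    rw [Matrix.SpecialLinearGroup.det_coe]; exact one_pos
  have hdet2 : 0 < ((q : ℤ) • ((pb53_g1 D : SL(2, ℤ)) : Matrix (Fin 2) (Fin 2) ℤ)).det := by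
    rw [← pb53_diag_mul_w, Matrix.det_mul]
    refine mul_pos ?_ (pb53_w_det_pos D)
    rw [Matrix.det_fin_two_of]
    have : (0 : ℤ) < q := by exact_mod_cast Nat.pos_of_ne_zero (NeZero.ne q)
    simpa using this
  have h1 : ff79_diag q * pb53_W D
      = mer95_gl ((q : ℤ) • ((pb53_g1 D : SL(2, ℤ)) : Matrix (Fin 2) (Fin 2) ℤ)) hdet2 := by
    unfold pb53_W ff79_diag
    rw [hc45_gl_mul _ _ _ _ (by rw [pb53_diag_mul_w]; exact hdet2)]
    exact hc45_gl_congr (pb53_diag_mul_w D) _ _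
  rw [h1, pb53_gl_smul_tau (q : ℤ) hq0 _ hdet1 hdet2 τ, hc45_slToGL_eq]

end pb53_W

/-! ### The Atkin–Lehner involution under the analytic embedding -/

section pb53_ev

variable (φ : Qb →+* ℂ) {N q : ℕ} [NeZero N] [NeZero q] (D : tr43_Data N q)

theorem pb53_Winv_alpha (u : ↥(modularFunctionFieldBar N)) :
    (pb53_W D)⁻¹ • ff79_ev0 φ N u = (ff79_diag q)⁻¹ • ff79_ev0 φ N u := by
  rw [pb53_W_eq, mul_inv_rev, mul_smul]
  congr 1
  have h := ff79_ev0_smul φ N (((D.gam'⁻¹ : Gamma0 N)) : SL(2, ℤ)) (D.gam'⁻¹).2 u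
  rw [mer95_SL_smul_eq] at h
  rw [← map_inv]
  exact h

theorem pb53_Winv_beta (u : ↥(modularFunctionFieldBar N)) :
    (pb53_W D)⁻¹ • ((ff79_diag q)⁻¹ • ff79_ev0 φ N u) = ff79_ev0 φ N u := by
  rw [← mul_smul, ← mul_inv_rev, pb53_inv_smul (pb53_diagW_smul D)]
  have h := ff79_ev0_smul φ N ((((pb53_g1 D)⁻¹ : Gamma0 N)) : SL(2, ℤ)) ((pb53_g1 D)⁻¹).2 u
  rw [mer95_SL_smul_eq] at h
  rw [← map_inv]
  exact h

/-- A divisor of `N q` (`q` prime) divides `N` or is `d' q` with `d' ∣ N`. -/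
theorem pb53_divisor_cases (hq : q.Prime) {d : ℕ} (hd : d ∣ N * q) :
    d ∣ N ∨ ∃ d' : ℕ, d' ∣ N ∧ d = d' * q := by
  by_cases h : q ∣ d
  · obtain ⟨d', rfl⟩ := h
    right
    refine ⟨d', ?_, mul_comm _ _⟩
    have h1 : q * d' ∣ q * N := by rwa [mul_comm q N]
    exact (Nat.mul_dvd_mul_iff_left hq.pos).mp h1
  · left
    have hc : Nat.Coprime d q := ((Nat.Prime.coprime_iff_not_dvd hq).mpr h).symm
    exact hc.dvd_of_dvd_mul_right hd

/-- **The Atkin–Lehner involution is `τ ↦ W τ`**: for a `ℚ̄`-automorphism `w` of `F(N q)`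
exchanging `α` and `β`, `ev (w y) = W⁻¹ • ev y`. -/
theorem pb53_ev_w (hq : q.Prime)
    (w : ↥(modularFunctionFieldBar (N * q)) ≃ₐ[Qb] ↥(modularFunctionFieldBar (N * q)))
    (hα : ∀ x, w (heckeAlphaBar Qb N q x) = heckeBetaBar Qb N q x)
    (hβ : ∀ x, w (heckeBetaBar Qb N q x) = heckeAlphaBar Qb N q x)
    (y : ↥(modularFunctionFieldBar (N * q))) :
    ff79_ev0 φ (N * q) (w y) = (pb53_W D)⁻¹ • ff79_ev0 φ (N * q) y := by
  have hA : ∀ u : ↥(modularFunctionFieldBar N),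
      ff79_ev0 φ (N * q) (w (heckeAlphaBar Qb N q u))
        = (pb53_W D)⁻¹ • ff79_ev0 φ (N * q) (heckeAlphaBar Qb N q u) := by
    intro u
    rw [hα, ff79_ev0_beta, ff79_ev0_alpha, pb53_Winv_alpha]
  have hB : ∀ u : ↥(modularFunctionFieldBar N),
      ff79_ev0 φ (N * q) (w (heckeBetaBar Qb N q u))
        = (pb53_W D)⁻¹ • ff79_ev0 φ (N * q) (heckeBetaBar Qb N q u) := by
    intro u
    rw [hβ, ff79_ev0_beta, ff79_ev0_alpha, pb53_Winv_beta]
  have key : (ff79_ev0 φ (N * q)).comp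
        (w : ↥(modularFunctionFieldBar (N * q)) →+* ↥(modularFunctionFieldBar (N * q)))
      = (MulSemiringAction.toRingHom GL(2, ℝ)⁺ mer95_MER (pb53_W D)⁻¹).comp
          (ff79_ev0 φ (N * q)) := by
    refine ff79_ringHom_ext (L := Qb) (N := N * q) _ _ ?_ ?_
    · intro c
      show ff79_ev0 φ (N * q) (w (algebraMap Qb ↥(modularFunctionFieldBar (N * q)) c))
        = (pb53_W D)⁻¹ • ff79_ev0 φ (N * q) (algebraMap Qb ↥(modularFunctionFieldBar (N * q)) c)
      rw [AlgEquiv.commutes, ff79_ev0_C, mer95_smul_C]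
    · intro d
      show ff79_ev0 φ (N * q) (w ⟨ff79_JJ Qb d.1, _⟩)
        = (pb53_W D)⁻¹ • ff79_ev0 φ (N * q) ⟨ff79_JJ Qb d.1, _⟩
      rcases pb53_divisor_cases hq (Nat.dvd_of_mem_divisors d.2) with hd | ⟨d', hd', hdd⟩
      · have e : (⟨ff79_JJ Qb d.1, ff79_JJ_mem Qb (N * q) d.1 (Nat.dvd_of_mem_divisors d.2)⟩ :
            ↥(modularFunctionFieldBar (N * q)))
            = heckeAlphaBar Qb N q ⟨ff79_JJ Qb d.1, ff79_JJ_mem Qb N d.1 hd⟩ := by
          apply Subtype.ext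
          rw [coe_heckeAlphaBar]
        rw [e]
        exact hA _
      · have hd'0 : d' ≠ 0 := fun h0 => NeZero.ne N (by simpa [h0] using hd')
        have e : (⟨ff79_JJ Qb d.1, ff79_JJ_mem Qb (N * q) d.1 (Nat.dvd_of_mem_divisors d.2)⟩ :
            ↥(modularFunctionFieldBar (N * q)))
            = heckeBetaBar Qb N q ⟨ff79_JJ Qb d', ff79_JJ_mem Qb N d' hd'⟩ := by
          apply Subtype.ext
          rw [coe_heckeBetaBar]
          show ff79_JJ Qb d.1 = _
          rw [hdd, mul_comm d' q]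
          exact (ff79_qExpand_JJ Qb q d' hd'0).symm
        rw [e]
        exact hB _
  exact congrArg (fun k : ↥(modularFunctionFieldBar (N * q)) →+* mer95_MER => k y) key

/-- **The norm along `β` is the norm along `α` after the Atkin–Lehner involution.** -/
theorem pb53_norm_beta
    (w : ↥(modularFunctionFieldBar (N * q)) ≃ₐ[Qb] ↥(modularFunctionFieldBar (N * q)))
    (hβ : ∀ x, w (heckeBetaBar Qb N q x) = heckeAlphaBar Qb N q x)
    (y : ↥(modularFunctionFieldBar (N * q))) :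
    ht45_normAlong (heckeBetaBar Qb N q) y = ht45_normAlong (heckeAlphaBar Qb N q) (w y) := by
  let e := @AlgEquiv.ofRingEquiv ↥(modularFunctionFieldBar N) ↥(modularFunctionFieldBar (N * q))
    ↥(modularFunctionFieldBar (N * q)) _ _ _
    (algebraAlong (heckeBetaBar Qb N q))
    (algebraAlong (heckeAlphaBar Qb N q)) w.toRingEquiv (fun c => hβ c)
  exact (@Algebra.norm_eq_of_algEquiv _ _ _ _ _ (algebraAlong (heckeBetaBar Qb N q))
    _ (algebraAlong (heckeAlphaBar Qb N q)) e y).symm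

end pb53_ev

/-! ### Conjugation by the Atkin–Lehner matrix on `Γ₀(N q)` -/

section pb53_kappa

variable {N q : ℕ} [NeZero N] [NeZero q] (D : tr43_Data N q)

theorem pb53_w_cancel {A B : Matrix (Fin 2) (Fin 2) ℤ} (h : A * D.w = B * D.w) : A = B := by
  have hq0 : (q : ℤ) ≠ 0 := by exact_mod_cast NeZero.ne q
  have h1 : A * D.w * D.inv.w = B * D.w * D.inv.w := by rw [h]
  rw [mul_assoc, mul_assoc, D.w_mul_inv, Matrix.mul_smul, Matrix.mul_smul, mul_one, mul_one]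
    at h1
  ext i j
  have h2 := congrFun (congrFun h1 i) j
  rw [Matrix.smul_apply, Matrix.smul_apply, smul_eq_mul, smul_eq_mul] at h2
  exact mul_left_cancel₀ hq0 h2

/-- `κ(k)` with `W k = κ(k) W`. -/
noncomputable def pb53_kappaFun (k : Gamma0 (N * q)) : Gamma0 (N * q) :=
  (D.w_mul_Gamma0 k).choose

theorem pb53_kappaFun_spec (k : Gamma0 (N * q)) :
    D.w * ((k : SL(2, ℤ)) : Matrix (Fin 2) (Fin 2) ℤ)
      = ((pb53_kappaFun D k : SL(2, ℤ)) : Matrix (Fin 2) (Fin 2) ℤ) * D.w :=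
  (D.w_mul_Gamma0 k).choose_spec

theorem pb53_kappaFun_unique (k k' : Gamma0 (N * q))
    (h : D.w * ((k : SL(2, ℤ)) : Matrix (Fin 2) (Fin 2) ℤ)
      = ((k' : SL(2, ℤ)) : Matrix (Fin 2) (Fin 2) ℤ) * D.w) : pb53_kappaFun D k = k' := by
  apply Subtype.ext
  apply Subtype.ext
  exact pb53_w_cancel D ((pb53_kappaFun_spec D k).symm.trans h)

/-- **Conjugation by the Atkin–Lehner matrix** as an endomorphism of `Γ₀(N q)`. -/
noncomputable def pb53_kappa : Gamma0 (N * q) →* Gamma0 (N * q) where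
  toFun := pb53_kappaFun D
  map_one' := by
    apply pb53_kappaFun_unique
    rw [Subgroup.coe_one, Matrix.SpecialLinearGroup.coe_one, mul_one, one_mul]
  map_mul' a b := by
    apply pb53_kappaFun_unique
    rw [Subgroup.coe_mul, Matrix.SpecialLinearGroup.coe_mul, Subgroup.coe_mul,
      Matrix.SpecialLinearGroup.coe_mul, ← mul_assoc, pb53_kappaFun_spec D a, mul_assoc,
      pb53_kappaFun_spec D b, mul_assoc]

theorem pb53_kappa_spec (k : Gamma0 (N * q)) :
    D.w * ((k : SL(2, ℤ)) : Matrix (Fin 2) (Fin 2) ℤ)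
      = ((pb53_kappa D k : SL(2, ℤ)) : Matrix (Fin 2) (Fin 2) ℤ) * D.w :=
  pb53_kappaFun_spec D k

theorem pb53_kappa_gl (k : Gamma0 (N * q)) :
    mer95_slToGL (k : SL(2, ℤ)) * (pb53_W D)⁻¹
      = (pb53_W D)⁻¹ * mer95_slToGL (pb53_kappa D k : SL(2, ℤ)) := by
  have h1 : pb53_W D * mer95_slToGL (k : SL(2, ℤ))
      = mer95_slToGL (pb53_kappa D k : SL(2, ℤ)) * pb53_W D := by
    rw [hc45_slToGL_eq, hc45_slToGL_eq]
    exact hc45_gl_mul_eq (pb53_kappa_spec D k) _ _ _ _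
  rw [mul_inv_eq_iff_eq_mul, mul_assoc, ← h1, ← mul_assoc, inv_mul_cancel, one_mul]

/-- **The transfer for `β`**: `χ ↦ cor (χ ∘ κ)`, `κ` = conjugation by the Atkin–Lehner matrix. -/
noncomputable def pb53_corB {A : Type*} [AddCommGroup A] :
    (Additive (Gamma0 (N * q)) →+ A) →+ (Additive (Gamma0 N) →+ A) :=
  (cor22 (Gamma0 N) (Gamma0 (N * q))).comp
    (AddMonoidHom.compHom' (MonoidHom.toAdditive (pb53_kappa D)))

theorem pb53_corB_apply {A : Type*} [AddCommGroup A] (χ : Additive (Gamma0 (N * q)) →+ A) :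
    pb53_corB D χ
      = cor22 (Gamma0 N) (Gamma0 (N * q)) (χ.comp (MonoidHom.toAdditive (pb53_kappa D))) := rfl

/-- The character of the Atkin–Lehner translate of a root. -/
theorem pb53_char (m : ℕ) (χ : Additive (Gamma0 (N * q)) →+ ℤ) (h : mer95_MER)
    (hchar : thz31_IsCharZ (th70_zeta m) χ h) :
    thz31_IsCharZ (th70_zeta m) (χ.comp (MonoidHom.toAdditive (pb53_kappa D)))
      ((pb53_W D)⁻¹ • h) := by
  intro k
  have h1 : (k : SL(2, ℤ)) • ((pb53_W D)⁻¹ • h)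
      = (pb53_W D)⁻¹ • ((pb53_kappa D k : SL(2, ℤ)) • h) := by
    rw [mer95_SL_smul_eq, mer95_SL_smul_eq, ← mul_smul, ← mul_smul, pb53_kappa_gl]
  have h2 : (pb53_kappa D k : SL(2, ℤ)) • h
      = th70_zeta m ^ (χ (Additive.ofMul (pb53_kappa D k))) * h := hchar (pb53_kappa D k)
  have h3 : (pb53_W D)⁻¹ • (th70_zeta m ^ (χ (Additive.ofMul (pb53_kappa D k))))
      = th70_zeta m ^ (χ (Additive.ofMul (pb53_kappa D k))) := by
    have h4 := map_zpow₀ (MulSemiringAction.toRingHom GL(2, ℝ)⁺ mer95_MER (pb53_W D)⁻¹)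
      (th70_zeta m) (χ (Additive.ofMul (pb53_kappa D k)))
    rw [MulSemiringAction.toRingHom_apply, MulSemiringAction.toRingHom_apply] at h4
    rw [h4]
    congr 1
    exact mer95_smul_C _ _
  show (k : SL(2, ℤ)) • ((pb53_W D)⁻¹ • h) = _
  rw [h1, h2, smul_mul', h3]
  rfl

end pb53_kappa

/-! ### The root of the norm along `β` -/

section pb53_modular

variable (φ : Qb →+* ℂ) (N q : ℕ) [NeZero N] [NeZero q] (D : tr43_Data N q)

/-- **The root of the norm along `β` and its character.** -/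
theorem pb53_push_beta (hq : q.Prime) (hqN : ¬ q ∣ N) (m : ℕ)
    (χ : Additive (Gamma0 (N * q)) →+ ℤ) (h : mer95_MER) (f : ↥(modularFunctionFieldBar (N * q)))
    (h0 : h ≠ 0) (hchar : thz31_IsCharZ (th70_zeta m) χ h)
    (hpow : h ^ m = ff79_ev0 φ (N * q) f) :
    ∃ H : mer95_MER, H ≠ 0 ∧
      thz31_IsCharZ (th70_zeta m) (pb53_corB D χ) H ∧
      H ^ m = ff79_ev0 φ N (ht45_normAlong (heckeBetaBar Qb N q) f) := by
  have hcop : Nat.Coprime q N := (Nat.Prime.coprime_iff_not_dvd hq).mpr hqN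
  obtain ⟨w, hα, hβ, -⟩ := al47_exists N q hcop
  have hpow' : ((pb53_W D)⁻¹ • h) ^ m = ff79_ev0 φ (N * q) (w f) := by
    rw [← smul_pow', hpow, pb53_ev_w φ D hq w hα hβ f]
  obtain ⟨H, H0, Hchar, Hpow⟩ := pa22_push_alpha φ N q hq hqN m
    (χ.comp (MonoidHom.toAdditive (pb53_kappa D))) ((pb53_W D)⁻¹ • h) (w f)
    ((smul_ne_zero_iff_ne _).mpr h0) (pb53_char D m χ h hchar) hpow'
  refine ⟨H, H0, Hchar, ?_⟩
  rw [Hpow, pb53_norm_beta w hβ f]

/-- If the `β`-transfer of `χ` vanishes, the norm along `β` of a Kummer function of `χ` is a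
constant times an `m`-th power. -/
theorem pb53_norm_beta_pow (hq : q.Prime) (hqN : ¬ q ∣ N) (m : ℕ) (hm : 0 < m)
    (χ : Additive (Gamma0 (N * q)) →+ ℤ) (h : mer95_MER) (f : ↥(modularFunctionFieldBar (N * q)))
    (h0 : h ≠ 0) (hchar : thz31_IsCharZ (th70_zeta m) χ h)
    (hpow : h ^ m = ff79_ev0 φ (N * q) f)
    (hcor : pb53_corB D χ = 0) :
    ∃ (g : ↥(modularFunctionFieldBar N)) (a : Qb),
      ht45_normAlong (heckeBetaBar Qb N q) f
        = algebraMap Qb ↥(modularFunctionFieldBar N) a * g ^ m := by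
  obtain ⟨H, H0, Hchar, Hpow⟩ := pb53_push_beta φ N q D hq hqN m χ h f h0 hchar hpow
  refine gi41_hK2 φ N hm H H0 (fun γ => ?_) _ Hpow
  have h1 := Hchar γ
  rw [hcor] at h1
  simpa using h1

end pb53_modular

end Fermat.Agent.S35
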