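import Fermat.Agent.S35.PushBeta53
import Fermat.Agent.S35.ThetaAlphaPush22

/-!
# S35 lab, row N2a-beta (helper53): `β_* ∘ Θ_n = Θ'_n ∘ cor_β`, full form

Literal twins, for `β = heckeBetaBar`, of helper22's `te22_adm_alpha`, `taf22_compat_alpha`,
`taf22_corPar`, `taf22_compat_alpha_push`, in the vocabulary of `PushBeta53`
(`pb53_corB D χ = cor22 (χ ∘ κ)`, `κ` = conjugation by the Atkin–Lehner matrix of `D`).

* `pb53_corB_isParabolicHom`, `pb53_corB_mem_parabolicHoms` : `cor_β` preserves parabolic homs;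
* `pb53_corBPar D : Hom_par(Γ₀(N q), ℤ) →+ Hom_par(Γ₀(N), ℤ)` (`pb53_corBPar_coe`);
* `pb53_adm_beta` : an admissible pair `(h, f)` of `χ` at level `N q` gives the admissible pair
  `(H, Nm_β f)` of `cor_β χ` at level `N`, and `m • β_* D = div (Nm_β f)`;
* `pb53_compat_beta` (divisor form), `pb53_compat_beta_push` (`π (Θ n c) = Θ' n (corBPar c)` for
  every additive `π` inducing the pushforward along `β` on classes: the shape `h2a` of
  `ht69_cores_hecke_two`);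
* `pb53_compat_alpha_beta` : ONE divisor `D` with `Θ n χ = [D]`, `Θ' n (cor_α χ) = [α_* D]` and
  `Θ' n (cor_β χ) = [β_* D]`;
* `pb53_kummer_alpha_beta` : ONE Kummer presentation `Θ n χ = [D]`, `p ^ n • D = div f` with
  `Nm_α f`, `Nm_β f` constants times `p ^ n`-th powers as soon as the transfers of `χ` vanish.
-/

set_option autoImplicit false
set_option linter.unusedSectionVars false
set_option linter.unusedVariables false
set_option linter.style.longLine false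
set_option linter.style.haveILetI false

open CongruenceSubgroup ModularCurve ModularCurve.Period AlgebraicCurve UpperHalfPlane
open scoped MatrixGroups

namespace Fermat.Agent.S35

open Fermat.Agent.S16 Fermat.Agent.S24 Fermat.Agent.S42 Fermat.Agent.S41 Fermat.Agent.S37

local notation "Qb" => AlgebraicClosure ℚ

section pb53_par

variable {N q : ℕ} [NeZero N] [NeZero q] (D : tr43_Data N q)

/-- Conjugation by the Atkin–Lehner matrix preserves traces. -/
theorem pb53_kappa_trace (k : Gamma0 (N * q)) :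
    (((pb53_kappa D k : Gamma0 (N * q)) : SL(2, ℤ)) : Matrix (Fin 2) (Fin 2) ℤ).trace
      = ((k : SL(2, ℤ)) : Matrix (Fin 2) (Fin 2) ℤ).trace :=
  hpg88_trace_eq_of_mul_eq (pb53_w_det_pos D).ne' (pb53_kappa_spec D k)

theorem pb53_comp_kappa_isParabolicHom {A : Type*} [AddCommGroup A]
    (χ : Additive (Gamma0 (N * q)) →+ A) (hχ : IsParabolicHom (Gamma0 (N * q)) χ) :
    IsParabolicHom (Gamma0 (N * q)) (χ.comp (MonoidHom.toAdditive (pb53_kappa D))) := by
  intro γ hγ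
  show χ (Additive.ofMul (pb53_kappa D γ)) = 0
  apply hχ
  rw [pb53_kappa_trace]
  exact hγ

/-- **The transfer for `β` preserves parabolic homomorphisms.** -/
theorem pb53_corB_isParabolicHom {A : Type*} [AddCommGroup A]
    (χ : Additive (Gamma0 (N * q)) →+ A) (hχ : IsParabolicHom (Gamma0 (N * q)) χ) :
    IsParabolicHom (Gamma0 N) (pb53_corB D χ) :=
  cor22_isParabolicHom (Gamma0 N) (Gamma0 (N * q)) _ (pb53_comp_kappa_isParabolicHom D χ hχ)

theorem pb53_corB_mem_parabolicHoms (R : Type*) [Semiring R] {A : Type*} [AddCommGroup A]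
    [Module R A] {χ : Additive (Gamma0 (N * q)) →+ A}
    (hχ : χ ∈ parabolicHoms R (Gamma0 (N * q)) A) :
    pb53_corB D χ ∈ parabolicHoms R (Gamma0 N) A :=
  mem_parabolicHoms_iff.mpr (pb53_corB_isParabolicHom D χ (mem_parabolicHoms_iff.mp hχ))

/-- The transfer for `β` on the lattices of integral parabolic homs. -/
noncomputable def pb53_corBPar :
    ↥(parabolicHoms ℤ (Gamma0 (N * q)) ℤ) →+ ↥(parabolicHoms ℤ (Gamma0 N) ℤ) :=
  ((pb53_corB D (A := ℤ)).comp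
    (parabolicHoms ℤ (Gamma0 (N * q)) ℤ).subtype.toAddMonoidHom).codRestrict
    (parabolicHoms ℤ (Gamma0 N) ℤ)
    (fun c => pb53_corB_mem_parabolicHoms D ℤ c.2)

theorem pb53_corBPar_coe (c : ↥(parabolicHoms ℤ (Gamma0 (N * q)) ℤ)) :
    ((pb53_corBPar D c : ↥(parabolicHoms ℤ (Gamma0 N) ℤ)) : Additive (Gamma0 N) →+ ℤ)
      = pb53_corB D (c : Additive (Gamma0 (N * q)) →+ ℤ) := rfl

end pb53_par

section pb53_full

variable (N q : ℕ) [NeZero N] [NeZero q] (D : tr43_Data N q)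

/-- **Pushforward of an admissible pair along `β`.**  If `(h, f)` is admissible for `χ` at level
`N q`, modulus `m`, then `(H, Nm_β f)` is admissible for `cor_β χ` at level `N`, for a suitable
`H`; and `m • β_* E = div (Nm_β f)` whenever `m • E = div f`. -/
theorem pb53_adm_beta (hq : q.Prime) (hqN : ¬ q ∣ N) (m : ℕ) (hm : m ≠ 0)
    (χ : Additive (Gamma0 (N * q)) →+ ℤ) (h : mer95_MER) (f : ↥(modularFunctionFieldBar (N * q)))
    (H : thz31_AdmZ Qb (ff79_ev0 phi (N * q)) m (th70_zeta m) χ h f) :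
    (∃ H' : mer95_MER, thz31_AdmZ Qb (ff79_ev0 phi N) m (th70_zeta m)
      (pb53_corB D χ) H' (ht45_normAlong (heckeBetaBar Qb N q) f)) ∧
    ∀ E : Divisor Qb ↥(modularFunctionFieldBar (N * q)), th70_IsDivOf m f E →
      th70_IsDivOf m (ht45_normAlong (heckeBetaBar Qb N q) f)
        (Divisor.pushforwardAlong (heckeBetaBar Qb N q) (hx63_heckeBetaBarIntegral N q) E) := by
  obtain ⟨h0, f0, hchar, hpow, hdvd⟩ := H
  haveI := hi63_hasPrincipalDivisors_bar (N * q)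
  have hβ := hx63_heckeBetaBarIntegral N q
  obtain ⟨-, hfin, hNF⟩ := hx63_inputs_gen (φ := heckeBetaBar Qb N q) hβ
  have hdiv : ∀ E : Divisor Qb ↥(modularFunctionFieldBar (N * q)), th70_IsDivOf m f E →
      th70_IsDivOf m (ht45_normAlong (heckeBetaBar Qb N q) f)
        (Divisor.pushforwardAlong (heckeBetaBar Qb N q) hβ E) := fun E hE v =>
    hd63_pushforwardAlong_div (heckeBetaBar Qb N q) hβ hfin hNF E (m : ℤ) f f0 hE v
  refine ⟨?_, hdiv⟩
  obtain ⟨H', H'0, H'char, H'pow⟩ := pb53_push_beta phi N q D hq hqN m χ h f h0 hchar hpow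
  obtain ⟨E, hE, -⟩ := th70_exists_div (K := Qb) hm f0 hdvd
  exact ⟨H', H'0, ht45_normAlong_ne_zero _ hfin f0, H'char, H'pow,
    fun v => ⟨_, (hdiv E hE v).symm⟩⟩

/-- **`α_*`, `β_*` and `Θ`, divisor form, with ONE divisor.**  For families `Θ` (level `N q`),
`Θ'` (level `N`) with the existence / evaluation clauses of `te22_family`: every `Θ n χ` is the
class of a degree-zero divisor `E` such that `Θ' n (cor_α χ)` is the class of `α_* E` and
`Θ' n (cor_β χ)` is the class of `β_* E`. -/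
theorem pb53_compat_alpha_beta (hq : q.Prime) (hqN : ¬ q ∣ N) (p : ℕ) (hp : p ≠ 0)
    (Θ : ℕ → (↥(parabolicHoms ℤ (Gamma0 (N * q)) ℤ) →+ JZero (N * q)))
    (hex : ∀ (n : ℕ) (χ : ↥(parabolicHoms ℤ (Gamma0 (N * q)) ℤ)),
      ∃ (h : mer95_MER) (f : ↥(modularFunctionFieldBar (N * q))),
        thz31_AdmZ Qb (ff79_ev0 phi (N * q)) (p ^ n) (th70_zeta (p ^ n))
          (χ : Additive (Gamma0 (N * q)) →+ ℤ) h f)
    (heval : ∀ (n : ℕ) (χ : ↥(parabolicHoms ℤ (Gamma0 (N * q)) ℤ)) (h : mer95_MER)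
      (f : ↥(modularFunctionFieldBar (N * q))),
      thz31_AdmZ Qb (ff79_ev0 phi (N * q)) (p ^ n) (th70_zeta (p ^ n))
        (χ : Additive (Gamma0 (N * q)) →+ ℤ) h f →
      ∀ E : Divisor.degZero (K := Qb) (F := ↥(modularFunctionFieldBar (N * q))),
        th70_IsDivOf (p ^ n) f (E : Divisor Qb ↥(modularFunctionFieldBar (N * q))) →
          Θ n χ = Pic0.mk E)
    (Θ' : ℕ → (↥(parabolicHoms ℤ (Gamma0 N) ℤ) →+ JZero N))
    (heval' : ∀ (n : ℕ) (χ : ↥(parabolicHoms ℤ (Gamma0 N) ℤ)) (h : mer95_MER)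
      (f : ↥(modularFunctionFieldBar N)),
      thz31_AdmZ Qb (ff79_ev0 phi N) (p ^ n) (th70_zeta (p ^ n))
        (χ : Additive (Gamma0 N) →+ ℤ) h f →
      ∀ E : Divisor.degZero (K := Qb) (F := ↥(modularFunctionFieldBar N)),
        th70_IsDivOf (p ^ n) f (E : Divisor Qb ↥(modularFunctionFieldBar N)) →
          Θ' n χ = Pic0.mk E)
    (n : ℕ) (χ : ↥(parabolicHoms ℤ (Gamma0 (N * q)) ℤ)) :
    ∃ E : Divisor.degZero (K := Qb) (F := ↥(modularFunctionFieldBar (N * q))),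
      Θ n χ = Pic0.mk E ∧
      Θ' n (taf22_corPar N q χ)
        = Pic0.mk ⟨Divisor.pushforwardAlong (heckeAlphaBar Qb N q)
            (hx63_heckeAlphaBarIntegral N q)
            (E : Divisor Qb ↥(modularFunctionFieldBar (N * q))),
          Divisor.pushforwardAlong_mem_degZero _ _ E.2⟩ ∧
      Θ' n (pb53_corBPar D χ)
        = Pic0.mk ⟨Divisor.pushforwardAlong (heckeBetaBar Qb N q)
            (hx63_heckeBetaBarIntegral N q)
            (E : Divisor Qb ↥(modularFunctionFieldBar (N * q))),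
          Divisor.pushforwardAlong_mem_degZero _ _ E.2⟩ := by
  haveI := hi63_hasPrincipalDivisors_bar (N * q)
  have hm : p ^ n ≠ 0 := pow_ne_zero n hp
  obtain ⟨h, f, H⟩ := hex n χ
  obtain ⟨h0, f0, hchar, hpow, hdvd⟩ := id H
  obtain ⟨E, hE, hdeg⟩ := th70_exists_div (K := Qb) hm f0 hdvd
  obtain ⟨⟨Ha, hadmA⟩, hdivA⟩ := te22_adm_alpha N q hq hqN (p ^ n) hm
    (χ : Additive (Gamma0 (N * q)) →+ ℤ) h f H
  obtain ⟨⟨Hb, hadmB⟩, hdivB⟩ := pb53_adm_beta N q D hq hqN (p ^ n) hm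
    (χ : Additive (Gamma0 (N * q)) →+ ℤ) h f H
  refine ⟨⟨E, Divisor.mem_degZero.mpr hdeg⟩, heval n χ h f H _ hE, ?_, ?_⟩
  · exact heval' n (taf22_corPar N q χ) Ha _ hadmA
      ⟨_, Divisor.pushforwardAlong_mem_degZero _ _ (Divisor.mem_degZero.mpr hdeg)⟩ (hdivA E hE)
  · exact heval' n (pb53_corBPar D χ) Hb _ hadmB
      ⟨_, Divisor.pushforwardAlong_mem_degZero _ _ (Divisor.mem_degZero.mpr hdeg)⟩ (hdivB E hE)

/-- **`β_* ∘ Θ_n = Θ'_n ∘ cor_β`, divisor form.** -/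
theorem pb53_compat_beta (hq : q.Prime) (hqN : ¬ q ∣ N) (p : ℕ) (hp : p ≠ 0)
    (Θ : ℕ → (↥(parabolicHoms ℤ (Gamma0 (N * q)) ℤ) →+ JZero (N * q)))
    (hex : ∀ (n : ℕ) (χ : ↥(parabolicHoms ℤ (Gamma0 (N * q)) ℤ)),
      ∃ (h : mer95_MER) (f : ↥(modularFunctionFieldBar (N * q))),
        thz31_AdmZ Qb (ff79_ev0 phi (N * q)) (p ^ n) (th70_zeta (p ^ n))
          (χ : Additive (Gamma0 (N * q)) →+ ℤ) h f)
    (heval : ∀ (n : ℕ) (χ : ↥(parabolicHoms ℤ (Gamma0 (N * q)) ℤ)) (h : mer95_MER)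
      (f : ↥(modularFunctionFieldBar (N * q))),
      thz31_AdmZ Qb (ff79_ev0 phi (N * q)) (p ^ n) (th70_zeta (p ^ n))
        (χ : Additive (Gamma0 (N * q)) →+ ℤ) h f →
      ∀ E : Divisor.degZero (K := Qb) (F := ↥(modularFunctionFieldBar (N * q))),
        th70_IsDivOf (p ^ n) f (E : Divisor Qb ↥(modularFunctionFieldBar (N * q))) →
          Θ n χ = Pic0.mk E)
    (Θ' : ℕ → (↥(parabolicHoms ℤ (Gamma0 N) ℤ) →+ JZero N))
    (heval' : ∀ (n : ℕ) (χ : ↥(parabolicHoms ℤ (Gamma0 N) ℤ)) (h : mer95_MER)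
      (f : ↥(modularFunctionFieldBar N)),
      thz31_AdmZ Qb (ff79_ev0 phi N) (p ^ n) (th70_zeta (p ^ n))
        (χ : Additive (Gamma0 N) →+ ℤ) h f →
      ∀ E : Divisor.degZero (K := Qb) (F := ↥(modularFunctionFieldBar N)),
        th70_IsDivOf (p ^ n) f (E : Divisor Qb ↥(modularFunctionFieldBar N)) →
          Θ' n χ = Pic0.mk E)
    (n : ℕ) (χ : ↥(parabolicHoms ℤ (Gamma0 (N * q)) ℤ)) :
    ∃ E : Divisor.degZero (K := Qb) (F := ↥(modularFunctionFieldBar (N * q))),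
      Θ n χ = Pic0.mk E ∧
      Θ' n (pb53_corBPar D χ)
        = Pic0.mk ⟨Divisor.pushforwardAlong (heckeBetaBar Qb N q)
            (hx63_heckeBetaBarIntegral N q)
            (E : Divisor Qb ↥(modularFunctionFieldBar (N * q))),
          Divisor.pushforwardAlong_mem_degZero _ _ E.2⟩ := by
  obtain ⟨E, hE, -, hE'⟩ :=
    pb53_compat_alpha_beta N q D hq hqN p hp Θ hex heval Θ' heval' n χ
  exact ⟨E, hE, hE'⟩

/-- **`π ∘ Θ_n = Θ'_n ∘ cor_β`** for every additive `π` inducing the pushforward along `β` on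
classes of degree-zero divisors (e.g. `pj40_betaPush`). -/
theorem pb53_compat_beta_push (hq : q.Prime) (hqN : ¬ q ∣ N) (p : ℕ) (hp : p ≠ 0)
    (Θ : ℕ → (↥(parabolicHoms ℤ (Gamma0 (N * q)) ℤ) →+ JZero (N * q)))
    (hex : ∀ (n : ℕ) (χ : ↥(parabolicHoms ℤ (Gamma0 (N * q)) ℤ)),
      ∃ (h : mer95_MER) (f : ↥(modularFunctionFieldBar (N * q))),
        thz31_AdmZ Qb (ff79_ev0 phi (N * q)) (p ^ n) (th70_zeta (p ^ n))
          (χ : Additive (Gamma0 (N * q)) →+ ℤ) h f)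
    (heval : ∀ (n : ℕ) (χ : ↥(parabolicHoms ℤ (Gamma0 (N * q)) ℤ)) (h : mer95_MER)
      (f : ↥(modularFunctionFieldBar (N * q))),
      thz31_AdmZ Qb (ff79_ev0 phi (N * q)) (p ^ n) (th70_zeta (p ^ n))
        (χ : Additive (Gamma0 (N * q)) →+ ℤ) h f →
      ∀ E : Divisor.degZero (K := Qb) (F := ↥(modularFunctionFieldBar (N * q))),
        th70_IsDivOf (p ^ n) f (E : Divisor Qb ↥(modularFunctionFieldBar (N * q))) →
          Θ n χ = Pic0.mk E)
    (Θ' : ℕ → (↥(parabolicHoms ℤ (Gamma0 N) ℤ) →+ JZero N))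
    (heval' : ∀ (n : ℕ) (χ : ↥(parabolicHoms ℤ (Gamma0 N) ℤ)) (h : mer95_MER)
      (f : ↥(modularFunctionFieldBar N)),
      thz31_AdmZ Qb (ff79_ev0 phi N) (p ^ n) (th70_zeta (p ^ n))
        (χ : Additive (Gamma0 N) →+ ℤ) h f →
      ∀ E : Divisor.degZero (K := Qb) (F := ↥(modularFunctionFieldBar N)),
        th70_IsDivOf (p ^ n) f (E : Divisor Qb ↥(modularFunctionFieldBar N)) →
          Θ' n χ = Pic0.mk E)
    (π : JZero (N * q) →+ JZero N)
    (hπ : ∀ E : Divisor.degZero (K := Qb) (F := ↥(modularFunctionFieldBar (N * q))),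
      π (Pic0.mk E) = Pic0.mk ⟨Divisor.pushforwardAlong (heckeBetaBar Qb N q)
        (hx63_heckeBetaBarIntegral N q) (E : Divisor Qb ↥(modularFunctionFieldBar (N * q))),
        Divisor.pushforwardAlong_mem_degZero _ _ E.2⟩)
    (n : ℕ) (c : ↥(parabolicHoms ℤ (Gamma0 (N * q)) ℤ)) :
    π (Θ n c) = Θ' n (pb53_corBPar D c) := by
  obtain ⟨E, hE, hE'⟩ := pb53_compat_beta N q D hq hqN p hp Θ hex heval Θ' heval' n c
  rw [hE, hπ E]
  exact hE'.symm

/-- **Kummer presentations along `α` and `β` simultaneously.**  Every `Θ n χ` has ONE Kummer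
presentation `Θ n χ = [E]`, `p ^ n • E = div f`, such that `Nm_α f` (resp. `Nm_β f`) is a
constant times a `p ^ n`-th power as soon as the transfer `cor22 χ` (resp. `pb53_corB D χ`)
vanishes. -/
theorem pb53_kummer_alpha_beta (hq : q.Prime) (hqN : ¬ q ∣ N) (p : ℕ) (hp : p ≠ 0)
    (Θ : ℕ → (↥(parabolicHoms ℤ (Gamma0 (N * q)) ℤ) →+ JZero (N * q)))
    (hex : ∀ (n : ℕ) (χ : ↥(parabolicHoms ℤ (Gamma0 (N * q)) ℤ)),
      ∃ (h : mer95_MER) (f : ↥(modularFunctionFieldBar (N * q))),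
        thz31_AdmZ Qb (ff79_ev0 phi (N * q)) (p ^ n) (th70_zeta (p ^ n))
          (χ : Additive (Gamma0 (N * q)) →+ ℤ) h f)
    (heval : ∀ (n : ℕ) (χ : ↥(parabolicHoms ℤ (Gamma0 (N * q)) ℤ)) (h : mer95_MER)
      (f : ↥(modularFunctionFieldBar (N * q))),
      thz31_AdmZ Qb (ff79_ev0 phi (N * q)) (p ^ n) (th70_zeta (p ^ n))
        (χ : Additive (Gamma0 (N * q)) →+ ℤ) h f →
      ∀ E : Divisor.degZero (K := Qb) (F := ↥(modularFunctionFieldBar (N * q))),
        th70_IsDivOf (p ^ n) f (E : Divisor Qb ↥(modularFunctionFieldBar (N * q))) →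
          Θ n χ = Pic0.mk E)
    (n : ℕ) (χ : ↥(parabolicHoms ℤ (Gamma0 (N * q)) ℤ)) :
    ∃ (E : Divisor.degZero (K := Qb) (F := ↥(modularFunctionFieldBar (N * q))))
      (f : ↥(modularFunctionFieldBar (N * q))), f ≠ 0 ∧ Θ n χ = Pic0.mk E ∧
      (∀ v, ((p ^ n : ℕ) : ℤ) * (E : Divisor Qb ↥(modularFunctionFieldBar (N * q))) v
        = v.ord f) ∧
      (cor22 (Gamma0 N) (Gamma0 (N * q)) (χ : Additive (Gamma0 (N * q)) →+ ℤ) = 0 →
        ∃ (g : ↥(modularFunctionFieldBar N)) (a : Qb),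
          ht45_normAlong (heckeAlphaBar Qb N q) f
            = algebraMap Qb ↥(modularFunctionFieldBar N) a * g ^ (p ^ n)) ∧
      (pb53_corB D (χ : Additive (Gamma0 (N * q)) →+ ℤ) = 0 →
        ∃ (g : ↥(modularFunctionFieldBar N)) (a : Qb),
          ht45_normAlong (heckeBetaBar Qb N q) f
            = algebraMap Qb ↥(modularFunctionFieldBar N) a * g ^ (p ^ n)) := by
  haveI := hi63_hasPrincipalDivisors_bar (N * q)
  have hm : p ^ n ≠ 0 := pow_ne_zero n hp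
  obtain ⟨h, f, H⟩ := hex n χ
  obtain ⟨h0, f0, hchar, hpow, hdvd⟩ := id H
  obtain ⟨E, hE, hdeg⟩ := th70_exists_div (K := Qb) hm f0 hdvd
  refine ⟨⟨E, Divisor.mem_degZero.mpr hdeg⟩, f, f0, heval n χ h f H _ hE, hE,
    fun hcor => ?_, fun hcor => ?_⟩
  · exact pa22_norm_alpha_pow phi N q hq hqN (p ^ n) (Nat.pos_of_ne_zero hm)
      (χ : Additive (Gamma0 (N * q)) →+ ℤ) h f h0 hchar hpow hcor
  · exact pb53_norm_beta_pow phi N q D hq hqN (p ^ n) (Nat.pos_of_ne_zero hm)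
      (χ : Additive (Gamma0 (N * q)) →+ ℤ) h f h0 hchar hpow hcor

end pb53_full

end Fermat.Agent.S35
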