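import Fermat.Agent.S35.PushJac40
import Fermat.Agent.S35.Iface62

/-!
# S35 lab, row N4 (helper40), bridge to the interface: `q`-newness in terms of `α_*`, `β_*`

* `pj40_isNew_iff` : `s35i62_IsNew M' q x ↔ pj40_alphaPush M' q x = 0 ∧ pj40_betaPush M' q x = 0`
  (the interface's "the push-forwards of a representing divisor are principal" is exactly
  "`α_* x = 0 = β_* x` in `J₀(M')`");
* `pj40_isNew_of`, `pj40_alphaPush_of_isNew`, `pj40_betaPush_of_isNew` : the two directions;
* `pj40_isNewAt_mul_iff` : the cast-free form `s35i62_IsNewAt (M' * q) q x` at a level which is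
  literally `M' * q` implies (and, for `q ≠ 0` cancellable, is implied by) the same condition;
* `pj40_isNew_smul` : `q`-newness is stable under the Galois action;
  `pj40_isNew_add`, `pj40_isNew_neg`, `pj40_isNew_zero`, `pj40_isNew_nsmul`, `pj40_isNew_zsmul` :
  the `q`-new classes form a subgroup.
-/

set_option autoImplicit false
set_option linter.style.haveILetI false
set_option linter.unusedSectionVars false

namespace Fermat.Agent.S35

open ModularCurve AlgebraicCurve Fermat.Agent.S37 Fermat.Agent.S42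

local notation "Qb" => AlgebraicClosure ℚ
local notation "GQ" => AlgebraicClosure ℚ ≃ₐ[ℚ] AlgebraicClosure ℚ

section pj40_new

variable (M' q : ℕ) [NeZero M'] [NeZero q]

/-- **`x` is `q`-new (interface form) iff `α_* x = 0 = β_* x`.** -/
theorem pj40_isNew_iff (x : JZero (M' * q)) :
    s35i62_IsNew M' q x ↔ pj40_alphaPush M' q x = 0 ∧ pj40_betaPush M' q x = 0 := by
  constructor
  · rintro ⟨hα, hβ, D, rfl, h1, h2⟩
    exact ⟨(pj40_alphaPush_mk_eq_zero_iff M' q hα D).mpr h1,
      (pj40_betaPush_mk_eq_zero_iff M' q hβ D).mpr h2⟩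
  · rintro ⟨h1, h2⟩
    obtain ⟨D, rfl⟩ := Pic0.mk_surjective x
    exact ⟨hx63_heckeAlphaBarIntegral M' q, hx63_heckeBetaBarIntegral M' q, D, rfl,
      (pj40_alphaPush_mk_eq_zero_iff M' q _ D).mp h1,
      (pj40_betaPush_mk_eq_zero_iff M' q _ D).mp h2⟩

theorem pj40_isNew_of {x : JZero (M' * q)} (h1 : pj40_alphaPush M' q x = 0)
    (h2 : pj40_betaPush M' q x = 0) : s35i62_IsNew M' q x :=
  (pj40_isNew_iff M' q x).mpr ⟨h1, h2⟩

theorem pj40_alphaPush_of_isNew {x : JZero (M' * q)} (h : s35i62_IsNew M' q x) :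
    pj40_alphaPush M' q x = 0 :=
  ((pj40_isNew_iff M' q x).mp h).1

theorem pj40_betaPush_of_isNew {x : JZero (M' * q)} (h : s35i62_IsNew M' q x) :
    pj40_betaPush M' q x = 0 :=
  ((pj40_isNew_iff M' q x).mp h).2

theorem pj40_isNew_zero : s35i62_IsNew M' q (0 : JZero (M' * q)) :=
  pj40_isNew_of M' q (map_zero _) (map_zero _)

theorem pj40_isNew_add {x y : JZero (M' * q)} (hx : s35i62_IsNew M' q x)
    (hy : s35i62_IsNew M' q y) : s35i62_IsNew M' q (x + y) := by
  rw [pj40_isNew_iff] at hx hy ⊢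
  rw [map_add, map_add, hx.1, hx.2, hy.1, hy.2, add_zero]
  exact ⟨rfl, rfl⟩

theorem pj40_isNew_neg {x : JZero (M' * q)} (hx : s35i62_IsNew M' q x) :
    s35i62_IsNew M' q (-x) := by
  rw [pj40_isNew_iff] at hx ⊢
  rw [map_neg, map_neg, hx.1, hx.2, neg_zero]
  exact ⟨rfl, rfl⟩

theorem pj40_isNew_sub {x y : JZero (M' * q)} (hx : s35i62_IsNew M' q x)
    (hy : s35i62_IsNew M' q y) : s35i62_IsNew M' q (x - y) := by
  rw [sub_eq_add_neg]
  exact pj40_isNew_add M' q hx (pj40_isNew_neg M' q hy)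

theorem pj40_isNew_nsmul (n : ℕ) {x : JZero (M' * q)} (hx : s35i62_IsNew M' q x) :
    s35i62_IsNew M' q (n • x) := by
  rw [pj40_isNew_iff] at hx ⊢
  rw [map_nsmul, map_nsmul, hx.1, hx.2, smul_zero]
  exact ⟨rfl, rfl⟩

theorem pj40_isNew_zsmul (n : ℤ) {x : JZero (M' * q)} (hx : s35i62_IsNew M' q x) :
    s35i62_IsNew M' q (n • x) := by
  rw [pj40_isNew_iff] at hx ⊢
  rw [map_zsmul, map_zsmul, hx.1, hx.2, smul_zero]
  exact ⟨rfl, rfl⟩

/-- **`q`-newness is stable under the Galois action.** -/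
theorem pj40_isNew_smul (σ : GQ) {x : JZero (M' * q)} (hx : s35i62_IsNew M' q x) :
    s35i62_IsNew M' q (σ • x) := by
  rw [pj40_isNew_iff] at hx ⊢
  rw [pj40_alphaPush_smul, pj40_betaPush_smul, hx.1, hx.2]
  exact ⟨smul_zero (A := JZero M') σ, smul_zero (A := JZero M') σ⟩

/-- The cast-free form at the level `M' * q` gives the plain form. -/
theorem pj40_isNew_of_isNewAt {x : JZero (M' * q)} (h : s35i62_IsNewAt (M' * q) q x) :
    s35i62_IsNew M' q x :=
  h M' rfl

/-- The cast-free form at the level `M' * q`, in terms of `α_*`, `β_*`. -/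
theorem pj40_push_of_isNewAt {x : JZero (M' * q)} (h : s35i62_IsNewAt (M' * q) q x) :
    pj40_alphaPush M' q x = 0 ∧ pj40_betaPush M' q x = 0 :=
  (pj40_isNew_iff M' q x).mp (pj40_isNew_of_isNewAt M' q h)

end pj40_new

/-- The plain form gives the cast-free form at the level `M' * q` (`q ≠ 0` is cancellable). -/
theorem pj40_isNewAt_of_isNew (M' q : ℕ) [NeZero M'] [NeZero q] {x : JZero (M' * q)}
    (h : s35i62_IsNew M' q x) : s35i62_IsNewAt (M' * q) q x := by
  intro M'' _ _ hM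
  have h1 : M' = M'' := Nat.eq_of_mul_eq_mul_right (Nat.pos_of_ne_zero (NeZero.ne q)) hM
  subst h1
  exact h

/-- `s35i62_IsNewAt` at a level `N = M' * q`, transported: for `x : JZero N` and `h : N = M' * q`,
`s35i62_IsNewAt N q x ↔ α_* (h ▸ x) = 0 ∧ β_* (h ▸ x) = 0`. -/
theorem pj40_isNewAt_iff (N M' q : ℕ) [NeZero M'] [NeZero q] (h : N = M' * q) (x : JZero N) :
    s35i62_IsNewAt N q x ↔
      pj40_alphaPush M' q (h ▸ x) = 0 ∧ pj40_betaPush M' q (h ▸ x) = 0 := by
  subst h
  constructor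
  · intro hx
    exact pj40_push_of_isNewAt M' q hx
  · intro hx
    exact pj40_isNewAt_of_isNew M' q ((pj40_isNew_iff M' q x).mpr hx)

end Fermat.Agent.S35
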