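import Mathlib
import Fermat.Agent.S34.Iface47
import Fermat.Agent.S34.UniqueZero43
import Fermat.Agent.S34.LocPrin9

/-!
# S35 lab (helper11): SEMI-LOCAL unique-zero property and (LP) at finitely many smooth points

Chain B of the S35 lab (the operator `TH`) needs a local equation of `f` which is good at the
three closed points `n`, `ŝ⁻² n`, `ŝ⁻¹ w n` simultaneously.  This file provides it, in the
vocabulary of `Iface47` (S34 lab), for ANY finite set `N` of smooth closed points of the special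
fibre of a chart `B` (`n B_n = (z, π)`, the alternative `z' = π` of `s34i47_LocStr`):

* `sl11_Smooth π B n` : `n` is maximal, contains `π`, and `n B_n = (z, π)` for some `z ∈ n`.
* `sl11_UZ` : every `K`-rational horizontal `O` through a point `n₀ ∈ N` has a uniformiser `p`
  (an element of `B`) which is a unit of EVERY other horizontal `O'` through ANY point of `N`.
  (`p = (z - a) b₁ + y₁` with `b₁ ∈ ⋂_{n' ≠ n₀} n' ∖ n₀` and `y₁ ∈ P n₀ ∖ ⋃_{n' ≠ n₀} n'`, `P` the
  centre of `O`: prime avoidance + the Nakayama step `uz43_nakayama`.)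
* `sl11_LP` : if all orders of `f` are divisible by `m`, all zeros and poles of `f` are
  `K`-rational and there are finitely many of them, then there is `c ≠ 0` with `f / c ^ m` a
  unit of every horizontal `O` through every point of `N`.
* `sl11_smooth_of_locStr` : the smooth alternative of `s34i47_LocStr` gives `sl11_Smooth`.

All names are prefixed `sl11_`.  Mathlib + Iface47 + UniqueZero43 + LocPrin9.
-/

set_option autoImplicit false

namespace Fermat.Agent.S35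

open Fermat.Agent.S34

/-- `n` is a smooth closed point of the special fibre of the chart `B`: `n` is maximal, contains
`π`, and `n B_n = (z, π)` for some `z ∈ n`. -/
def sl11_Smooth {R F : Type*} [CommRing R] [Field F] [Algebra R F] (π : R) (B : Subalgebra R F)
    (n : Ideal B) : Prop :=
  n.IsMaximal ∧ algebraMap R B π ∈ n ∧
    ∃ z : B, z ∈ n ∧ ∀ x ∈ n, ∃ s : B, s ∉ n ∧ ∃ a c : B, s * x = a * z + c * algebraMap R B π

/-- The smooth alternative of (LS) at `n` gives `sl11_Smooth`. -/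
theorem sl11_smooth_of_coords {R F : Type*} [CommRing R] [Field F] [Algebra R F] (π : R)
    (B : Subalgebra R F) (n : Ideal B) (hn : n.IsMaximal) (hπn : algebraMap R B π ∈ n)
    (z z' : B) (hz : z ∈ n)
    (hgen : ∀ x ∈ n, ∃ s : B, s ∉ n ∧ ∃ a b c : B,
      s * x = a * z + b * z' + c * algebraMap R B π)
    (hz' : z' = algebraMap R B π) : sl11_Smooth π B n := by
  refine ⟨hn, hπn, z, hz, ?_⟩
  intro x hx
  obtain ⟨s, hs, a, b, c, e⟩ := hgen x hx
  exact ⟨s, hs, a, b + c, by rw [e, hz']; ring⟩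

section UZ

variable {R K F : Type*} [CommRing R] [IsDomain R] [IsDiscreteValuationRing R] [Field K]
  [Field F] [Algebra R K] [IsFractionRing R K] [Algebra R F] [Algebra K F] [IsScalarTower R K F]

set_option maxHeartbeats 1000000 in
/-- **Semi-local unique-zero property**: a `K`-rational horizontal `O` through a point `n₀` of a
finite set `N` of smooth closed points has a uniformiser which is a unit of every other
horizontal `O'` through any point of `N`. -/
theorem sl11_UZ (π : R) (hπ : Irreducible π) (B : Subalgebra R F) [IsNoetherianRing B]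
    (hfrac : ∀ x : F, ∃ a ∈ B, ∃ b ∈ B, b ≠ 0 ∧ x * b = a)
    (N : Finset (Ideal B)) (hN : ∀ n ∈ N, sl11_Smooth π B n)
    (n₀ : Ideal B) (hn₀ : n₀ ∈ N) (O : ValuationSubring F) (hH : s34i47_IsHoriz π O)
    (hT : s34i47_Through B n₀ O) (hRat : s34i47_IsRat K O) :
    ∃ p : F, p ≠ 0 ∧ p ∈ O ∧ p⁻¹ ∉ O ∧ (∀ x ∈ O, x⁻¹ ∉ O → x * p⁻¹ ∈ O) ∧
      ∀ O' : ValuationSubring F, s34i47_IsHoriz π O' →
        (∃ n ∈ N, s34i47_Through B n O') → O' ≠ O → p ∈ O' ∧ p⁻¹ ∈ O' := by
  classical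
  obtain ⟨hOtop, hPIR, hRO, hπO⟩ := hH
  obtain ⟨hn, hπn, z, hz, hgen0⟩ := hN n₀ hn₀
  have hnp : n₀.IsPrime := hn.isPrime
  have hconst : ∀ r : R, r ≠ 0 → O.valuation (algebraMap R F r) = 1 :=
    fun r hr => uz43_val_const K π hπ O hRO hπO r hr
  have hπ1 : O.valuation (algebraMap R F π) = 1 := hconst π hπ.ne_zero
  have hval : ∀ x : B, ∃ r : R, O.valuation ((x : F) - algebraMap R F r) < 1 :=
    uz43_value K π hπ B n₀ hn hπn O hRO hT hRat
  -- constants which lie in `n₀` are multiples of `π`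
  have hconst_n : ∀ r : R, algebraMap R B r ∈ n₀ → π ∣ r := by
    intro r hr
    by_contra hnd
    have hru : IsUnit r := by
      by_contra hnu
      have h1 : r ∈ IsLocalRing.maximalIdeal R := (IsLocalRing.mem_maximalIdeal r).mpr hnu
      rw [hπ.maximalIdeal_eq, Ideal.mem_span_singleton] at h1
      exact hnd h1
    exact hn.ne_top (Ideal.eq_top_of_isUnit_mem _ hr (hru.map _))
  have hdvd : ∀ (x : B) (r : R), x ∈ n₀ → O.valuation ((x : F) - algebraMap R F r) < 1 →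
      π ∣ r := by
    intro x r hx hr
    have h1 : x - algebraMap R B r ∈ n₀ := uz43_mem_of_lt_one B n₀ O hT _ hr
    have h2 : algebraMap R B r ∈ n₀ := by
      have h3 := n₀.sub_mem hx h1
      rw [sub_sub_cancel] at h3
      exact h3
    exact hconst_n r h2
  have hone : (1 : B) ∉ n₀ := fun h => hn.ne_top ((Ideal.eq_top_iff_one _).mpr h)
  obtain ⟨a, ha⟩ := hval z
  obtain ⟨a₁, rfl⟩ := hdvd z a hz ha
  -- the generation clause in the three-term shape of `uz43_nakayama`, with `z' = π`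
  have hgen : ∀ x ∈ n₀, ∃ s : B, s ∉ n₀ ∧ ∃ a b c : B,
      s * x = a * z + b * algebraMap R B π + c * algebraMap R B π := by
    intro x hx
    obtain ⟨s, hs, a, c, e⟩ := hgen0 x hx
    exact ⟨s, hs, a, 0, c, by rw [e]; ring⟩
  have hp'0 : algebraMap R B π - algebraMap R B (π * 1) = 0 := by
    rw [mul_one, sub_self]
  have hb : O.valuation (((algebraMap R B π : B) : F) - algebraMap R F (π * 1)) < 1 := by
    have h1 : ((algebraMap R B π : B) : F) - algebraMap R F (π * 1) =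
        ((algebraMap R B π - algebraMap R B (π * 1) : B) : F) := rfl
    rw [h1, hp'0]
    simp
  obtain ⟨r₀, hr₀, hK⟩ :=
    uz43_nakayama π B n₀ hn hπn O hT hπ1 z (algebraMap R B π) hgen a₁ 1 ha hb
  obtain ⟨h1, -, h3, h4, h5⟩ := uz43_final B hfrac n₀ O hOtop hPIR hT hval hconst
    (z - algebraMap R B (π * a₁)) (algebraMap R B π - algebraMap R B (π * 1)) ha r₀ hr₀ hK
    1 one_ne_zero 1 0 hone (by rw [hp'0]; simp)
  set p : B := z - algebraMap R B (π * a₁) with hp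
  have hK' : ∀ x : B, O.valuation (x : F) < 1 → ∃ A : B, r₀ * x = A * p := by
    intro x hx
    obtain ⟨A, C, e⟩ := hK x hx
    exact ⟨A, by rw [e, hp'0]; ring⟩
  -- the centre of `O` on `B`
  set P : Ideal B := uz43_centre B O hT.1 with hP
  have hPmem : ∀ x : B, x ∈ P ↔ O.valuation (x : F) < 1 := fun x => Iff.rfl
  -- the other points
  set N' : Finset (Ideal B) := N.erase n₀ with hN'
  have hN'max : ∀ n' ∈ N', n'.IsMaximal := fun n' hn' =>
    (hN n' (Finset.mem_erase.mp hn').2).1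
  have hN'ne : ∀ n' ∈ N', n' ≠ n₀ := fun n' hn' => (Finset.mem_erase.mp hn').1
  have hn₀n' : ∀ n' ∈ N', ¬ n₀ ≤ n' := by
    intro n' hn' hle
    exact hN'ne n' hn' (hn.eq_of_le (hN'max n' hn').ne_top hle).symm
  have hPn' : ∀ n' ∈ N', ¬ P ≤ n' := by
    intro n' hn' hle
    apply hn₀n' n' hn'
    have hπn' : algebraMap R B π ∈ n' := (hN n' (Finset.mem_erase.mp hn').2).2.1
    intro x hx
    obtain ⟨r, hr⟩ := hval x
    obtain ⟨r', rfl⟩ := hdvd x r hx hr
    have h1 : x - algebraMap R B (π * r') ∈ n' := hle ((hPmem _).mpr hr)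
    have h2 : algebraMap R B (π * r') ∈ n' := by
      rw [map_mul]
      exact n'.mul_mem_right _ hπn'
    have h3 := n'.add_mem h1 h2
    rwa [sub_add_cancel] at h3
  -- `b₁ ∈ ⋂ n' ∖ n₀`
  obtain ⟨b₁, hb₁n₀, hb₁⟩ : ∃ b₁ : B, b₁ ∉ n₀ ∧ ∀ n' ∈ N', b₁ ∈ n' := by
    have hex : ∀ n' ∈ N', ∃ e : B, e ∈ n' ∧ e ∉ n₀ := by
      intro n' hn'
      by_contra hcon
      push Not at hcon
      have hle : n' ≤ n₀ := fun x hx => hcon x hx
      exact hN'ne n' hn' ((hN'max n' hn').eq_of_le hn.ne_top hle)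
    choose! e he1 he2 using hex
    refine ⟨∏ n' ∈ N', e n', ?_, ?_⟩
    · intro h
      obtain ⟨n', hn', hmem⟩ := (Ideal.IsPrime.prod_mem_iff (hp := hnp)).mp h
      exact he2 n' hn' hmem
    · intro n' hn'
      obtain ⟨c, hc⟩ := Finset.dvd_prod_of_mem e hn'
      rw [hc]
      exact n'.mul_mem_right _ (he1 n' hn')
  -- `y₁ ∈ P n₀ ∖ ⋃ n'` (prime avoidance)
  obtain ⟨y₁, hy₁, hy₁n'⟩ : ∃ y₁ : B, y₁ ∈ P * n₀ ∧ ∀ n' ∈ N', y₁ ∉ n' := by
    by_contra hcon
    push Not at hcon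
    have hsub : ((P * n₀ : Ideal B) : Set B) ⊆ ⋃ n' ∈ (↑N' : Set (Ideal B)), (n' : Set B) := by
      intro y hy
      obtain ⟨n', hn', hmem⟩ := hcon y hy
      exact Set.mem_biUnion (Finset.mem_coe.mpr hn') hmem
    obtain ⟨n', hn', hle⟩ := (Ideal.subset_union_prime (s := N') (f := fun n' => n') n₀ n₀
      (fun i hi _ _ => (hN'max i hi).isPrime)).mp hsub
    have hn'p : n'.IsPrime := (hN'max n' hn').isPrime
    rcases (Ideal.IsPrime.mul_le hn'p).mp hle with h | h
    · exact hPn' n' hn' h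
    · exact hn₀n' n' hn' h
  -- `r₀ y₁ = e p` with `e ∈ n₀`
  obtain ⟨e, he, hre⟩ : ∃ e ∈ n₀, r₀ * y₁ = e * p := by
    refine Submodule.mul_induction_on hy₁ ?_ ?_
    · intro x hx t ht
      obtain ⟨A, hA⟩ := hK' x ((hPmem x).mp hx)
      exact ⟨A * t, n₀.mul_mem_left _ ht, by rw [← mul_assoc, hA]; ring⟩
    · rintro x y ⟨e, he, h⟩ ⟨e', he', h'⟩
      exact ⟨e + e', n₀.add_mem he he', by rw [mul_add, h, h']; ring⟩
  set pt : B := p * b₁ + y₁ with hpt
  set u : B := r₀ * b₁ + e with hu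
  have hun : u ∉ n₀ := by
    intro h
    have h2 : r₀ * b₁ ∈ n₀ := by
      have h3 := n₀.sub_mem h he
      rwa [hu, add_sub_cancel_right] at h3
    rcases hnp.mem_or_mem h2 with h3 | h3
    · exact hr₀ h3
    · exact hb₁n₀ h3
  have hrel : r₀ * pt = u * p := by
    rw [hpt, hu, mul_add, hre]; ring
  have hrelF : (r₀ : F) * (pt : F) = (u : F) * (p : F) := by
    have := congrArg (fun x : B => (x : F)) hrel
    simpa using this
  have hr₀F : (r₀ : F) ≠ 0 := by
    intro h0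
    apply hr₀
    have : r₀ = 0 := Subtype.ext h0
    rw [this]; exact n₀.zero_mem
  have huF : (u : F) ≠ 0 := by
    intro h0
    apply hun
    have : u = 0 := Subtype.ext h0
    rw [this]; exact n₀.zero_mem
  have hptF : (pt : F) = (u : F) * (p : F) * (r₀ : F)⁻¹ := by
    rw [← hrelF]; field_simp
  -- units at horizontals through `n₀`
  have hunit₀ : ∀ O'' : ValuationSubring F, s34i47_Through B n₀ O'' →
      (u : F) ∈ O'' ∧ (u : F)⁻¹ ∈ O'' ∧ (r₀ : F) ∈ O'' ∧ (r₀ : F)⁻¹ ∈ O'' :=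
    fun O'' hT'' => ⟨hT''.1 _ u.2, hT''.2 u hun, hT''.1 _ r₀.2, hT''.2 r₀ hr₀⟩
  obtain ⟨huO, huO', hr₀O, hr₀O'⟩ := hunit₀ O hT
  refine ⟨(pt : F), ?_, hT.1 _ pt.2, ?_, ?_, ?_⟩
  · rw [hptF]
    exact mul_ne_zero (mul_ne_zero huF h1) (inv_ne_zero hr₀F)
  · intro hinv
    apply h3
    have e1 : (p : F)⁻¹ = (pt : F)⁻¹ * (u : F) * (r₀ : F)⁻¹ := by
      rw [hptF]; field_simp
    rw [e1]
    exact O.mul_mem _ _ (O.mul_mem _ _ hinv huO) hr₀O'
  · intro x hx hxinv
    have e1 : x * (pt : F)⁻¹ = x * (p : F)⁻¹ * ((r₀ : F) * (u : F)⁻¹) := by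
      rw [hptF]; field_simp
    rw [e1]
    exact O.mul_mem _ _ (h4 x hx hxinv) (O.mul_mem _ _ hr₀O huO')
  · rintro O' hH' ⟨n, hnN, hTn⟩ hne
    by_cases hnn : n = n₀
    · subst hnn
      obtain ⟨hpO', hpO''⟩ := h5 O' hTn
        (fun r hr => uz43_val_const K π hπ O' hH'.2.2.1 hH'.2.2.2 r hr) hne
      obtain ⟨hu1, hu2, hr1, hr2⟩ := hunit₀ O' hTn
      refine ⟨hTn.1 _ pt.2, ?_⟩
      have e1 : (pt : F)⁻¹ = (p : F)⁻¹ * ((r₀ : F) * (u : F)⁻¹) := by
        rw [hptF]; field_simp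
      rw [e1]
      exact O'.mul_mem _ _ hpO'' (O'.mul_mem _ _ hr1 hu2)
    · have hn' : n ∈ N' := Finset.mem_erase.mpr ⟨hnn, hnN⟩
      have hptn : pt ∉ n := by
        intro h
        apply hy₁n' n hn'
        have h2 : p * b₁ ∈ n := n.mul_mem_left _ (hb₁ n hn')
        have h3 := n.sub_mem h h2
        rwa [hpt, add_sub_cancel_left] at h3
      exact ⟨hTn.1 _ pt.2, hTn.2 pt hptn⟩

/-- The local factor at one rational horizontal valuation ring through a point of `N`. -/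
theorem sl11_local (π : R) (hπ : Irreducible π) (B : Subalgebra R F) [IsNoetherianRing B]
    (hfrac : ∀ x : F, ∃ a ∈ B, ∃ b ∈ B, b ≠ 0 ∧ x * b = a)
    (N : Finset (Ideal B)) (hN : ∀ n ∈ N, sl11_Smooth π B n)
    (m : ℕ) (hm : 0 < m) (f : F) (hf : f ≠ 0) (hOrd : s34i47_Ord π m f)
    (O : ValuationSubring F) (hO : s34i47_IsHoriz π O)
    (hOn : ∃ n ∈ N, s34i47_Through B n O) (hrat : s34i47_IsRat K O) :
    ∃ g : F, g ≠ 0 ∧ lp9_IsU O (f / g ^ m) ∧
      ∀ O' : ValuationSubring F, s34i47_IsHoriz π O' → (∃ n ∈ N, s34i47_Through B n O') →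
        O' ≠ O → lp9_IsU O' g := by
  obtain ⟨n₀, hn₀, hT⟩ := hOn
  obtain ⟨p, hp0, hpO, hpinv, hgen, hother⟩ := sl11_UZ π hπ B hfrac N hN n₀ hn₀ O hO hT hrat
  obtain ⟨ε, w, hε, hεinv, hfw⟩ := hOrd O hO
  have hw : w ≠ 0 := by
    rintro rfl
    apply hf
    rw [hfw, zero_pow (by omega), mul_zero]
  obtain ⟨k, hk⟩ := lp9_exists_zpow O hO.2.1 p hp0 hpO hpinv hgen w hw
  refine ⟨p ^ k, zpow_ne_zero k hp0, ?_, ?_⟩
  · have he : f / (p ^ k) ^ m = ε * (w / p ^ k) ^ m := by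
      rw [hfw, div_pow, mul_div_assoc]
    rw [he]
    exact lp9_IsU_mul ⟨hε, hεinv⟩ (lp9_IsU_pow hk m)
  · intro O' hO' hOn' hne
    exact lp9_IsU_zpow (hother O' hO' hOn' hne) k

/-- **Semi-local (LP)**: orders divisible by `m` + rational zeros and poles + finiteness ⟹ there
is `c ≠ 0` with `f / c ^ m` a unit of every horizontal `O` through every point of the finite set
`N` of smooth closed points. -/
theorem sl11_LP (π : R) (hπ : Irreducible π) (B : Subalgebra R F) [IsNoetherianRing B]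
    (hfrac : ∀ x : F, ∃ a ∈ B, ∃ b ∈ B, b ≠ 0 ∧ x * b = a)
    (N : Finset (Ideal B)) (hN : ∀ n ∈ N, sl11_Smooth π B n)
    (m : ℕ) (hm : 0 < m) (f : F) (hf : f ≠ 0) (hOrd : s34i47_Ord π m f)
    (hRat : s34i47_Rat K π f) (hFin : s34i47_Fin π f) :
    ∃ c : F, c ≠ 0 ∧ ∀ n ∈ N, ∀ O : ValuationSubring F, s34i47_IsHoriz π O →
      s34i47_Through B n O → f / c ^ m ∈ O ∧ c ^ m / f ∈ O := by
  classical
  have hfin : {O : ValuationSubring F | s34i47_IsHoriz π O ∧ (∃ n ∈ N, s34i47_Through B n O) ∧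
      ¬ (f ∈ O ∧ f⁻¹ ∈ O)}.Finite :=
    hFin.subset fun O hO => ⟨hO.1, hO.2.2⟩
  set T : Finset (ValuationSubring F) := hfin.toFinset with hT
  have hmemT : ∀ O : ValuationSubring F, O ∈ T ↔
      s34i47_IsHoriz π O ∧ (∃ n ∈ N, s34i47_Through B n O) ∧ ¬ (f ∈ O ∧ f⁻¹ ∈ O) := by
    intro O
    rw [hT, Set.Finite.mem_toFinset]
    rfl
  have hex : ∀ O ∈ T, ∃ g : F, g ≠ 0 ∧ lp9_IsU O (f / g ^ m) ∧
      ∀ O' : ValuationSubring F, s34i47_IsHoriz π O' → (∃ n ∈ N, s34i47_Through B n O') →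
        O' ≠ O → lp9_IsU O' g := by
    intro O hO
    rw [hmemT] at hO
    have hrat : s34i47_IsRat K O := (hRat O hO.1).resolve_left hO.2.2
    exact sl11_local π hπ B hfrac N hN m hm f hf hOrd O hO.1 hO.2.1 hrat
  choose! g hg0 hgU hgother using hex
  refine ⟨∏ O ∈ T, g O, Finset.prod_ne_zero_iff.mpr hg0, ?_⟩
  intro n hn O hO hOn
  have hOn' : ∃ n ∈ N, s34i47_Through B n O := ⟨n, hn, hOn⟩
  have key : lp9_IsU O (f / (∏ O' ∈ T, g O') ^ m) := by
    by_cases hOT : O ∈ T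
    · have hsplit : ∏ O' ∈ T, g O' = g O * ∏ O' ∈ T.erase O, g O' :=
        (Finset.mul_prod_erase T g hOT).symm
      have hrest : lp9_IsU O (∏ O' ∈ T.erase O, g O') := by
        apply lp9_IsU_prod
        intro O' hO'
        have h := Finset.mem_erase.mp hO'
        exact hgother O' h.2 O hO hOn' (Ne.symm h.1)
      have he : f / (∏ O' ∈ T, g O') ^ m =
          (f / g O ^ m) * ((∏ O' ∈ T.erase O, g O') ^ m)⁻¹ := by
        rw [hsplit, mul_pow, div_mul_eq_div_div, div_eq_mul_inv (f / g O ^ m)]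
      rw [he]
      exact lp9_IsU_mul (hgU O hOT) (lp9_IsU_inv (lp9_IsU_pow hrest m))
    · have hfU : lp9_IsU O f := by
        by_contra h
        exact hOT ((hmemT O).mpr ⟨hO, hOn', h⟩)
      have hcU : lp9_IsU O (∏ O' ∈ T, g O') := by
        apply lp9_IsU_prod
        intro O' hO'
        exact hgother O' hO' O hO hOn' (by rintro rfl; exact hOT hO')
      rw [div_eq_mul_inv]
      exact lp9_IsU_mul hfU (lp9_IsU_inv (lp9_IsU_pow hcU m))
  refine ⟨key.1, ?_⟩
  have h2 := key.2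
  rwa [inv_div] at h2

end UZ

end Fermat.Agent.S35
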