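import Mathlib
import Fermat.Agent.S34.Iface47
import Fermat.Agent.S34.UniqueZero37
import Fermat.Agent.S34.LocPrin9

/-!
# S35 lab, chain B, row B4 (helper9): semi-local `(LP)` at finitely many one-branch points

`slp9_main`: let `B` be a chart (noetherian, fraction field `F`) over the discrete valuation ring
`R`, and `S` a FINITE set of closed points of its special fibre, each a one-branch point in the
literal sense of the first alternative of `s34i47_LocStr` (`n B_n = (z, π)`).  If all orders of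
`f ≠ 0` along the horizontal valuation rings are divisible by `m`, the zeros and poles of `f` are
`K`-rational and finite in number, then there is ONE `c ≠ 0` such that `f / c ^ m` is a unit of
every horizontal valuation ring through every point of `S`.

Proof.  For a rational horizontal `O` through the one-branch point `n` put `D = B_n` and let `q`
be the centre of `O` on `D`.  As `O` is rational, `z ≡ a mod q` with `a ∈ π R`, so
`m_D = (π, ξ)` with `ξ = z - a ∈ q`; hence `q = ξ D` (`slp9_prime_eq_span`, Krull intersection),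
`O = D_q` and `ξ` is a uniformiser of `O` which is a unit of every other horizontal valuation ring
through `n` (`slp9_point`).  Moreover `B = R + (q ∩ B)`, so `q ∩ B` is contained in no other
closed point `n'` of the special fibre; prime avoidance gives `p ∈ q ∩ B` outside
`ξ m_D ∩ B` and outside every `n' ∈ S`, `n' ≠ n`: it generates `q`, so it is a uniformiser of `O`,
a unit of every other horizontal valuation ring through `n`, and a unit of every valuation ring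
through the other points of `S` (`slp9_UZ`).  The product of the suitable powers of these `p`
is `c`, as in `lp9_Pkg_LP`.
-/

set_option autoImplicit false

namespace Fermat.Agent.S35

open Fermat.Agent.S34 Fermat.Agent.S18

section Alg

/-- In a noetherian local ring with maximal ideal `(π, ξ)`, every prime ideal containing `ξ` and
not `π` is generated by `ξ`. -/
theorem slp9_prime_eq_span {D : Type*} [CommRing D] [IsNoetherianRing D] [IsLocalRing D]
    (π ξ : D) (hm : IsLocalRing.maximalIdeal D = Ideal.span {π, ξ})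
    (q : Ideal D) (hq : q.IsPrime) (hξ : ξ ∈ q) (hπ : π ∉ q) (x : D) (hx : x ∈ q) :
    ∃ c : D, x = ξ * c := by
  have h1 : ∀ k : ℕ, ∃ b c : D, x = ξ * b + π ^ k * c := by
    intro k
    induction k with
    | zero => exact ⟨0, x, by ring⟩
    | succ k ih =>
      obtain ⟨b, c, hbc⟩ := ih
      have hc : π ^ k * c ∈ q := by
        have : π ^ k * c = x - ξ * b := by rw [hbc]; ring
        rw [this]; exact q.sub_mem hx (q.mul_mem_right _ hξ)
      have hcq : c ∈ q :=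
        (hq.mem_or_mem hc).resolve_left (fun h => hπ (hq.mem_of_pow_mem k h))
      have hcm : c ∈ IsLocalRing.maximalIdeal D := IsLocalRing.le_maximalIdeal hq.ne_top hcq
      rw [hm] at hcm
      obtain ⟨a, b', hab⟩ := Ideal.mem_span_pair.mp hcm
      exact ⟨b + π ^ k * b', a, by rw [hbc, ← hab]; ring⟩
  set J : Ideal D := Ideal.span {ξ} with hJ
  have hπm : π ∈ IsLocalRing.maximalIdeal D := by
    rw [hm]; exact Ideal.subset_span (by simp)
  have hkrull := Ideal.iInf_pow_smul_eq_bot_of_isLocalRing (R := D) (M := D ⧸ J)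
    (Ideal.span {π}) (by
      intro h
      rw [Ideal.span_singleton_eq_top] at h
      exact (IsLocalRing.mem_maximalIdeal _).mp hπm h)
  have hmem : (Ideal.Quotient.mk J x : D ⧸ J) ∈
      (⨅ i : ℕ, (Ideal.span {π}) ^ i • (⊤ : Submodule D (D ⧸ J))) := by
    rw [Submodule.mem_iInf]
    intro k
    obtain ⟨b, c, hbc⟩ := h1 k
    have hξJ : ξ * b ∈ J := Ideal.mul_mem_right _ _ (Ideal.mem_span_singleton_self ξ)
    rw [hbc, map_add, Ideal.Quotient.eq_zero_iff_mem.mpr hξJ, zero_add]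
    have h2 : (Ideal.Quotient.mk J (π ^ k * c) : D ⧸ J)
        = (π ^ k) • (Ideal.Quotient.mk J c : D ⧸ J) := by
      rw [Algebra.smul_def, Ideal.Quotient.algebraMap_eq, ← map_mul]
    rw [h2]
    have hπk : π ^ k ∈ (Ideal.span {π} : Ideal D) ^ k :=
      Ideal.pow_mem_pow (Ideal.mem_span_singleton_self π) k
    exact Submodule.smul_mem_smul hπk Submodule.mem_top
  rw [hkrull] at hmem
  have hxJ : x ∈ J := Ideal.Quotient.eq_zero_iff_mem.mp ((Submodule.mem_bot _).mp hmem)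
  obtain ⟨c, hc⟩ := Ideal.mem_span_singleton'.mp hxJ
  exact ⟨c, by rw [← hc]; ring⟩

end Alg

section Val

variable {F : Type*} [Field F]

/-- `D ⊆ O` with fraction field `F`; the centre of `O` on `D` is generated by `ξ`.  Then every
element of `O` is a fraction with denominator in `D`, a unit of `O` (`O = D_(ξ)`). -/
theorem slp9_frac_unit (D : Subring F) (O : ValuationSubring F) (hPIR : IsPrincipalIdealRing O)
    (hDO : ∀ x ∈ D, x ∈ O)
    (hfrac : ∀ x : F, ∃ a ∈ D, ∃ b ∈ D, b ≠ 0 ∧ x * b = a)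
    (ξ : F) (hξ0 : ξ ≠ 0) (hξD : ξ ∈ D) (hξinv : ξ⁻¹ ∉ O)
    (hgen : ∀ x ∈ D, x ≠ 0 → x⁻¹ ∉ O → ∃ c ∈ D, x = ξ * c)
    (x : F) (hx : x ∈ O) : ∃ a ∈ D, ∃ b ∈ D, b ≠ 0 ∧ b⁻¹ ∈ O ∧ x * b = a := by
  by_cases hx0 : x = 0
  · exact ⟨0, D.zero_mem, 1, D.one_mem, one_ne_zero, by rw [inv_one]; exact O.one_mem,
      by rw [hx0, zero_mul]⟩
  have hE : ∀ (j : ℕ) (a b : F), a ∈ D → b ∈ D → b ≠ 0 → x * b = a →
      (¬ ∃ o ∈ O, b = ξ ^ j * o) → ∃ a' ∈ D, ∃ b' ∈ D, b' ≠ 0 ∧ b'⁻¹ ∈ O ∧ x * b' = a' := by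
    intro j
    induction j with
    | zero =>
      intro a b _ hb _ _ hnot
      exact absurd ⟨b, hDO b hb, by rw [pow_zero, one_mul]⟩ hnot
    | succ j ih =>
      intro a b ha hb hb0 hxb hnot
      by_cases hbinv : b⁻¹ ∈ O
      · exact ⟨a, ha, b, hb, hb0, hbinv, hxb⟩
      obtain ⟨b₁, hb₁, hbb₁⟩ := hgen b hb hb0 hbinv
      have ha0 : a ≠ 0 := by rw [← hxb]; exact mul_ne_zero hx0 hb0
      have hainv : a⁻¹ ∉ O := by
        intro h
        apply hbinv
        have : b⁻¹ = x * a⁻¹ := by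
          rw [← hxb]; field_simp
        rw [this]; exact O.mul_mem _ _ hx h
      obtain ⟨a₁, ha₁, haa₁⟩ := hgen a ha ha0 hainv
      have hb₁0 : b₁ ≠ 0 := by
        rintro rfl
        exact hb0 (by rw [hbb₁, mul_zero])
      refine ih a₁ b₁ ha₁ hb₁ hb₁0 ?_ ?_
      · apply mul_left_cancel₀ hξ0
        rw [← haa₁, ← hxb, hbb₁]; ring
      · rintro ⟨o, ho, hbo⟩
        exact hnot ⟨o, ho, by rw [hbb₁, hbo, pow_succ]; ring⟩
  obtain ⟨a, ha, b, hb, hb0, hab⟩ := hfrac x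
  have hkr : ∃ j : ℕ, ¬ ∃ o ∈ O, b = ξ ^ j * o := by
    by_contra hall
    rw [not_exists] at hall
    have hall' : ∀ j : ℕ, ∃ o ∈ O, b = ξ ^ j * o := fun j => not_not.mp (hall j)
    let pO : O := ⟨ξ, hDO ξ hξD⟩
    have hne : (Ideal.span {pO} : Ideal O) ≠ ⊤ := by
      rw [Ne, Ideal.span_singleton_eq_top]
      intro hu
      obtain ⟨y, hy⟩ := isUnit_iff_exists_inv.mp hu
      have hy' : ξ * (y : F) = 1 := congrArg Subtype.val hy
      apply hξinv
      rw [← eq_inv_of_mul_eq_one_right hy']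
      exact y.2
    have hbot := Ideal.iInf_pow_eq_bot_of_isLocalRing (Ideal.span {pO} : Ideal O) hne
    have hbmem : (⟨b, hDO b hb⟩ : O) ∈ (⨅ i : ℕ, (Ideal.span {pO} : Ideal O) ^ i) := by
      rw [Ideal.mem_iInf]
      intro i
      obtain ⟨o, ho, hbo⟩ := hall' i
      rw [Ideal.span_singleton_pow, Ideal.mem_span_singleton']
      refine ⟨⟨o, ho⟩, Subtype.ext ?_⟩
      show o * ξ ^ i = b
      rw [hbo, mul_comm]
    rw [hbot, Ideal.mem_bot] at hbmem
    exact hb0 (congrArg Subtype.val hbmem)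
  obtain ⟨j, hj⟩ := hkr
  exact hE j a b ha hb hb0 hab hj

/-- In the situation of `slp9_frac_unit`, `ξ` is a uniformiser of `O`. -/
theorem slp9_unif (D : Subring F) (O : ValuationSubring F) (hPIR : IsPrincipalIdealRing O)
    (hDO : ∀ x ∈ D, x ∈ O)
    (hfrac : ∀ x : F, ∃ a ∈ D, ∃ b ∈ D, b ≠ 0 ∧ x * b = a)
    (ξ : F) (hξ0 : ξ ≠ 0) (hξD : ξ ∈ D) (hξinv : ξ⁻¹ ∉ O)
    (hgen : ∀ x ∈ D, x ≠ 0 → x⁻¹ ∉ O → ∃ c ∈ D, x = ξ * c)
    (x : F) (hx : x ∈ O) (hxinv : x⁻¹ ∉ O) : x * ξ⁻¹ ∈ O := by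
  have hx0 : x ≠ 0 := by
    rintro rfl
    exact hxinv (by rw [inv_zero]; exact O.zero_mem)
  obtain ⟨a, ha, b, hb, hb0, hbinv, hab⟩ :=
    slp9_frac_unit D O hPIR hDO hfrac ξ hξ0 hξD hξinv hgen x hx
  have ha0 : a ≠ 0 := by rw [← hab]; exact mul_ne_zero hx0 hb0
  have hainv : a⁻¹ ∉ O := by
    intro h
    apply hxinv
    have : x⁻¹ = b * a⁻¹ := by
      rw [← hab]; field_simp
    rw [this]; exact O.mul_mem _ _ (hDO b hb) h
  obtain ⟨c, hc, hac⟩ := hgen a ha ha0 hainv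
  have : x * ξ⁻¹ = c * b⁻¹ := by
    have hx' : x = a * b⁻¹ := by rw [← hab]; field_simp
    rw [hx', hac]; field_simp
  rw [this]; exact O.mul_mem _ _ (hDO c hc) hbinv

/-- In the situation of `slp9_frac_unit`, a valuation subring `O' ⊇ D` whose centre on `D`
contains `ξ` and is contained in the centre of `O` equals `O`. -/
theorem slp9_eq_of_center (D : Subring F) (O : ValuationSubring F) (hPIR : IsPrincipalIdealRing O)
    (hDO : ∀ x ∈ D, x ∈ O)
    (hfrac : ∀ x : F, ∃ a ∈ D, ∃ b ∈ D, b ≠ 0 ∧ x * b = a)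
    (ξ : F) (hξ0 : ξ ≠ 0) (hξD : ξ ∈ D) (hξinv : ξ⁻¹ ∉ O)
    (hgen : ∀ x ∈ D, x ≠ 0 → x⁻¹ ∉ O → ∃ c ∈ D, x = ξ * c)
    (O' : ValuationSubring F) (hDO' : ∀ x ∈ D, x ∈ O')
    (hcen : ∀ x ∈ D, x ≠ 0 → x⁻¹ ∉ O' → x⁻¹ ∉ O) (hξ' : ξ⁻¹ ∉ O') : O' = O := by
  have hle : O ≤ O' := by
    intro x hx
    obtain ⟨a, ha, b, hb, hb0, hbinv, hab⟩ :=
      slp9_frac_unit D O hPIR hDO hfrac ξ hξ0 hξD hξinv hgen x hx
    have hbinv' : b⁻¹ ∈ O' := by
      by_contra h
      exact hcen b hb hb0 h hbinv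
    have hx' : x = a * b⁻¹ := by rw [← hab]; field_simp
    rw [hx']; exact O'.mul_mem _ _ (hDO' a ha) hbinv'
  apply le_antisymm _ hle
  intro y hy
  by_contra hyO
  have hyinv : y⁻¹ ∈ O := (O.mem_or_inv_mem y).resolve_left hyO
  have h1 : y⁻¹ * ξ⁻¹ ∈ O :=
    slp9_unif D O hPIR hDO hfrac ξ hξ0 hξD hξinv hgen y⁻¹ hyinv (by rw [inv_inv]; exact hyO)
  have hy0 : y ≠ 0 := by
    rintro rfl; exact hyO O.zero_mem
  apply hξ'
  have h2 : ξ⁻¹ = y * (y⁻¹ * ξ⁻¹) := by
    rw [← mul_assoc, mul_inv_cancel₀ hy0, one_mul]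
  rw [h2]
  exact O'.mul_mem _ _ hy (hle h1)

end Val

section Point

open IsLocalRing

variable {R K F : Type*} [CommRing R] [IsDomain R] [IsDiscreteValuationRing R] [Field K] [Field F]
  [Algebra R K] [IsFractionRing R K] [Algebra R F] [Algebra K F] [IsScalarTower R K F]

/-- **A rational horizontal valuation ring through a one-branch point** `n` (`n B_n = (z, π)`):
there is `ξ ∈ B` generating the centre of `O` on `B_n`; it is a uniformiser of `O` and a unit of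
every other horizontal valuation ring through `n`; moreover `B = R + centre`. -/
theorem slp9_point (π : R) (hπ : Irreducible π) (B : Subring F) [IsNoetherianRing B]
    (hRB : ∀ r : R, algebraMap R F r ∈ B)
    (hfrac : ∀ x : F, ∃ a ∈ B, ∃ b ∈ B, b ≠ 0 ∧ x * b = a)
    (n : Ideal B) [hn : n.IsPrime] (hπn : (⟨algebraMap R F π, hRB π⟩ : B) ∈ n)
    (z : B) (hz : z ∈ n)
    (hgen : ∀ x ∈ n, ∃ s : B, s ∉ n ∧ ∃ a c : B,
      (s : F) * (x : F) = (a : F) * z + (c : F) * algebraMap R F π)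
    (O : ValuationSubring F) (hO : O ≠ ⊤) (hPIR : IsPrincipalIdealRing O)
    (hRO : ∀ r : R, algebraMap R F r ∈ O) (hπO : (algebraMap R F π)⁻¹ ∈ O)
    (hBO : ∀ x ∈ B, x ∈ O) (hthr : ∀ x : B, x ∉ n → (x : F)⁻¹ ∈ O)
    (hrat : ∀ x ∈ O, ∃ c : K, x = algebraMap K F c ∨ (x - algebraMap K F c)⁻¹ ∉ O) :
    ∃ ξ : B, (ξ : F) ≠ 0 ∧ (ξ : F)⁻¹ ∉ O ∧
      (∀ x ∈ O, x⁻¹ ∉ O → x * (ξ : F)⁻¹ ∈ O) ∧
      (∀ O' : ValuationSubring F, (∀ x ∈ B, x ∈ O') → (∀ x : B, x ∉ n → (x : F)⁻¹ ∈ O') →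
        (algebraMap R F π)⁻¹ ∈ O' → O' ≠ O → (ξ : F)⁻¹ ∈ O') ∧
      (∀ x ∈ lp7_loc B n, x ≠ 0 → x⁻¹ ∉ O → ∃ c ∈ lp7_loc B n, x = (ξ : F) * c) ∧
      (∀ x : B, ∃ r : R, O.valuation ((x : F) - algebraMap R F r) < 1) := by
  classical
  have : IsPrincipalIdealRing O := hPIR
  have : IsNoetherianRing (lp7_loc B n) := lp7_loc_isNoetherianRing B n
  have hinj : Function.Injective (algebraMap R F) := uz37_algebraMap_injective R K F
  have hπF0 : algebraMap R F π ≠ 0 := by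
    rw [Ne, map_eq_zero_iff _ hinj]; exact hπ.ne_zero
  have h1n : (1 : B) ∉ n := (Ideal.ne_top_iff_one n).mp hn.ne_top
  -- `B_n ⊆ O'` for every valuation subring through `n`
  have hDle : ∀ O' : ValuationSubring F, (∀ x ∈ B, x ∈ O') → (∀ x : B, x ∉ n → (x : F)⁻¹ ∈ O') →
      ∀ x : lp7_loc B n, (x : F) ∈ O' := by
    intro O' h1 h2 x
    obtain ⟨s, hs, hsx⟩ := x.2
    have hs0 := lp7_ne_zero_of_not_mem B n s hs
    have : (x : F) = (s : F)⁻¹ * ((s : F) * x) := by field_simp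
    rw [this]; exact O'.mul_mem _ _ (h2 s hs) (h1 _ hsx)
  have hDO := hDle O hBO hthr
  have hv_le : ∀ x : lp7_loc B n, O.valuation (x : F) ≤ 1 := fun x =>
    (O.valuation_le_one_iff _).mpr (hDO x)
  -- nonunits of `O` in `B_n` are nonunits of `B_n`
  have hmemmax : ∀ x : lp7_loc B n, O.valuation (x : F) < 1 → x ∈ maximalIdeal (lp7_loc B n) := by
    intro x hx
    rw [IsLocalRing.mem_maximalIdeal, mem_nonunits_iff]
    intro hu
    obtain ⟨y, hxy⟩ := isUnit_iff_exists_inv.mp hu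
    have hxy' : (x : F) * (y : F) = 1 := congrArg Subtype.val hxy
    have h1 : O.valuation (x : F) * O.valuation (y : F) = 1 := by
      rw [← map_mul, hxy', map_one]
    have h2 : O.valuation (x : F) * O.valuation (y : F) < 1 :=
      lt_of_le_of_lt (mul_le_of_le_one_right' (hv_le y)) hx
    exact absurd h1 (ne_of_lt h2)
  -- inclusions
  let ι : B →+* lp7_loc B n := Subring.inclusion (fun x hx => lp7_le_loc B n x hx)
  have hι : ∀ b : B, ((ι b : lp7_loc B n) : F) = b := fun _ => rfl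
  let ιR : R →+* lp7_loc B n :=
    (algebraMap R F).codRestrict (lp7_loc B n) (fun r => lp7_le_loc B n _ (hRB r))
  have hιR : ∀ r : R, ((ιR r : lp7_loc B n) : F) = algebraMap R F r := fun _ => rfl
  have hιmax : ∀ b : B, b ∈ n → ι b ∈ maximalIdeal (lp7_loc B n) := by
    intro b hb
    rw [uz37_mem_max_iff]
    exact ⟨1, h1n, b, hb, by simp [hι]⟩
  have hπmax : ιR π ∈ maximalIdeal (lp7_loc B n) := by
    have : ιR π = ι ⟨algebraMap R F π, hRB π⟩ := Subtype.ext rfl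
    rw [this]; exact hιmax _ hπn
  -- the evaluation
  have hex : ∀ x : lp7_loc B n, ∃ r : R, O.valuation ((x : F) - algebraMap R F r) < 1 := by
    intro x
    obtain ⟨c, hc⟩ := hrat x (hDO x)
    have hvc : O.valuation ((x : F) - algebraMap K F c) < 1 := by
      rcases hc with h | h
      · rw [h, sub_self, map_zero]; exact zero_lt_one
      · exact ((uz37_inv_not_mem_iff O _).mp h).2
    rcases uz37_dvr_dichotomy π hπ c with ⟨r, rfl⟩ | ⟨r₀, hr₀⟩
    · exact ⟨r, by rwa [IsScalarTower.algebraMap_apply R K F]⟩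
    · exfalso
      have hmem : x * ιR (π * r₀) - 1 ∈ maximalIdeal (lp7_loc B n) := by
        apply hmemmax
        have h1 : algebraMap K F c * algebraMap R F (π * r₀) = 1 := by
          rw [IsScalarTower.algebraMap_apply R K F, ← map_mul, hr₀, map_one]
        have h2 : ((x * ιR (π * r₀) - 1 : lp7_loc B n) : F)
            = ((x : F) - algebraMap K F c) * algebraMap R F (π * r₀) := by
          show (x : F) * algebraMap R F (π * r₀) - 1 = _
          rw [sub_mul, h1]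
        rw [h2, map_mul]
        exact lt_of_le_of_lt (mul_le_of_le_one_right'
          ((O.valuation_le_one_iff _).mpr (hRO _))) hvc
      have hmem2 : x * ιR (π * r₀) ∈ maximalIdeal (lp7_loc B n) := by
        rw [map_mul, ← mul_assoc]
        exact Ideal.mul_mem_right _ _ (Ideal.mul_mem_left _ _ hπmax)
      have h1 : (1 : lp7_loc B n) ∈ maximalIdeal (lp7_loc B n) := by
        have := Ideal.sub_mem _ hmem2 hmem
        rwa [sub_sub_cancel] at this
      exact (IsLocalRing.mem_maximalIdeal _).mp h1 isUnit_one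
  -- the value of `z` at the point lies in `π R`
  obtain ⟨a, ha⟩ := hex (ι z)
  have haπ : ∃ a' : R, a = π * a' := by
    by_contra hnot
    have hau : IsUnit a := by
      by_contra hnu
      have hmem : a ∈ maximalIdeal R := (IsLocalRing.mem_maximalIdeal _).mpr hnu
      rw [hπ.maximalIdeal_eq, Ideal.mem_span_singleton'] at hmem
      obtain ⟨a', ha'⟩ := hmem
      exact hnot ⟨a', by rw [← ha', mul_comm]⟩
    have h1 : ι z - ιR a ∈ maximalIdeal (lp7_loc B n) := hmemmax _ ha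
    have h2 : ιR a ∈ maximalIdeal (lp7_loc B n) := by
      have := Ideal.sub_mem _ (hιmax z hz) h1
      rwa [sub_sub_cancel] at this
    exact (IsLocalRing.mem_maximalIdeal _).mp h2 (hau.map ιR)
  obtain ⟨a', rfl⟩ := haπ
  -- the local equation of the point
  obtain ⟨ξ, hξF⟩ : ∃ ξ : B, (ξ : F) = (z : F) - algebraMap R F (π * a') :=
    ⟨z - ⟨algebraMap R F (π * a'), hRB _⟩, rfl⟩
  have hξv : O.valuation (ξ : F) < 1 := by rw [hξF]; exact ha
  have hmax : maximalIdeal (lp7_loc B n) = Ideal.span {ιR π, ι ξ} := by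
    apply le_antisymm
    · intro x hx
      obtain ⟨s, hs, t, ht, hst⟩ := (uz37_mem_max_iff B n x).mp hx
      obtain ⟨s₁, hs₁, a, c, hac⟩ := hgen t ht
      have hss : s₁ * s ∉ n := fun h => (hn.mem_or_mem h).elim hs₁ hs
      have hs0 := lp7_ne_zero_of_not_mem B n s hs
      have hs₁0 := lp7_ne_zero_of_not_mem B n s₁ hs₁
      have hx' : x = (⟨((s₁ * s : B) : F)⁻¹, lp7_inv_mem_loc B n _ hss⟩ : lp7_loc B n) *
          (ι a * ι ξ + (ι c + ι a * ιR a') * ιR π) := by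
        apply Subtype.ext
        show (x : F) = ((s₁ * s : B) : F)⁻¹ *
          ((a : F) * (ξ : F) + ((c : F) + (a : F) * algebraMap R F a') * algebraMap R F π)
        have h3 : (a : F) * (ξ : F) + ((c : F) + (a : F) * algebraMap R F a') * algebraMap R F π
            = (a : F) * z + (c : F) * algebraMap R F π := by
          rw [hξF, map_mul]; ring
        rw [h3, ← hac, ← hst]
        push_cast
        field_simp
      rw [hx']
      refine Ideal.mul_mem_left _ _ (Ideal.add_mem _ ?_ ?_)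
      · exact Ideal.mul_mem_left _ _ (Ideal.subset_span (by simp))
      · exact Ideal.mul_mem_left _ _ (Ideal.subset_span (by simp))
    · rw [Ideal.span_le]
      rintro x (rfl | rfl)
      · exact hπmax
      · exact hmemmax _ hξv
  -- the centre of a valuation ring through `n` which contains `ξ` and not `π` is `(ξ)`
  have hcen : ∀ (O' : ValuationSubring F) (hD' : ∀ x : lp7_loc B n, (x : F) ∈ O'),
      (algebraMap R F π)⁻¹ ∈ O' → O'.valuation (ξ : F) < 1 →
      ∀ x : lp7_loc B n, O'.valuation (x : F) < 1 → ∃ c : lp7_loc B n, x = ι ξ * c := by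
    intro O' hD' hπO' hξ' x hx
    let ιO' : lp7_loc B n →+* O' := Subring.inclusion (fun x hx => hD' ⟨x, hx⟩)
    have hq : ((maximalIdeal O').comap ιO').IsPrime := Ideal.comap_isPrime ιO' _
    have hmemq : ∀ y : lp7_loc B n,
        y ∈ (maximalIdeal O').comap ιO' ↔ O'.valuation (y : F) < 1 := by
      intro y
      rw [Ideal.mem_comap, ValuationSubring.valuation_lt_one_iff]
      rfl
    refine slp9_prime_eq_span (ιR π) (ι ξ) hmax _ hq ((hmemq _).mpr hξ') ?_ x ((hmemq _).mpr hx)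
    rw [hmemq]
    have h1 : O'.valuation (algebraMap R F π) = 1 :=
      uz37_val_eq_one O' _ (hD' (ιR π)) hπO' hπF0
    show ¬ O'.valuation (algebraMap R F π) < 1
    rw [h1]; exact lt_irrefl _
  have hgenD : ∀ (O' : ValuationSubring F), (∀ x : lp7_loc B n, (x : F) ∈ O') →
      (algebraMap R F π)⁻¹ ∈ O' → (ξ : F)⁻¹ ∉ O' → (ξ : F) ≠ 0 →
      ∀ x ∈ lp7_loc B n, x ≠ 0 → x⁻¹ ∉ O' → ∃ c ∈ lp7_loc B n, x = (ξ : F) * c := by
    intro O' hD' hπO' hξ' hξ0 x hx hx0 hxinv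
    obtain ⟨c, hc⟩ := hcen O' hD' hπO' ((uz37_inv_not_mem_iff O' _).mp hξ').2 ⟨x, hx⟩
      ((uz37_inv_not_mem_iff O' _).mp hxinv).2
    exact ⟨c, c.2, congrArg Subtype.val hc⟩
  -- `ξ ≠ 0`
  have hξ0 : (ξ : F) ≠ 0 := by
    intro h0
    obtain ⟨y, hy⟩ : ∃ y : F, y ∉ O := by
      by_contra hall
      apply hO
      rw [eq_top_iff]
      intro x _
      by_contra hx
      exact hall ⟨x, hx⟩
    have hyinv : y⁻¹ ∈ O := (O.mem_or_inv_mem y).resolve_left hy
    have hy2 := (uz37_inv_not_mem_iff O y⁻¹).mp (by rw [inv_inv]; exact hy)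
    obtain ⟨a, ha, b, hb, hb0, hab⟩ := hfrac y⁻¹
    have hva : O.valuation a < 1 := by
      rw [← hab, map_mul]
      exact lt_of_le_of_lt (mul_le_of_le_one_right'
        ((O.valuation_le_one_iff _).mpr (hBO b hb))) hy2.2
    obtain ⟨c, hc⟩ := hcen O hDO hπO hξv (ι ⟨a, ha⟩) hva
    have hcF : a = (ξ : F) * (c : F) := congrArg Subtype.val hc
    rw [h0, zero_mul] at hcF
    rw [hcF] at hab
    exact (mul_eq_zero.mp hab).elim hy2.1 hb0
  have hξinv : (ξ : F)⁻¹ ∉ O := (uz37_inv_not_mem_iff O _).mpr ⟨hξ0, hξv⟩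
  have hfracD : ∀ x : F, ∃ a ∈ lp7_loc B n, ∃ b ∈ lp7_loc B n, b ≠ 0 ∧ x * b = a := by
    intro x
    obtain ⟨a, ha, b, hb, hb0, hab⟩ := hfrac x
    exact ⟨a, lp7_le_loc B n a ha, b, lp7_le_loc B n b hb, hb0, hab⟩
  have hξD : (ξ : F) ∈ lp7_loc B n := lp7_le_loc B n _ ξ.2
  have hDO' : ∀ x ∈ lp7_loc B n, x ∈ O := fun x hx => hDO ⟨x, hx⟩
  have hgenO := hgenD O hDO hπO hξinv hξ0
  refine ⟨ξ, hξ0, hξinv, ?_, ?_, hgenO, fun x => hex (ι x)⟩
  · intro x hx hxinv
    exact slp9_unif (lp7_loc B n) O hPIR hDO' hfracD (ξ : F) hξ0 hξD hξinv hgenO x hx hxinv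
  · intro O' hBO' hthr' hπO' hne
    by_contra hξ'
    apply hne
    have hDOO' := hDle O' hBO' hthr'
    refine slp9_eq_of_center (lp7_loc B n) O hPIR hDO' hfracD (ξ : F) hξ0 hξD hξinv hgenO O'
      (fun x hx => hDOO' ⟨x, hx⟩) ?_ hξ'
    intro x hx hx0 hxinv hxO
    obtain ⟨c, hc, hxc⟩ := hgenD O' hDOO' hπO' hξ' hξ0 x hx hx0 hxinv
    apply hξinv
    have : (ξ : F)⁻¹ = c * x⁻¹ := by
      rw [hxc]
      have hc0 : c ≠ 0 := by
        rintro rfl
        exact hx0 (by rw [hxc, mul_zero])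
      field_simp
    rw [this]; exact O.mul_mem _ _ (hDO' c hc) hxO

/-- **Semi-local unique zero at a one-branch point** (subring form): a rational horizontal `O`
through the one-branch point `n` has a uniformiser `p ∈ B` which is a unit of every other
horizontal valuation ring through `n` and lies in none of finitely many other closed points
`n' ∋ π`. -/
theorem slp9_UZ_core (π : R) (hπ : Irreducible π) (B : Subring F) [IsNoetherianRing B]
    (hRB : ∀ r : R, algebraMap R F r ∈ B)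
    (hfrac : ∀ x : F, ∃ a ∈ B, ∃ b ∈ B, b ≠ 0 ∧ x * b = a)
    (n : Ideal B) [hn : n.IsPrime] (hπn : (⟨algebraMap R F π, hRB π⟩ : B) ∈ n)
    (z : B) (hz : z ∈ n)
    (hgen : ∀ x ∈ n, ∃ s : B, s ∉ n ∧ ∃ a c : B,
      (s : F) * (x : F) = (a : F) * z + (c : F) * algebraMap R F π)
    (T : Finset (Ideal B))
    (hT : ∀ n' ∈ T, n'.IsPrime ∧ (⟨algebraMap R F π, hRB π⟩ : B) ∈ n' ∧ ¬ n ≤ n')
    (O : ValuationSubring F) (hO : O ≠ ⊤) (hPIR : IsPrincipalIdealRing O)
    (hRO : ∀ r : R, algebraMap R F r ∈ O) (hπO : (algebraMap R F π)⁻¹ ∈ O)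
    (hBO : ∀ x ∈ B, x ∈ O) (hthr : ∀ x : B, x ∉ n → (x : F)⁻¹ ∈ O)
    (hrat : ∀ x ∈ O, ∃ c : K, x = algebraMap K F c ∨ (x - algebraMap K F c)⁻¹ ∉ O) :
    ∃ p : B, (p : F) ≠ 0 ∧ (p : F)⁻¹ ∉ O ∧
      (∀ x ∈ O, x⁻¹ ∉ O → x * (p : F)⁻¹ ∈ O) ∧
      (∀ O' : ValuationSubring F, (∀ x ∈ B, x ∈ O') → (∀ x : B, x ∉ n → (x : F)⁻¹ ∈ O') →
        (algebraMap R F π)⁻¹ ∈ O' → O' ≠ O → (p : F)⁻¹ ∈ O') ∧
      ∀ n' ∈ T, p ∉ n' := by
  classical
  obtain ⟨ξ, hξ0, hξinv, hU, hD4, hgenD, hratB⟩ :=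
    slp9_point (K := K) π hπ B hRB hfrac n hπn z hz hgen O hO hPIR hRO hπO hBO hthr hrat
  have h1n : (1 : B) ∉ n := (Ideal.ne_top_iff_one n).mp hn.ne_top
  -- the centre of `O` on `B`
  let ιO : B →+* O := Subring.inclusion (fun x hx => hBO x hx)
  set J : Ideal B := (maximalIdeal O).comap ιO with hJ
  have hmemJ : ∀ y : B, y ∈ J ↔ O.valuation (y : F) < 1 := by
    intro y
    rw [hJ, Ideal.mem_comap, ValuationSubring.valuation_lt_one_iff]
    rfl
  have hJn : J ≤ n := by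
    intro x hx
    by_contra hxn
    have hx0 : (x : F) ≠ 0 := lp7_ne_zero_of_not_mem B n x hxn
    exact (uz37_inv_not_mem_iff O _).mpr ⟨hx0, (hmemJ x).mp hx⟩ (hthr x hxn)
  have hξJ : ξ ∈ J := (hmemJ ξ).mpr ((uz37_inv_not_mem_iff O _).mp hξinv).2
  -- the centre is contained in no other closed point of the special fibre
  have hJT : ∀ n' ∈ T, ¬ J ≤ n' := by
    intro n' hn' hJn'
    obtain ⟨-, hπn', hnn'⟩ := hT n' hn'
    apply hnn'
    intro x hx
    obtain ⟨r, hr⟩ := hratB x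
    have hyJ : x - ⟨algebraMap R F r, hRB r⟩ ∈ J := (hmemJ _).mpr hr
    have hrn : (⟨algebraMap R F r, hRB r⟩ : B) ∈ n := by
      have := n.sub_mem hx (hJn hyJ)
      rwa [sub_sub_cancel] at this
    have hrm : r ∈ maximalIdeal R := by
      rw [IsLocalRing.mem_maximalIdeal, mem_nonunits_iff]
      intro hu
      obtain ⟨r', hr'⟩ := isUnit_iff_exists_inv.mp hu
      apply h1n
      have : (1 : B) = ⟨algebraMap R F r, hRB r⟩ * ⟨algebraMap R F r', hRB r'⟩ := by
        apply Subtype.ext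
        show (1 : F) = algebraMap R F r * algebraMap R F r'
        rw [← map_mul, hr', map_one]
      rw [this]; exact n.mul_mem_right _ hrn
    rw [hπ.maximalIdeal_eq, Ideal.mem_span_singleton'] at hrm
    obtain ⟨r', rfl⟩ := hrm
    have hrn' : (⟨algebraMap R F (r' * π), hRB _⟩ : B) ∈ n' := by
      have : (⟨algebraMap R F (r' * π), hRB _⟩ : B)
          = ⟨algebraMap R F r', hRB r'⟩ * ⟨algebraMap R F π, hRB π⟩ := by
        apply Subtype.ext
        show algebraMap R F (r' * π) = algebraMap R F r' * algebraMap R F π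
        rw [map_mul]
      rw [this]; exact n'.mul_mem_left _ hπn'
    have := n'.add_mem (hJn' hyJ) hrn'
    rwa [sub_add_cancel] at this
  -- the non-generators of the centre in `B_n`
  let I₀ : Ideal B :=
    { carrier := {x : B | ∃ s : B, s ∉ n ∧ ∃ c : B, c ∈ n ∧ s * x = ξ * c}
      add_mem' := by
        rintro x y ⟨s, hs, c, hc, h⟩ ⟨s', hs', c', hc', h'⟩
        refine ⟨s * s', fun h => (hn.mem_or_mem h).elim hs hs', s' * c + s * c',
          n.add_mem (n.mul_mem_left _ hc) (n.mul_mem_left _ hc'), ?_⟩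
        linear_combination s' * h + s * h'
      zero_mem' := ⟨1, h1n, 0, n.zero_mem, by ring⟩
      smul_mem' := by
        rintro b x ⟨s, hs, c, hc, h⟩
        refine ⟨s, hs, b * c, n.mul_mem_left _ hc, ?_⟩
        rw [smul_eq_mul]; linear_combination b * h }
  have hmemI₀ : ∀ x : B, x ∈ I₀ ↔ ∃ s : B, s ∉ n ∧ ∃ c : B, c ∈ n ∧ s * x = ξ * c :=
    fun _ => Iff.rfl
  have hξI₀ : ξ ∉ I₀ := by
    rw [hmemI₀]
    rintro ⟨s, hs, c, hc, h⟩
    apply hs
    have hF : (s : F) * (ξ : F) = (ξ : F) * (c : F) := congrArg Subtype.val h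
    have hsc : (s : F) = (c : F) := by
      apply mul_right_cancel₀ hξ0
      rw [hF, mul_comm]
    have : s = c := Subtype.ext hsc
    rw [this]; exact hc
  -- prime avoidance
  have hiff := Ideal.subset_union_prime (s := insert I₀ T) (f := fun i : Ideal B => i) I₀ I₀
    (fun i hi hia _ => (hT i ((Finset.mem_insert.mp hi).resolve_left hia)).1) (I := J)
  have havoid : ¬ ((J : Set B) ⊆
      ⋃ i ∈ ((insert I₀ T : Finset (Ideal B)) : Set (Ideal B)), ((i : Ideal B) : Set B)) := by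
    rw [hiff]
    rintro ⟨i, hi, hJi⟩
    rcases Finset.mem_insert.mp hi with rfl | hiT
    · exact hξI₀ (hJi hξJ)
    · exact hJT i hiT hJi
  obtain ⟨p, hpJ, hpU⟩ := Set.not_subset.mp havoid
  have hpI₀ : p ∉ I₀ := fun h =>
    hpU (Set.mem_biUnion (Finset.mem_coe.mpr (Finset.mem_insert_self _ _)) h)
  have hpT : ∀ n' ∈ T, p ∉ n' := fun n' hn' h =>
    hpU (Set.mem_biUnion (Finset.mem_coe.mpr (Finset.mem_insert_of_mem hn')) h)
  have hp0 : (p : F) ≠ 0 := by
    intro h0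
    apply hpI₀
    have : p = 0 := Subtype.ext h0
    rw [this]; exact I₀.zero_mem
  have hpinv : (p : F)⁻¹ ∉ O := (uz37_inv_not_mem_iff O _).mpr ⟨hp0, (hmemJ p).mp hpJ⟩
  -- `p = ξ * c₀ / s` with `c₀, s ∉ n`
  obtain ⟨c, hc, hpc⟩ := hgenD (p : F) (lp7_le_loc B n _ p.2) hp0 hpinv
  obtain ⟨s, hs, hsc⟩ := hc
  have hc₀n : (⟨(s : F) * c, hsc⟩ : B) ∉ n := by
    intro hcn
    apply hpI₀
    rw [hmemI₀]
    refine ⟨s, hs, ⟨(s : F) * c, hsc⟩, hcn, Subtype.ext ?_⟩
    show (s : F) * (p : F) = (ξ : F) * ((s : F) * c)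
    rw [hpc]; ring
  have hs0 : (s : F) ≠ 0 := lp7_ne_zero_of_not_mem B n s hs
  have hc0 : c ≠ 0 := by
    rintro rfl
    exact hp0 (by rw [hpc, mul_zero])
  have hpinv_eq : (p : F)⁻¹ = (ξ : F)⁻¹ * ((s : F) * ((s : F) * c)⁻¹) := by
    rw [hpc]; field_simp
  refine ⟨p, hp0, hpinv, ?_, ?_, hpT⟩
  · intro x hx hxinv
    have h1 : x * (p : F)⁻¹ = x * (ξ : F)⁻¹ * ((s : F) * ((s : F) * c)⁻¹) := by
      rw [hpinv_eq]; ring
    rw [h1]
    exact O.mul_mem _ _ (hU x hx hxinv) (O.mul_mem _ _ (hBO _ s.2) (hthr ⟨(s : F) * c, hsc⟩ hc₀n))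
  · intro O' hBO' hthr' hπO' hne
    rw [hpinv_eq]
    exact O'.mul_mem _ _ (hD4 O' hBO' hthr' hπO' hne)
      (O'.mul_mem _ _ (hBO' _ s.2) (hthr' ⟨(s : F) * c, hsc⟩ hc₀n))

/-- **Semi-local unique zero at a one-branch point** (interface form): a rational horizontal `O`
through the one-branch closed point `n` of the special fibre of the chart `B` has a uniformiser
which is a unit of every other horizontal valuation ring through `n` and of EVERY valuation ring
through each of finitely many other closed points `n'` of the special fibre. -/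
theorem slp9_UZ (π : R) (hπ : Irreducible π) (B : Subalgebra R F) [hN : IsNoetherianRing B]
    (hfrac : ∀ x : F, ∃ a ∈ B, ∃ b ∈ B, b ≠ 0 ∧ x * b = a)
    (n : Ideal B) (hn : n.IsMaximal) (hπn : algebraMap R B π ∈ n)
    (hone : ∃ z : B, z ∈ n ∧
      ∀ x ∈ n, ∃ s : B, s ∉ n ∧ ∃ a c : B, s * x = a * z + c * algebraMap R B π)
    (T : Finset (Ideal B))
    (hT : ∀ n' ∈ T, n'.IsMaximal ∧ algebraMap R B π ∈ n' ∧ n' ≠ n)
    (O : ValuationSubring F) (hO : s34i47_IsHoriz π O) (hOn : s34i47_Through B n O)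
    (hrat : s34i47_IsRat K O) :
    ∃ p : F, p ≠ 0 ∧ p ∈ O ∧ p⁻¹ ∉ O ∧ (∀ x ∈ O, x⁻¹ ∉ O → x * p⁻¹ ∈ O) ∧
      (∀ O' : ValuationSubring F, s34i47_IsHoriz π O' → s34i47_Through B n O' → O' ≠ O →
        p ∈ O' ∧ p⁻¹ ∈ O') ∧
      (∀ n' ∈ T, ∀ O' : ValuationSubring F, s34i47_Through B n' O' → p ∈ O' ∧ p⁻¹ ∈ O') := by
  obtain ⟨z, hz, hgen⟩ := hone
  obtain ⟨hOtop, hPIR, hRO, hπO⟩ := hO
  obtain ⟨hBO, hthr⟩ := hOn
  have hnp : (show Ideal B.toSubring from n).IsPrime := hn.isPrime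
  have hgen' : ∀ x ∈ n, ∃ s : B, s ∉ n ∧ ∃ a c : B,
      (s : F) * (x : F) = (a : F) * z + (c : F) * algebraMap R F π := by
    intro x hx
    obtain ⟨s, hs, a, c, h⟩ := hgen x hx
    exact ⟨s, hs, a, c, congrArg Subtype.val h⟩
  have hT' : ∀ n' ∈ T, (show Ideal B.toSubring from n').IsPrime ∧
      algebraMap R B π ∈ n' ∧ ¬ n ≤ n' := by
    intro n' hn'
    obtain ⟨hmax, hπn', hne⟩ := hT n' hn'
    exact ⟨hmax.isPrime, hπn', fun hle => hne (hn.eq_of_le hmax.ne_top hle).symm⟩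
  obtain ⟨p, hp0, hpinv, hunif, hother, hpT⟩ :=
    @slp9_UZ_core R K F _ _ _ _ _ _ _ _ _ _ π hπ B.toSubring hN (fun r => B.algebraMap_mem r) hfrac
      n hnp hπn z hz hgen' T hT' O hOtop hPIR hRO hπO hBO hthr hrat
  refine ⟨(p : F), hp0, hBO _ p.2, hpinv, hunif, ?_, ?_⟩
  · intro O' hO' hthrO' hne
    exact ⟨hthrO'.1 _ p.2, hother O' hthrO'.1 hthrO'.2 hO'.2.2.2 hne⟩
  · intro n' hn' O' hO'
    exact ⟨hO'.1 _ p.2, hO'.2 p (hpT n' hn')⟩

/-- **Semi-local (LP) at finitely many one-branch points** (chain B, row B4): one `c` for all the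
points of the finite set `S`. -/
theorem slp9_main (π : R) (hπ : Irreducible π) (B : Subalgebra R F) [IsNoetherianRing B]
    (hfrac : ∀ x : F, ∃ a ∈ B, ∃ b ∈ B, b ≠ 0 ∧ x * b = a)
    (S : Set (Ideal B)) (hSfin : S.Finite)
    (hS : ∀ n ∈ S, n.IsMaximal ∧ algebraMap R B π ∈ n ∧ ∃ z : B, z ∈ n ∧
      ∀ x ∈ n, ∃ s : B, s ∉ n ∧ ∃ a c : B, s * x = a * z + c * algebraMap R B π)
    (m : ℕ) (hm : 0 < m) (f : F) (hf : f ≠ 0)
    (hOrd : s34i47_Ord π m f) (hRat : s34i47_Rat K π f) (hFin : s34i47_Fin π f) :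
    ∃ c : F, c ≠ 0 ∧ ∀ n ∈ S, ∀ O : ValuationSubring F, s34i47_IsHoriz π O →
      s34i47_Through B n O → f / c ^ m ∈ O ∧ c ^ m / f ∈ O := by
  classical
  have hfin : {O : ValuationSubring F | s34i47_IsHoriz π O ∧ (∃ n ∈ S, s34i47_Through B n O) ∧
      ¬ (f ∈ O ∧ f⁻¹ ∈ O)}.Finite :=
    hFin.subset fun O hO => ⟨hO.1, hO.2.2⟩
  set T : Finset (ValuationSubring F) := hfin.toFinset with hTdef
  have hmemT : ∀ O : ValuationSubring F, O ∈ T ↔
      s34i47_IsHoriz π O ∧ (∃ n ∈ S, s34i47_Through B n O) ∧ ¬ (f ∈ O ∧ f⁻¹ ∈ O) := by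
    intro O
    rw [hTdef, Set.Finite.mem_toFinset]
    rfl
  have hex : ∀ O ∈ T, ∃ g : F, g ≠ 0 ∧ lp9_IsU O (f / g ^ m) ∧
      ∀ O' : ValuationSubring F, s34i47_IsHoriz π O' → (∃ n ∈ S, s34i47_Through B n O') →
        O' ≠ O → lp9_IsU O' g := by
    intro O hO
    rw [hmemT] at hO
    obtain ⟨hOh, ⟨n, hnS, hOn⟩, hnu⟩ := hO
    have hrat : s34i47_IsRat K O := (hRat O hOh).resolve_left hnu
    obtain ⟨hnmax, hπn, hone⟩ := hS n hnS
    obtain ⟨p, hp0, hpO, hpinv, hgen, hother, hpT⟩ :=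
      slp9_UZ (K := K) π hπ B hfrac n hnmax hπn hone (hSfin.toFinset.erase n)
        (fun n' hn' => by
          obtain ⟨hne, hmem⟩ := Finset.mem_erase.mp hn'
          obtain ⟨h1, h2, -⟩ := hS n' (hSfin.mem_toFinset.mp hmem)
          exact ⟨h1, h2, hne⟩) O hOh hOn hrat
    obtain ⟨ε, w, hε, hεinv, hfw⟩ := hOrd O hOh
    have hw : w ≠ 0 := by
      rintro rfl
      apply hf
      rw [hfw, zero_pow (by omega), mul_zero]
    obtain ⟨k, hk⟩ := lp9_exists_zpow O hOh.2.1 p hp0 hpO hpinv hgen w hw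
    refine ⟨p ^ k, zpow_ne_zero k hp0, ?_, ?_⟩
    · have he : f / (p ^ k) ^ m = ε * (w / p ^ k) ^ m := by
        rw [hfw, div_pow, mul_div_assoc]
      rw [he]
      exact lp9_IsU_mul ⟨hε, hεinv⟩ (lp9_IsU_pow hk m)
    · rintro O' hO' ⟨n', hn'S, hO'n'⟩ hne
      by_cases hnn : n' = n
      · subst hnn
        exact lp9_IsU_zpow (hother O' hO' hO'n' hne) k
      · exact lp9_IsU_zpow
          (hpT n' (Finset.mem_erase.mpr ⟨hnn, hSfin.mem_toFinset.mpr hn'S⟩) O' hO'n') k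
  choose! g hg0 hgU hgother using hex
  refine ⟨∏ O ∈ T, g O, Finset.prod_ne_zero_iff.mpr hg0, ?_⟩
  intro n hnS O hO hOn
  have key : lp9_IsU O (f / (∏ O' ∈ T, g O') ^ m) := by
    by_cases hOT : O ∈ T
    · have hsplit : ∏ O' ∈ T, g O' = g O * ∏ O' ∈ T.erase O, g O' :=
        (Finset.mul_prod_erase T g hOT).symm
      have hrest : lp9_IsU O (∏ O' ∈ T.erase O, g O') := by
        apply lp9_IsU_prod
        intro O' hO'
        have h := Finset.mem_erase.mp hO'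
        exact hgother O' h.2 O hO ⟨n, hnS, hOn⟩ (Ne.symm h.1)
      have he : f / (∏ O' ∈ T, g O') ^ m =
          (f / g O ^ m) * ((∏ O' ∈ T.erase O, g O') ^ m)⁻¹ := by
        rw [hsplit, mul_pow, div_mul_eq_div_div, div_eq_mul_inv (f / g O ^ m)]
      rw [he]
      exact lp9_IsU_mul (hgU O hOT) (lp9_IsU_inv (lp9_IsU_pow hrest m))
    · have hfU : lp9_IsU O f := by
        by_contra h
        exact hOT ((hmemT O).mpr ⟨hO, ⟨n, hnS, hOn⟩, h⟩)
      have hcU : lp9_IsU O (∏ O' ∈ T, g O') := by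
        apply lp9_IsU_prod
        intro O' hO'
        exact hgother O' hO' O hO ⟨n, hnS, hOn⟩ (by rintro rfl; exact hOT hO')
      rw [div_eq_mul_inv]
      exact lp9_IsU_mul hfU (lp9_IsU_inv (lp9_IsU_pow hcU m))
  refine ⟨key.1, ?_⟩
  have h2 := key.2
  rwa [inv_div] at h2

end Point

end Fermat.Agent.S35
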