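import Mathlib
import Fermat.Agent.S35.SemiLocalLP9
import Fermat.Agent.S35.LocStrLab79

/-!
# S35 lab, chain B, row B4 (helper9): semi-local `(LP)` from the labelled local structure

Binding of `slp9_main` (one-branch points) and of the landed one-point `(LP)` (`uz37_Pkg_UZ`,
`lp9_Pkg_LP`, valid at nodes) to the labelled local structure `nl79_LocStr π B V₁ V₂`:

* `slp9_lab`: `S` a finite set of closed points of the special fibre such that a point of `S`
  lying on both branches is the ONLY point of `S`; then one `c` works for all points of `S`.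
* `slp9_hLP`: the literal hypothesis `hLP` of `ldo54_localDatum_of_transport` for a family
  `Sig n` of such sets.
-/

set_option autoImplicit false

namespace Fermat.Agent.S35

open Fermat.Agent.S34

variable {R K F : Type} [CommRing R] [IsDomain R] [IsDiscreteValuationRing R] [Field K] [Field F]
  [Algebra R K] [IsFractionRing R K] [Algebra R F] [Algebra K F] [IsScalarTower R K F]

/-- **Semi-local (LP) from the labelled local structure**: `S` is a finite set of closed points of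
the special fibre of the chart `B`, and a point of `S` on both branches (a node) is the only
point of `S`. -/
theorem slp9_lab (π : R) (hπ : Irreducible π) (B : Subalgebra R F) [hN : IsNoetherianRing B]
    (hfrac : ∀ x : F, ∃ a ∈ B, ∃ b ∈ B, b ≠ 0 ∧ x * b = a)
    (V₁ V₂ : Subring F) (hLS : nl79_LocStr π B V₁ V₂)
    (S : Set (Ideal B)) (hSfin : S.Finite)
    (hSmax : ∀ n ∈ S, n.IsMaximal ∧ algebraMap R B π ∈ n)
    (hSnode : ∀ n ∈ S, sf79_OnBr π B V₁ n → sf79_OnBr π B V₂ n → ∀ n' ∈ S, n' = n)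
    (m : ℕ) (hm : 0 < m) (f : F) (hf : f ≠ 0)
    (hOrd : s34i47_Ord π m f) (hRat : s34i47_Rat K π f) (hFin : s34i47_Fin π f) :
    ∃ c : F, c ≠ 0 ∧ ∀ n ∈ S, ∀ O : ValuationSubring F, s34i47_IsHoriz π O →
      s34i47_Through B n O → f / c ^ m ∈ O ∧ c ^ m / f ∈ O := by
  by_cases hnode : ∃ n ∈ S, sf79_OnBr π B V₁ n ∧ sf79_OnBr π B V₂ n
  · obtain ⟨n, hnS, h1, h2⟩ := hnode
    have hUZ : s34i47_UniqueZero K π B :=
      uz37_Pkg_UZ R K F π hπ B hN hfrac (nl79_locStr_weak π B V₁ V₂ hLS)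
    obtain ⟨c, hc0, hc⟩ := lp9_Pkg_LP R K F π hπ B m hm f hf hUZ hOrd hRat hFin n
      (hSmax n hnS).1 (hSmax n hnS).2
    refine ⟨c, hc0, ?_⟩
    intro n' hn'S O hO hOn'
    rw [hSnode n hnS h1 h2 n' hn'S] at hOn'
    exact hc O hO hOn'
  · refine slp9_main (K := K) π hπ B hfrac S hSfin ?_ m hm f hf hOrd hRat hFin
    intro n hnS
    obtain ⟨hmax, hπn⟩ := hSmax n hnS
    refine ⟨hmax, hπn, ?_⟩
    rcases hLS n hmax hπn with ⟨-, -, z, hz, hgen⟩ | ⟨-, -, z, hz, hgen⟩ | ⟨h1, h2, -⟩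
    · exact ⟨z, hz.1, hgen⟩
    · exact ⟨z, hz.1, hgen⟩
    · exact absurd ⟨n, hnS, h1, h2⟩ hnode

/-- The literal hypothesis `hLP` of `ldo54_localDatum_of_transport` (chain B): `Sig n` is a finite
set of closed points of the special fibre, and a node in `Sig n` is its only point. -/
theorem slp9_hLP (π : R) (hπ : Irreducible π) (B : Subalgebra R F) [IsNoetherianRing B]
    (hfrac : ∀ x : F, ∃ a ∈ B, ∃ b ∈ B, b ≠ 0 ∧ x * b = a)
    (V₁ V₂ : Subring F) (hLS : nl79_LocStr π B V₁ V₂)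
    (Sig : Ideal B → Set (Ideal B))
    (hSig : ∀ n : Ideal B, n.IsMaximal → algebraMap R B π ∈ n →
      (Sig n).Finite ∧ (∀ n' ∈ Sig n, n'.IsMaximal ∧ algebraMap R B π ∈ n') ∧
        ∀ n' ∈ Sig n, sf79_OnBr π B V₁ n' → sf79_OnBr π B V₂ n' → ∀ n'' ∈ Sig n, n'' = n')
    (m : ℕ) (hm : 0 < m) (f : F) (hf : f ≠ 0)
    (hOrd : s34i47_Ord π m f) (hRat : s34i47_Rat K π f) (hFin : s34i47_Fin π f) :
    ∀ n : Ideal B, n.IsMaximal → algebraMap R B π ∈ n →
      ∃ c : F, c ≠ 0 ∧ ∀ n' ∈ Sig n, ∀ O : ValuationSubring F, s34i47_IsHoriz π O →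
        s34i47_Through B n' O → f / c ^ m ∈ O ∧ c ^ m / f ∈ O := by
  intro n hn hπn
  obtain ⟨hfin, hmax, hnode⟩ := hSig n hn hπn
  exact slp9_lab (K := K) π hπ B hfrac V₁ V₂ hLS (Sig n) hfin hmax hnode m hm f hf hOrd hRat hFin

end Fermat.Agent.S35
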