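import Mathlib
import Fermat.Agent.S34.SpecFibre79
import Fermat.Agent.S34.Transv66
import Fermat.Agent.S35.Dense12

/-!
# S35 lab, registry row 546 (L1d-smooth), twin (helper12): the local datum at a one-branch point

Abstract (Mathlib + the `sf79_*` shapes of `SpecFibre79` + the `s34i47_*` shapes of `Iface47`).

`B` a noetherian chart inside the two valuation rings `V₁`, `V₂` of `F` (uniformiser `π`),
saturated in `V₁ ⊓ V₂`; `n` a closed point of the special fibre which lies on the branch of `V₁`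
(with local coordinate `z`, `sf79_Unif`) and NOT on the branch of `V₂`.

**`sd12_datum_one`**: for ANY `u ≡ 1 mod π (V₁ ⊓ V₂)` which is an `m`-th power up to a horizontal unit
at `n` (the (LP) clause of `Iface47`: `u / c ^ m` is a unit of every horizontal `O` through `n`)
there is `φ ≡ 1 mod π (V₁ ⊓ V₂)` with `φ ^ m * u` regular at `n`: the datum `hLD` of `ntc47_main`.

Proof.  (S1) scale `c` by a power of `π` to a unit `c'` of `V₁`.  (S2) `y := u / c' ^ m` is a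
unit of `B_n`: Krull (KR) gives `π ^ k s y ∈ B`; `y ∈ V₁`, and a power of `t ∈ p₂ ∖ n` pushes `y`
into `V₂`, so saturation removes `π ^ k`.  (S3) `c' ^ m ≡ y⁻¹ mod π V₁`, and the branch is a
discrete valuation ring at `n` (`sf79_unif_pow`), so `c' ≡ e / e' mod π V₁` with `e, e' ∉ n`.
(S4) `B_n` is dense for `V₂` (`dn12_dense_frac`): `η := e / e' + π x₂` with `x₂ ∈ B_n` and
`η ≡ c' mod π c' V₂`.  (S5) `φ := η / c'`.

* `sd12_onBr`     : a closed point not on the branch of `V₂` is on the branch of `V₁`.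
* `sd12_val`      : every `x ≠ 0` is `π ^ i / π ^ i'` times a unit of `V`.
* `sd12_regular`  : removing `π ^ k` at a one-branch point.
* `sd12_red_unit` : (S3).
* `sd12_datum_core` : the datum at one point (with `V₁ = B_{p₁}` as a hypothesis).
* `sd12_datum_one`  : literal twin of `sd89_datum_one` (SmoothDatum89), independent proof.
* `sd12_datum`      : literal twin of `sd89_datum` (every closed point which is not a node).
* `sd12_localDatum` : literal twin of `sd89_localDatum` (`s34i47_LocalDatum` from a node datum).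
-/

set_option autoImplicit false

namespace Fermat.Agent.S35

open Fermat.Agent.S34

section SD12

variable {R F : Type*} [CommRing R] [Field F] [Algebra R F]

/-- `1 + π V ⊆ V^×` for a subring with the unit property. -/
theorem sd12_one_add (π : R) (hp0 : algebraMap R F π ≠ 0) (V : Subring F)
    (hπ : algebraMap R F π ∈ V) (hπV : (algebraMap R F π)⁻¹ ∉ V)
    (hV : ∀ x ∈ V, (algebraMap R F π)⁻¹ * x ∉ V → x⁻¹ ∈ V) :
    ∀ x ∈ V, (1 + algebraMap R F π * x)⁻¹ ∈ V := by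
  intro x hx
  apply hV _ (V.add_mem V.one_mem (V.mul_mem hπ hx))
  intro h
  apply hπV
  have e : (algebraMap R F π)⁻¹ = (algebraMap R F π)⁻¹ * (1 + algebraMap R F π * x) - x := by
    field_simp
    ring
  rw [e]
  exact V.sub_mem h hx

/-- A closed point of the special fibre which is not on the branch of `V₂` is on the branch of
`V₁` (`π B = p₁ ∩ p₂ ⊇ p₁ p₂`). -/
theorem sd12_onBr (π : R) (hp0 : algebraMap R F π ≠ 0) (B : Subalgebra R F) (V₁ V₂ : Subring F)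
    (hB₁ : ∀ x ∈ B, x ∈ V₁) (hB₂ : ∀ x ∈ B, x ∈ V₂)
    (hsat : ∀ x ∈ B, (algebraMap R F π)⁻¹ * x ∈ V₁ → (algebraMap R F π)⁻¹ * x ∈ V₂ →
      (algebraMap R F π)⁻¹ * x ∈ B)
    (n : Ideal B) (hn : n.IsPrime) (hπn : algebraMap R B π ∈ n)
    (h2 : ¬ sf79_OnBr π B V₂ n) : sf79_OnBr π B V₁ n := by
  obtain ⟨t, ht⟩ := not_forall.mp h2
  obtain ⟨htV, htn⟩ := Classical.not_imp.mp ht
  intro x hx
  have hxt : (algebraMap R F π)⁻¹ * ((x : F) * (t : F)) ∈ B := by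
    apply hsat _ (B.mul_mem x.2 t.2)
    · have e : (algebraMap R F π)⁻¹ * ((x : F) * (t : F))
          = ((algebraMap R F π)⁻¹ * (x : F)) * (t : F) := by ring
      rw [e]; exact V₁.mul_mem hx (hB₁ _ t.2)
    · have e : (algebraMap R F π)⁻¹ * ((x : F) * (t : F))
          = (x : F) * ((algebraMap R F π)⁻¹ * (t : F)) := by ring
      rw [e]; exact V₂.mul_mem (hB₂ _ x.2) htV
  have hprod : x * t = algebraMap R B π * ⟨_, hxt⟩ := by
    apply Subtype.ext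
    show (x : F) * (t : F) = algebraMap R F π * ((algebraMap R F π)⁻¹ * ((x : F) * (t : F)))
    field_simp
  have hmem : x * t ∈ n := by
    rw [hprod]; exact n.mul_mem_right _ hπn
  exact (hn.mem_or_mem hmem).resolve_right htn

/-- every nonzero element of `B` is `π ^ i` times a unit of `V`. -/
theorem sd12_val_B (π : R) (B : Subalgebra R F) (V : Subring F)
    (hBV : ∀ x ∈ B, x ∈ V)
    (hV : ∀ x ∈ V, (algebraMap R F π)⁻¹ * x ∉ V → x⁻¹ ∈ V)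
    (harch : ∀ x ∈ B, x ≠ 0 → ∃ k : ℕ, (algebraMap R F π ^ k)⁻¹ * x ∉ V)
    (x : F) (hx : x ∈ B) (hx0 : x ≠ 0) :
    ∃ i : ℕ, (algebraMap R F π ^ i)⁻¹ * x ∈ V ∧ ((algebraMap R F π ^ i)⁻¹ * x)⁻¹ ∈ V := by
  classical
  have hex := harch x hx hx0
  have hk0 : Nat.find hex ≠ 0 := by
    intro h0
    have h1 := Nat.find_spec hex
    rw [h0] at h1
    apply h1
    simpa using hBV x hx
  obtain ⟨i, hi⟩ := Nat.exists_eq_succ_of_ne_zero hk0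
  have hmem : (algebraMap R F π ^ i)⁻¹ * x ∈ V := by
    by_contra hcon
    exact Nat.find_min hex (by omega : i < Nat.find hex) hcon
  refine ⟨i, hmem, hV _ hmem ?_⟩
  have h1 := Nat.find_spec hex
  rw [hi] at h1
  intro h2
  apply h1
  have e : (algebraMap R F π ^ (i + 1))⁻¹ * x
      = (algebraMap R F π)⁻¹ * ((algebraMap R F π ^ i)⁻¹ * x) := by
    rw [pow_succ, mul_inv]; ring
  rw [e]; exact h2

/-- every nonzero element of `F` is `π ^ i / π ^ i'` times a unit of `V`. -/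
theorem sd12_val (π : R) (hp0 : algebraMap R F π ≠ 0) (B : Subalgebra R F) (V : Subring F)
    (hBV : ∀ x ∈ B, x ∈ V)
    (hV : ∀ x ∈ V, (algebraMap R F π)⁻¹ * x ∉ V → x⁻¹ ∈ V)
    (harch : ∀ x ∈ B, x ≠ 0 → ∃ k : ℕ, (algebraMap R F π ^ k)⁻¹ * x ∉ V)
    (hFrac : ∀ x : F, ∃ a ∈ B, ∃ b ∈ B, b ≠ 0 ∧ x * b = a)
    (x : F) (hx0 : x ≠ 0) :
    ∃ i i' : ℕ, x * algebraMap R F π ^ i' * (algebraMap R F π ^ i)⁻¹ ∈ V ∧
      (x * algebraMap R F π ^ i' * (algebraMap R F π ^ i)⁻¹)⁻¹ ∈ V := by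
  obtain ⟨a, ha, b, hb, hb0, hxb⟩ := hFrac x
  have ha0 : a ≠ 0 := by rw [← hxb]; exact mul_ne_zero hx0 hb0
  obtain ⟨i, hi, hiinv⟩ := sd12_val_B π B V hBV hV harch a ha ha0
  obtain ⟨i', hi', hi'inv⟩ := sd12_val_B π B V hBV hV harch b hb hb0
  have hpi : algebraMap R F π ^ i ≠ 0 := pow_ne_zero _ hp0
  have hpi' : algebraMap R F π ^ i' ≠ 0 := pow_ne_zero _ hp0
  have e : x * algebraMap R F π ^ i' * (algebraMap R F π ^ i)⁻¹
      = ((algebraMap R F π ^ i)⁻¹ * a) * ((algebraMap R F π ^ i')⁻¹ * b)⁻¹ := by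
    rw [← hxb]; field_simp
  refine ⟨i, i', ?_, ?_⟩
  · rw [e]; exact V.mul_mem hi hi'inv
  · rw [e, mul_inv, inv_inv]; exact V.mul_mem hiinv hi'

/-- the archimedean property on `F`. -/
theorem sd12_arch (π : R) (hp0 : algebraMap R F π ≠ 0) (B : Subalgebra R F) (V : Subring F)
    (hBV : ∀ x ∈ B, x ∈ V)
    (hV : ∀ x ∈ V, (algebraMap R F π)⁻¹ * x ∉ V → x⁻¹ ∈ V)
    (harch : ∀ x ∈ B, x ≠ 0 → ∃ k : ℕ, (algebraMap R F π ^ k)⁻¹ * x ∉ V)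
    (hFrac : ∀ x : F, ∃ a ∈ B, ∃ b ∈ B, b ≠ 0 ∧ x * b = a) :
    ∀ x : F, ∃ k : ℕ, algebraMap R F π ^ k * x ∈ V := by
  intro x
  by_cases hx0 : x = 0
  · exact ⟨0, by rw [hx0, mul_zero]; exact V.zero_mem⟩
  · obtain ⟨i, i', h, -⟩ := sd12_val π hp0 B V hBV hV harch hFrac x hx0
    refine ⟨i', ?_⟩
    have hπV : algebraMap R F π ∈ V := hBV _ (B.algebraMap_mem π)
    have e : algebraMap R F π ^ i' * x
        = algebraMap R F π ^ i * (x * algebraMap R F π ^ i' * (algebraMap R F π ^ i)⁻¹) := by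
      have hpi : algebraMap R F π ^ i ≠ 0 := pow_ne_zero _ hp0
      field_simp
    rw [e]; exact V.mul_mem (V.pow_mem hπV i) h

/-- removing a power of `π` with the saturation of `B` in `V₁ ⊓ V₂`. -/
theorem sd12_desat (π : R) (hp0 : algebraMap R F π ≠ 0) (B : Subalgebra R F) (V₁ V₂ : Subring F)
    (hB₁ : ∀ x ∈ B, x ∈ V₁) (hB₂ : ∀ x ∈ B, x ∈ V₂)
    (hsat : ∀ x ∈ B, (algebraMap R F π)⁻¹ * x ∈ V₁ → (algebraMap R F π)⁻¹ * x ∈ V₂ →
      (algebraMap R F π)⁻¹ * x ∈ B)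
    (y : F) (hy₁ : y ∈ V₁) (hy₂ : y ∈ V₂) :
    ∀ k : ℕ, algebraMap R F π ^ k * y ∈ B → y ∈ B := by
  have hπ₁ : algebraMap R F π ∈ V₁ := hB₁ _ (B.algebraMap_mem π)
  have hπ₂ : algebraMap R F π ∈ V₂ := hB₂ _ (B.algebraMap_mem π)
  intro k
  induction k with
  | zero => intro h; simpa using h
  | succ k ih =>
    intro h
    apply ih
    have e : algebraMap R F π ^ k * y
        = (algebraMap R F π)⁻¹ * (algebraMap R F π ^ (k + 1) * y) := by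
      rw [pow_succ]; field_simp
    rw [e]
    apply hsat _ h
    · rw [← e]; exact V₁.mul_mem (V₁.pow_mem hπ₁ k) hy₁
    · rw [← e]; exact V₂.mul_mem (V₂.pow_mem hπ₂ k) hy₂

/-- at a point `n` not on the branch of `V₂`: an element of `V₁ ∩ B_n[1/π]` lies in `B_n`. -/
theorem sd12_regular (π : R) (hp0 : algebraMap R F π ≠ 0) (B : Subalgebra R F)
    (V₁ V₂ : Subring F) (hB₁ : ∀ x ∈ B, x ∈ V₁) (hB₂ : ∀ x ∈ B, x ∈ V₂)
    (hsat : ∀ x ∈ B, (algebraMap R F π)⁻¹ * x ∈ V₁ → (algebraMap R F π)⁻¹ * x ∈ V₂ →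
      (algebraMap R F π)⁻¹ * x ∈ B)
    (harchF₂ : ∀ x : F, ∃ k : ℕ, algebraMap R F π ^ k * x ∈ V₂)
    (n : Ideal B) (hn : n.IsPrime) (t : B) (htn : t ∉ n)
    (htV : (algebraMap R F π)⁻¹ * (t : F) ∈ V₂)
    (y : F) (hy₁ : y ∈ V₁) (s : B) (hs : s ∉ n) (k : ℕ)
    (hk : algebraMap R F π ^ k * ((s : F) * y) ∈ B) :
    ∃ s' : B, s' ∉ n ∧ (s' : F) * y ∈ B := by
  obtain ⟨K, hK⟩ := harchF₂ y
  refine ⟨t ^ K * s, ?_, ?_⟩
  · intro h
    rcases hn.mem_or_mem h with h' | h'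
    · exact htn (hn.mem_of_pow_mem _ h')
    · exact hs h'
  · have hcoe : (((t ^ K * s : B) : B) : F) * y = (t : F) ^ K * ((s : F) * y) := by
      have h1 : (((t ^ K * s : B) : B) : F) = (t : F) ^ K * (s : F) := rfl
      rw [h1]; ring
    rw [hcoe]
    apply sd12_desat π hp0 B V₁ V₂ hB₁ hB₂ hsat _ ?_ ?_ k ?_
    · exact V₁.mul_mem (V₁.pow_mem (hB₁ _ t.2) K) (V₁.mul_mem (hB₁ _ s.2) hy₁)
    · have e : (t : F) ^ K * ((s : F) * y)
          = (s : F) * (((algebraMap R F π)⁻¹ * (t : F)) ^ K * (algebraMap R F π ^ K * y)) := by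
        rw [mul_pow, inv_pow]
        have hpK : algebraMap R F π ^ K ≠ 0 := pow_ne_zero _ hp0
        field_simp
      rw [e]
      exact V₂.mul_mem (hB₂ _ s.2) (V₂.mul_mem (V₂.pow_mem htV K) hK)
    · have e : algebraMap R F π ^ k * ((t : F) ^ K * ((s : F) * y))
          = (t : F) ^ K * (algebraMap R F π ^ k * ((s : F) * y)) := by ring
      rw [e]
      exact B.mul_mem (B.pow_mem t.2 K) hk

/-- **(S3)** a unit `c'` of `V₁` whose `m`-th power is congruent modulo `π V₁` to a unit of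
`B_n` is itself congruent modulo `π V₁` to a unit of `B_n` (the branch is a discrete valuation
ring at `n`, `sf79_unif_pow`). -/
theorem sd12_red_unit (π : R) (m : ℕ) (hm0 : 0 < m)
    (B : Subalgebra R F) [IsNoetherianRing B] (V₁ : Subring F)
    (hB₁ : ∀ x ∈ B, x ∈ V₁) (hπ₁ : (algebraMap R F π)⁻¹ ∉ V₁)
    (hV₁ : ∀ x ∈ V₁, (algebraMap R F π)⁻¹ * x ∉ V₁ → x⁻¹ ∈ V₁)
    (hfrac₁ : ∀ x ∈ V₁, ∃ b b' : B, (algebraMap R F π)⁻¹ * (b' : F) ∉ V₁ ∧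
      (b' : F) * x = (b : F))
    (n : Ideal B) [hn : n.IsMaximal] (hOn₁ : sf79_OnBr π B V₁ n)
    (z : B) (hz : sf79_Unif π B V₁ n z)
    (c' : F) (hc' : c' ∈ V₁) (hc'inv : c'⁻¹ ∈ V₁)
    (y1 s1 : B) (hy1 : y1 ∉ n) (hs1 : s1 ∉ n)
    (hrel : (algebraMap R F π)⁻¹ * (c' ^ m * (y1 : F) - (s1 : F)) ∈ V₁) :
    ∃ e e' : B, e ∉ n ∧ e' ∉ n ∧
      (algebraMap R F π)⁻¹ * (c' * (e' : F) - (e : F)) ∈ V₁ := by
  classical
  have hnp : n.IsPrime := hn.isPrime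
  set P : Ideal B := sf79_br π B V₁ hB₁ with hP
  have hPp : P.IsPrime := sf79_br_isPrime π B V₁ hB₁ hπ₁ hV₁
  have hPn : P ≤ n := fun x hx => hOn₁ x hx
  -- `c' ≠ 0`
  have hc'0 : c' ≠ 0 := by
    intro h0
    apply hs1
    apply hOn₁
    have e : (algebraMap R F π)⁻¹ * (s1 : F)
        = -((algebraMap R F π)⁻¹ * (c' ^ m * (y1 : F) - (s1 : F))) := by
      rw [h0, zero_pow (Nat.pos_iff_ne_zero.mp hm0)]; ring
    rw [e]; exact V₁.neg_mem hrel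
  obtain ⟨b, b', hb'V, hbb'⟩ := hfrac₁ c' hc'
  have hb'0 : (b' : F) ≠ 0 := by
    intro h0; apply hb'V; rw [h0, mul_zero]; exact V₁.zero_mem
  have hb'inv : (b' : F)⁻¹ ∈ V₁ := hV₁ _ (hB₁ _ b'.2) hb'V
  have hbV : (algebraMap R F π)⁻¹ * (b : F) ∉ V₁ := by
    intro h
    apply hb'V
    have e : (algebraMap R F π)⁻¹ * (b' : F) = ((algebraMap R F π)⁻¹ * (b : F)) * c'⁻¹ := by
      rw [← hbb']; field_simp
    rw [e]; exact V₁.mul_mem h hc'inv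
  obtain ⟨μ, s, a, hs, ha, hsa⟩ := sf79_unif_pow π B V₁ hB₁ hπ₁ hV₁ n hOn₁ z hz b hbV
  obtain ⟨μ', s', a', hs', ha', hsa'⟩ := sf79_unif_pow π B V₁ hB₁ hπ₁ hV₁ n hOn₁ z hz b' hb'V
  -- membership in the branch
  have h1 : s * b - a * z ^ μ ∈ P := by
    rw [hP, sf79_mem_br]; exact hsa
  have h2 : s' * b' - a' * z ^ μ' ∈ P := by
    rw [hP, sf79_mem_br]; exact hsa'
  have h3 : b' ^ m * s1 - b ^ m * y1 ∈ P := by
    rw [hP, sf79_mem_br]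
    have e : (algebraMap R F π)⁻¹ * (((b' ^ m * s1 - b ^ m * y1 : B) : B) : F)
        = -((b' : F) ^ m * ((algebraMap R F π)⁻¹ * (c' ^ m * (y1 : F) - (s1 : F)))) := by
      have e0 : (((b' ^ m * s1 - b ^ m * y1 : B) : B) : F)
          = (b' : F) ^ m * (s1 : F) - (b : F) ^ m * (y1 : F) := rfl
      rw [e0, ← hbb', mul_pow]; ring
    rw [e]
    exact V₁.neg_mem (V₁.mul_mem (V₁.pow_mem (hB₁ _ b'.2) m) hrel)
  set mk := Ideal.Quotient.mk P with hmk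
  have e1 : mk s * mk b = mk a * mk z ^ μ := by
    have := (Ideal.Quotient.mk_eq_mk_iff_sub_mem (s * b) (a * z ^ μ)).mpr h1
    simpa [map_mul, map_pow] using this
  have e2 : mk s' * mk b' = mk a' * mk z ^ μ' := by
    have := (Ideal.Quotient.mk_eq_mk_iff_sub_mem (s' * b') (a' * z ^ μ')).mpr h2
    simpa [map_mul, map_pow] using this
  have e3 : mk b' ^ m * mk s1 = mk b ^ m * mk y1 := by
    have := (Ideal.Quotient.mk_eq_mk_iff_sub_mem (b' ^ m * s1) (b ^ m * y1)).mpr h3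
    simpa [map_mul, map_pow] using this
  have hmk_ne : ∀ x : B, x ∉ n → mk x ≠ 0 := by
    intro x hx h0
    exact hx (hPn (Ideal.Quotient.eq_zero_iff_mem.mp h0))
  have hbP : mk b ≠ 0 := by
    intro h0
    have : b ∈ P := Ideal.Quotient.eq_zero_iff_mem.mp h0
    rw [hP, sf79_mem_br] at this
    exact hbV this
  have hb'P : mk b' ≠ 0 := by
    intro h0
    have : b' ∈ P := Ideal.Quotient.eq_zero_iff_mem.mp h0
    rw [hP, sf79_mem_br] at this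
    exact hb'V this
  -- `mk z ≠ 0` whenever one of the exponents is positive
  have hζμ : μ ≠ 0 → mk z ≠ 0 := by
    intro hμ h0
    rw [h0, zero_pow hμ, mul_zero] at e1
    rcases mul_eq_zero.mp e1 with h | h
    · exact hmk_ne s hs h
    · exact hbP h
  have hζμ' : μ' ≠ 0 → mk z ≠ 0 := by
    intro hμ h0
    rw [h0, zero_pow hμ, mul_zero] at e2
    rcases mul_eq_zero.mp e2 with h | h
    · exact hmk_ne s' hs' h
    · exact hb'P h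
  -- the comparison of the two exponents
  have key : mk (a' ^ m * s ^ m * s1) * mk z ^ (m * μ')
      = mk (a ^ m * s' ^ m * y1) * mk z ^ (m * μ) := by
    have k1 : (mk a' * mk z ^ μ') ^ m * (mk s ^ m * mk s1)
        = (mk a * mk z ^ μ) ^ m * (mk s' ^ m * mk y1) := by
      rw [← e2, ← e1]
      have k2 : (mk s' * mk b') ^ m * (mk s ^ m * mk s1)
          = mk s' ^ m * mk s ^ m * (mk b' ^ m * mk s1) := by ring
      rw [k2, e3]; ring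
    simp only [map_mul, map_pow]
    rw [pow_mul', pow_mul']
    rw [mul_pow, mul_pow] at k1
    linear_combination k1
  have aux : ∀ (ν d : ℕ) (X Y : B), 0 < d → Y ∉ n → (ν ≠ 0 → mk z ≠ 0) →
      mk X * mk z ^ (m * (ν + d)) = mk Y * mk z ^ (m * ν) → False := by
    intro ν d X Y hd hY hν hXY
    have hfac : mk z ^ (m * ν) * (mk X * mk z ^ (m * d) - mk Y) = 0 := by
      rw [mul_add, pow_add] at hXY
      linear_combination hXY
    rcases mul_eq_zero.mp hfac with h | h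
    · by_cases hν0 : ν = 0
      · rw [hν0, mul_zero, pow_zero] at h
        exact one_ne_zero h
      · exact hν hν0 (pow_eq_zero_iff (mul_ne_zero (Nat.pos_iff_ne_zero.mp hm0) hν0) |>.mp h)
    · apply hY
      have h4 : mk (Y - X * z ^ (m * d)) = 0 := by
        simp only [map_sub, map_mul, map_pow]
        linear_combination -h
      have h5 : Y - X * z ^ (m * d) ∈ n := hPn (Ideal.Quotient.eq_zero_iff_mem.mp h4)
      have h6 : X * z ^ (m * d) ∈ n :=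
        n.mul_mem_left _ (n.pow_mem_of_mem hz.1 _ (Nat.mul_pos hm0 hd))
      have h7 : Y = (Y - X * z ^ (m * d)) + X * z ^ (m * d) := by ring
      rw [h7]; exact n.add_mem h5 h6
  have hA' : a' ^ m * s ^ m * s1 ∉ n := by
    intro h
    rcases hnp.mem_or_mem h with h' | h'
    · rcases hnp.mem_or_mem h' with h'' | h''
      · exact ha' (hnp.mem_of_pow_mem _ h'')
      · exact hs (hnp.mem_of_pow_mem _ h'')
    · exact hs1 h'
  have hA : a ^ m * s' ^ m * y1 ∉ n := by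
    intro h
    rcases hnp.mem_or_mem h with h' | h'
    · rcases hnp.mem_or_mem h' with h'' | h''
      · exact ha (hnp.mem_of_pow_mem _ h'')
      · exact hs' (hnp.mem_of_pow_mem _ h'')
    · exact hy1 h'
  have hμμ' : μ = μ' := by
    rcases lt_trichotomy μ μ' with h | h | h
    · exfalso
      obtain ⟨d, hd⟩ := Nat.exists_eq_add_of_lt h
      have hd' : μ' = μ + (d + 1) := by omega
      rw [hd'] at key
      exact aux μ (d + 1) _ _ (Nat.succ_pos d) hA hζμ key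
    · exact h
    · exfalso
      obtain ⟨d, hd⟩ := Nat.exists_eq_add_of_lt h
      have hd' : μ = μ' + (d + 1) := by omega
      rw [hd'] at key
      exact aux μ' (d + 1) _ _ (Nat.succ_pos d) hA' hζμ' key.symm
  subst hμμ'
  refine ⟨a * s', a' * s, fun h => (hnp.mem_or_mem h).elim ha hs',
    fun h => (hnp.mem_or_mem h).elim ha' hs, ?_⟩
  have e : (algebraMap R F π)⁻¹ * (c' * (((a' * s : B) : B) : F) - (((a * s' : B) : B) : F))
      = (b' : F)⁻¹ * ((a' : F) * ((algebraMap R F π)⁻¹ * ((s : F) * (b : F) - (a : F) * (z : F) ^ μ))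
        - (a : F) * ((algebraMap R F π)⁻¹ * ((s' : F) * (b' : F) - (a' : F) * (z : F) ^ μ))) := by
    have e0 : (((a' * s : B) : B) : F) = (a' : F) * (s : F) := rfl
    have e0' : (((a * s' : B) : B) : F) = (a : F) * (s' : F) := rfl
    rw [e0, e0', ← hbb']
    field_simp
    ring
  rw [e]
  exact V₁.mul_mem hb'inv (V₁.sub_mem (V₁.mul_mem (hB₁ _ a'.2) hsa) (V₁.mul_mem (hB₁ _ a.2) hsa'))

/-- **Row 546 (L1d-smooth): the local datum at a one-branch point.**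
`n` is a closed point of the special fibre on the branch of `V₁` (local coordinate `z`) and not
on the branch of `V₂`; `u ≡ 1 mod π (V₁ ⊓ V₂)`; `c ≠ 0` with `u / c ^ m` a unit of every
horizontal `O` through `n`.  Then there is `φ ≡ 1 mod π (V₁ ⊓ V₂)` with `φ ^ m * u` regular
at `n`. -/
theorem sd12_datum_core (π : R) (hp0 : algebraMap R F π ≠ 0) (m : ℕ) (hm0 : 0 < m)
    (B : Subalgebra R F) [IsNoetherianRing B] (V₁ V₂ : Subring F)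
    (hB₁ : ∀ x ∈ B, x ∈ V₁) (hB₂ : ∀ x ∈ B, x ∈ V₂)
    (hπ₁ : (algebraMap R F π)⁻¹ ∉ V₁) (hπ₂ : (algebraMap R F π)⁻¹ ∉ V₂)
    (hV₁ : ∀ x ∈ V₁, (algebraMap R F π)⁻¹ * x ∉ V₁ → x⁻¹ ∈ V₁)
    (hV₂ : ∀ x ∈ V₂, (algebraMap R F π)⁻¹ * x ∉ V₂ → x⁻¹ ∈ V₂)
    (hsat : ∀ x ∈ B, (algebraMap R F π)⁻¹ * x ∈ V₁ → (algebraMap R F π)⁻¹ * x ∈ V₂ →
      (algebraMap R F π)⁻¹ * x ∈ B)
    (hFrac : ∀ x : F, ∃ a ∈ B, ∃ b ∈ B, b ≠ 0 ∧ x * b = a)
    (harch₁ : ∀ x ∈ B, x ≠ 0 → ∃ k : ℕ, (algebraMap R F π ^ k)⁻¹ * x ∉ V₁)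
    (harch₂ : ∀ x ∈ B, x ≠ 0 → ∃ k : ℕ, (algebraMap R F π ^ k)⁻¹ * x ∉ V₂)
    (hfrac₁ : ∀ x ∈ V₁, ∃ b b' : B, (algebraMap R F π)⁻¹ * (b' : F) ∉ V₁ ∧
      (b' : F) * x = (b : F))
    (n : Ideal B) [hn : n.IsMaximal] (hπn : algebraMap R B π ∈ n)
    (hKr : ∀ x : F,
      (∀ O : ValuationSubring F, s34i47_IsHoriz π O → s34i47_Through B n O → x ∈ O) →
      ∃ s : B, s ∉ n ∧ ∃ k : ℕ, algebraMap R F π ^ k * ((s : F) * x) ∈ B)
    (z : B) (hz : sf79_Unif π B V₁ n z) (hnot₂ : ¬ sf79_OnBr π B V₂ n)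
    (u : F) (hu₁ : (algebraMap R F π)⁻¹ * (u - 1) ∈ V₁)
    (c : F) (hc0 : c ≠ 0)
    (hc : ∀ O : ValuationSubring F, s34i47_IsHoriz π O → s34i47_Through B n O →
      u / c ^ m ∈ O ∧ c ^ m / u ∈ O) :
    ∃ φ : F, (algebraMap R F π)⁻¹ * (φ - 1) ∈ V₁ ∧ (algebraMap R F π)⁻¹ * (φ - 1) ∈ V₂ ∧
      ∃ s : B, s ∉ n ∧ (s : F) * (φ ^ m * u) ∈ B := by
  classical
  have hnp : n.IsPrime := hn.isPrime
  have hpV₁ : algebraMap R F π ∈ V₁ := hB₁ _ (B.algebraMap_mem π)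
  have hpV₂ : algebraMap R F π ∈ V₂ := hB₂ _ (B.algebraMap_mem π)
  have hOn₁ : sf79_OnBr π B V₁ n := sd12_onBr π hp0 B V₁ V₂ hB₁ hB₂ hsat n hnp hπn hnot₂
  obtain ⟨t, ht⟩ := not_forall.mp hnot₂
  obtain ⟨htV, htn⟩ := Classical.not_imp.mp ht
  have harchF₂ := sd12_arch π hp0 B V₂ hB₂ hV₂ harch₂ hFrac
  have h1add₁ := sd12_one_add π hp0 V₁ hpV₁ hπ₁ hV₁
  have h1add₂ := sd12_one_add π hp0 V₂ hpV₂ hπ₂ hV₂
  -- `u` is a unit of `V₁`
  have hu_eq : u = 1 + algebraMap R F π * ((algebraMap R F π)⁻¹ * (u - 1)) := by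
    field_simp; ring
  have huV₁ : u ∈ V₁ := by
    rw [hu_eq]; exact V₁.add_mem V₁.one_mem (V₁.mul_mem hpV₁ hu₁)
  have huinvV₁ : u⁻¹ ∈ V₁ := by
    rw [hu_eq]; exact h1add₁ _ hu₁
  have hu0 : u ≠ 0 := by
    intro h0
    apply hπ₁
    have e : (algebraMap R F π)⁻¹ = -((algebraMap R F π)⁻¹ * (u - 1)) := by rw [h0]; ring
    rw [e]; exact V₁.neg_mem hu₁
  -- (S1) normalise `c`
  obtain ⟨i, i', hc'V, hc'inv⟩ := sd12_val π hp0 B V₁ hB₁ hV₁ harch₁ hFrac c hc0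
  set c' : F := c * algebraMap R F π ^ i' * (algebraMap R F π ^ i)⁻¹ with hc'def
  have hpi : algebraMap R F π ^ i ≠ 0 := pow_ne_zero _ hp0
  have hpi' : algebraMap R F π ^ i' ≠ 0 := pow_ne_zero _ hp0
  have hc'0 : c' ≠ 0 := by
    rw [hc'def]; exact mul_ne_zero (mul_ne_zero hc0 hpi') (inv_ne_zero hpi)
  set ρ : F := algebraMap R F π ^ i * (algebraMap R F π ^ i')⁻¹ with hρdef
  have hρ0 : ρ ≠ 0 := mul_ne_zero hpi (inv_ne_zero hpi')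
  have hρm : ρ ^ m ≠ 0 := pow_ne_zero _ hρ0
  have hc_eq : c = c' * ρ := by
    rw [hc'def, hρdef]; field_simp
  have hcm_eq : c ^ m = c' ^ m * ρ ^ m := by
    calc c ^ m = (c' * ρ) ^ m := by rw [← hc_eq]
      _ = c' ^ m * ρ ^ m := mul_pow _ _ _
  -- (S2) `y := u / c' ^ m` is a unit of `B_n`
  set y : F := u / c' ^ m with hydef
  have hy₁ : y ∈ V₁ := by
    rw [hydef, div_eq_mul_inv, ← inv_pow]; exact V₁.mul_mem huV₁ (V₁.pow_mem hc'inv m)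
  have hyinv₁ : y⁻¹ ∈ V₁ := by
    rw [hydef, inv_div, div_eq_mul_inv]; exact V₁.mul_mem (V₁.pow_mem hc'V m) huinvV₁
  have hyO : ∀ O : ValuationSubring F, s34i47_IsHoriz π O → s34i47_Through B n O →
      y ∈ O ∧ y⁻¹ ∈ O := by
    intro O hO hT
    obtain ⟨h1, h2⟩ := hc O hO hT
    have hπO : algebraMap R F π ∈ O := hO.2.2.1 π
    have hπinvO : (algebraMap R F π)⁻¹ ∈ O := hO.2.2.2
    have hρO : ρ ∈ O := by
      rw [hρdef, ← inv_pow]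
      exact O.mul_mem _ _ (O.pow_mem hπO i) (O.pow_mem hπinvO i')
    have hρinvO : ρ⁻¹ ∈ O := by
      rw [hρdef, mul_inv, inv_inv, ← inv_pow]
      exact O.mul_mem _ _ (O.pow_mem hπinvO i) (O.pow_mem hπO i')
    have e1 : y = (u / c ^ m) * ρ ^ m := by
      rw [hydef, hcm_eq, div_mul_eq_div_div, div_mul_cancel₀ _ hρm]
    have e2 : y⁻¹ = (c ^ m / u) * ρ⁻¹ ^ m := by
      rw [hydef, inv_div, hcm_eq, inv_pow, mul_div_right_comm, mul_assoc,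
        mul_inv_cancel₀ hρm, mul_one]
    refine ⟨?_, ?_⟩
    · rw [e1]; exact O.mul_mem _ _ h1 (O.pow_mem hρO m)
    · rw [e2]; exact O.mul_mem _ _ h2 (O.pow_mem hρinvO m)
  obtain ⟨sa, hsa, ka, hka⟩ := hKr y (fun O hO hT => (hyO O hO hT).1)
  obtain ⟨sb, hsb, kb, hkb⟩ := hKr y⁻¹ (fun O hO hT => (hyO O hO hT).2)
  obtain ⟨s1, hs1, hs1y⟩ := sd12_regular π hp0 B V₁ V₂ hB₁ hB₂ hsat harchF₂ n hnp t htn htV
    y hy₁ sa hsa ka hka
  obtain ⟨s2, hs2, hs2y⟩ := sd12_regular π hp0 B V₁ V₂ hB₁ hB₂ hsat harchF₂ n hnp t htn htV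
    y⁻¹ hyinv₁ sb hsb kb hkb
  have hy0 : y ≠ 0 := by
    rw [hydef]; exact div_ne_zero hu0 (pow_ne_zero _ hc'0)
  set y1 : B := ⟨_, hs1y⟩ with hy1def
  have hy1n : y1 ∉ n := by
    intro h
    have hprod : y1 * ⟨_, hs2y⟩ = s1 * s2 := by
      apply Subtype.ext
      show ((s1 : F) * y) * ((s2 : F) * y⁻¹) = (s1 : F) * (s2 : F)
      field_simp
    have h3 : s1 * s2 ∈ n := by rw [← hprod]; exact n.mul_mem_right _ h
    exact (hnp.mem_or_mem h3).elim hs1 hs2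
  -- (S3)
  have hrel : (algebraMap R F π)⁻¹ * (c' ^ m * (y1 : F) - (s1 : F)) ∈ V₁ := by
    have e : (algebraMap R F π)⁻¹ * (c' ^ m * (y1 : F) - (s1 : F))
        = (s1 : F) * ((algebraMap R F π)⁻¹ * (u - 1)) := by
      have e0 : (y1 : F) = (s1 : F) * y := rfl
      have hcm : c' ^ m ≠ 0 := pow_ne_zero _ hc'0
      rw [e0, hydef]; field_simp
    rw [e]; exact V₁.mul_mem (hB₁ _ s1.2) hu₁
  obtain ⟨e, e', he, he', hee'⟩ := sd12_red_unit π m hm0 B V₁ hB₁ hπ₁ hV₁ hfrac₁ n hOn₁ z hz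
    c' hc'V hc'inv y1 s1 hy1n hs1 hrel
  have he'0 : (e' : F) ≠ 0 := sf79_ne_zero B n e' he'
  have he'inv : (e' : F)⁻¹ ∈ V₁ := sf79_inv_mem π B V₁ hB₁ hV₁ n hOn₁ e' he'
  -- `T := (c' - e / e') / π ∈ V₁`
  set T : F := (algebraMap R F π)⁻¹ * (c' - (e : F) * (e' : F)⁻¹) with hTdef
  have hT₁ : T ∈ V₁ := by
    have e0 : T = ((algebraMap R F π)⁻¹ * (c' * (e' : F) - (e : F))) * (e' : F)⁻¹ := by
      rw [hTdef]; field_simp
    rw [e0]; exact V₁.mul_mem hee' he'inv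
  -- (S4) density for `V₂`
  obtain ⟨N, hN⟩ := harchF₂ c'⁻¹
  obtain ⟨x2, ⟨s3, hs3, hs3x⟩, hx2⟩ := dn12_dense_frac π hp0 B V₂ hB₂ h1add₂
    (fun b hb hb0 => sd12_val_B π B V₂ hB₂ hV₂ harch₂ b hb hb0) hFrac n hnp t htn htV T N
  have hx2V₁ : x2 ∈ V₁ := by
    have hs3inv := sf79_inv_mem π B V₁ hB₁ hV₁ n hOn₁ s3 hs3
    have e0 : x2 = (s3 : F)⁻¹ * ((s3 : F) * x2) := by
      rw [← mul_assoc, inv_mul_cancel₀ (sf79_ne_zero B n s3 hs3), one_mul]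
    rw [e0]; exact V₁.mul_mem hs3inv (hB₁ _ hs3x)
  -- (S5)
  set η : F := (e : F) * (e' : F)⁻¹ + algebraMap R F π * x2 with hηdef
  have hφ : (algebraMap R F π)⁻¹ * (η * c'⁻¹ - 1) = (x2 - T) * c'⁻¹ := by
    have h1 : η * c'⁻¹ - 1 = (η - c') * c'⁻¹ := by rw [sub_mul, mul_inv_cancel₀ hc'0]
    have h2 : (algebraMap R F π)⁻¹ * (η - c') = x2 - T := by
      have h3 : (algebraMap R F π)⁻¹ * (η - c')
          = (algebraMap R F π)⁻¹ * algebraMap R F π * x2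
            - (algebraMap R F π)⁻¹ * (c' - (e : F) * (e' : F)⁻¹) := by
        rw [hηdef]; ring
      rw [h3, inv_mul_cancel₀ hp0, one_mul]
    rw [h1, ← mul_assoc, h2]
  refine ⟨η * c'⁻¹, ?_, ?_, e' * s3 * (e' * s3) ^ (m - 1) * s1, ?_, ?_⟩
  · rw [hφ]; exact V₁.mul_mem (V₁.sub_mem hx2V₁ hT₁) hc'inv
  · rw [hφ]
    have e0 : (x2 - T) * c'⁻¹
        = -(((algebraMap R F π)⁻¹) ^ N * (T - x2)) * (algebraMap R F π ^ N * c'⁻¹) := by
      have hpN : algebraMap R F π ^ N ≠ 0 := pow_ne_zero _ hp0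
      rw [inv_pow]; field_simp; ring
    rw [e0]; exact V₂.mul_mem (V₂.neg_mem hx2) hN
  · intro h
    have hes : e' * s3 ∉ n := fun h' => (hnp.mem_or_mem h').elim he' hs3
    rcases hnp.mem_or_mem h with h' | h'
    · rcases hnp.mem_or_mem h' with h'' | h''
      · exact hes h''
      · exact hes (hnp.mem_of_pow_mem _ h'')
    · exact hs1 h'
  · -- `(e' s3) η ∈ B`
    have hη : ((e' : F) * (s3 : F)) * η ∈ B := by
      have e0 : ((e' : F) * (s3 : F)) * η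
          = (s3 : F) * (e : F) + algebraMap R F π * (e' : F) * ((s3 : F) * x2) := by
        rw [hηdef]; field_simp
      rw [e0]
      exact B.add_mem (B.mul_mem s3.2 e.2)
        (B.mul_mem (B.mul_mem (B.algebraMap_mem π) e'.2) hs3x)
    obtain ⟨d, hd⟩ : ∃ d, m = d + 1 := ⟨m - 1, by omega⟩
    have e1 : (((e' * s3 * (e' * s3) ^ (m - 1) * s1 : B) : B) : F) * ((η * c'⁻¹) ^ m * u)
        = (((e' : F) * (s3 : F)) * η) ^ m * ((s1 : F) * y) := by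
      have e2 : (((e' * s3 * (e' * s3) ^ (m - 1) * s1 : B) : B) : F)
          = (e' : F) * (s3 : F) * ((e' : F) * (s3 : F)) ^ (m - 1) * (s1 : F) := rfl
      have hcm : c' ^ m ≠ 0 := pow_ne_zero _ hc'0
      rw [e2, hydef, hd, Nat.add_sub_cancel, mul_pow, mul_pow, inv_pow]
      field_simp
      ring_nf
    rw [e1]
    exact B.mul_mem (B.pow_mem hη m) hs1y

/-- **Literal twin of `sd89_datum_one`** (same binders), independent proof: the local datum at a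
one-branch point (`n` on the branch of `V₁`, not on the branch of `V₂`). -/
theorem sd12_datum_one (π : R) (m : ℕ) (hm : 0 < m) (B : Subalgebra R F) [IsNoetherianRing B]
    (V₁ V₂ : Subring F)
    (hB₁ : ∀ x ∈ B, x ∈ V₁) (hB₂ : ∀ x ∈ B, x ∈ V₂)
    (hπ₁ : (algebraMap R F π)⁻¹ ∉ V₁) (hπ₂ : (algebraMap R F π)⁻¹ ∉ V₂)
    (hV₁ : ∀ x ∈ V₁, (algebraMap R F π)⁻¹ * x ∉ V₁ → x⁻¹ ∈ V₁)
    (hV₂ : ∀ x ∈ V₂, (algebraMap R F π)⁻¹ * x ∉ V₂ → x⁻¹ ∈ V₂)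
    (hsat : ∀ x ∈ B, (algebraMap R F π)⁻¹ * x ∈ V₁ → (algebraMap R F π)⁻¹ * x ∈ V₂ →
      (algebraMap R F π)⁻¹ * x ∈ B)
    (hFrac : ∀ x : F, ∃ a ∈ B, ∃ b ∈ B, b ≠ 0 ∧ x * b = a)
    (harch₁ : ∀ x ∈ B, x ≠ 0 → ∃ k : ℕ, (algebraMap R F π ^ k)⁻¹ * x ∉ V₁)
    (harch₂ : ∀ x ∈ B, x ≠ 0 → ∃ k : ℕ, (algebraMap R F π ^ k)⁻¹ * x ∉ V₂)
    (hKr : s34i47_Krull π B)
    (n : Ideal B) (hn : n.IsMaximal) (hπn : algebraMap R B π ∈ n)
    (hOn : sf79_OnBr π B V₁ n) (hOff : ¬ sf79_OnBr π B V₂ n)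
    (z : B) (hz : sf79_Unif π B V₁ n z)
    (u : F) (hu₁ : (algebraMap R F π)⁻¹ * (u - 1) ∈ V₁)
    (c : F) (hc : c ≠ 0)
    (hLP : ∀ O : ValuationSubring F, s34i47_IsHoriz π O → s34i47_Through B n O →
      u / c ^ m ∈ O ∧ c ^ m / u ∈ O) :
    ∃ φ : F, (algebraMap R F π)⁻¹ * (φ - 1) ∈ V₁ ∧ (algebraMap R F π)⁻¹ * (φ - 1) ∈ V₂ ∧
      ∃ s : B, s ∉ n ∧ (s : F) * (φ ^ m * u) ∈ B := by
  have := hn
  have hp0 : algebraMap R F π ≠ 0 := by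
    intro h0
    apply hπ₁
    rw [h0, inv_zero]
    exact V₁.zero_mem
  -- `V₁ = B_{p₁}`: a separating element is any `t ∈ p₂ ∖ n`
  obtain ⟨t, ht⟩ := not_forall.mp hOff
  obtain ⟨htV, htn⟩ := Classical.not_imp.mp ht
  have ht₁ : (algebraMap R F π)⁻¹ * (t : F) ∉ V₁ := fun h => htn (hOn t h)
  have hfrac₁ : ∀ x ∈ V₁, ∃ b b' : B, (algebraMap R F π)⁻¹ * (b' : F) ∉ V₁ ∧
      (b' : F) * x = (b : F) := fun x hx =>
    tv66_frac π B V₂ V₁ hB₂ hB₁ hV₁ (fun y hy h2 h1 => hsat y hy h1 h2) hFrac harch₁ t htV ht₁ x hx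
  exact sd12_datum_core π hp0 m hm B V₁ V₂ hB₁ hB₂ hπ₁ hπ₂ hV₁ hV₂ hsat hFrac harch₁ harch₂
    hfrac₁ n hπn (hKr n hn hπn) z hz hOff u hu₁ c hc hLP

/-- **Literal twin of `sd89_datum`**: the local datum at every closed point of the special fibre
which is not a node. -/
theorem sd12_datum (π : R) (m : ℕ) (hm : 0 < m) (B : Subalgebra R F) [IsNoetherianRing B]
    (V₁ V₂ : Subring F)
    (hB₁ : ∀ x ∈ B, x ∈ V₁) (hB₂ : ∀ x ∈ B, x ∈ V₂)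
    (hπ₁ : (algebraMap R F π)⁻¹ ∉ V₁) (hπ₂ : (algebraMap R F π)⁻¹ ∉ V₂)
    (hV₁ : ∀ x ∈ V₁, (algebraMap R F π)⁻¹ * x ∉ V₁ → x⁻¹ ∈ V₁)
    (hV₂ : ∀ x ∈ V₂, (algebraMap R F π)⁻¹ * x ∉ V₂ → x⁻¹ ∈ V₂)
    (hsat : ∀ x ∈ B, (algebraMap R F π)⁻¹ * x ∈ V₁ → (algebraMap R F π)⁻¹ * x ∈ V₂ →
      (algebraMap R F π)⁻¹ * x ∈ B)
    (hFrac : ∀ x : F, ∃ a ∈ B, ∃ b ∈ B, b ≠ 0 ∧ x * b = a)
    (harch₁ : ∀ x ∈ B, x ≠ 0 → ∃ k : ℕ, (algebraMap R F π ^ k)⁻¹ * x ∉ V₁)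
    (harch₂ : ∀ x ∈ B, x ≠ 0 → ∃ k : ℕ, (algebraMap R F π ^ k)⁻¹ * x ∉ V₂)
    (hKr : s34i47_Krull π B)
    (hS₁ : sf79_Smooth π B V₁) (hS₂ : sf79_Smooth π B V₂)
    (u : F) (hu₁ : (algebraMap R F π)⁻¹ * (u - 1) ∈ V₁)
    (hu₂ : (algebraMap R F π)⁻¹ * (u - 1) ∈ V₂)
    (hLP : s34i47_LocPrin π m B u)
    (n : Ideal B) (hn : n.IsMaximal) (hπn : algebraMap R B π ∈ n)
    (hnode : ¬ (sf79_OnBr π B V₁ n ∧ sf79_OnBr π B V₂ n)) :
    ∃ φ : F, (algebraMap R F π)⁻¹ * (φ - 1) ∈ V₁ ∧ (algebraMap R F π)⁻¹ * (φ - 1) ∈ V₂ ∧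
      ∃ s : B, s ∉ n ∧ (s : F) * (φ ^ m * u) ∈ B := by
  have hnp : n.IsPrime := hn.isPrime
  have hp0 : algebraMap R F π ≠ 0 := by
    intro h0
    apply hπ₁
    rw [h0, inv_zero]
    exact V₁.zero_mem
  obtain ⟨c, hc, hLPn⟩ := hLP n hn hπn
  by_cases h2 : sf79_OnBr π B V₂ n
  · -- on the branch of `V₂`, hence not on the branch of `V₁`
    have h1 : ¬ sf79_OnBr π B V₁ n := fun h1 => hnode ⟨h1, h2⟩
    obtain ⟨z, hz⟩ := hS₂ n hn hπn h2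
    obtain ⟨φ, hφ₂, hφ₁, hs⟩ := sd12_datum_one π m hm B V₂ V₁ hB₂ hB₁ hπ₂ hπ₁ hV₂ hV₁
      (fun x hx h2' h1' => hsat x hx h1' h2') hFrac harch₂ harch₁ hKr n hn hπn h2 h1 z hz u hu₂
      c hc hLPn
    exact ⟨φ, hφ₁, hφ₂, hs⟩
  · -- not on the branch of `V₂`, hence on the branch of `V₁`
    have h1 : sf79_OnBr π B V₁ n := sd12_onBr π hp0 B V₁ V₂ hB₁ hB₂ hsat n hnp hπn h2
    obtain ⟨z, hz⟩ := hS₁ n hn hπn h1
    exact sd12_datum_one π m hm B V₁ V₂ hB₁ hB₂ hπ₁ hπ₂ hV₁ hV₂ hsat hFrac harch₁ harch₂ hKr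
      n hn hπn h1 h2 z hz u hu₁ c hc hLPn

/-- **Literal twin of `sd89_localDatum`**: `s34i47_LocalDatum` for `u ≡ 1 mod π W` from (LP) and a
datum at the nodes. -/
theorem sd12_localDatum (π : R) (m : ℕ) (hm : 0 < m) (B : Subalgebra R F) [IsNoetherianRing B]
    (V₁ V₂ W : Subring F) (hW : ∀ x : F, x ∈ V₁ → x ∈ V₂ → x ∈ W)
    (hB₁ : ∀ x ∈ B, x ∈ V₁) (hB₂ : ∀ x ∈ B, x ∈ V₂)
    (hπ₁ : (algebraMap R F π)⁻¹ ∉ V₁) (hπ₂ : (algebraMap R F π)⁻¹ ∉ V₂)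
    (hV₁ : ∀ x ∈ V₁, (algebraMap R F π)⁻¹ * x ∉ V₁ → x⁻¹ ∈ V₁)
    (hV₂ : ∀ x ∈ V₂, (algebraMap R F π)⁻¹ * x ∉ V₂ → x⁻¹ ∈ V₂)
    (hsat : ∀ x ∈ B, (algebraMap R F π)⁻¹ * x ∈ V₁ → (algebraMap R F π)⁻¹ * x ∈ V₂ →
      (algebraMap R F π)⁻¹ * x ∈ B)
    (hFrac : ∀ x : F, ∃ a ∈ B, ∃ b ∈ B, b ≠ 0 ∧ x * b = a)
    (harch₁ : ∀ x ∈ B, x ≠ 0 → ∃ k : ℕ, (algebraMap R F π ^ k)⁻¹ * x ∉ V₁)
    (harch₂ : ∀ x ∈ B, x ≠ 0 → ∃ k : ℕ, (algebraMap R F π ^ k)⁻¹ * x ∉ V₂)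
    (hKr : s34i47_Krull π B)
    (hS₁ : sf79_Smooth π B V₁) (hS₂ : sf79_Smooth π B V₂)
    (u : F) (hu₁ : (algebraMap R F π)⁻¹ * (u - 1) ∈ V₁)
    (hu₂ : (algebraMap R F π)⁻¹ * (u - 1) ∈ V₂)
    (hLP : s34i47_LocPrin π m B u)
    (hNode : ∀ n : Ideal B, n.IsMaximal → algebraMap R B π ∈ n → sf79_OnBr π B V₁ n →
      sf79_OnBr π B V₂ n →
      ∃ φ : F, (algebraMap R F π)⁻¹ * (φ - 1) ∈ W ∧ ∃ s : B, s ∉ n ∧ (s : F) * (φ ^ m * u) ∈ B) :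
    s34i47_LocalDatum π m W B u := by
  intro n hn hπn
  by_cases hnode : sf79_OnBr π B V₁ n ∧ sf79_OnBr π B V₂ n
  · exact hNode n hn hπn hnode.1 hnode.2
  · obtain ⟨φ, h1, h2, hs⟩ := sd12_datum π m hm B V₁ V₂ hB₁ hB₂ hπ₁ hπ₂ hV₁ hV₂ hsat hFrac
      harch₁ harch₂ hKr hS₁ hS₂ u hu₁ hu₂ hLP n hn hπn hnode
    exact ⟨φ, hW _ h1 h2, hs⟩

end SD12

end Fermat.Agent.S35
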