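import Fermat.Agent.S42.ThetaClosedZ31
import Fermat.Agent.S42.HeckeChar45
import Fermat.Agent.S42.HeckeNormInst49
import Fermat.Agent.S42.HeckeDiv63
import Fermat.Agent.S30.Iface37

/-!
# S35 lab, row 536 N2a-alpha (helper1): the Kummer maps `Θ` are compatible with `α_*`

Step (2a) of the S35 proof text, for the degeneracy map `α = heckeAlphaBar : F(N) → F(N ℓ)`
(`ℓ ∤ N` prime): for the Kummer maps `Θ : Hom_par(Γ₀(N ℓ), ℤ) → J₀(N ℓ)`,
`Θ' : Hom_par(Γ₀(N), ℤ) → J₀(N)` at one modulus `m`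

  `α_* (Θ χ) = Θ' (cores χ)`,   `cores χ (γ) = ∑_{c ∈ Γ₀(N)/Γ₀(N ℓ)} χ (s(γ c)⁻¹ γ s(c))`.

The Kummer maps of S42 are characterised by their EVALUATION CLAUSE
(`thz31_final_I_Theta_Z_eval`): `Θ χ = [D]` for ANY admissible pair `(h, f)` of `χ`
(`γ • h = ζ_m ^ χ(γ) h`, `h ^ m = ev f`) and any `D` with `m D = div f`.  So (2a) is the statement
that admissible pairs are carried to admissible pairs:

* `ta1_adm_alpha` : `(h, f)` admissible for `χ` at level `N ℓ`  ⟹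
  `(∏_c s(c) • h, Nm_α f)` admissible for `cores χ` at level `N`
  (character: `hc45_char_fam`; root of the norm: `nm49_hecke_hnorm`; orders: the norm formula
  `hd63_pushforwardAlong_div`);
* `ta1_Eval N m Θ` : the evaluation clause (a `Prop` on `Θ`, evaluation `ff79_ev0 phi N`);
* `ta1_exists_eval`, `ta1_family_eval` : the Kummer map at modulus `m` / the compatible family at
  the moduli `p ^ n` (`s30i37_ThetaFamily`) WITH the evaluation clause, every level;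
* `ta1_alpha` : **(2a) for `α`**, for any `Θ`, `Θ'` with the evaluation clause, any map
  `P : J₀(N ℓ) → J₀(N)` which is `[D] ↦ [α_* D]` on classes (`pushforwardAlong heckeAlphaBar`),
  and any `χ'` with the displayed transfer formula;
* `ta1_alpha_zero` : if the transfer of `χ` vanishes then `α_* (Θ χ) = 0` (no `Θ'`).

All names are prefixed `ta1_`.
-/

set_option autoImplicit false
set_option linter.unusedSectionVars false
set_option linter.unusedVariables false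
set_option linter.style.longLine false
set_option linter.style.haveILetI false

open CongruenceSubgroup ModularCurve ModularCurve.Period AlgebraicCurve UpperHalfPlane
open scoped TensorProduct MatrixGroups

namespace Fermat.Agent.S35

open Fermat.Agent.S16 Fermat.Agent.S24 Fermat.Agent.S42 Fermat.Agent.S41 Fermat.Agent.S30
  Fermat.Agent.S37

local notation "Qb" => AlgebraicClosure ℚ

/-! ### The evaluation clause -/

/-- **The evaluation clause** of the Kummer map at modulus `m` (level `N`, evaluation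
`ff79_ev0 phi N`): `Θ χ` is the class of `(1/m) div f` for every admissible pair `(h, f)`. -/
def ta1_Eval (N : ℕ) [NeZero N] (m : ℕ)
    (Θ : ↥(parabolicHoms ℤ (Gamma0 N) ℤ) →+ JZero N) : Prop :=
  ∀ (χ : ↥(parabolicHoms ℤ (Gamma0 N) ℤ)) (h : mer95_MER) (f : ↥(modularFunctionFieldBar N)),
    thz31_AdmZ Qb (ff79_ev0 phi N) m (th70_zeta m) (χ : Additive (Gamma0 N) →+ ℤ) h f →
    ∀ D : Divisor.degZero (K := Qb) (F := ↥(modularFunctionFieldBar N)),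
      th70_IsDivOf m f (D : Divisor Qb ↥(modularFunctionFieldBar N)) → Θ χ = Pic0.mk D

/-- Every integral parabolic character has an admissible pair (at every modulus `m ≠ 0`). -/
theorem ta1_exists_adm (N : ℕ) [NeZero N] (m : ℕ) [NeZero m]
    (χ : Additive (Gamma0 N) →+ ℤ) (hχ : χ ∈ parabolicHoms ℤ (Gamma0 N) ℤ) :
    ∃ (h : mer95_MER) (f : ↥(modularFunctionFieldBar N)),
      thz31_AdmZ Qb (ff79_ev0 phi N) m (th70_zeta m) χ h f :=
  thz31_final_hex phi N m (thz31_X_holds N m) χ hχ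

/-- An admissible pair has a degree-zero divisor `D` with `m D = div f`. -/
theorem ta1_exists_div (N : ℕ) [NeZero N] (m : ℕ) [NeZero m]
    {χ : Additive (Gamma0 N) →+ ℤ} {h : mer95_MER} {f : ↥(modularFunctionFieldBar N)}
    (H : thz31_AdmZ Qb (ff79_ev0 phi N) m (th70_zeta m) χ h f) :
    ∃ D : Divisor.degZero (K := Qb) (F := ↥(modularFunctionFieldBar N)),
      th70_IsDivOf m f (D : Divisor Qb ↥(modularFunctionFieldBar N)) := by
  haveI := hi63_hasPrincipalDivisors_bar N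
  obtain ⟨h0, f0, -, -, hdvd⟩ := H
  obtain ⟨D, hD, hdeg⟩ := th70_exists_div (K := Qb) (NeZero.ne m) f0 hdvd
  exact ⟨⟨D, Divisor.mem_degZero.mpr hdeg⟩, hD⟩

/-- **The Kummer map at modulus `m` with its evaluation clause**, every level. -/
theorem ta1_exists_eval (N : ℕ) [NeZero N] (m : ℕ) [NeZero m] :
    ∃ Θ : ↥(parabolicHoms ℤ (Gamma0 N) ℤ) →+ JZero N,
      (∀ χ, (m : ℤ) • Θ χ = 0) ∧
      (∀ χ, Θ χ = 0 → ∃ χ' : ↥(parabolicHoms ℤ (Gamma0 N) ℤ), χ = m • χ') ∧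
      (∀ ℓ : Nat.Primes, ¬ (ℓ : ℕ) ∣ N * m → ∀ χ : ↥(parabolicHoms ℤ (Gamma0 N) ℤ),
        ∃ hχ : heckeHom N ℓ ℤ χ ∈ parabolicHoms ℤ (Gamma0 N) ℤ,
          heckeOperatorBar N ℓ (Θ χ) = Θ ⟨heckeHom N ℓ ℤ χ, hχ⟩) ∧
      ta1_Eval N m Θ :=
  thz31_final_I_Theta_Z_eval phi N m (thz31_X_holds N m)

/-- **The compatible family at the moduli `p ^ n` with the evaluation clauses**, every level:
the family is an `s30i37_ThetaFamily` (the input of the S30 eigen-Tate module) and every `Θ n`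
is computed by admissible pairs at modulus `p ^ n`. -/
theorem ta1_family_eval (N : ℕ) [NeZero N] (p : ℕ) (hp : p ≠ 0) :
    ∃ Θ : ℕ → (↥(parabolicHoms ℤ (Gamma0 N) ℤ) →+ JZero N),
      s30i37_ThetaFamily N p Θ ∧ ∀ n, ta1_Eval N (p ^ n) (Θ n) := by
  have hne : ∀ n : ℕ, NeZero (p ^ n) := fun n => ⟨pow_ne_zero n hp⟩
  choose Θ h1 h2 h3 h4 using fun n : ℕ => @ta1_exists_eval N _ (p ^ n) (hne n)
  haveI := hi63_hasPrincipalDivisors_bar N
  refine ⟨Θ, ⟨h1, h2, h3, fun n χ => ?_⟩, h4⟩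
  exact thz31_level' (K := Qb) (L := (thz31_L N).toAddSubgroup)
    (pow_succ' p n) (pow_ne_zero n hp) hp
    (by rw [pow_succ']; exact thz31_zeta_pow p (p ^ n) hp (pow_ne_zero n hp))
    (Θ n) (Θ (n + 1)) (h4 n) (h4 (n + 1))
    (fun χ hχ => @ta1_exists_adm N _ (p ^ (n + 1)) (hne (n + 1)) χ hχ) χ

/-! ### Admissible pairs under the norm along `α` -/

theorem ta1_prod_zpow {M : Type*} [Field M] {ι : Type*} (s : Finset ι) (ζ : M) (hζ : ζ ≠ 0)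
    (n : ι → ℤ) : ∏ c ∈ s, ζ ^ n c = ζ ^ (∑ c ∈ s, n c) := by
  classical
  induction s using Finset.induction_on with
  | empty => simp
  | insert a s ha ih => rw [Finset.prod_insert ha, Finset.sum_insert ha, zpow_add₀ hζ, ih]

section ta1_adm

variable (N ℓ : ℕ) [NeZero N] [NeZero ℓ]

/-- The cocycle `s(γ c)⁻¹ γ s(c)` of the section `Quotient.out` of `Γ₀(N) → Γ₀(N)/Γ₀(N ℓ)`, as an
element of `Γ₀(N ℓ)`. -/
noncomputable def ta1_elt (γ : Gamma0 N)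
    (c : ↥(Gamma0 N) ⧸ (Gamma0 (N * ℓ)).subgroupOf (Gamma0 N)) : Gamma0 (N * ℓ) :=
  ⟨((ct77_h ((Gamma0 (N * ℓ)).subgroupOf (Gamma0 N)) γ c : Gamma0 N) : SL(2, ℤ)),
    Subgroup.mem_subgroupOf.mp (ct77_h_mem ((Gamma0 (N * ℓ)).subgroupOf (Gamma0 N)) γ c)⟩

theorem ta1_elt_coe (γ : Gamma0 N)
    (c : ↥(Gamma0 N) ⧸ (Gamma0 (N * ℓ)).subgroupOf (Gamma0 N)) :
    ((ta1_elt N ℓ γ c : Gamma0 (N * ℓ)) : SL(2, ℤ))
      = ((ct77_h ((Gamma0 (N * ℓ)).subgroupOf (Gamma0 N)) γ c : Gamma0 N) : SL(2, ℤ)) := rfl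

/-- `χ'` is the transfer (corestriction) of `χ` along `Γ₀(N ℓ) ≤ Γ₀(N)`:
`χ' γ = ∑_{c ∈ Γ₀(N)/Γ₀(N ℓ)} χ (s(γ c)⁻¹ γ s(c))`. -/
def ta1_IsCores (χ : Additive (Gamma0 (N * ℓ)) →+ ℤ) (χ' : Additive (Gamma0 N) →+ ℤ) : Prop :=
  ∀ γ : Gamma0 N, χ' (Additive.ofMul γ)
    = ∑ᶠ c : ↥(Gamma0 N) ⧸ (Gamma0 (N * ℓ)).subgroupOf (Gamma0 N),
        χ (Additive.ofMul (ta1_elt N ℓ γ c))

/-- **Admissible pairs under `α_*`.**  If `(h, f)` is admissible for `χ` at level `N ℓ`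
(modulus `m`), then `(∏_c s(c) • h, Nm_α f)` is admissible at level `N` for the transfer of `χ`. -/
theorem ta1_adm_alpha (hℓ : ℓ.Prime) (hℓN : ¬ ℓ ∣ N) (m : ℕ) [NeZero m] (φ : Qb →+* ℂ)
    [Fintype (↥(Gamma0 N) ⧸ (Gamma0 (N * ℓ)).subgroupOf (Gamma0 N))]
    (χ : Additive (Gamma0 (N * ℓ)) →+ ℤ) (χ' : Additive (Gamma0 N) →+ ℤ)
    (hχ' : ta1_IsCores N ℓ χ χ')
    (h : mer95_MER) (f : ↥(modularFunctionFieldBar (N * ℓ)))
    (H : thz31_AdmZ Qb (ff79_ev0 φ (N * ℓ)) m (th70_zeta m) χ h f) :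
    thz31_AdmZ Qb (ff79_ev0 φ N) m (th70_zeta m) χ'
      (∏ c : ↥(Gamma0 N) ⧸ (Gamma0 (N * ℓ)).subgroupOf (Gamma0 N),
        ((c.out : Gamma0 N) : SL(2, ℤ)) • h)
      (ht45_normAlong (heckeAlphaBar Qb N ℓ) f) := by
  obtain ⟨h0, f0, hchar, hpow, hdvd⟩ := H
  haveI := hi63_hasPrincipalDivisors_bar (N * ℓ)
  have hα := hx63_heckeAlphaBarIntegral N ℓ
  obtain ⟨-, hfin, hNF⟩ := hx63_inputs_gen (φ := heckeAlphaBar Qb N ℓ) hα
  have hm : m ≠ 0 := NeZero.ne m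
  have hζ0 : th70_zeta m ≠ 0 := (th70_zeta_isPrimitiveRoot m hm).ne_zero hm
  refine ⟨ht45_prod_ne_zero _ h0, ht45_normAlong_ne_zero _ hfin f0, ?_, ?_, ?_⟩
  · -- the character of the product of translates is the transfer
    intro γ
    have key := hc45_char_fam (MM := mer95_MER) (GG := SL(2, ℤ))
      (fun c : ↥(Gamma0 N) ⧸ (Gamma0 (N * ℓ)).subgroupOf (Gamma0 N) =>
        ((c.out : Gamma0 N) : SL(2, ℤ))) h
      (fun c => th70_zeta m ^ χ (Additive.ofMul (ta1_elt N ℓ γ c)))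
      (γ : SL(2, ℤ)) (MulAction.toPerm γ)
      (fun c => ((ta1_elt N ℓ γ c : Gamma0 (N * ℓ)) : SL(2, ℤ)))
      (fun c => by
        rw [ta1_elt_coe, MulAction.toPerm_apply, ← Subgroup.coe_mul, ← Subgroup.coe_mul]
        congr 1
        simp [ct77_h, mul_assoc])
      (fun c => hchar (ta1_elt N ℓ γ c))
      (fun g c => by
        unfold th70_zeta
        rw [← map_zpow₀]
        exact mer95_smul_C_SL g _)
    refine key.trans ?_
    congr 1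
    rw [ta1_prod_zpow _ _ hζ0, hχ' γ, finsum_eq_sum_of_fintype]
  · -- the product of translates is an `m`-th root of the norm
    rw [nm49_hecke_hnorm N ℓ hℓ hℓN (mer95_slToGL.comp (Gamma0 N).subtype)
      (ff79_ev0 φ N) (ff79_ev0 φ (N * ℓ)) (ff79_ev0_alpha φ N ℓ)
      (fun γ x => ff79_ev0_fix φ N γ x)
      (fun γ hγ => hk10_stab φ (N * ℓ) (γ : SL(2, ℤ)) hγ) f, ← hpow, ← Finset.prod_pow]
    refine Finset.prod_congr rfl fun c _ => ?_
    rw [smul_pow']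
    rfl
  · -- the orders of the norm
    intro v
    obtain ⟨D, hD, -⟩ := th70_exists_div (K := Qb) hm f0 hdvd
    exact ⟨_, (hd63_pushforwardAlong_div (heckeAlphaBar Qb N ℓ) hα hfin hNF D (m : ℤ) f f0
      hD v).symm⟩

end ta1_adm

/-! ### (2a) for `α` -/

section ta1_main

variable (N ℓ : ℕ) [NeZero N] [NeZero ℓ]

/-- **(2a) for `α`**: `α_* (Θ χ) = Θ' (cores χ)`.  `Θ`, `Θ'` are ANY Kummer maps with the
evaluation clause at the modulus `m` (levels `N ℓ`, `N`), `P` is ANY map `J₀(N ℓ) → J₀(N)` which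
is `[D] ↦ [α_* D]` on classes, `χ'` ANY parabolic character which is the transfer of `χ`. -/
theorem ta1_alpha (hℓ : ℓ.Prime) (hℓN : ¬ ℓ ∣ N) (m : ℕ) [NeZero m]
    (Θ : ↥(parabolicHoms ℤ (Gamma0 (N * ℓ)) ℤ) →+ JZero (N * ℓ)) (hΘ : ta1_Eval (N * ℓ) m Θ)
    (Θ' : ↥(parabolicHoms ℤ (Gamma0 N) ℤ) →+ JZero N) (hΘ' : ta1_Eval N m Θ')
    (hα : (heckeAlphaBar Qb N ℓ).toRingHom.IsIntegral)
    (P : JZero (N * ℓ) → JZero N)
    (hP : ∀ D : Divisor.degZero (K := Qb) (F := ↥(modularFunctionFieldBar (N * ℓ))),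
      ∃ hD : Divisor.pushforwardAlong (heckeAlphaBar Qb N ℓ) hα
          (D : Divisor Qb ↥(modularFunctionFieldBar (N * ℓ)))
            ∈ Divisor.degZero (K := Qb) (F := ↥(modularFunctionFieldBar N)),
        P (Pic0.mk D) = Pic0.mk ⟨_, hD⟩)
    (χ : ↥(parabolicHoms ℤ (Gamma0 (N * ℓ)) ℤ)) (χ' : ↥(parabolicHoms ℤ (Gamma0 N) ℤ))
    (hχ' : ta1_IsCores N ℓ (χ : Additive (Gamma0 (N * ℓ)) →+ ℤ)
      (χ' : Additive (Gamma0 N) →+ ℤ)) :
    P (Θ χ) = Θ' χ' := by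
  classical
  haveI := hi63_hasPrincipalDivisors_bar (N * ℓ)
  haveI : ((Gamma0 (N * ℓ)).subgroupOf (Gamma0 N)).FiniteIndex := ⟨by
    have h1 := gi41_relindex N ℓ hℓ hℓN
    rw [Subgroup.relIndex] at h1
    rw [h1]
    exact Nat.succ_ne_zero ℓ⟩
  letI : Fintype (↥(Gamma0 N) ⧸ (Gamma0 (N * ℓ)).subgroupOf (Gamma0 N)) := Fintype.ofFinite _
  obtain ⟨-, hfin, hNF⟩ := hx63_inputs_gen (φ := heckeAlphaBar Qb N ℓ) hα
  obtain ⟨h, f, H⟩ := ta1_exists_adm (N * ℓ) m χ χ.2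
  obtain ⟨D, hD⟩ := ta1_exists_div (N * ℓ) m H
  obtain ⟨hD', hPD⟩ := hP D
  rw [hΘ χ h f H D hD, hPD]
  symm
  refine hΘ' χ' _ _ (ta1_adm_alpha N ℓ hℓ hℓN m phi χ χ' hχ' h f H) ⟨_, hD'⟩ ?_
  intro v
  exact hd63_pushforwardAlong_div (heckeAlphaBar Qb N ℓ) hα hfin hNF D (m : ℤ) f H.2.1 hD v

/-- **(2a) for `α`, kernel form**: if the transfer of `χ` vanishes, then `α_* (Θ χ) = 0`. -/
theorem ta1_alpha_zero (hℓ : ℓ.Prime) (hℓN : ¬ ℓ ∣ N) (m : ℕ) [NeZero m]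
    (Θ : ↥(parabolicHoms ℤ (Gamma0 (N * ℓ)) ℤ) →+ JZero (N * ℓ)) (hΘ : ta1_Eval (N * ℓ) m Θ)
    (hα : (heckeAlphaBar Qb N ℓ).toRingHom.IsIntegral)
    (P : JZero (N * ℓ) → JZero N)
    (hP : ∀ D : Divisor.degZero (K := Qb) (F := ↥(modularFunctionFieldBar (N * ℓ))),
      ∃ hD : Divisor.pushforwardAlong (heckeAlphaBar Qb N ℓ) hα
          (D : Divisor Qb ↥(modularFunctionFieldBar (N * ℓ)))
            ∈ Divisor.degZero (K := Qb) (F := ↥(modularFunctionFieldBar N)),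
        P (Pic0.mk D) = Pic0.mk ⟨_, hD⟩)
    (χ : ↥(parabolicHoms ℤ (Gamma0 (N * ℓ)) ℤ))
    (hχ : ta1_IsCores N ℓ (χ : Additive (Gamma0 (N * ℓ)) →+ ℤ) 0) :
    P (Θ χ) = 0 := by
  obtain ⟨Θ', -, -, -, hΘ'⟩ := ta1_exists_eval N m
  have h := ta1_alpha N ℓ hℓ hℓN m Θ hΘ Θ' hΘ' hα P hP χ 0 hχ
  rw [h, map_zero]

/-- **(2a) for `α`, family form**: for the compatible families `Θ`, `Θ'` at the moduli `p ^ n`
with their evaluation clauses (`ta1_family_eval`), `α_* (Θ n χ) = Θ' n (cores χ)` for all `n`. -/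
theorem ta1_alpha_family (hℓ : ℓ.Prime) (hℓN : ¬ ℓ ∣ N) (p : ℕ) (hp : p ≠ 0)
    (Θ : ℕ → (↥(parabolicHoms ℤ (Gamma0 (N * ℓ)) ℤ) →+ JZero (N * ℓ)))
    (hΘ : ∀ n, ta1_Eval (N * ℓ) (p ^ n) (Θ n))
    (Θ' : ℕ → (↥(parabolicHoms ℤ (Gamma0 N) ℤ) →+ JZero N))
    (hΘ' : ∀ n, ta1_Eval N (p ^ n) (Θ' n))
    (hα : (heckeAlphaBar Qb N ℓ).toRingHom.IsIntegral)
    (P : JZero (N * ℓ) → JZero N)
    (hP : ∀ D : Divisor.degZero (K := Qb) (F := ↥(modularFunctionFieldBar (N * ℓ))),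
      ∃ hD : Divisor.pushforwardAlong (heckeAlphaBar Qb N ℓ) hα
          (D : Divisor Qb ↥(modularFunctionFieldBar (N * ℓ)))
            ∈ Divisor.degZero (K := Qb) (F := ↥(modularFunctionFieldBar N)),
        P (Pic0.mk D) = Pic0.mk ⟨_, hD⟩)
    (χ : ↥(parabolicHoms ℤ (Gamma0 (N * ℓ)) ℤ)) (χ' : ↥(parabolicHoms ℤ (Gamma0 N) ℤ))
    (hχ' : ta1_IsCores N ℓ (χ : Additive (Gamma0 (N * ℓ)) →+ ℤ)
      (χ' : Additive (Gamma0 N) →+ ℤ)) (n : ℕ) :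
    P (Θ n χ) = Θ' n χ' :=
  haveI : NeZero (p ^ n) := ⟨pow_ne_zero n hp⟩
  ta1_alpha N ℓ hℓ hℓN (p ^ n) (Θ n) (hΘ n) (Θ' n) (hΘ' n) hα P hP χ χ' hχ'

end ta1_main

end Fermat.Agent.S35
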