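import Mathlib
import Fermat.Agent.S35.THOneAbs49

/-!
# S35 lab, chain A, step (1c) in DIRECT CONGRUENCE FORM — abstract part (helper18)

Mathlib + `THOneAbs49` (the principal-unit calculus `tho49_IsU`, `tho49_IsU1`).

`V` is a subring of a field `F` (the Gauss ring `V_∞`), `ϖ ∈ V` with `1 + ϖ V ⊆ Vˣ`,
`s` (the coefficientwise Frobenius lift) an automorphism of `F` preserving `V` and `ϖ V`,
`w` (Atkin–Lehner) another automorphism.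

* `tc18_U1_of_cong` : `u ≡ v mod ϖ V`, `v` a unit of `V` ⟹ `u / v ∈ 1 + ϖ V` (a principal unit);
* `tc18_half` : from the two norm congruences `P ≡ g · s g'`, `Q ≡ g' · s g` mod `ϖ V`
  (`g' = w g`, `P = α (N_α g)`, `Q = α (N_α (w g))`): `g / s² g · (s Q / P)` is a principal unit;
* `tc18_branch` : with `P = κP · p ^ m`, `Q = κQ · q' ^ m` and `Gg ≡ p / s q'`:
  `g / s² g / Gg ^ m / (κP / s κQ)` is a principal unit, i.e.
  `f₃ ≡ constant` modulo `ϖ V` on the branch;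
* `tc18_u_half` : `x / c` principal unit, `s² c ≡ c ^ Q` ⟹ `s² x / x ^ Q` principal unit.

All names are prefixed `tc18_`.
-/

set_option autoImplicit false

namespace Fermat.Agent.S35

section tc18_abs

variable {F : Type*} [Field F]

/-- A quotient `u / v` with `u ≡ v` modulo `ϖ V`, `v` a unit of `V`, is a principal unit. -/
theorem tc18_U1_of_cong (V : Subring F) (ϖ : F) (hϖ0 : ϖ ≠ 0) (hϖV : ϖ ∈ V)
    (h1V : ∀ t ∈ V, (1 + ϖ * t)⁻¹ ∈ V) {u v : F} (hv : tho49_IsU V v) (hv0 : v ≠ 0)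
    (h : ϖ⁻¹ * (u - v) ∈ V) : tho49_IsU1 V ϖ (u / v) := by
  have ht : ϖ⁻¹ * (u - v) * v⁻¹ ∈ V := V.mul_mem h hv.2
  have e : u / v = 1 + ϖ * (ϖ⁻¹ * (u - v) * v⁻¹) := by
    field_simp
    ring
  have e2 : ϖ⁻¹ * (u / v - 1) = ϖ⁻¹ * (u - v) * v⁻¹ := by
    field_simp
  refine ⟨⟨?_, ?_⟩, ?_⟩
  · rw [e]
    exact V.add_mem V.one_mem (V.mul_mem hϖV ht)
  · rw [e]
    exact h1V _ ht
  · rw [e2]
    exact ht

/-- A principal unit is nonzero (when `ϖ` is not a unit of `V`). -/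
theorem tc18_U1_ne_zero (V : Subring F) (ϖ : F) (hϖ' : ϖ⁻¹ ∉ V) {a : F}
    (ha : tho49_IsU1 V ϖ a) : a ≠ 0 := by
  rintro rfl
  apply hϖ'
  have h := V.neg_mem ha.2
  rwa [zero_sub, mul_neg, neg_neg, mul_one] at h

/-- From a principal unit `x / c` back to the congruence `x ≡ c` modulo `ϖ V`. -/
theorem tc18_cong_of_U1 (V : Subring F) (ϖ : F) {x c : F} (hc : c ∈ V) (hc0 : c ≠ 0)
    (h : tho49_IsU1 V ϖ (x / c)) : ϖ⁻¹ * (x - c) ∈ V := by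
  have e : ϖ⁻¹ * (x - c) = c * (ϖ⁻¹ * (x / c - 1)) := by
    field_simp
  rw [e]
  exact V.mul_mem hc h.2

/-- **Abstract (1c), first half.**  From the two norm congruences
`P ≡ g · s g'` and `Q ≡ g' · s g` modulo `ϖ V` for units `g`, `g'` of `V` (`g' = w g`):
`g / s (s g) · (s Q / P)` is a principal unit of `V`. -/
theorem tc18_half (V : Subring F) (ϖ : F) (hϖ0 : ϖ ≠ 0) (hϖV : ϖ ∈ V)
    (h1V : ∀ t ∈ V, (1 + ϖ * t)⁻¹ ∈ V)
    (s : F ≃+* F) (hsV : ∀ y ∈ V, s y ∈ V) (hsϖ : ϖ⁻¹ * s ϖ ∈ V)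
    (g g' P Q : F) (hg0 : g ≠ 0) (hg'0 : g' ≠ 0) (hg : tho49_IsU V g) (hg' : tho49_IsU V g')
    (h1 : ϖ⁻¹ * (P - g * s g') ∈ V) (h2 : ϖ⁻¹ * (Q - g' * s g) ∈ V) :
    tho49_IsU1 V ϖ (g / s (s g) * (s Q / P)) := by
  have hsg0 : s g ≠ 0 := (map_ne_zero s).mpr hg0
  have hsg'0 : s g' ≠ 0 := (map_ne_zero s).mpr hg'0
  have hssg0 : s (s g) ≠ 0 := (map_ne_zero s).mpr hsg0
  have hsg : tho49_IsU V (s g) := tho49_IsU_map (s : F →+* F) hsV hg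
  have hsg' : tho49_IsU V (s g') := tho49_IsU_map (s : F →+* F) hsV hg'
  have hA : tho49_IsU1 V ϖ (P / (g * s g')) :=
    tc18_U1_of_cong V ϖ hϖ0 hϖV h1V (tho49_IsU_mul hg hsg') (mul_ne_zero hg0 hsg'0) h1
  have hB : tho49_IsU1 V ϖ (Q / (g' * s g)) :=
    tc18_U1_of_cong V ϖ hϖ0 hϖV h1V (tho49_IsU_mul hg' hsg) (mul_ne_zero hg'0 hsg0) h2
  have hsB : tho49_IsU1 V ϖ (s (Q / (g' * s g))) := tho49_IsU1_map hϖ0 s hsV hsϖ hB
  have hC := tho49_IsU1_inv (tho49_IsU1_mul hA (tho49_IsU1_inv hsB))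
  have e : (P / (g * s g') * (s (Q / (g' * s g)))⁻¹)⁻¹ = g / s (s g) * (s Q / P) := by
    rw [map_div₀, map_mul, mul_inv, inv_inv, inv_div]
    field_simp
  rwa [e] at hC

/-- **Abstract (1c), one branch.**  With `P = κP · p ^ m`, `Q = κQ · q' ^ m` and
`Gg ≡ p / s q'` (a principal unit quotient): `g / s² g / Gg ^ m / (κP / s κQ)` is a principal
unit of `V`. -/
theorem tc18_branch (V : Subring F) (ϖ : F) (s : F ≃+* F) (m : ℕ)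
    (g P Q κP κQ p q' Gg : F) (hP : P = κP * p ^ m) (hQ : Q = κQ * q' ^ m)
    (hκP : κP ≠ 0) (hκQ : κQ ≠ 0) (hp : p ≠ 0) (hq' : q' ≠ 0)
    (hX : tho49_IsU1 V ϖ (g / s (s g) * (s Q / P)))
    (hG : tho49_IsU1 V ϖ (Gg / (p / s q'))) :
    tho49_IsU1 V ϖ (g / s (s g) / Gg ^ m / (κP / s κQ)) := by
  have hsq' : s q' ≠ 0 := (map_ne_zero s).mpr hq'
  have hsκQ : s κQ ≠ 0 := (map_ne_zero s).mpr hκQ
  have hY := tho49_IsU1_mul hX (tho49_IsU1_inv (tho49_IsU1_pow hG m))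
  have e : g / s (s g) * (s Q / P) * ((Gg / (p / s q')) ^ m)⁻¹ =
      g / s (s g) / Gg ^ m / (κP / s κQ) := by
    rw [hP, hQ, map_mul, map_pow, div_pow, div_pow, inv_div]
    have hpm : p ^ m ≠ 0 := pow_ne_zero m hp
    have hsqm : s q' ^ m ≠ 0 := pow_ne_zero m hsq'
    field_simp
  rwa [e] at hY

/-- **The Kummer unit `u = s² x / x ^ Q`** is a principal unit when `x ≡ c` for a unit
constant `c` with `s² c ≡ c ^ Q` modulo `ϖ V`. -/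
theorem tc18_u_half (V : Subring F) (ϖ : F) (hϖ0 : ϖ ≠ 0) (hϖV : ϖ ∈ V)
    (h1V : ∀ t ∈ V, (1 + ϖ * t)⁻¹ ∈ V)
    (s : F ≃+* F) (hsV : ∀ y ∈ V, s y ∈ V) (hsϖ : ϖ⁻¹ * s ϖ ∈ V) (Q : ℕ)
    (x c : F) (hc0 : c ≠ 0) (hc : tho49_IsU V c)
    (hx : tho49_IsU1 V ϖ (x / c)) (hcQ : ϖ⁻¹ * (s (s c) - c ^ Q) ∈ V) :
    tho49_IsU1 V ϖ (s (s x) / x ^ Q) := by
  have h1 : tho49_IsU1 V ϖ (s (s (x / c))) :=
    tho49_IsU1_map hϖ0 s hsV hsϖ (tho49_IsU1_map hϖ0 s hsV hsϖ hx)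
  have h2 : tho49_IsU1 V ϖ ((x / c) ^ Q) := tho49_IsU1_pow hx Q
  have h3 : tho49_IsU1 V ϖ (s (s c) / c ^ Q) :=
    tc18_U1_of_cong V ϖ hϖ0 hϖV h1V (tho49_IsU_pow hc Q) (pow_ne_zero Q hc0) hcQ
  have h4 := tho49_IsU1_mul (tho49_IsU1_mul h1 (tho49_IsU1_inv h2)) h3
  have hssc : s (s c) ≠ 0 := (map_ne_zero s).mpr ((map_ne_zero s).mpr hc0)
  have e : s (s (x / c)) * ((x / c) ^ Q)⁻¹ * (s (s c) / c ^ Q) = s (s x) / x ^ Q := by
    rw [map_div₀, map_div₀, div_pow, inv_div]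
    have hcQ0 : c ^ Q ≠ 0 := pow_ne_zero Q hc0
    field_simp
  rwa [e] at h4

/-- A monoid homomorphism between fields (a norm) commutes with division. -/
theorem tc18_map_div {F' : Type*} [Field F'] (N : F →* F') (x y : F) (hy : y ≠ 0) :
    N (x / y) = N x / N y := by
  have h1 : N (x / y) * N y = N x := by rw [← map_mul, div_mul_cancel₀ _ hy]
  have hy' : N y ≠ 0 := by
    intro h0
    have h2 : N y * N y⁻¹ = 1 := by rw [← map_mul, mul_inv_cancel₀ hy, map_one]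
    rw [h0, zero_mul] at h2
    exact zero_ne_one h2
  rw [eq_div_iff hy', h1]

/-- **Abstract (1c), both branches.**  `V = V_∞`, `V_0 = w⁻¹ V_∞`; `NA` the norm along `α` with
the norm congruence `hcong`; `f1` a unit of `W = V_∞ ⊓ V_0` with `NA f1 = κa · a1 ^ m` and
`NA (w f1) = κb · b1 ^ m`; `G` with `G ≡ α (a1 / s' b1)` modulo `ϖ V_∞` and
`w G ≡ α (b1 / s' a1)` modulo `ϖ V_∞` (i.e. `G ≡ β (b1 / s' a1)` modulo `ϖ V_0`).  Then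
`f3 := f1 / s² f1 / G ^ m` satisfies: `f3 / α (κa / s' κb)` and `w f3 / α (κb / s' κa)` are
principal units of `V_∞`. -/
theorem tc18_toric_abs {F' : Type*} [Field F']
    (V : Subring F) (ϖ : F) (hϖ0 : ϖ ≠ 0) (hϖV : ϖ ∈ V) (h1V : ∀ t ∈ V, (1 + ϖ * t)⁻¹ ∈ V)
    (s w : F ≃+* F) (s' : F' ≃+* F') (α : F' →+* F)
    (hsV : ∀ y ∈ V, s y ∈ V) (hsϖ : ϖ⁻¹ * s ϖ ∈ V)
    (hww : ∀ y, w (w y) = y) (hsw : ∀ y, w (s y) = s (w y)) (hsα : ∀ y, s (α y) = α (s' y))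
    (NA : F → F')
    (hcong : ∀ y, tho49_IsU V y → tho49_IsU V (w y) → ϖ⁻¹ * (α (NA y) - y * s (w y)) ∈ V)
    (m : ℕ) (f1 G : F) (κa κb a1 b1 : F')
    (hf1 : f1 ≠ 0) (hf1U : tho49_IsU V f1) (hwf1U : tho49_IsU V (w f1))
    (hNa : NA f1 = κa * a1 ^ m) (hNb : NA (w f1) = κb * b1 ^ m)
    (hκa : κa ≠ 0) (hκb : κb ≠ 0) (ha1 : a1 ≠ 0) (hb1 : b1 ≠ 0)
    (hu₁ : tho49_IsU V (α (a1 / s' b1))) (hu₂ : tho49_IsU V (α (b1 / s' a1)))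
    (hG1 : ϖ⁻¹ * (G - α (a1 / s' b1)) ∈ V) (hG2 : ϖ⁻¹ * (w G - α (b1 / s' a1)) ∈ V) :
    tho49_IsU1 V ϖ (f1 / s (s f1) / G ^ m / α (κa / s' κb)) ∧
      tho49_IsU1 V ϖ (w (f1 / s (s f1) / G ^ m) / α (κb / s' κa)) := by
  have hwf1 : w f1 ≠ 0 := (map_ne_zero w).mpr hf1
  have hs'a1 : s' a1 ≠ 0 := (map_ne_zero s').mpr ha1
  have hs'b1 : s' b1 ≠ 0 := (map_ne_zero s').mpr hb1
  have hc1 := hcong f1 hf1U hwf1U
  have hc2 := hcong (w f1) hwf1U (by rw [hww]; exact hf1U)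
  rw [hww] at hc2
  have hP : α (NA f1) = α κa * α a1 ^ m := by rw [hNa, map_mul, map_pow]
  have hQ : α (NA (w f1)) = α κb * α b1 ^ m := by rw [hNb, map_mul, map_pow]
  have hακa : α κa ≠ 0 := (map_ne_zero α).mpr hκa
  have hακb : α κb ≠ 0 := (map_ne_zero α).mpr hκb
  have hαa1 : α a1 ≠ 0 := (map_ne_zero α).mpr ha1
  have hαb1 : α b1 ≠ 0 := (map_ne_zero α).mpr hb1
  constructor
  · have hX := tc18_half V ϖ hϖ0 hϖV h1V s hsV hsϖ f1 (w f1) _ _ hf1 hwf1 hf1U hwf1U hc1 hc2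
    have hGU : tho49_IsU1 V ϖ (G / (α a1 / s (α b1))) := by
      have h := tc18_U1_of_cong V ϖ hϖ0 hϖV h1V hu₁
        ((map_ne_zero α).mpr (div_ne_zero ha1 hs'b1)) hG1
      rwa [map_div₀, ← hsα] at h
    have h := tc18_branch V ϖ s m f1 _ _ (α κa) (α κb) (α a1) (α b1) G hP hQ hακa hακb hαa1
      hαb1 hX hGU
    rwa [hsα, ← map_div₀] at h
  · have hX := tc18_half V ϖ hϖ0 hϖV h1V s hsV hsϖ (w f1) f1 _ _ hwf1 hf1 hwf1U hf1U hc2 hc1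
    have hGU : tho49_IsU1 V ϖ (w G / (α b1 / s (α a1))) := by
      have h := tc18_U1_of_cong V ϖ hϖ0 hϖV h1V hu₂
        ((map_ne_zero α).mpr (div_ne_zero hb1 hs'a1)) hG2
      rwa [map_div₀, ← hsα] at h
    have h := tc18_branch V ϖ s m (w f1) _ _ (α κb) (α κa) (α b1) (α a1) (w G) hQ hP hακb hακa
      hαb1 hαa1 hX hGU
    rw [hsα, ← map_div₀] at h
    have e : w (f1 / s (s f1) / G ^ m) = w f1 / s (s (w f1)) / w G ^ m := by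
      rw [map_div₀, map_div₀, map_pow, hsw, hsw]
    rwa [e]

end tc18_abs

end Fermat.Agent.S35
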