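import Mathlib
import Fermat.Agent.S35.ToricCongAbs18
import Fermat.Agent.S35.Iface62
import Fermat.Agent.S35.NormCong97
import Fermat.Agent.S35.SplitElt66
import Fermat.Agent.S35.FrobFrame50
import Fermat.Agent.S35.LPTransport3

/-!
# S35 lab, chain A, step (1c) in DIRECT CONGRUENCE FORM on the canonical frame (helper18)

Canonical frame of `Iface47c` at level `M' * q` (`q ∤ M'`, ANY `M'`, no Hauptmodul), a Frobenial
automorphism `σ` of the number field `K` (`s35i62_Frobenial R q σ`), `ŝ = s34i47_coeffEquiv σ _`,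
`τ = ŝ²`, `w = al97L_w`, `V_∞ = cm85_Vinf (M' * q) hπ`, `W = s34i47c_W`.

For `f ≠ 0` with `N_α f = ca · a ^ m` and `N_β f = cb · b ^ m` (the `q`-NEW Kummer functions):

* `tc18_toric` : there is a unit `G` of `W` such that `f₃ := lpt3_f3 τ m f G`
  (`= f₁ / τ f₁ / G ^ m`, `f₁ = f / τ f`) is a unit of `W` with CONSTANT reductions:
  `f₃ / r₁` is a principal unit of `V_∞` and `w f₃ / r₂` is a principal unit of `V_∞`
  (i.e. `f₃ ≡ r₁ mod π V_∞`, `f₃ ≡ r₂ mod π V_0`) for units `r₁ r₂` of `R`.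
  No reduction maps, no power basis: the proof is `ng97_norm_cong` (helper97) at `y = f₁` and
  `y = w f₁`, `ng97_norm_beta`, `se66_glue` (helper66) and the principal-unit calculus.
* `tc18_cong_inf`, `tc18_cong_zero` : the congruence forms `π⁻¹ (x - r) ∈ V_∞` / `∈ V_0`.
* `tc18_u_cong` : for such an `x` (`= f₃`): `π⁻¹ (τ x / x ^ (q ^ 2) - 1) ∈ W`
  (the Kummer unit `u` of the toric lemma is `≡ 1` modulo `π W`).
* tools: `tc18_coeff_const`, `tc18_normA_coeff`, `tc18_normB_coeff` ((N2) of `s35i62_NormProps`),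
  `tc18_norm_tw`, `tc18_const_unit` (a constant which is a unit of `V_∞` is a unit of `R`).

All names are prefixed `tc18_`.
-/

set_option autoImplicit false
set_option linter.unusedSectionVars false
set_option linter.unusedVariables false
set_option linter.style.longLine false

open ModularCurve AlgebraicCurve

namespace Fermat.Agent.S35

open Fermat.Agent.S18 Fermat.Agent.S34 Fermat.Agent.S30 Fermat.Agent.S16

local notation "Q̄" => AlgebraicClosure ℚ

section tc18_level

variable {K : Type} [Field K]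

/-- The coefficientwise action on the constants. -/
theorem tc18_coeff_const (M : ℕ) (σ : K ≃+* K) (c : K) :
    s34i47_coeffEquiv σ M (algebraMap K ↥(modularFunctionFieldFullC K M) c) =
      algebraMap K ↥(modularFunctionFieldFullC K M) (σ c) := by
  rw [in87i_coeffEquiv_eq]
  exact in87_aut_algebraMap M σ c

end tc18_level

section tc18_norm

variable {K : Type} [Field K] (M' q : ℕ) [NeZero M'] [NeZero q]

/-- **(N2)** for `N_α`: the norm along `α` commutes with the coefficientwise action. -/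
theorem tc18_normA_coeff (σ : K ≃+* K) (y : ↥(modularFunctionFieldFullC K (M' * q))) :
    s35i62_normA K M' q (s34i47_coeffEquiv σ (M' * q) y) =
      s34i47_coeffEquiv σ M' (s35i62_normA K M' q y) := by
  let _ := algebraAlong (al97L_alpha K M' q)
  have he : (algebraMap ↥(modularFunctionFieldFullC K M')
        ↥(modularFunctionFieldFullC K (M' * q))).comp
      ((s34i47_coeffEquiv σ M' : ↥(modularFunctionFieldFullC K M') ≃+*
        ↥(modularFunctionFieldFullC K M')) : ↥(modularFunctionFieldFullC K M') →+*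
        ↥(modularFunctionFieldFullC K M')) =
      ((s34i47_coeffEquiv σ (M' * q) : ↥(modularFunctionFieldFullC K (M' * q)) ≃+*
        ↥(modularFunctionFieldFullC K (M' * q))) : ↥(modularFunctionFieldFullC K (M' * q)) →+*
        ↥(modularFunctionFieldFullC K (M' * q))).comp
        (algebraMap ↥(modularFunctionFieldFullC K M')
          ↥(modularFunctionFieldFullC K (M' * q))) := by
    ext1 a
    exact Subtype.ext rfl
  have h := Algebra.norm_eq_of_equiv_equiv (s34i47_coeffEquiv σ M')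
    (s34i47_coeffEquiv σ (M' * q)) he y
  show Algebra.norm ↥(modularFunctionFieldFullC K M') (s34i47_coeffEquiv σ (M' * q) y) =
    s34i47_coeffEquiv σ M' (Algebra.norm ↥(modularFunctionFieldFullC K M') y)
  rw [h, RingEquiv.apply_symm_apply]

/-- **(N2)** for `N_β`: the norm along `β` commutes with the coefficientwise action. -/
theorem tc18_normB_coeff (σ : K ≃+* K) (y : ↥(modularFunctionFieldFullC K (M' * q))) :
    s35i62_normB K M' q (s34i47_coeffEquiv σ (M' * q) y) =
      s34i47_coeffEquiv σ M' (s35i62_normB K M' q y) := by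
  let _ := algebraAlong (al97L_beta K M' q)
  have he : (algebraMap ↥(modularFunctionFieldFullC K M')
        ↥(modularFunctionFieldFullC K (M' * q))).comp
      ((s34i47_coeffEquiv σ M' : ↥(modularFunctionFieldFullC K M') ≃+*
        ↥(modularFunctionFieldFullC K M')) : ↥(modularFunctionFieldFullC K M') →+*
        ↥(modularFunctionFieldFullC K M')) =
      ((s34i47_coeffEquiv σ (M' * q) : ↥(modularFunctionFieldFullC K (M' * q)) ≃+*
        ↥(modularFunctionFieldFullC K (M' * q))) : ↥(modularFunctionFieldFullC K (M' * q)) →+*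
        ↥(modularFunctionFieldFullC K (M' * q))).comp
        (algebraMap ↥(modularFunctionFieldFullC K M')
          ↥(modularFunctionFieldFullC K (M' * q))) := by
    ext1 a
    exact (ff50_beta_comm M' q σ a).symm
  have h := Algebra.norm_eq_of_equiv_equiv (s34i47_coeffEquiv σ M')
    (s34i47_coeffEquiv σ (M' * q)) he y
  show Algebra.norm ↥(modularFunctionFieldFullC K M') (s34i47_coeffEquiv σ (M' * q) y) =
    s34i47_coeffEquiv σ M' (Algebra.norm ↥(modularFunctionFieldFullC K M') y)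
  rw [h, RingEquiv.apply_symm_apply]

/-- The norm of the twist `f / ŝ² f` of a function whose norm is `c · a ^ m`. -/
theorem tc18_norm_tw (σ : K ≃+* K)
    (N : ↥(modularFunctionFieldFullC K (M' * q)) →* ↥(modularFunctionFieldFullC K M'))
    (hN : ∀ y, N (s34i47_coeffEquiv σ (M' * q) y) = s34i47_coeffEquiv σ M' (N y))
    (m : ℕ) (f : ↥(modularFunctionFieldFullC K (M' * q))) (hf : f ≠ 0)
    (a : ↥(modularFunctionFieldFullC K M')) (c : K)
    (h : N f = algebraMap K ↥(modularFunctionFieldFullC K M') c * a ^ m) :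
    N (f / s34i47_coeffEquiv σ (M' * q) (s34i47_coeffEquiv σ (M' * q) f)) =
      algebraMap K ↥(modularFunctionFieldFullC K M') (c / σ (σ c)) *
        (a / s34i47_coeffEquiv σ M' (s34i47_coeffEquiv σ M' a)) ^ m := by
  have hsf : s34i47_coeffEquiv σ (M' * q) (s34i47_coeffEquiv σ (M' * q) f) ≠ 0 :=
    (map_ne_zero _).mpr ((map_ne_zero _).mpr hf)
  rw [tc18_map_div N _ _ hsf, hN, hN, h, map_mul, map_mul, map_pow, map_pow, tc18_coeff_const,
    tc18_coeff_const, map_div₀, div_pow, mul_div_mul_comm]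

end tc18_norm

section tc18_canon

variable {R K : Type} [CommRing R] [IsDomain R] [IsDiscreteValuationRing R] [Field K]
  [NumberField K] [Algebra K Q̄] [Algebra R K] [IsFractionRing R K]
  (M' q : ℕ) [NeZero M'] [NeZero q] (hq : q.Prime) (hM' : ¬ q ∣ M')
  [Algebra R ↥(modularFunctionFieldFullC K (M' * q))]
  [IsScalarTower R K ↥(modularFunctionFieldFullC K (M' * q))] {π : R} (hπ : Irreducible π)

/-- A constant of `K` lying in the Gauss ring `V_∞` lies in `R`. -/
theorem tc18_const_mem (k : K)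
    (h1 : algebraMap K ↥(modularFunctionFieldFullC K (M' * q)) k ∈
      cm85_Vinf (K := K) (M' * q) hπ) : ∃ r : R, algebraMap R K r = k := by
  rcases ValuationRing.isInteger_or_isInteger R k with ⟨r, hr⟩ | ⟨r, hr⟩
  · exact ⟨r, hr⟩
  · by_cases hk0 : k = 0
    · exact ⟨0, by rw [map_zero, hk0]⟩
    by_cases hu : IsUnit r
    · obtain ⟨u, rfl⟩ := hu
      refine ⟨((u⁻¹ : Rˣ) : R), ?_⟩
      have h2 : algebraMap R K ((u⁻¹ : Rˣ) : R) * algebraMap R K (u : R) = 1 := by
        rw [← map_mul, Units.inv_mul, map_one]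
      rw [eq_inv_of_mul_eq_one_left h2, hr, inv_inv]
    · exfalso
      have hmem : r ∈ IsLocalRing.maximalIdeal R := (IsLocalRing.mem_maximalIdeal r).mpr hu
      rw [hπ.maximalIdeal_eq, Ideal.mem_span_singleton] at hmem
      obtain ⟨r', rfl⟩ := hmem
      apply al97C_pi_inv_not_mem_Vinf (K := K) M' q hπ
      have hA0 : algebraMap K ↥(modularFunctionFieldFullC K (M' * q)) k ≠ 0 :=
        (map_ne_zero _).mpr hk0
      have h3 : (algebraMap K ↥(modularFunctionFieldFullC K (M' * q)) k)⁻¹ =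
          algebraMap R ↥(modularFunctionFieldFullC K (M' * q)) π *
            algebraMap R ↥(modularFunctionFieldFullC K (M' * q)) r' := by
        rw [← map_mul, IsScalarTower.algebraMap_apply R K ↥(modularFunctionFieldFullC K (M' * q)),
          hr, map_inv₀]
      have hπ0 : algebraMap R ↥(modularFunctionFieldFullC K (M' * q)) π ≠ 0 := by
        intro h0
        rw [h0, zero_mul] at h3
        exact inv_ne_zero hA0 h3
      have hc' : algebraMap R ↥(modularFunctionFieldFullC K (M' * q)) r' ≠ 0 := by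
        intro h0
        rw [h0, mul_zero] at h3
        exact inv_ne_zero hA0 h3
      have hA : algebraMap K ↥(modularFunctionFieldFullC K (M' * q)) k =
          (algebraMap R ↥(modularFunctionFieldFullC K (M' * q)) π *
            algebraMap R ↥(modularFunctionFieldFullC K (M' * q)) r')⁻¹ := by
        rw [← h3, inv_inv]
      have h4 : (algebraMap R ↥(modularFunctionFieldFullC K (M' * q)) π)⁻¹ =
          algebraMap K ↥(modularFunctionFieldFullC K (M' * q)) k *
            algebraMap R ↥(modularFunctionFieldFullC K (M' * q)) r' := by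
        rw [hA]
        field_simp
      rw [h4]
      exact mul_mem h1 (al97C_algebraMap_mem_Vinf M' q hπ r')

/-- A constant of `K` which is a unit of the Gauss ring `V_∞` is a unit of `R`. -/
theorem tc18_const_unit (k : K) (hk0 : k ≠ 0)
    (h1 : algebraMap K ↥(modularFunctionFieldFullC K (M' * q)) k ∈
      cm85_Vinf (K := K) (M' * q) hπ)
    (h2 : (algebraMap K ↥(modularFunctionFieldFullC K (M' * q)) k)⁻¹ ∈
      cm85_Vinf (K := K) (M' * q) hπ) : ∃ r : R, IsUnit r ∧ algebraMap R K r = k := by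
  obtain ⟨r, hr⟩ := tc18_const_mem M' q hπ k h1
  rw [← map_inv₀] at h2
  obtain ⟨r', hr'⟩ := tc18_const_mem M' q hπ k⁻¹ h2
  refine ⟨r, IsUnit.of_mul_eq_one r' ?_, hr⟩
  apply IsFractionRing.injective R K
  rw [map_mul, hr, hr', map_one, mul_inv_cancel₀ hk0]


set_option maxHeartbeats 1600000 in
/-- **(1c) in congruence form on the canonical frame.**  For `f ≠ 0` with `N_α f = ca · a ^ m`,
`N_β f = cb · b ^ m` and a Frobenial `σ`: there is a unit `G` of `W` such that
`f₃ = lpt3_f3 (ŝ²) m f G` has CONSTANT reductions on both branches: `f₃ / r₁` and `w f₃ / r₂` are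
principal units of `V_∞` for units `r₁ r₂` of `R`. -/
theorem tc18_toric (hqR : ¬ IsUnit (q : R)) (σ : K ≃+* K) (hσ : s35i62_Frobenial R q σ)
    (m : ℕ) (f : ↥(modularFunctionFieldFullC K (M' * q)))
    (a b : ↥(modularFunctionFieldFullC K M')) (ca cb : K)
    (hf : f ≠ 0) (ha : a ≠ 0) (hb : b ≠ 0) (hca : ca ≠ 0) (hcb : cb ≠ 0)
    (hNa : s35i62_normA K M' q f = algebraMap K ↥(modularFunctionFieldFullC K M') ca * a ^ m)
    (hNb : s35i62_normB K M' q f = algebraMap K ↥(modularFunctionFieldFullC K M') cb * b ^ m) :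
    ∃ G : ↥(modularFunctionFieldFullC K (M' * q)), G ≠ 0 ∧
      G ∈ s34i47c_W (K := K) M' q hq hM' hπ ∧ G⁻¹ ∈ s34i47c_W (K := K) M' q hq hM' hπ ∧
      lpt3_f3 ((s34i47_coeffEquiv σ (M' * q)).trans (s34i47_coeffEquiv σ (M' * q))) m f G ∈
        s34i47c_W (K := K) M' q hq hM' hπ ∧
      (lpt3_f3 ((s34i47_coeffEquiv σ (M' * q)).trans (s34i47_coeffEquiv σ (M' * q))) m f G)⁻¹ ∈
        s34i47c_W (K := K) M' q hq hM' hπ ∧
      ∃ r₁ r₂ : R, IsUnit r₁ ∧ IsUnit r₂ ∧
        tho49_IsU1 (cm85_Vinf (K := K) (M' * q) hπ).toSubring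
          (algebraMap R ↥(modularFunctionFieldFullC K (M' * q)) π)
          (lpt3_f3 ((s34i47_coeffEquiv σ (M' * q)).trans (s34i47_coeffEquiv σ (M' * q))) m f G /
            algebraMap R ↥(modularFunctionFieldFullC K (M' * q)) r₁) ∧
        tho49_IsU1 (cm85_Vinf (K := K) (M' * q) hπ).toSubring
          (algebraMap R ↥(modularFunctionFieldFullC K (M' * q)) π)
          (al97L_w (algebraMap K Q̄) M' q hq hM'
            (lpt3_f3 ((s34i47_coeffEquiv σ (M' * q)).trans (s34i47_coeffEquiv σ (M' * q)))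
              m f G) /
            algebraMap R ↥(modularFunctionFieldFullC K (M' * q)) r₂) := by
  have hσ' : ff50_Frob R q σ := hσ
  have hϖ' : (algebraMap R ↥(modularFunctionFieldFullC K (M' * q)) π)⁻¹ ∉
      cm85_Vinf (K := K) (M' * q) hπ := al97C_pi_inv_not_mem_Vinf (K := K) M' q hπ
  have hϖ0 : algebraMap R ↥(modularFunctionFieldFullC K (M' * q)) π ≠ 0 := by
    intro h0
    apply hϖ'
    rw [h0, inv_zero]
    exact zero_mem _
  have hϖK : algebraMap K ↥(modularFunctionFieldFullC K (M' * q)) (algebraMap R K π) =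
      algebraMap R ↥(modularFunctionFieldFullC K (M' * q)) π :=
    (IsScalarTower.algebraMap_apply R K _ π).symm
  have hϖV : algebraMap R ↥(modularFunctionFieldFullC K (M' * q)) π ∈
      (cm85_Vinf (K := K) (M' * q) hπ).toSubring := al97C_algebraMap_mem_Vinf M' q hπ π
  have h1V : ∀ t ∈ (cm85_Vinf (K := K) (M' * q) hπ).toSubring,
      (1 + algebraMap R ↥(modularFunctionFieldFullC K (M' * q)) π * t)⁻¹ ∈
        (cm85_Vinf (K := K) (M' * q) hπ).toSubring :=
    fun t ht => se66_one_add_inv_mem _ _ hϖ' t ht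
  have hsV : ∀ y ∈ (cm85_Vinf (K := K) (M' * q) hπ).toSubring,
      s34i47_coeffEquiv σ (M' * q) y ∈ (cm85_Vinf (K := K) (M' * q) hπ).toSubring :=
    fun y hy => ff50_mem_Vinf (M' * q) hq.ne_zero hπ σ hσ' y hy
  have hsϖ : (algebraMap R ↥(modularFunctionFieldFullC K (M' * q)) π)⁻¹ *
      s34i47_coeffEquiv σ (M' * q) (algebraMap R ↥(modularFunctionFieldFullC K (M' * q)) π) ∈
      (cm85_Vinf (K := K) (M' * q) hπ).toSubring := by
    have h := ff50_div_mem_Vinf (M' * q) hq.ne_zero hπ σ hσ' _ hϖ0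
    rw [mul_comm ((algebraMap R ↥(modularFunctionFieldFullC K (M' * q)) π)⁻¹),
      ← div_eq_mul_inv]
    exact h
  -- the twist `f1 = f / ŝ² f` is a unit of `W`
  have hsf0 : s34i47_coeffEquiv σ (M' * q) f ≠ 0 := (map_ne_zero _).mpr hf
  have hssf0 : s34i47_coeffEquiv σ (M' * q) (s34i47_coeffEquiv σ (M' * q) f) ≠ 0 :=
    (map_ne_zero _).mpr hsf0
  obtain ⟨f1, hf1⟩ : ∃ f1 : ↥(modularFunctionFieldFullC K (M' * q)),
      f1 = f / s34i47_coeffEquiv σ (M' * q) (s34i47_coeffEquiv σ (M' * q) f) := ⟨_, rfl⟩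
  have hf10 : f1 ≠ 0 := by rw [hf1]; exact div_ne_zero hf hssf0
  have htwW : ∀ x : ↥(modularFunctionFieldFullC K (M' * q)), x ≠ 0 →
      x / s34i47_coeffEquiv σ (M' * q) (s34i47_coeffEquiv σ (M' * q) x) ∈
        s34i47c_W (K := K) M' q hq hM' hπ ∧
      (x / s34i47_coeffEquiv σ (M' * q) (s34i47_coeffEquiv σ (M' * q) x))⁻¹ ∈
        s34i47c_W (K := K) M' q hq hM' hπ := by
    intro x hx
    have hsx : s34i47_coeffEquiv σ (M' * q) x ≠ 0 := (map_ne_zero _).mpr hx
    have hssx : s34i47_coeffEquiv σ (M' * q) (s34i47_coeffEquiv σ (M' * q) x) ≠ 0 :=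
      (map_ne_zero _).mpr hsx
    have h1 := ff50_inv_div_mem_W M' q hq hM' hπ σ hσ' x hx
    have h2 := ff50_inv_div_mem_W M' q hq hM' hπ σ hσ' _ hsx
    have h3 := ff50_div_mem_W M' q hq hM' hπ σ hσ' x hx
    have h4 := ff50_div_mem_W M' q hq hM' hπ σ hσ' _ hsx
    constructor
    · have e : x / s34i47_coeffEquiv σ (M' * q) (s34i47_coeffEquiv σ (M' * q) x) =
          x / s34i47_coeffEquiv σ (M' * q) x * (s34i47_coeffEquiv σ (M' * q) x /
            s34i47_coeffEquiv σ (M' * q) (s34i47_coeffEquiv σ (M' * q) x)) := by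
        field_simp
      rw [e]
      exact mul_mem h1 h2
    · have e : (x / s34i47_coeffEquiv σ (M' * q) (s34i47_coeffEquiv σ (M' * q) x))⁻¹ =
          s34i47_coeffEquiv σ (M' * q) (s34i47_coeffEquiv σ (M' * q) x) /
            s34i47_coeffEquiv σ (M' * q) x * (s34i47_coeffEquiv σ (M' * q) x / x) := by
        field_simp
      rw [e]
      exact mul_mem h4 h3
  obtain ⟨hf1W, hf1W'⟩ : f1 ∈ s34i47c_W (K := K) M' q hq hM' hπ ∧
      f1⁻¹ ∈ s34i47c_W (K := K) M' q hq hM' hπ := by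
    rw [hf1]
    exact htwW f hf
  obtain ⟨hf1V, hwf1V⟩ := (s34i47c_mem_W M' q hq hM' hπ f1).mp hf1W
  obtain ⟨hf1V', hwf1V'⟩ := (s34i47c_mem_W M' q hq hM' hπ f1⁻¹).mp hf1W'
  rw [map_inv₀] at hwf1V'
  -- the norms of `f1` and `w f1`
  have hNf1 : s35i62_normA K M' q f1 =
      algebraMap K ↥(modularFunctionFieldFullC K M') (ca / σ (σ ca)) *
        (a / s34i47_coeffEquiv σ M' (s34i47_coeffEquiv σ M' a)) ^ m := by
    rw [hf1]
    exact tc18_norm_tw M' q σ (s35i62_normA K M' q) (tc18_normA_coeff M' q σ) m f hf a ca hNa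
  have hNwf1 : s35i62_normA K M' q (al97L_w (algebraMap K Q̄) M' q hq hM' f1) =
      algebraMap K ↥(modularFunctionFieldFullC K M') (cb / σ (σ cb)) *
        (b / s34i47_coeffEquiv σ M' (s34i47_coeffEquiv σ M' b)) ^ m := by
    have h1 : s35i62_normB K M' q f1 =
        algebraMap K ↥(modularFunctionFieldFullC K M') (cb / σ (σ cb)) *
          (b / s34i47_coeffEquiv σ M' (s34i47_coeffEquiv σ M' b)) ^ m := by
      rw [hf1]
      exact tc18_norm_tw M' q σ (s35i62_normB K M' q) (tc18_normB_coeff M' q σ) m f hf b cb hNb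
    rw [← h1]
    exact (ng97_norm_beta M' q hq hM' f1).symm
  -- units of the level-`M'` Gauss ring
  have htwV' : ∀ x : ↥(modularFunctionFieldFullC K M'), x ≠ 0 →
      x / s34i47_coeffEquiv σ M' (s34i47_coeffEquiv σ M' x) ∈ cm85_Vinf (K := K) M' hπ ∧
      (x / s34i47_coeffEquiv σ M' (s34i47_coeffEquiv σ M' x))⁻¹ ∈ cm85_Vinf (K := K) M' hπ := by
    intro x hx
    have hsx : s34i47_coeffEquiv σ M' x ≠ 0 := (map_ne_zero _).mpr hx
    have hssx : s34i47_coeffEquiv σ M' (s34i47_coeffEquiv σ M' x) ≠ 0 := (map_ne_zero _).mpr hsx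
    have h1 := ff50_inv_div_mem_Vinf M' hq.ne_zero hπ σ hσ' x hx
    have h2 := ff50_inv_div_mem_Vinf M' hq.ne_zero hπ σ hσ' _ hsx
    have h3 := ff50_div_mem_Vinf M' hq.ne_zero hπ σ hσ' x hx
    have h4 := ff50_div_mem_Vinf M' hq.ne_zero hπ σ hσ' _ hsx
    constructor
    · have e : x / s34i47_coeffEquiv σ M' (s34i47_coeffEquiv σ M' x) =
          x / s34i47_coeffEquiv σ M' x * (s34i47_coeffEquiv σ M' x /
            s34i47_coeffEquiv σ M' (s34i47_coeffEquiv σ M' x)) := by
        field_simp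
      rw [e]
      exact mul_mem h1 h2
    · have e : (x / s34i47_coeffEquiv σ M' (s34i47_coeffEquiv σ M' x))⁻¹ =
          s34i47_coeffEquiv σ M' (s34i47_coeffEquiv σ M' x) /
            s34i47_coeffEquiv σ M' x * (s34i47_coeffEquiv σ M' x / x) := by
        field_simp
      rw [e]
      exact mul_mem h4 h3
  have hsV' : ∀ y ∈ cm85_Vinf (K := K) M' hπ, s34i47_coeffEquiv σ M' y ∈
      cm85_Vinf (K := K) M' hπ := fun y hy => ff50_mem_Vinf M' hq.ne_zero hπ σ hσ' y hy
  obtain ⟨a1, ha1⟩ : ∃ a1 : ↥(modularFunctionFieldFullC K M'),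
      a1 = a / s34i47_coeffEquiv σ M' (s34i47_coeffEquiv σ M' a) := ⟨_, rfl⟩
  obtain ⟨b1, hb1⟩ : ∃ b1 : ↥(modularFunctionFieldFullC K M'),
      b1 = b / s34i47_coeffEquiv σ M' (s34i47_coeffEquiv σ M' b) := ⟨_, rfl⟩
  rw [← ha1] at hNf1
  rw [← hb1] at hNwf1
  obtain ⟨ha1V, ha1V'⟩ : a1 ∈ cm85_Vinf (K := K) M' hπ ∧ a1⁻¹ ∈ cm85_Vinf (K := K) M' hπ := by
    rw [ha1]
    exact htwV' a ha
  obtain ⟨hb1V, hb1V'⟩ : b1 ∈ cm85_Vinf (K := K) M' hπ ∧ b1⁻¹ ∈ cm85_Vinf (K := K) M' hπ := by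
    rw [hb1]
    exact htwV' b hb
  have ha10 : a1 ≠ 0 := by
    rw [ha1]
    exact div_ne_zero ha ((map_ne_zero _).mpr ((map_ne_zero _).mpr ha))
  have hb10 : b1 ≠ 0 := by
    rw [hb1]
    exact div_ne_zero hb ((map_ne_zero _).mpr ((map_ne_zero _).mpr hb))
  have hsa10 : s34i47_coeffEquiv σ M' a1 ≠ 0 := (map_ne_zero _).mpr ha10
  have hsb10 : s34i47_coeffEquiv σ M' b1 ≠ 0 := (map_ne_zero _).mpr hb10
  have hu₁ : a1 / s34i47_coeffEquiv σ M' b1 ∈ cm85_Vinf (K := K) M' hπ := by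
    rw [div_eq_mul_inv, ← map_inv₀]
    exact mul_mem ha1V (hsV' _ hb1V')
  have hu₁' : (a1 / s34i47_coeffEquiv σ M' b1)⁻¹ ∈ cm85_Vinf (K := K) M' hπ := by
    rw [inv_div, div_eq_mul_inv]
    exact mul_mem (hsV' _ hb1V) ha1V'
  have hu₂ : b1 / s34i47_coeffEquiv σ M' a1 ∈ cm85_Vinf (K := K) M' hπ := by
    rw [div_eq_mul_inv, ← map_inv₀]
    exact mul_mem hb1V (hsV' _ ha1V')
  have hu₂' : (b1 / s34i47_coeffEquiv σ M' a1)⁻¹ ∈ cm85_Vinf (K := K) M' hπ := by
    rw [inv_div, div_eq_mul_inv]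
    exact mul_mem (hsV' _ ha1V) hb1V'
  -- the unit `G`
  obtain ⟨G, hGW, hGW', hG1, hG2⟩ := se66_glue M' q hq hM' hπ hqR
    (a1 / s34i47_coeffEquiv σ M' b1) (b1 / s34i47_coeffEquiv σ M' a1) hu₁ hu₁' hu₂ hu₂'
    (div_ne_zero ha10 hsb10) (div_ne_zero hb10 hsa10)
  have hαu₁ : tho49_IsU (cm85_Vinf (K := K) (M' * q) hπ).toSubring
      (al97L_alpha K M' q (a1 / s34i47_coeffEquiv σ M' b1)) :=
    ⟨(al97C_alpha_mem_Vinf M' q hπ _).mpr hu₁, by
      rw [← map_inv₀]
      exact (al97C_alpha_mem_Vinf M' q hπ _).mpr hu₁'⟩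
  have hαu₂ : tho49_IsU (cm85_Vinf (K := K) (M' * q) hπ).toSubring
      (al97L_alpha K M' q (b1 / s34i47_coeffEquiv σ M' a1)) :=
    ⟨(al97C_alpha_mem_Vinf M' q hπ _).mpr hu₂, by
      rw [← map_inv₀]
      exact (al97C_alpha_mem_Vinf M' q hπ _).mpr hu₂'⟩
  have hG2' : (algebraMap R ↥(modularFunctionFieldFullC K (M' * q)) π)⁻¹ *
      (al97L_w (algebraMap K Q̄) M' q hq hM' G -
        al97L_alpha K M' q (b1 / s34i47_coeffEquiv σ M' a1)) ∈
      (cm85_Vinf (K := K) (M' * q) hπ).toSubring := by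
    have h := (s34i47c_mem_V0 M' q hq hM' hπ _).mp hG2
    rwa [map_mul, map_inv₀, map_sub, al97L_w_beta_apply, ← hϖK, AlgEquiv.commutes, hϖK] at h
  have hG0 : G ≠ 0 := by
    rintro rfl
    apply hϖ'
    have h := mul_mem hG1 hαu₁.2
    have hne : al97L_alpha K M' q (a1 / s34i47_coeffEquiv σ M' b1) ≠ 0 :=
      (map_ne_zero _).mpr (div_ne_zero ha10 hsb10)
    have e : (algebraMap R ↥(modularFunctionFieldFullC K (M' * q)) π)⁻¹ *
        (0 - al97L_alpha K M' q (a1 / s34i47_coeffEquiv σ M' b1)) *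
        (al97L_alpha K M' q (a1 / s34i47_coeffEquiv σ M' b1))⁻¹ =
        -(algebraMap R ↥(modularFunctionFieldFullC K (M' * q)) π)⁻¹ := by
      rw [zero_sub, mul_neg, neg_mul, mul_assoc, mul_inv_cancel₀ hne, mul_one]
    rw [e] at h
    have h' := neg_mem h
    rwa [neg_neg] at h'
  -- the abstract (1c)
  obtain ⟨hI, hZ⟩ := tc18_toric_abs (cm85_Vinf (K := K) (M' * q) hπ).toSubring
    (algebraMap R ↥(modularFunctionFieldFullC K (M' * q)) π) hϖ0 hϖV h1V
    (s34i47_coeffEquiv σ (M' * q)) (al97L_w (algebraMap K Q̄) M' q hq hM').toRingEquiv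
    (s34i47_coeffEquiv σ M') (al97L_alpha K M' q).toRingHom hsV hsϖ
    (fun y => al97L_w_w (algebraMap K Q̄) M' q hq hM' y)
    (fun y => in87g_w_comm M' q hq hM' σ y)
    (fun y => ff50_alpha_comm M' q σ y)
    (fun y => s35i62_normA K M' q y)
    (fun y hy hwy => by
      have h := ng97_norm_cong M' q hq hM' hπ hqR σ hσ y hy.1 hwy.1
      rw [hϖK] at h
      exact h)
    m f1 G (algebraMap K ↥(modularFunctionFieldFullC K M') (ca / σ (σ ca)))
    (algebraMap K ↥(modularFunctionFieldFullC K M') (cb / σ (σ cb))) a1 b1 hf10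
    ⟨hf1V, hf1V'⟩ ⟨hwf1V, hwf1V'⟩ hNf1 hNwf1
    ((map_ne_zero _).mpr (div_ne_zero hca ((map_ne_zero _).mpr ((map_ne_zero _).mpr hca))))
    ((map_ne_zero _).mpr (div_ne_zero hcb ((map_ne_zero _).mpr ((map_ne_zero _).mpr hcb))))
    ha10 hb10 hαu₁ hαu₂ hG1 hG2'
  -- `f₃` and its unit property
  have hf3 : lpt3_f3 ((s34i47_coeffEquiv σ (M' * q)).trans (s34i47_coeffEquiv σ (M' * q))) m f G =
      f1 / s34i47_coeffEquiv σ (M' * q) (s34i47_coeffEquiv σ (M' * q) f1) / G ^ m := by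
    rw [hf1]
    rfl
  obtain ⟨htw1, htw1'⟩ := htwW f1 hf10
  have hf3W : lpt3_f3 ((s34i47_coeffEquiv σ (M' * q)).trans (s34i47_coeffEquiv σ (M' * q))) m f G ∈
      s34i47c_W (K := K) M' q hq hM' hπ := by
    rw [hf3, div_eq_mul_inv, ← inv_pow]
    exact mul_mem htw1 (pow_mem hGW' m)
  have hf3W' : (lpt3_f3 ((s34i47_coeffEquiv σ (M' * q)).trans (s34i47_coeffEquiv σ (M' * q)))
      m f G)⁻¹ ∈ s34i47c_W (K := K) M' q hq hM' hπ := by
    rw [hf3, inv_div, div_eq_mul_inv]
    exact mul_mem (pow_mem hGW m) htw1'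
  have hf30 : lpt3_f3 ((s34i47_coeffEquiv σ (M' * q)).trans (s34i47_coeffEquiv σ (M' * q)))
      m f G ≠ 0 := by
    rw [hf3]
    exact div_ne_zero (div_ne_zero hf10 ((map_ne_zero _).mpr ((map_ne_zero _).mpr hf10)))
      (pow_ne_zero m hG0)
  obtain ⟨hf3V, hwf3V⟩ := (s34i47c_mem_W M' q hq hM' hπ _).mp hf3W
  obtain ⟨hf3V', hwf3V'⟩ := (s34i47c_mem_W M' q hq hM' hπ _).mp hf3W'
  rw [map_inv₀] at hwf3V'
  -- the constants
  have hκa0 : ca / σ (σ ca) ≠ 0 :=
    div_ne_zero hca ((map_ne_zero _).mpr ((map_ne_zero _).mpr hca))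
  have hκb0 : cb / σ (σ cb) ≠ 0 :=
    div_ne_zero hcb ((map_ne_zero _).mpr ((map_ne_zero _).mpr hcb))
  have hk₁ : (al97L_alpha K M' q).toRingHom
      (algebraMap K ↥(modularFunctionFieldFullC K M') (ca / σ (σ ca)) /
        s34i47_coeffEquiv σ M' (algebraMap K ↥(modularFunctionFieldFullC K M') (cb / σ (σ cb)))) =
      algebraMap K ↥(modularFunctionFieldFullC K (M' * q))
        (ca / σ (σ ca) / σ (cb / σ (σ cb))) := by
    rw [tc18_coeff_const, ← map_div₀]
    exact (al97L_alpha K M' q).commutes _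
  have hk₂ : (al97L_alpha K M' q).toRingHom
      (algebraMap K ↥(modularFunctionFieldFullC K M') (cb / σ (σ cb)) /
        s34i47_coeffEquiv σ M' (algebraMap K ↥(modularFunctionFieldFullC K M') (ca / σ (σ ca)))) =
      algebraMap K ↥(modularFunctionFieldFullC K (M' * q))
        (cb / σ (σ cb) / σ (ca / σ (σ ca))) := by
    rw [tc18_coeff_const, ← map_div₀]
    exact (al97L_alpha K M' q).commutes _
  rw [hk₁, ← hf3] at hI
  rw [hk₂, ← hf3] at hZ
  have hk₁0 : ca / σ (σ ca) / σ (cb / σ (σ cb)) ≠ 0 :=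
    div_ne_zero hκa0 ((map_ne_zero _).mpr hκb0)
  have hk₂0 : cb / σ (σ cb) / σ (ca / σ (σ ca)) ≠ 0 :=
    div_ne_zero hκb0 ((map_ne_zero _).mpr hκa0)
  -- a constant congruent to a unit of `V_∞` is a unit of `R`
  have hconst : ∀ (k : K) (x : ↥(modularFunctionFieldFullC K (M' * q))), k ≠ 0 → x ≠ 0 →
      x ∈ cm85_Vinf (K := K) (M' * q) hπ → x⁻¹ ∈ cm85_Vinf (K := K) (M' * q) hπ →
      tho49_IsU1 (cm85_Vinf (K := K) (M' * q) hπ).toSubring
        (algebraMap R ↥(modularFunctionFieldFullC K (M' * q)) π)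
        (x / algebraMap K ↥(modularFunctionFieldFullC K (M' * q)) k) →
      ∃ r : R, IsUnit r ∧ algebraMap K ↥(modularFunctionFieldFullC K (M' * q)) k =
        algebraMap R ↥(modularFunctionFieldFullC K (M' * q)) r := by
    intro k x hk0 hx0 hxV hxV' hU
    have hc0 : algebraMap K ↥(modularFunctionFieldFullC K (M' * q)) k ≠ 0 :=
      (map_ne_zero _).mpr hk0
    have e1 : algebraMap K ↥(modularFunctionFieldFullC K (M' * q)) k =
        x * (x / algebraMap K ↥(modularFunctionFieldFullC K (M' * q)) k)⁻¹ := by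
      field_simp
    have e2 : (algebraMap K ↥(modularFunctionFieldFullC K (M' * q)) k)⁻¹ =
        x⁻¹ * (x / algebraMap K ↥(modularFunctionFieldFullC K (M' * q)) k) := by
      field_simp
    obtain ⟨r, hr, hrk⟩ := tc18_const_unit M' q hπ k hk0
      (by rw [e1]; exact mul_mem hxV hU.1.2) (by rw [e2]; exact mul_mem hxV' hU.1.1)
    exact ⟨r, hr, by rw [← hrk, ← IsScalarTower.algebraMap_apply]⟩
  obtain ⟨r₁, hr₁, hr₁k⟩ := hconst _ _ hk₁0 hf30 hf3V hf3V' hI
  obtain ⟨r₂, hr₂, hr₂k⟩ := hconst _ _ hk₂0 ((map_ne_zero _).mpr hf30) hwf3V hwf3V' hZ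
  rw [hr₁k] at hI
  rw [hr₂k] at hZ
  exact ⟨G, hG0, hGW, hGW', hf3W, hf3W', r₁, r₂, hr₁, hr₂, hI, hZ⟩

/-- Congruence form on `V_∞`: `x ≡ r` modulo `π V_∞`. -/
theorem tc18_cong_inf (x : ↥(modularFunctionFieldFullC K (M' * q))) (r : R) (hr : IsUnit r)
    (h : tho49_IsU1 (cm85_Vinf (K := K) (M' * q) hπ).toSubring
      (algebraMap R ↥(modularFunctionFieldFullC K (M' * q)) π)
      (x / algebraMap R ↥(modularFunctionFieldFullC K (M' * q)) r)) :
    (algebraMap R ↥(modularFunctionFieldFullC K (M' * q)) π)⁻¹ *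
      (x - algebraMap R ↥(modularFunctionFieldFullC K (M' * q)) r) ∈
        cm85_Vinf (K := K) (M' * q) hπ := by
  have hr0 : algebraMap R ↥(modularFunctionFieldFullC K (M' * q)) r ≠ 0 := by
    intro h0
    have hinj : Function.Injective (algebraMap R ↥(modularFunctionFieldFullC K (M' * q))) := by
      rw [IsScalarTower.algebraMap_eq R K ↥(modularFunctionFieldFullC K (M' * q))]
      exact (algebraMap K ↥(modularFunctionFieldFullC K (M' * q))).injective.comp
        (IsFractionRing.injective R K)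
    exact hr.ne_zero (hinj (by rw [h0, map_zero]))
  exact tc18_cong_of_U1 (cm85_Vinf (K := K) (M' * q) hπ).toSubring _
    (al97C_algebraMap_mem_Vinf M' q hπ r) hr0 h

/-- Congruence form on `V_0`: `x ≡ r` modulo `π V_0`. -/
theorem tc18_cong_zero (x : ↥(modularFunctionFieldFullC K (M' * q))) (r : R) (hr : IsUnit r)
    (h : tho49_IsU1 (cm85_Vinf (K := K) (M' * q) hπ).toSubring
      (algebraMap R ↥(modularFunctionFieldFullC K (M' * q)) π)
      (al97L_w (algebraMap K Q̄) M' q hq hM' x /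
        algebraMap R ↥(modularFunctionFieldFullC K (M' * q)) r)) :
    (algebraMap R ↥(modularFunctionFieldFullC K (M' * q)) π)⁻¹ *
      (x - algebraMap R ↥(modularFunctionFieldFullC K (M' * q)) r) ∈
        s34i47c_V0 (K := K) M' q hq hM' hπ := by
  have h1 := tc18_cong_inf M' q hπ _ r hr h
  rw [s34i47c_mem_V0, map_mul, map_inv₀, map_sub,
    IsScalarTower.algebraMap_apply R K ↥(modularFunctionFieldFullC K (M' * q)) π,
    IsScalarTower.algebraMap_apply R K ↥(modularFunctionFieldFullC K (M' * q)) r,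
    AlgEquiv.commutes, AlgEquiv.commutes,
    ← IsScalarTower.algebraMap_apply R K ↥(modularFunctionFieldFullC K (M' * q)) π,
    ← IsScalarTower.algebraMap_apply R K ↥(modularFunctionFieldFullC K (M' * q)) r]
  exact h1

/-- The coefficientwise action of a Frobenial automorphism on the constants of `R`. -/
theorem tc18_coeff_R (σ : K ≃+* K) (r r' : R) (h : σ (algebraMap R K r) = algebraMap R K r') :
    s34i47_coeffEquiv σ (M' * q) (algebraMap R ↥(modularFunctionFieldFullC K (M' * q)) r) =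
      algebraMap R ↥(modularFunctionFieldFullC K (M' * q)) r' := by
  rw [IsScalarTower.algebraMap_apply R K ↥(modularFunctionFieldFullC K (M' * q)),
    tc18_coeff_const, h, ← IsScalarTower.algebraMap_apply]

/-- **The Kummer unit of the toric lemma is `≡ 1` modulo `π W`.**  If `x ≡ r₁` modulo `π V_∞` and
`x ≡ r₂` modulo `π V_0` for units `r₁ r₂` of `R` (principal-unit form), then
`u = ŝ² x / x ^ (q ^ 2)` satisfies `π⁻¹ (u - 1) ∈ W`. -/
theorem tc18_u_cong (σ : K ≃+* K) (hσ : s35i62_Frobenial R q σ)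
    (x : ↥(modularFunctionFieldFullC K (M' * q))) (r₁ r₂ : R) (hr₁ : IsUnit r₁) (hr₂ : IsUnit r₂)
    (h₁ : tho49_IsU1 (cm85_Vinf (K := K) (M' * q) hπ).toSubring
      (algebraMap R ↥(modularFunctionFieldFullC K (M' * q)) π)
      (x / algebraMap R ↥(modularFunctionFieldFullC K (M' * q)) r₁))
    (h₂ : tho49_IsU1 (cm85_Vinf (K := K) (M' * q) hπ).toSubring
      (algebraMap R ↥(modularFunctionFieldFullC K (M' * q)) π)
      (al97L_w (algebraMap K Q̄) M' q hq hM' x /
        algebraMap R ↥(modularFunctionFieldFullC K (M' * q)) r₂)) :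
    (algebraMap R ↥(modularFunctionFieldFullC K (M' * q)) π)⁻¹ *
      (((s34i47_coeffEquiv σ (M' * q)).trans (s34i47_coeffEquiv σ (M' * q))) x / x ^ (q ^ 2) - 1) ∈
        s34i47c_W (K := K) M' q hq hM' hπ := by
  have hσ' : ff50_Frob R q σ := hσ
  have hϖ' : (algebraMap R ↥(modularFunctionFieldFullC K (M' * q)) π)⁻¹ ∉
      cm85_Vinf (K := K) (M' * q) hπ := al97C_pi_inv_not_mem_Vinf (K := K) M' q hπ
  have hϖ0 : algebraMap R ↥(modularFunctionFieldFullC K (M' * q)) π ≠ 0 := by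
    intro h0
    apply hϖ'
    rw [h0, inv_zero]
    exact zero_mem _
  have hϖV : algebraMap R ↥(modularFunctionFieldFullC K (M' * q)) π ∈
      (cm85_Vinf (K := K) (M' * q) hπ).toSubring := al97C_algebraMap_mem_Vinf M' q hπ π
  have h1V : ∀ t ∈ (cm85_Vinf (K := K) (M' * q) hπ).toSubring,
      (1 + algebraMap R ↥(modularFunctionFieldFullC K (M' * q)) π * t)⁻¹ ∈
        (cm85_Vinf (K := K) (M' * q) hπ).toSubring :=
    fun t ht => se66_one_add_inv_mem _ _ hϖ' t ht
  have hsV : ∀ y ∈ (cm85_Vinf (K := K) (M' * q) hπ).toSubring,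
      s34i47_coeffEquiv σ (M' * q) y ∈ (cm85_Vinf (K := K) (M' * q) hπ).toSubring :=
    fun y hy => ff50_mem_Vinf (M' * q) hq.ne_zero hπ σ hσ' y hy
  have hsϖ : (algebraMap R ↥(modularFunctionFieldFullC K (M' * q)) π)⁻¹ *
      s34i47_coeffEquiv σ (M' * q) (algebraMap R ↥(modularFunctionFieldFullC K (M' * q)) π) ∈
      (cm85_Vinf (K := K) (M' * q) hπ).toSubring := by
    have h := ff50_div_mem_Vinf (M' * q) hq.ne_zero hπ σ hσ' _ hϖ0
    rw [mul_comm ((algebraMap R ↥(modularFunctionFieldFullC K (M' * q)) π)⁻¹),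
      ← div_eq_mul_inv]
    exact h
  have hinj : Function.Injective (algebraMap R ↥(modularFunctionFieldFullC K (M' * q))) := by
    rw [IsScalarTower.algebraMap_eq R K ↥(modularFunctionFieldFullC K (M' * q))]
    exact (algebraMap K ↥(modularFunctionFieldFullC K (M' * q))).injective.comp
      (IsFractionRing.injective R K)
  have key : ∀ (y : ↥(modularFunctionFieldFullC K (M' * q))) (r : R), IsUnit r →
      tho49_IsU1 (cm85_Vinf (K := K) (M' * q) hπ).toSubring
        (algebraMap R ↥(modularFunctionFieldFullC K (M' * q)) π)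
        (y / algebraMap R ↥(modularFunctionFieldFullC K (M' * q)) r) →
      tho49_IsU1 (cm85_Vinf (K := K) (M' * q) hπ).toSubring
        (algebraMap R ↥(modularFunctionFieldFullC K (M' * q)) π)
        (s34i47_coeffEquiv σ (M' * q) (s34i47_coeffEquiv σ (M' * q) y) / y ^ (q ^ 2)) := by
    intro y r hr hy
    obtain ⟨u, rfl⟩ := hr
    have hc0 : algebraMap R ↥(modularFunctionFieldFullC K (M' * q)) (u : R) ≠ 0 := by
      intro h0
      exact u.ne_zero (hinj (by rw [h0, map_zero]))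
    have hcU : tho49_IsU (cm85_Vinf (K := K) (M' * q) hπ).toSubring
        (algebraMap R ↥(modularFunctionFieldFullC K (M' * q)) (u : R)) := by
      refine ⟨al97C_algebraMap_mem_Vinf M' q hπ _, ?_⟩
      have h2 : algebraMap R ↥(modularFunctionFieldFullC K (M' * q)) ((u⁻¹ : Rˣ) : R) *
          algebraMap R ↥(modularFunctionFieldFullC K (M' * q)) (u : R) = 1 := by
        rw [← map_mul, Units.inv_mul, map_one]
      rw [← eq_inv_of_mul_eq_one_left h2]
      exact al97C_algebraMap_mem_Vinf M' q hπ _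
    refine tc18_u_half (cm85_Vinf (K := K) (M' * q) hπ).toSubring _ hϖ0 hϖV h1V
      (s34i47_coeffEquiv σ (M' * q)) hsV hsϖ (q ^ 2) y _ hc0 hcU hy ?_
    obtain ⟨r', hr', hr'm⟩ := hσ (u : R)
    obtain ⟨r'', hr'', hr''m⟩ := hσ r'
    rw [tc18_coeff_R M' q σ _ r' hr', tc18_coeff_R M' q σ _ r'' hr'', ← map_pow, ← map_sub]
    have hmem : r'' - (u : R) ^ (q ^ 2) ∈ IsLocalRing.maximalIdeal R := by
      have e : r'' - (u : R) ^ (q ^ 2) = (r'' - r' ^ q) + (r' ^ q - ((u : R) ^ q) ^ q) := by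
        rw [← pow_mul, ← pow_two]
        ring
      rw [e]
      refine add_mem hr''m ?_
      obtain ⟨t, ht⟩ := sub_dvd_pow_sub_pow r' ((u : R) ^ q) q
      rw [ht]
      exact Ideal.mul_mem_right _ _ hr'm
    rw [hπ.maximalIdeal_eq, Ideal.mem_span_singleton] at hmem
    obtain ⟨t, ht⟩ := hmem
    rw [ht, map_mul, inv_mul_cancel_left₀ hϖ0]
    exact al97C_algebraMap_mem_Vinf M' q hπ t
  have k₁ := key x r₁ hr₁ h₁
  have k₂ := key _ r₂ hr₂ h₂
  rw [s34i47c_mem_W]
  refine ⟨k₁.2, ?_⟩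
  rw [map_mul, map_inv₀, map_sub, map_one, map_div₀, map_pow,
    IsScalarTower.algebraMap_apply R K ↥(modularFunctionFieldFullC K (M' * q)) π,
    AlgEquiv.commutes,
    ← IsScalarTower.algebraMap_apply R K ↥(modularFunctionFieldFullC K (M' * q)) π]
  have e : al97L_w (algebraMap K Q̄) M' q hq hM'
      (((s34i47_coeffEquiv σ (M' * q)).trans (s34i47_coeffEquiv σ (M' * q))) x) =
      s34i47_coeffEquiv σ (M' * q) (s34i47_coeffEquiv σ (M' * q)
        (al97L_w (algebraMap K Q̄) M' q hq hM' x)) := by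
    rw [RingEquiv.trans_apply, in87g_w_comm, in87g_w_comm]
  rw [e]
  exact k₂.2

end tc18_canon

end Fermat.Agent.S35
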