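import Mathlib

/-!
# S35 lab, row L1c-CONG (helper47): "new ⇒ toric" in congruence form, abstract core

Mathlib only.  `F`, `F'` fields, `V₁`, `V₂` subrings of `F` (the two Gauss valuation rings
`V_∞`, `V_0`), `p` the uniformiser, `s` (the coefficientwise Frobenius lift), `w` (Atkin–Lehner),
`α β : F' →+* F` the degeneracy maps, `N : F →* F'` the norm along `α`.

`tc47_abs` : from the norm congruences
`α (N y) ≡ y · s (w y) mod p V₁`, `β (N y) ≡ w y · s y mod p V₂` (`y, w y ∈ V₁`),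
`N f = c1 · a ^ m` and `N (w f) = c2 · b ^ m`, there is a unit `G` of `V₁` and of `V₂` with

`tw (tw f) / G ^ m ≡ tw (α c1) / s (tw (α c2))  mod p V₁`,
`tw (tw f) / G ^ m ≡ tw (β c2) / s (tw (β c1))  mod p V₂`,        `tw x := x / s (s x)`.

No reduction maps; every step is a congruence between elements of `F`.
-/

set_option autoImplicit false

namespace Fermat.Agent.S35

section tc47_basic

variable {F : Type*} [Field F]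

/-- The twist `tw x = x / s (s x)`. -/
def tc47_tw (s : F ≃+* F) (x : F) : F := x / s (s x)

/-- Congruence modulo `p V`. -/
def tc47_cg (V : Subring F) (p x y : F) : Prop := p⁻¹ * (x - y) ∈ V

/-- `x` is a (nonzero) unit of `V`. -/
def tc47_U (V : Subring F) (x : F) : Prop := x ≠ 0 ∧ x ∈ V ∧ x⁻¹ ∈ V

theorem tc47_tw_ne (s : F ≃+* F) {x : F} (hx : x ≠ 0) : tc47_tw s x ≠ 0 := by
  unfold tc47_tw
  exact div_ne_zero hx (by simpa using hx)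

theorem tc47_tw_mul (s : F ≃+* F) (x y : F) : tc47_tw s (x * y) = tc47_tw s x * tc47_tw s y := by
  unfold tc47_tw
  rw [map_mul, map_mul, mul_div_mul_comm]

theorem tc47_tw_pow (s : F ≃+* F) (x : F) (m : ℕ) : tc47_tw s (x ^ m) = tc47_tw s x ^ m := by
  unfold tc47_tw
  rw [map_pow, map_pow, div_pow]

variable (V : Subring F) (p : F)

theorem tc47_cg_refl (x : F) : tc47_cg V p x x := by
  unfold tc47_cg
  rw [sub_self, mul_zero]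
  exact V.zero_mem

theorem tc47_cg_symm {x y : F} (h : tc47_cg V p x y) : tc47_cg V p y x := by
  unfold tc47_cg at h ⊢
  have e : p⁻¹ * (y - x) = -(p⁻¹ * (x - y)) := by ring
  rw [e]
  exact V.neg_mem h

theorem tc47_cg_trans {x y z : F} (h1 : tc47_cg V p x y) (h2 : tc47_cg V p y z) :
    tc47_cg V p x z := by
  unfold tc47_cg at h1 h2 ⊢
  have e : p⁻¹ * (x - z) = p⁻¹ * (x - y) + p⁻¹ * (y - z) := by ring
  rw [e]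
  exact V.add_mem h1 h2

theorem tc47_cg_mul {x x' y y' : F} (hx' : x' ∈ V) (hy : y ∈ V) (h1 : tc47_cg V p x x')
    (h2 : tc47_cg V p y y') : tc47_cg V p (x * y) (x' * y') := by
  unfold tc47_cg at h1 h2 ⊢
  have e : p⁻¹ * (x * y - x' * y') = p⁻¹ * (x - x') * y + x' * (p⁻¹ * (y - y')) := by ring
  rw [e]
  exact V.add_mem (V.mul_mem h1 hy) (V.mul_mem hx' h2)

theorem tc47_cg_mem (hp : p ∈ V) (hp0 : p ≠ 0) {x y : F} (h : tc47_cg V p x y) (hy : y ∈ V) :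
    x ∈ V := by
  unfold tc47_cg at h
  have e : x = y + p * (p⁻¹ * (x - y)) := by
    field_simp
    ring
  rw [e]
  exact V.add_mem hy (V.mul_mem hp h)

theorem tc47_cg_pow (hp : p ∈ V) (hp0 : p ≠ 0) {x x' : F} (hx' : x' ∈ V)
    (h : tc47_cg V p x x') (m : ℕ) : tc47_cg V p (x ^ m) (x' ^ m) := by
  have hx : x ∈ V := tc47_cg_mem V p hp hp0 h hx'
  induction m with
  | zero => simpa using tc47_cg_refl V p (1 : F)
  | succ k ih =>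
    rw [pow_succ, pow_succ]
    exact tc47_cg_mul V p (V.pow_mem hx' k) hx ih h

theorem tc47_cg_div {x x₀ y y₀ : F} (hx₀ : x₀ ∈ V) (hy : tc47_U V y) (hy₀ : tc47_U V y₀)
    (h1 : tc47_cg V p x x₀) (h2 : tc47_cg V p y y₀) : tc47_cg V p (x / y) (x₀ / y₀) := by
  obtain ⟨hy0, hyV, hyi⟩ := hy
  obtain ⟨hy₀0, hy₀V, hy₀i⟩ := hy₀
  unfold tc47_cg at h1 h2 ⊢
  have e : p⁻¹ * (x / y - x₀ / y₀) =
      (p⁻¹ * (x - x₀) * y₀ - x₀ * (p⁻¹ * (y - y₀))) * (y⁻¹ * y₀⁻¹) := by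
    field_simp
    ring
  rw [e]
  exact V.mul_mem (V.sub_mem (V.mul_mem h1 hy₀V) (V.mul_mem hx₀ h2)) (V.mul_mem hyi hy₀i)

theorem tc47_cg_map (hp0 : p ≠ 0) (s : F ≃+* F) (hs : ∀ x ∈ V, s x ∈ V) (hsp : s p / p ∈ V)
    {x y : F} (h : tc47_cg V p x y) : tc47_cg V p (s x) (s y) := by
  unfold tc47_cg at h ⊢
  have e : p⁻¹ * (s x - s y) = s p / p * s (p⁻¹ * (x - y)) := by
    rw [map_mul, map_inv₀, map_sub]
    have : s p ≠ 0 := by simpa using hp0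
    field_simp
  rw [e]
  exact V.mul_mem hsp (hs _ h)

theorem tc47_U_mul {x y : F} (hx : tc47_U V x) (hy : tc47_U V y) : tc47_U V (x * y) :=
  ⟨mul_ne_zero hx.1 hy.1, V.mul_mem hx.2.1 hy.2.1, by
    rw [mul_inv]; exact V.mul_mem hx.2.2 hy.2.2⟩

theorem tc47_U_inv {x : F} (hx : tc47_U V x) : tc47_U V x⁻¹ :=
  ⟨inv_ne_zero hx.1, hx.2.2, by rw [inv_inv]; exact hx.2.1⟩

theorem tc47_U_div {x y : F} (hx : tc47_U V x) (hy : tc47_U V y) : tc47_U V (x / y) := by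
  rw [div_eq_mul_inv]
  exact tc47_U_mul V hx (tc47_U_inv V hy)

theorem tc47_U_pow {x : F} (hx : tc47_U V x) (m : ℕ) : tc47_U V (x ^ m) :=
  ⟨pow_ne_zero m hx.1, V.pow_mem hx.2.1 m, by rw [← inv_pow]; exact V.pow_mem hx.2.2 m⟩

theorem tc47_U_map (s : F ≃+* F) (hs : ∀ x ∈ V, s x ∈ V) {x : F} (hx : tc47_U V x) :
    tc47_U V (s x) :=
  ⟨by simpa using hx.1, hs _ hx.2.1, by rw [← map_inv₀]; exact hs _ hx.2.2⟩

theorem tc47_U_tw (s : F ≃+* F) (hG : ∀ x : F, x ≠ 0 → s x / x ∈ V ∧ x / s x ∈ V) {x : F}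
    (hx : x ≠ 0) : tc47_U V (tc47_tw s x) := by
  have hsx : s x ≠ 0 := by simpa using hx
  have hssx : s (s x) ≠ 0 := by simpa using hsx
  refine ⟨tc47_tw_ne s hx, ?_, ?_⟩
  · have e : tc47_tw s x = x / s x * (s x / s (s x)) := by
      unfold tc47_tw
      field_simp
    rw [e]
    exact V.mul_mem (hG x hx).2 (hG (s x) hsx).2
  · have e : (tc47_tw s x)⁻¹ = s (s x) / s x * (s x / x) := by
      unfold tc47_tw
      field_simp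
    rw [e]
    exact V.mul_mem (hG (s x) hsx).1 (hG x hx).1

theorem tc47_U_of_cg (hp : p ∈ V) (hp0 : p ≠ 0) (hpi : p⁻¹ ∉ V)
    (hinv : ∀ t ∈ V, (1 + p * t)⁻¹ ∈ V) {x y : F} (h : tc47_cg V p x y) (hy : tc47_U V y) :
    tc47_U V x := by
  obtain ⟨hy0, hyV, hyi⟩ := hy
  have hxV : x ∈ V := tc47_cg_mem V p hp hp0 h hyV
  unfold tc47_cg at h
  have ht : p⁻¹ * (x - y) * y⁻¹ ∈ V := V.mul_mem h hyi
  have e : x = y * (1 + p * (p⁻¹ * (x - y) * y⁻¹)) := by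
    field_simp
    ring
  have hne : (1 + p * (p⁻¹ * (x - y) * y⁻¹)) ≠ 0 := by
    intro h0
    apply hpi
    have e2 : p⁻¹ = -(p⁻¹ * (x - y) * y⁻¹) := by
      have h3 : p * (p⁻¹ * (x - y) * y⁻¹) = -1 := by linear_combination h0
      have h4 : p⁻¹ * (x - y) * y⁻¹ = -p⁻¹ := by
        field_simp
        field_simp at h3
        linear_combination h3
      rw [h4, neg_neg]
    rw [e2]
    exact V.neg_mem ht
  refine ⟨?_, hxV, ?_⟩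
  · rw [e]
    exact mul_ne_zero hy0 hne
  · rw [e, mul_inv]
    exact V.mul_mem hyi (hinv _ ht)

end tc47_basic

section tc47_main

variable {F F' : Type*} [Field F] [Field F']

/-- **(1c) in congruence form, abstract.** -/
theorem tc47_abs (p : F) (hp0 : p ≠ 0) (V₁ V₂ : Subring F)
    (hp₁ : p ∈ V₁) (hp₂ : p ∈ V₂) (hpi₁ : p⁻¹ ∉ V₁) (hpi₂ : p⁻¹ ∉ V₂)
    (hinv₁ : ∀ t ∈ V₁, (1 + p * t)⁻¹ ∈ V₁) (hinv₂ : ∀ t ∈ V₂, (1 + p * t)⁻¹ ∈ V₂)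
    (s w : F ≃+* F) (s' : F' ≃+* F') (α β : F' →+* F) (N : F →* F')
    (hs₁ : ∀ x ∈ V₁, s x ∈ V₁) (hs₂ : ∀ x ∈ V₂, s x ∈ V₂)
    (hG₁ : ∀ x : F, x ≠ 0 → s x / x ∈ V₁ ∧ x / s x ∈ V₁)
    (hG₂ : ∀ x : F, x ≠ 0 → s x / x ∈ V₂ ∧ x / s x ∈ V₂)
    (hww : ∀ x, w (w x) = x) (hws : ∀ x, w (s x) = s (w x))
    (hsα : ∀ x, s (α x) = α (s' x)) (hsβ : ∀ x, s (β x) = β (s' x))
    (hNs : ∀ x, N (s x) = s' (N x))
    (hc₁ : ∀ y, y ∈ V₁ → w y ∈ V₁ → p⁻¹ * (α (N y) - y * s (w y)) ∈ V₁)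
    (hc₂ : ∀ y, y ∈ V₁ → w y ∈ V₁ → p⁻¹ * (β (N y) - w y * s y) ∈ V₂)
    (e0 : F) (he₁ : p⁻¹ * e0 ∈ V₁) (he₂ : p⁻¹ * (e0 - 1) ∈ V₂)
    (m : ℕ) (f : F) (a b c1 c2 : F') (hf : f ≠ 0) (ha : a ≠ 0) (hb : b ≠ 0)
    (hc1 : c1 ≠ 0) (hc2 : c2 ≠ 0)
    (hNf : N f = c1 * a ^ m) (hNwf : N (w f) = c2 * b ^ m) :
    ∃ G : F, G ≠ 0 ∧ G ∈ V₁ ∧ G⁻¹ ∈ V₁ ∧ G ∈ V₂ ∧ G⁻¹ ∈ V₂ ∧
      tc47_U V₁ (tc47_tw s (α c1) / s (tc47_tw s (α c2))) ∧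
      tc47_U V₂ (tc47_tw s (β c2) / s (tc47_tw s (β c1))) ∧
      p⁻¹ * (tc47_tw s (tc47_tw s f) / G ^ m -
        tc47_tw s (α c1) / s (tc47_tw s (α c2))) ∈ V₁ ∧
      p⁻¹ * (tc47_tw s (tc47_tw s f) / G ^ m -
        tc47_tw s (β c2) / s (tc47_tw s (β c1))) ∈ V₂ := by
  -- notation
  set tw := tc47_tw s with htw
  have hwf : w f ≠ 0 := by simpa using hf
  -- units produced by the twist
  have hU₁ : ∀ x : F, x ≠ 0 → tc47_U V₁ (tw x) := fun x hx => tc47_U_tw V₁ s hG₁ hx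
  have hU₂ : ∀ x : F, x ≠ 0 → tc47_U V₂ (tw x) := fun x hx => tc47_U_tw V₂ s hG₂ hx
  have hα0 : ∀ x : F', x ≠ 0 → α x ≠ 0 := fun x hx => (map_ne_zero α).mpr hx
  have hβ0 : ∀ x : F', x ≠ 0 → β x ≠ 0 := fun x hx => (map_ne_zero β).mpr hx
  have hsp₁ : s p / p ∈ V₁ := (hG₁ p hp0).1
  have hsp₂ : s p / p ∈ V₂ := (hG₂ p hp0).1
  -- the twist commutes with `w`, `α`, `β`, `N`
  have htww : ∀ x, w (tw x) = tw (w x) := by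
    intro x
    rw [htw]
    unfold tc47_tw
    rw [map_div₀, hws, hws]
  have hNtw : ∀ x : F, x ≠ 0 → N x ≠ 0 →
      α (N (tw x)) = tw (α (N x)) ∧ β (N (tw x)) = tw (β (N x)) := by
    intro x hx hNx
    have hssx : s (s x) ≠ 0 := by simpa using hx
    have h1 : N (tw x) * s' (s' (N x)) = N x := by
      rw [← hNs, ← hNs, ← map_mul, htw]
      unfold tc47_tw
      rw [div_mul_cancel₀ _ hssx]
    have h2 : s' (s' (N x)) ≠ 0 := by simpa using hNx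
    have h3 : N (tw x) = N x / s' (s' (N x)) := by
      rw [eq_div_iff h2, h1]
    constructor
    · rw [h3, map_div₀, ← hsα, ← hsα, htw]
      rfl
    · rw [h3, map_div₀, ← hsβ, ← hsβ, htw]
      rfl
  have hNf0 : N f ≠ 0 := by
    rw [hNf]
    exact mul_ne_zero hc1 (pow_ne_zero m ha)
  have hNwf0 : N (w f) ≠ 0 := by
    rw [hNwf]
    exact mul_ne_zero hc2 (pow_ne_zero m hb)
  obtain ⟨hαN, hβN⟩ := hNtw f hf hNf0
  obtain ⟨hαNw, hβNw⟩ := hNtw (w f) hwf hNwf0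
  have e1 : α (N (tw f)) = tw (α c1) * tw (α a) ^ m := by
    rw [hαN, hNf, map_mul, map_pow, htw, tc47_tw_mul, tc47_tw_pow]
  have e2 : α (N (w (tw f))) = tw (α c2) * tw (α b) ^ m := by
    rw [htww, hαNw, hNwf, map_mul, map_pow, htw, tc47_tw_mul, tc47_tw_pow]
  have e3 : β (N (tw f)) = tw (β c1) * tw (β a) ^ m := by
    rw [hβN, hNf, map_mul, map_pow, htw, tc47_tw_mul, tc47_tw_pow]
  have e4 : β (N (w (tw f))) = tw (β c2) * tw (β b) ^ m := by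
    rw [htww, hβNw, hNwf, map_mul, map_pow, htw, tc47_tw_mul, tc47_tw_pow]
  -- names
  set F1 := tw f with hF1
  set wF1 := w F1 with hwF1
  set P := tw (α c1) with hP
  set P' := tw (α c2) with hP'
  set A₁ := tw (α a) with hA₁
  set B₁ := tw (α b) with hB₁
  set Q := tw (β c1) with hQ
  set Q' := tw (β c2) with hQ'
  set A₂ := tw (β a) with hA₂
  set B₂ := tw (β b) with hB₂
  -- units
  have uF1₁ : tc47_U V₁ F1 := hU₁ f hf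
  have uF1₂ : tc47_U V₂ F1 := hU₂ f hf
  have uwF1₁ : tc47_U V₁ wF1 := by rw [hwF1, hF1, htww]; exact hU₁ _ hwf
  have uwF1₂ : tc47_U V₂ wF1 := by rw [hwF1, hF1, htww]; exact hU₂ _ hwf
  have uP₁ : tc47_U V₁ P := hU₁ _ (hα0 _ hc1)
  have uP'₁ : tc47_U V₁ P' := hU₁ _ (hα0 _ hc2)
  have uA₁₁ : tc47_U V₁ A₁ := hU₁ _ (hα0 _ ha)
  have uB₁₁ : tc47_U V₁ B₁ := hU₁ _ (hα0 _ hb)
  have uA₁₂ : tc47_U V₂ A₁ := hU₂ _ (hα0 _ ha)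
  have uB₁₂ : tc47_U V₂ B₁ := hU₂ _ (hα0 _ hb)
  have uQ₂ : tc47_U V₂ Q := hU₂ _ (hβ0 _ hc1)
  have uQ'₂ : tc47_U V₂ Q' := hU₂ _ (hβ0 _ hc2)
  have uA₂₂ : tc47_U V₂ A₂ := hU₂ _ (hβ0 _ ha)
  have uB₂₂ : tc47_U V₂ B₂ := hU₂ _ (hβ0 _ hb)
  have uA₂₁ : tc47_U V₁ A₂ := hU₁ _ (hβ0 _ ha)
  have uB₂₁ : tc47_U V₁ B₂ := hU₁ _ (hβ0 _ hb)
  -- the four norm congruences
  have E1 : tc47_cg V₁ p (P * A₁ ^ m) (F1 * s wF1) := by
    have h := hc₁ F1 uF1₁.2.1 uwF1₁.2.1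
    rw [e1] at h
    exact h
  have E2 : tc47_cg V₁ p (P' * B₁ ^ m) (wF1 * s F1) := by
    have h := hc₁ wF1 uwF1₁.2.1 (by rw [hwF1, hww]; exact uF1₁.2.1)
    rw [e2, hwF1, hww] at h
    exact h
  have E4 : tc47_cg V₂ p (Q * A₂ ^ m) (wF1 * s F1) := by
    have h := hc₂ F1 uF1₁.2.1 uwF1₁.2.1
    rw [e3] at h
    exact h
  have E5 : tc47_cg V₂ p (Q' * B₂ ^ m) (F1 * s wF1) := by
    have h := hc₂ wF1 uwF1₁.2.1 (by rw [hwF1, hww]; exact uF1₁.2.1)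
    rw [e4, hwF1, hww] at h
    exact h
  -- apply `s` and divide
  have E2s := tc47_cg_map V₁ p hp0 s hs₁ hsp₁ E2
  have E4s := tc47_cg_map V₂ p hp0 s hs₂ hsp₂ E4
  have hsw0 : s wF1 ≠ 0 := by simpa using uwF1₁.1
  have hss0 : s (s F1) ≠ 0 := by simpa using uF1₁.1
  have hrhs : F1 * s wF1 / s (wF1 * s F1) = tw F1 := by
    rw [map_mul, htw]
    unfold tc47_tw
    field_simp
  have E3 : tc47_cg V₁ p (P / s P' * (A₁ / s B₁) ^ m) (tw F1) := by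
    have h := tc47_cg_div V₁ p (V₁.mul_mem uF1₁.2.1 (hs₁ _ uwF1₁.2.1))
      (tc47_U_map V₁ s hs₁ (tc47_U_mul V₁ uP'₁ (tc47_U_pow V₁ uB₁₁ m)))
      (tc47_U_map V₁ s hs₁ (tc47_U_mul V₁ uwF1₁ (tc47_U_map V₁ s hs₁ uF1₁))) E1 E2s
    rw [hrhs] at h
    have e : P * A₁ ^ m / s (P' * B₁ ^ m) = P / s P' * (A₁ / s B₁) ^ m := by
      rw [map_mul, map_pow, div_pow, mul_div_mul_comm]
    rw [e] at h
    exact h
  have E6 : tc47_cg V₂ p (Q' / s Q * (B₂ / s A₂) ^ m) (tw F1) := by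
    have h := tc47_cg_div V₂ p (V₂.mul_mem uF1₂.2.1 (hs₂ _ uwF1₂.2.1))
      (tc47_U_map V₂ s hs₂ (tc47_U_mul V₂ uQ₂ (tc47_U_pow V₂ uA₂₂ m)))
      (tc47_U_map V₂ s hs₂ (tc47_U_mul V₂ uwF1₂ (tc47_U_map V₂ s hs₂ uF1₂))) E5 E4s
    rw [hrhs] at h
    have e : Q' * B₂ ^ m / s (Q * A₂ ^ m) = Q' / s Q * (B₂ / s A₂) ^ m := by
      rw [map_mul, map_pow, div_pow, mul_div_mul_comm]
    rw [e] at h
    exact h
  -- the unit `G`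
  have u𝔄₁ : tc47_U V₁ (A₁ / s B₁) := tc47_U_div V₁ uA₁₁ (tc47_U_map V₁ s hs₁ uB₁₁)
  have u𝔄₂ : tc47_U V₂ (A₁ / s B₁) := tc47_U_div V₂ uA₁₂ (tc47_U_map V₂ s hs₂ uB₁₂)
  have u𝔅₁ : tc47_U V₁ (B₂ / s A₂) := tc47_U_div V₁ uB₂₁ (tc47_U_map V₁ s hs₁ uA₂₁)
  have u𝔅₂ : tc47_U V₂ (B₂ / s A₂) := tc47_U_div V₂ uB₂₂ (tc47_U_map V₂ s hs₂ uA₂₂)
  have uκ₁ : tc47_U V₁ (P / s P') := tc47_U_div V₁ uP₁ (tc47_U_map V₁ s hs₁ uP'₁)
  have uκ₂ : tc47_U V₂ (Q' / s Q) := tc47_U_div V₂ uQ'₂ (tc47_U_map V₂ s hs₂ uQ₂)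
  set G : F := (1 - e0) * (A₁ / s B₁) + e0 * (B₂ / s A₂) with hG
  have HG1 : tc47_cg V₁ p G (A₁ / s B₁) := by
    unfold tc47_cg
    have e : p⁻¹ * (G - A₁ / s B₁) = p⁻¹ * e0 * (B₂ / s A₂ - A₁ / s B₁) := by
      rw [hG]
      ring
    rw [e]
    exact V₁.mul_mem he₁ (V₁.sub_mem u𝔅₁.2.1 u𝔄₁.2.1)
  have HG2 : tc47_cg V₂ p G (B₂ / s A₂) := by
    unfold tc47_cg
    have e : p⁻¹ * (G - B₂ / s A₂) = p⁻¹ * (e0 - 1) * (B₂ / s A₂ - A₁ / s B₁) := by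
      rw [hG]
      ring
    rw [e]
    exact V₂.mul_mem he₂ (V₂.sub_mem u𝔅₂.2.1 u𝔄₂.2.1)
  have uG₁ : tc47_U V₁ G := tc47_U_of_cg V₁ p hp₁ hp0 hpi₁ hinv₁ HG1 u𝔄₁
  have uG₂ : tc47_U V₂ G := tc47_U_of_cg V₂ p hp₂ hp0 hpi₂ hinv₂ HG2 u𝔅₂
  have hGm0 : G ^ m ≠ 0 := pow_ne_zero m uG₁.1
  refine ⟨G, uG₁.1, uG₁.2.1, uG₁.2.2, uG₂.2.1, uG₂.2.2, uκ₁, uκ₂, ?_, ?_⟩
  · have h1 := tc47_cg_pow V₁ p hp₁ hp0 u𝔄₁.2.1 HG1 m
    have h2 := tc47_cg_mul V₁ p uκ₁.2.1 (V₁.pow_mem uG₁.2.1 m) (tc47_cg_refl V₁ p (P / s P')) h1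
    have h3 := tc47_cg_symm V₁ p (tc47_cg_trans V₁ p h2 E3)
    have h4 := tc47_cg_div V₁ p (V₁.mul_mem uκ₁.2.1 (V₁.pow_mem uG₁.2.1 m))
      (tc47_U_pow V₁ uG₁ m) (tc47_U_pow V₁ uG₁ m) h3 (tc47_cg_refl V₁ p (G ^ m))
    rw [mul_div_cancel_right₀ _ hGm0] at h4
    exact h4
  · have h1 := tc47_cg_pow V₂ p hp₂ hp0 u𝔅₂.2.1 HG2 m
    have h2 := tc47_cg_mul V₂ p uκ₂.2.1 (V₂.pow_mem uG₂.2.1 m) (tc47_cg_refl V₂ p (Q' / s Q)) h1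
    have h3 := tc47_cg_symm V₂ p (tc47_cg_trans V₂ p h2 E6)
    have h4 := tc47_cg_div V₂ p (V₂.mul_mem uκ₂.2.1 (V₂.pow_mem uG₂.2.1 m))
      (tc47_U_pow V₂ uG₂ m) (tc47_U_pow V₂ uG₂ m) h3 (tc47_cg_refl V₂ p (G ^ m))
    rw [mul_div_cancel_right₀ _ hGm0] at h4
    exact h4

end tc47_main

end Fermat.Agent.S35
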