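import Mathlib
import Fermat.Agent.S35.ToricCongAbs47
import Fermat.Agent.S35.Iface62
import Fermat.Agent.S35.FrobFrame50
import Fermat.Agent.S35.PkgNorm86
import Fermat.Agent.S35.SplitElt66
import Fermat.Agent.S35.LPTransport3
import Fermat.Agent.S34.AtkinLehnerCanon97

/-!
# S35 lab, row L1c-CONG (helper47): "new ⇒ toric" in congruence form on the canonical frame

Binder block of `s35i62_Core` (`R` a discrete valuation ring of the number field `K`, `π`,
`σ` Frobenial, `ŝ = s34i47_coeffEquiv σ (M' * q)`, `τ = ŝ²`), canonical frame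
`V_∞ = cm85_Vinf (M' * q) hπ`, `V_0 = s34i47c_V0`, `W = s34i47c_W`, `p = algebraMap R F π`.

* `tc47_const_int`, `tc47_const_unit` : a constant of `K` lying in `V_∞` comes from `R`;
  a constant which is a unit of `V_∞` comes from a unit of `R`.
* `tc47_tw_const`, `tc47_frob_const` : the twist of a constant; `ŝ² C ≡ C ^ (q²) mod p V`.
* `tc47_toric` : **(1c)**.  From `N_α f = ca · a ^ m`, `N_β f = cb · b ^ m` (`f, a, b, ca, cb ≠ 0`)
  there are `G` (a unit of `W`) and units `C₁ C₂` of `R` with, for `f₃ = lpt3_f3 τ m f G`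
  (`= f₁ / τ f₁ / G ^ m`, `f₁ = f / τ f`):
  `p⁻¹ (f₃ - C₁) ∈ V_∞`, `p⁻¹ (f₃ - C₂) ∈ V_0`, `f₃` is a unit of `W`, and
  `p⁻¹ (lpt3_u τ m (q ^ 2) f G - 1) ∈ W`  (`lpt3_u = τ f₃ / f₃ ^ (q²)`).
* `tc47_op_eq` : `s35i62_op q ŝ f = lpt3_u τ m (q ^ 2) f G * (τ G / G ^ (q ^ 2)) ^ m`.

Inputs: `tc47_abs` (abstract core), `ff50_*` (Frobenius frame), `ng97_norm_cong(_V0)`,
`ng97_norm_beta`, `pn86_norm_coeffEquiv` (norm), `se66_e0` (splitting element).
-/

set_option autoImplicit false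
set_option linter.unusedSectionVars false
set_option linter.unusedVariables false
set_option linter.style.longLine false

namespace Fermat.Agent.S35

open ModularCurve AlgebraicCurve IntermediateField
open Fermat.Agent.S24 Fermat.Agent.S37 Fermat.Agent.S18 Fermat.Agent.S28 Fermat.Agent.S34

local notation "Q̄" => AlgebraicClosure ℚ

section tc47_generic

variable {F : Type*} [Field F]

/-- `u = s² f₃ / f₃ ^ Q ≡ 1` modulo `p V` when `f₃ ≡ c` modulo `p V` for a unit `c` of `V` with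
`s² c ≡ c ^ Q`. -/
theorem tc47_u_cong_aux (V : Subring F) (p : F) (hp : p ∈ V) (hp0 : p ≠ 0) (hpi : p⁻¹ ∉ V)
    (hinv : ∀ t ∈ V, (1 + p * t)⁻¹ ∈ V) (s : F ≃+* F) (hs : ∀ x ∈ V, s x ∈ V)
    (hsp : s p / p ∈ V) (Q : ℕ) (c f3 : F) (hc : tc47_U V c) (hfc : tc47_cg V p f3 c)
    (hfrob : tc47_cg V p (s (s c)) (c ^ Q)) : tc47_cg V p (s (s f3) / f3 ^ Q) 1 := by
  have hf3U : tc47_U V f3 := tc47_U_of_cg V p hp hp0 hpi hinv hfc hc
  have h1 : tc47_cg V p (s (s f3)) (s (s c)) :=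
    tc47_cg_map V p hp0 s hs hsp (tc47_cg_map V p hp0 s hs hsp hfc)
  have h2 : tc47_cg V p (f3 ^ Q) (c ^ Q) := tc47_cg_pow V p hp hp0 hc.2.1 hfc Q
  have h3 : tc47_cg V p (s (s f3)) (f3 ^ Q) :=
    tc47_cg_trans V p (tc47_cg_trans V p h1 hfrob) (tc47_cg_symm V p h2)
  have hU : tc47_U V (f3 ^ Q) := tc47_U_pow V hf3U Q
  have h4 := tc47_cg_div V p hU.2.1 hU hU h3 (tc47_cg_refl V p (f3 ^ Q))
  rwa [div_self hU.1] at h4

/-- The algebraic identity behind `tc47_op_eq`. -/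
theorem tc47_op_alg (Q m : ℕ) (A B C D g g' : F) (hA : A ≠ 0) (hB : B ≠ 0)
    (hC : C ≠ 0) (hD : D ≠ 0) (hg : g ≠ 0) (hg' : g' ≠ 0) :
    D * B ^ (2 * Q + 1) / (C ^ (Q + 2) * A ^ Q) =
      (B / C / (C / D) / g' ^ m) / (A / B / (B / C) / g ^ m) ^ Q * (g' / g ^ Q) ^ m := by
  have e1 : B / C / (C / D) / g' ^ m = B * D / (C ^ 2 * g' ^ m) := by
    field_simp
  have e2 : A / B / (B / C) / g ^ m = A * C / (B ^ 2 * g ^ m) := by
    field_simp
  have hgm : g ^ m ≠ 0 := pow_ne_zero _ hg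
  have hg'm : g' ^ m ≠ 0 := pow_ne_zero _ hg'
  have hAQ : A ^ Q ≠ 0 := pow_ne_zero _ hA
  have hBQ : B ^ Q ≠ 0 := pow_ne_zero _ hB
  have hCQ : C ^ Q ≠ 0 := pow_ne_zero _ hC
  have hgmQ : (g ^ m) ^ Q ≠ 0 := pow_ne_zero _ hgm
  have e3 : (A * C / (B ^ 2 * g ^ m)) ^ Q = A ^ Q * C ^ Q / ((B ^ Q) ^ 2 * (g ^ m) ^ Q) := by
    rw [div_pow, mul_pow, mul_pow, pow_right_comm B 2 Q]
  have e4 : (g' / g ^ Q) ^ m = g' ^ m / (g ^ m) ^ Q := by
    rw [div_pow, pow_right_comm g Q m]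
  have e5 : B ^ (2 * Q + 1) = (B ^ Q) ^ 2 * B := by
    rw [pow_succ, mul_comm 2 Q, pow_mul]
  have e6 : C ^ (Q + 2) = C ^ Q * C ^ 2 := pow_add _ _ _
  rw [e1, e2, e3, e4, e5, e6]
  generalize (g ^ m) ^ Q = z at *
  generalize g ^ m = x at *
  generalize g' ^ m = y at *
  generalize A ^ Q = a at *
  generalize B ^ Q = b at *
  generalize C ^ Q = c at *
  field_simp

/-- The Kummer operator of `f` in terms of `u = lpt3_u (s²) m (q²) f G` and `G`:
`op(f) = u · (s² G / G ^ (q²)) ^ m`. -/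
theorem tc47_op_eq (q m : ℕ) (s : F ≃+* F) (f G : F) (hf : f ≠ 0) (hG : G ≠ 0) :
    s35i62_op q s f =
      lpt3_u (s.trans s) m (q ^ 2) f G * ((s.trans s) G / G ^ (q ^ 2)) ^ m := by
  have h1 : s (s f) ≠ 0 := by simpa using hf
  have h2 : s (s (s (s f))) ≠ 0 := by simpa using hf
  have h3 : s (s (s (s (s (s f))))) ≠ 0 := by simpa using hf
  have h4 : s (s G) ≠ 0 := by simpa using hG
  have h := tc47_op_alg (q ^ 2) m f (s (s f)) (s (s (s (s f)))) (s (s (s (s (s (s f)))))) G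
    (s (s G)) hf h1 h2 h3 hG h4
  unfold s35i62_op lpt3_u lpt3_f3
  simp only [RingEquiv.trans_apply, map_div₀, map_pow]
  exact h

end tc47_generic

section tc47_canon

variable {R K : Type} [CommRing R] [IsDomain R] [IsDiscreteValuationRing R] [Field K]
  [NumberField K] [Algebra K Q̄] [Algebra R K] [IsFractionRing R K]
  (M' q : ℕ) [NeZero M'] [NeZero q] (hq : q.Prime) (hM' : ¬ q ∣ M')
  [Algebra R ↥(modularFunctionFieldFullC K (M' * q))]
  [IsScalarTower R K ↥(modularFunctionFieldFullC K (M' * q))] {π : R} (hπ : Irreducible π)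

/-- A constant of `K` lying in the Gauss ring `V_∞` comes from `R`. -/
theorem tc47_const_int (u : K)
    (hu : algebraMap K ↥(modularFunctionFieldFullC K (M' * q)) u ∈
      cm85_Vinf (K := K) (M' * q) hπ) : ∃ r : R, algebraMap R K r = u := by
  by_cases hu0 : u = 0
  · exact ⟨0, by rw [map_zero, hu0]⟩
  rcases (ValuationRing.iff_isInteger_or_isInteger R K).mp inferInstance u with ⟨r, hr⟩ | ⟨r, hr⟩
  · exact ⟨r, hr⟩
  · by_cases hr1 : IsUnit r
    · obtain ⟨v, rfl⟩ := hr1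
      refine ⟨((v⁻¹ : Rˣ) : R), ?_⟩
      have h1 : algebraMap R K ((v⁻¹ : Rˣ) : R) * algebraMap R K (v : R) = 1 := by
        rw [← map_mul, Units.inv_mul, map_one]
      rw [hr] at h1
      field_simp at h1
      exact h1
    · exfalso
      have hmem : r ∈ IsLocalRing.maximalIdeal R := (IsLocalRing.mem_maximalIdeal r).mpr hr1
      rw [Irreducible.maximalIdeal_eq hπ, Ideal.mem_span_singleton] at hmem
      obtain ⟨r', rfl⟩ := hmem
      apply al97C_pi_inv_not_mem_Vinf (K := K) M' q hπ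
      have hπ0 : algebraMap R ↥(modularFunctionFieldFullC K (M' * q)) π ≠ 0 := by
        intro h0
        have h1 : algebraMap K ↥(modularFunctionFieldFullC K (M' * q)) (algebraMap R K π) = 0 := by
          rw [← IsScalarTower.algebraMap_apply R K]
          exact h0
        have h2 := (map_eq_zero_iff _
          (algebraMap K ↥(modularFunctionFieldFullC K (M' * q))).injective).mp h1
        have h3 := (map_eq_zero_iff _ (IsFractionRing.injective R K)).mp h2
        exact hπ.ne_zero h3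
      have e : (algebraMap R ↥(modularFunctionFieldFullC K (M' * q)) π)⁻¹ =
          algebraMap K ↥(modularFunctionFieldFullC K (M' * q)) u *
            algebraMap R ↥(modularFunctionFieldFullC K (M' * q)) r' := by
        have h4 : algebraMap K ↥(modularFunctionFieldFullC K (M' * q)) u *
            (algebraMap R ↥(modularFunctionFieldFullC K (M' * q)) π *
              algebraMap R ↥(modularFunctionFieldFullC K (M' * q)) r') = 1 := by
          rw [← map_mul, IsScalarTower.algebraMap_apply R K, hr, ← map_mul,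
            mul_inv_cancel₀ hu0, map_one]
        exact inv_eq_of_mul_eq_one_right (by linear_combination h4)
      rw [e]
      exact mul_mem hu (al97C_algebraMap_mem_Vinf M' q hπ r')

/-- A constant of `K` which is a unit of the Gauss ring `V_∞` comes from a unit of `R`. -/
theorem tc47_const_unit (u : K) (hu0 : u ≠ 0)
    (hu : algebraMap K ↥(modularFunctionFieldFullC K (M' * q)) u ∈
      cm85_Vinf (K := K) (M' * q) hπ)
    (hu' : (algebraMap K ↥(modularFunctionFieldFullC K (M' * q)) u)⁻¹ ∈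
      cm85_Vinf (K := K) (M' * q) hπ) :
    ∃ C : R, IsUnit C ∧
      algebraMap R ↥(modularFunctionFieldFullC K (M' * q)) C =
        algebraMap K ↥(modularFunctionFieldFullC K (M' * q)) u := by
  obtain ⟨r, hr⟩ := tc47_const_int M' q hπ u hu
  rw [← map_inv₀] at hu'
  obtain ⟨r', hr'⟩ := tc47_const_int M' q hπ u⁻¹ hu'
  have h1 : r * r' = 1 := by
    apply IsFractionRing.injective R K
    rw [map_mul, hr, hr', mul_inv_cancel₀ hu0, map_one]
  refine ⟨r, IsUnit.of_mul_eq_one r' h1, ?_⟩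
  rw [IsScalarTower.algebraMap_apply R K, hr]

omit [IsDomain R] [IsDiscreteValuationRing R] [NumberField K] [Algebra K Q̄] [Algebra R K]
  [IsFractionRing R K] [NeZero M'] [NeZero q]
  [Algebra R ↥(modularFunctionFieldFullC K (M' * q))]
  [IsScalarTower R K ↥(modularFunctionFieldFullC K (M' * q))] in
/-- The twist of a constant. -/
theorem tc47_tw_const (σ : K ≃+* K) (M : ℕ) (c : K) :
    tc47_tw (s34i47_coeffEquiv σ M) (algebraMap K ↥(modularFunctionFieldFullC K M) c) =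
      algebraMap K ↥(modularFunctionFieldFullC K M) (c / σ (σ c)) := by
  unfold tc47_tw
  rw [pn86_coeffEquiv_const, pn86_coeffEquiv_const, map_div₀]

/-- `ŝ` on constants of `R`. -/
theorem tc47_sh_const (σ : K ≃+* K) (hσ : ff50_Frob R q σ) (r : R) :
    s34i47_coeffEquiv σ (M' * q) (algebraMap R ↥(modularFunctionFieldFullC K (M' * q)) r) =
      algebraMap R ↥(modularFunctionFieldFullC K (M' * q))
        (ff50_sigmaR (q := q) σ hσ r) := by
  rw [IsScalarTower.algebraMap_apply R K, pn86_coeffEquiv_const,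
    IsScalarTower.algebraMap_apply R K ↥(modularFunctionFieldFullC K (M' * q)),
    ff50_sigmaR_spec]

include hπ in
/-- `ŝ² C ≡ C ^ (q²)` modulo `p V` for constants `C ∈ R`. -/
theorem tc47_frob_const (σ : K ≃+* K) (hσ : ff50_Frob R q σ)
    (V : Subring ↥(modularFunctionFieldFullC K (M' * q)))
    (hRV : ∀ r : R, algebraMap R ↥(modularFunctionFieldFullC K (M' * q)) r ∈ V) (C : R) :
    tc47_cg V (algebraMap R ↥(modularFunctionFieldFullC K (M' * q)) π)
      (s34i47_coeffEquiv σ (M' * q) (s34i47_coeffEquiv σ (M' * q)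
        (algebraMap R ↥(modularFunctionFieldFullC K (M' * q)) C)))
      (algebraMap R ↥(modularFunctionFieldFullC K (M' * q)) C ^ (q ^ 2)) := by
  have hπ0 : algebraMap R ↥(modularFunctionFieldFullC K (M' * q)) π ≠ 0 := by
    intro h0
    have h1 : algebraMap K ↥(modularFunctionFieldFullC K (M' * q)) (algebraMap R K π) = 0 := by
      rw [← IsScalarTower.algebraMap_apply R K]
      exact h0
    have h2 := (map_eq_zero_iff _
      (algebraMap K ↥(modularFunctionFieldFullC K (M' * q))).injective).mp h1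
    have h3 := (map_eq_zero_iff _ (IsFractionRing.injective R K)).mp h2
    exact hπ.ne_zero h3
  have hres : IsLocalRing.residue R
      (ff50_sigmaR (q := q) σ hσ (ff50_sigmaR (q := q) σ hσ C) - C ^ (q ^ 2)) = 0 := by
    rw [map_sub, ff50_sigmaR_res, ff50_sigmaR_res, map_pow, ← pow_mul, ← pow_two, sub_self]
  have hmem : ff50_sigmaR (q := q) σ hσ (ff50_sigmaR (q := q) σ hσ C) - C ^ (q ^ 2) ∈
      IsLocalRing.maximalIdeal R := (IsLocalRing.residue_eq_zero_iff _).mp hres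
  rw [Irreducible.maximalIdeal_eq hπ, Ideal.mem_span_singleton] at hmem
  obtain ⟨d, hd⟩ := hmem
  unfold tc47_cg
  rw [tc47_sh_const M' q σ hσ, tc47_sh_const M' q σ hσ, ← map_pow, ← map_sub, hd, map_mul,
    ← mul_assoc, inv_mul_cancel₀ hπ0, one_mul]
  exact hRV d

set_option maxHeartbeats 1600000 in
/-- The instance of `tc47_abs` on the canonical frame (constants still in raw form). -/
theorem tc47_frame_abs (hqR : ¬ IsUnit (q : R)) (σ : K ≃+* K) (hσ : ff50_Frob R q σ)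
    (m : ℕ) (f : ↥(modularFunctionFieldFullC K (M' * q)))
    (a b : ↥(modularFunctionFieldFullC K M')) (ca cb : K)
    (hf : f ≠ 0) (ha : a ≠ 0) (hb : b ≠ 0) (hca : ca ≠ 0) (hcb : cb ≠ 0)
    (hNa : s35i62_normA K M' q f = algebraMap K ↥(modularFunctionFieldFullC K M') ca * a ^ m)
    (hNb : s35i62_normB K M' q f = algebraMap K ↥(modularFunctionFieldFullC K M') cb * b ^ m) :
    ∃ G : ↥(modularFunctionFieldFullC K (M' * q)), G ≠ 0 ∧
      G ∈ (cm85_Vinf (K := K) (M' * q) hπ).toSubring ∧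
      G⁻¹ ∈ (cm85_Vinf (K := K) (M' * q) hπ).toSubring ∧
      G ∈ (s34i47c_V0 (K := K) M' q hq hM' hπ).toSubring ∧
      G⁻¹ ∈ (s34i47c_V0 (K := K) M' q hq hM' hπ).toSubring ∧
      tc47_U (cm85_Vinf (K := K) (M' * q) hπ).toSubring
        (algebraMap K ↥(modularFunctionFieldFullC K (M' * q))
          (ca / σ (σ ca) / σ (cb / σ (σ cb)))) ∧
      tc47_U (s34i47c_V0 (K := K) M' q hq hM' hπ).toSubring
        (algebraMap K ↥(modularFunctionFieldFullC K (M' * q))
          (cb / σ (σ cb) / σ (ca / σ (σ ca)))) ∧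
      tc47_cg (cm85_Vinf (K := K) (M' * q) hπ).toSubring
        (algebraMap R ↥(modularFunctionFieldFullC K (M' * q)) π)
        (tc47_tw (s34i47_coeffEquiv σ (M' * q)) (tc47_tw (s34i47_coeffEquiv σ (M' * q)) f) /
          G ^ m)
        (algebraMap K ↥(modularFunctionFieldFullC K (M' * q))
          (ca / σ (σ ca) / σ (cb / σ (σ cb)))) ∧
      tc47_cg (s34i47c_V0 (K := K) M' q hq hM' hπ).toSubring
        (algebraMap R ↥(modularFunctionFieldFullC K (M' * q)) π)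
        (tc47_tw (s34i47_coeffEquiv σ (M' * q)) (tc47_tw (s34i47_coeffEquiv σ (M' * q)) f) /
          G ^ m)
        (algebraMap K ↥(modularFunctionFieldFullC K (M' * q))
          (cb / σ (σ cb) / σ (ca / σ (σ ca)))) := by
  have hp0 : algebraMap R ↥(modularFunctionFieldFullC K (M' * q)) π ≠ 0 := by
    intro h0
    apply al97C_pi_inv_not_mem_Vinf (K := K) M' q hπ
    rw [h0, inv_zero]
    exact zero_mem _
  have hpK : algebraMap K ↥(modularFunctionFieldFullC K (M' * q)) (algebraMap R K π) =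
      algebraMap R ↥(modularFunctionFieldFullC K (M' * q)) π :=
    (IsScalarTower.algebraMap_apply R K ↥(modularFunctionFieldFullC K (M' * q)) π).symm
  have hpi₁ : (algebraMap R ↥(modularFunctionFieldFullC K (M' * q)) π)⁻¹ ∉
      (cm85_Vinf (K := K) (M' * q) hπ).toSubring := al97C_pi_inv_not_mem_Vinf (K := K) M' q hπ
  have hpi₂ : (algebraMap R ↥(modularFunctionFieldFullC K (M' * q)) π)⁻¹ ∉
      (s34i47c_V0 (K := K) M' q hq hM' hπ).toSubring :=
    al97C_pi_inv_not_mem_V0 (K := K) M' q hq hM' hπ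
  obtain ⟨e0, he1, he2⟩ := se66_e0 (K := K) M' q hq hM' hπ hqR
  have hca' : algebraMap K ↥(modularFunctionFieldFullC K M') ca ≠ 0 := fun h =>
    hca ((map_eq_zero_iff _ (algebraMap K ↥(modularFunctionFieldFullC K M')).injective).mp h)
  have hcb' : algebraMap K ↥(modularFunctionFieldFullC K M') cb ≠ 0 := fun h =>
    hcb ((map_eq_zero_iff _ (algebraMap K ↥(modularFunctionFieldFullC K M')).injective).mp h)
  have hk₁ : tc47_tw (s34i47_coeffEquiv σ (M' * q))
        ((al97L_alpha K M' q).toRingHom (algebraMap K ↥(modularFunctionFieldFullC K M') ca)) /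
      s34i47_coeffEquiv σ (M' * q) (tc47_tw (s34i47_coeffEquiv σ (M' * q))
        ((al97L_alpha K M' q).toRingHom (algebraMap K ↥(modularFunctionFieldFullC K M') cb))) =
      algebraMap K ↥(modularFunctionFieldFullC K (M' * q))
        (ca / σ (σ ca) / σ (cb / σ (σ cb))) := by
    have e1 : ∀ c : K, (al97L_alpha K M' q).toRingHom
        (algebraMap K ↥(modularFunctionFieldFullC K M') c) =
        algebraMap K ↥(modularFunctionFieldFullC K (M' * q)) c :=
      fun c => (al97L_alpha K M' q).commutes c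
    rw [e1, e1, tc47_tw_const, tc47_tw_const, pn86_coeffEquiv_const, ← map_div₀]
  have hk₂ : tc47_tw (s34i47_coeffEquiv σ (M' * q))
        ((al97L_beta K M' q).toRingHom (algebraMap K ↥(modularFunctionFieldFullC K M') cb)) /
      s34i47_coeffEquiv σ (M' * q) (tc47_tw (s34i47_coeffEquiv σ (M' * q))
        ((al97L_beta K M' q).toRingHom (algebraMap K ↥(modularFunctionFieldFullC K M') ca))) =
      algebraMap K ↥(modularFunctionFieldFullC K (M' * q))
        (cb / σ (σ cb) / σ (ca / σ (σ ca))) := by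
    have e1 : ∀ c : K, (al97L_beta K M' q).toRingHom
        (algebraMap K ↥(modularFunctionFieldFullC K M') c) =
        algebraMap K ↥(modularFunctionFieldFullC K (M' * q)) c :=
      fun c => (al97L_beta K M' q).commutes c
    rw [e1, e1, tc47_tw_const, tc47_tw_const, pn86_coeffEquiv_const, ← map_div₀]
  have key :=
    tc47_abs (algebraMap R ↥(modularFunctionFieldFullC K (M' * q)) π) hp0
      (cm85_Vinf (K := K) (M' * q) hπ).toSubring (s34i47c_V0 (K := K) M' q hq hM' hπ).toSubring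
      (al97C_algebraMap_mem_Vinf M' q hπ π) (al97C_algebraMap_mem_V0 M' q hq hM' hπ π)
      hpi₁ hpi₂
      (fun t ht => se66_one_add_inv_mem _ _ hpi₁ t ht)
      (fun t ht => se66_one_add_inv_mem _ _ hpi₂ t ht)
      (s34i47_coeffEquiv σ (M' * q)) (al97L_w (algebraMap K Q̄) M' q hq hM').toRingEquiv
      (s34i47_coeffEquiv σ M') (al97L_alpha K M' q).toRingHom (al97L_beta K M' q).toRingHom
      (s35i62_normA K M' q)
      (fun x hx => ff50_mem_Vinf (M' * q) hq.ne_zero hπ σ hσ x hx)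
      (fun x hx => ff50_mem_V0 M' q hq hM' hπ σ hσ x hx)
      (fun x hx => ⟨ff50_div_mem_Vinf (M' * q) hq.ne_zero hπ σ hσ x hx,
        ff50_inv_div_mem_Vinf (M' * q) hq.ne_zero hπ σ hσ x hx⟩)
      (fun x hx =>
        ⟨((s34i47c_mem_W M' q hq hM' hπ _).mp (ff50_div_mem_W M' q hq hM' hπ σ hσ x hx)).2,
          ((s34i47c_mem_W M' q hq hM' hπ _).mp (ff50_inv_div_mem_W M' q hq hM' hπ σ hσ x hx)).2⟩)
      (fun x => al97L_w_w (algebraMap K Q̄) M' q hq hM' x)
      (fun x => ng97_w_sigma M' q hq hM' σ x)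
      (fun x => ff50_alpha_comm M' q σ x)
      (fun x => ff50_beta_comm M' q σ x)
      (fun x => pn86_norm_coeffEquiv M' q σ x)
      (fun y hy hwy => by
        have h := ng97_norm_cong M' q hq hM' hπ hqR σ hσ y hy hwy
        rw [hpK] at h
        exact h)
      (fun y hy hwy => by
        have h := ng97_norm_cong_V0 M' q hq hM' hπ hqR σ hσ y hy hwy
        rw [hpK] at h
        exact h)
      e0 he1 he2 m f a b (algebraMap K ↥(modularFunctionFieldFullC K M') ca)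
      (algebraMap K ↥(modularFunctionFieldFullC K M') cb) hf ha hb hca' hcb' hNa
      ((ng97_norm_beta M' q hq hM' f).symm.trans hNb)
  rw [hk₁, hk₂] at key
  exact key

/-- **(1c) on the canonical frame, congruence form.** -/
theorem tc47_toric (hqR : ¬ IsUnit (q : R)) (σ : K ≃+* K) (hσ : s35i62_Frobenial R q σ)
    (m : ℕ) (f : ↥(modularFunctionFieldFullC K (M' * q)))
    (a b : ↥(modularFunctionFieldFullC K M')) (ca cb : K)
    (hf : f ≠ 0) (ha : a ≠ 0) (hb : b ≠ 0) (hca : ca ≠ 0) (hcb : cb ≠ 0)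
    (hNa : s35i62_normA K M' q f = algebraMap K ↥(modularFunctionFieldFullC K M') ca * a ^ m)
    (hNb : s35i62_normB K M' q f = algebraMap K ↥(modularFunctionFieldFullC K M') cb * b ^ m) :
    ∃ (G : ↥(modularFunctionFieldFullC K (M' * q))) (C₁ C₂ : R),
      G ≠ 0 ∧ G ∈ s34i47c_W (K := K) M' q hq hM' hπ ∧ G⁻¹ ∈ s34i47c_W (K := K) M' q hq hM' hπ ∧
      IsUnit C₁ ∧ IsUnit C₂ ∧
      (algebraMap R ↥(modularFunctionFieldFullC K (M' * q)) π)⁻¹ *
        (lpt3_f3 ((s34i47_coeffEquiv σ (M' * q)).trans (s34i47_coeffEquiv σ (M' * q))) m f G -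
          algebraMap R ↥(modularFunctionFieldFullC K (M' * q)) C₁) ∈
        cm85_Vinf (K := K) (M' * q) hπ ∧
      (algebraMap R ↥(modularFunctionFieldFullC K (M' * q)) π)⁻¹ *
        (lpt3_f3 ((s34i47_coeffEquiv σ (M' * q)).trans (s34i47_coeffEquiv σ (M' * q))) m f G -
          algebraMap R ↥(modularFunctionFieldFullC K (M' * q)) C₂) ∈
        s34i47c_V0 (K := K) M' q hq hM' hπ ∧
      lpt3_f3 ((s34i47_coeffEquiv σ (M' * q)).trans (s34i47_coeffEquiv σ (M' * q))) m f G ≠ 0 ∧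
      lpt3_f3 ((s34i47_coeffEquiv σ (M' * q)).trans (s34i47_coeffEquiv σ (M' * q))) m f G ∈
        s34i47c_W (K := K) M' q hq hM' hπ ∧
      (lpt3_f3 ((s34i47_coeffEquiv σ (M' * q)).trans (s34i47_coeffEquiv σ (M' * q))) m f G)⁻¹ ∈
        s34i47c_W (K := K) M' q hq hM' hπ ∧
      (algebraMap R ↥(modularFunctionFieldFullC K (M' * q)) π)⁻¹ *
        (lpt3_u ((s34i47_coeffEquiv σ (M' * q)).trans (s34i47_coeffEquiv σ (M' * q))) m (q ^ 2)
          f G - 1) ∈ s34i47c_W (K := K) M' q hq hM' hπ := by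
  have hσ' : ff50_Frob R q σ := hσ
  obtain ⟨G, hG0, hGV₁, hGV₁', hGV₂, hGV₂', hU₁, hU₂, hcg₁, hcg₂⟩ :=
    tc47_frame_abs M' q hq hM' hπ hqR σ hσ' m f a b ca cb hf ha hb hca hcb hNa hNb
  -- the uniformiser
  have hp0 : algebraMap R ↥(modularFunctionFieldFullC K (M' * q)) π ≠ 0 := by
    intro h0
    apply al97C_pi_inv_not_mem_Vinf (K := K) M' q hπ
    rw [h0, inv_zero]
    exact zero_mem _
  have hp₁ : algebraMap R ↥(modularFunctionFieldFullC K (M' * q)) π ∈
      (cm85_Vinf (K := K) (M' * q) hπ).toSubring := al97C_algebraMap_mem_Vinf M' q hπ π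
  have hp₂ : algebraMap R ↥(modularFunctionFieldFullC K (M' * q)) π ∈
      (s34i47c_V0 (K := K) M' q hq hM' hπ).toSubring := al97C_algebraMap_mem_V0 M' q hq hM' hπ π
  have hpi₁ : (algebraMap R ↥(modularFunctionFieldFullC K (M' * q)) π)⁻¹ ∉
      (cm85_Vinf (K := K) (M' * q) hπ).toSubring := al97C_pi_inv_not_mem_Vinf (K := K) M' q hπ
  have hpi₂ : (algebraMap R ↥(modularFunctionFieldFullC K (M' * q)) π)⁻¹ ∉
      (s34i47c_V0 (K := K) M' q hq hM' hπ).toSubring :=
    al97C_pi_inv_not_mem_V0 (K := K) M' q hq hM' hπ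
  have hinv₁ : ∀ t ∈ (cm85_Vinf (K := K) (M' * q) hπ).toSubring,
      (1 + algebraMap R ↥(modularFunctionFieldFullC K (M' * q)) π * t)⁻¹ ∈
        (cm85_Vinf (K := K) (M' * q) hπ).toSubring :=
    fun t ht => se66_one_add_inv_mem _ _ hpi₁ t ht
  have hinv₂ : ∀ t ∈ (s34i47c_V0 (K := K) M' q hq hM' hπ).toSubring,
      (1 + algebraMap R ↥(modularFunctionFieldFullC K (M' * q)) π * t)⁻¹ ∈
        (s34i47c_V0 (K := K) M' q hq hM' hπ).toSubring :=
    fun t ht => se66_one_add_inv_mem _ _ hpi₂ t ht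
  have hs₁ : ∀ x ∈ (cm85_Vinf (K := K) (M' * q) hπ).toSubring,
      s34i47_coeffEquiv σ (M' * q) x ∈ (cm85_Vinf (K := K) (M' * q) hπ).toSubring :=
    fun x hx => ff50_mem_Vinf (M' * q) hq.ne_zero hπ σ hσ' x hx
  have hs₂ : ∀ x ∈ (s34i47c_V0 (K := K) M' q hq hM' hπ).toSubring,
      s34i47_coeffEquiv σ (M' * q) x ∈ (s34i47c_V0 (K := K) M' q hq hM' hπ).toSubring :=
    fun x hx => ff50_mem_V0 M' q hq hM' hπ σ hσ' x hx
  have hsp₁ : s34i47_coeffEquiv σ (M' * q)
      (algebraMap R ↥(modularFunctionFieldFullC K (M' * q)) π) /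
      algebraMap R ↥(modularFunctionFieldFullC K (M' * q)) π ∈
        (cm85_Vinf (K := K) (M' * q) hπ).toSubring :=
    ff50_div_mem_Vinf (M' * q) hq.ne_zero hπ σ hσ' _ hp0
  have hsp₂ : s34i47_coeffEquiv σ (M' * q)
      (algebraMap R ↥(modularFunctionFieldFullC K (M' * q)) π) /
      algebraMap R ↥(modularFunctionFieldFullC K (M' * q)) π ∈
        (s34i47c_V0 (K := K) M' q hq hM' hπ).toSubring :=
    ((s34i47c_mem_W M' q hq hM' hπ _).mp (ff50_div_mem_W M' q hq hM' hπ σ hσ' _ hp0)).2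
  -- the constants
  have hκ₁0 : ca / σ (σ ca) / σ (cb / σ (σ cb)) ≠ 0 := fun h => hU₁.1 (by rw [h, map_zero])
  have hκ₂0 : cb / σ (σ cb) / σ (ca / σ (σ ca)) ≠ 0 := fun h => hU₂.1 (by rw [h, map_zero])
  obtain ⟨C₁, hC₁, hC₁e⟩ := tc47_const_unit M' q hπ _ hκ₁0 hU₁.2.1 hU₁.2.2
  have hκ₂V : algebraMap K ↥(modularFunctionFieldFullC K (M' * q))
      (cb / σ (σ cb) / σ (ca / σ (σ ca))) ∈ cm85_Vinf (K := K) (M' * q) hπ := by
    have h := (s34i47c_mem_V0 M' q hq hM' hπ _).mp hU₂.2.1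
    rwa [AlgEquiv.commutes] at h
  have hκ₂V' : (algebraMap K ↥(modularFunctionFieldFullC K (M' * q))
      (cb / σ (σ cb) / σ (ca / σ (σ ca))))⁻¹ ∈ cm85_Vinf (K := K) (M' * q) hπ := by
    have h := (s34i47c_mem_V0 M' q hq hM' hπ _).mp hU₂.2.2
    rwa [map_inv₀, AlgEquiv.commutes] at h
  obtain ⟨C₂, hC₂, hC₂e⟩ := tc47_const_unit M' q hπ _ hκ₂0 hκ₂V hκ₂V'
  rw [← hC₁e] at hU₁ hcg₁
  rw [← hC₂e] at hU₂ hcg₂
  -- `f₃`
  have hf3U₁ := tc47_U_of_cg _ _ hp₁ hp0 hpi₁ hinv₁ hcg₁ hU₁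
  have hf3U₂ := tc47_U_of_cg _ _ hp₂ hp0 hpi₂ hinv₂ hcg₂ hU₂
  have hu₁ := tc47_u_cong_aux _ _ hp₁ hp0 hpi₁ hinv₁ (s34i47_coeffEquiv σ (M' * q)) hs₁
    hsp₁ (q ^ 2) _ _ hU₁ hcg₁
    (tc47_frob_const M' q hπ σ hσ' _ (fun r => al97C_algebraMap_mem_Vinf M' q hπ r) C₁)
  have hu₂ := tc47_u_cong_aux _ _ hp₂ hp0 hpi₂ hinv₂ (s34i47_coeffEquiv σ (M' * q)) hs₂
    hsp₂ (q ^ 2) _ _ hU₂ hcg₂
    (tc47_frob_const M' q hπ σ hσ' _ (fun r => al97C_algebraMap_mem_V0 M' q hq hM' hπ r) C₂)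
  exact ⟨G, C₁, C₂, hG0, (s34i47c_mem_W M' q hq hM' hπ G).mpr ⟨hGV₁, hGV₂⟩,
    (s34i47c_mem_W M' q hq hM' hπ G⁻¹).mpr ⟨hGV₁', hGV₂'⟩, hC₁, hC₂, hcg₁, hcg₂, hf3U₁.1,
    (s34i47c_mem_W M' q hq hM' hπ _).mpr ⟨hf3U₁.2.1, hf3U₂.2.1⟩,
    (s34i47c_mem_W M' q hq hM' hπ _).mpr ⟨hf3U₁.2.2, hf3U₂.2.2⟩,
    (s34i47c_mem_W M' q hq hM' hπ _).mpr ⟨hu₁, hu₂⟩⟩

omit [NumberField K] [Algebra K Q̄] [NeZero M'] [NeZero q] in
/-- **Closing step of `s35i62_Core`**: if `f₀ ^ m * u` is a constant of `R` for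
`u = lpt3_u τ m (q²) f G` (the output of the main theorem `s34i47b_main` / `tl39_main` applied to
`f₃`), then `op(f)` is a nonzero constant of `K` times an `m`-th power. -/
theorem tc47_core_close (σ : K ≃+* K) (m : ℕ)
    (f G : ↥(modularFunctionFieldFullC K (M' * q))) (hf : f ≠ 0) (hG : G ≠ 0)
    (h : ∃ (f₀ : ↥(modularFunctionFieldFullC K (M' * q))) (c : R), f₀ ≠ 0 ∧
      f₀ ^ m * lpt3_u ((s34i47_coeffEquiv σ (M' * q)).trans (s34i47_coeffEquiv σ (M' * q))) m
        (q ^ 2) f G = algebraMap R ↥(modularFunctionFieldFullC K (M' * q)) c) :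
    ∃ (f₀ : ↥(modularFunctionFieldFullC K (M' * q))) (c : K), f₀ ≠ 0 ∧ c ≠ 0 ∧
      f₀ ^ m * s35i62_op q (s34i47_coeffEquiv σ (M' * q)) f =
        algebraMap K ↥(modularFunctionFieldFullC K (M' * q)) c := by
  obtain ⟨f₀, c, hf₀, hc⟩ := h
  have hu0 : lpt3_u ((s34i47_coeffEquiv σ (M' * q)).trans (s34i47_coeffEquiv σ (M' * q))) m
      (q ^ 2) f G ≠ 0 := by
    unfold lpt3_u lpt3_f3
    simp [hf, hG]
  have hx0 : ((s34i47_coeffEquiv σ (M' * q)).trans (s34i47_coeffEquiv σ (M' * q))) G /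
      G ^ (q ^ 2) ≠ 0 := by
    simp [hG]
  refine ⟨f₀ / (((s34i47_coeffEquiv σ (M' * q)).trans (s34i47_coeffEquiv σ (M' * q))) G /
      G ^ (q ^ 2)), algebraMap R K c, div_ne_zero hf₀ hx0, ?_, ?_⟩
  · intro h0
    have h1 : algebraMap R ↥(modularFunctionFieldFullC K (M' * q)) c = 0 := by
      rw [IsScalarTower.algebraMap_apply R K, h0, map_zero]
    rw [h1] at hc
    exact mul_ne_zero (pow_ne_zero m hf₀) hu0 hc
  · rw [tc47_op_eq q m (s34i47_coeffEquiv σ (M' * q)) f G hf hG,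
      ← IsScalarTower.algebraMap_apply R K, ← hc, div_pow]
    field_simp

end tc47_canon

end Fermat.Agent.S35
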