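import Fermat.Agent.S35.PkgCoreA39
import Fermat.Agent.S35.NewToricInst98
import Fermat.Agent.S35.NormCong97
import Fermat.Agent.S35.NormEquiv68
import Fermat.Agent.S35.SplitElt66

/-!
# S35 lab (helper77), row 572: `pc39_ToricCong`, step (1c) in congruence form, hypothesis-free

`tc77_toricCong : pc39_ToricCong` (the first hypothesis of helper39's assembly
`pc39_core_of : pc39_ToricCong → pc39_NodeDatum → s35i62_Pkg_Core`).

Proof: `nti98_main` (helper98: (1c) on the canonical frame from the norm congruences and a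
splitting element) applied to the two norms of the interface `s35i62_normA`, `s35i62_normB`, with

* the equivariance of the norms under coefficientwise automorphisms: `ne68_N2`, `ne68_N2_beta`
  (helper68);
* the norm congruences on `W`: `ng97_norm_cong`, `ng97_normBeta_cong_nonunits` (helper97);
* the splitting element `se66_e0` (helper66).
-/

set_option autoImplicit false
set_option linter.style.longLine false
set_option linter.unusedVariables false

open ModularCurve AlgebraicCurve

namespace Fermat.Agent.S35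

open Fermat.Agent.S18 Fermat.Agent.S24 Fermat.Agent.S34 Fermat.Agent.S37

local notation "Q̄" => AlgebraicClosure ℚ

/-- **(1c) in congruence form on the canonical frame** (`pc39_ToricCong`, row 572). -/
theorem tc77_toricCong : pc39_ToricCong := by
  intro M' q m _ _ hq hM' hm hmq R K _ _ _ _ _ _ _ _ _ _ π hπ hunit hqR hζ σ hσ f a b ca cb hf ha
    hb hca hcb hord hNa hNb
  have hσ' : ff50_Frob R q σ := hσ
  have hπeq : algebraMap K ↥(modularFunctionFieldFullC K (M' * q)) (algebraMap R K π) =
      algebraMap R ↥(modularFunctionFieldFullC K (M' * q)) π :=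
    (IsScalarTower.algebraMap_apply R K ↥(modularFunctionFieldFullC K (M' * q)) π).symm
  have hceq : ∀ r : R, algebraMap K ↥(modularFunctionFieldFullC K (M' * q)) (algebraMap R K r) =
      algebraMap R ↥(modularFunctionFieldFullC K (M' * q)) r := fun r =>
    (IsScalarTower.algebraMap_apply R K ↥(modularFunctionFieldFullC K (M' * q)) r).symm
  obtain ⟨e0, he0, he0'⟩ := se66_e0 (K := K) M' q hq hM' hπ hqR
  rw [← hπeq] at he0 he0'
  have hW : ∀ y : ↥(modularFunctionFieldFullC K (M' * q)),
      y ∈ s34i47c_W (K := K) M' q hq hM' hπ →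
      y ∈ cm85_Vinf (K := K) (M' * q) hπ ∧
        al97L_w (algebraMap K Q̄) M' q hq hM' y ∈ cm85_Vinf (K := K) (M' * q) hπ := by
    intro y hy
    obtain ⟨h1, h2⟩ := (s34i47c_mem_W M' q hq hM' hπ y).mp hy
    exact ⟨h1, (s34i47c_mem_V0 M' q hq hM' hπ y).mp h2⟩
  obtain ⟨G, hG0, hGW, hGiW, r1, r2, hr1, hr2, hf3W, hf3iW, h1, h2⟩ :=
    nti98_main M' q hq hM' hπ σ hσ' (s35i62_normA K M' q) (s35i62_normB K M' q)
      (fun x _ => ne68_N2 M' q σ x) (fun x _ => ne68_N2_beta M' q σ x)
      (fun y hy _ => ng97_norm_cong M' q hq hM' hπ hqR σ hσ y (hW y hy).1 (hW y hy).2)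
      (fun y hy _ => fi66_pi_inv_mul_mem (IsLocalRing.residue R) π (pk85_res_iff hπ) hπ.ne_zero _
        (pk85_HF K (M' * q) hπ) _
        (ng97_normBeta_cong_nonunits M' q hq hM' hπ hqR σ hσ y (hW y hy).1 (hW y hy).2))
      e0 he0 he0' m f a b ca cb hf ha hb hNa hNb
  refine ⟨G, hGW, hGiW, r1, r2, hr1, hr2, ?_, ?_⟩
  · rw [← hπeq, ← hceq]
    exact h1
  · rw [← hπeq, ← hceq]
    exact h2

end Fermat.Agent.S35
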