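import Mathlib
import Fermat.Agent.S34.Iface47
import Fermat.Agent.S35.Fibres84
import Fermat.Agent.S35.NormUnit30

/-!
# S35 lab, chain B, registry row 563 (B3-UnitTransport), twin file (helper21): abstract core

Mathlib + the `Prop` shapes `s34i47_IsHoriz` / `s34i47_Through` of `Iface47` + the fibre lemma
`fb84_cor` (row 562) + the norm lemma `nu30_norm_unit_pid` (row 561).

Setting: fields `F'`, `F` (the function fields of level `M'` and `M' q`), charts `B' ⊆ F'`,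
`B ⊆ F`, the two degeneracy maps `α β : F' →+* F`, the Atkin–Lehner involution `w`, a Frobenius
lift `s` on `F` and `s'` on `F'`, the two branches `V₁`, `V₂` of the special fibre, norm maps
`Nα Nβ : F → F'` along `α`, `β`.  For a prime `n` of `B` write
`Σ(n) = ut21_Sig sB wB n = {n, s⁻¹ s⁻¹ n, s⁻¹ w n}`.

* `ut21_center` : the centre of a valuation subring `O ⊇ B` on `B` (a prime ideal,
  `ut21_center_isPrime`); `O` passes through `n` iff its centre lies in `n`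
  (`ut21_through_of_center_le`, `ut21_center_le_of_through`);
* `ut21_through_comap` : `O` through `n` ⟹ `O.comap σ` through `σ⁻¹ n` (any automorphism `σ`
  preserving `B`; no congruence hypothesis);
* `ut21_norm_factor` : **the norm factor** (going-up + fibre clause as a hypothesis): if `y` is a
  unit of every horizontal `O` through the points of `Sig`, then `φ (N (s y))` is a unit of every
  horizontal `O` through `n` (`N` a norm along `ψ`, `(φ, ψ) = (α, β)` or `(β, α)`);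
* `ut21_branch` : a prime of `B` containing `π` contains one of the two branch ideals
  `ut21_P π B V₁`, `ut21_P π B V₂` (from the `π`-saturation of `B` in `W ⊇ V₁ ∩ V₂`);
* `ut21_factors` : all four non-trivial factors of `TH y` are units of every horizontal `O`
  through `n`, if `y` is a unit of every horizontal `O` through the points of `Σ(n)`;
* `ut21_transport` : hence so is
  `TH y = s (s y) * (w (s y)) ^ (q + 1) * y ^ q / (α (Nβ (s y)) * β (Nα (s y)))`;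
* `ut21_htr` : the literal `htr` hypothesis of `ldo54_localDatum_of_transport` (`LDOp54`) with
  `Sig = ut21_Sig sB wB`;
* `ut21_normProp`, `ut21_normProp_w` : the norm hypotheses for `Nα = Algebra.norm F'` and
  `Nβ = Nα ∘ w` from `nu30_norm_unit_pid`.

All names are prefixed `ut21_`.
-/

set_option autoImplicit false
set_option linter.style.haveILetI false

namespace Fermat.Agent.S35

open Fermat.Agent.S34

/-! ## 1. Centres -/

section ut21_centre

variable {F : Type*} [Field F]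

/-- Non-units of a valuation subring: `v x < 1` iff `x = 0` or `x⁻¹ ∉ O`. -/
theorem ut21_val_lt_one_iff (O : ValuationSubring F) (x : F) :
    O.valuation x < 1 ↔ (x = 0 ∨ x⁻¹ ∉ O) := by
  constructor
  · intro h
    by_cases hx : x = 0
    · exact Or.inl hx
    · right
      intro hinv
      have h1 : O.valuation x⁻¹ ≤ 1 := (O.valuation_le_one_iff _).mpr hinv
      rw [map_inv₀] at h1
      have hpos : 0 < O.valuation x := by
        rw [zero_lt_iff]
        exact (Valuation.ne_zero_iff _).mpr hx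
      have h2 : 1 ≤ O.valuation x := (inv_le_one₀ hpos).mp h1
      exact absurd h (not_lt.mpr h2)
  · rintro (rfl | h)
    · rw [map_zero]; exact zero_lt_one
    · by_contra hcon
      rw [not_lt] at hcon
      apply h
      rw [← O.valuation_le_one_iff, map_inv₀]
      have hpos : 0 < O.valuation x := lt_of_lt_of_le zero_lt_one hcon
      exact (inv_le_one₀ hpos).mpr hcon

variable {R : Type*} [CommRing R] [Algebra R F]

/-- The centre on the chart `B` of a valuation subring `O ⊇ B`. -/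
def ut21_center (B : Subalgebra R F) (O : ValuationSubring F) (hBO : ∀ x ∈ B, x ∈ O) :
    Ideal B where
  carrier := {b | O.valuation (b : F) < 1}
  zero_mem' := by
    show O.valuation ((0 : B) : F) < 1
    rw [ZeroMemClass.coe_zero, map_zero]; exact zero_lt_one
  add_mem' := by
    intro a b ha hb
    show O.valuation ((a + b : B) : F) < 1
    rw [Subalgebra.coe_add]
    exact lt_of_le_of_lt (Valuation.map_add _ _ _) (max_lt ha hb)
  smul_mem' := by
    intro c b hb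
    show O.valuation ((c * b : B) : F) < 1
    rw [Subalgebra.coe_mul, map_mul]
    have hc : O.valuation (c : F) ≤ 1 := (O.valuation_le_one_iff _).mpr (hBO _ c.2)
    exact lt_of_le_of_lt (mul_le_of_le_one_left' hc) hb

theorem ut21_mem_center (B : Subalgebra R F) (O : ValuationSubring F) (hBO : ∀ x ∈ B, x ∈ O)
    (b : B) : b ∈ ut21_center B O hBO ↔ O.valuation (b : F) < 1 := Iff.rfl

theorem ut21_center_isPrime (B : Subalgebra R F) (O : ValuationSubring F)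
    (hBO : ∀ x ∈ B, x ∈ O) : (ut21_center B O hBO).IsPrime := by
  rw [Ideal.isPrime_iff]
  refine ⟨?_, ?_⟩
  · intro h
    have h1 : (1 : B) ∈ ut21_center B O hBO := by rw [h]; trivial
    rw [ut21_mem_center, OneMemClass.coe_one, map_one] at h1
    exact lt_irrefl _ h1
  · intro a b hab
    rw [ut21_mem_center, Subalgebra.coe_mul, map_mul] at hab
    by_contra hcon
    rw [not_or] at hcon
    have ha : 1 ≤ O.valuation (a : F) := not_lt.mp hcon.1
    have hb : 1 ≤ O.valuation (b : F) := not_lt.mp hcon.2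
    exact absurd hab (not_lt.mpr (one_le_mul_of_one_le_of_one_le ha hb))

/-- `O` passes through every prime containing its centre. -/
theorem ut21_through_of_center_le (B : Subalgebra R F) (O : ValuationSubring F)
    (hBO : ∀ x ∈ B, x ∈ O) (n : Ideal B) (h : ut21_center B O hBO ≤ n) :
    s34i47_Through B n O := by
  refine ⟨hBO, fun x hx => ?_⟩
  have h1 : ¬ O.valuation (x : F) < 1 := fun h2 => hx (h h2)
  rw [ut21_val_lt_one_iff, not_or, not_not] at h1
  exact h1.2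

/-- If `O` passes through `n`, its centre lies in `n`. -/
theorem ut21_center_le_of_through (B : Subalgebra R F) (O : ValuationSubring F) (n : Ideal B)
    (hOn : s34i47_Through B n O) : ut21_center B O hOn.1 ≤ n := by
  intro x hx
  by_contra hxn
  rw [ut21_mem_center, ut21_val_lt_one_iff] at hx
  rcases hx with h0 | h1
  · apply hxn
    have hx0 : x = 0 := Subtype.ext h0
    rw [hx0]; exact n.zero_mem
  · exact h1 (hOn.2 x hxn)

/-- `O` through `n` ⟹ `O.comap σ` through `σ⁻¹ n`, for an automorphism `σ` of `F` restricting to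
the automorphism `σB` of the chart. -/
theorem ut21_through_comap (B : Subalgebra R F) (σ : F ≃+* F) (σB : B ≃+* B)
    (hσB : ∀ x : B, ((σB x : B) : F) = σ (x : F)) (n : Ideal B) (O : ValuationSubring F)
    (hO : s34i47_Through B n O) :
    s34i47_Through B (n.comap σB) (O.comap (σ : F →+* F)) := by
  refine ⟨fun x hx => ?_, fun x hx => ?_⟩
  · show σ x ∈ O
    have h1 := hO.1 _ (σB ⟨x, hx⟩).2
    rwa [hσB] at h1
  · show σ ((x : F)⁻¹) ∈ O
    have h1 : σB x ∉ n := fun h => hx h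
    have h2 := hO.2 (σB x) h1
    rw [hσB] at h2
    rw [map_inv₀]; exact h2

/-- The restriction of an automorphism of `F` to a chart stable under it and its inverse. -/
def ut21_res (B : Subalgebra R F) (σ : F ≃+* F) (h : ∀ x ∈ B, σ x ∈ B)
    (h' : ∀ x ∈ B, σ.symm x ∈ B) : ↥B ≃+* ↥B where
  toFun x := ⟨σ x, h x x.2⟩
  invFun x := ⟨σ.symm x, h' x x.2⟩
  left_inv x := Subtype.ext (σ.symm_apply_apply x)
  right_inv x := Subtype.ext (σ.apply_symm_apply x)
  map_mul' x y := Subtype.ext (map_mul σ (x : F) (y : F))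
  map_add' x y := Subtype.ext (map_add σ (x : F) (y : F))

theorem ut21_res_coe (B : Subalgebra R F) (σ : F ≃+* F) (h : ∀ x ∈ B, σ x ∈ B)
    (h' : ∀ x ∈ B, σ.symm x ∈ B) (x : B) : ((ut21_res B σ h h' x : B) : F) = σ (x : F) := rfl

/-- The branch ideal `B ∩ π V` of the chart `B ⊆ V`. -/
def ut21_P (π : R) (B : Subalgebra R F) (V : Subring F) (hBV : ∀ x ∈ B, x ∈ V) : Ideal B where
  carrier := {b | (algebraMap R F π)⁻¹ * (b : F) ∈ V}
  zero_mem' := by
    show (algebraMap R F π)⁻¹ * ((0 : B) : F) ∈ V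
    rw [ZeroMemClass.coe_zero, mul_zero]; exact V.zero_mem
  add_mem' := by
    intro a b ha hb
    show (algebraMap R F π)⁻¹ * ((a + b : B) : F) ∈ V
    rw [Subalgebra.coe_add, mul_add]
    exact V.add_mem ha hb
  smul_mem' := by
    intro c b hb
    show (algebraMap R F π)⁻¹ * ((c * b : B) : F) ∈ V
    rw [Subalgebra.coe_mul, mul_left_comm]
    exact V.mul_mem (hBV _ c.2) hb

theorem ut21_mem_P (π : R) (B : Subalgebra R F) (V : Subring F) (hBV : ∀ x ∈ B, x ∈ V) (b : B) :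
    b ∈ ut21_P π B V hBV ↔ (algebraMap R F π)⁻¹ * (b : F) ∈ V := Iff.rfl

/-- A prime of the chart containing `π` contains one of the two branches (`B` is `π`-saturated in
`W ⊇ V₁ ∩ V₂`). -/
theorem ut21_branch (π : R) (hp0 : algebraMap R F π ≠ 0) (B : Subalgebra R F) (V₁ V₂ W : Subring F)
    (hBV₁ : ∀ x ∈ B, x ∈ V₁) (hBV₂ : ∀ x ∈ B, x ∈ V₂)
    (hW : ∀ x : F, x ∈ V₁ → x ∈ V₂ → x ∈ W)
    (hsat : ∀ x ∈ B, (algebraMap R F π)⁻¹ * x ∈ W → (algebraMap R F π)⁻¹ * x ∈ B)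
    (n : Ideal B) [hn : n.IsPrime] (hπn : algebraMap R B π ∈ n) :
    ut21_P π B V₁ hBV₁ ≤ n ∨ ut21_P π B V₂ hBV₂ ≤ n := by
  by_contra hcon
  rw [not_or] at hcon
  obtain ⟨hc1, hc2⟩ := hcon
  obtain ⟨b1, hb1, hb1n⟩ := SetLike.not_le_iff_exists.mp hc1
  obtain ⟨b2, hb2, hb2n⟩ := SetLike.not_le_iff_exists.mp hc2
  rw [ut21_mem_P] at hb1 hb2
  have h1 : (algebraMap R F π)⁻¹ * ((b1 : F) * (b2 : F)) ∈ V₁ := by
    rw [← mul_assoc]; exact V₁.mul_mem hb1 (hBV₁ _ b2.2)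
  have h2 : (algebraMap R F π)⁻¹ * ((b1 : F) * (b2 : F)) ∈ V₂ := by
    rw [mul_left_comm]; exact V₂.mul_mem (hBV₂ _ b1.2) hb2
  have h3 := hsat _ (B.mul_mem b1.2 b2.2) (hW _ h1 h2)
  have h4 : b1 * b2 = algebraMap R B π * ⟨_, h3⟩ := by
    apply Subtype.ext
    show (b1 : F) * (b2 : F) = algebraMap R F π * ((algebraMap R F π)⁻¹ * ((b1 : F) * (b2 : F)))
    rw [← mul_assoc, mul_inv_cancel₀ hp0, one_mul]
  have h5 : b1 * b2 ∈ n := by rw [h4]; exact n.mul_mem_right _ hπn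
  rcases hn.mem_or_mem h5 with h | h
  · exact hb1n h
  · exact hb2n h

end ut21_centre

/-! ## 2. The norm factor -/

section ut21_norm

variable {R F F' : Type*} [CommRing R] [Field F] [Field F'] [Algebra R F] [Algebra R F']

/-- **The norm factor.**  `φ ψ : F' → F` two embeddings mapping the chart `B'` into the chart `B`
(`B` integral over `ψ B'`), `N : F → F'` with the unit property of a norm along `ψ`, `n` a prime
of `B`, `Sig` a set of primes of `B` containing `s⁻¹ n₁` for every prime `n₁` of `B` with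
`ψ⁻¹ n₁ = φ⁻¹ n`.  If `y` is a unit of every horizontal `O` through a point of `Sig`, then
`φ (N (s y))` is a unit of every horizontal `O` through `n`. -/
theorem ut21_norm_factor (π : R) (B : Subalgebra R F) (B' : Subalgebra R F')
    (φ ψ : F' →+* F) (s : F ≃+* F) (N : F → F')
    (hφR : ∀ r : R, φ (algebraMap R F' r) = algebraMap R F r)
    (hψR : ∀ r : R, ψ (algebraMap R F' r) = algebraMap R F r)
    (φB ψB : B' →+* B)
    (hφB : ∀ x : B', ((φB x : B) : F) = φ (x : F'))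
    (hψB : ∀ x : B', ((ψB x : B) : F) = ψ (x : F'))
    (hψint : ψB.IsIntegral)
    (sB : B ≃+* B) (hsB : ∀ x : B, ((sB x : B) : F) = s (x : F))
    (hsH : ∀ O : ValuationSubring F, s34i47_IsHoriz π O →
      s34i47_IsHoriz π (O.comap (s : F →+* F)))
    (hdvr : ∀ O : ValuationSubring F, O ≠ ⊤ → (∀ r : R, algebraMap R F r ∈ O) →
      (algebraMap R F π)⁻¹ ∈ O → IsPrincipalIdealRing O)
    (hdvr' : ∀ O : ValuationSubring F', O ≠ ⊤ → (∀ r : R, algebraMap R F' r ∈ O) →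
      (algebraMap R F' π)⁻¹ ∈ O → IsPrincipalIdealRing O)
    (hφtop : ∀ O : ValuationSubring F, O.comap φ = ⊤ → O = ⊤)
    (hN : ∀ O' : ValuationSubring F', IsPrincipalIdealRing O' → ∀ z : F,
      (∀ O'' : ValuationSubring F, O''.comap ψ = O' → z ∈ O'' ∧ z⁻¹ ∈ O'') →
        N z ∈ O' ∧ (N z)⁻¹ ∈ O')
    (Sig : Set (Ideal B)) (n : Ideal B) [hn : n.IsPrime]
    (hfib : ∀ n₁ : Ideal B, n₁.IsPrime → n₁.comap ψB = n.comap φB → n₁.comap sB ∈ Sig)
    (y : F)
    (hy : ∀ n' ∈ Sig, ∀ O : ValuationSubring F, s34i47_IsHoriz π O → s34i47_Through B n' O →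
      y ∈ O ∧ y⁻¹ ∈ O)
    (O : ValuationSubring F) (hO : s34i47_IsHoriz π O) (hOn : s34i47_Through B n O) :
    φ (N (s y)) ∈ O ∧ (φ (N (s y)))⁻¹ ∈ O := by
  obtain ⟨hOtop, -, hOR, hOπ⟩ := hO
  have hO'top : O.comap φ ≠ ⊤ := fun h => hOtop (hφtop O h)
  have hO'R : ∀ r : R, algebraMap R F' r ∈ O.comap φ := fun r => by
    show φ (algebraMap R F' r) ∈ O
    rw [hφR]; exact hOR r
  have hO'π : (algebraMap R F' π)⁻¹ ∈ O.comap φ := by
    show φ ((algebraMap R F' π)⁻¹) ∈ O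
    rw [map_inv₀, hφR]; exact hOπ
  have hO'pir : IsPrincipalIdealRing (O.comap φ) := hdvr' _ hO'top hO'R hO'π
  have key : ∀ O'' : ValuationSubring F, O''.comap ψ = O.comap φ →
      s y ∈ O'' ∧ (s y)⁻¹ ∈ O'' := by
    intro O'' hO''
    have hiff : ∀ x : F', ψ x ∈ O'' ↔ φ x ∈ O := fun x => by
      have h0 : x ∈ O''.comap ψ ↔ x ∈ O.comap φ := by rw [hO'']
      exact h0
    -- `O''` is horizontal
    have h1 : O'' ≠ ⊤ := by
      intro h
      apply hO'top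
      rw [← hO'', eq_top_iff]
      intro x _
      show ψ x ∈ O''
      rw [h]; trivial
    have h2 : ∀ r : R, algebraMap R F r ∈ O'' := fun r => by
      rw [← hψR, hiff, hφR]; exact hOR r
    have h3 : (algebraMap R F π)⁻¹ ∈ O'' := by
      rw [← hψR, ← map_inv₀, hiff, map_inv₀, hφR]; exact hOπ
    have hH'' : s34i47_IsHoriz π O'' := ⟨h1, hdvr O'' h1 h2 h3, h2, h3⟩
    -- `B ⊆ O''` (integrality over `ψ B'`)
    have hB'O'' : ∀ x : B', ψ (x : F') ∈ O'' := fun x => by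
      rw [hiff, ← hφB]; exact hOn.1 _ (φB x).2
    have hBO'' : ∀ x ∈ B, x ∈ O'' := by
      intro x hx
      obtain ⟨p, hp, hpx⟩ := hψint ⟨x, hx⟩
      let g : B' →+* O'' :=
        (ψ.comp (B'.val : B' →+* F')).codRestrict O''.toSubring (fun b => hB'O'' b)
      have hcomp : (algebraMap O'' F).comp g = (B.val : B →+* F).comp ψB := by
        ext b
        show ψ (b : F') = ((ψB b : B) : F)
        rw [hψB]
      have h0 : Polynomial.eval₂ ((B.val : B →+* F).comp ψB) x p = 0 := by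
        have h00 := congrArg (B.val : B →+* F) hpx
        rw [Polynomial.hom_eval₂, map_zero] at h00
        exact h00
      have hint : IsIntegral O'' x :=
        ⟨p.map g, hp.map g, by rw [Polynomial.eval₂_map, hcomp]; exact h0⟩
      obtain ⟨v, hv⟩ := IsIntegrallyClosed.isIntegral_iff.mp hint
      rw [← hv]
      exact v.2
    -- the centre of `O''` and going-up
    have hc''prime : (ut21_center B O'' hBO'').IsPrime := ut21_center_isPrime B O'' hBO''
    have hle : (ut21_center B O'' hBO'').comap ψB ≤ n.comap φB := by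
      intro b hb
      have hb1 : O''.valuation ((ψB b : B) : F) < 1 := hb
      rw [hψB, ut21_val_lt_one_iff] at hb1
      show φB b ∈ n
      by_contra hbn
      have h4 := hOn.2 (φB b) hbn
      rw [hφB] at h4
      rcases hb1 with h0 | h5
      · have hb0 : (b : F') = 0 := (map_eq_zero ψ).mp h0
        apply hbn
        have hz : φB b = 0 := by
          apply Subtype.ext
          rw [hφB, hb0, map_zero]; rfl
        rw [hz]; exact n.zero_mem
      · apply h5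
        rw [← map_inv₀, hiff, map_inv₀]; exact h4
    letI : Algebra B' B := ψB.toAlgebra
    haveI : Algebra.IsIntegral B' B := ⟨hψint⟩
    haveI : (n.comap φB).IsPrime := Ideal.comap_isPrime φB n
    obtain ⟨n₁, hn₁ge, hn₁prime, hn₁⟩ :=
      Ideal.exists_ideal_over_prime_of_isIntegral (n.comap φB) (ut21_center B O'' hBO'') hle
    have hthr : s34i47_Through B n₁ O'' := ut21_through_of_center_le B O'' hBO'' n₁ hn₁ge
    have hmem : n₁.comap sB ∈ Sig := hfib n₁ hn₁prime hn₁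
    have hy' := hy _ hmem (O''.comap (s : F →+* F)) (hsH O'' hH'')
      (ut21_through_comap B s sB hsB n₁ O'' hthr)
    refine ⟨hy'.1, ?_⟩
    have h6 : s y⁻¹ ∈ O'' := hy'.2
    rwa [map_inv₀] at h6
  obtain ⟨k1, k2⟩ := hN (O.comap φ) hO'pir (s y) key
  refine ⟨k1, ?_⟩
  have k3 : φ ((N (s y))⁻¹) ∈ O := k2
  rwa [map_inv₀] at k3

end ut21_norm

/-! ## 3. The four factors and the operator `TH` -/

section ut21_main

variable {R F F' : Type*} [CommRing R] [Field F] [Field F'] [Algebra R F] [Algebra R F']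

/-- `Σ(n) = {n, s⁻¹ s⁻¹ n, s⁻¹ w n}`. -/
def ut21_Sig {B : Type*} [CommRing B] (s w : B ≃+* B) (n : Ideal B) : Set (Ideal B) :=
  {m | m = n ∨ m = (n.comap s).comap s ∨ m = (n.comap w).comap s}

theorem ut21_mem_Sig {B : Type*} [CommRing B] (s w : B ≃+* B) (n m : Ideal B) :
    m ∈ ut21_Sig s w n ↔ m = n ∨ m = (n.comap s).comap s ∨ m = (n.comap w).comap s := Iff.rfl

/-- **The four non-trivial factors of `TH y`.** -/
theorem ut21_factors (π : R) (hp0 : algebraMap R F π ≠ 0) (q : ℕ) (hq : q ≠ 0)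
    (B : Subalgebra R F) (B' : Subalgebra R F') (V₁ V₂ W : Subring F)
    (α β : F' →+* F) (s w : F ≃+* F) (s' : F' ≃+* F') (Nα Nβ : F → F')
    (hαR : ∀ r : R, α (algebraMap R F' r) = algebraMap R F r)
    (hβR : ∀ r : R, β (algebraMap R F' r) = algebraMap R F r)
    (hBV₁ : ∀ x ∈ B, x ∈ V₁) (hBV₂ : ∀ x ∈ B, x ∈ V₂)
    (hW : ∀ x : F, x ∈ V₁ → x ∈ V₂ → x ∈ W)
    (hsat : ∀ x ∈ B, (algebraMap R F π)⁻¹ * x ∈ W → (algebraMap R F π)⁻¹ * x ∈ B)
    (αB βB : B' →+* B)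
    (hαB : ∀ x : B', ((αB x : B) : F) = α (x : F'))
    (hβB : ∀ x : B', ((βB x : B) : F) = β (x : F'))
    (hαint : αB.IsIntegral) (hβint : βB.IsIntegral)
    (sB wB : B ≃+* B) (hsB : ∀ x : B, ((sB x : B) : F) = s (x : F))
    (hwB : ∀ x : B, ((wB x : B) : F) = w (x : F))
    (s'B : B' ≃+* B') (hs'B : ∀ x : B', ((s'B x : B') : F') = s' (x : F'))
    (hwα : ∀ a : F', w (α a) = β a) (hww : ∀ x : F, w (w x) = x)
    (hsα : ∀ a : F', s (α a) = α (s' a)) (hsw : ∀ x : F, s (w x) = w (s x))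
    (hwπ : w (algebraMap R F π) = algebraMap R F π)
    (hV₂ : ∀ x : F, x ∈ V₂ ↔ w x ∈ V₁)
    (hsV : ∀ x ∈ B, ((algebraMap R F π)⁻¹ * x ∈ V₁ ↔ (algebraMap R F π)⁻¹ * s x ∈ V₁))
    (hsurj : ∀ x ∈ B, ∃ a ∈ B', (algebraMap R F π)⁻¹ * (x - α a) ∈ V₁)
    (hfrob : ∀ a ∈ B', (algebraMap R F π)⁻¹ * (β (s' a) - (α a) ^ q) ∈ V₁)
    (hsH : ∀ O : ValuationSubring F, s34i47_IsHoriz π O →
      s34i47_IsHoriz π (O.comap (s : F →+* F)))
    (hwH : ∀ O : ValuationSubring F, s34i47_IsHoriz π O →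
      s34i47_IsHoriz π (O.comap (w : F →+* F)))
    (hdvr : ∀ O : ValuationSubring F, O ≠ ⊤ → (∀ r : R, algebraMap R F r ∈ O) →
      (algebraMap R F π)⁻¹ ∈ O → IsPrincipalIdealRing O)
    (hdvr' : ∀ O : ValuationSubring F', O ≠ ⊤ → (∀ r : R, algebraMap R F' r ∈ O) →
      (algebraMap R F' π)⁻¹ ∈ O → IsPrincipalIdealRing O)
    (hαtop : ∀ O : ValuationSubring F, O.comap α = ⊤ → O = ⊤)
    (hNα : ∀ O' : ValuationSubring F', IsPrincipalIdealRing O' → ∀ z : F,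
      (∀ O'' : ValuationSubring F, O''.comap α = O' → z ∈ O'' ∧ z⁻¹ ∈ O'') →
        Nα z ∈ O' ∧ (Nα z)⁻¹ ∈ O')
    (hNβ : ∀ O' : ValuationSubring F', IsPrincipalIdealRing O' → ∀ z : F,
      (∀ O'' : ValuationSubring F, O''.comap β = O' → z ∈ O'' ∧ z⁻¹ ∈ O'') →
        Nβ z ∈ O' ∧ (Nβ z)⁻¹ ∈ O')
    (n : Ideal B) [hn : n.IsPrime] (hπn : algebraMap R B π ∈ n) (y : F)
    (hy : ∀ n' ∈ ut21_Sig sB wB n, ∀ O : ValuationSubring F, s34i47_IsHoriz π O →
      s34i47_Through B n' O → y ∈ O ∧ y⁻¹ ∈ O)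
    (O : ValuationSubring F) (hO : s34i47_IsHoriz π O) (hOn : s34i47_Through B n O) :
    (s (s y) ∈ O ∧ (s (s y))⁻¹ ∈ O) ∧ (w (s y) ∈ O ∧ (w (s y))⁻¹ ∈ O) ∧
      (α (Nβ (s y)) ∈ O ∧ (α (Nβ (s y)))⁻¹ ∈ O) ∧ (β (Nα (s y)) ∈ O ∧ (β (Nα (s y)))⁻¹ ∈ O) := by
  have hwβ : ∀ a : F', w (β a) = α a := fun a => by rw [← hwα, hww]
  -- chart-level hypotheses of the fibre lemma
  have e1 : ∀ b' : B', wB (αB b') = βB b' := fun b' => Subtype.ext (by
    rw [hwB, hαB, hβB, hwα])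
  have e2 : ∀ b' : B', wB (βB b') = αB b' := fun b' => Subtype.ext (by
    rw [hwB, hαB, hβB, hwβ])
  have e3 : ∀ b : B, wB (wB b) = b := fun b => Subtype.ext (by rw [hwB, hwB, hww])
  have e4 : ∀ b' : B', sB (αB b') = αB (s'B b') := fun b' => Subtype.ext (by
    rw [hsB, hαB, hαB, hs'B, hsα])
  have e5 : ∀ b : B, sB (wB b) = wB (sB b) := fun b => Subtype.ext (by
    rw [hsB, hwB, hwB, hsB, hsw])
  have e6 : ∀ b : B, b ∈ ut21_P π B V₂ hBV₂ ↔ wB b ∈ ut21_P π B V₁ hBV₁ := fun b => by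
    rw [ut21_mem_P, ut21_mem_P, hwB, hV₂, map_mul, map_inv₀, hwπ]
  have e7 : ∀ b : B, b ∈ ut21_P π B V₁ hBV₁ ↔ sB b ∈ ut21_P π B V₁ hBV₁ := fun b => by
    rw [ut21_mem_P, ut21_mem_P, hsB]
    exact hsV _ b.2
  have e8 : ∀ b : B, ∃ b' : B', b - αB b' ∈ ut21_P π B V₁ hBV₁ := fun b => by
    obtain ⟨a, ha, h⟩ := hsurj _ b.2
    refine ⟨⟨a, ha⟩, ?_⟩
    rw [ut21_mem_P, Subalgebra.coe_sub, hαB]
    exact h
  have e9 : ∀ b' : B', βB b' - (αB (s'B.symm b')) ^ q ∈ ut21_P π B V₁ hBV₁ := fun b' => by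
    have h := hfrob _ (s'B.symm b').2
    rw [← hs'B, RingEquiv.apply_symm_apply] at h
    rw [ut21_mem_P, Subalgebra.coe_sub, Subalgebra.coe_pow, hαB, hβB]
    exact h
  have hαRB : ∀ r : R, αB (algebraMap R B' r) = algebraMap R B r := fun r => Subtype.ext (by
    rw [hαB]; exact hαR r)
  have hβRB : ∀ r : R, βB (algebraMap R B' r) = algebraMap R B r := fun r => Subtype.ext (by
    rw [hβB]; exact hβR r)
  have hPn : ut21_P π B V₁ hBV₁ ≤ n ∨ ut21_P π B V₂ hBV₂ ≤ n :=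
    ut21_branch π hp0 B V₁ V₂ W hBV₁ hBV₂ hW hsat n hπn
  -- the two fibre clauses
  have hfib1 : ∀ n₁ : Ideal B, n₁.IsPrime → n₁.comap βB = n.comap αB →
      n₁.comap sB ∈ ut21_Sig sB wB n := by
    intro n₁ hn₁ h
    have hπn₁ : algebraMap R B π ∈ n₁ := by
      have h1 : algebraMap R B' π ∈ n.comap αB := by
        rw [Ideal.mem_comap, hαRB]; exact hπn
      rw [← h, Ideal.mem_comap, hβRB] at h1
      exact h1
    exact fb84_cor αB βB sB wB s'B (ut21_P π B V₁ hBV₁) (ut21_P π B V₂ hBV₂) q hq e1 e2 e3 e4 e5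
      e6 e7 e8 e9 n n₁ (Or.inl h)
      (ut21_branch π hp0 B V₁ V₂ W hBV₁ hBV₂ hW hsat n₁ hπn₁) hPn
  have hfib2 : ∀ n₁ : Ideal B, n₁.IsPrime → n₁.comap αB = n.comap βB →
      n₁.comap sB ∈ ut21_Sig sB wB n := by
    intro n₁ hn₁ h
    have hπn₁ : algebraMap R B π ∈ n₁ := by
      have h1 : algebraMap R B' π ∈ n.comap βB := by
        rw [Ideal.mem_comap, hβRB]; exact hπn
      rw [← h, Ideal.mem_comap, hαRB] at h1
      exact h1
    exact fb84_cor αB βB sB wB s'B (ut21_P π B V₁ hBV₁) (ut21_P π B V₂ hBV₂) q hq e1 e2 e3 e4 e5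
      e6 e7 e8 e9 n n₁ (Or.inr h)
      (ut21_branch π hp0 B V₁ V₂ W hBV₁ hBV₂ hW hsat n₁ hπn₁) hPn
  have hβtop : ∀ O : ValuationSubring F, O.comap β = ⊤ → O = ⊤ := by
    intro O₁ h
    have h1 : (O₁.comap (w : F →+* F)).comap α = ⊤ := by
      rw [eq_top_iff]
      intro x _
      show w (α x) ∈ O₁
      rw [hwα]
      have h2 : x ∈ O₁.comap β := by rw [h]; trivial
      exact h2
    have h3 := hαtop _ h1
    rw [eq_top_iff]
    intro x _
    have h4 : w x ∈ O₁.comap (w : F →+* F) := by rw [h3]; trivial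
    have h5 : w (w x) ∈ O₁ := h4
    rwa [hww] at h5
  refine ⟨?_, ?_, ?_, ?_⟩
  · -- `s (s y)`
    have hmem : (n.comap sB).comap sB ∈ ut21_Sig sB wB n := Or.inr (Or.inl rfl)
    have h := hy _ hmem ((O.comap (s : F →+* F)).comap (s : F →+* F)) (hsH _ (hsH _ hO))
      (ut21_through_comap B s sB hsB _ _ (ut21_through_comap B s sB hsB n O hOn))
    refine ⟨h.1, ?_⟩
    have h2 : s (s y⁻¹) ∈ O := h.2
    rwa [map_inv₀, map_inv₀] at h2
  · -- `w (s y)`
    have hmem : (n.comap wB).comap sB ∈ ut21_Sig sB wB n := Or.inr (Or.inr rfl)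
    have h := hy _ hmem ((O.comap (w : F →+* F)).comap (s : F →+* F)) (hsH _ (hwH _ hO))
      (ut21_through_comap B s sB hsB _ _ (ut21_through_comap B w wB hwB n O hOn))
    refine ⟨h.1, ?_⟩
    have h2 : w (s y⁻¹) ∈ O := h.2
    rwa [map_inv₀, map_inv₀] at h2
  · exact ut21_norm_factor π B B' α β s Nβ hαR hβR αB βB hαB hβB hβint sB hsB hsH hdvr hdvr'
      hαtop hNβ (ut21_Sig sB wB n) n hfib1 y hy O hO hOn
  · exact ut21_norm_factor π B B' β α s Nα hβR hαR βB αB hβB hαB hαint sB hsB hsH hdvr hdvr'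
      hβtop hNα (ut21_Sig sB wB n) n hfib2 y hy O hO hOn

/-- Products, powers and quotients of units of a valuation subring. -/
theorem ut21_unit_TH (O : ValuationSubring F) (q : ℕ) (a b c d e : F)
    (ha : a ∈ O ∧ a⁻¹ ∈ O) (hb : b ∈ O ∧ b⁻¹ ∈ O) (hc : c ∈ O ∧ c⁻¹ ∈ O)
    (hd : d ∈ O ∧ d⁻¹ ∈ O) (he : e ∈ O ∧ e⁻¹ ∈ O) :
    a * b ^ (q + 1) * c ^ q / (d * e) ∈ O ∧ (a * b ^ (q + 1) * c ^ q / (d * e))⁻¹ ∈ O := by
  constructor
  · rw [div_eq_mul_inv, mul_inv]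
    exact O.mul_mem _ _ (O.mul_mem _ _ (O.mul_mem _ _ ha.1 (pow_mem hb.1 _))
      (pow_mem hc.1 _)) (O.mul_mem _ _ hd.2 he.2)
  · rw [inv_div, div_eq_mul_inv, mul_inv, mul_inv, ← inv_pow, ← inv_pow]
    exact O.mul_mem _ _ (O.mul_mem _ _ hd.1 he.1) (O.mul_mem _ _ (O.mul_mem _ _ ha.2
      (pow_mem hb.2 _)) (pow_mem hc.2 _))

/-- **Unit transport for `TH`** (abstract form of row 563): if `y` is a unit of every horizontal
`O` through the points of `Σ(n) = {n, s⁻¹ s⁻¹ n, s⁻¹ w n}`, then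
`s (s y) * (w (s y)) ^ (q + 1) * y ^ q / (α (Nβ (s y)) * β (Nα (s y)))` is a unit of every
horizontal `O` through `n`. -/
theorem ut21_transport (π : R) (hp0 : algebraMap R F π ≠ 0) (q : ℕ) (hq : q ≠ 0)
    (B : Subalgebra R F) (B' : Subalgebra R F') (V₁ V₂ W : Subring F)
    (α β : F' →+* F) (s w : F ≃+* F) (s' : F' ≃+* F') (Nα Nβ : F → F')
    (hαR : ∀ r : R, α (algebraMap R F' r) = algebraMap R F r)
    (hβR : ∀ r : R, β (algebraMap R F' r) = algebraMap R F r)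
    (hBV₁ : ∀ x ∈ B, x ∈ V₁) (hBV₂ : ∀ x ∈ B, x ∈ V₂)
    (hW : ∀ x : F, x ∈ V₁ → x ∈ V₂ → x ∈ W)
    (hsat : ∀ x ∈ B, (algebraMap R F π)⁻¹ * x ∈ W → (algebraMap R F π)⁻¹ * x ∈ B)
    (αB βB : B' →+* B)
    (hαB : ∀ x : B', ((αB x : B) : F) = α (x : F'))
    (hβB : ∀ x : B', ((βB x : B) : F) = β (x : F'))
    (hαint : αB.IsIntegral) (hβint : βB.IsIntegral)
    (sB wB : B ≃+* B) (hsB : ∀ x : B, ((sB x : B) : F) = s (x : F))
    (hwB : ∀ x : B, ((wB x : B) : F) = w (x : F))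
    (s'B : B' ≃+* B') (hs'B : ∀ x : B', ((s'B x : B') : F') = s' (x : F'))
    (hwα : ∀ a : F', w (α a) = β a) (hww : ∀ x : F, w (w x) = x)
    (hsα : ∀ a : F', s (α a) = α (s' a)) (hsw : ∀ x : F, s (w x) = w (s x))
    (hwπ : w (algebraMap R F π) = algebraMap R F π)
    (hV₂ : ∀ x : F, x ∈ V₂ ↔ w x ∈ V₁)
    (hsV : ∀ x ∈ B, ((algebraMap R F π)⁻¹ * x ∈ V₁ ↔ (algebraMap R F π)⁻¹ * s x ∈ V₁))
    (hsurj : ∀ x ∈ B, ∃ a ∈ B', (algebraMap R F π)⁻¹ * (x - α a) ∈ V₁)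
    (hfrob : ∀ a ∈ B', (algebraMap R F π)⁻¹ * (β (s' a) - (α a) ^ q) ∈ V₁)
    (hsH : ∀ O : ValuationSubring F, s34i47_IsHoriz π O →
      s34i47_IsHoriz π (O.comap (s : F →+* F)))
    (hwH : ∀ O : ValuationSubring F, s34i47_IsHoriz π O →
      s34i47_IsHoriz π (O.comap (w : F →+* F)))
    (hdvr : ∀ O : ValuationSubring F, O ≠ ⊤ → (∀ r : R, algebraMap R F r ∈ O) →
      (algebraMap R F π)⁻¹ ∈ O → IsPrincipalIdealRing O)
    (hdvr' : ∀ O : ValuationSubring F', O ≠ ⊤ → (∀ r : R, algebraMap R F' r ∈ O) →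
      (algebraMap R F' π)⁻¹ ∈ O → IsPrincipalIdealRing O)
    (hαtop : ∀ O : ValuationSubring F, O.comap α = ⊤ → O = ⊤)
    (hNα : ∀ O' : ValuationSubring F', IsPrincipalIdealRing O' → ∀ z : F,
      (∀ O'' : ValuationSubring F, O''.comap α = O' → z ∈ O'' ∧ z⁻¹ ∈ O'') →
        Nα z ∈ O' ∧ (Nα z)⁻¹ ∈ O')
    (hNβ : ∀ O' : ValuationSubring F', IsPrincipalIdealRing O' → ∀ z : F,
      (∀ O'' : ValuationSubring F, O''.comap β = O' → z ∈ O'' ∧ z⁻¹ ∈ O'') →
        Nβ z ∈ O' ∧ (Nβ z)⁻¹ ∈ O')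
    (n : Ideal B) [hn : n.IsPrime] (hπn : algebraMap R B π ∈ n) (y : F)
    (hy : ∀ n' ∈ ut21_Sig sB wB n, ∀ O : ValuationSubring F, s34i47_IsHoriz π O →
      s34i47_Through B n' O → y ∈ O ∧ y⁻¹ ∈ O)
    (O : ValuationSubring F) (hO : s34i47_IsHoriz π O) (hOn : s34i47_Through B n O) :
    s (s y) * (w (s y)) ^ (q + 1) * y ^ q / (α (Nβ (s y)) * β (Nα (s y))) ∈ O ∧
      (s (s y) * (w (s y)) ^ (q + 1) * y ^ q / (α (Nβ (s y)) * β (Nα (s y))))⁻¹ ∈ O := by
  obtain ⟨h1, h2, h3, h4⟩ := ut21_factors π hp0 q hq B B' V₁ V₂ W α β s w s' Nα Nβ hαR hβR hBV₁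
    hBV₂ hW hsat αB βB hαB hβB hαint hβint sB wB hsB hwB s'B hs'B hwα hww hsα hsw hwπ hV₂ hsV
    hsurj hfrob hsH hwH hdvr hdvr' hαtop hNα hNβ n hπn y hy O hO hOn
  exact ut21_unit_TH O q _ _ _ _ _ h1 h2 (hy n (Or.inl rfl) O hO hOn) h3 h4

/-- **The literal `htr` hypothesis of `ldo54_localDatum_of_transport`** for a multiplicative
operator `T` given by the `TH` formula, with `Sig = ut21_Sig sB wB`. -/
theorem ut21_htr (π : R) (hp0 : algebraMap R F π ≠ 0) (q : ℕ) (hq : q ≠ 0)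
    (B : Subalgebra R F) (B' : Subalgebra R F') (V₁ V₂ W : Subring F)
    (α β : F' →+* F) (s w : F ≃+* F) (s' : F' ≃+* F') (Nα Nβ : F → F')
    (hαR : ∀ r : R, α (algebraMap R F' r) = algebraMap R F r)
    (hβR : ∀ r : R, β (algebraMap R F' r) = algebraMap R F r)
    (hBV₁ : ∀ x ∈ B, x ∈ V₁) (hBV₂ : ∀ x ∈ B, x ∈ V₂)
    (hW : ∀ x : F, x ∈ V₁ → x ∈ V₂ → x ∈ W)
    (hsat : ∀ x ∈ B, (algebraMap R F π)⁻¹ * x ∈ W → (algebraMap R F π)⁻¹ * x ∈ B)
    (αB βB : B' →+* B)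
    (hαB : ∀ x : B', ((αB x : B) : F) = α (x : F'))
    (hβB : ∀ x : B', ((βB x : B) : F) = β (x : F'))
    (hαint : αB.IsIntegral) (hβint : βB.IsIntegral)
    (sB wB : B ≃+* B) (hsB : ∀ x : B, ((sB x : B) : F) = s (x : F))
    (hwB : ∀ x : B, ((wB x : B) : F) = w (x : F))
    (s'B : B' ≃+* B') (hs'B : ∀ x : B', ((s'B x : B') : F') = s' (x : F'))
    (hwα : ∀ a : F', w (α a) = β a) (hww : ∀ x : F, w (w x) = x)
    (hsα : ∀ a : F', s (α a) = α (s' a)) (hsw : ∀ x : F, s (w x) = w (s x))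
    (hwπ : w (algebraMap R F π) = algebraMap R F π)
    (hV₂ : ∀ x : F, x ∈ V₂ ↔ w x ∈ V₁)
    (hsV : ∀ x ∈ B, ((algebraMap R F π)⁻¹ * x ∈ V₁ ↔ (algebraMap R F π)⁻¹ * s x ∈ V₁))
    (hsurj : ∀ x ∈ B, ∃ a ∈ B', (algebraMap R F π)⁻¹ * (x - α a) ∈ V₁)
    (hfrob : ∀ a ∈ B', (algebraMap R F π)⁻¹ * (β (s' a) - (α a) ^ q) ∈ V₁)
    (hsH : ∀ O : ValuationSubring F, s34i47_IsHoriz π O →
      s34i47_IsHoriz π (O.comap (s : F →+* F)))
    (hwH : ∀ O : ValuationSubring F, s34i47_IsHoriz π O →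
      s34i47_IsHoriz π (O.comap (w : F →+* F)))
    (hdvr : ∀ O : ValuationSubring F, O ≠ ⊤ → (∀ r : R, algebraMap R F r ∈ O) →
      (algebraMap R F π)⁻¹ ∈ O → IsPrincipalIdealRing O)
    (hdvr' : ∀ O : ValuationSubring F', O ≠ ⊤ → (∀ r : R, algebraMap R F' r ∈ O) →
      (algebraMap R F' π)⁻¹ ∈ O → IsPrincipalIdealRing O)
    (hαtop : ∀ O : ValuationSubring F, O.comap α = ⊤ → O = ⊤)
    (hNα : ∀ O' : ValuationSubring F', IsPrincipalIdealRing O' → ∀ z : F,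
      (∀ O'' : ValuationSubring F, O''.comap α = O' → z ∈ O'' ∧ z⁻¹ ∈ O'') →
        Nα z ∈ O' ∧ (Nα z)⁻¹ ∈ O')
    (hNβ : ∀ O' : ValuationSubring F', IsPrincipalIdealRing O' → ∀ z : F,
      (∀ O'' : ValuationSubring F, O''.comap β = O' → z ∈ O'' ∧ z⁻¹ ∈ O'') →
        Nβ z ∈ O' ∧ (Nβ z)⁻¹ ∈ O')
    (T : F →*₀ F)
    (hT : ∀ x : F, T x = s (s x) * (w (s x)) ^ (q + 1) * x ^ q / (α (Nβ (s x)) * β (Nα (s x)))) :
    ∀ n : Ideal B, n.IsMaximal → algebraMap R B π ∈ n → ∀ y : F, y ≠ 0 →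
      (∀ n' ∈ ut21_Sig sB wB n, ∀ O : ValuationSubring F, s34i47_IsHoriz π O →
        s34i47_Through B n' O → y ∈ O ∧ y⁻¹ ∈ O) →
      ∀ O : ValuationSubring F, s34i47_IsHoriz π O → s34i47_Through B n O → T y ∈ O := by
  intro n hn hπn y _ hy O hO hOn
  haveI : n.IsPrime := hn.isPrime
  rw [hT]
  exact (ut21_transport π hp0 q hq B B' V₁ V₂ W α β s w s' Nα Nβ hαR hβR hBV₁
    hBV₂ hW hsat αB βB hαB hβB hαint hβint sB wB hsB hwB s'B hs'B hwα hww hsα hsw hwπ hV₂ hsV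
    hsurj hfrob hsH hwH hdvr hdvr' hαtop hNα hNβ n hπn y hy O hO hOn).1

end ut21_main

/-! ## 4. The norm hypotheses from `nu30_norm_unit_pid` -/

section ut21_normP

variable {F F' : Type*} [Field F] [Field F'] [Algebra F' F] [FiniteDimensional F' F]

/-- The norm hypothesis `hNα` of `ut21_factors` for `Nα = Algebra.norm F'`, `α = algebraMap`. -/
theorem ut21_normProp (O' : ValuationSubring F') (hO' : IsPrincipalIdealRing O') (z : F)
    (hz : ∀ O'' : ValuationSubring F, O''.comap (algebraMap F' F) = O' → z ∈ O'' ∧ z⁻¹ ∈ O'') :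
    Algebra.norm F' z ∈ O' ∧ (Algebra.norm F' z)⁻¹ ∈ O' :=
  nu30_norm_unit_pid O' z (fun O'' h => (hz O'' h).1) (fun O'' h => (hz O'' h).2)

/-- The norm hypothesis `hNβ` of `ut21_factors` for `Nβ = Nα ∘ w`, `β = w ∘ α`
(`w` an involution). -/
theorem ut21_normProp_w (w : F ≃+* F) (β : F' →+* F)
    (hwβ : ∀ a : F', w (β a) = algebraMap F' F a)
    (O' : ValuationSubring F') (hO' : IsPrincipalIdealRing O') (z : F)
    (hz : ∀ O'' : ValuationSubring F, O''.comap β = O' → z ∈ O'' ∧ z⁻¹ ∈ O'') :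
    Algebra.norm F' (w z) ∈ O' ∧ (Algebra.norm F' (w z))⁻¹ ∈ O' := by
  apply ut21_normProp O' hO' (w z)
  intro O₃ h
  have h1 : (O₃.comap (w : F →+* F)).comap β = O' := by
    rw [← h]
    ext x
    show w (β x) ∈ O₃ ↔ algebraMap F' F x ∈ O₃
    rw [hwβ]
  obtain ⟨k1, k2⟩ := hz _ h1
  refine ⟨k1, ?_⟩
  have k3 : w z⁻¹ ∈ O₃ := k2
  rwa [map_inv₀] at k3

/-- A valuation subring of `F` whose trace on `F'` is everything is everything (the hypothesis
`hαtop` of `ut21_factors`). -/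
theorem ut21_top (O : ValuationSubring F) (h : O.comap (algebraMap F' F) = ⊤) : O = ⊤ :=
  nu30_eq_top_of_comap_eq_top O h

end ut21_normP

end Fermat.Agent.S35

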