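import Mathlib
import Fermat.Agent.S34.Iface47
import Fermat.Agent.S34.PkgLD32
import Fermat.Agent.S35.ExtDVR90
import Fermat.Agent.S35.NormUnit30
import Fermat.Agent.S35.Fibres76

/-!
# S35 lab, chain B, row B3 (helper90): unit transport for the operator `TH` — abstract form

`TH y = ŝ² y · (w ŝ y)^(q+1) · y^q / (α (N_α (w ŝ y)) · β (N_α (ŝ y)))` (chain B, row 558).
If `y` is a unit of every horizontal valuation ring through the closed points
`n`, `ŝ⁻² n`, `ŝ⁻¹ w n` of a chart `B`, then every factor of `TH y`, hence `TH y`, is a unit of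
every horizontal valuation ring through `n`.

* `ut90_comap_pir` : the restriction of a principal valuation subring along a field
  homomorphism is principal;
* `ut90_over_isHoriz` : the valuation subrings of a finite extension `F / F'` lying over the
  restriction of a horizontal one are horizontal (with `ExtDVR90`);
* `ut90_through_comap` : `O` through `n` ⟹ `θ⁻¹ O` through `θ⁻¹ n`;
* `ut90_norm_unit` : **norm transport** — if `z` is a unit of every horizontal `O''` through
  every prime `n''` of `B` with the same trace on `α(B')` as `n`, then `α (N z)` is a unit of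
  every horizontal `O` through `n` (going-up for the integral extension `B / α(B')`,
  `nu30_norm_unit_pid`);
* `ut90_factors` : the four non-trivial factors of `TH y` in the setting of `Fibres76`;
* `ut90_TH_unit` : `TH y` and `(TH y)⁻¹` lie in `O`;
* `ut90_SigB`, `ut90_sigB_finite`, `ut90_sigB_max`, `ut90_sigB_node` : the family
  `Σ n = {n, ŝ⁻² n, ŝ⁻¹ w n}` is finite, consists of closed points of the special fibre, and
  reduces to `{n}` as soon as it contains a node.

All names are prefixed `ut90_`.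
-/

set_option autoImplicit false
set_option linter.style.haveILetI false

namespace Fermat.Agent.S35

open Fermat.Agent.S34

section ut90_val

variable {F' F : Type*} [Field F'] [Field F]

/-- For `x` in a valuation subring: `x` is a unit iff its inverse in the field lies in it. -/
theorem ut90_isUnit_iff (O : ValuationSubring F) (x : O) (hx : x ≠ 0) :
    IsUnit x ↔ (x : F)⁻¹ ∈ O := by
  have hxF : (x : F) ≠ 0 := fun h => hx (Subtype.ext h)
  constructor
  · intro h
    obtain ⟨c, hc⟩ := isUnit_iff_exists_inv.mp h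
    have h1 : (x : F) * (c : F) = 1 := congrArg Subtype.val hc
    have h2 : (x : F)⁻¹ = (c : F) := by
      rw [inv_eq_iff_eq_inv]
      exact eq_inv_of_mul_eq_one_left h1
    rw [h2]
    exact c.2
  · intro h
    refine isUnit_iff_exists_inv.mpr ⟨⟨(x : F)⁻¹, h⟩, ?_⟩
    apply Subtype.ext
    show (x : F) * (x : F)⁻¹ = 1
    exact mul_inv_cancel₀ hxF

/-- **The restriction of a principal valuation subring along a field homomorphism is
principal.** -/
theorem ut90_comap_pir (ψ : F' →+* F) (O : ValuationSubring F)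
    (hPIR : IsPrincipalIdealRing O) : IsPrincipalIdealRing (O.comap ψ) := by
  classical
  let g : ↥(O.comap ψ) → ↥O := fun x => ⟨ψ (x : F'), x.2⟩
  have hwfO : WellFounded (DvdNotUnit : ↥O → ↥O → Prop) := wellFounded_dvdNotUnit
  have hwf : WellFounded (DvdNotUnit : ↥(O.comap ψ) → ↥(O.comap ψ) → Prop) := by
    refine Subrelation.wf ?_ (InvImage.wf g hwfO)
    intro a b hab
    obtain ⟨ha0, x, hx, rfl⟩ := hab
    have haF : (a : F') ≠ 0 := fun h => ha0 (Subtype.ext h)
    refine ⟨?_, g x, ?_, ?_⟩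
    · intro h0
      have h1 : ψ (a : F') = 0 := congrArg Subtype.val h0
      exact haF ((map_eq_zero ψ).mp h1)
    · intro hu
      apply hx
      by_cases hx0 : x = 0
      · exfalso
        have h1 : g x = 0 := by
          apply Subtype.ext
          show ψ (x : F') = 0
          rw [hx0]
          exact map_zero ψ
        rw [h1] at hu
        exact not_isUnit_zero hu
      · have hgx0 : g x ≠ 0 := by
          intro h0
          have h1 : ψ (x : F') = 0 := congrArg Subtype.val h0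
          exact hx0 (Subtype.ext ((map_eq_zero ψ).mp h1))
        have h2 : (ψ (x : F'))⁻¹ ∈ O := (ut90_isUnit_iff O (g x) hgx0).mp hu
        refine (ut90_isUnit_iff (O.comap ψ) x hx0).mpr ?_
        show ψ ((x : F')⁻¹) ∈ O
        rw [map_inv₀]
        exact h2
    · apply Subtype.ext
      show ψ ((a : F') * (x : F')) = ψ (a : F') * ψ (x : F')
      exact map_mul ψ _ _
  have hW : WfDvdMonoid ↥(O.comap ψ) := ⟨hwf⟩
  exact ((IsBezout.TFAE (R := ↥(O.comap ψ))).out 3 1).mp hW

end ut90_val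

section ut90_norm

variable {R F' F : Type*} [CommRing R] [Field F'] [Field F] [Algebra R F'] [Algebra R F]
  [Algebra F' F] [IsScalarTower R F' F]

/-- **The valuation subrings of a finite extension lying over the restriction of a horizontal
valuation ring are horizontal.** -/
theorem ut90_over_isHoriz [FiniteDimensional F' F] (π : R) (O : ValuationSubring F)
    (hO : s34i47_IsHoriz π O) (O'' : ValuationSubring F)
    (h : O''.comap (algebraMap F' F) = O.comap (algebraMap F' F)) : s34i47_IsHoriz π O'' := by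
  obtain ⟨hOtop, hOpir, hOR, hOπ⟩ := hO
  have hPIR' : IsPrincipalIdealRing (O.comap (algebraMap F' F)) :=
    ut90_comap_pir (algebraMap F' F) O hOpir
  have hne' : O.comap (algebraMap F' F) ≠ ⊤ := fun htop =>
    hOtop (nu30_eq_top_of_comap_eq_top O htop)
  have hO'' : ∀ c : F', algebraMap F' F c ∈ O'' ↔ c ∈ O.comap (algebraMap F' F) := by
    intro c
    rw [← h]
    exact Iff.rfl
  refine ⟨ed90_ne_top _ hne' O'' hO'', ed90_isPrincipalIdealRing _ hPIR' hne' O'' hO'', ?_, ?_⟩
  · intro r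
    rw [IsScalarTower.algebraMap_apply R F' F]
    refine (hO'' _).mpr ?_
    show algebraMap F' F (algebraMap R F' r) ∈ O
    rw [← IsScalarTower.algebraMap_apply R F' F]
    exact hOR r
  · rw [IsScalarTower.algebraMap_apply R F' F, ← map_inv₀]
    refine (hO'' _).mpr ?_
    show algebraMap F' F ((algebraMap R F' π)⁻¹) ∈ O
    rw [map_inv₀, ← IsScalarTower.algebraMap_apply R F' F]
    exact hOπ

omit [Algebra R F'] [Algebra F' F] [IsScalarTower R F' F] in
/-- `O` through `n` ⟹ `θ⁻¹ O` through `θ⁻¹ n`, for an automorphism `θ` of `F` restricting to an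
endomorphism `θB` of the chart `B`. -/
theorem ut90_through_comap (B : Subalgebra R F) (θB : B ≃+* B) (θ : F ≃+* F)
    (hc : ∀ b : B, ((θB b : B) : F) = θ (b : F)) (n : Ideal B) (O : ValuationSubring F)
    (hOn : s34i47_Through B n O) :
    s34i47_Through B (n.comap θB) (O.comap (θ : F →+* F)) := by
  obtain ⟨hB, hcen⟩ := hOn
  refine ⟨?_, ?_⟩
  · intro x hx
    show θ x ∈ O
    have h1 := hc ⟨x, hx⟩
    rw [show ((⟨x, hx⟩ : B) : F) = x from rfl] at h1
    rw [← h1]
    exact hB _ (θB ⟨x, hx⟩).2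
  · intro x hx
    show θ ((x : F)⁻¹) ∈ O
    have h1 : θB x ∉ n := fun h => hx (Ideal.mem_comap.mpr h)
    have h2 := hcen (θB x) h1
    rw [hc x] at h2
    rw [map_inv₀]
    exact h2

/-- **Norm transport.**  `B / α(B')` an integral extension of charts (`f : B' →+* B` the
restriction of `α = algebraMap F' F`), `n` a prime of `B`, `O` horizontal through `n`.  If `z` is
a unit of every horizontal `O''` through every prime `n''` of `B` with `α⁻¹ n'' = α⁻¹ n`, then
`α (N z)` is a unit of `O`. -/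
theorem ut90_norm_unit [FiniteDimensional F' F] (π : R) (B' : Subalgebra R F')
    (B : Subalgebra R F) (f : B' →+* B)
    (hf : ∀ x : B', ((f x : B) : F) = algebraMap F' F (x : F')) (hfint : f.IsIntegral)
    (n : Ideal B) (hn : n.IsPrime) (O : ValuationSubring F) (hO : s34i47_IsHoriz π O)
    (hOn : s34i47_Through B n O) (z : F)
    (hz : ∀ n'' : Ideal B, n''.IsPrime → n''.comap f = n.comap f →
      ∀ O'' : ValuationSubring F, s34i47_IsHoriz π O'' → s34i47_Through B n'' O'' →
        z ∈ O'' ∧ z⁻¹ ∈ O'') :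
    algebraMap F' F (Algebra.norm F' z) ∈ O ∧ (algebraMap F' F (Algebra.norm F' z))⁻¹ ∈ O := by
  classical
  haveI hPIR' : IsPrincipalIdealRing (O.comap (algebraMap F' F)) :=
    ut90_comap_pir (algebraMap F' F) O hO.2.1
  have key : ∀ O'' : ValuationSubring F,
      O''.comap (algebraMap F' F) = O.comap (algebraMap F' F) → z ∈ O'' ∧ z⁻¹ ∈ O'' := by
    intro O'' hO''
    have hH'' : s34i47_IsHoriz π O'' := ut90_over_isHoriz π O hO O'' hO''
    have hmem : ∀ c : F', algebraMap F' F c ∈ O'' ↔ algebraMap F' F c ∈ O := by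
      intro c
      have h1 : c ∈ O''.comap (algebraMap F' F) ↔ c ∈ O.comap (algebraMap F' F) := by
        rw [hO'']
      exact h1
    -- `α(B') ⊆ O''`
    have hB'O'' : ∀ x : B', algebraMap F' F (x : F') ∈ O'' := by
      intro x
      rw [hmem, ← hf x]
      exact hOn.1 _ (f x).2
    -- `B ⊆ O''` by integrality
    let g : ↥B' →+* ↥O'' :=
      { toFun := fun x => ⟨algebraMap F' F (x : F'), hB'O'' x⟩
        map_one' := Subtype.ext (map_one _)
        map_mul' := fun a b => Subtype.ext (map_mul (algebraMap F' F) (a : F') (b : F'))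
        map_zero' := Subtype.ext (map_zero _)
        map_add' := fun a b => Subtype.ext (map_add (algebraMap F' F) (a : F') (b : F')) }
    have hBO'' : ∀ x ∈ B, x ∈ O'' := by
      intro x hx
      letI : Algebra ↥B' ↥B := f.toAlgebra
      have h1 : IsIntegral ↥B' (⟨x, hx⟩ : ↥B) := hfint ⟨x, hx⟩
      have h2 : IsIntegral ↥O'' (B.val.toRingHom (⟨x, hx⟩ : ↥B)) :=
        IsIntegral.map_of_comp_eq g B.val.toRingHom
          (RingHom.ext fun a => (hf a).symm) h1
      obtain ⟨y, hy⟩ := IsIntegrallyClosed.algebraMap_eq_of_integral h2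
      have h3 : (y : F) = x := hy
      rw [← h3]
      exact y.2
    -- the centre of `O''` on `B`
    let gB : ↥B →+* ↥O'' :=
      { toFun := fun x => ⟨(x : F), hBO'' _ x.2⟩
        map_one' := rfl
        map_mul' := fun _ _ => rfl
        map_zero' := rfl
        map_add' := fun _ _ => rfl }
    set m'' : Ideal ↥B := (IsLocalRing.maximalIdeal ↥O'').comap gB with hm''
    have hunit : ∀ x : ↥B, x ∉ m'' → (x : F)⁻¹ ∈ O'' := by
      intro x hx
      have h1 : gB x ∉ IsLocalRing.maximalIdeal ↥O'' := fun h => hx (Ideal.mem_comap.mpr h)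
      have h2 : IsUnit (gB x) := IsLocalRing.notMem_maximalIdeal.mp h1
      have h3 : gB x ≠ 0 := h2.ne_zero
      exact (ut90_isUnit_iff O'' (gB x) h3).mp h2
    letI : Algebra ↥B' ↥B := f.toAlgebra
    haveI : Algebra.IsIntegral ↥B' ↥B := ⟨hfint⟩
    haveI : (n.comap f).IsPrime := Ideal.comap_isPrime f n
    have hle : m''.comap (algebraMap ↥B' ↥B) ≤ n.comap f := by
      intro x hx
      rw [Ideal.mem_comap]
      by_contra hxn
      have h1 : ((f x : ↥B) : F)⁻¹ ∈ O := hOn.2 (f x) hxn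
      rw [hf x, ← map_inv₀, ← hmem, map_inv₀, ← hf x] at h1
      have h2 : gB (f x) ∈ IsLocalRing.maximalIdeal ↥O'' := hx
      have h3 : ¬ IsUnit (gB (f x)) := (IsLocalRing.mem_maximalIdeal _).mp h2
      apply h3
      have h0 : gB (f x) ≠ 0 := by
        intro h0
        have h4 : ((f x : ↥B) : F) = 0 := congrArg Subtype.val h0
        rw [h4, inv_zero] at h1
        have h5 : (f x : ↥B) = 0 := Subtype.ext h4
        exact hxn (by rw [h5]; exact n.zero_mem)
      exact (ut90_isUnit_iff O'' (gB (f x)) h0).mpr h1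
    obtain ⟨Q, hQle, hQprime, hQcomap⟩ :=
      Ideal.exists_ideal_over_prime_of_isIntegral (n.comap f) m'' hle
    refine hz Q hQprime hQcomap O'' hH'' ⟨hBO'', fun x hx => hunit x (fun h => hx (hQle h))⟩
  have h1 := nu30_norm_unit_pid (O.comap (algebraMap F' F)) z (fun O'' h => (key O'' h).1)
    (fun O'' h => (key O'' h).2)
  refine ⟨h1.1, ?_⟩
  rw [← map_inv₀]
  exact h1.2

end ut90_norm

/-! ### The family `Σ n = {n, ŝ⁻² n, ŝ⁻¹ w n}` -/

section ut90_sig

variable {B' B : Type*} [CommRing B'] [CommRing B]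

/-- The family `Σ n = {n, ŝ⁻² n, ŝ⁻¹ w n}` of chain B. -/
def ut90_SigB (sB wB : B ≃+* B) (n : Ideal B) : Set (Ideal B) :=
  {n' | n' = n ∨ n' = (n.comap sB).comap sB ∨ n' = (n.comap wB).comap sB}

theorem ut90_sigB_finite (sB wB : B ≃+* B) (n : Ideal B) : (ut90_SigB sB wB n).Finite := by
  refine Set.Finite.subset
    (Set.toFinite ({n, (n.comap sB).comap sB, (n.comap wB).comap sB} : Set (Ideal B))) ?_
  intro x hx
  rcases hx with h | h | h
  · rw [h]; exact Set.mem_insert _ _
  · rw [h]; exact Set.mem_insert_of_mem _ (Set.mem_insert _ _)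
  · rw [h]; exact Set.mem_insert_of_mem _ (Set.mem_insert_of_mem _ rfl)

variable {α β : B' →+* B} {s w : B ≃+* B} {s' : B' ≃+* B'} {P₁ P₂ : Ideal B} {q : ℕ}
  (H : fb76_Hyp α β s w s' P₁ P₂ q)
include H

/-- `b ∈ P₂ ↔ s b ∈ P₂`. -/
theorem ut90_mem_P₂_iff (b : B) : b ∈ P₂ ↔ s b ∈ P₂ := by
  rw [H.hwP b, H.hwP (s b), ← H.hsw, ← H.hsP]

/-- `b ∈ P₂ ↔ s⁻¹ b ∈ P₂`. -/
theorem ut90_mem_P₂_iff_symm (b : B) : b ∈ P₂ ↔ s.symm b ∈ P₂ := by
  rw [ut90_mem_P₂_iff H (s.symm b), RingEquiv.apply_symm_apply]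

/-- The points of `Σ n` lie on the special fibre as soon as `n` does. -/
theorem ut90_sigB_branch (n : Ideal B) (hn : P₁ ≤ n ∨ P₂ ≤ n) (n' : Ideal B)
    (hn' : n' ∈ ut90_SigB s w n) : P₁ ≤ n' ∨ P₂ ≤ n' := by
  have hs : ∀ m : Ideal B, (P₁ ≤ m ∨ P₂ ≤ m) → (P₁ ≤ m.comap s ∨ P₂ ≤ m.comap s) := by
    intro m hm
    rcases hm with h | h
    · exact Or.inl (H.P₁_le_comap_s h)
    · exact Or.inr fun b hb => Ideal.mem_comap.mpr (h ((ut90_mem_P₂_iff H b).mp hb))
  have hw : ∀ m : Ideal B, (P₁ ≤ m ∨ P₂ ≤ m) → (P₁ ≤ m.comap w ∨ P₂ ≤ m.comap w) := by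
    intro m hm
    rcases hm with h | h
    · exact Or.inr (H.P₂_le_comap_w h)
    · exact Or.inl (H.P₁_le_comap_w h)
  rcases hn' with h | h | h
  · rw [h]; exact hn
  · rw [h]; exact hs _ (hs _ hn)
  · rw [h]; exact hs _ (hw _ hn)

/-- The points of `Σ n` are closed points of the special fibre. -/
theorem ut90_sigB_max (p : B) (hp₁ : p ∈ P₁) (hp₂ : p ∈ P₂) (n : Ideal B) (hn : n.IsMaximal)
    (hnP : P₁ ≤ n ∨ P₂ ≤ n) (n' : Ideal B) (hn' : n' ∈ ut90_SigB s w n) :
    n'.IsMaximal ∧ p ∈ n' := by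
  refine ⟨?_, ?_⟩
  · rcases hn' with h | h | h
    · rw [h]; exact hn
    · rw [h]
      haveI : (n.comap s).IsMaximal := Ideal.comap_isMaximal_of_surjective s s.surjective
      exact Ideal.comap_isMaximal_of_surjective s s.surjective
    · rw [h]
      haveI : (n.comap w).IsMaximal := Ideal.comap_isMaximal_of_surjective w w.surjective
      exact Ideal.comap_isMaximal_of_surjective s s.surjective
  · rcases ut90_sigB_branch H n hnP n' hn' with h | h
    · exact h hp₁
    · exact h hp₂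

/-- **A node in `Σ n` is its only point.** -/
theorem ut90_sigB_node (n : Ideal B) (hn : n.IsPrime) (n' : Ideal B)
    (hn' : n' ∈ ut90_SigB s w n) (h₁ : P₁ ≤ n') (h₂ : P₂ ≤ n') (n'' : Ideal B)
    (hn'' : n'' ∈ ut90_SigB s w n) : n'' = n' := by
  -- `n` itself is a node
  have hnode : P₁ ≤ n ∧ P₂ ≤ n := by
    rcases hn' with h | h | h
    · rw [h] at h₁ h₂; exact ⟨h₁, h₂⟩
    · rw [h] at h₁ h₂
      refine ⟨fun c hc => ?_, fun c hc => ?_⟩
      · have hb : s.symm (s.symm c) ∈ P₁ :=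
          (H.mem_P₁_iff_symm _).mp ((H.mem_P₁_iff_symm c).mp hc)
        have h3 := h₁ hb
        rw [Ideal.mem_comap, Ideal.mem_comap, RingEquiv.apply_symm_apply,
          RingEquiv.apply_symm_apply] at h3
        exact h3
      · have hb : s.symm (s.symm c) ∈ P₂ :=
          (ut90_mem_P₂_iff_symm H _).mp ((ut90_mem_P₂_iff_symm H c).mp hc)
        have h3 := h₂ hb
        rw [Ideal.mem_comap, Ideal.mem_comap, RingEquiv.apply_symm_apply,
          RingEquiv.apply_symm_apply] at h3
        exact h3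
    · rw [h] at h₁ h₂
      refine ⟨fun c hc => ?_, fun c hc => ?_⟩
      · have hb : s.symm (w c) ∈ P₂ :=
          (ut90_mem_P₂_iff_symm H _).mp ((H.mem_P₁_iff c).mp hc)
        have h3 := h₂ hb
        rw [Ideal.mem_comap, Ideal.mem_comap, RingEquiv.apply_symm_apply, H.hww] at h3
        exact h3
      · have hb : s.symm (w c) ∈ P₁ := (H.mem_P₁_iff_symm _).mp ((H.hwP c).mp hc)
        have h3 := h₁ hb
        rw [Ideal.mem_comap, Ideal.mem_comap, RingEquiv.apply_symm_apply, H.hww] at h3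
        exact h3
  haveI := hn
  obtain ⟨e1, e2⟩ := fb76_node' H n hnode.1 hnode.2
  have hall : ∀ m ∈ ut90_SigB s w n, m = n := by
    intro m hm
    rcases hm with h | h | h
    · exact h
    · rw [h, e2]
    · rw [h, ← e1, e2]
  rw [hall n'' hn'', hall n' hn']

end ut90_sig

/-! ### The factors of `TH y` -/

section ut90_fib

variable {R F' F : Type*} [CommRing R] [IsDomain R] [IsDiscreteValuationRing R] [Field F']
  [Field F] [Algebra R F'] [Algebra R F] [Algebra F' F] [IsScalarTower R F' F]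
  [FiniteDimensional F' F]

/-- **Unit transport, factor by factor.**  Setting of `Fibres76` on the charts `B'`, `B`
(`αB`, `βB`, `sB`, `wB`, `s'B` the restrictions of `α = algebraMap F' F`, `β = w ∘ α`, `ŝ`, `w`,
`ŝ'`), `n` a prime of `B` on the special fibre.  If `y` is a unit of every horizontal valuation
ring through the points of `Σ n = {n, ŝ⁻² n, ŝ⁻¹ w n}`, then `ŝ² y`, `w ŝ y`, `α (N (w ŝ y))` and
`β (N (ŝ y)) = w (α (N (ŝ y)))` are units of every horizontal `O` through `n`. -/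
theorem ut90_factors (π : R) (hπ : Irreducible π) (B' : Subalgebra R F') (B : Subalgebra R F)
    (αB βB : B' →+* B) (sB wB : B ≃+* B) (s'B : B' ≃+* B') (P₁ P₂ : Ideal B) (q : ℕ)
    (H : fb76_Hyp αB βB sB wB s'B P₁ P₂ q) (s w : F ≃+* F)
    (hαc : ∀ x : B', ((αB x : B) : F) = algebraMap F' F (x : F'))
    (hsc : ∀ b : B, ((sB b : B) : F) = s (b : F))
    (hwc : ∀ b : B, ((wB b : B) : F) = w (b : F))
    (hαint : αB.IsIntegral)
    (hsR : ∀ r : R, ∃ r' : R, s (algebraMap R F r) = algebraMap R F r')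
    (hwR : ∀ r : R, w (algebraMap R F r) = algebraMap R F r)
    (hP : ∀ m : Ideal B, m.IsPrime → algebraMap R B π ∈ m → P₁ ≤ m ∨ P₂ ≤ m)
    (n : Ideal B) (hn : n.IsPrime) (hπn : algebraMap R B π ∈ n) (y : F)
    (hy : ∀ n' ∈ ut90_SigB sB wB n, ∀ O : ValuationSubring F, s34i47_IsHoriz π O →
      s34i47_Through B n' O → y ∈ O ∧ y⁻¹ ∈ O)
    (O : ValuationSubring F) (hO : s34i47_IsHoriz π O) (hOn : s34i47_Through B n O) :
    (s (s y) ∈ O ∧ (s (s y))⁻¹ ∈ O) ∧ (w (s y) ∈ O ∧ (w (s y))⁻¹ ∈ O) ∧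
    (algebraMap F' F (Algebra.norm F' (w (s y))) ∈ O ∧
      (algebraMap F' F (Algebra.norm F' (w (s y))))⁻¹ ∈ O) ∧
    (w (algebraMap F' F (Algebra.norm F' (s y))) ∈ O ∧
      (w (algebraMap F' F (Algebra.norm F' (s y))))⁻¹ ∈ O) := by
  have hwR' : ∀ r : R, ∃ r' : R, w (algebraMap R F r) = algebraMap R F r' :=
    fun r => ⟨r, hwR r⟩
  -- horizontality and centres of the pull-backs
  have hHs : ∀ O₁ : ValuationSubring F, s34i47_IsHoriz π O₁ →
      s34i47_IsHoriz π (O₁.comap (s : F →+* F)) :=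
    fun O₁ h => pld32_comap_isHoriz π hπ s hsR O₁ h
  have hHw : ∀ O₁ : ValuationSubring F, s34i47_IsHoriz π O₁ →
      s34i47_IsHoriz π (O₁.comap (w : F →+* F)) :=
    fun O₁ h => pld32_comap_isHoriz π hπ w hwR' O₁ h
  have hTs : ∀ (m : Ideal B) (O₁ : ValuationSubring F), s34i47_Through B m O₁ →
      s34i47_Through B (m.comap sB) (O₁.comap (s : F →+* F)) :=
    fun m O₁ h => ut90_through_comap B sB s hsc m O₁ h
  have hTw : ∀ (m : Ideal B) (O₁ : ValuationSubring F), s34i47_Through B m O₁ →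
      s34i47_Through B (m.comap wB) (O₁.comap (w : F →+* F)) :=
    fun m O₁ h => ut90_through_comap B wB w hwc m O₁ h
  -- `π` in the charts
  have hαπ : αB (algebraMap R ↥B' π) = algebraMap R ↥B π := by
    apply Subtype.ext
    rw [hαc]
    exact (IsScalarTower.algebraMap_apply R F' F π).symm
  have hwπ : wB (algebraMap R ↥B π) = algebraMap R ↥B π := by
    apply Subtype.ext
    rw [hwc]
    exact hwR π
  have hβπ : βB (algebraMap R ↥B' π) = algebraMap R ↥B π := by
    rw [← H.hwα, hαπ, hwπ]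
  have hPn : P₁ ≤ n ∨ P₂ ≤ n := hP n hn hπn
  refine ⟨?_, ?_, ?_, ?_⟩
  · -- `ŝ² y`
    have h1 := hy ((n.comap sB).comap sB) (Or.inr (Or.inl rfl))
      ((O.comap (s : F →+* F)).comap (s : F →+* F)) (hHs _ (hHs _ hO)) (hTs _ _ (hTs _ _ hOn))
    refine ⟨h1.1, ?_⟩
    have h2 : s (s y⁻¹) ∈ O := h1.2
    rwa [map_inv₀, map_inv₀] at h2
  · -- `w ŝ y`
    have h1 := hy ((n.comap wB).comap sB) (Or.inr (Or.inr rfl))
      ((O.comap (w : F →+* F)).comap (s : F →+* F)) (hHs _ (hHw _ hO)) (hTs _ _ (hTw _ _ hOn))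
    refine ⟨h1.1, ?_⟩
    have h2 : w (s y⁻¹) ∈ O := h1.2
    rwa [map_inv₀, map_inv₀] at h2
  · -- `α (N (w ŝ y))`
    refine ut90_norm_unit π B' B αB hαc hαint n hn O hO hOn (w (s y)) ?_
    intro n'' hn'' hcomap O'' hO'' hOn''
    haveI := hn
    haveI := hn''
    haveI : (n''.comap wB).IsPrime := Ideal.comap_isPrime wB n''
    have hf : (n''.comap wB).comap βB = n.comap αB := by
      rw [← hcomap]
      ext x
      rw [Ideal.mem_comap, Ideal.mem_comap, Ideal.mem_comap, H.hwβ]
    have hπn'' : algebraMap R ↥B π ∈ n'' := by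
      have h1 : algebraMap R ↥B' π ∈ n''.comap αB := by
        rw [hcomap, Ideal.mem_comap, hαπ]
        exact hπn
      rw [Ideal.mem_comap, hαπ] at h1
      exact h1
    have hπn3 : algebraMap R ↥B π ∈ n''.comap wB := by
      rw [Ideal.mem_comap, hwπ]
      exact hπn''
    have hfib := fb76_fibre H n (n''.comap wB) (Or.inl hf)
      (hP _ inferInstance hπn3) hPn
    have h1 := hy ((n''.comap wB).comap sB) hfib
      ((O''.comap (w : F →+* F)).comap (s : F →+* F)) (hHs _ (hHw _ hO''))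
      (hTs _ _ (hTw _ _ hOn''))
    refine ⟨h1.1, ?_⟩
    have h2 : w (s y⁻¹) ∈ O'' := h1.2
    rwa [map_inv₀, map_inv₀] at h2
  · -- `β (N (ŝ y)) = w (α (N (ŝ y)))`
    haveI := hn
    haveI : (n.comap wB).IsPrime := Ideal.comap_isPrime wB n
    have key := ut90_norm_unit π B' B αB hαc hαint (n.comap wB) inferInstance
      (O.comap (w : F →+* F)) (hHw _ hO) (hTw _ _ hOn) (s y) ?_
    · refine ⟨key.1, ?_⟩
      have h2 : w ((algebraMap F' F (Algebra.norm F' (s y)))⁻¹) ∈ O := key.2
      rwa [map_inv₀] at h2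
    · intro n'' hn'' hcomap O'' hO'' hOn''
      haveI := hn''
      have hf : n''.comap αB = n.comap βB := by
        rw [hcomap]
        ext x
        rw [Ideal.mem_comap, Ideal.mem_comap, Ideal.mem_comap, H.hwα]
      have hπn'' : algebraMap R ↥B π ∈ n'' := by
        have h1 : algebraMap R ↥B' π ∈ n''.comap αB := by
          rw [hf, Ideal.mem_comap, hβπ]
          exact hπn
        rw [Ideal.mem_comap, hαπ] at h1
        exact h1
      have hfib := fb76_fibre H n n'' (Or.inr hf) (hP _ hn'' hπn'') hPn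
      have h1 := hy (n''.comap sB) hfib (O''.comap (s : F →+* F)) (hHs _ hO'') (hTs _ _ hOn'')
      refine ⟨h1.1, ?_⟩
      have h2 : s y⁻¹ ∈ O'' := h1.2
      rwa [map_inv₀] at h2

/-- **Unit transport for `TH`** (abstract form): under the hypotheses of `ut90_factors`,
`TH y = ŝ² y · (w ŝ y)^(q+1) · y^q / (α (N (w ŝ y)) · w (α (N (ŝ y))))` and its inverse lie in
every horizontal `O` through `n`. -/
theorem ut90_TH_unit (π : R) (hπ : Irreducible π) (B' : Subalgebra R F') (B : Subalgebra R F)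
    (αB βB : B' →+* B) (sB wB : B ≃+* B) (s'B : B' ≃+* B') (P₁ P₂ : Ideal B) (q : ℕ)
    (H : fb76_Hyp αB βB sB wB s'B P₁ P₂ q) (s w : F ≃+* F)
    (hαc : ∀ x : B', ((αB x : B) : F) = algebraMap F' F (x : F'))
    (hsc : ∀ b : B, ((sB b : B) : F) = s (b : F))
    (hwc : ∀ b : B, ((wB b : B) : F) = w (b : F))
    (hαint : αB.IsIntegral)
    (hsR : ∀ r : R, ∃ r' : R, s (algebraMap R F r) = algebraMap R F r')
    (hwR : ∀ r : R, w (algebraMap R F r) = algebraMap R F r)
    (hP : ∀ m : Ideal B, m.IsPrime → algebraMap R B π ∈ m → P₁ ≤ m ∨ P₂ ≤ m)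
    (n : Ideal B) (hn : n.IsPrime) (hπn : algebraMap R B π ∈ n) (y : F)
    (hy : ∀ n' ∈ ut90_SigB sB wB n, ∀ O : ValuationSubring F, s34i47_IsHoriz π O →
      s34i47_Through B n' O → y ∈ O ∧ y⁻¹ ∈ O)
    (O : ValuationSubring F) (hO : s34i47_IsHoriz π O) (hOn : s34i47_Through B n O) (k l : ℕ) :
    s (s y) * w (s y) ^ k * y ^ l /
        (algebraMap F' F (Algebra.norm F' (w (s y))) *
          w (algebraMap F' F (Algebra.norm F' (s y)))) ∈ O ∧
    (s (s y) * w (s y) ^ k * y ^ l /
        (algebraMap F' F (Algebra.norm F' (w (s y))) *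
          w (algebraMap F' F (Algebra.norm F' (s y)))))⁻¹ ∈ O := by
  obtain ⟨⟨a1, a2⟩, ⟨b1, b2⟩, ⟨c1, c2⟩, ⟨d1, d2⟩⟩ :=
    ut90_factors π hπ B' B αB βB sB wB s'B P₁ P₂ q H s w hαc hsc hwc hαint hsR hwR hP n hn hπn
      y hy O hO hOn
  obtain ⟨y1, y2⟩ := hy n (Or.inl rfl) O hO hOn
  refine ⟨?_, ?_⟩
  · rw [div_eq_mul_inv, mul_inv]
    exact O.mul_mem _ _ (O.mul_mem _ _ (O.mul_mem _ _ a1 (O.pow_mem b1 k)) (O.pow_mem y1 l))
      (O.mul_mem _ _ c2 d2)
  · rw [inv_div, div_eq_mul_inv, mul_inv, mul_inv, ← inv_pow, ← inv_pow]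
    exact O.mul_mem _ _ (O.mul_mem _ _ c1 d1)
      (O.mul_mem _ _ (O.mul_mem _ _ a2 (O.pow_mem b2 k)) (O.pow_mem y2 l))

end ut90_fib

end Fermat.Agent.S35
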