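import Mathlib
import Fermat.Agent.S35.UnitTransport21
import Fermat.Agent.S35.NodeFrob96
import Fermat.Agent.S34.BetaChart95
import Fermat.Agent.S34.FrameSat85
import Fermat.Agent.S34.PlaceDatumInst69
import Fermat.Agent.S34.PkgLD32
import Fermat.Agent.S34.UniqueZero37

/-!
# S35 lab, chain B, registry row 563 (B3-UnitTransport), twin file (helper21): canonical frame

Binding of the abstract core `UnitTransport21` to the canonical frame of the S34 lab at level
`M' * q` (`q` prime, `q ∤ M'`, `K` a number field, `R ⊆ K` a discrete valuation ring over `q`,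
`σ` a Frobenius lift `ff50_Frob R q σ`, `ŝ = s34i47_coeffEquiv σ _`, `w = bz13_w = al97L_w`,
`α = al97L_alpha`, `β = al97L_beta`, `V_∞ = cm85_Vinf`, `V_0 = s34i47c_V0`, `W = s34i47c_W`).

* `ut21i_Transport π B s w T` : there are automorphisms `sB`, `wB` of the chart `B` restricting
  `s`, `w`, such that the LITERAL `htr` hypothesis of `ldo54_localDatum_of_transport` holds for
  `T` with `Sig = ut21_Sig sB wB` (`Σ(n) = {n, s⁻¹ s⁻¹ n, s⁻¹ w n}`).
* `ut21i_chart` : one chart `B = pk15_chart R s` over the chart `B' = pk15_chart R s'` (the binder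
  block of `nf96_global_chart` + the integral chart maps of `bc95_*` + saturation).
* `ut21i_htr` : both affine charts of every admissible Hauptmodul, for any operator
  `T x = ŝ² x · (w ŝ x)^(q+1) · x^q / (α (N (w ŝ x)) · β (N (ŝ x)))` with `N` a map with the unit
  property of the norm along `α` (`hNα`, row 561).
* `ut21i_htr_norm` : the same for `N = Algebra.norm` with respect to ANY algebra structure
  `F(M')_K → F(M' q)_K` whose `algebraMap` is `α` (finite-dimensional), e.g. `ni22_algebra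
  (bi46_le K M' q)` or `algebraAlong (al97L_alpha K M' q)`.

All names are prefixed `ut21i_`.
-/

set_option autoImplicit false
set_option linter.unusedSectionVars false
set_option linter.style.haveILetI false

open ModularCurve

namespace Fermat.Agent.S35

open Fermat.Agent.S18 Fermat.Agent.S24 Fermat.Agent.S34

local notation "Q̄" => AlgebraicClosure ℚ

section ut21i_abs

/-- A property stable under an automorphism of finite order is stable under its inverse. -/
theorem ut21i_symm_of_pow {F : Type*} [Field F] (σ : F ≃+* F) (k : ℕ) (hk0 : 0 < k)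
    (hk : σ ^ k = 1) (P : F → Prop) (hP : ∀ x, P x → P (σ x)) (x : F) (hx : P x) :
    P (σ.symm x) := by
  have hpow : ∀ j : ℕ, ∀ x, P x → P ((σ ^ j) x) := by
    intro j
    induction j with
    | zero => intro x hx; simpa using hx
    | succ j ih =>
      intro x hx
      rw [pow_succ]
      exact ih _ (hP x hx)
  obtain ⟨j, rfl⟩ : ∃ j, k = j + 1 := ⟨k - 1, by omega⟩
  have h1 : (σ ^ j) x = σ.symm x := by
    have h2 : (σ ^ j * σ) (σ.symm x) = σ.symm x := by
      rw [← pow_succ, hk]; rfl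
    rw [RingAut.mul_apply, RingEquiv.apply_symm_apply] at h2
    exact h2
  rw [← h1]
  exact hpow j x hx

/-- The unit property of the norm along `β = w ∘ α` for `N ∘ w`, from the one along `α`. -/
theorem ut21i_normβ {F F' : Type*} [Field F] [Field F'] (α β : F' →+* F) (w : F ≃+* F)
    (hwβ : ∀ a, w (β a) = α a) (N : F → F')
    (hNα : ∀ O' : ValuationSubring F', IsPrincipalIdealRing O' → ∀ z : F,
      (∀ O'' : ValuationSubring F, O''.comap α = O' → z ∈ O'' ∧ z⁻¹ ∈ O'') →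
        N z ∈ O' ∧ (N z)⁻¹ ∈ O') :
    ∀ O' : ValuationSubring F', IsPrincipalIdealRing O' → ∀ z : F,
      (∀ O'' : ValuationSubring F, O''.comap β = O' → z ∈ O'' ∧ z⁻¹ ∈ O'') →
        N (w z) ∈ O' ∧ (N (w z))⁻¹ ∈ O' := by
  intro O' hO' z hz
  apply hNα O' hO' (w z)
  intro O₃ h
  have h1 : (O₃.comap (w : F →+* F)).comap β = O' := by
    rw [← h]
    ext x
    show w (β x) ∈ O₃ ↔ α x ∈ O₃
    rw [hwβ]
  obtain ⟨k1, k2⟩ := hz _ h1
  refine ⟨k1, ?_⟩
  have k3 : w z⁻¹ ∈ O₃ := k2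
  rwa [map_inv₀] at k3

/-- **The unit-transport conclusion on a chart `B`**: automorphisms `sB`, `wB` of `B` restricting
`s`, `w`, and the literal `htr` hypothesis of `ldo54_localDatum_of_transport` for `T` with
`Sig = ut21_Sig sB wB`. -/
def ut21i_Transport {R F : Type*} [CommRing R] [Field F] [Algebra R F] (π : R)
    (B : Subalgebra R F) (s w : F ≃+* F) (T : F →*₀ F) : Prop :=
  ∃ sB wB : ↥B ≃+* ↥B, (∀ x : B, ((sB x : B) : F) = s (x : F)) ∧
    (∀ x : B, ((wB x : B) : F) = w (x : F)) ∧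
    ∀ n : Ideal B, n.IsMaximal → algebraMap R B π ∈ n → ∀ y : F, y ≠ 0 →
      (∀ n' ∈ ut21_Sig sB wB n, ∀ O : ValuationSubring F, s34i47_IsHoriz π O →
        s34i47_Through B n' O → y ∈ O ∧ y⁻¹ ∈ O) →
      ∀ O : ValuationSubring F, s34i47_IsHoriz π O → s34i47_Through B n O → T y ∈ O

end ut21i_abs

section ut21i_inst

variable {R K : Type} [CommRing R] [IsDomain R] [IsDiscreteValuationRing R] [Field K]
  [NumberField K] [Algebra R K] [IsFractionRing R K] [Algebra K Q̄]
  (M' q : ℕ) [NeZero M'] [NeZero q] (hq : q.Prime) (hM' : ¬ q ∣ M')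
  [Algebra R ↥(modularFunctionFieldFullC K M')]
  [IsScalarTower R K ↥(modularFunctionFieldFullC K M')]
  [Algebra R ↥(modularFunctionFieldFullC K (M' * q))]
  [IsScalarTower R K ↥(modularFunctionFieldFullC K (M' * q))]

include hq hM' in
/-- **Unit transport on one chart** `B = pk15_chart R s` of level `M' * q` lying over the chart
`B' = pk15_chart R s'` of level `M'`. -/
theorem ut21i_chart {π : R} (hπ : Irreducible π) (hqR : ¬ IsUnit (q : R))
    (σ : K ≃+* K) (hσ : ff50_Frob R q σ)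
    (s' : Set ↥(modularFunctionFieldFullC K M'))
    (s : Set ↥(modularFunctionFieldFullC K (M' * q)))
    (hs'V : ∀ g ∈ s', g ∈ cm85_Vinf (K := K) M' hπ)
    (hBW : ∀ x ∈ pk15_chart R s, x ∈ s34i47c_W (K := K) M' q hq hM' hπ)
    (hsat : ∀ x ∈ pk15_chart R s,
      (algebraMap R ↥(modularFunctionFieldFullC K (M' * q)) π)⁻¹ * x ∈
        s34i47c_W (K := K) M' q hq hM' hπ →
      (algebraMap R ↥(modularFunctionFieldFullC K (M' * q)) π)⁻¹ * x ∈ pk15_chart R s)
    (hα : ∃ f : ↥(pk15_chart R s') →+* ↥(pk15_chart R s),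
      (∀ x : ↥(pk15_chart R s'),
        ((f x : ↥(pk15_chart R s)) : ↥(modularFunctionFieldFullC K (M' * q))) =
          al97L_alpha K M' q (x : ↥(modularFunctionFieldFullC K M'))) ∧ f.IsIntegral)
    (hβ : ∃ f : ↥(pk15_chart R s') →+* ↥(pk15_chart R s),
      (∀ x : ↥(pk15_chart R s'),
        ((f x : ↥(pk15_chart R s)) : ↥(modularFunctionFieldFullC K (M' * q))) =
          al97L_beta K M' q (x : ↥(modularFunctionFieldFullC K M'))) ∧ f.IsIntegral)
    (hwB : ∀ z : ↥(modularFunctionFieldFullC K (M' * q)),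
      bz13_w M' q hq hM' z ∈ pk15_chart R s ↔ z ∈ pk15_chart R s)
    (hsB : ∀ z ∈ pk15_chart R s, s34i47_coeffEquiv σ (M' * q) z ∈ pk15_chart R s)
    (hs'B : ∀ z ∈ pk15_chart R s', s34i47_coeffEquiv σ M' z ∈ pk15_chart R s')
    (hsurj : bi93_Surj (K := K) M' (M' * q) (dvd_mul_right M' q) hπ s' s)
    (N : ↥(modularFunctionFieldFullC K (M' * q)) → ↥(modularFunctionFieldFullC K M'))
    (hNα : ∀ O' : ValuationSubring ↥(modularFunctionFieldFullC K M'), IsPrincipalIdealRing O' →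
      ∀ z : ↥(modularFunctionFieldFullC K (M' * q)),
      (∀ O'' : ValuationSubring ↥(modularFunctionFieldFullC K (M' * q)),
        O''.comap (al97L_alpha K M' q : ↥(modularFunctionFieldFullC K M') →+*
          ↥(modularFunctionFieldFullC K (M' * q))) = O' → z ∈ O'' ∧ z⁻¹ ∈ O'') →
        N z ∈ O' ∧ (N z)⁻¹ ∈ O')
    (hαtop : ∀ O : ValuationSubring ↥(modularFunctionFieldFullC K (M' * q)),
      O.comap (al97L_alpha K M' q : ↥(modularFunctionFieldFullC K M') →+*
        ↥(modularFunctionFieldFullC K (M' * q))) = ⊤ → O = ⊤)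
    (T : ↥(modularFunctionFieldFullC K (M' * q)) →*₀ ↥(modularFunctionFieldFullC K (M' * q)))
    (hT : ∀ x : ↥(modularFunctionFieldFullC K (M' * q)),
      T x = s34i47_coeffEquiv σ (M' * q) (s34i47_coeffEquiv σ (M' * q) x) *
          (bz13_w M' q hq hM' (s34i47_coeffEquiv σ (M' * q) x)) ^ (q + 1) * x ^ q /
        (al97L_alpha K M' q (N (bz13_w M' q hq hM' (s34i47_coeffEquiv σ (M' * q) x))) *
          al97L_beta K M' q (N (s34i47_coeffEquiv σ (M' * q) x)))) :
    ut21i_Transport π (pk15_chart R s) (s34i47_coeffEquiv σ (M' * q)) (bz13_w M' q hq hM') T := by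
  haveI : Algebra.IsAlgebraic K Q̄ := fs85_isAlgebraic K
  obtain ⟨αB, hαB, hαint⟩ := hα
  obtain ⟨βB, hβB, hβint⟩ := hβ
  -- finite order of the coefficientwise action
  obtain ⟨k, hk0, hk⟩ := in87i_finOrder σ
  have hk1 : (s34i47_coeffEquiv σ (M' * q)) ^ k = 1 := by
    rw [in87i_coeffEquiv_eq]; exact in87_aut_pow_eq_one (M' * q) σ k hk
  have hk2 : (s34i47_coeffEquiv σ M') ^ k = 1 := by
    rw [in87i_coeffEquiv_eq]; exact in87_aut_pow_eq_one M' σ k hk
  have hsB' : ∀ z ∈ pk15_chart R s, (s34i47_coeffEquiv σ (M' * q)).symm z ∈ pk15_chart R s :=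
    fun z hz => ut21i_symm_of_pow _ k hk0 hk1 (fun x => x ∈ pk15_chart R s) hsB z hz
  have hs'B' : ∀ z ∈ pk15_chart R s', (s34i47_coeffEquiv σ M').symm z ∈ pk15_chart R s' :=
    fun z hz => ut21i_symm_of_pow _ k hk0 hk2 (fun x => x ∈ pk15_chart R s') hs'B z hz
  have hwB1 : ∀ z ∈ pk15_chart R s, bz13_w M' q hq hM' z ∈ pk15_chart R s :=
    fun z hz => (hwB z).mpr hz
  have hwB2 : ∀ z ∈ pk15_chart R s, (bz13_w M' q hq hM').symm z ∈ pk15_chart R s :=
    fun z hz => hwB1 z hz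
  refine ⟨ut21_res _ (s34i47_coeffEquiv σ (M' * q)) hsB hsB',
    ut21_res _ (bz13_w M' q hq hM') hwB1 hwB2, fun x => rfl, fun x => rfl, ?_⟩
  -- the Frobenius lift on `R`
  have hσ' := ff50_sigmaR_spec σ hσ
  have hfr := nf96_frob_dvd (q := q) hπ σ hσ
  have hp0 : algebraMap R ↥(modularFunctionFieldFullC K (M' * q)) π ≠ 0 := by
    rw [IsScalarTower.algebraMap_apply R K ↥(modularFunctionFieldFullC K (M' * q))]
    intro h0
    have h2 := (map_eq_zero (algebraMap K ↥(modularFunctionFieldFullC K (M' * q)))).mp h0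
    exact hπ.ne_zero (IsFractionRing.injective R K (by rw [h2, map_zero]))
  have hR : ∀ r : R, ∃ r' : R,
      s34i47_coeffEquiv σ (M' * q) (algebraMap R ↥(modularFunctionFieldFullC K (M' * q)) r) =
        algebraMap R ↥(modularFunctionFieldFullC K (M' * q)) r' :=
    fun r => ⟨ff50_sigmaR σ hσ r, fn93_coeff_alg (K := K) (M' * q) σ _ hσ' r⟩
  have hwR : ∀ r : R,
      bz13_w M' q hq hM' (algebraMap R ↥(modularFunctionFieldFullC K (M' * q)) r) =
        algebraMap R ↥(modularFunctionFieldFullC K (M' * q)) r := by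
    intro r
    rw [IsScalarTower.algebraMap_apply R K ↥(modularFunctionFieldFullC K (M' * q)), bz13_w_apply,
      AlgEquiv.commutes]
  have hB'V' : ∀ x ∈ pk15_chart R s', x ∈ cm85_Vinf (K := K) M' hπ :=
    fun x hx => pk15_chart_le_V (cm85_Vinf (K := K) M' hπ) (pk85_hRV M' hπ) s' hs'V x hx
  have hsVf : ∀ x : ↥(modularFunctionFieldFullC K (M' * q)),
      (algebraMap R ↥(modularFunctionFieldFullC K (M' * q)) π)⁻¹ * x ∈
        cm85_Vinf (K := K) (M' * q) hπ →
      (algebraMap R ↥(modularFunctionFieldFullC K (M' * q)) π)⁻¹ *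
        s34i47_coeffEquiv σ (M' * q) x ∈ cm85_Vinf (K := K) (M' * q) hπ :=
    fun x hx => fn93_coeff_pi_mem (K := K) (M' * q) hπ q hq.ne_zero σ _ hσ' hfr x hx
  have hαR : ∀ r : R, (al97L_alpha K M' q : ↥(modularFunctionFieldFullC K M') →+*
      ↥(modularFunctionFieldFullC K (M' * q)))
        (algebraMap R ↥(modularFunctionFieldFullC K M') r) =
      algebraMap R ↥(modularFunctionFieldFullC K (M' * q)) r := fun r => by
    rw [IsScalarTower.algebraMap_apply R K ↥(modularFunctionFieldFullC K M'),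
      IsScalarTower.algebraMap_apply R K ↥(modularFunctionFieldFullC K (M' * q))]
    exact (al97L_alpha K M' q).commutes _
  have hβR : ∀ r : R, (al97L_beta K M' q : ↥(modularFunctionFieldFullC K M') →+*
      ↥(modularFunctionFieldFullC K (M' * q)))
        (algebraMap R ↥(modularFunctionFieldFullC K M') r) =
      algebraMap R ↥(modularFunctionFieldFullC K (M' * q)) r := fun r => by
    rw [IsScalarTower.algebraMap_apply R K ↥(modularFunctionFieldFullC K M'),
      IsScalarTower.algebraMap_apply R K ↥(modularFunctionFieldFullC K (M' * q))]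
    exact (al97L_beta K M' q).commutes _
  exact ut21_htr π hp0 q hq.ne_zero (pk15_chart R s) (pk15_chart R s')
    (cm85_Vinf (K := K) (M' * q) hπ).toSubring (s34i47c_V0 (K := K) M' q hq hM' hπ).toSubring
    (s34i47c_W (K := K) M' q hq hM' hπ)
    (al97L_alpha K M' q : ↥(modularFunctionFieldFullC K M') →+*
      ↥(modularFunctionFieldFullC K (M' * q)))
    (al97L_beta K M' q : ↥(modularFunctionFieldFullC K M') →+*
      ↥(modularFunctionFieldFullC K (M' * q)))
    (s34i47_coeffEquiv σ (M' * q)) (bz13_w M' q hq hM') (s34i47_coeffEquiv σ M')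
    N (fun z => N (bz13_w M' q hq hM' z)) hαR hβR
    (fun x hx => ((s34i47c_mem_W M' q hq hM' hπ x).mp (hBW x hx)).1)
    (fun x hx => (s34i47c_mem_V0 M' q hq hM' hπ x).mpr
      ((s34i47c_mem_W M' q hq hM' hπ x).mp (hBW x hx)).2)
    (fun x h1 h2 => (s34i47c_mem_W M' q hq hM' hπ x).mpr
      ⟨h1, (s34i47c_mem_V0 M' q hq hM' hπ x).mp h2⟩)
    hsat αB βB hαB hβB hαint hβint
    (ut21_res _ (s34i47_coeffEquiv σ (M' * q)) hsB hsB')
    (ut21_res _ (bz13_w M' q hq hM') hwB1 hwB2) (fun x => rfl) (fun x => rfl)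
    (ut21_res _ (s34i47_coeffEquiv σ M') hs'B hs'B') (fun x => rfl)
    (fun a => al97L_w_alpha_apply (algebraMap K Q̄) M' q hq hM' a)
    (fun x => al97L_w_w (algebraMap K Q̄) M' q hq hM' x)
    (fun a => fn93_coeff_alpha (K := K) M' q σ a)
    (fun x => (al97V_w_coeffEquiv (algebraMap K Q̄) M' q hq hM' σ x).symm)
    (hwR π)
    (fun x => s34i47c_mem_V0 M' q hq hM' hπ x)
    (fun x _ => ⟨hsVf x, fun h => by
      have h1 := ut21i_symm_of_pow (s34i47_coeffEquiv σ (M' * q)) k hk0 hk1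
        (fun z => (algebraMap R ↥(modularFunctionFieldFullC K (M' * q)) π)⁻¹ * z ∈
          cm85_Vinf (K := K) (M' * q) hπ) hsVf _ h
      rwa [RingEquiv.symm_apply_apply] at h1⟩)
    (fun x hx => by
      obtain ⟨x', hx', h⟩ := hsurj x hx
      exact ⟨x', hx', h⟩)
    (fun a ha => fn93_kron_inf (K := K) M' q hq hπ hqR σ _ hσ' hfr a (hB'V' a ha))
    (fun O hO => pld32_comap_isHoriz π hπ (s34i47_coeffEquiv σ (M' * q)) hR O hO)
    (fun O hO => pld32_comap_isHoriz π hπ (bz13_w M' q hq hM') (fun r => ⟨r, hwR r⟩) O hO)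
    (fun O h1 h2 h3 => pdi69_hdvr K (M' * q) O h1 (uz37_K_le π hπ O h2 h3))
    (fun O h1 h2 h3 => pdi69_hdvr K M' O h1 (uz37_K_le π hπ O h2 h3))
    hαtop hNα
    (ut21i_normβ _ _ (bz13_w M' q hq hM')
      (fun a => al97L_w_beta_apply (algebraMap K Q̄) M' q hq hM' a) N hNα)
    T hT

include hq hM' in
/-- **Row 563 on the canonical frame**: unit transport for `T` on both affine charts of every
admissible Hauptmodul, for a Frobenius lift `σ`; `N` any map with the unit property of the norm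
along `α`. -/
theorem ut21i_htr {π : R} (hπ : Irreducible π)
    (hunit : ∀ n : ℕ, Nat.Coprime n q → IsUnit (n : R)) (hqR : ¬ IsUnit (q : R))
    (σ : K ≃+* K) (hσ : ff50_Frob R q σ)
    (h : ↥(modularFunctionFieldFullC K (M' * q))) (hh : s34i47c_IsHaupt K (M' * q) q h)
    (N : ↥(modularFunctionFieldFullC K (M' * q)) → ↥(modularFunctionFieldFullC K M'))
    (hNα : ∀ O' : ValuationSubring ↥(modularFunctionFieldFullC K M'), IsPrincipalIdealRing O' →
      ∀ z : ↥(modularFunctionFieldFullC K (M' * q)),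
      (∀ O'' : ValuationSubring ↥(modularFunctionFieldFullC K (M' * q)),
        O''.comap (al97L_alpha K M' q : ↥(modularFunctionFieldFullC K M') →+*
          ↥(modularFunctionFieldFullC K (M' * q))) = O' → z ∈ O'' ∧ z⁻¹ ∈ O'') →
        N z ∈ O' ∧ (N z)⁻¹ ∈ O')
    (hαtop : ∀ O : ValuationSubring ↥(modularFunctionFieldFullC K (M' * q)),
      O.comap (al97L_alpha K M' q : ↥(modularFunctionFieldFullC K M') →+*
        ↥(modularFunctionFieldFullC K (M' * q))) = ⊤ → O = ⊤)
    (T : ↥(modularFunctionFieldFullC K (M' * q)) →*₀ ↥(modularFunctionFieldFullC K (M' * q)))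
    (hT : ∀ x : ↥(modularFunctionFieldFullC K (M' * q)),
      T x = s34i47_coeffEquiv σ (M' * q) (s34i47_coeffEquiv σ (M' * q) x) *
          (bz13_w M' q hq hM' (s34i47_coeffEquiv σ (M' * q) x)) ^ (q + 1) * x ^ q /
        (al97L_alpha K M' q (N (bz13_w M' q hq hM' (s34i47_coeffEquiv σ (M' * q) x))) *
          al97L_beta K M' q (N (s34i47_coeffEquiv σ (M' * q) x)))) :
    ut21i_Transport π (pk15_chart R ({h} : Set ↥(modularFunctionFieldFullC K (M' * q))))
        (s34i47_coeffEquiv σ (M' * q)) (bz13_w M' q hq hM') T ∧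
      ut21i_Transport π (pk15_chart R ({h⁻¹} : Set ↥(modularFunctionFieldFullC K (M' * q))))
        (s34i47_coeffEquiv σ (M' * q)) (bz13_w M' q hq hM') T := by
  haveI : Algebra.IsAlgebraic K Q̄ := fs85_isAlgebraic K
  have hdvd : M' ∣ M' * q := dvd_mul_right M' q
  have hMu : IsUnit (M' : R) := hunit M' ((Nat.Prime.coprime_iff_not_dvd hq).mpr hM').symm
  have hf1 := fl71_F1 (R := R) (K := K) M' q hq hM' hπ hqR
  obtain ⟨hw₁, hw₂, -⟩ := bz13_charts_stable (R := R) M' q hq hM' hunit h hh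
  have hBW₁ := al97C_chart_le_W (R := R) M' q hq hM' hπ h hh {h} (by simp)
  have hBW₂ := al97C_chart_le_W (R := R) M' q hq hM' hπ h hh {h⁻¹} (by simp)
  obtain ⟨-, -, hsat₁, hsat₂, -⟩ := (fs85_frameSat M' q hq hM' R K π hπ hunit hqR).2 h hh
  have hσ' := ff50_sigmaR_spec σ hσ
  have hR : ∀ r : R, ∃ r' : R,
      s34i47_coeffEquiv σ (M' * q) (algebraMap R ↥(modularFunctionFieldFullC K (M' * q)) r) =
        algebraMap R ↥(modularFunctionFieldFullC K (M' * q)) r' :=
    fun r => ⟨ff50_sigmaR σ hσ r, fn93_coeff_alg (K := K) (M' * q) σ _ hσ' r⟩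
  have hR' : ∀ r : R, ∃ r' : R,
      s34i47_coeffEquiv σ M' (algebraMap R ↥(modularFunctionFieldFullC K M') r) =
        algebraMap R ↥(modularFunctionFieldFullC K M') r' :=
    fun r => ⟨ff50_sigmaR σ hσ r, fn93_coeff_alg (K := K) M' σ _ hσ' r⟩
  obtain ⟨hs₁, hs₂, -⟩ := in87i_chart_mem_haupt (R := R) (s34i47_coeffEquiv σ (M' * q)) hR h
    (ff50_haupt M' q σ h hh)
  rcases hh with ⟨hq2, h2, rfl⟩ | ⟨hq3, h3, rfl⟩
  · have hcop : Nat.Coprime 2 q := (Nat.coprime_primes Nat.prime_two hq).mpr (Ne.symm hq2)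
    have h2' : 2 ∣ M' := hcop.dvd_of_dvd_mul_right h2
    obtain ⟨-, -, -, -, hhV, hhV', -⟩ := cm85_facts_level2 (R := R) (K := K) M' hπ h2'
    obtain ⟨⟨hSj₁, -⟩, ⟨hSj₂, -⟩⟩ :=
      bi93_level2 (R := R) (K := K) M' (M' * q) hdvd hπ h2' hMu hf1
    have hhe : al97L_alpha K M' q (pk85_h2 K M' h2') = pk85_h2 K (M' * q) h2 :=
      Subtype.ext (by rw [al97L_alpha_coe, pk85_h2_coe, pk85_h2_coe])
    obtain ⟨hα₁, hα₂⟩ := bc95_alpha (R := R) M' q (pk85_h2 K M' h2') (pk85_h2 K (M' * q) h2) hhe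
    have h2R : IsUnit (2 : R) := by simpa using hunit 2 hcop
    obtain ⟨hβ₁, hβ₂⟩ := bc95_beta_level2 (R := R) M' q hq hq2 h2R h2' (pk85_h2 K M' h2')
      (pk85_h2 K (M' * q) h2) (pk85_h2_coe K M' h2') (pk85_h2_coe K (M' * q) h2)
    obtain ⟨hs'₁, hs'₂, -⟩ := in87i_chart_mem_haupt (R := R) (s34i47_coeffEquiv σ M') hR'
      (pk85_h2 K M' h2') (cm15_coeffEquiv_h2 M' σ h2')
    exact ⟨ut21i_chart M' q hq hM' hπ hqR σ hσ _ _
        (fun g hg => by rw [Set.mem_singleton_iff.mp hg]; exact hhV)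
        hBW₁ hsat₁ hα₁ hβ₁ hw₁ hs₁ hs'₁ hSj₁ N hNα hαtop T hT,
      ut21i_chart M' q hq hM' hπ hqR σ hσ _ _
        (fun g hg => by rw [Set.mem_singleton_iff.mp hg]; exact hhV')
        hBW₂ hsat₂ hα₂ hβ₂ hw₂ hs₂ hs'₂ hSj₂ N hNα hαtop T hT⟩
  · have hcop : Nat.Coprime 3 q := (Nat.coprime_primes Nat.prime_three hq).mpr (Ne.symm hq3)
    have h3' : 3 ∣ M' := hcop.dvd_of_dvd_mul_right h3
    obtain ⟨-, -, -, -, hhV, hhV', -⟩ := cm85_facts_level3 (R := R) (K := K) M' hπ h3'
    obtain ⟨⟨hSj₁, -⟩, ⟨hSj₂, -⟩⟩ :=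
      bi93_level3 (R := R) (K := K) M' (M' * q) hdvd hπ h3' hMu hf1
    have hhe : al97L_alpha K M' q (pk85_h3 K M' h3') = pk85_h3 K (M' * q) h3 :=
      Subtype.ext (by rw [al97L_alpha_coe, pk85_h3_coe, pk85_h3_coe])
    obtain ⟨hα₁, hα₂⟩ := bc95_alpha (R := R) M' q (pk85_h3 K M' h3') (pk85_h3 K (M' * q) h3) hhe
    have h3R : IsUnit (3 : R) := by simpa using hunit 3 hcop
    obtain ⟨hβ₁, hβ₂⟩ := bc95_beta_level3 (R := R) M' q hq hq3 h3R h3' (pk85_h3 K M' h3')
      (pk85_h3 K (M' * q) h3) (pk85_h3_coe K M' h3') (pk85_h3_coe K (M' * q) h3)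
    obtain ⟨hs'₁, hs'₂, -⟩ := in87i_chart_mem_haupt (R := R) (s34i47_coeffEquiv σ M') hR'
      (pk85_h3 K M' h3') (cm15_coeffEquiv_h3 M' σ h3')
    exact ⟨ut21i_chart M' q hq hM' hπ hqR σ hσ _ _
        (fun g hg => by rw [Set.mem_singleton_iff.mp hg]; exact hhV)
        hBW₁ hsat₁ hα₁ hβ₁ hw₁ hs₁ hs'₁ hSj₁ N hNα hαtop T hT,
      ut21i_chart M' q hq hM' hπ hqR σ hσ _ _
        (fun g hg => by rw [Set.mem_singleton_iff.mp hg]; exact hhV')
        hBW₂ hsat₂ hα₂ hβ₂ hw₂ hs₂ hs'₂ hSj₂ N hNα hαtop T hT⟩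

include hq hM' in
/-- **Row 563 on the canonical frame, for the norm**: `ut21i_htr` with `N = Algebra.norm` for
any finite-dimensional algebra structure `F(M')_K → F(M' q)_K` whose `algebraMap` is `α`. -/
theorem ut21i_htr_norm {π : R} (hπ : Irreducible π)
    (hunit : ∀ n : ℕ, Nat.Coprime n q → IsUnit (n : R)) (hqR : ¬ IsUnit (q : R))
    (σ : K ≃+* K) (hσ : ff50_Frob R q σ)
    (h : ↥(modularFunctionFieldFullC K (M' * q))) (hh : s34i47c_IsHaupt K (M' * q) q h)
    [Algebra ↥(modularFunctionFieldFullC K M') ↥(modularFunctionFieldFullC K (M' * q))]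
    [FiniteDimensional ↥(modularFunctionFieldFullC K M') ↥(modularFunctionFieldFullC K (M' * q))]
    (halg : algebraMap ↥(modularFunctionFieldFullC K M') ↥(modularFunctionFieldFullC K (M' * q)) =
      (al97L_alpha K M' q : ↥(modularFunctionFieldFullC K M') →+*
        ↥(modularFunctionFieldFullC K (M' * q))))
    (T : ↥(modularFunctionFieldFullC K (M' * q)) →*₀ ↥(modularFunctionFieldFullC K (M' * q)))
    (hT : ∀ x : ↥(modularFunctionFieldFullC K (M' * q)),
      T x = s34i47_coeffEquiv σ (M' * q) (s34i47_coeffEquiv σ (M' * q) x) *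
          (bz13_w M' q hq hM' (s34i47_coeffEquiv σ (M' * q) x)) ^ (q + 1) * x ^ q /
        (al97L_alpha K M' q (Algebra.norm ↥(modularFunctionFieldFullC K M')
            (bz13_w M' q hq hM' (s34i47_coeffEquiv σ (M' * q) x))) *
          al97L_beta K M' q (Algebra.norm ↥(modularFunctionFieldFullC K M')
            (s34i47_coeffEquiv σ (M' * q) x)))) :
    ut21i_Transport π (pk15_chart R ({h} : Set ↥(modularFunctionFieldFullC K (M' * q))))
        (s34i47_coeffEquiv σ (M' * q)) (bz13_w M' q hq hM') T ∧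
      ut21i_Transport π (pk15_chart R ({h⁻¹} : Set ↥(modularFunctionFieldFullC K (M' * q))))
        (s34i47_coeffEquiv σ (M' * q)) (bz13_w M' q hq hM') T :=
  ut21i_htr M' q hq hM' hπ hunit hqR σ hσ h hh
    (fun z => Algebra.norm ↥(modularFunctionFieldFullC K M') z)
    (by rw [← halg]; exact fun O' hO' z hz => ut21_normProp O' hO' z hz)
    (by rw [← halg]; exact fun O hO => ut21_top O hO) T hT

end ut21i_inst

end Fermat.Agent.S35
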